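import Mathlib
import Fermat.Agent.S30.E4.HeckeNorm
import Fermat.Agent.S37.SwapGal

/-!
# S33 (GEO.AUX): descent of `p`-th powers from level `4N` to level `N`

For every odd prime `p` and every level `N`: an element of `F_N = ℚ̄(j(q^d) : d ∣ N)` which is a
`p`-th power in `F_{4N}` is a `p`-th power in `F_N` (`pow_descent_four`).

One step `ℓ = 2` at a time (`pow_descent_two`), `d = [F_{2N} : F_N] ∈ {2, 3}`:
* `p ∤ d`: norm argument (`exists_pow_eq_of_coprime_finrank`);
* `p = d = 3` (`N` odd): with the swap `w` of `F_{2N}` (`w α = β`, `β = (q ↦ q²)`), `G = w g` is a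
  cube root of `x(q²)`, hence fixed by `q ↦ -q`; the fixed field of `q ↦ -q` in `F_{2N}` is an
  intermediate field of the extension `F_{2N} / β F_N` of prime degree `3` not containing `j`,
  so it is `β F_N`: `G = β g'`, `g = α g'` (`cube_descent`).
-/

set_option autoImplicit false

noncomputable section

open HahnSeries ModularCurve AlgebraicCurve IntermediateField

namespace Fermat.Agent.S33.Geo.AuxDescent

open Fermat.Agent.S30 Fermat.Agent.S30.E4

local notation "Qb" => AlgebraicClosure ℚ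

/-! ### 1. Norm descent -/

/-- If `g ^ p = x` with `x ∈ K`, `g ∈ L` and `p` prime to `[L : K]`, then `x` is a `p`-th power
in `K`. -/
theorem exists_pow_eq_of_coprime_finrank {K L : Type*} [Field K] [Field L] [Algebra K L]
    [Module.Finite K L] (p : ℕ) (hcop : Nat.Coprime p (Module.finrank K L)) (x : K) (g : L)
    (h : g ^ p = algebraMap K L x) : ∃ y : K, y ^ p = x := by
  by_cases hx : x = 0
  · subst hx
    have hp0 : p ≠ 0 := by
      rintro rfl
      rw [pow_zero, map_zero] at h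
      exact one_ne_zero h
    exact ⟨0, zero_pow hp0⟩
  · have hnorm : Algebra.norm K g ^ p = x ^ Module.finrank K L := by
      rw [← map_pow, h, Algebra.norm_algebraMap]
    obtain ⟨a, b, hab⟩ : ∃ a b : ℤ, a * (p : ℤ) + b * (Module.finrank K L : ℤ) = 1 :=
      Nat.isCoprime_iff_coprime.2 hcop
    refine ⟨x ^ a * Algebra.norm K g ^ b, ?_⟩
    have h1 : (x ^ a) ^ p = x ^ (a * (p : ℤ)) := by
      rw [← zpow_natCast (x ^ a) p, ← zpow_mul]
    have h2 : (Algebra.norm K g ^ b) ^ p = x ^ ((Module.finrank K L : ℤ) * b) := by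
      rw [← zpow_natCast (Algebra.norm K g ^ b) p, ← zpow_mul, mul_comm b (p : ℤ), zpow_mul,
        zpow_natCast, hnorm, ← zpow_natCast x (Module.finrank K L), ← zpow_mul]
    rw [mul_pow, h1, h2, ← zpow_add₀ hx]
    have h3 : a * (p : ℤ) + (Module.finrank K L : ℤ) * b = 1 := by linarith
    rw [h3, zpow_one]

/-! ### 2. The degree of one step -/

/-- `[F_{Nℓ} : F_N] = ℓ` for a prime `ℓ ∣ N`. -/
theorem finrankAlong_alpha_of_dvd (N ℓ : ℕ) [NeZero N] [NeZero ℓ] (hℓ : ℓ.Prime) (hℓN : ℓ ∣ N) :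
    finrankAlong Qb (heckeAlphaBar Qb N ℓ) = ℓ := by
  have hfin : Module.Finite Qb⟮Fermat.Agent.S24.Modular.jF N⟯ (Fermat.Agent.S24.Modular.FN N) :=
    Fermat.Agent.S24.Modular.finite_jF N
  have h1 := Fermat.Agent.S24.Modular.finrank_jF N
  have hpos : 0 < ModularCurve.dedekindPsi N := by
    rw [← h1]
    exact Module.finrank_pos
  have hj : heckeAlphaBar Qb N ℓ (Fermat.Agent.S24.Modular.jF N)
      = Fermat.Agent.S24.Modular.jF (N * ℓ) := Subtype.ext rfl
  refine HeckeNorm.finrankAlong_eq (heckeAlphaBar Qb N ℓ) (Fermat.Agent.S24.Modular.jF N)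
    (ModularCurve.dedekindPsi N) ℓ hpos.ne' h1 ?_
  rw [hj, Fermat.Agent.S24.Modular.finrank_jF (N * ℓ),
    Fermat.Agent.Lib.Gamma0Counts.dedekindPsi_mul_prime_of_dvd (NeZero.ne N) hℓ hℓN]

/-- The degree along `w ∘ α` is the degree along `α`. -/
theorem finrankAlong_eq_of_equiv {K F E : Type*} [Field K] [Field F] [Field E] [Algebra K F]
    [Algebra K E] (α β : F →ₐ[K] E) (w : E ≃ₐ[K] E) (hw : ∀ f, w (α f) = β f) :
    finrankAlong K β = finrankAlong K α :=
  (@Algebra.finrank_eq_of_equiv_equiv F E _ _ (algebraAlong α) F E _ _ (algebraAlong β)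
    (RingEquiv.refl F) w.toRingEquiv (by ext f; exact (hw f).symm)).symm

/-! ### 3. A step of degree prime to `p` -/

theorem pow_descent_of_coprime (N ℓ p : ℕ) [NeZero N] [NeZero ℓ]
    (hd : 0 < finrankAlong Qb (heckeAlphaBar Qb N ℓ))
    (hcop : Nat.Coprime p (finrankAlong Qb (heckeAlphaBar Qb N ℓ)))
    (x : Fb N) (g : Fb (N * ℓ)) (h : g ^ p = heckeAlphaBar Qb N ℓ x) :
    ∃ g' : Fb N, g' ^ p = x := by
  letI : Algebra (Fb N) (Fb (N * ℓ)) := algebraAlong (heckeAlphaBar Qb N ℓ)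
  haveI : Module.Finite (Fb N) (Fb (N * ℓ)) := Module.finite_of_finrank_pos hd
  exact exists_pow_eq_of_coprime_finrank p hcop x g h

/-! ### 4. The substitution `q ↦ -q` and cube roots -/

/-- The substitution `q ↦ -q` on Laurent series. -/
def sgn : LaurentSeries Qb →+* LaurentSeries Qb := Congr.rescale (-1 : Qbˣ)

theorem coeff_sgn (y : LaurentSeries Qb) (n : ℤ) :
    (sgn y).coeff n = (((-1 : Qbˣ) ^ n : Qbˣ) : Qb) * y.coeff n := rfl

theorem sgn_sgn (y : LaurentSeries Qb) : sgn (sgn y) = y := by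
  unfold sgn
  rw [← Congr.rescale_mul_apply, show (-1 : Qbˣ) * (-1) = 1 by simp, Congr.rescale_one]

theorem sgn_C (c : Qb) : sgn (HahnSeries.C c) = HahnSeries.C c := by
  ext n
  rw [coeff_sgn]
  by_cases hn : n = 0
  · subst hn
    simp
  · have h0 : (HahnSeries.C c : LaurentSeries Qb).coeff n = 0 :=
      HahnSeries.coeff_single_of_ne hn
    rw [h0, mul_zero]

theorem sgn_qExpand_two (y : LaurentSeries Qb) : sgn (qExpand Qb 2 y) = qExpand Qb 2 y := by
  ext n
  rw [coeff_sgn]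
  by_cases hn : (2 : ℤ) ∣ n
  · obtain ⟨m, rfl⟩ := hn
    have h1 : ((-1 : Qbˣ) ^ (2 * m) : Qbˣ) = 1 := by
      rw [zpow_mul]
      simp
    rw [h1, Units.val_one, one_mul]
  · have h0 : (qExpand Qb 2 y).coeff n = 0 :=
      qExpand_coeff_of_not_dvd 2 y (by simpa using hn)
    rw [h0, mul_zero]

/-- A series whose cube is fixed by `q ↦ -q` is fixed by `q ↦ -q`. -/
theorem sgn_eq_of_pow_three {G : LaurentSeries Qb} (hG : sgn (G ^ 3) = G ^ 3) : sgn G = G := by
  by_cases hG0 : G = 0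
  · rw [hG0, map_zero]
  obtain ⟨ω, hω⟩ := HasEnoughRootsOfUnity.exists_primitiveRoot Qb 3
  have hωC : IsPrimitiveRoot (HahnSeries.C ω : LaurentSeries Qb) 3 :=
    hω.map_of_injective HahnSeries.C_injective
  have hζ : (sgn G / G) ^ 3 = 1 := by
    rw [div_pow, ← map_pow, hG, div_self (pow_ne_zero 3 hG0)]
  obtain ⟨i, hi, hiζ⟩ := hωC.eq_pow_of_pow_eq_one hζ
  have h1 : sgn G = HahnSeries.C (ω ^ i) * G := by
    rw [map_pow, hiζ, div_mul_cancel₀ _ hG0]
  have h2 : G = HahnSeries.C (ω ^ i) * (HahnSeries.C (ω ^ i) * G) := by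
    conv_lhs => rw [← sgn_sgn G, h1, map_mul, sgn_C, h1]
  have h3 : HahnSeries.C (ω ^ i) * HahnSeries.C (ω ^ i) = (1 : LaurentSeries Qb) := by
    have h4 : (HahnSeries.C (ω ^ i) * HahnSeries.C (ω ^ i) - 1) * G = 0 := by
      rw [sub_mul, one_mul, mul_assoc, ← h2, sub_self]
    rcases mul_eq_zero.1 h4 with h | h
    · exact sub_eq_zero.1 h
    · exact absurd h hG0
  have h5 : ω ^ (i * 2) = 1 := by
    rw [← map_mul, ← pow_two, ← pow_mul] at h3
    exact HahnSeries.C_injective (by rw [h3, map_one])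
  have h6 : 3 ∣ i * 2 := (hω.pow_eq_one_iff_dvd _).1 h5
  have h7 : i = 0 := by omega
  rw [h1, h7, pow_zero, map_one, one_mul]

/-! ### 5. The step of degree `3` for `p = 3` -/

theorem cube_descent (N : ℕ) [NeZero N] (h2N : ¬ 2 ∣ N) (x : Fb N) (g : Fb (N * 2))
    (h : g ^ 3 = heckeAlphaBar Qb N 2 x) : ∃ g' : Fb N, g' ^ 3 = x := by
  obtain ⟨w, hw1, hw2, hw3, -, -, -⟩ :=
    Fermat.Agent.S37.SwapGal.exists_swap_gal_j N 2 Nat.prime_two h2N
  obtain ⟨G, hGdef⟩ : ∃ G : Fb (N * 2), G = w g := ⟨_, rfl⟩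
  have hG3 : G ^ 3 = heckeBetaBar Qb N 2 x := by rw [hGdef, ← map_pow, h, hw1]
  have hGs : sgn (G : LaurentSeries Qb) = (G : LaurentSeries Qb) := by
    apply sgn_eq_of_pow_three
    have h1 : (G : LaurentSeries Qb) ^ 3 = qExpand Qb 2 (x : LaurentSeries Qb) := by
      have h2 := congrArg (fun y : Fb (N * 2) => (y : LaurentSeries Qb)) hG3
      simpa using h2
    rw [h1, sgn_qExpand_two]
  letI : Algebra (Fb N) (Fb (N * 2)) := algebraAlong (heckeBetaBar Qb N 2)
  have hdeg : Module.finrank (Fb N) (Fb (N * 2)) = 3 := by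
    have h3 : finrankAlong Qb (heckeAlphaBar Qb N 2) = 2 + 1 :=
      HeckeNorm.finrankAlong_alpha N 2 Nat.prime_two h2N
    exact (finrankAlong_eq_of_equiv (heckeAlphaBar Qb N 2) (heckeBetaBar Qb N 2) w hw1).trans h3
  haveI : IsSimpleOrder (IntermediateField (Fb N) (Fb (N * 2))) :=
    IntermediateField.isSimpleOrder_of_finrank_prime (Fb N) (Fb (N * 2))
      (by rw [hdeg]; exact Nat.prime_three)
  let φ₁ : Fb (N * 2) →+* LaurentSeries Qb := sgn.comp (Fb (N * 2)).val.toRingHom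
  let φ₂ : Fb (N * 2) →+* LaurentSeries Qb := (Fb (N * 2)).val.toRingHom
  let E' : IntermediateField (Fb N) (Fb (N * 2)) :=
    (φ₁.eqLocusField φ₂).toIntermediateField (fun f => by
      show sgn ((heckeBetaBar Qb N 2 f : Fb (N * 2)) : LaurentSeries Qb)
        = ((heckeBetaBar Qb N 2 f : Fb (N * 2)) : LaurentSeries Qb)
      rw [coe_heckeBetaBar, sgn_qExpand_two])
  have hGE : G ∈ E' := hGs
  rcases eq_bot_or_eq_top E' with hE | hE
  · rw [hE, IntermediateField.mem_bot] at hGE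
    obtain ⟨g', hg'⟩ := hGE
    have hg'' : heckeBetaBar Qb N 2 g' = G := hg'
    refine ⟨g', ?_⟩
    have hg : g = heckeAlphaBar Qb N 2 g' := by
      have h1 : w G = w (heckeBetaBar Qb N 2 g') := by rw [hg'']
      rw [hGdef, hw3, hw2] at h1
      exact h1
    apply (heckeAlphaBar Qb N 2 : Fb N →+* Fb (N * 2)).injective
    rw [map_pow]
    show (heckeAlphaBar Qb N 2 g') ^ 3 = heckeAlphaBar Qb N 2 x
    rw [← hg, h]
  · exfalso
    have hj : Fermat.Agent.S24.DegreeGen.jBar (N * 2) ∈ E' := by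
      rw [hE]
      exact IntermediateField.mem_top
    have hj' : sgn (coeffEmb Qb jq) = coeffEmb Qb jq := hj
    have h1 := congrArg (fun y : LaurentSeries Qb => y.coeff (-1)) hj'
    simp only [coeff_sgn, Fermat.Agent.S24.DegreeGen.coeffEmb_jq_coeff_neg_one] at h1
    norm_num at h1

/-! ### 6. The descent -/

/-- **(AUX), one step.**  For an odd prime `p`, an element of `F_N` which is a `p`-th power in
`F_{2N}` is a `p`-th power in `F_N`. -/
theorem pow_descent_two (N p : ℕ) [NeZero N] (hp : p.Prime) (hp2 : p ≠ 2) (x : Fb N)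
    (g : Fb (N * 2)) (h : g ^ p = heckeAlphaBar Qb N 2 x) : ∃ g' : Fb N, g' ^ p = x := by
  by_cases h2N : 2 ∣ N
  · have hd : finrankAlong Qb (heckeAlphaBar Qb N 2) = 2 :=
      finrankAlong_alpha_of_dvd N 2 Nat.prime_two h2N
    refine pow_descent_of_coprime N 2 p (by rw [hd]; norm_num) ?_ x g h
    rw [hd]
    exact (Nat.coprime_primes hp Nat.prime_two).2 hp2
  · have hd : finrankAlong Qb (heckeAlphaBar Qb N 2) = 2 + 1 :=
      HeckeNorm.finrankAlong_alpha N 2 Nat.prime_two h2N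
    by_cases hp3 : p = 3
    · subst hp3
      exact cube_descent N h2N x g h
    · refine pow_descent_of_coprime N 2 p (by rw [hd]; norm_num) ?_ x g h
      rw [hd]
      exact (Nat.coprime_primes hp Nat.prime_three).2 hp3

/-- **(AUX).**  For an odd prime `p`, an element of `F_N` which is a `p`-th power in `F_{4N}`
(as a `q`-series) is a `p`-th power in `F_N`. -/
theorem pow_descent_four (N p : ℕ) [NeZero N] (hp : p.Prime) (hp2 : p ≠ 2) (x : Fb N)
    (g : Fb (N * 2 * 2)) (h : (g : LaurentSeries Qb) ^ p = (x : LaurentSeries Qb)) :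
    ∃ g' : Fb N, g' ^ p = x := by
  obtain ⟨g₁, hg₁⟩ := pow_descent_two (N * 2) p hp hp2 (heckeAlphaBar Qb N 2 x) g
    (Subtype.ext (by
      rw [coe_heckeAlphaBar, coe_heckeAlphaBar]
      exact h))
  exact pow_descent_two N p hp hp2 x g₁ hg₁

end Fermat.Agent.S33.Geo.AuxDescent
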