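import Mathlib
import Fermat.Agent.S30.Producer.ToESData
import Fermat.Agent.S30.Congr
import Fermat.Agent.S30.E4.Defs
import Fermat.Prelude.Def_ModularCurve_HeckeOperator

/-!
# S33 (ordinary at `p` when `p ∥ N`): the geometric contract

Statement-level file (helper228, S33 GEO architect).  No proofs: the `Prop`s below are the
interface between the finite-level linear algebra (`S33/Lat/*`) and the geometry
(`S33/Geo/*`).  Route: `origin/helper228:notes/helper228/S33_route.md`, amended by GeoII0.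

Notation: level `N' * p` with `p ∤ N'`, `K` a Kummer system of that level (`S30/Producer`),
`A` a valuation subring of `ℚ̄` over `p`, `I` its inertia group, `w` the Atkin–Lehner swap at
`p` (`S37/SwapGal.exists_swap_gal`), `v_∞` the Gauss valuation of `A` on `q`-expansions and
`v_0 = v_∞ ∘ w`.

* `OneUnit N A u`   : `u` is a Gauss unit of reduction `1` (`u = U / V`, `Ū = V̄ ≠ 0`).
* `TrivAt N A p n x`: `x = c · g ^ (p ^ n) · u` with `c` a nonzero constant and `u` a one-unit.
* `InX K A w n c`   : the Kummer class `c` of exponent `p ^ n` has a Kummer function `x` with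
  `x` and `w x` both `n`-trivial (the class lies in the kernel of reduction `𝒳_n`).
* `SubStatement`, `GAStatement`, `SATStatement` : `𝒳_n` is a subgroup; `τ c - c ∈ 𝒳_n` for `τ`
  in inertia; saturation in the one-step form.
* `GeoI`   : an inertia-invariant class of `𝒳_1` is zero.
* `GeoII0` : if `c ∈ 𝒳_1` and every `σ c - c` (`σ ∈ I`) is an `ω`-eigenclass of `I`, then `c` is
  fixed by the elements of `I` that fix the `p`-th roots of unity.
* `KDiv K`  : the Kummer functions of `K` have divisor divisible by `p ^ n` (true for the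
  concrete system `S30/Producer/Assembly.kummerSystem`; not a consequence of the axioms).
* `GaSatStatement`, `GeoIStatement`, `GeoII0Statement` : the three targets of the geometric rows.
* `GeoExit N' p` : there is a Kummer system for which all five statements hold at every `A`
  over `p`; `geoExit_of` is the (trivial) assembly.
-/

set_option autoImplicit false

open HahnSeries ModularCurve

namespace Fermat.Agent.S33.Geo.Contract

open Fermat.Agent.S30 Fermat.Agent.S30.Producer

/-- The Atkin–Lehner swap at `p` of level `N' * p`: it exchanges the two degeneracy maps, is an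
involution and commutes with the coefficientwise Galois action. -/
structure IsSwap (N' p : ℕ) [NeZero N'] [NeZero p]
    (w : FN (N' * p) ≃ₐ[Qb] FN (N' * p)) : Prop where
  alpha : ∀ f : FN N', w (heckeAlphaBar Qb N' p f) = heckeBetaBar Qb N' p f
  beta : ∀ f : FN N', w (heckeBetaBar Qb N' p f) = heckeAlphaBar Qb N' p f
  invol : ∀ z : FN (N' * p), w (w z) = z
  gal : ∀ (σ : GQ) (z : FN (N' * p)), w (galF (N' * p) σ z) = galF (N' * p) σ (w z)

/-- `u` is a Gauss unit of reduction `1` at `A`: `u = U / V` with `U`, `V` integral `q`-series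
having the same nonzero reduction. -/
def OneUnit (N : ℕ) (A : ValuationSubring Qb) (u : FN N) : Prop :=
  ∃ U V : LaurentSeries A, Congr.red A V ≠ 0 ∧ Congr.red A U = Congr.red A V ∧
    (u : LaurentSeries Qb) * Congr.incl A V = Congr.incl A U

/-- `x` is `n`-trivial at the Gauss valuation of `A`: a nonzero constant times a `p ^ n`-th
power times a one-unit. -/
def TrivAt (N : ℕ) (A : ValuationSubring Qb) (p n : ℕ) (x : FN N) : Prop :=
  ∃ (c : Qb) (g u : FN N), c ≠ 0 ∧ g ≠ 0 ∧ OneUnit N A u ∧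
    x = algebraMap Qb (FN N) c * g ^ (p ^ n) * u

section

variable {N' p : ℕ} [NeZero N'] [NeZero p] [Fact p.Prime]

/-- The class `c` of exponent `p ^ n` lies in `𝒳_n`: it has a Kummer function which is
`n`-trivial at both Gauss valuations `v_∞` and `v_0 = v_∞ ∘ w`. -/
def InX (K : KummerSystem (N' * p) p) (A : ValuationSubring Qb)
    (w : FN (N' * p) ≃ₐ[Qb] FN (N' * p)) (n : ℕ) (c : K.A →+ ZMod (p ^ n)) : Prop :=
  ∃ x : FN (N' * p), K.R n x c ∧ TrivAt (N' * p) A p n x ∧ TrivAt (N' * p) A p n (w x)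

/-- `𝒳_n` is a subgroup. -/
def SubStatement (K : KummerSystem (N' * p) p) (A : ValuationSubring Qb)
    (w : FN (N' * p) ≃ₐ[Qb] FN (N' * p)) : Prop :=
  ∀ n : ℕ, InX K A w n 0 ∧
    (∀ c d : K.A →+ ZMod (p ^ n), InX K A w n c → InX K A w n d → InX K A w n (c + d)) ∧
    ∀ c : K.A →+ ZMod (p ^ n), InX K A w n c → InX K A w n (-c)

/-- **(GA)** `τ c - c ∈ 𝒳_n` for every class `c` and every `τ` in the inertia group. -/
def GAStatement (K : KummerSystem (N' * p) p) (A : ValuationSubring Qb)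
    (w : FN (N' * p) ≃ₐ[Qb] FN (N' * p)) : Prop :=
  ∀ (n : ℕ) (c : K.A →+ ZMod (p ^ n)) (τ : GQ), τ ∈ A.inertiaSubgroupIn ℚ →
    InX K A w n (K.act n τ c - c)

/-- **(SAT)**, one-step form: if `p ^ (n + 1) • c ∈ 𝒳_(n+2)` then
`p ^ n • (c mod p ^ (n + 1)) ∈ 𝒳_(n+1)`. -/
def SATStatement (K : KummerSystem (N' * p) p) (A : ValuationSubring Qb)
    (w : FN (N' * p) ≃ₐ[Qb] FN (N' * p)) : Prop :=
  ∀ (n : ℕ) (c : K.A →+ ZMod (p ^ (n + 2))), InX K A w (n + 2) (p ^ (n + 1) • c) →
    InX K A w (n + 1) (p ^ n • BettiLimit.red K.A p (n + 1) c)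

/-- **(GEO-i)** An inertia-invariant class of `𝒳_1` is zero. -/
def GeoI (K : KummerSystem (N' * p) p) (A : ValuationSubring Qb)
    (w : FN (N' * p) ≃ₐ[Qb] FN (N' * p)) : Prop :=
  ∀ c : K.A →+ ZMod (p ^ 1), InX K A w 1 c →
    (∀ τ : GQ, τ ∈ A.inertiaSubgroupIn ℚ → K.act 1 τ c = c) → c = 0

/-- **(GEO-ii₀)** If `c ∈ 𝒳_1` and every `σ c - c`, `σ` in the inertia group `I`, is an
`ω`-eigenclass of `I` (`τ (σ c - c) = a • (σ c - c)` whenever `τ` acts on the `p`-th roots of
unity by `μ ↦ μ ^ a`), then `c` is fixed by the elements of `I` fixing the `p`-th roots of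
unity. -/
def GeoII0 (K : KummerSystem (N' * p) p) (A : ValuationSubring Qb)
    (w : FN (N' * p) ≃ₐ[Qb] FN (N' * p)) : Prop :=
  ∀ c : K.A →+ ZMod (p ^ 1), InX K A w 1 c →
    (∀ σ : GQ, σ ∈ A.inertiaSubgroupIn ℚ → ∀ τ : GQ, τ ∈ A.inertiaSubgroupIn ℚ →
      ∀ a : ℕ, (∀ μ : Qb, μ ^ p = 1 → τ μ = μ ^ a) →
        K.act 1 τ (K.act 1 σ c - c) = a • (K.act 1 σ c - c)) →
    ∀ σ : GQ, σ ∈ A.inertiaSubgroupIn ℚ → (∀ μ : Qb, μ ^ p = 1 → σ μ = μ) → K.act 1 σ c = c

end

/-- The Kummer functions of `K` have divisor divisible by `p ^ n` (a property of the concrete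
Kummer system, used by the geometric rows; it does not follow from the axioms of
`KummerSystem`). -/
def KDiv {N' p : ℕ} [NeZero N'] [NeZero p] [Fact p.Prime] (K : KummerSystem (N' * p) p) : Prop :=
  ∀ (n : ℕ) (f : FN (N' * p)) (c : K.A →+ ZMod (p ^ n)), K.R n f c →
    E4.DivBy (N' * p) (p ^ n) f

/-- Target of the row GA/SAT: subgroup, (GA) and (SAT), for every Kummer system, every
valuation subring over `p` and every swap. -/
def GaSatStatement (N' p : ℕ) [NeZero N'] [NeZero p] [Fact p.Prime] : Prop :=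
  ∀ (K : KummerSystem (N' * p) p) (A : ValuationSubring Qb), A.LiesOverPrime p →
    ∀ w : FN (N' * p) ≃ₐ[Qb] FN (N' * p), IsSwap N' p w →
      SubStatement K A w ∧ GAStatement K A w ∧ SATStatement K A w

/-- Target of the row GEO-i. -/
def GeoIStatement (N' p : ℕ) [NeZero N'] [NeZero p] [Fact p.Prime] : Prop :=
  p ≠ 2 → ¬ p ∣ N' → ∀ K : KummerSystem (N' * p) p, KDiv K →
    ∀ A : ValuationSubring Qb, A.LiesOverPrime p →
      ∀ w : FN (N' * p) ≃ₐ[Qb] FN (N' * p), IsSwap N' p w → GeoI K A w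

/-- Target of the row GEO-ii₀. -/
def GeoII0Statement (N' p : ℕ) [NeZero N'] [NeZero p] [Fact p.Prime] : Prop :=
  p ≠ 2 → ¬ p ∣ N' → ∀ K : KummerSystem (N' * p) p, KDiv K →
    ∀ A : ValuationSubring Qb, A.LiesOverPrime p →
      ∀ w : FN (N' * p) ≃ₐ[Qb] FN (N' * p), IsSwap N' p w → GeoII0 K A w

/-- **The geometric exit of S33** at level `N' * p`: there is a Kummer system such that, at
every valuation subring over `p`, the five statements hold for some swap. -/
def GeoExit (N' p : ℕ) [NeZero N'] [NeZero p] [Fact p.Prime] : Prop :=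
  ∃ K : KummerSystem (N' * p) p, ∀ A : ValuationSubring Qb, A.LiesOverPrime p →
    ∃ w : FN (N' * p) ≃ₐ[Qb] FN (N' * p),
      SubStatement K A w ∧ GAStatement K A w ∧ SATStatement K A w ∧ GeoI K A w ∧ GeoII0 K A w

/-- The assembly of the geometric exit. -/
theorem geoExit_of {N' p : ℕ} [NeZero N'] [NeZero p] [Fact p.Prime] (hp2 : p ≠ 2)
    (hpN' : ¬ p ∣ N') (hK : ∃ K : KummerSystem (N' * p) p, KDiv K)
    (hw : ∃ w : FN (N' * p) ≃ₐ[Qb] FN (N' * p), IsSwap N' p w)
    (hGS : GaSatStatement N' p) (hI : GeoIStatement N' p) (hII : GeoII0Statement N' p) :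
    GeoExit N' p := by
  obtain ⟨K, hKd⟩ := hK
  obtain ⟨w, hsw⟩ := hw
  refine ⟨K, fun A hA => ⟨w, ?_⟩⟩
  obtain ⟨h1, h2, h3⟩ := hGS K A hA w hsw
  exact ⟨h1, h2, h3, hI hp2 hpN' K hKd A hA w hsw, hII hp2 hpN' K hKd A hA w hsw⟩

end Fermat.Agent.S33.Geo.Contract
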