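/-
S33 (ordinary at `p ∥ N`), strand GEO, row AUX, second seat (helper140): the RESTRICTION LEMMAS
along the level map `lvl hNM : Fb N →ₐ[ℚ̄] Fb M` (`N ∣ M`, inclusion of subfields of `ℚ̄((q))`;
landed `S37/LevelPull`), in the vocabulary of the landed `S33/Geo/Contract`.

* `galF_lvl`     : the coefficientwise Galois action commutes with `lvl`;
* `oneUnit_lvl`, `trivAt_lvl` : one-units / `TrivAt` do not see the level;
* `divBy_lvl`    : `m ∣ div f` persists when the level is raised;
* `algHom_ext_gen` : a `ℚ̄`-algebra map out of `F_N` is determined by its values on the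
  generators `j(q^d)`, `d ∣ N`;
* `swap_lvl_of_gen`, `swap_lvl`, `isSwap_lvl` : the Atkin–Lehner swaps at `p` of the levels
  `N' p ∣ M' p` are compatible with `lvl` (for ANY two swaps with the generator clauses of
  `S37/SwapGal.exists_swap_gal`, resp. the `α / β` clauses, resp. `Contract.IsSwap`);
* `exists_isSwap` : a swap exists at every level `N' p`, `p ∤ N'`;
* `transfer`     : `(∀ y : F_M, Good_M y → y ∈ F_M^p)` + descent of `p`-th powers
  ⟹ `(∀ x : F_N, Good_N x → x ∈ F_N^p)`.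
-/
import Mathlib
import Fermat.Agent.S33.Geo.Contract
import Fermat.Agent.S37.LevelPull
import Fermat.Agent.S37.SwapGal
import Fermat.Agent.Lib.PlaceRes

set_option autoImplicit false
set_option linter.style.haveILetI false

noncomputable section

open HahnSeries ModularCurve AlgebraicCurve

namespace Fermat.Agent.S33.Geo.AuxRes

open Fermat.Agent.S30 Fermat.Agent.S30.Producer Fermat.Agent.S37.LevelPull
open Fermat.Agent.S24.Theta Fermat.Agent.S33.Geo.Contract

section Level

variable {N M : ℕ} [NeZero N] [NeZero M] (hNM : N ∣ M)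

/-- The level map is injective. -/
theorem lvl_injective : Function.Injective (lvl hNM) := (lvl hNM).injective

theorem lvl_ne_zero {x : FN N} (hx : x ≠ 0) : lvl hNM x ≠ 0 :=
  (map_ne_zero_iff _ (lvl_injective hNM)).mpr hx

/-- The coefficientwise Galois action commutes with the level map. -/
theorem galF_lvl (σ : GQ) (x : FN N) : galF M σ (lvl hNM x) = lvl hNM (galF N σ x) := by
  apply Subtype.ext
  rw [coe_galF, coe_lvl, coe_lvl, coe_galF]

/-- One-units do not see the level. -/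
theorem oneUnit_lvl {A : ValuationSubring Qb} {u : FN N} (h : OneUnit N A u) :
    OneUnit M A (lvl hNM u) := by
  obtain ⟨U, V, hV, hr, he⟩ := h
  exact ⟨U, V, hV, hr, by rw [coe_lvl]; exact he⟩

theorem oneUnit_of_lvl {A : ValuationSubring Qb} {u : FN N} (h : OneUnit M A (lvl hNM u)) :
    OneUnit N A u := by
  obtain ⟨U, V, hV, hr, he⟩ := h
  exact ⟨U, V, hV, hr, by rw [coe_lvl] at he; exact he⟩

/-- `TrivAt` persists when the level is raised. -/
theorem trivAt_lvl {A : ValuationSubring Qb} {p n : ℕ} {x : FN N} (h : TrivAt N A p n x) :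
    TrivAt M A p n (lvl hNM x) := by
  obtain ⟨c, g, u, hc, hg, hu, hx⟩ := h
  refine ⟨c, lvl hNM g, lvl hNM u, hc, lvl_ne_zero hNM hg, oneUnit_lvl hNM hu, ?_⟩
  rw [hx, map_mul, map_mul, map_pow, AlgHom.commutes]

/-- `m ∣ div f` persists when the level is raised. -/
theorem divBy_lvl {m : ℕ} (f : FN N) (hdiv : E4.DivBy N m f) : E4.DivBy M m (lvl hNM f) := by
  letI := algebraAlong (lvl hNM)
  haveI := isScalarTower_along (lvl hNM)
  haveI : Algebra.IsIntegral (modularFunctionFieldBar N) (modularFunctionFieldBar M) :=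
    isIntegral_along (lvl hNM) (lvl_isIntegral hNM)
  haveI : Algebra.IsAlgebraic (modularFunctionFieldBar N) (modularFunctionFieldBar M) :=
    Algebra.IsIntegral.isAlgebraic
  intro Q
  obtain ⟨P, e, -, hPe⟩ := Fermat.Agent.Lib.PlaceRes.exists_place_below (K := Qb)
    (L := modularFunctionFieldBar N) (M := modularFunctionFieldBar M) Q
  have h1 : Q.ord (lvl hNM f) = e * P.ord f := hPe f
  rw [h1]
  exact Dvd.dvd.mul_left (hdiv P) _

/-- The level map on the generators `j(q^d)`. -/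
theorem lvl_gen (d : ℕ) [NeZero d] (hd : d ∣ N) :
    lvl hNM ((gen N d hd : A0 N) : FN N) = ((gen M d (hd.trans hNM) : A0 M) : FN M) := by
  apply Subtype.ext
  rw [coe_lvl, coe_gen, coe_gen]

end Level

/-! ### Maps out of `F_N` are determined by the generators -/

/-- A `ℚ̄`-algebra map out of `F_N` is determined by its values on the generators `j(q^d)`. -/
theorem algHom_ext_gen {N : ℕ} [NeZero N] {E : Type*} [Field E] [Algebra Qb E]
    (φ ψ : FN N →ₐ[Qb] E)
    (h : ∀ (d : ℕ) [NeZero d] (hd : d ∣ N),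
      φ ((gen N d hd : A0 N) : FN N) = ψ ((gen N d hd : A0 N) : FN N)) : φ = ψ := by
  have hA : ∀ a : A0 N, φ (a : FN N) = ψ (a : FN N) := by
    intro a
    refine A0_induction (p := fun a : A0 N => φ (a : FN N) = ψ (a : FN N)) ?_ ?_ ?_ ?_ a
    · intro d _ hd
      exact h d hd
    · intro c
      have hc : ((algebraMap Qb (A0 N) c : A0 N) : FN N) = algebraMap Qb (FN N) c := rfl
      rw [hc, AlgHom.commutes, AlgHom.commutes]
    · intro x y hx hy
      have hc : ((x + y : A0 N) : FN N) = (x : FN N) + (y : FN N) := rfl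
      rw [hc, map_add, map_add, hx, hy]
    · intro x y hx hy
      have hc : ((x * y : A0 N) : FN N) = (x : FN N) * (y : FN N) := rfl
      rw [hc, map_mul, map_mul, hx, hy]
  refine AlgHom.ext fun z => ?_
  obtain ⟨a, b, hb, hab⟩ := exists_mul_eq z
  have h1 : φ z * φ (b : FN N) = ψ z * ψ (b : FN N) := by
    rw [← map_mul, ← map_mul, hab, hA a]
  rw [hA b] at h1
  have hb' : ψ (b : FN N) ≠ 0 := (map_ne_zero_iff _ ψ.injective).mpr hb
  exact mul_right_cancel₀ hb' h1

/-! ### The Atkin–Lehner swap and the level map -/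

section Swap

variable {N' M' p : ℕ} [NeZero N'] [NeZero M'] [NeZero p]

/-- The Atkin–Lehner swaps at `p` of the levels `N' p ∣ M' p` are compatible with the level
map: any `ℚ̄`-algebra automorphisms `wN`, `wM` with the generator clauses of
`S37/SwapGal.exists_swap_gal` satisfy `wM ∘ lvl = lvl ∘ wN`. -/
theorem swap_lvl_of_gen (hp : p.Prime) (hNM : N' ∣ M')
    (wN : FN (N' * p) ≃ₐ[Qb] FN (N' * p)) (wM : FN (M' * p) ≃ₐ[Qb] FN (M' * p))
    (hN1 : ∀ (d : ℕ) [NeZero d] (hd : d ∣ N'),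
      wN ((gen (N' * p) d (Dvd.dvd.mul_right hd p) : A0 (N' * p)) : FN (N' * p))
        = ((gen (N' * p) (d * p) (mul_dvd_mul_right hd p) : A0 (N' * p)) : FN (N' * p)))
    (hN2 : ∀ (d : ℕ) [NeZero d] (hd : d ∣ N'),
      wN ((gen (N' * p) (d * p) (mul_dvd_mul_right hd p) : A0 (N' * p)) : FN (N' * p))
        = ((gen (N' * p) d (Dvd.dvd.mul_right hd p) : A0 (N' * p)) : FN (N' * p)))
    (hM1 : ∀ (d : ℕ) [NeZero d] (hd : d ∣ M'),
      wM ((gen (M' * p) d (Dvd.dvd.mul_right hd p) : A0 (M' * p)) : FN (M' * p))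
        = ((gen (M' * p) (d * p) (mul_dvd_mul_right hd p) : A0 (M' * p)) : FN (M' * p)))
    (hM2 : ∀ (d : ℕ) [NeZero d] (hd : d ∣ M'),
      wM ((gen (M' * p) (d * p) (mul_dvd_mul_right hd p) : A0 (M' * p)) : FN (M' * p))
        = ((gen (M' * p) d (Dvd.dvd.mul_right hd p) : A0 (M' * p)) : FN (M' * p)))
    (x : FN (N' * p)) :
    wM (lvl (mul_dvd_mul_right hNM p) x) = lvl (mul_dvd_mul_right hNM p) (wN x) := by
  have key : (wM : FN (M' * p) →ₐ[Qb] FN (M' * p)).comp (lvl (mul_dvd_mul_right hNM p))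
      = (lvl (mul_dvd_mul_right hNM p)).comp (wN : FN (N' * p) →ₐ[Qb] FN (N' * p)) := by
    refine algHom_ext_gen _ _ ?_
    intro e _ he
    rcases Fermat.Agent.S37.Swap.dvd_cases hp he with he' | ⟨d, hd, rfl⟩
    · have h1 := hN1 e he'
      have h2 := hM1 e (he'.trans hNM)
      show wM (lvl (mul_dvd_mul_right hNM p) _) = lvl (mul_dvd_mul_right hNM p) (wN _)
      rw [lvl_gen, h1, lvl_gen]
      exact h2
    · have : NeZero d := ⟨fun h0 => by
        have := NeZero.ne (d * p)
        rw [h0, zero_mul] at this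
        exact this rfl⟩
      have h1 := hN2 d hd
      have h2 := hM2 d (hd.trans hNM)
      show wM (lvl (mul_dvd_mul_right hNM p) _) = lvl (mul_dvd_mul_right hNM p) (wN _)
      rw [lvl_gen, h1, lvl_gen]
      exact h2
  exact AlgHom.congr_fun key x

/-- The same for swaps given by the `α / β` clauses (`w ∘ α = β`, `w ∘ β = α`). -/
theorem swap_lvl (hp : p.Prime) (hNM : N' ∣ M')
    (wN : FN (N' * p) ≃ₐ[Qb] FN (N' * p)) (wM : FN (M' * p) ≃ₐ[Qb] FN (M' * p))
    (hNα : ∀ f : FN N', wN (heckeAlphaBar Qb N' p f) = heckeBetaBar Qb N' p f)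
    (hNβ : ∀ f : FN N', wN (heckeBetaBar Qb N' p f) = heckeAlphaBar Qb N' p f)
    (hMα : ∀ f : FN M', wM (heckeAlphaBar Qb M' p f) = heckeBetaBar Qb M' p f)
    (hMβ : ∀ f : FN M', wM (heckeBetaBar Qb M' p f) = heckeAlphaBar Qb M' p f)
    (x : FN (N' * p)) :
    wM (lvl (mul_dvd_mul_right hNM p) x) = lvl (mul_dvd_mul_right hNM p) (wN x) := by
  refine swap_lvl_of_gen hp hNM wN wM ?_ ?_ ?_ ?_ x
  · intro d _ hd
    rw [← Fermat.Agent.S37.Swap.alpha_gen hd, hNα, Fermat.Agent.S37.Swap.beta_gen hd]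
  · intro d _ hd
    rw [← Fermat.Agent.S37.Swap.beta_gen hd, hNβ, Fermat.Agent.S37.Swap.alpha_gen hd]
  · intro d _ hd
    rw [← Fermat.Agent.S37.Swap.alpha_gen hd, hMα, Fermat.Agent.S37.Swap.beta_gen hd]
  · intro d _ hd
    rw [← Fermat.Agent.S37.Swap.beta_gen hd, hMβ, Fermat.Agent.S37.Swap.alpha_gen hd]

/-- Swaps in the sense of the contract are compatible with the level map. -/
theorem isSwap_lvl (hp : p.Prime) (hNM : N' ∣ M')
    {wN : FN (N' * p) ≃ₐ[Qb] FN (N' * p)} {wM : FN (M' * p) ≃ₐ[Qb] FN (M' * p)}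
    (hN : IsSwap N' p wN) (hM : IsSwap M' p wM) (x : FN (N' * p)) :
    wM (lvl (mul_dvd_mul_right hNM p) x) = lvl (mul_dvd_mul_right hNM p) (wN x) :=
  swap_lvl hp hNM wN wM hN.alpha hN.beta hM.alpha hM.beta x

/-- A swap exists at every level `N' p` with `p ∤ N'`. -/
theorem exists_isSwap (hp : p.Prime) (hpN : ¬ p ∣ N') :
    ∃ w : FN (N' * p) ≃ₐ[Qb] FN (N' * p), IsSwap N' p w := by
  obtain ⟨w, h1, h2, h3, h4, -, -⟩ := Fermat.Agent.S37.SwapGal.exists_swap_gal N' p hp hpN
  exact ⟨w, ⟨h1, h2, h3, fun σ z => h4 σ z⟩⟩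

end Swap

/-! ### The transfer -/

section Transfer

variable {N M : ℕ} [NeZero N] [NeZero M] (hNM : N ∣ M)

/-- Transfer of a function-level `p`-th power statement from the auxiliary level `M` to the
level `N`: if the hypothesis `Good` passes from `N` to `M` along the level map, and `p`-th
powers descend, then the statement at level `M` gives the statement at level `N`. -/
theorem transfer {p : ℕ} (GoodN : FN N → Prop) (GoodM : FN M → Prop)
    (hgood : ∀ x : FN N, GoodN x → GoodM (lvl hNM x))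
    (hdesc : ∀ (x : FN N) (g : FN M), lvl hNM x = g ^ p → ∃ g₀ : FN N, x = g₀ ^ p)
    (hM : ∀ y : FN M, GoodM y → ∃ g : FN M, y = g ^ p) :
    ∀ x : FN N, GoodN x → ∃ g₀ : FN N, x = g₀ ^ p := by
  intro x hx
  obtain ⟨g, hg⟩ := hM _ (hgood x hx)
  exact hdesc x g hg

end Transfer

end Fermat.Agent.S33.Geo.AuxRes
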