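/-
S33 (ordinary at `p ∥ N`), strand GEO, row AUX, second seat (helper140): the FUNCTION-LEVEL
forms of the two geometric targets of the landed `S33/Geo/Contract` (`GeoIStatement`,
`GeoII0Statement`), their transfer from an auxiliary level, and the junction to the class level.

* `GoodI`, `GoodII0`     : the function-level hypotheses at a level `L` with swap `w`;
* `FunI`, `FunII0`       : the function-level statements at `(L, A, w)`;
* `FunIStatement L' p`, `FunII0Statement L' p` : the function-level targets at level `L' * p`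
  (every `A` over `p`, every swap) - what the geometric instance rows prove at a level
  `L' * p` with `4 ∣ L'`;
* `funI_of_lvl`, `funII0_of_lvl`, `funIStatement_of_lvl`, `funII0Statement_of_lvl` :
  level `M' * p` ⟹ level `N' * p` (`N' ∣ M'`), given the descent of `p`-th powers along the
  level map;
* `geoI_of_fun`, `geoII0_of_fun`, `geoIStatement_of_fun`, `geoII0Statement_of_fun` :
  function level ⟹ class level (`Contract.GeoI`, `Contract.GeoII0` and the two targets).
-/
import Mathlib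
import Fermat.Agent.S33.Geo.Contract
import Fermat.Agent.S33.Geo.AuxRes

set_option autoImplicit false

noncomputable section

open HahnSeries ModularCurve AlgebraicCurve

namespace Fermat.Agent.S33.Geo.FunLevel

open Fermat.Agent.S30 Fermat.Agent.S30.Producer Fermat.Agent.S37.LevelPull
open Fermat.Agent.S33.Geo.Contract Fermat.Agent.S33.Geo.AuxRes

/-! ### The function-level statements -/

/-- The function-level hypotheses of `GeoI` at a level `L` with swap `w`: a `p`-Kummer
function `x` with `x` and `w x` trivial at the Gauss valuation, whose class is invariant under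
inertia. -/
def GoodI (L : ℕ) (A : ValuationSubring Qb) (p : ℕ) (w : FN L → FN L) (x : FN L) : Prop :=
  x ≠ 0 ∧ E4.DivBy L p x ∧ TrivAt L A p 1 x ∧ TrivAt L A p 1 (w x) ∧
    ∀ τ : GQ, τ ∈ A.inertiaSubgroupIn ℚ → ∃ k : FN L, galF L τ x = x * k ^ p

/-- The function-level hypotheses of `GeoII0` at a level `L` with swap `w`: a `p`-Kummer
function `x` with `x` and `w x` trivial at the Gauss valuation, such that every class
`σ x / x` (`σ` in inertia) is an eigenclass of inertia for the cyclotomic character. -/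
def GoodII0 (L : ℕ) (A : ValuationSubring Qb) (p : ℕ) (w : FN L → FN L) (x : FN L) : Prop :=
  x ≠ 0 ∧ E4.DivBy L p x ∧ TrivAt L A p 1 x ∧ TrivAt L A p 1 (w x) ∧
    ∀ σ : GQ, σ ∈ A.inertiaSubgroupIn ℚ → ∀ τ : GQ, τ ∈ A.inertiaSubgroupIn ℚ → ∀ a : ℕ,
      (∀ μ : Qb, μ ^ p = 1 → τ μ = μ ^ a) →
      ∃ k : FN L, galF L τ (galF L σ x * x⁻¹) = (galF L σ x * x⁻¹) ^ a * k ^ p

/-- Function-level `GeoI` at `(L, A, w)`: a `p`-Kummer function, trivial at both Gauss
valuations, with inertia-invariant class, is a `p`-th power. -/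
def FunI (L : ℕ) (A : ValuationSubring Qb) (p : ℕ) (w : FN L → FN L) : Prop :=
  ∀ x : FN L, GoodI L A p w x → ∃ g : FN L, x = g ^ p

/-- Function-level `GeoII0` at `(L, A, w)`: for `x` as in `GoodII0`, the class of `x` is fixed
by the elements of inertia acting trivially on the `p`-th roots of unity. -/
def FunII0 (L : ℕ) (A : ValuationSubring Qb) (p : ℕ) (w : FN L → FN L) : Prop :=
  ∀ x : FN L, GoodII0 L A p w x →
    ∀ σ : GQ, σ ∈ A.inertiaSubgroupIn ℚ → (∀ μ : Qb, μ ^ p = 1 → σ μ = μ) →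
      ∃ k : FN L, galF L σ x = x * k ^ p

/-- Function-level target of the row GEO-i at the level `L' * p`. -/
def FunIStatement (L' p : ℕ) [NeZero L'] [NeZero p] : Prop :=
  p.Prime → p ≠ 2 → ¬ p ∣ L' → ∀ A : ValuationSubring Qb, A.LiesOverPrime p →
    ∀ w : FN (L' * p) ≃ₐ[Qb] FN (L' * p), IsSwap L' p w → FunI (L' * p) A p w

/-- Function-level target of the row GEO-ii₀ at the level `L' * p`. -/
def FunII0Statement (L' p : ℕ) [NeZero L'] [NeZero p] : Prop :=
  p.Prime → p ≠ 2 → ¬ p ∣ L' → ∀ A : ValuationSubring Qb, A.LiesOverPrime p →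
    ∀ w : FN (L' * p) ≃ₐ[Qb] FN (L' * p), IsSwap L' p w → FunII0 (L' * p) A p w

/-! ### Transfer from the auxiliary level -/

section Level

variable {N M : ℕ} [NeZero N] [NeZero M] (hNM : N ∣ M)

/-- `GoodI` passes to the auxiliary level, for swaps compatible with the level map. -/
theorem goodI_lvl {A : ValuationSubring Qb} {p : ℕ} {wN : FN N → FN N} {wM : FN M → FN M}
    (hw : ∀ x : FN N, wM (lvl hNM x) = lvl hNM (wN x)) {x : FN N} (h : GoodI N A p wN x) :
    GoodI M A p wM (lvl hNM x) := by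
  obtain ⟨h0, hdiv, ht, htw, hI⟩ := h
  refine ⟨lvl_ne_zero hNM h0, divBy_lvl hNM x hdiv, trivAt_lvl hNM ht, ?_, ?_⟩
  · rw [hw]
    exact trivAt_lvl hNM htw
  · intro τ hτ
    obtain ⟨k, hk⟩ := hI τ hτ
    refine ⟨lvl hNM k, ?_⟩
    rw [galF_lvl, hk, map_mul, map_pow]

/-- `GoodII0` passes to the auxiliary level, for swaps compatible with the level map. -/
theorem goodII0_lvl {A : ValuationSubring Qb} {p : ℕ} {wN : FN N → FN N} {wM : FN M → FN M}
    (hw : ∀ x : FN N, wM (lvl hNM x) = lvl hNM (wN x)) {x : FN N} (h : GoodII0 N A p wN x) :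
    GoodII0 M A p wM (lvl hNM x) := by
  obtain ⟨h0, hdiv, ht, htw, hI⟩ := h
  refine ⟨lvl_ne_zero hNM h0, divBy_lvl hNM x hdiv, trivAt_lvl hNM ht, ?_, ?_⟩
  · rw [hw]
    exact trivAt_lvl hNM htw
  · intro σ hσ τ hτ a ha
    obtain ⟨k, hk⟩ := hI σ hσ τ hτ a ha
    refine ⟨lvl hNM k, ?_⟩
    have e1 : galF M σ (lvl hNM x) * (lvl hNM x)⁻¹ = lvl hNM (galF N σ x * x⁻¹) := by
      rw [galF_lvl, map_mul, map_inv₀]
    rw [e1, galF_lvl, hk, map_mul, map_pow, map_pow]

/-- **`FunI` descends from the auxiliary level.** -/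
theorem funI_of_lvl {A : ValuationSubring Qb} {p : ℕ} {wN : FN N → FN N} {wM : FN M → FN M}
    (hw : ∀ x : FN N, wM (lvl hNM x) = lvl hNM (wN x))
    (hdesc : ∀ (x : FN N) (g : FN M), lvl hNM x = g ^ p → ∃ g₀ : FN N, x = g₀ ^ p)
    (hM : FunI M A p wM) : FunI N A p wN :=
  transfer hNM (GoodI N A p wN) (GoodI M A p wM) (fun _ hx => goodI_lvl hNM hw hx) hdesc hM

/-- **`FunII0` descends from the auxiliary level.** -/
theorem funII0_of_lvl {A : ValuationSubring Qb} {p : ℕ} {wN : FN N → FN N} {wM : FN M → FN M}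
    (hw : ∀ x : FN N, wM (lvl hNM x) = lvl hNM (wN x))
    (hdesc : ∀ (x : FN N) (g : FN M), lvl hNM x = g ^ p → ∃ g₀ : FN N, x = g₀ ^ p)
    (hM : FunII0 M A p wM) : FunII0 N A p wN := by
  intro x hx σ hσ hσμ
  have hx0 : x ≠ 0 := hx.1
  obtain ⟨k, hk⟩ := hM _ (goodII0_lvl hNM hw hx) σ hσ hσμ
  have hl0 : lvl hNM x ≠ 0 := lvl_ne_zero hNM hx0
  have e1 : lvl hNM (galF N σ x * x⁻¹) = k ^ p := by
    rw [map_mul, map_inv₀, ← galF_lvl, hk, mul_comm (lvl hNM x), mul_assoc,
      mul_inv_cancel₀ hl0, mul_one]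
  obtain ⟨k₀, hk₀⟩ := hdesc _ k e1
  refine ⟨k₀, ?_⟩
  rw [← hk₀, mul_comm (galF N σ x), ← mul_assoc, mul_inv_cancel₀ hx0, one_mul]

end Level

section LevelStatement

variable {N' M' p : ℕ} [NeZero N'] [NeZero M'] [NeZero p]

/-- **The target `FunIStatement` descends from the auxiliary level `M' * p`**, `N' ∣ M'`. -/
theorem funIStatement_of_lvl (hNM : N' ∣ M') (hpM : p.Prime → p ≠ 2 → ¬ p ∣ N' → ¬ p ∣ M')
    (hdesc : p.Prime → p ≠ 2 → ∀ (x : FN (N' * p)) (g : FN (M' * p)),
      lvl (mul_dvd_mul_right hNM p) x = g ^ p → ∃ g₀ : FN (N' * p), x = g₀ ^ p)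
    (hM : FunIStatement M' p) : FunIStatement N' p := by
  intro hp hp2 hpN A hA w hw
  obtain ⟨wM, hwM⟩ := exists_isSwap hp (hpM hp hp2 hpN)
  exact funI_of_lvl (mul_dvd_mul_right hNM p) (fun x => isSwap_lvl hp hNM hw hwM x)
    (hdesc hp hp2) (hM hp hp2 (hpM hp hp2 hpN) A hA wM hwM)

/-- **The target `FunII0Statement` descends from the auxiliary level `M' * p`**, `N' ∣ M'`. -/
theorem funII0Statement_of_lvl (hNM : N' ∣ M') (hpM : p.Prime → p ≠ 2 → ¬ p ∣ N' → ¬ p ∣ M')
    (hdesc : p.Prime → p ≠ 2 → ∀ (x : FN (N' * p)) (g : FN (M' * p)),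
      lvl (mul_dvd_mul_right hNM p) x = g ^ p → ∃ g₀ : FN (N' * p), x = g₀ ^ p)
    (hM : FunII0Statement M' p) : FunII0Statement N' p := by
  intro hp hp2 hpN A hA w hw
  obtain ⟨wM, hwM⟩ := exists_isSwap hp (hpM hp hp2 hpN)
  exact funII0_of_lvl (mul_dvd_mul_right hNM p) (fun x => isSwap_lvl hp hNM hw hwM x)
    (hdesc hp hp2) (hM hp hp2 (hpM hp hp2 hpN) A hA wM hwM)

end LevelStatement

/-! ### From the function level to the class level -/

section Class

variable {N' p : ℕ} [NeZero N'] [NeZero p] [hp : Fact p.Prime] {K : KummerSystem (N' * p) p}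
  {A : ValuationSubring Qb} {w : FN (N' * p) ≃ₐ[Qb] FN (N' * p)}

/-- The class of `σ x / x`. -/
theorem R_gal_div (σ : GQ) {n : ℕ} {x : FN (N' * p)} {c : K.A →+ ZMod (p ^ n)}
    (h : K.R n x c) : K.R n (galF (N' * p) σ x * x⁻¹) (K.act n σ c - c) := by
  rw [sub_eq_add_neg, KummerSystem.act_apply]
  exact K.mul (K.actFun_spec σ h) (K.R_inv h)

/-- **Function level ⟹ class level, `GeoI`.** -/
theorem geoI_of_fun (hK : KDiv K) (hfun : FunI (N' * p) A p w) : GeoI K A w := by
  intro c hX hfix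
  obtain ⟨x, hR, ht, htw⟩ := hX
  have hx0 : x ≠ 0 := K.ne_zero hR
  have hdiv : E4.DivBy (N' * p) p x := by
    have h1 := hK 1 x c hR
    rw [pow_one] at h1
    exact h1
  have hgood : GoodI (N' * p) A p w x := by
    refine ⟨hx0, hdiv, ht, htw, fun τ hτ => ?_⟩
    have h1 : K.R 1 (galF (N' * p) τ x) c := by
      have h2 := K.actFun_spec τ hR
      rw [← KummerSystem.act_apply, hfix τ hτ] at h2
      exact h2
    obtain ⟨k, -, hk⟩ := K.exists_eq_mul_pow hR h1
    exact ⟨k, by rw [hk, pow_one]⟩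
  obtain ⟨g, hg⟩ := hfun x hgood
  have hg0 : g ≠ 0 := by
    rintro rfl
    rw [zero_pow hp.out.ne_zero] at hg
    exact hx0 hg
  have h0 : K.R 1 x 0 := by
    have hx1 : x = g ^ (p ^ 1) := by rw [hg, pow_one]
    rw [hx1]
    exact K.pow 1 hg0
  exact K.uniq hR h0

/-- **Function level ⟹ class level, `GeoII0`.** -/
theorem geoII0_of_fun (hK : KDiv K) (hfun : FunII0 (N' * p) A p w) : GeoII0 K A w := by
  intro c hX hH σ hσ hσμ
  obtain ⟨x, hR, ht, htw⟩ := hX
  have hx0 : x ≠ 0 := K.ne_zero hR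
  have hdiv : E4.DivBy (N' * p) p x := by
    have h1 := hK 1 x c hR
    rw [pow_one] at h1
    exact h1
  have hgood : GoodII0 (N' * p) A p w x := by
    refine ⟨hx0, hdiv, ht, htw, fun σ' hσ' τ hτ a ha => ?_⟩
    have hy := R_gal_div σ' hR
    have h1 : K.R 1 (galF (N' * p) τ (galF (N' * p) σ' x * x⁻¹))
        (a • (K.act 1 σ' c - c)) := by
      have h2 := K.actFun_spec τ hy
      rw [← KummerSystem.act_apply, hH σ' hσ' τ hτ a ha] at h2
      exact h2
    obtain ⟨k, -, hk⟩ := K.exists_eq_mul_pow (K.R_pow hy a) h1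
    exact ⟨k, by rw [hk, pow_one]⟩
  obtain ⟨k, hk⟩ := hfun x hgood σ hσ hσμ
  have hk0 : k ≠ 0 := by
    rintro rfl
    rw [zero_pow hp.out.ne_zero, mul_zero] at hk
    exact KummerSystem.galF_ne_zero σ hx0 hk
  have h1 : K.R 1 (galF (N' * p) σ x) c := by
    have hk1 : galF (N' * p) σ x = x * k ^ (p ^ 1) := by rw [hk, pow_one]
    rw [hk1]
    exact K.R_mul_pow hR hk0
  rw [KummerSystem.act_apply]
  exact K.actFun_eq σ hR h1

/-- **The class-level target of the row GEO-i from its function-level form.** -/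
theorem geoIStatement_of_fun (h : FunIStatement N' p) : GeoIStatement N' p :=
  fun hp2 hpN _ hK A hA w hw => geoI_of_fun hK (h hp.out hp2 hpN A hA w hw)

/-- **The class-level target of the row GEO-ii₀ from its function-level form.** -/
theorem geoII0Statement_of_fun (h : FunII0Statement N' p) : GeoII0Statement N' p :=
  fun hp2 hpN _ hK A hA w hw => geoII0_of_fun hK (h hp.out hp2 hpN A hA w hw)

end Class

end Fermat.Agent.S33.Geo.FunLevel
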