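/-
S33 (ordinary at `p ∥ N`), strand GEO, row AUX, second seat (helper140): the exit of the row.

The two geometric targets of the landed `S33/Geo/Contract` at a level `N' * p` follow from their
function-level forms (`FunLevel.FunIStatement`, `FunLevel.FunII0Statement`) at the auxiliary level
`(N' * 2 * 2) * p`, by the restriction lemmas of `AuxRes`, the transfer of `FunLevel` and the
descent of `p`-th powers of `AuxDescent` (helper73).

* `pow_descent_lvl`            : a function of level `N' * p` which is a `p`-th power at the level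
  `N' * 2 * 2 * p` is a `p`-th power (`p` an odd prime);
* `funIStatement_of_four`, `funII0Statement_of_four` : the function-level targets at `N'` from
  those at `N' * 2 * 2`;
* `geoIStatement_of_four`, `geoII0Statement_of_four` : the class-level targets of the contract
  at `N'` from the function-level targets at `N' * 2 * 2`.
-/
import Mathlib
import Fermat.Agent.S33.Geo.Contract
import Fermat.Agent.S33.Geo.AuxRes
import Fermat.Agent.S33.Geo.AuxDescent
import Fermat.Agent.S33.Geo.FunLevel

set_option autoImplicit false

noncomputable section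

open HahnSeries ModularCurve AlgebraicCurve

namespace Fermat.Agent.S33.Geo.AuxExit

open Fermat.Agent.S30 Fermat.Agent.S30.Producer Fermat.Agent.S37.LevelPull
open Fermat.Agent.S33.Geo.Contract Fermat.Agent.S33.Geo.AuxRes Fermat.Agent.S33.Geo.FunLevel

/-- Membership in the function field only depends on the value of the level. -/
theorem mem_fb_of_eq {a b : ℕ} [NeZero a] [NeZero b] (h : a = b) {y : LaurentSeries Qb}
    (hy : y ∈ modularFunctionFieldBar a) : y ∈ modularFunctionFieldBar b := by
  subst h
  exact hy

/-- **The descent of `p`-th powers along the level map `N' * p → (N' * 2 * 2) * p`.** -/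
theorem pow_descent_lvl {N' p : ℕ} [NeZero N'] [NeZero p] (hp : p.Prime) (hp2 : p ≠ 2)
    (hNM : N' * p ∣ N' * 2 * 2 * p) (x : FN (N' * p)) (g : FN (N' * 2 * 2 * p))
    (h : lvl hNM x = g ^ p) : ∃ g₀ : FN (N' * p), x = g₀ ^ p := by
  have heq : N' * 2 * 2 * p = N' * p * 2 * 2 := by ring
  have h1 : ((g : LaurentSeries Qb)) ^ p = (x : LaurentSeries Qb) := by
    have h2 := congrArg (fun y : FN (N' * 2 * 2 * p) => (y : LaurentSeries Qb)) h
    simp only [coe_lvl] at h2
    rw [h2]
    rfl
  obtain ⟨g', hg'⟩ := Fermat.Agent.S33.Geo.AuxDescent.pow_descent_four (N' * p) p hp hp2 x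
    ⟨(g : LaurentSeries Qb), mem_fb_of_eq heq g.2⟩ h1
  exact ⟨g', hg'.symm⟩

section Statement

variable {N' p : ℕ} [NeZero N'] [NeZero p]

theorem not_dvd_four (hp : p.Prime) (hp2 : p ≠ 2) (hpN : ¬ p ∣ N') : ¬ p ∣ N' * 2 * 2 := by
  intro h
  rcases (Nat.Prime.dvd_mul hp).1 h with h | h
  · rcases (Nat.Prime.dvd_mul hp).1 h with h | h
    · exact hpN h
    · exact hp2 ((Nat.prime_dvd_prime_iff_eq hp Nat.prime_two).1 h)
  · exact hp2 ((Nat.prime_dvd_prime_iff_eq hp Nat.prime_two).1 h)

theorem dvd_four : N' ∣ N' * 2 * 2 := ⟨2 * 2, by ring⟩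

/-- **(AUX), function level, `FunI`**: the target at `N'` from the target at `N' * 2 * 2`. -/
theorem funIStatement_of_four (h : FunIStatement (N' * 2 * 2) p) : FunIStatement N' p :=
  funIStatement_of_lvl dvd_four (fun hp hp2 hpN => not_dvd_four hp hp2 hpN)
    (fun hp hp2 x g hx => pow_descent_lvl hp hp2 _ x g hx) h

/-- **(AUX), function level, `FunII0`**: the target at `N'` from the target at `N' * 2 * 2`. -/
theorem funII0Statement_of_four (h : FunII0Statement (N' * 2 * 2) p) : FunII0Statement N' p :=
  funII0Statement_of_lvl dvd_four (fun hp hp2 hpN => not_dvd_four hp hp2 hpN)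
    (fun hp hp2 x g hx => pow_descent_lvl hp hp2 _ x g hx) h

/-- **(AUX) exit, GEO-i**: the class-level target of the contract at the level `N' * p` from the
function-level target at the level `(N' * 2 * 2) * p`. -/
theorem geoIStatement_of_four [Fact p.Prime] (h : FunIStatement (N' * 2 * 2) p) :
    GeoIStatement N' p :=
  geoIStatement_of_fun (funIStatement_of_four h)

/-- **(AUX) exit, GEO-ii₀**: the class-level target of the contract at the level `N' * p` from
the function-level target at the level `(N' * 2 * 2) * p`. -/
theorem geoII0Statement_of_four [Fact p.Prime] (h : FunII0Statement (N' * 2 * 2) p) :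
    GeoII0Statement N' p :=
  geoII0Statement_of_fun (funII0Statement_of_four h)

end Statement

end Fermat.Agent.S33.Geo.AuxExit
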