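import Mathlib
import Fermat.Agent.S33.Geo.Contract
import Fermat.Agent.S30.E4.GaussNorm
import Fermat.Agent.S18.Wiring

/-!
# S33 (ordinary at `p ∥ N`), GEO row (GA) + (SAT): proof of `Contract.GaSatStatement`

All statements are about the landed definitions of `S33/Geo/Contract.lean`
(`OneUnit`, `TrivAt`, `InX`, `SubStatement`, `GAStatement`, `SATStatement`).

* `oneUnit_one`, `oneUnit_mul`, `oneUnit_inv` ; `trivAt_one`, `trivAt_mul`, `trivAt_inv`,
  `trivAt_mul_pow`, `trivAt_const_mul`, `trivAt_ne_zero` : the calculus of one-units and of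
  `n`-trivial functions (any level `N`, any valuation subring `A`).
* `exists_oneUnit_gal_div`, `trivAt_gal_div` : for `τ` in the inertia group of `A` (over `p`),
  `τ f / f` is a nonzero constant times a one-unit (Gauss normal form + inertia acts trivially
  on the reduction).
* `trivAt_of_pow` : if `z ^ (p ^ a) = x · h ^ (p ^ (m + a))` and `x` is `(m + a)`-trivial then
  `z` is `m`-trivial (Gauss normal form, unit constant, Frobenius is injective on `κ((q))`).
* `subStatement`, `gaStatement`, `satStatement`, and the row target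
  `gaSatStatement : Contract.GaSatStatement N' p` (every Kummer system, every `A` over `p`,
  every swap; only `IsSwap.gal` is used).
* extras: `trivAt_of_inX` (every Kummer function of a class of `𝒳_n` is `n`-trivial, with its
  swap), `inX_act` (`𝒳_n` is stable under inertia), `sat` / `redIter` / `satIter` (the iterated
  form of (SAT): `p ^ n • c ∈ 𝒳_(n+1)` implies `(c mod p) ∈ 𝒳_1`).
-/

set_option autoImplicit false
set_option linter.unusedSectionVars false
set_option synthInstance.maxHeartbeats 200000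

open ModularCurve

noncomputable section

namespace Fermat.Agent.S33.Geo.GaSat

open Fermat.Agent.S30 Fermat.Agent.S30.Producer Fermat.Agent.S33.Geo.Contract

/-! ### Coercions -/

section Coe

variable (N : ℕ)

theorem coe_algebraMap_FN (c : Qb) :
    ((algebraMap Qb (FN N) c : FN N) : LaurentSeries Qb) = HahnSeries.C c := by
  rw [Fermat.Agent.S18.Wiring.C_eq_algebraMap]
  rfl

theorem coe_mul_FN (x y : FN N) :
    ((x * y : FN N) : LaurentSeries Qb) = (x : LaurentSeries Qb) * (y : LaurentSeries Qb) := rfl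

theorem coe_inv_FN (x : FN N) :
    ((x⁻¹ : FN N) : LaurentSeries Qb) = (x : LaurentSeries Qb)⁻¹ := rfl

theorem coe_pow_FN (x : FN N) (k : ℕ) :
    ((x ^ k : FN N) : LaurentSeries Qb) = (x : LaurentSeries Qb) ^ k := rfl

theorem coe_one_FN : ((1 : FN N) : LaurentSeries Qb) = 1 := rfl

theorem coe_ne_zero_FN {x : FN N} (hx : x ≠ 0) : (x : LaurentSeries Qb) ≠ 0 := fun h =>
  hx (Subtype.ext h)

end Coe

/-! ### Integral series -/

section Series

variable (A : ValuationSubring Qb)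

theorem incl_C (a : A) : Congr.incl A (HahnSeries.C a) = HahnSeries.C (a : Qb) :=
  Fermat.Agent.S18.Wiring.coeffMap_C A.subtype a

theorem red_C (a : A) :
    Congr.red A (HahnSeries.C a) = HahnSeries.C (IsLocalRing.residue A a) :=
  Fermat.Agent.S18.Wiring.coeffMap_C (IsLocalRing.residue A) a

theorem C_ne_zero_Qb {c : Qb} (hc : c ≠ 0) : (HahnSeries.C c : LaurentSeries Qb) ≠ 0 :=
  HahnSeries.C_ne_zero hc

theorem ne_zero_of_red_ne_zero {U : LaurentSeries A} (hU : Congr.red A U ≠ 0) :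
    Congr.incl A U ≠ 0 := by
  intro h
  have : U = 0 := Congr.incl_injective A (by rw [h, map_zero])
  exact hU (by rw [this, map_zero])

theorem red_nonunit {a : A} (ha : ¬ IsUnit a) (X : LaurentSeries A) :
    Congr.red A (HahnSeries.C a * X) = 0 := by
  have h0 : IsLocalRing.residue A a = 0 := by
    rw [IsLocalRing.residue_eq_zero_iff]
    exact (IsLocalRing.mem_maximalIdeal a).2 ha
  rw [map_mul, red_C, h0, map_zero, zero_mul]

/-- **Unit-constant lemma.**  If `C e · X = Y` with `X`, `Y` integral series with nonzero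
reductions, then `e` is a unit of `A`. -/
theorem unit_const {e : Qb} {X Y : LaurentSeries A} (hX : Congr.red A X ≠ 0)
    (hY : Congr.red A Y ≠ 0)
    (h : HahnSeries.C e * Congr.incl A X = Congr.incl A Y) : A.valuation e = 1 := by
  have he0 : e ≠ 0 := by
    rintro rfl
    rw [map_zero, zero_mul] at h
    exact ne_zero_of_red_ne_zero A hY h.symm
  rcases A.mem_or_inv_mem e with he | he
  · have h1 : HahnSeries.C (⟨e, he⟩ : A) * X = Y := by
      apply Congr.incl_injective A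
      rw [map_mul, incl_C]
      exact h
    have hu : IsUnit (⟨e, he⟩ : A) := by
      by_contra hu
      apply hY
      rw [← h1]
      exact red_nonunit A hu X
    exact (A.valuation_eq_one_iff ⟨e, he⟩).mp hu
  · have h1 : HahnSeries.C (⟨e⁻¹, he⟩ : A) * Y = X := by
      apply Congr.incl_injective A
      rw [map_mul, incl_C, ← h, ← mul_assoc, ← map_mul]
      show HahnSeries.C (e⁻¹ * e) * Congr.incl A X = Congr.incl A X
      rw [inv_mul_cancel₀ he0, map_one, one_mul]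
    have hu : IsUnit (⟨e⁻¹, he⟩ : A) := by
      by_contra hu
      apply hX
      rw [← h1]
      exact red_nonunit A hu Y
    have h2 := (A.valuation_eq_one_iff ⟨e⁻¹, he⟩).mp hu
    have h3 : A.valuation e⁻¹ = 1 := h2
    rwa [map_inv₀, inv_eq_one] at h3

theorem mem_of_valuation_eq_one {e : Qb} (h : A.valuation e = 1) : e ∈ A :=
  (A.valuation_le_one_iff e).mp h.le

theorem valuation_eq_one_of_pow {d : Qb} {k : ℕ} (hk : k ≠ 0) (h : A.valuation (d ^ k) = 1) :
    A.valuation d = 1 := by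
  rw [map_pow] at h
  exact (pow_eq_one_iff.mp h).resolve_right hk

/-- Frobenius is injective on `κ((q))`. -/
theorem eq_of_pow_char_pow_eq {p : ℕ} [Fact p.Prime] (hA : A.LiesOverPrime p) (n : ℕ)
    {a b : LaurentSeries (IsLocalRing.ResidueField A)} (h : a ^ p ^ n = b ^ p ^ n) : a = b := by
  have := Congr.charP_residue A hA
  have : CharP (LaurentSeries (IsLocalRing.ResidueField A)) p :=
    charP_of_injective_ringHom
      (f := (HahnSeries.C : IsLocalRing.ResidueField A →+* LaurentSeries (IsLocalRing.ResidueField A)))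
      HahnSeries.C_injective p
  have h1 : (a - b) ^ p ^ n = 0 := by rw [sub_pow_char_pow, h, sub_self]
  exact sub_eq_zero.mp (pow_eq_zero_iff (pow_ne_zero n (Fact.out : p.Prime).ne_zero) |>.mp h1)

end Series

/-! ### One-units -/

section OneUnit

variable {N : ℕ} {A : ValuationSubring Qb}

theorem oneUnit_one : OneUnit N A (1 : FN N) := by
  refine ⟨1, 1, ?_, rfl, ?_⟩
  · rw [map_one]; exact one_ne_zero
  · rw [coe_one_FN, one_mul]

theorem oneUnit_coe_ne_zero {u : FN N} (h : OneUnit N A u) : (u : LaurentSeries Qb) ≠ 0 := by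
  obtain ⟨U, V, hV, hUV, e⟩ := h
  have hU : Congr.red A U ≠ 0 := by rw [hUV]; exact hV
  intro h0
  rw [h0, zero_mul] at e
  exact ne_zero_of_red_ne_zero A hU e.symm

theorem oneUnit_ne_zero {u : FN N} (h : OneUnit N A u) : u ≠ 0 := by
  rintro rfl
  exact oneUnit_coe_ne_zero h rfl

theorem oneUnit_mul {x y : FN N} (hx : OneUnit N A x) (hy : OneUnit N A y) :
    OneUnit N A (x * y) := by
  obtain ⟨U, V, hV, hUV, e⟩ := hx
  obtain ⟨U', V', hV', hUV', e'⟩ := hy
  refine ⟨U * U', V * V', ?_, ?_, ?_⟩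
  · rw [map_mul]; exact mul_ne_zero hV hV'
  · rw [map_mul, map_mul, hUV, hUV']
  · rw [coe_mul_FN, map_mul, map_mul]
    linear_combination (↑y * Congr.incl A V') * e + (Congr.incl A U) * e'

theorem oneUnit_inv {x : FN N} (hx : OneUnit N A x) : OneUnit N A x⁻¹ := by
  have hx0 := oneUnit_coe_ne_zero hx
  obtain ⟨U, V, hV, hUV, e⟩ := hx
  refine ⟨V, U, ?_, hUV.symm, ?_⟩
  · rw [hUV]; exact hV
  · rw [coe_inv_FN, ← e, ← mul_assoc, inv_mul_cancel₀ hx0, one_mul]

end OneUnit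

/-! ### `n`-trivial functions -/

section TrivAt

variable {N : ℕ} {A : ValuationSubring Qb} {p n : ℕ}

theorem trivAt_of_oneUnit {u : FN N} (h : OneUnit N A u) : TrivAt N A p n u :=
  ⟨1, 1, u, one_ne_zero, one_ne_zero, h, by rw [map_one, one_pow, one_mul, one_mul]⟩

theorem trivAt_one : TrivAt N A p n (1 : FN N) := trivAt_of_oneUnit oneUnit_one

theorem trivAt_ne_zero {x : FN N} (hx : TrivAt N A p n x) : x ≠ 0 := by
  obtain ⟨c, g, u, hc, hg, hu, rfl⟩ := hx
  exact mul_ne_zero (mul_ne_zero ((map_ne_zero _).mpr hc) (pow_ne_zero _ hg)) (oneUnit_ne_zero hu)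

theorem trivAt_mul {x y : FN N} (hx : TrivAt N A p n x) (hy : TrivAt N A p n y) :
    TrivAt N A p n (x * y) := by
  obtain ⟨c, g, u, hc, hg, hu, rfl⟩ := hx
  obtain ⟨c', g', u', hc', hg', hu', rfl⟩ := hy
  refine ⟨c * c', g * g', u * u', mul_ne_zero hc hc', mul_ne_zero hg hg', oneUnit_mul hu hu', ?_⟩
  rw [map_mul, mul_pow]
  ring

theorem trivAt_inv {x : FN N} (hx : TrivAt N A p n x) : TrivAt N A p n x⁻¹ := by
  obtain ⟨c, g, u, hc, hg, hu, rfl⟩ := hx
  refine ⟨c⁻¹, g⁻¹, u⁻¹, inv_ne_zero hc, inv_ne_zero hg, oneUnit_inv hu, ?_⟩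
  rw [map_inv₀, inv_pow, mul_inv, mul_inv]

/-- Multiplying by a `p ^ n`-th power preserves `n`-triviality. -/
theorem trivAt_mul_pow {x h : FN N} (hx : TrivAt N A p n x) (hh : h ≠ 0) :
    TrivAt N A p n (x * h ^ p ^ n) := by
  obtain ⟨c, g, u, hc, hg, hu, rfl⟩ := hx
  refine ⟨c, g * h, u, hc, mul_ne_zero hg hh, hu, ?_⟩
  rw [mul_pow]
  ring

/-- Multiplying by a nonzero constant preserves `n`-triviality. -/
theorem trivAt_const_mul {x : FN N} (hx : TrivAt N A p n x) {a : Qb} (ha : a ≠ 0) :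
    TrivAt N A p n (algebraMap Qb (FN N) a * x) := by
  obtain ⟨c, g, u, hc, hg, hu, rfl⟩ := hx
  refine ⟨a * c, g, u, mul_ne_zero ha hc, hg, hu, ?_⟩
  rw [map_mul]
  ring

end TrivAt

/-! ### (GA): inertia moves a function by a constant times a one-unit -/

section GA

variable {N p : ℕ} [NeZero N] [Fact p.Prime] {A : ValuationSubring Qb}

/-- For `τ` in the inertia group of `A`, `τ f / f` is a nonzero constant times a one-unit. -/
theorem exists_oneUnit_gal_div (hA : A.LiesOverPrime p) {τ : GQ}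
    (hτ : τ ∈ A.inertiaSubgroupIn ℚ) {f : FN N} (hf : f ≠ 0) :
    ∃ (c : Qb) (u : FN N), c ≠ 0 ∧ OneUnit N A u ∧
      galF N τ f * f⁻¹ = algebraMap Qb (FN N) c * u := by
  obtain ⟨c, P, Q, hP, hQ, hc, hPr, hQr, hfc⟩ := E4.hasGaussNorm N p A hA f hf
  have hS : (f : LaurentSeries Qb) * Congr.incl A Q = HahnSeries.C c * Congr.incl A P := by
    have h := congrArg (fun y : E4.Fb N => (y : LaurentSeries Qb)) hfc
    rw [Fermat.Agent.S18.Wiring.C_eq_algebraMap]
    exact h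
  obtain ⟨hdec, hred⟩ := Congr.exists_red_actA_inertia A hτ
  have hS' : ((galF N τ f : FN N) : LaurentSeries Qb) * Congr.incl A (Congr.actA A ⟨τ, hdec⟩ Q)
      = HahnSeries.C (τ c) * Congr.incl A (Congr.actA A ⟨τ, hdec⟩ P) := by
    have h := congrArg (coeffMap ((τ : Qb ≃ₐ[ℚ] Qb) : Qb →+* Qb)) hS
    rw [map_mul, map_mul, Fermat.Agent.S18.Wiring.coeffMap_C] at h
    rw [Congr.incl_actA, Congr.incl_actA, coe_galF]
    exact h
  have hF : (f : LaurentSeries Qb) ≠ 0 := coe_ne_zero_FN N hf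
  have hτc : τ c ≠ 0 := (map_ne_zero _).mpr hc
  have hCτ := C_ne_zero_Qb hτc
  have he : τ c * c⁻¹ ≠ 0 := mul_ne_zero hτc (inv_ne_zero hc)
  have hae : algebraMap Qb (FN N) (τ c * c⁻¹) ≠ 0 := (map_ne_zero _).mpr he
  have key : ((galF N τ f : FN N) : LaurentSeries Qb)
        * (Congr.incl A (Congr.actA A ⟨τ, hdec⟩ Q) * Congr.incl A P) * HahnSeries.C c
      = HahnSeries.C (τ c) * (Congr.incl A (Congr.actA A ⟨τ, hdec⟩ P) * Congr.incl A Q)
        * (f : LaurentSeries Qb) := by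
    linear_combination (Congr.incl A P * HahnSeries.C c) * hS'
      - (HahnSeries.C (τ c) * Congr.incl A (Congr.actA A ⟨τ, hdec⟩ P)) * hS
  refine ⟨τ c * c⁻¹, (algebraMap Qb (FN N) (τ c * c⁻¹))⁻¹ * (galF N τ f * f⁻¹), he, ?_, ?_⟩
  · refine ⟨Congr.actA A ⟨τ, hdec⟩ P * Q, Congr.actA A ⟨τ, hdec⟩ Q * P, ?_, ?_, ?_⟩
    · rw [map_mul, hred]; exact mul_ne_zero hQr hPr
    · rw [map_mul, map_mul, hred, hred, mul_comm]
    · have hcoe : (((algebraMap Qb (FN N) (τ c * c⁻¹))⁻¹ * (galF N τ f * f⁻¹) : FN N) :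
            LaurentSeries Qb)
          = (HahnSeries.C (τ c) * (HahnSeries.C c)⁻¹)⁻¹
            * (((galF N τ f : FN N) : LaurentSeries Qb) * (f : LaurentSeries Qb)⁻¹) := by
        rw [coe_mul_FN, coe_inv_FN, coe_algebraMap_FN, coe_mul_FN, coe_inv_FN, map_mul,
          map_inv₀]
      rw [hcoe, map_mul, map_mul, mul_inv, inv_inv]
      calc _ = (((galF N τ f : FN N) : LaurentSeries Qb)
              * (Congr.incl A (Congr.actA A ⟨τ, hdec⟩ Q) * Congr.incl A P) * HahnSeries.C c)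
              * ((f : LaurentSeries Qb)⁻¹ * (HahnSeries.C (τ c))⁻¹) := by ring
        _ = (HahnSeries.C (τ c) * (Congr.incl A (Congr.actA A ⟨τ, hdec⟩ P) * Congr.incl A Q)
              * (f : LaurentSeries Qb)) * ((f : LaurentSeries Qb)⁻¹ * (HahnSeries.C (τ c))⁻¹) := by
            rw [key]
        _ = (Congr.incl A (Congr.actA A ⟨τ, hdec⟩ P) * Congr.incl A Q)
              * ((f : LaurentSeries Qb) * (f : LaurentSeries Qb)⁻¹)
              * (HahnSeries.C (τ c) * (HahnSeries.C (τ c))⁻¹) := by ring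
        _ = Congr.incl A (Congr.actA A ⟨τ, hdec⟩ P) * Congr.incl A Q := by
            rw [mul_inv_cancel₀ hF, mul_inv_cancel₀ hCτ, mul_one, mul_one]
  · rw [mul_inv_cancel_left₀ hae]

/-- For `τ` in the inertia group of `A`, `τ f / f` is `n`-trivial for every `n`. -/
theorem trivAt_gal_div (hA : A.LiesOverPrime p) {τ : GQ} (hτ : τ ∈ A.inertiaSubgroupIn ℚ)
    {f : FN N} (hf : f ≠ 0) (n : ℕ) : TrivAt N A p n (galF N τ f * f⁻¹) := by
  obtain ⟨c, u, hc, hu, e⟩ := exists_oneUnit_gal_div hA hτ hf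
  exact ⟨c, 1, u, hc, one_ne_zero, hu, by rw [one_pow, mul_one]; exact e⟩

end GA

/-! ### (SAT): extraction of `p ^ a`-th roots of one-units -/

section SAT

variable {N p : ℕ} [NeZero N] [Fact p.Prime] {A : ValuationSubring Qb}

/-- If `z ^ (p ^ a) = x · h ^ (p ^ k)` with `k = m + a` and `x` `k`-trivial, then `z` is
`m`-trivial. -/
theorem trivAt_of_pow (hA : A.LiesOverPrime p) {a m k : ℕ} (hk : k = m + a) {z x h : FN N}
    (hz : z ≠ 0) (hh : h ≠ 0) (hx : TrivAt N A p k x) (e : z ^ p ^ a = x * h ^ p ^ k) :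
    TrivAt N A p m z := by
  subst hk
  have hp0 : p ≠ 0 := (Fact.out : p.Prime).ne_zero
  have hpa : p ^ a ≠ 0 := pow_ne_zero a hp0
  obtain ⟨c₀, g, u, hc₀, hg, ⟨U, V, hV, hUV, eu⟩, rfl⟩ := hx
  have hU : Congr.red A U ≠ 0 := by rw [hUV]; exact hV
  -- the constant
  obtain ⟨c₁, hc₁⟩ := IsAlgClosed.exists_pow_nat_eq c₀ (Nat.pos_of_ne_zero hpa)
  have hc₁0 : c₁ ≠ 0 := by
    rintro rfl
    rw [zero_pow hpa] at hc₁
    exact hc₀ hc₁.symm
  have hgh : g * h ≠ 0 := mul_ne_zero hg hh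
  have ha₁ : algebraMap Qb (FN N) c₁ ≠ 0 := (map_ne_zero _).mpr hc₁0
  have ha₀ : algebraMap Qb (FN N) c₀ ≠ 0 := (map_ne_zero _).mpr hc₀
  -- the normalised root
  obtain ⟨v, hv⟩ : ∃ v : FN N,
      v = z * ((g * h) ^ p ^ m)⁻¹ * (algebraMap Qb (FN N) c₁)⁻¹ := ⟨_, rfl⟩
  have hv0 : v ≠ 0 := by
    rw [hv]
    exact mul_ne_zero (mul_ne_zero hz (inv_ne_zero (pow_ne_zero _ hgh))) (inv_ne_zero ha₁)
  have hzv : z = algebraMap Qb (FN N) c₁ * (g * h) ^ p ^ m * v := by
    rw [hv]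
    field_simp
  have hvu : v ^ p ^ a = u := by
    have h1 : v ^ p ^ a = z ^ p ^ a * ((g * h) ^ p ^ (m + a))⁻¹
        * (algebraMap Qb (FN N) (c₁ ^ p ^ a))⁻¹ := by
      rw [hv, mul_pow, mul_pow, inv_pow, inv_pow, ← pow_mul, map_pow, pow_add p m a]
    rw [h1, e, hc₁, mul_pow]
    have hgp : g ^ p ^ (m + a) ≠ 0 := pow_ne_zero _ hg
    have hhp : h ^ p ^ (m + a) ≠ 0 := pow_ne_zero _ hh
    field_simp
  -- series level
  have hvS : (v : LaurentSeries Qb) ^ p ^ a * Congr.incl A V = Congr.incl A U := by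
    have h1 : ((v ^ p ^ a : FN N) : LaurentSeries Qb) = (u : LaurentSeries Qb) := by rw [hvu]
    rw [coe_pow_FN] at h1
    rw [h1, eu]
  obtain ⟨d, P, Q, hP, hQ, hd, hPr, hQr, hfc⟩ := E4.hasGaussNorm N p A hA v hv0
  have hS : (v : LaurentSeries Qb) * Congr.incl A Q = HahnSeries.C d * Congr.incl A P := by
    have h := congrArg (fun y : E4.Fb N => (y : LaurentSeries Qb)) hfc
    rw [Fermat.Agent.S18.Wiring.C_eq_algebraMap]
    exact h
  -- `C (d ^ (p ^ a)) * (P ^ (p ^ a) * V) = U * Q ^ (p ^ a)`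
  have hrel : HahnSeries.C (d ^ p ^ a) * Congr.incl A (P ^ p ^ a * V)
      = Congr.incl A (U * Q ^ p ^ a) := by
    rw [map_mul, map_mul, map_pow, map_pow, map_pow, ← hvS]
    have h2 : (HahnSeries.C d * Congr.incl A P) ^ p ^ a
        = ((v : LaurentSeries Qb) * Congr.incl A Q) ^ p ^ a := by rw [hS]
    rw [mul_pow, mul_pow] at h2
    linear_combination (Congr.incl A V) * h2
  have hXr : Congr.red A (P ^ p ^ a * V) ≠ 0 := by
    rw [map_mul, map_pow]
    exact mul_ne_zero (pow_ne_zero _ hPr) hV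
  have hYr : Congr.red A (U * Q ^ p ^ a) ≠ 0 := by
    rw [map_mul, map_pow]
    exact mul_ne_zero hU (pow_ne_zero _ hQr)
  have hval := valuation_eq_one_of_pow A hpa (unit_const A hXr hYr hrel)
  have hdA : d ∈ A := mem_of_valuation_eq_one A hval
  -- the relation inside `A((q))`
  have hrelA : (HahnSeries.C (⟨d, hdA⟩ : A) * P) ^ p ^ a * V = U * Q ^ p ^ a := by
    apply Congr.incl_injective A
    rw [← hrel]
    simp only [map_mul, map_pow, incl_C]
    ring
  have hredeq : Congr.red A (HahnSeries.C (⟨d, hdA⟩ : A) * P) = Congr.red A Q := by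
    apply eq_of_pow_char_pow_eq A hA a
    have h3 := congrArg (Congr.red A) hrelA
    rw [map_mul, map_mul, map_pow, map_pow, hUV] at h3
    apply mul_right_cancel₀ hV
    rw [h3, mul_comm]
  have hvU : OneUnit N A v := by
    refine ⟨HahnSeries.C (⟨d, hdA⟩ : A) * P, Q, hQr, hredeq, ?_⟩
    rw [map_mul, incl_C]
    exact hS
  exact ⟨c₁, g * h, v, hc₁0, hgh, hvU, hzv⟩

end SAT

/-! ### The classes `𝒳_n` of the contract -/

variable {N' p : ℕ} [NeZero N'] [NeZero p] [Fact p.Prime]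

variable (K : KummerSystem (N' * p) p) (A : ValuationSubring Qb)
  (w : FN (N' * p) ≃ₐ[Qb] FN (N' * p))

/-- `𝒳_n` is a subgroup. -/
theorem subStatement : SubStatement K A w := by
  intro n
  refine ⟨⟨1, K.R_one n, trivAt_one, ?_⟩, ?_, ?_⟩
  · rw [map_one]; exact trivAt_one
  · rintro c d ⟨x, hx, hx1, hx2⟩ ⟨y, hy, hy1, hy2⟩
    exact ⟨x * y, K.mul hx hy, trivAt_mul hx1 hy1, by rw [map_mul]; exact trivAt_mul hx2 hy2⟩
  · rintro c ⟨x, hx, hx1, hx2⟩
    exact ⟨x⁻¹, K.R_inv hx, trivAt_inv hx1, by rw [map_inv₀]; exact trivAt_inv hx2⟩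

/-- Every Kummer function of a class of `𝒳_n` is `n`-trivial, together with its swap. -/
theorem trivAt_of_inX {n : ℕ} {c : K.A →+ ZMod (p ^ n)} (hc : InX K A w n c)
    {x : FN (N' * p)} (hx : K.R n x c) :
    TrivAt (N' * p) A p n x ∧ TrivAt (N' * p) A p n (w x) := by
  obtain ⟨x₀, hx₀, h1, h2⟩ := hc
  obtain ⟨h, hh, rfl⟩ := K.exists_eq_mul_pow hx₀ hx
  have hwh : w h ≠ 0 := (map_ne_zero w).mpr hh
  refine ⟨trivAt_mul_pow h1 hh, ?_⟩
  rw [map_mul, map_pow]
  exact trivAt_mul_pow h2 hwh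

/-- **(GA)** For `τ` in the inertia group of `A`, `τ c - c ∈ 𝒳_n`.  Only the Galois
equivariance of `w` is used. -/
theorem gaStatement (hA : A.LiesOverPrime p)
    (hw : ∀ (σ : GQ) (z : FN (N' * p)), w (galF (N' * p) σ z) = galF (N' * p) σ (w z)) :
    GAStatement K A w := by
  intro n c τ hτ
  obtain ⟨f, hf⟩ := K.ex n c
  have hf0 := K.ne_zero hf
  have hwf0 : w f ≠ 0 := (map_ne_zero _).mpr hf0
  have hR : K.R n (galF (N' * p) τ f * f⁻¹) (K.act n τ c - c) := by
    rw [sub_eq_add_neg, KummerSystem.act_apply]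
    exact K.mul (K.actFun_spec τ hf) (K.R_inv hf)
  refine ⟨galF (N' * p) τ f * f⁻¹, hR, trivAt_gal_div hA hτ hf0 n, ?_⟩
  rw [map_mul, map_inv₀, hw]
  exact trivAt_gal_div hA hτ hwf0 n

/-- `𝒳_n` is stable under the inertia group of `A`. -/
theorem inX_act (hA : A.LiesOverPrime p)
    (hw : ∀ (σ : GQ) (z : FN (N' * p)), w (galF (N' * p) σ z) = galF (N' * p) σ (w z))
    {n : ℕ} {c : K.A →+ ZMod (p ^ n)} (hc : InX K A w n c) {τ : GQ}
    (hτ : τ ∈ A.inertiaSubgroupIn ℚ) : InX K A w n (K.act n τ c) := by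
  have h := (subStatement K A w n).2.1 _ _ (gaStatement K A w hA hw n c τ hτ) hc
  rwa [sub_add_cancel] at h

/-- **(SAT)**, one-step form. -/
theorem satStatement (hA : A.LiesOverPrime p) : SATStatement K A w := by
  rintro n c ⟨x, hx, hx1, hx2⟩
  obtain ⟨y, hy⟩ := K.ex (n + 2) c
  have hy0 := K.ne_zero hy
  obtain ⟨h₀, hh₀, e⟩ := K.exists_eq_mul_pow hx (K.R_pow hy (p ^ (n + 1)))
  have hwh0 : w h₀ ≠ 0 := (map_ne_zero w).mpr hh₀
  have hz0 : y ^ p ^ n ≠ 0 := pow_ne_zero _ hy0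
  have hwz0 : w (y ^ p ^ n) ≠ 0 := (map_ne_zero w).mpr hz0
  have e1 : (y ^ p ^ n) ^ p ^ 1 = x * h₀ ^ p ^ (n + 2) := by
    rw [← e, pow_one, ← pow_mul, ← pow_succ]
  refine ⟨y ^ p ^ n, K.R_pow (K.red hy) (p ^ n),
    trivAt_of_pow hA (a := 1) (m := n + 1) rfl hz0 hh₀ hx1 e1, ?_⟩
  refine trivAt_of_pow hA (a := 1) (m := n + 1) rfl hwz0 hwh0 hx2 ?_
  rw [← map_pow, e1, map_mul, map_pow]

/-- **(SAT)**, definition-independent form: if `f` is a Kummer function of level `n + 1` with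
class `c` and of level `1` with class `c₁`, and `p ^ n • c ∈ 𝒳_(n+1)`, then `c₁ ∈ 𝒳_1`. -/
theorem sat (hA : A.LiesOverPrime p) (n : ℕ) (c : K.A →+ ZMod (p ^ (n + 1)))
    (c₁ : K.A →+ ZMod (p ^ 1)) (f : FN (N' * p)) (hf : K.R (n + 1) f c) (hf₁ : K.R 1 f c₁)
    (h : InX K A w (n + 1) (p ^ n • c)) : InX K A w 1 c₁ := by
  obtain ⟨x, hx, hx1, hx2⟩ := h
  have hf0 := K.ne_zero hf
  obtain ⟨h₀, hh₀, e⟩ := K.exists_eq_mul_pow hx (K.R_pow hf (p ^ n))
  have hwf0 : w f ≠ 0 := (map_ne_zero w).mpr hf0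
  have hwh0 : w h₀ ≠ 0 := (map_ne_zero w).mpr hh₀
  refine ⟨f, hf₁, trivAt_of_pow hA (a := n) (m := 1) (Nat.add_comm n 1) hf0 hh₀ hx1 e, ?_⟩
  refine trivAt_of_pow hA (a := n) (m := 1) (Nat.add_comm n 1) hwf0 hwh0 hx2 ?_
  rw [← map_pow, e, map_mul, map_pow]

/-- The iterated transition `Hom(A, ℤ/p^(n+1)) → Hom(A, ℤ/p)`. -/
def redIter : ∀ n : ℕ, (K.A →+ ZMod (p ^ (n + 1))) → (K.A →+ ZMod (p ^ 1))
  | 0, c => c
  | n + 1, c => redIter n (BettiLimit.red K.A p (n + 1) c)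

theorem R_redIter : ∀ (n : ℕ) {f : FN (N' * p)} {c : K.A →+ ZMod (p ^ (n + 1))},
    K.R (n + 1) f c → K.R 1 f (redIter K n c)
  | 0, _, _, h => h
  | n + 1, _, _, h => R_redIter n (K.red h)

/-- **(SAT)**, iterated form: if `p ^ n • c ∈ 𝒳_(n+1)` then `(c mod p) ∈ 𝒳_1`. -/
theorem satIter (hA : A.LiesOverPrime p) (n : ℕ) (c : K.A →+ ZMod (p ^ (n + 1)))
    (h : InX K A w (n + 1) (p ^ n • c)) : InX K A w 1 (redIter K n c) := by
  obtain ⟨f, hf⟩ := K.ex (n + 1) c
  exact sat K A w hA n c _ f hf (R_redIter K n hf) h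

/-- **The row GA/SAT**: `𝒳_n` is a subgroup, (GA) and (SAT), for every Kummer system, every
valuation subring over `p` and every swap. -/
theorem gaSatStatement (N' p : ℕ) [NeZero N'] [NeZero p] [Fact p.Prime] :
    GaSatStatement N' p := fun K A hA w hw =>
  ⟨subStatement K A w, gaStatement K A w hA hw.gal, satStatement K A w hA⟩

end Fermat.Agent.S33.Geo.GaSat
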