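/-
S33 / GEO, COV' brick C1 (FIELD), level-free core (Mathlib only).

Galois descent of a finite Galois extension `L / F1` along a finite group `Γ` of
`F`-automorphisms of `L` which commutes with `Gal(L / F1)`, acts faithfully on `F1` and has
`F1 ^ Γ = F`: the fixed field `L0 = L ^ Γ` is Galois over `F`, `[L0 : F] = [L : F1]`,
`L0 ⊔ F1 = L` and `L0 ⊓ F1 = F`.

Instance (COV' PLAN v1, C1): `F = LE (M' p) K`, `F1 = F K1`, `K1 = K(ζ_p)`,
`L = F1(T_1, .., T_s)` with `T_i ^ p = y_i ∈ F1` (leading coefficient 1), `Γ` generated by the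
coefficientwise action `τ` of a generator of `Gal(K1 / K)`; `τ T_i = c_i T_i ^ a` and
`τ ζ = ζ ^ a` (the `y_i` are `ω`-eigenclasses), which gives the commutation (`comm_of_kummer`).

* `descent_core`    : the statement for a finite subgroup `Γ ≤ Gal(L / F)`.
* `descent_zpowers` : the same for `Γ = ⟨τ⟩`, `τ` of finite order, hypotheses on `τ` only.
* `comm_of_kummer`  : `τ δ = δ τ` for every `δ ∈ Gal(L / F1)` from the action of `τ` on Kummer
  generators.
* `descent_kummer`  : `descent_zpowers` with the commutation supplied by `comm_of_kummer`.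
* `mem_fixedField_zpowers` : `x ∈ L ^ ⟨τ⟩ ↔ τ x = x`.
-/
import Mathlib

set_option autoImplicit false

namespace Fermat.Agent.S33.Geo.FieldDescent

section

variable {F F1 L : Type*} [Field F] [Field F1] [Field L] [Algebra F F1] [Algebra F1 L]
  [Algebra F L] [IsScalarTower F F1 L]

variable (F) in
/-- `Gal(L / F1) → Gal(L / F)`. -/
def resHom : (L ≃ₐ[F1] L) →* (L ≃ₐ[F] L) where
  toFun δ := δ.restrictScalars F
  map_one' := AlgEquiv.ext fun _ => rfl
  map_mul' _ _ := AlgEquiv.ext fun _ => rfl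

theorem resHom_apply (δ : L ≃ₐ[F1] L) (x : L) : resHom F δ x = δ x := rfl

/-- **Galois descent along a commuting finite group.** -/
theorem descent_core [FiniteDimensional F1 L] [IsGalois F1 L]
    (Γ : Subgroup (L ≃ₐ[F] L)) [Finite Γ]
    (hfix : ∀ x : F1, (∀ γ ∈ Γ, γ (algebraMap F1 L x) = algebraMap F1 L x) →
      ∃ c : F, algebraMap F F1 c = x)
    (hfaith : ∀ γ ∈ Γ, (∀ x : F1, γ (algebraMap F1 L x) = algebraMap F1 L x) → γ = 1)
    (hcomm : ∀ γ ∈ Γ, ∀ (δ : L ≃ₐ[F1] L) (x : L), γ (δ x) = δ (γ x)) :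
    FiniteDimensional F L ∧ IsGalois F L ∧ IsGalois F (IntermediateField.fixedField Γ) ∧
      Module.finrank F (IntermediateField.fixedField Γ) = Module.finrank F1 L ∧
      IntermediateField.fixedField Γ ⊔ (IsScalarTower.toAlgHom F F1 L).fieldRange = ⊤ ∧
      IntermediateField.fixedField Γ ⊓ (IsScalarTower.toAlgHom F F1 L).fieldRange = ⊥ := by
  classical
  have hcommute : ∀ (γ : Γ) (δ : L ≃ₐ[F1] L), Commute (Γ.subtype γ) (resHom F δ) := by
    intro γ δ
    refine AlgEquiv.ext fun x => ?_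
    exact hcomm γ.1 γ.2 δ x
  let φ : Γ × (L ≃ₐ[F1] L) →* (L ≃ₐ[F] L) := Γ.subtype.noncommCoprod (resHom F) hcommute
  have hφ : ∀ (γ : Γ) (δ : L ≃ₐ[F1] L) (x : L), φ (γ, δ) x = γ.1 (δ x) := fun _ _ _ => rfl
  have hφfin : Finite φ.range := Finite.of_surjective φ.rangeRestrict φ.rangeRestrict_surjective
  -- the fixed field of the image of `φ` is `F`
  have hG : IntermediateField.fixedField φ.range = ⊥ := by
    refine eq_bot_iff.mpr fun x hx => ?_
    rw [IntermediateField.mem_fixedField_iff] at hx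
    have hx1 : ∀ δ : L ≃ₐ[F1] L, δ x = x := fun δ => by
      have h := hx (φ (1, δ)) (MonoidHom.mem_range.mpr ⟨(1, δ), rfl⟩)
      rw [hφ] at h
      exact h
    have hx2 : ∀ γ ∈ Γ, γ x = x := fun γ hγ => by
      have h := hx (φ (⟨γ, hγ⟩, 1)) (MonoidHom.mem_range.mpr ⟨(⟨γ, hγ⟩, 1), rfl⟩)
      rw [hφ] at h
      exact h
    obtain ⟨y, rfl⟩ := (IsGalois.mem_range_algebraMap_iff_fixed (F := F1) (E := L) x).mpr hx1
    obtain ⟨c, rfl⟩ := hfix y hx2
    rw [← IsScalarTower.algebraMap_apply F F1 L]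
    exact (⊥ : IntermediateField F L).algebraMap_mem c
  -- Artin: `L / F` is finite
  have hfin : FiniteDimensional F L := by
    have h1 : FiniteDimensional (IntermediateField.fixedField φ.range) L :=
      inferInstanceAs (FiniteDimensional (FixedPoints.subfield φ.range L) L)
    have key : ∀ K : IntermediateField F L, K = ⊥ → FiniteDimensional K L →
        FiniteDimensional F L := by
      rintro K rfl h
      have h0 : FiniteDimensional F (⊥ : IntermediateField F L) :=
        Module.Finite.equiv (IntermediateField.botEquiv F L).symm.toLinearEquiv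
      exact Module.Finite.trans (⊥ : IntermediateField F L) L
    exact key _ hG h1
  have hgal : IsGalois F L := by
    refine IsGalois.of_fixedField_eq_bot F L (eq_bot_iff.mpr ?_)
    rw [← hG]
    exact IntermediateField.fixedField_le le_top
  -- `φ` is bijective
  have htop : φ.range = ⊤ := by
    have h := IntermediateField.fixingSubgroup_fixedField φ.range
    rw [hG, IntermediateField.fixingSubgroup_bot] at h
    exact h.symm
  have hsurj : Function.Surjective φ := MonoidHom.range_eq_top.mp htop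
  have hinj : Function.Injective φ := by
    refine (injective_iff_map_eq_one φ).mpr ?_
    rintro ⟨γ, δ⟩ h
    have h1 : ∀ x : L, γ.1 (δ x) = x := fun x => by
      have h' := DFunLike.congr_fun h x
      exact h'
    have h2 : γ.1 = 1 := by
      refine hfaith γ.1 γ.2 fun y => ?_
      have h' := h1 (algebraMap F1 L y)
      rwa [δ.commutes] at h'
    have h3 : δ = 1 := by
      refine AlgEquiv.ext fun x => ?_
      have h' := h1 x
      rw [h2] at h'
      exact h'
    exact Prod.ext (Subtype.ext h2) h3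
  have hcard : Nat.card Γ * Module.finrank F1 L = Module.finrank F L := by
    rw [← IsGalois.card_aut_eq_finrank F1 L, ← IsGalois.card_aut_eq_finrank F L, ← Nat.card_prod]
    exact Nat.card_congr (Equiv.ofBijective φ ⟨hinj, hsurj⟩)
  have hdeg : Module.finrank F (IntermediateField.fixedField Γ) = Module.finrank F1 L := by
    have h1 : Module.finrank F (IntermediateField.fixedField Γ) *
        Module.finrank (IntermediateField.fixedField Γ) L = Module.finrank F L :=
      Module.finrank_mul_finrank F (IntermediateField.fixedField Γ) L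
    rw [IntermediateField.finrank_fixedField_eq_card, ← hcard,
      mul_comm (Module.finrank F (IntermediateField.fixedField Γ))] at h1
    exact Nat.eq_of_mul_eq_mul_left Nat.card_pos h1
  -- `Γ` is normal
  have hnormal : Γ.Normal := by
    refine ⟨fun n hn g => ?_⟩
    obtain ⟨⟨γ, δ⟩, rfl⟩ := hsurj g
    have hcm : n * resHom F δ = resHom F δ * n := (hcommute ⟨n, hn⟩ δ).eq
    have e : φ (γ, δ) = γ.1 * resHom F δ := rfl
    have e2 : φ (γ, δ) * n * (φ (γ, δ))⁻¹ = γ.1 * n * (γ.1)⁻¹ := by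
      rw [e, mul_inv_rev, mul_assoc γ.1 (resHom F δ) n, ← hcm]
      group
    rw [e2]
    exact Γ.mul_mem (Γ.mul_mem γ.2 hn) (Γ.inv_mem γ.2)
  have hgal0 : IsGalois F (IntermediateField.fixedField Γ) :=
    IsGalois.of_fixedField_normal_subgroup Γ
  -- compositum and intersection
  have hsup : IntermediateField.fixedField Γ ⊔ (IsScalarTower.toAlgHom F F1 L).fieldRange = ⊤ := by
    have h1 : Γ ⊓ (IsScalarTower.toAlgHom F F1 L).fieldRange.fixingSubgroup = ⊥ := by
      refine eq_bot_iff.mpr fun σ hσ => ?_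
      rw [Subgroup.mem_bot]
      refine hfaith σ (Subgroup.mem_inf.mp hσ).1 fun y => ?_
      exact (IntermediateField.mem_fixingSubgroup_iff _ σ).mp (Subgroup.mem_inf.mp hσ).2 _
        (AlgHom.mem_fieldRange.mpr ⟨y, rfl⟩)
    rw [← IsGalois.fixedField_fixingSubgroup
      (IntermediateField.fixedField Γ ⊔ (IsScalarTower.toAlgHom F F1 L).fieldRange),
      IntermediateField.fixingSubgroup_sup, IntermediateField.fixingSubgroup_fixedField, h1,
      IntermediateField.fixedField_bot]
  have hinf : IntermediateField.fixedField Γ ⊓ (IsScalarTower.toAlgHom F F1 L).fieldRange = ⊥ := by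
    refine eq_bot_iff.mpr fun x hx => ?_
    obtain ⟨hx1, hx2⟩ := IntermediateField.mem_inf.mp hx
    obtain ⟨y, rfl⟩ := AlgHom.mem_fieldRange.mp hx2
    have hy : ∀ γ ∈ Γ, γ (algebraMap F1 L y) = algebraMap F1 L y :=
      fun γ hγ => (IntermediateField.mem_fixedField_iff Γ _).mp hx1 γ hγ
    obtain ⟨c, rfl⟩ := hfix y hy
    show algebraMap F1 L (algebraMap F F1 c) ∈ (⊥ : IntermediateField F L)
    rw [← IsScalarTower.algebraMap_apply F F1 L]
    exact (⊥ : IntermediateField F L).algebraMap_mem c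
  exact ⟨hfin, hgal, hgal0, hdeg, hsup, hinf⟩

/-- The fixed field of the group generated by `τ` is the set of fixed points of `τ`. -/
theorem mem_fixedField_zpowers (τ : L ≃ₐ[F] L) (x : L) :
    x ∈ IntermediateField.fixedField (Subgroup.zpowers τ) ↔ τ x = x := by
  constructor
  · intro h
    exact (IntermediateField.mem_fixedField_iff _ x).mp h τ (Subgroup.mem_zpowers τ)
  · intro h
    rw [IntermediateField.mem_fixedField_iff]
    intro σ hσ
    have h1 : Subgroup.zpowers τ ≤ MulAction.stabilizer (L ≃ₐ[F] L) x :=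
      Subgroup.zpowers_le.mpr (MulAction.mem_stabilizer_iff.mpr h)
    exact MulAction.mem_stabilizer_iff.mp (h1 hσ)

omit [Algebra F F1] [IsScalarTower F F1 L] in
/-- If `τ` commutes with `δ`, so does every power of `τ`. -/
theorem pow_comm_of_comm (τ : L ≃ₐ[F] L) (δ : L ≃ₐ[F1] L)
    (hcomm : ∀ x : L, τ (δ x) = δ (τ x)) (k : ℕ) : ∀ x : L, (τ ^ k) (δ x) = δ ((τ ^ k) x) := by
  induction k with
  | zero =>
    intro x
    rw [pow_zero, AlgEquiv.one_apply, AlgEquiv.one_apply]
  | succ k ih =>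
    intro x
    rw [pow_succ, AlgEquiv.mul_apply, AlgEquiv.mul_apply, hcomm, ih]

/-- **Galois descent along a commuting automorphism of finite order.** -/
theorem descent_zpowers [FiniteDimensional F1 L] [IsGalois F1 L]
    (τ : L ≃ₐ[F] L) (hτ : IsOfFinOrder τ)
    (hfix : ∀ x : F1, τ (algebraMap F1 L x) = algebraMap F1 L x → ∃ c : F, algebraMap F F1 c = x)
    (hfaith : ∀ k : ℕ, (∀ x : F1, (τ ^ k) (algebraMap F1 L x) = algebraMap F1 L x) → τ ^ k = 1)
    (hcomm : ∀ (δ : L ≃ₐ[F1] L) (x : L), τ (δ x) = δ (τ x)) :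
    FiniteDimensional F L ∧ IsGalois F L ∧
      IsGalois F (IntermediateField.fixedField (Subgroup.zpowers τ)) ∧
      Module.finrank F (IntermediateField.fixedField (Subgroup.zpowers τ)) =
        Module.finrank F1 L ∧
      IntermediateField.fixedField (Subgroup.zpowers τ) ⊔
        (IsScalarTower.toAlgHom F F1 L).fieldRange = ⊤ ∧
      IntermediateField.fixedField (Subgroup.zpowers τ) ⊓
        (IsScalarTower.toAlgHom F F1 L).fieldRange = ⊥ := by
  have : Finite (Subgroup.zpowers τ) := hτ.finite_zpowers.to_subtype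
  have hpow : ∀ γ ∈ Subgroup.zpowers τ, ∃ k : ℕ, τ ^ k = γ := fun γ hγ =>
    (Submonoid.mem_powers_iff γ τ).mp (hτ.mem_powers_iff_mem_zpowers.mpr hγ)
  refine descent_core (Subgroup.zpowers τ) ?_ ?_ ?_
  · intro x hx
    exact hfix x (hx τ (Subgroup.mem_zpowers τ))
  · intro γ hγ hx
    obtain ⟨k, rfl⟩ := hpow γ hγ
    exact hfaith k hx
  · intro γ hγ δ x
    obtain ⟨k, rfl⟩ := hpow γ hγ
    exact pow_comm_of_comm τ δ (hcomm δ) k x

omit [Algebra F F1] [IsScalarTower F F1 L] in
/-- **Commutation from Kummer generators.**  `L = F1(S)`, `t ^ p ∈ F1` for `t ∈ S`, `ζ ∈ F1` a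
primitive `p`-th root of unity; `τ` stabilises `F1`, `τ ζ = ζ ^ a` and `τ t = c_t * t ^ a` with
`c_t ∈ F1`, the same exponent `a`.  Then `τ` commutes with every `δ ∈ Gal(L / F1)`. -/
theorem comm_of_kummer {p : ℕ} [NeZero p] {ζ : F1} (hζ : IsPrimitiveRoot ζ p)
    (τ : L ≃ₐ[F] L) (a : ℕ)
    (hτF1 : ∀ x : F1, ∃ y : F1, τ (algebraMap F1 L x) = algebraMap F1 L y)
    (hτζ : τ (algebraMap F1 L ζ) = algebraMap F1 L ζ ^ a)
    (S : Set L) (hS : IntermediateField.adjoin F1 S = ⊤)
    (hSp : ∀ t ∈ S, ∃ y : F1, t ^ p = algebraMap F1 L y)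
    (hτS : ∀ t ∈ S, ∃ c : F1, τ t = algebraMap F1 L c * t ^ a)
    (δ : L ≃ₐ[F1] L) (x : L) : τ (δ x) = δ (τ x) := by
  let f : L →+* L := (τ : L →+* L).comp (δ : L →+* L)
  let g : L →+* L := (δ : L →+* L).comp (τ : L →+* L)
  have hf : ∀ z : L, f z = τ (δ z) := fun _ => rfl
  have hg : ∀ z : L, g z = δ (τ z) := fun _ => rfl
  have hbase : ∀ y : F1, algebraMap F1 L y ∈ f.eqLocusField g := by
    intro y
    obtain ⟨y', hy'⟩ := hτF1 y
    show f (algebraMap F1 L y) = g (algebraMap F1 L y)
    rw [hf, hg, δ.commutes, hy', δ.commutes]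
  let E : IntermediateField F1 L := (f.eqLocusField g).toIntermediateField hbase
  have hmemE : ∀ z : L, z ∈ E ↔ f z = g z := fun _ => Iff.rfl
  have hζ' : IsPrimitiveRoot (algebraMap F1 L ζ) p :=
    hζ.map_of_injective (algebraMap F1 L).injective
  have hSE : S ⊆ (E : Set L) := by
    intro t ht
    show t ∈ E
    rw [hmemE, hf, hg]
    obtain ⟨y, hy⟩ := hSp t ht
    obtain ⟨c, hc⟩ := hτS t ht
    by_cases ht0 : t = 0
    · rw [ht0, map_zero, map_zero, map_zero]
    · have h1 : (δ t / t) ^ p = 1 := by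
        have hy0 : algebraMap F1 L y ≠ 0 := by
          rw [← hy]
          exact pow_ne_zero p ht0
        rw [div_pow, ← map_pow, hy, δ.commutes]
        exact div_self hy0
      obtain ⟨i, -, hi⟩ := hζ'.eq_pow_of_pow_eq_one h1
      have h2 : δ t = algebraMap F1 L ζ ^ i * t := by
        rw [hi, div_mul_cancel₀ _ ht0]
      rw [h2, map_mul, map_pow, hτζ, hc, map_mul, map_pow, δ.commutes, h2]
      ring
  have hx : x ∈ E := by
    have h1 : IntermediateField.adjoin F1 S ≤ E := IntermediateField.adjoin_le_iff.mpr hSE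
    rw [hS] at h1
    exact h1 IntermediateField.mem_top
  exact (hmemE x).mp hx

/-- **Descent for a Kummer tower**: `descent_zpowers` with the commutation hypothesis supplied
by `comm_of_kummer`. -/
theorem descent_kummer [FiniteDimensional F1 L] [IsGalois F1 L]
    {p : ℕ} [NeZero p] {ζ : F1} (hζ : IsPrimitiveRoot ζ p)
    (τ : L ≃ₐ[F] L) (hτ : IsOfFinOrder τ) (a : ℕ)
    (hfix : ∀ x : F1, τ (algebraMap F1 L x) = algebraMap F1 L x → ∃ c : F, algebraMap F F1 c = x)
    (hfaith : ∀ k : ℕ, (∀ x : F1, (τ ^ k) (algebraMap F1 L x) = algebraMap F1 L x) → τ ^ k = 1)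
    (hτF1 : ∀ x : F1, ∃ y : F1, τ (algebraMap F1 L x) = algebraMap F1 L y)
    (hτζ : τ (algebraMap F1 L ζ) = algebraMap F1 L ζ ^ a)
    (S : Set L) (hS : IntermediateField.adjoin F1 S = ⊤)
    (hSp : ∀ t ∈ S, ∃ y : F1, t ^ p = algebraMap F1 L y)
    (hτS : ∀ t ∈ S, ∃ c : F1, τ t = algebraMap F1 L c * t ^ a) :
    FiniteDimensional F L ∧ IsGalois F L ∧
      IsGalois F (IntermediateField.fixedField (Subgroup.zpowers τ)) ∧
      Module.finrank F (IntermediateField.fixedField (Subgroup.zpowers τ)) =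
        Module.finrank F1 L ∧
      IntermediateField.fixedField (Subgroup.zpowers τ) ⊔
        (IsScalarTower.toAlgHom F F1 L).fieldRange = ⊤ ∧
      IntermediateField.fixedField (Subgroup.zpowers τ) ⊓
        (IsScalarTower.toAlgHom F F1 L).fieldRange = ⊥ :=
  descent_zpowers τ hτ hfix hfaith (comm_of_kummer hζ τ a hτF1 hτζ S hS hSp hτS)

end

end Fermat.Agent.S33.Geo.FieldDescent
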