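/-
S33 / GEO, COV' brick C1 (FIELD), level-free core in AMBIENT form (Mathlib + FieldDescent +
KummerTower).

`Ω` a field over `F` (characteristic `0`), `F1` an intermediate field containing a primitive
`p`-th root of unity `ζ`, `T_1, .., T_s ∈ Ω` with `T_i ^ p ∈ F1`, `L1 = F1(T_1, .., T_s)`;
`σ` an `F`-automorphism of `Ω` with `σ F1 ⊆ F1`, `σ ζ = ζ ^ a`, `σ T_i = c_i T_i ^ a`
(`c_i ∈ F1`, the same exponent `a`), `σ ^ d = 1` on `L1`, `F1 ^ σ = F`, and a power of `σ`
trivial on `F1` trivial on `L1`.  Then `L0 := L1 ∩ Ω ^ σ` is finite Galois over `F` of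
`p`-power degree, `L0 F1 = L1`, `L0 ∩ F1 = F`, and `L1 / F` is finite Galois.

* `exists_restrict` : the restriction of `σ` to a stable intermediate field on which a power of
  `σ` is trivial, as an `F`-algebra automorphism.
* `cover_field_aux` : the statement for an abstract finite Galois `E / F1` inside `Ω`.
* `cover_field`     : the one-stop statement for `L1 = F1 ⊔ adjoin F (range T)`.
-/
import Mathlib
import Fermat.Agent.S33.Geo.FieldDescent
import Fermat.Agent.S33.Geo.KummerTower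

set_option autoImplicit false

namespace Fermat.Agent.S33.Geo.CoverField

open IntermediateField

section

variable {F Ω : Type*} [Field F] [Field Ω] [Algebra F Ω]

/-- The restriction of an `F`-automorphism `σ` of `Ω` to a `σ`-stable intermediate field `E` of
`Ω / K` on which `σ ^ (n + 1)` is the identity. -/
theorem exists_restrict {K : Type*} [Field K] [Algebra F K] [Algebra K Ω] [IsScalarTower F K Ω]
    (σ : Ω ≃ₐ[F] Ω) (E : IntermediateField K Ω) (hstab : ∀ x ∈ E, σ x ∈ E) (n : ℕ)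
    (hn : ∀ x ∈ E, (σ ^ (n + 1)) x = x) : ∃ τ : E ≃ₐ[F] E, ∀ x : E, (τ x : Ω) = σ x := by
  have hpow : ∀ (k : ℕ) (x : Ω), x ∈ E → (σ ^ k) x ∈ E := by
    intro k
    induction k with
    | zero =>
      intro x hx
      rw [pow_zero, AlgEquiv.one_apply]
      exact hx
    | succ k ih =>
      intro x hx
      rw [pow_succ, AlgEquiv.mul_apply]
      exact ih _ (hstab x hx)
  let f : E →ₐ[F] E :=
    { toFun := fun x => ⟨σ x, hstab x x.2⟩
      map_one' := Subtype.ext (map_one σ)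
      map_mul' := fun x y => Subtype.ext (map_mul σ (x : Ω) (y : Ω))
      map_zero' := Subtype.ext (map_zero σ)
      map_add' := fun x y => Subtype.ext (map_add σ (x : Ω) (y : Ω))
      commutes' := fun c => Subtype.ext (σ.commutes c) }
  let g : E →ₐ[F] E :=
    { toFun := fun x => ⟨(σ ^ n) x, hpow n x x.2⟩
      map_one' := Subtype.ext (map_one (σ ^ n))
      map_mul' := fun x y => Subtype.ext (map_mul (σ ^ n) (x : Ω) (y : Ω))
      map_zero' := Subtype.ext (map_zero (σ ^ n))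
      map_add' := fun x y => Subtype.ext (map_add (σ ^ n) (x : Ω) (y : Ω))
      commutes' := fun c => Subtype.ext ((σ ^ n).commutes c) }
  have hfg : f.comp g = AlgHom.id F E := by
    refine AlgHom.ext fun x => Subtype.ext ?_
    show σ ((σ ^ n) (x : Ω)) = x
    rw [← AlgEquiv.mul_apply, ← pow_succ']
    exact hn x x.2
  have hgf : g.comp f = AlgHom.id F E := by
    refine AlgHom.ext fun x => Subtype.ext ?_
    show (σ ^ n) (σ (x : Ω)) = x
    rw [← AlgEquiv.mul_apply, ← pow_succ]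
    exact hn x x.2
  exact ⟨AlgEquiv.ofAlgHom f g hfg hgf, fun x => rfl⟩

/-- **Cover field, abstract form.**  `E / F1` finite Galois of degree `p ^ m` inside `Ω`,
generated by Kummer elements. -/
theorem cover_field_aux {p : ℕ} [NeZero p] (F1 : IntermediateField F Ω)
    (E : IntermediateField F1 Ω) [FiniteDimensional F1 E] [IsGalois F1 E]
    (m : ℕ) (hm : Module.finrank F1 E = p ^ m)
    (L1 : IntermediateField F Ω) (hEL : E.restrictScalars F = L1)
    (σ : Ω ≃ₐ[F] Ω) (n : ℕ) (hσd : ∀ x ∈ E, (σ ^ (n + 1)) x = x) (hstab : ∀ x ∈ E, σ x ∈ E)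
    (a : ℕ) (ζ : F1) (hζ : IsPrimitiveRoot ζ p) (hσζ : σ (ζ : Ω) = (ζ : Ω) ^ a)
    (S : Set E) (hS : IntermediateField.adjoin F1 S = ⊤)
    (hSp : ∀ t ∈ S, ∃ y : F1, t ^ p = algebraMap F1 E y)
    (hσS : ∀ t ∈ S, ∃ c : F1, σ (t : Ω) = (c : Ω) * (t : Ω) ^ a)
    (hσF1 : ∀ x ∈ F1, σ x ∈ F1)
    (hfix : ∀ x ∈ F1, σ x = x → x ∈ (⊥ : IntermediateField F Ω))
    (hfaith : ∀ k : ℕ, (∀ x ∈ F1, (σ ^ k) x = x) → ∀ x ∈ E, (σ ^ k) x = x) :
    FiniteDimensional F ↥(L1 ⊓ fixedField (Subgroup.zpowers σ)) ∧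
      IsGalois F ↥(L1 ⊓ fixedField (Subgroup.zpowers σ)) ∧
      (∃ m : ℕ, Module.finrank F ↥(L1 ⊓ fixedField (Subgroup.zpowers σ)) = p ^ m) ∧
      (L1 ⊓ fixedField (Subgroup.zpowers σ)) ⊔ F1 = L1 ∧
      (L1 ⊓ fixedField (Subgroup.zpowers σ)) ⊓ F1 = ⊥ ∧
      (∀ x, x ∈ L1 ⊓ fixedField (Subgroup.zpowers σ) ↔ x ∈ L1 ∧ σ x = x) ∧
      FiniteDimensional F L1 ∧ IsGalois F L1 := by
  subst hEL
  -- the restriction of `σ`
  obtain ⟨τ, hτ⟩ := exists_restrict σ E hstab n hσd
  have hτpow : ∀ (k : ℕ) (x : E), ((τ ^ k) x : Ω) = (σ ^ k) (x : Ω) := by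
    intro k
    induction k with
    | zero =>
      intro x
      rw [pow_zero, pow_zero, AlgEquiv.one_apply, AlgEquiv.one_apply]
    | succ k ih =>
      intro x
      rw [pow_succ, pow_succ, AlgEquiv.mul_apply, AlgEquiv.mul_apply, ih, hτ]
  have hτfin : IsOfFinOrder τ := by
    refine isOfFinOrder_iff_pow_eq_one.mpr ⟨n + 1, Nat.succ_pos n, ?_⟩
    refine AlgEquiv.ext fun x => Subtype.ext ?_
    rw [hτpow]
    exact hσd x x.2
  -- the hypotheses of `descent_kummer`
  have hfix' : ∀ x : F1, τ (algebraMap F1 E x) = algebraMap F1 E x →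
      ∃ c : F, algebraMap F F1 c = x := by
    intro x hx
    have h1 : σ (x : Ω) = x := by
      have h2 := congrArg Subtype.val hx
      rw [hτ] at h2
      exact h2
    obtain ⟨c, hc⟩ := IntermediateField.mem_bot.mp (hfix x x.2 h1)
    exact ⟨c, Subtype.ext hc⟩
  have hfaith' : ∀ k : ℕ, (∀ x : F1, (τ ^ k) (algebraMap F1 E x) = algebraMap F1 E x) →
      τ ^ k = 1 := by
    intro k hk
    refine AlgEquiv.ext fun y => Subtype.ext ?_
    rw [hτpow]
    refine hfaith k (fun x hx => ?_) y y.2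
    have h2 := congrArg Subtype.val (hk ⟨x, hx⟩)
    rw [hτpow] at h2
    exact h2
  have hτF1 : ∀ x : F1, ∃ y : F1, τ (algebraMap F1 E x) = algebraMap F1 E y :=
    fun x => ⟨⟨σ x, hσF1 x x.2⟩, Subtype.ext (hτ _)⟩
  have hτζ : τ (algebraMap F1 E ζ) = algebraMap F1 E ζ ^ a := by
    refine Subtype.ext ?_
    rw [hτ]
    exact hσζ
  have hτS : ∀ t ∈ S, ∃ c : F1, τ t = algebraMap F1 E c * t ^ a := by
    intro t ht
    obtain ⟨c, hc⟩ := hσS t ht
    refine ⟨c, Subtype.ext ?_⟩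
    rw [hτ]
    exact hc
  obtain ⟨hfdL, hgalL, hgal0, hdeg, hsup, -⟩ :=
    FieldDescent.descent_kummer (F := F) hζ τ hτfin a hfix' hfaith' hτF1 hτζ S hS hSp hτS
  -- transport to `Ω`
  let f : E →ₐ[F] Ω := E.val.restrictScalars F
  have hf : ∀ y : E, f y = (y : Ω) := fun _ => rfl
  have hA : (fixedField (Subgroup.zpowers τ)).map f =
      E.restrictScalars F ⊓ fixedField (Subgroup.zpowers σ) := by
    ext x
    constructor
    · intro hx
      obtain ⟨y, hy, rfl⟩ := (IntermediateField.mem_map _).mp hx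
      have h1 : τ y = y := (FieldDescent.mem_fixedField_zpowers τ y).mp hy
      refine IntermediateField.mem_inf.mpr
        ⟨y.2, (FieldDescent.mem_fixedField_zpowers σ _).mpr ?_⟩
      have h2 := congrArg Subtype.val h1
      rw [hτ] at h2
      exact h2
    · intro hx
      obtain ⟨hx1, hx2⟩ := IntermediateField.mem_inf.mp hx
      have hx3 : σ x = x := (FieldDescent.mem_fixedField_zpowers σ x).mp hx2
      refine (IntermediateField.mem_map _).mpr
        ⟨⟨x, hx1⟩, (FieldDescent.mem_fixedField_zpowers τ _).mpr (Subtype.ext ?_), rfl⟩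
      rw [hτ]
      exact hx3
  have htop : (⊤ : IntermediateField F E).map f = E.restrictScalars F := by
    ext x
    constructor
    · intro hx
      obtain ⟨y, -, rfl⟩ := (IntermediateField.mem_map _).mp hx
      exact y.2
    · intro hx
      exact (IntermediateField.mem_map _).mpr ⟨⟨x, hx⟩, IntermediateField.mem_top, rfl⟩
  have hR : ((IsScalarTower.toAlgHom F F1 E).fieldRange).map f = F1 := by
    ext x
    constructor
    · intro hx
      obtain ⟨y, hy, rfl⟩ := (IntermediateField.mem_map _).mp hx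
      obtain ⟨z, rfl⟩ := AlgHom.mem_fieldRange.mp hy
      exact z.2
    · intro hx
      exact (IntermediateField.mem_map _).mpr
        ⟨algebraMap F1 E ⟨x, hx⟩, AlgHom.mem_fieldRange.mpr ⟨⟨x, hx⟩, rfl⟩, rfl⟩
  have hmap : ∀ N : IntermediateField F E, [IsGalois F N] →
      FiniteDimensional F (N.map f) ∧ IsGalois F (N.map f) ∧
        Module.finrank F (N.map f) = Module.finrank F N := by
    intro N _
    exact ⟨Module.Finite.equiv (IntermediateField.equivMap N f).toLinearEquiv,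
      IsGalois.of_algEquiv (IntermediateField.equivMap N f),
      (IntermediateField.equivMap N f).toLinearEquiv.finrank_eq.symm⟩
  have hmem : ∀ x, x ∈ E.restrictScalars F ⊓ fixedField (Subgroup.zpowers σ) ↔
      x ∈ E.restrictScalars F ∧ σ x = x := by
    intro x
    constructor
    · intro h
      exact ⟨(IntermediateField.mem_inf.mp h).1,
        (FieldDescent.mem_fixedField_zpowers σ x).mp (IntermediateField.mem_inf.mp h).2⟩
    · intro h
      exact IntermediateField.mem_inf.mpr ⟨h.1, (FieldDescent.mem_fixedField_zpowers σ x).mpr h.2⟩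
  have h0 := hmap (fixedField (Subgroup.zpowers τ))
  rw [hA] at h0
  have hgalTop : IsGalois F (⊤ : IntermediateField F E) :=
    IsGalois.of_algEquiv (IntermediateField.topEquiv (F := F) (E := E)).symm
  have h1 := hmap ⊤
  rw [htop] at h1
  have hsup' : (E.restrictScalars F ⊓ fixedField (Subgroup.zpowers σ)) ⊔ F1 =
      E.restrictScalars F := by
    have h2 := congrArg (IntermediateField.map f) hsup
    rw [IntermediateField.map_sup, hA, hR, htop] at h2
    exact h2
  have hinf' : (E.restrictScalars F ⊓ fixedField (Subgroup.zpowers σ)) ⊓ F1 = ⊥ := by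
    refine eq_bot_iff.mpr fun x hx => ?_
    obtain ⟨hx0, hxF1⟩ := IntermediateField.mem_inf.mp hx
    exact hfix x hxF1 ((hmem x).mp hx0).2
  exact ⟨h0.1, h0.2.1, ⟨m, h0.2.2.trans (hdeg.trans hm)⟩, hsup', hinf', hmem, h1.1, h1.2.1⟩

/-- **Cover field, one-stop ambient form** (COV' C1, level-free core). -/
theorem cover_field [CharZero F] {p : ℕ} (hp : p.Prime) (F1 L1 : IntermediateField F Ω)
    (σ : Ω ≃ₐ[F] Ω) (d : ℕ) (hd : 0 < d) (hσd : ∀ x ∈ L1, (σ ^ d) x = x)
    (a : ℕ) (ζ : Ω) (hζ : IsPrimitiveRoot ζ p) (hζF1 : ζ ∈ F1) (hσζ : σ ζ = ζ ^ a)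
    {ι : Type*} [Finite ι] (T : ι → Ω) (hT : ∀ i, T i ^ p ∈ F1)
    (hL1 : L1 = F1 ⊔ IntermediateField.adjoin F (Set.range T))
    (hσF1 : ∀ x ∈ F1, σ x ∈ F1) (hσT : ∀ i, ∃ c ∈ F1, σ (T i) = c * T i ^ a)
    (hfix : ∀ x ∈ F1, σ x = x → x ∈ (⊥ : IntermediateField F Ω))
    (hfaith : ∀ k : ℕ, (∀ x ∈ F1, (σ ^ k) x = x) → ∀ x ∈ L1, (σ ^ k) x = x) :
    FiniteDimensional F ↥(L1 ⊓ fixedField (Subgroup.zpowers σ)) ∧
      IsGalois F ↥(L1 ⊓ fixedField (Subgroup.zpowers σ)) ∧
      (∃ m : ℕ, Module.finrank F ↥(L1 ⊓ fixedField (Subgroup.zpowers σ)) = p ^ m) ∧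
      (L1 ⊓ fixedField (Subgroup.zpowers σ)) ⊔ F1 = L1 ∧
      (L1 ⊓ fixedField (Subgroup.zpowers σ)) ⊓ F1 = ⊥ ∧
      (∀ x, x ∈ L1 ⊓ fixedField (Subgroup.zpowers σ) ↔ x ∈ L1 ∧ σ x = x) ∧
      FiniteDimensional F L1 ∧ IsGalois F L1 := by
  have : NeZero p := ⟨hp.ne_zero⟩
  have : CharZero F1 := charZero_of_injective_algebraMap (algebraMap F F1).injective
  obtain ⟨n, rfl⟩ : ∃ n, d = n + 1 := Nat.exists_eq_succ_of_ne_zero hd.ne'
  have hEL : (IntermediateField.adjoin F1 (Set.range T)).restrictScalars F = L1 :=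
    (IntermediateField.restrictScalars_adjoin_eq_sup F F1 (Set.range T)).trans hL1.symm
  have hmemE : ∀ x : Ω, x ∈ IntermediateField.adjoin F1 (Set.range T) ↔ x ∈ L1 := by
    intro x
    rw [← hEL]
    exact Iff.rfl
  have hζ1 : IsPrimitiveRoot (⟨ζ, hζF1⟩ : F1) p := by
    have h' : IsPrimitiveRoot (algebraMap F1 Ω ⟨ζ, hζF1⟩) p := hζ
    exact IsPrimitiveRoot.of_map_of_injective h' (algebraMap F1 Ω).injective
  have hTr : ∀ i, T i ^ p ∈ (algebraMap F1 Ω).range := fun i => ⟨⟨T i ^ p, hT i⟩, rfl⟩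
  obtain ⟨hfd1, hgal1, m, hm⟩ := KummerTower.kummer_tower_adjoin hp hζ1 T hTr
  have hstabL : ∀ x ∈ F1 ⊔ IntermediateField.adjoin F (Set.range T),
      σ x ∈ F1 ⊔ IntermediateField.adjoin F (Set.range T) := by
    refine KummerTower.map_sup_adjoin_le (σ : Ω →ₐ[F] Ω) F1 (Set.range T) ?_ ?_
    · intro x hx
      exact (le_sup_left : F1 ≤ F1 ⊔ IntermediateField.adjoin F (Set.range T)) (hσF1 x hx)
    · rintro _ ⟨i, rfl⟩
      obtain ⟨c, hc, hcT⟩ := hσT i
      show σ (T i) ∈ F1 ⊔ IntermediateField.adjoin F (Set.range T)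
      rw [hcT]
      exact mul_mem
        ((le_sup_left : F1 ≤ F1 ⊔ IntermediateField.adjoin F (Set.range T)) hc)
        (pow_mem ((le_sup_right :
          IntermediateField.adjoin F (Set.range T) ≤
            F1 ⊔ IntermediateField.adjoin F (Set.range T))
          (IntermediateField.subset_adjoin F _ ⟨i, rfl⟩)) a)
  have hstab : ∀ x ∈ IntermediateField.adjoin F1 (Set.range T),
      σ x ∈ IntermediateField.adjoin F1 (Set.range T) := by
    intro x hx
    rw [hmemE] at hx ⊢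
    rw [hL1] at hx ⊢
    exact hstabL x hx
  refine cover_field_aux F1 (IntermediateField.adjoin F1 (Set.range T)) m hm L1 hEL σ n
    (fun x hx => hσd x ((hmemE x).mp hx)) hstab a ⟨ζ, hζF1⟩ hζ1 hσζ
    (Set.range fun i => (⟨T i, IntermediateField.subset_adjoin F1 _ ⟨i, rfl⟩⟩ :
      IntermediateField.adjoin F1 (Set.range T)))
    (KummerTower.adjoin_range_eq_top T) ?_ ?_ hσF1 hfix
    (fun k hk x hx => hfaith k hk x ((hmemE x).mp hx))
  · rintro _ ⟨i, rfl⟩
    exact ⟨⟨T i ^ p, hT i⟩, Subtype.ext rfl⟩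
  · rintro _ ⟨i, rfl⟩
    obtain ⟨c, hc, hcT⟩ := hσT i
    exact ⟨⟨c, hc⟩, hcT⟩

end

end Fermat.Agent.S33.Geo.CoverField
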