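/-
S33 (ordinary at `p ∥ N`), strand GEO, Stage B, row C1-E (helper117): THE OBJECTS of the cover.

`K ⊆ ℚ̄` a subfield, `ζ ∈ ℚ̄` (a primitive `p`-th root of unity in the application),
`K₁ = cyclo K ζ = K(ζ)`, `N` a level, `F = LE N K ⊆ K((q))`, `F₁ = LE N K₁ ⊆ K₁((q))`, and
`T : ι → K₁((q))` a family of series (the normalised `p`-th roots of the `ω`-eigenfunctions `y_i`).

* `inclLS K ζ : K((q)) →+* K₁((q))`  : the coefficientwise inclusion;
* `bcLE N K ζ : LE N K →+* LE N K₁`  : base change of the function field;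
* `L1 N K ζ T : IntermediateField (LE N K₁) K₁((q))` : the top field `F₁(T_i)`;
* `L0 N K ζ T : IntermediateField (LE N K) K((q))`   : THE COVER FIELD `L0 = F₁(T_i) ∩ K((q))`,
  with its canonical structures (a field containing `LE N K` inside `K((q))`, so every algebra
  instance on `↥(L0 N K ζ T)` is the Mathlib one);
* `emb N K ζ T : L0 →+* L1` : the coefficientwise inclusion of the cover field in the top field,
  compatible with `bcLE` (`emb_algebraMap`);
* `gen N K ζ T i : L1` : the generator `T i`, and `adjoin_gen : F₁(gen) = ⊤`.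

No hypothesis is needed for the definitions; the theorems about them (finite Galois of
`p`-power degree, `L0 · F₁ = L1`, no new constants) are in `S33/Geo/CoverFieldInst.lean`.
-/
import Mathlib
import Fermat.Agent.S18.K1Top
import Fermat.Agent.S36.CycloBase

set_option autoImplicit false
set_option linter.unusedSectionVars false

open ModularCurve

noncomputable section

namespace Fermat.Agent.S33.Geo.CoverFieldDefs

open Fermat.Agent.S18.K1Defs Fermat.Agent.S18.K1Top Fermat.Agent.S36.CycloBase

local notation "Qb" => AlgebraicClosure ℚ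

variable (N : ℕ) (K : IntermediateField ℚ Qb) (ζ : Qb)

/-- The coefficientwise inclusion `K((q)) → K(ζ)((q))`. -/
def inclLS : LaurentSeries K →+* LaurentSeries (cyclo K ζ) :=
  coeffMap (inclE (le_cyclo K ζ))

theorem inclLS_apply (x : LaurentSeries K) :
    inclLS K ζ x = coeffMap (inclE (le_cyclo K ζ)) x := rfl

theorem inclLS_coeff (x : LaurentSeries K) (n : ℤ) :
    (inclLS K ζ x).coeff n = inclE (le_cyclo K ζ) (x.coeff n) := rfl

theorem inclLS_injective : Function.Injective (inclLS K ζ) :=
  coeffMap_injective_hom _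

theorem inclLS_mem_LE {x : LaurentSeries K} (hx : x ∈ LE N K) :
    inclLS K ζ x ∈ LE N (cyclo K ζ) :=
  coeffMap_mem_laurentBaseChange_hom _ hx

/-- Base change of the function field along `K ⊆ K(ζ)`. -/
def bcLE : LE N K →+* LE N (cyclo K ζ) where
  toFun x := ⟨inclLS K ζ (x : LaurentSeries K), inclLS_mem_LE N K ζ x.2⟩
  map_one' := Subtype.ext (map_one (inclLS K ζ))
  map_mul' _ _ := Subtype.ext (map_mul (inclLS K ζ) _ _)
  map_zero' := Subtype.ext (map_zero (inclLS K ζ))
  map_add' _ _ := Subtype.ext (map_add (inclLS K ζ) _ _)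

theorem coe_bcLE (x : LE N K) :
    ((bcLE N K ζ x : LE N (cyclo K ζ)) : LaurentSeries (cyclo K ζ))
      = inclLS K ζ (x : LaurentSeries K) := rfl

variable {ι : Type*} (T : ι → LaurentSeries (cyclo K ζ))

/-- The top field `F₁(T_i)`, `F₁ = LE N K(ζ)`, inside `K(ζ)((q))`. -/
def L1 : IntermediateField (LE N (cyclo K ζ)) (LaurentSeries (cyclo K ζ)) :=
  IntermediateField.adjoin (LE N (cyclo K ζ)) (Set.range T)

theorem mem_L1_of_mem_LE {x : LaurentSeries (cyclo K ζ)} (hx : x ∈ LE N (cyclo K ζ)) :
    x ∈ L1 N K ζ T :=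
  (L1 N K ζ T).algebraMap_mem (⟨x, hx⟩ : LE N (cyclo K ζ))

theorem T_mem_L1 (i : ι) : T i ∈ L1 N K ζ T :=
  IntermediateField.subset_adjoin _ _ ⟨i, rfl⟩

/-- **The cover field** `L0 = F₁(T_i) ∩ K((q))`: the series over `K` whose coefficientwise image
lies in the top field. -/
def L0 : IntermediateField (LE N K) (LaurentSeries K) :=
  ((L1 N K ζ T).toSubfield.comap (inclLS K ζ)).toIntermediateField
    (fun x => mem_L1_of_mem_LE N K ζ T (inclLS_mem_LE N K ζ x.2))

theorem mem_L0_iff {x : LaurentSeries K} : x ∈ L0 N K ζ T ↔ inclLS K ζ x ∈ L1 N K ζ T :=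
  Iff.rfl

theorem mem_L0_of_mem_LE {x : LaurentSeries K} (hx : x ∈ LE N K) : x ∈ L0 N K ζ T :=
  (L0 N K ζ T).algebraMap_mem (⟨x, hx⟩ : LE N K)

/-- The coefficientwise inclusion of the cover field in the top field. -/
def emb : L0 N K ζ T →+* L1 N K ζ T where
  toFun x := ⟨inclLS K ζ (x : LaurentSeries K), x.2⟩
  map_one' := Subtype.ext (map_one (inclLS K ζ))
  map_mul' _ _ := Subtype.ext (map_mul (inclLS K ζ) _ _)
  map_zero' := Subtype.ext (map_zero (inclLS K ζ))
  map_add' _ _ := Subtype.ext (map_add (inclLS K ζ) _ _)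

theorem coe_emb (x : L0 N K ζ T) :
    ((emb N K ζ T x : L1 N K ζ T) : LaurentSeries (cyclo K ζ))
      = inclLS K ζ (x : LaurentSeries K) := rfl

theorem emb_injective : Function.Injective (emb N K ζ T) := (emb N K ζ T).injective

/-- `emb` is compatible with the base change of the function field. -/
theorem emb_algebraMap (f : LE N K) :
    emb N K ζ T (algebraMap (LE N K) (L0 N K ζ T) f)
      = algebraMap (LE N (cyclo K ζ)) (L1 N K ζ T) (bcLE N K ζ f) := rfl

/-- The generators `T i` of the top field. -/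
def gen (i : ι) : L1 N K ζ T := ⟨T i, T_mem_L1 N K ζ T i⟩

theorem coe_gen (i : ι) : ((gen N K ζ T i : L1 N K ζ T) : LaurentSeries (cyclo K ζ)) = T i := rfl

/-- The generators generate the top field over `F₁`. -/
theorem adjoin_gen :
    IntermediateField.adjoin (LE N (cyclo K ζ)) (Set.range (gen N K ζ T)) = ⊤ := by
  apply IntermediateField.lift_injective (L1 N K ζ T)
  rw [IntermediateField.lift_adjoin, IntermediateField.lift_top]
  have : (Subtype.val : L1 N K ζ T → LaurentSeries (cyclo K ζ)) '' Set.range (gen N K ζ T)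
      = Set.range T := by
    ext x
    constructor
    · rintro ⟨_, ⟨i, rfl⟩, rfl⟩
      exact ⟨i, rfl⟩
    · rintro ⟨i, rfl⟩
      exact ⟨gen N K ζ T i, ⟨i, rfl⟩, rfl⟩
  rw [this]
  rfl

end Fermat.Agent.S33.Geo.CoverFieldDefs
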