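/-
S33 (ordinary at `p ∥ N`), strand GEO, Stage B, row C1-E (helper117): THE COVER FIELD, theorems.

Objects: `S33/Geo/CoverFieldDefs` (`K ⊆ ℚ̄`, `K₁ = cyclo K ζ`, `F = LE N K`, `F₁ = LE N K₁`,
`L1 = F₁(T_i) ⊆ K₁((q))`, `L0 = L1 ∩ K((q))`).  Level-free input: `S33/Geo/CoverField.cover_field`
(helper257, ambient Galois descent along a commuting automorphism, on `FieldDescent` and
helper141's `KummerTower`).

* `mem_LE_of_inclLS_mem` : coefficient descent for the function field: a series over `K` whose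
  coefficientwise image lies in `LE N K(ζ)` lies in `LE N K` (`S19/Cech/LaurentBC`);
* `core_main` : the cover field for abstract coefficient fields `k → k₁`;
* `cover_main` : ring-automorphism form: `τ₁` a ring automorphism of `K₁` of finite order with
  fixed field `K`, `τ₁ ζ = ζ ^ a`, stabilising `F₁`, `T_i ^ p ∈ F₁` and `τ₁ T_i = c * T_i ^ a` with
  `c ∈ F₁`: then `L0 / F` is finite Galois of `p`-power degree and `L0 · F₁ = L1`;
* `cover_gal` : the same for the restriction of `τ ∈ Gal(ℚ̄/ℚ)` fixing `K` pointwise, with the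
  eigen relation `τ y_i = y_i ^ a * k ^ p` on `y_i = T_i ^ p` in `LE N K₁` (`StableBase.galK`);
  exits (a) finite Galois of degree `p ^ m`, (b1) `adjoin F₁ (range emb) = ⊤`, (b2) the generators
  lie in `L0 · F₁` (subfield form), (b3) `adjoin F₁ (image of L0) = L1`;
* `cover_gal_bar` : the same with the eigen relation stated over `ℚ̄`
  (`τ (T_i ^ p) = (T_i ^ p) ^ a * k ^ p`, `k` a function of level `N` over `ℚ̄`);
* `noNewConst` : (c) `K` is algebraically closed in the cover field (no hypothesis: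
  `L0 ⊆ K((q))`).
-/
import Mathlib
import Fermat.Agent.S33.Geo.CoverFieldDefs
import Fermat.Agent.S33.Geo.CoverField
import Fermat.Agent.S36.StableBase
import Fermat.Agent.S36.CoefDescent
import Fermat.Agent.S19.Cech.LaurentBC
import Fermat.Agent.S37.ConstLemma
import Fermat.Agent.S44.L.CocycleRoot

set_option autoImplicit false
set_option linter.unusedSectionVars false
set_option linter.style.haveILetI false
set_option synthInstance.maxHeartbeats 400000
set_option maxHeartbeats 1000000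

open ModularCurve

noncomputable section

namespace Fermat.Agent.S33.Geo.CoverFieldInst

open Fermat.Agent.S18.K1Defs Fermat.Agent.S18.K1Top Fermat.Agent.S36.CycloBase
open Fermat.Agent.S33.Geo.CoverFieldDefs

local notation "Qb" => AlgebraicClosure ℚ

/-! ### Coefficientwise maps -/

section Coeff

variable {k k₁ : Type*} [Field k] [Field k₁]

/-- A series all of whose coefficients lie in the image of `f` is a coefficientwise image. -/
theorem exists_coeffMap_eq (f : k →+* k₁) (x : LaurentSeries k₁)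
    (h : ∀ n : ℤ, ∃ c : k, f c = x.coeff n) : ∃ x' : LaurentSeries k, coeffMap f x' = x := by
  classical
  choose c hc using h
  have hsupp : Function.support c ⊆ x.support := by
    intro n hn
    rw [Function.mem_support] at hn
    rw [HahnSeries.mem_support, ← hc n]
    exact fun h0 => hn (f.injective (by rw [h0, map_zero]))
  refine ⟨⟨c, x.isPWO_support.mono hsupp⟩, ?_⟩
  ext n
  simp [hc n]

theorem C_eq_algebraMap (c : k₁) :
    (HahnSeries.C c : LaurentSeries k₁) = algebraMap k₁ (LaurentSeries k₁) c := by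
  rw [algebraMap_laurentSeries_eq_single, HahnSeries.C_apply]

theorem coeff_zero_algebraMap (c : k₁) :
    (algebraMap k₁ (LaurentSeries k₁) c).coeff 0 = c := by
  rw [algebraMap_laurentSeries_eq_single, HahnSeries.coeff_single_same]

variable (τ₁ : k₁ ≃+* k₁)

/-- The coefficientwise action of a ring automorphism, as a ring automorphism of `k₁((q))`. -/
def cm : LaurentSeries k₁ ≃+* LaurentSeries k₁ :=
  RingEquiv.ofRingHom (coeffMap (τ₁ : k₁ →+* k₁)) (coeffMap (τ₁.symm : k₁ →+* k₁))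
    (RingHom.ext fun x => by
      show coeffMap (τ₁ : k₁ →+* k₁) (coeffMap (τ₁.symm : k₁ →+* k₁) x) = x
      rw [coeffMap_coeffMap]
      have h : (τ₁ : k₁ →+* k₁).comp (τ₁.symm : k₁ →+* k₁) = RingHom.id k₁ :=
        RingHom.ext fun c => τ₁.apply_symm_apply c
      rw [h, coeffMap_id])
    (RingHom.ext fun x => by
      show coeffMap (τ₁.symm : k₁ →+* k₁) (coeffMap (τ₁ : k₁ →+* k₁) x) = x
      rw [coeffMap_coeffMap]
      have h : (τ₁.symm : k₁ →+* k₁).comp (τ₁ : k₁ →+* k₁) = RingHom.id k₁ :=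
        RingHom.ext fun c => τ₁.symm_apply_apply c
      rw [h, coeffMap_id])

theorem cm_apply (x : LaurentSeries k₁) : cm τ₁ x = coeffMap (τ₁ : k₁ →+* k₁) x := rfl

theorem cm_coeff (x : LaurentSeries k₁) (m : ℤ) : (cm τ₁ x).coeff m = τ₁ (x.coeff m) := rfl

theorem cm_iterate_coeff (n : ℕ) (x : LaurentSeries k₁) (m : ℤ) :
    ((⇑(cm τ₁))^[n] x).coeff m = (⇑τ₁)^[n] (x.coeff m) := by
  induction n with
  | zero => rfl
  | succ n ih =>
    rw [Function.iterate_succ_apply', Function.iterate_succ_apply', cm_coeff, ih]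

/-- **The `ω`-eigen relation on a Kummer generator.**  If `φ (T ^ p) = c * (T ^ p) ^ a * k ^ p`
with `c` a constant, then `φ T = γ * k * T ^ a` for a constant `γ`. -/
theorem exists_const_mul_of_eigen [CharZero k₁] (φ : k₁ →+* k₁) {p : ℕ} (hp0 : p ≠ 0) (a : ℕ)
    (T k : LaurentSeries k₁) (c : k₁)
    (h : coeffMap φ (T ^ p) = algebraMap k₁ (LaurentSeries k₁) c * (T ^ p) ^ a * k ^ p) :
    ∃ γ : k₁, coeffMap φ T = algebraMap k₁ (LaurentSeries k₁) γ * k * T ^ a := by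
  by_cases hT0 : T = 0
  · refine ⟨0, ?_⟩
    rw [hT0, map_zero, map_zero, zero_mul, zero_mul]
  have hσT0 : coeffMap φ T ≠ 0 := (map_ne_zero_iff _ (coeffMap_injective_hom φ)).mpr hT0
  have hpow : (coeffMap φ T) ^ p = algebraMap k₁ (LaurentSeries k₁) c * (T ^ a * k) ^ p := by
    rw [← map_pow, h]
    ring
  have hTak0 : T ^ a * k ≠ 0 := by
    intro h0
    rw [h0, zero_pow hp0, mul_zero] at hpow
    exact hσT0 (pow_eq_zero_iff hp0 |>.mp hpow)
  have hc0 : c ≠ 0 := by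
    rintro rfl
    rw [map_zero, zero_mul] at hpow
    exact hσT0 (pow_eq_zero_iff hp0 |>.mp hpow)
  have hz : (coeffMap φ T / (T ^ a * k)) ^ p = HahnSeries.C c := by
    rw [div_pow, hpow, C_eq_algebraMap, mul_div_assoc, div_self (pow_ne_zero p hTak0), mul_one]
  have hC := Fermat.Agent.S44.L.CocycleRoot.eq_C_of_pow_eq_C hp0 hc0 hz
  refine ⟨(coeffMap φ T / (T ^ a * k)).coeff 0, ?_⟩
  rw [← C_eq_algebraMap, ← hC, mul_assoc, mul_comm k, div_mul_cancel₀ _ hTak0]

end Coeff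

/-! ### Coefficient descent for the function field -/

section Descent

variable (N : ℕ) (K : IntermediateField ℚ Qb) (ζ : Qb)

/-- **Coefficient descent.**  A series over `K` whose coefficientwise image lies in the function
field over `K(ζ)` lies in the function field over `K`. -/
theorem mem_LE_of_inclLS_mem [FiniteDimensional ℚ K] {x : LaurentSeries K}
    (hx : inclLS K ζ x ∈ LE N (cyclo K ζ)) : x ∈ LE N K := by
  classical
  letI alg : Algebra K (cyclo K ζ) := (inclE (le_cyclo K ζ)).toAlgebra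
  haveI : IsScalarTower ℚ K (cyclo K ζ) := IsScalarTower.of_algebraMap_eq (fun r => rfl)
  haveI : Module.Finite K (cyclo K ζ) := Module.Finite.of_restrictScalars_finite ℚ K (cyclo K ζ)
  let b := Module.finBasis K (cyclo K ζ)
  have hspan : ∀ z : cyclo K ζ, ∃ c : Fin (Module.finrank K (cyclo K ζ)) → K,
      z = ∑ j, b j * inclE (le_cyclo K ζ) (c j) := by
    intro z
    refine ⟨fun j => b.repr z j, ?_⟩
    conv_lhs => rw [← b.sum_repr z]
    refine Finset.sum_congr rfl fun j _ => ?_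
    rw [Algebra.smul_def, mul_comm]
    rfl
  have hind : ∀ c : Fin (Module.finrank K (cyclo K ζ)) → K,
      ∑ j, b j * inclE (le_cyclo K ζ) (c j) = 0 → ∀ j, c j = 0 := by
    intro c hc
    have h1 : ∑ j, c j • b j = 0 := by
      rw [← hc]
      refine Finset.sum_congr rfl fun j _ => ?_
      rw [Algebra.smul_def, mul_comm]
      rfl
    exact fun j => Fintype.linearIndependent_iff.mp b.linearIndependent c h1 j
  obtain ⟨c, hc, hxc⟩ := Fermat.Agent.S19.Cech.LaurentBC.exists_coords_gen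
    (modularFunctionFieldFull N) (inclE (le_cyclo K ζ)) b hspan (inclLS K ζ x) hx
  obtain ⟨d, hd⟩ := hspan 1
  have h1 : inclLS K ζ x = ∑ j, algebraMap (cyclo K ζ) (LaurentSeries (cyclo K ζ)) (b j)
      * coeffMap (inclE (le_cyclo K ζ)) (algebraMap K (LaurentSeries K) (d j) * x) := by
    have h2 : ∀ j, algebraMap (cyclo K ζ) (LaurentSeries (cyclo K ζ)) (b j)
        * coeffMap (inclE (le_cyclo K ζ)) (algebraMap K (LaurentSeries K) (d j) * x)
        = algebraMap (cyclo K ζ) (LaurentSeries (cyclo K ζ)) (b j * inclE (le_cyclo K ζ) (d j))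
          * inclLS K ζ x := by
      intro j
      rw [map_mul, coeffMap_algebraMap_hom, map_mul, mul_assoc]
      rfl
    rw [Finset.sum_congr rfl fun j _ => h2 j, ← Finset.sum_mul, ← map_sum, ← hd, map_one, one_mul]
  have h2 : ∑ j, algebraMap (cyclo K ζ) (LaurentSeries (cyclo K ζ)) (b j)
      * coeffMap (inclE (le_cyclo K ζ)) (c j - algebraMap K (LaurentSeries K) (d j) * x) = 0 := by
    simp only [map_sub, mul_sub, Finset.sum_sub_distrib]
    rw [← hxc, ← h1, sub_self]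
  have h3 := Fermat.Agent.S19.Cech.LaurentBC.coords_unique_gen (inclE (le_cyclo K ζ)) b hind _ h2
  obtain ⟨j, hj⟩ : ∃ j, d j ≠ 0 := by
    by_contra hcon
    push Not at hcon
    have h4 : (1 : cyclo K ζ) = 0 := by
      rw [hd]
      refine Finset.sum_eq_zero fun j _ => ?_
      rw [hcon j, map_zero, mul_zero]
    exact one_ne_zero h4
  have h4 : c j = algebraMap K (LaurentSeries K) (d j) * x := sub_eq_zero.mp (h3 j)
  have hdj : algebraMap K (LaurentSeries K) (d j) ≠ 0 := (map_ne_zero _).mpr hj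
  have h5 : x = (algebraMap K (LaurentSeries K) (d j))⁻¹ * c j := by
    rw [h4, inv_mul_cancel_left₀ hdj]
  rw [h5]
  exact mul_mem (inv_mem ((LE N K).algebraMap_mem (d j))) (hc j)

end Descent

/-! ### Transport along an injective algebra map -/

section Transport

variable {F Ω Λ : Type*} [Field F] [Field Ω] [Field Λ] [Algebra F Ω] [Algebra F Λ]

/-- If `L0 ⊆ Λ` is the preimage of `M ⊆ Ω` under `j : Λ → Ω` and every element of `M` is in the
range of `j`, then `L0 ≃ M` over `F`. -/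
theorem nonempty_algEquiv_of_preimage (j : Λ →ₐ[F] Ω) (M : IntermediateField F Ω)
    (L0 : IntermediateField F Λ) (hL0 : ∀ x : Λ, x ∈ L0 ↔ j x ∈ M)
    (hrange : ∀ z ∈ M, ∃ x : Λ, j x = z) : Nonempty (L0 ≃ₐ[F] M) := by
  have h : L0.map j = M := by
    ext z
    rw [IntermediateField.mem_map]
    constructor
    · rintro ⟨x, hx, rfl⟩
      exact (hL0 x).mp hx
    · intro hz
      obtain ⟨x, rfl⟩ := hrange z hz
      exact ⟨x, (hL0 x).mpr hz, rfl⟩
  exact ⟨(IntermediateField.equivMap L0 j).trans (IntermediateField.equivOfEq h)⟩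

end Transport

/-! ### The cover field: abstract coefficient fields -/

section Core

variable {k k₁ : Type*} [Field k] [Field k₁]

/-- **The cover field, abstract coefficient fields.**  `f : k → k₁` an extension of fields of
characteristic zero, `F0 ⊆ k((q))`, `F1 ⊆ k₁((q))` with `f(F0) ⊆ F1` and coefficient descent
(`hdesc`); `τ₁` a ring automorphism of `k₁` of finite order with fixed field `f(k)`,
`τ₁ ζ₁ = ζ₁ ^ a` for a primitive `p`-th root of unity `ζ₁`, stabilising `F1` coefficientwise;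
`T_i ^ p ∈ F1` with `τ₁ (T_i) = c * T_i ^ a`, `c ∈ F1`; `L1 = F1(T_i)` and
`L0 = {x ∈ k((q)) | f x ∈ L1}`.  Then `L0 / F0` is finite Galois of `p`-power degree and
`L0 · F1 = L1`. -/
theorem core_main [CharZero k] {p : ℕ} (hp : p.Prime) (f : k →+* k₁)
    (F0 : IntermediateField k (LaurentSeries k)) (F1 : IntermediateField k₁ (LaurentSeries k₁))
    (hF : ∀ x ∈ F0, coeffMap f x ∈ F1)
    (hdesc : ∀ x : LaurentSeries k, coeffMap f x ∈ F1 → x ∈ F0)
    (ζ₁ : k₁) (hζ₁ : IsPrimitiveRoot ζ₁ p)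
    (τ₁ : k₁ ≃+* k₁) (hτK : ∀ c : k, τ₁ (f c) = f c)
    (hτfix : ∀ c : k₁, τ₁ c = c → ∃ c' : k, f c' = c)
    (a : ℕ) (hτζ : τ₁ ζ₁ = ζ₁ ^ a)
    (d : ℕ) (hd : 0 < d) (hτd : ∀ c : k₁, (⇑τ₁)^[d] c = c)
    (hstab : ∀ x ∈ F1, coeffMap (τ₁ : k₁ →+* k₁) x ∈ F1)
    {ι : Type*} [Finite ι] (T : ι → LaurentSeries k₁) (hT : ∀ i, T i ^ p ∈ F1)
    (hτT : ∀ i, ∃ c ∈ F1, coeffMap (τ₁ : k₁ →+* k₁) (T i) = c * T i ^ a)
    (L1 : IntermediateField F1 (LaurentSeries k₁))
    (hL1 : L1 = IntermediateField.adjoin F1 (Set.range T))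
    (L0 : IntermediateField F0 (LaurentSeries k))
    (hL0 : ∀ x : LaurentSeries k, x ∈ L0 ↔ coeffMap f x ∈ L1) :
    FiniteDimensional F0 L0 ∧ IsGalois F0 L0 ∧ (∃ m : ℕ, Module.finrank F0 L0 = p ^ m) ∧
    IntermediateField.adjoin F1 (⇑(coeffMap f) '' (L0 : Set (LaurentSeries k))) = L1 := by
  classical
  haveI hck1 : CharZero k₁ := charZero_of_injective_ringHom f.injective
  haveI hcF : CharZero F0 := charZero_of_injective_algebraMap (algebraMap k F0).injective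
  letI algΩ : Algebra F0 (LaurentSeries k₁) :=
    ((coeffMap f).comp (algebraMap F0 (LaurentSeries k))).toAlgebra
  have hTL1 : ∀ i, T i ∈ L1 := fun i => by
    rw [hL1]
    exact IntermediateField.subset_adjoin _ _ ⟨i, rfl⟩
  have hF1L1 : ∀ x ∈ F1, x ∈ L1 := fun x hx => L1.algebraMap_mem (⟨x, hx⟩ : F1)
  -- `F1` and `L1` as intermediate fields over `F0`
  let F1a : IntermediateField F0 (LaurentSeries k₁) :=
    F1.toSubfield.toIntermediateField (fun g => hF _ g.2)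
  let L1a : IntermediateField F0 (LaurentSeries k₁) :=
    L1.toSubfield.toIntermediateField (fun g => hF1L1 _ (hF _ g.2))
  have hL1a : L1a = F1a ⊔ IntermediateField.adjoin F0 (Set.range T) := by
    apply le_antisymm
    · intro x hx
      let R : IntermediateField F1 (LaurentSeries k₁) :=
        (F1a ⊔ IntermediateField.adjoin F0 (Set.range T)).toSubfield.toIntermediateField
          (fun y => (le_sup_left : F1a ≤ _) y.2)
      have hle : L1 ≤ R := by
        rw [hL1]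
        refine IntermediateField.adjoin_le_iff.mpr ?_
        rintro _ ⟨i, rfl⟩
        exact (le_sup_right : IntermediateField.adjoin F0 (Set.range T) ≤
          F1a ⊔ IntermediateField.adjoin F0 (Set.range T))
          (IntermediateField.subset_adjoin _ _ ⟨i, rfl⟩)
      exact hle hx
    · refine sup_le (fun x hx => hF1L1 x hx) (IntermediateField.adjoin_le_iff.mpr ?_)
      rintro _ ⟨i, rfl⟩
      exact hTL1 i
  -- the automorphism
  let σ : LaurentSeries k₁ ≃ₐ[F0] LaurentSeries k₁ :=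
    AlgEquiv.ofRingEquiv (f := cm τ₁) (fun g => by
      show coeffMap (τ₁ : k₁ →+* k₁) (coeffMap f (g : LaurentSeries k))
        = coeffMap f (g : LaurentSeries k)
      rw [coeffMap_coeffMap]
      exact coeffMap_congr (RingHom.ext hτK) _)
  have hσ : ∀ x, σ x = coeffMap (τ₁ : k₁ →+* k₁) x := fun x => rfl
  have hσpow : ∀ (n : ℕ) (x : LaurentSeries k₁) (m : ℤ),
      ((σ ^ n) x).coeff m = (⇑τ₁)^[n] (x.coeff m) := by
    intro n x m
    rw [AlgEquiv.coe_pow]
    exact cm_iterate_coeff τ₁ n x m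
  have hσincl : ∀ x : LaurentSeries k, σ (coeffMap f x) = coeffMap f x := by
    intro x
    rw [hσ, coeffMap_coeffMap]
    exact coeffMap_congr (RingHom.ext hτK) _
  -- the primitive root
  have hζ' : IsPrimitiveRoot (algebraMap k₁ (LaurentSeries k₁) ζ₁) p :=
    hζ₁.map_of_injective (algebraMap k₁ (LaurentSeries k₁)).injective
  have hζF1 : algebraMap k₁ (LaurentSeries k₁) ζ₁ ∈ F1a := F1.algebraMap_mem ζ₁
  have hσζ : σ (algebraMap k₁ (LaurentSeries k₁) ζ₁) = algebraMap k₁ (LaurentSeries k₁) ζ₁ ^ a := by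
    rw [hσ, coeffMap_algebraMap_hom, ← map_pow]
    exact congrArg (algebraMap k₁ (LaurentSeries k₁)) hτζ
  -- the hypotheses of `cover_field`
  have hσd : ∀ x ∈ L1a, (σ ^ d) x = x := by
    intro x _
    ext m
    rw [hσpow, hτd]
  have hσF1 : ∀ x ∈ F1a, σ x ∈ F1a := fun x hx => hstab x hx
  have hσT : ∀ i, ∃ c ∈ F1a, σ (T i) = c * T i ^ a := fun i => hτT i
  have hdescend : ∀ x : LaurentSeries k₁, σ x = x → ∃ x' : LaurentSeries k, coeffMap f x' = x := by
    intro x hx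
    refine exists_coeffMap_eq f x (fun n => hτfix (x.coeff n) ?_)
    have h1 := congrArg (fun z : LaurentSeries k₁ => z.coeff n) hx
    exact h1
  have hfix : ∀ x ∈ F1a, σ x = x → x ∈ (⊥ : IntermediateField F0 (LaurentSeries k₁)) := by
    intro x hx hσx
    obtain ⟨x', hx'⟩ := hdescend x hσx
    have hx'F : x' ∈ F0 := hdesc x' (by rw [hx']; exact hx)
    rw [IntermediateField.mem_bot]
    exact ⟨⟨x', hx'F⟩, hx'⟩
  have hfaith : ∀ n : ℕ, (∀ x ∈ F1a, (σ ^ n) x = x) → ∀ x ∈ L1a, (σ ^ n) x = x := by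
    intro n hn x _
    have hc : ∀ c : k₁, (⇑τ₁)^[n] c = c := by
      intro c
      have h1 := hn (algebraMap k₁ (LaurentSeries k₁) c) (F1.algebraMap_mem c)
      have h2 := congrArg (fun z : LaurentSeries k₁ => z.coeff 0) h1
      simp only [hσpow, coeff_zero_algebraMap] at h2
      exact h2
    ext m
    rw [hσpow, hc]
  obtain ⟨hfd0, hgal0, ⟨m, hm⟩, hsup, -, hmem, -, -⟩ :=
    Fermat.Agent.S33.Geo.CoverField.cover_field hp F1a L1a σ d hd hσd a
      (algebraMap k₁ (LaurentSeries k₁) ζ₁) hζ' hζF1 hσζ T hT hL1a hσF1 hσT hfix hfaith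
  -- transport to `L0 ⊆ k((q))`
  let jA : LaurentSeries k →ₐ[F0] LaurentSeries k₁ :=
    { (coeffMap f : LaurentSeries k →+* LaurentSeries k₁) with commutes' := fun _ => rfl }
  have hjA : ∀ x, jA x = coeffMap f x := fun _ => rfl
  obtain ⟨e⟩ := nonempty_algEquiv_of_preimage jA
    (L1a ⊓ IntermediateField.fixedField (Subgroup.zpowers σ)) L0
    (fun x => by
      rw [hmem, hjA]
      exact ⟨fun h => ⟨(hL0 x).mp h, hσincl x⟩, fun h => (hL0 x).mpr h.1⟩)
    (fun z hz => by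
      obtain ⟨-, hz2⟩ := (hmem _).mp hz
      exact hdescend _ hz2)
  have hfd : FiniteDimensional F0 L0 := Module.Finite.equiv e.symm.toLinearEquiv
  have hgal : IsGalois F0 L0 := IsGalois.of_algEquiv e.symm
  have hrank : Module.finrank F0 L0 = p ^ m := by
    rw [← hm]
    exact LinearEquiv.finrank_eq e.toLinearEquiv
  refine ⟨hfd, hgal, ⟨m, hrank⟩, ?_⟩
  -- the compositum
  apply le_antisymm
  · refine IntermediateField.adjoin_le_iff.mpr ?_
    rintro _ ⟨x, hx, rfl⟩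
    exact (hL0 x).mp hx
  · obtain ⟨R, hR⟩ : ∃ R : IntermediateField F0 (LaurentSeries k₁), ∀ z : LaurentSeries k₁,
        z ∈ R ↔ z ∈ IntermediateField.adjoin F1
          (⇑(coeffMap f) '' (L0 : Set (LaurentSeries k))) :=
      ⟨(IntermediateField.adjoin F1
        (⇑(coeffMap f) '' (L0 : Set (LaurentSeries k)))).toSubfield.toIntermediateField
        (fun g => IntermediateField.subset_adjoin _ _
          ⟨(g : LaurentSeries k), L0.algebraMap_mem g, rfl⟩), fun z => Iff.rfl⟩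
    have hL1a_mem : ∀ z : LaurentSeries k₁, z ∈ L1a ↔ z ∈ L1 := fun z => Iff.rfl
    have h1 : L1a ⊓ IntermediateField.fixedField (Subgroup.zpowers σ) ≤ R := by
      intro z hz
      obtain ⟨hz1, hz2⟩ := (hmem _).mp hz
      obtain ⟨x', hx'⟩ := hdescend _ hz2
      have hx'L0 : x' ∈ L0 := (hL0 x').mpr (by rw [hx']; exact (hL1a_mem z).mp hz1)
      exact (hR z).mpr (IntermediateField.subset_adjoin _ _ ⟨x', hx'L0, hx'⟩)
    have h2 : F1a ≤ R := by
      intro z hz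
      exact (hR z).mpr ((IntermediateField.adjoin F1
          (⇑(coeffMap f) '' (L0 : Set (LaurentSeries k)))).algebraMap_mem (⟨z, hz⟩ : F1))
    have hle : L1a ⊓ IntermediateField.fixedField (Subgroup.zpowers σ) ⊔ F1a ≤ R := sup_le h1 h2
    rw [hsup] at hle
    intro x hx
    exact (hR x).mp (hle ((hL1a_mem x).mpr hx))

end Core

/-! ### The cover field over `K ⊆ ℚ̄` -/

section Cover

variable (N : ℕ) (K : IntermediateField ℚ Qb) (ζ : Qb) {ι : Type*}
  (T : ι → LaurentSeries (cyclo K ζ))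

/-- **The cover field (C1-E), ring-automorphism form.**  `τ₁` a ring automorphism of `K(ζ)` of
finite order, fixing `K` pointwise, with fixed field `K`, `τ₁ ζ = ζ ^ a`, stabilising `LE N K(ζ)`
coefficientwise; `T_i ^ p ∈ LE N K(ζ)` and `τ₁ (T_i) = c * T_i ^ a` with `c ∈ LE N K(ζ)`.  Then
the cover field `L0 = F₁(T_i) ∩ K((q))` is finite Galois of `p`-power degree over `LE N K`, and
`L0 · F₁ = L1`. -/
theorem cover_main {p : ℕ} (hp : p.Prime) [FiniteDimensional ℚ K] (hζ : IsPrimitiveRoot ζ p)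
    (τ₁ : cyclo K ζ ≃+* cyclo K ζ)
    (hτK : ∀ c : K, τ₁ (inclE (le_cyclo K ζ) c) = inclE (le_cyclo K ζ) c)
    (hτfix : ∀ c : cyclo K ζ, τ₁ c = c → ∃ c' : K, inclE (le_cyclo K ζ) c' = c)
    (a : ℕ) (hτζ : ((τ₁ ⟨ζ, zeta_mem_cyclo K ζ⟩ : cyclo K ζ) : Qb) = ζ ^ a)
    (d : ℕ) (hd : 0 < d) (hτd : ∀ c : cyclo K ζ, (⇑τ₁)^[d] c = c)
    (hstab : ∀ x ∈ LE N (cyclo K ζ),
      coeffMap (τ₁ : cyclo K ζ →+* cyclo K ζ) x ∈ LE N (cyclo K ζ))
    [Finite ι] (hT : ∀ i, T i ^ p ∈ LE N (cyclo K ζ))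
    (hτT : ∀ i, ∃ c ∈ LE N (cyclo K ζ),
      coeffMap (τ₁ : cyclo K ζ →+* cyclo K ζ) (T i) = c * T i ^ a) :
    FiniteDimensional (LE N K) (L0 N K ζ T) ∧ IsGalois (LE N K) (L0 N K ζ T) ∧
    (∃ m : ℕ, Module.finrank (LE N K) (L0 N K ζ T) = p ^ m) ∧
    IntermediateField.adjoin (LE N (cyclo K ζ))
      (⇑(inclLS K ζ) '' (L0 N K ζ T : Set (LaurentSeries K))) = L1 N K ζ T := by
  haveI hcK : CharZero K := charZero_of_injective_algebraMap (algebraMap ℚ K).injective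
  have hζ₁ : IsPrimitiveRoot (⟨ζ, zeta_mem_cyclo K ζ⟩ : cyclo K ζ) p :=
    IsPrimitiveRoot.of_map_of_injective (f := algebraMap (cyclo K ζ) Qb) hζ
      (algebraMap (cyclo K ζ) Qb).injective
  exact core_main hp (inclE (le_cyclo K ζ)) (LE N K) (LE N (cyclo K ζ))
    (fun x hx => inclLS_mem_LE N K ζ hx) (fun x hx => mem_LE_of_inclLS_mem N K ζ hx)
    ⟨ζ, zeta_mem_cyclo K ζ⟩ hζ₁ τ₁ hτK hτfix a (Subtype.ext hτζ) d hd hτd hstab T hT hτT
    (L1 N K ζ T) rfl (L0 N K ζ T) (fun x => Iff.rfl)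

/-- The eigen relation on `T_i ^ p` over `K(ζ)` gives the hypothesis `hτT` of `cover_main`. -/
theorem hτT_of_eigen {p : ℕ} (hp0 : p ≠ 0) (τ₁ : cyclo K ζ ≃+* cyclo K ζ) (a : ℕ)
    (heig : ∀ i, ∃ (c : cyclo K ζ) (y : LaurentSeries (cyclo K ζ)), y ∈ LE N (cyclo K ζ) ∧
      coeffMap (τ₁ : cyclo K ζ →+* cyclo K ζ) (T i ^ p)
        = algebraMap (cyclo K ζ) (LaurentSeries (cyclo K ζ)) c * (T i ^ p) ^ a * y ^ p) :
    ∀ i, ∃ c ∈ LE N (cyclo K ζ),
      coeffMap (τ₁ : cyclo K ζ →+* cyclo K ζ) (T i) = c * T i ^ a := by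
  intro i
  haveI hcK : CharZero (cyclo K ζ) :=
    charZero_of_injective_algebraMap (algebraMap ℚ (cyclo K ζ)).injective
  obtain ⟨c, y, hy, h⟩ := heig i
  obtain ⟨γ, hγ⟩ := exists_const_mul_of_eigen (τ₁ : cyclo K ζ →+* cyclo K ζ) hp0 a (T i) y c h
  exact ⟨algebraMap (cyclo K ζ) (LaurentSeries (cyclo K ζ)) γ * y,
    mul_mem ((LE N (cyclo K ζ)).algebraMap_mem γ) hy, hγ⟩

/-- **(b1)** `L0 · F₁ = L1`, in the type `L1`: the image of `L0` generates `L1` over `F₁`. -/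
theorem adjoin_range_emb_of_adjoin
    (h : IntermediateField.adjoin (LE N (cyclo K ζ))
      (⇑(inclLS K ζ) '' (L0 N K ζ T : Set (LaurentSeries K))) = L1 N K ζ T) :
    IntermediateField.adjoin (LE N (cyclo K ζ)) (Set.range (emb N K ζ T)) = ⊤ := by
  apply IntermediateField.lift_injective
  rw [IntermediateField.lift_adjoin, IntermediateField.lift_top]
  have hset : (Subtype.val '' Set.range (emb N K ζ T) : Set (LaurentSeries (cyclo K ζ)))
      = ⇑(inclLS K ζ) '' (L0 N K ζ T : Set (LaurentSeries K)) := by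
    ext z
    constructor
    · rintro ⟨_, ⟨x, rfl⟩, rfl⟩
      exact ⟨(x : LaurentSeries K), x.2, (coe_emb N K ζ T x).symm⟩
    · rintro ⟨x, hx, rfl⟩
      exact ⟨emb N K ζ T ⟨x, hx⟩, ⟨⟨x, hx⟩, rfl⟩, coe_emb N K ζ T ⟨x, hx⟩⟩
  rw [hset]
  exact h

/-- **(b2)** `L0 · F₁ = L1` at the generators, subfield form. -/
theorem T_mem_sup_of_adjoin
    (h : IntermediateField.adjoin (LE N (cyclo K ζ))
      (⇑(inclLS K ζ) '' (L0 N K ζ T : Set (LaurentSeries K))) = L1 N K ζ T) (i : ι) :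
    T i ∈ (L0 N K ζ T).toSubfield.map (inclLS K ζ) ⊔ (LE N (cyclo K ζ)).toSubfield := by
  have h1 : T i ∈ IntermediateField.adjoin (LE N (cyclo K ζ))
      (⇑(inclLS K ζ) '' (L0 N K ζ T : Set (LaurentSeries K))) := by
    rw [h]
    exact T_mem_L1 N K ζ T i
  have h2 : (IntermediateField.adjoin (LE N (cyclo K ζ))
      (⇑(inclLS K ζ) '' (L0 N K ζ T : Set (LaurentSeries K)))).toSubfield
      ≤ (L0 N K ζ T).toSubfield.map (inclLS K ζ) ⊔ (LE N (cyclo K ζ)).toSubfield := by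
    rw [IntermediateField.adjoin_toSubfield]
    refine Subfield.closure_le.mpr ?_
    rintro z (⟨g, rfl⟩ | ⟨x, hx, rfl⟩)
    · exact (le_sup_right : (LE N (cyclo K ζ)).toSubfield ≤ _) g.2
    · exact (le_sup_left : (L0 N K ζ T).toSubfield.map (inclLS K ζ) ≤ _)
        (Subfield.mem_map.mpr ⟨x, hx, rfl⟩)
  exact h2 h1

/-- **No new constants**: `K` is algebraically closed in the cover field (it lies in
`K((q))`). -/
theorem noNewConst (x : L0 N K ζ T) (hx : IsAlgebraic K x) :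
    x ∈ (algebraMap K (L0 N K ζ T)).range := by
  obtain ⟨P, hP0, hP⟩ := hx
  have hx' : IsAlgebraic K (x : LaurentSeries K) := by
    refine ⟨P, hP0, ?_⟩
    have h1 := congrArg (fun z : L0 N K ζ T => (z : LaurentSeries K)) hP
    simp only [ZeroMemClass.coe_zero] at h1
    rw [← h1]
    rw [Polynomial.aeval_def, Polynomial.aeval_def, Polynomial.eval₂_eq_sum_range,
      Polynomial.eval₂_eq_sum_range, AddSubmonoidClass.coe_finsetSum]
    refine Finset.sum_congr rfl fun n _ => ?_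
    rfl
  obtain ⟨c, hc⟩ := Fermat.Agent.S37.ConstLemma.laurent_eq_C_of_isIntegral
    (x : LaurentSeries K) hx'.isIntegral
  refine ⟨c, Subtype.ext ?_⟩
  rw [← hc, C_eq_algebraMap]
  rfl

end Cover

/-! ### The cover field: Galois form -/

section Gal

open Fermat.Agent.S36.StableBase

local notation "Gq" => (AlgebraicClosure ℚ ≃ₐ[ℚ] AlgebraicClosure ℚ)

variable (N : ℕ) (K : IntermediateField ℚ Qb) (ζ : Qb) {ι : Type*}
  (T : ι → LaurentSeries (cyclo K ζ))

/-- The coefficientwise action of `τ` over `ℚ̄` restricts to the one of `τ|_{K(ζ)}`. -/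
theorem up_coeffMap_resK (τ : Gq) (h₁ : Stable (cyclo K ζ) τ) (x : LaurentSeries (cyclo K ζ)) :
    coeffMap (algebraMap (cyclo K ζ) Qb)
        (coeffMap ((resK τ h₁ : cyclo K ζ ≃ₐ[ℚ] cyclo K ζ) : cyclo K ζ →+* cyclo K ζ) x)
      = coeffMap (τ : Qb →+* Qb) (coeffMap (algebraMap (cyclo K ζ) Qb) x) := by
  rw [coeffMap_coeffMap, coeffMap_coeffMap]
  exact coeffMap_congr (RingHom.ext fun c => rfl) x

/-- **The cover field (C1-E), Galois form, hypothesis `τ (T_i) = c * T_i ^ a`.**  `τ` an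
automorphism of `ℚ̄` stabilising `K(ζ)`, fixing `K` pointwise, with fixed field `K` in `K(ζ)`,
`τ ζ = ζ ^ a`. -/
theorem cover_gal_of_hτT {p : ℕ} (hp : p.Prime) [FiniteDimensional ℚ K]
    (hζ : IsPrimitiveRoot ζ p) (τ : Gq) (h₁ : Stable (cyclo K ζ) τ) (hτK : ∀ c ∈ K, τ c = c)
    (hτfix : ∀ c ∈ cyclo K ζ, τ c = c → c ∈ K) (a : ℕ) (hτζ : τ ζ = ζ ^ a)
    [Finite ι] (hT : ∀ i, T i ^ p ∈ LE N (cyclo K ζ))
    (hτT : ∀ i, ∃ c ∈ LE N (cyclo K ζ),
      coeffMap ((resK τ h₁ : cyclo K ζ ≃ₐ[ℚ] cyclo K ζ) : cyclo K ζ →+* cyclo K ζ) (T i)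
        = c * T i ^ a) :
    FiniteDimensional (LE N K) (L0 N K ζ T) ∧ IsGalois (LE N K) (L0 N K ζ T) ∧
    (∃ m : ℕ, Module.finrank (LE N K) (L0 N K ζ T) = p ^ m) ∧
    IntermediateField.adjoin (LE N (cyclo K ζ)) (Set.range (emb N K ζ T)) = ⊤ ∧
    (∀ i, T i ∈ (L0 N K ζ T).toSubfield.map (inclLS K ζ) ⊔ (LE N (cyclo K ζ)).toSubfield) ∧
    IntermediateField.adjoin (LE N (cyclo K ζ))
      (⇑(inclLS K ζ) '' (L0 N K ζ T : Set (LaurentSeries K))) = L1 N K ζ T := by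
  classical
  have hcoe : ∀ x : LaurentSeries (cyclo K ζ),
      coeffMap (((resK τ h₁).toRingEquiv : cyclo K ζ ≃+* cyclo K ζ) : cyclo K ζ →+* cyclo K ζ) x
        = coeffMap ((resK τ h₁ : cyclo K ζ ≃ₐ[ℚ] cyclo K ζ) : cyclo K ζ →+* cyclo K ζ) x :=
    fun x => coeffMap_congr (RingHom.ext fun _ => rfl) x
  have hK : ∀ c : K, (resK τ h₁).toRingEquiv (inclE (le_cyclo K ζ) c)
      = inclE (le_cyclo K ζ) c := by
    intro c
    apply Subtype.ext
    show τ ((inclE (le_cyclo K ζ) c : cyclo K ζ) : Qb) = ((inclE (le_cyclo K ζ) c : cyclo K ζ) : Qb)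
    rw [coe_inclE]
    exact hτK c c.2
  have hfix : ∀ c : cyclo K ζ, (resK τ h₁).toRingEquiv c = c →
      ∃ c' : K, inclE (le_cyclo K ζ) c' = c := by
    intro c hc
    have h2 : τ (c : Qb) = (c : Qb) := congrArg (fun z : cyclo K ζ => (z : Qb)) hc
    refine ⟨⟨(c : Qb), hτfix c c.2 h2⟩, ?_⟩
    apply Subtype.ext
    rw [coe_inclE]
  have hord : ∀ c : cyclo K ζ, (⇑(resK τ h₁).toRingEquiv)^[orderOf (resK τ h₁)] c = c := by
    intro c
    have h2 := congrArg (fun e : cyclo K ζ ≃ₐ[ℚ] cyclo K ζ => e c) (pow_orderOf_eq_one (resK τ h₁))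
    simp only [AlgEquiv.coe_pow, AlgEquiv.one_apply] at h2
    exact h2
  have hstab : ∀ x ∈ LE N (cyclo K ζ),
      coeffMap (((resK τ h₁).toRingEquiv : cyclo K ζ ≃+* cyclo K ζ) : cyclo K ζ →+* cyclo K ζ) x
        ∈ LE N (cyclo K ζ) := by
    intro x hx
    rw [hcoe]
    exact coeffMap_mem_laurentBaseChange (resK τ h₁) hx
  have hτT' : ∀ i, ∃ c ∈ LE N (cyclo K ζ),
      coeffMap (((resK τ h₁).toRingEquiv : cyclo K ζ ≃+* cyclo K ζ) : cyclo K ζ →+* cyclo K ζ)
        (T i) = c * T i ^ a := by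
    intro i
    obtain ⟨c, hc, h⟩ := hτT i
    exact ⟨c, hc, (hcoe (T i)).trans h⟩
  obtain ⟨hfd, hgal, hm, hb⟩ := cover_main N K ζ T hp hζ (resK τ h₁).toRingEquiv hK hfix a hτζ
    (orderOf (resK τ h₁)) (orderOf_pos _) hord hstab hT hτT'
  exact ⟨hfd, hgal, hm, adjoin_range_emb_of_adjoin N K ζ T hb,
    T_mem_sup_of_adjoin N K ζ T hb, hb⟩

/-- **The cover field (C1-E), Galois form over `K(ζ)`.**  `K ⊆ ℚ̄` finite over `ℚ`, `ζ` a
primitive `p`-th root of unity, `τ` an automorphism of `ℚ̄` stabilising `K(ζ)`, fixing `K`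
pointwise, with fixed field `K` in `K(ζ)`, `τ ζ = ζ ^ a`; `T_i ^ p = y_i` functions of level `N`
over `K(ζ)` with the eigen relation `τ y_i = y_i ^ a * k ^ p`.  Then `L0 = F₁(T_i) ∩ K((q))` is
finite Galois of `p`-power degree over `LE N K` and `L0 · F₁ = L1` (three forms). -/
theorem cover_gal {p : ℕ} (hp : p.Prime) [FiniteDimensional ℚ K]
    (hζ : IsPrimitiveRoot ζ p) (τ : Gq) (h₁ : Stable (cyclo K ζ) τ) (hτK : ∀ c ∈ K, τ c = c)
    (hτfix : ∀ c ∈ cyclo K ζ, τ c = c → c ∈ K) (a : ℕ) (hτζ : τ ζ = ζ ^ a)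
    [Finite ι] (y₁ : ι → LE N (cyclo K ζ))
    (hTy : ∀ i, T i ^ p = ((y₁ i : LE N (cyclo K ζ)) : LaurentSeries (cyclo K ζ)))
    (heig : ∀ i, ∃ k : LE N (cyclo K ζ), galK N τ h₁ (y₁ i) = y₁ i ^ a * k ^ p) :
    FiniteDimensional (LE N K) (L0 N K ζ T) ∧ IsGalois (LE N K) (L0 N K ζ T) ∧
    (∃ m : ℕ, Module.finrank (LE N K) (L0 N K ζ T) = p ^ m) ∧
    IntermediateField.adjoin (LE N (cyclo K ζ)) (Set.range (emb N K ζ T)) = ⊤ ∧
    (∀ i, T i ∈ (L0 N K ζ T).toSubfield.map (inclLS K ζ) ⊔ (LE N (cyclo K ζ)).toSubfield) ∧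
    IntermediateField.adjoin (LE N (cyclo K ζ))
      (⇑(inclLS K ζ) '' (L0 N K ζ T : Set (LaurentSeries K))) = L1 N K ζ T := by
  haveI hcK : CharZero (cyclo K ζ) :=
    charZero_of_injective_algebraMap (algebraMap ℚ (cyclo K ζ)).injective
  have hT : ∀ i, T i ^ p ∈ LE N (cyclo K ζ) := fun i => by
    rw [hTy i]
    exact (y₁ i).2
  refine cover_gal_of_hτT N K ζ T hp hζ τ h₁ hτK hτfix a hτζ hT ?_
  intro i
  obtain ⟨k, hk⟩ := heig i
  have h2 : coeffMap ((resK τ h₁ : cyclo K ζ ≃ₐ[ℚ] cyclo K ζ) : cyclo K ζ →+* cyclo K ζ)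
      ((y₁ i : LE N (cyclo K ζ)) : LaurentSeries (cyclo K ζ))
      = ((y₁ i : LE N (cyclo K ζ)) : LaurentSeries (cyclo K ζ)) ^ a
        * ((k : LE N (cyclo K ζ)) : LaurentSeries (cyclo K ζ)) ^ p := by
    rw [← coe_galK, hk]
    rfl
  have h3 : coeffMap ((resK τ h₁ : cyclo K ζ ≃ₐ[ℚ] cyclo K ζ) : cyclo K ζ →+* cyclo K ζ)
      (T i ^ p) = algebraMap (cyclo K ζ) (LaurentSeries (cyclo K ζ)) 1 * (T i ^ p) ^ a
        * ((k : LE N (cyclo K ζ)) : LaurentSeries (cyclo K ζ)) ^ p := by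
    rw [hTy i, h2, map_one, one_mul]
  obtain ⟨γ, hγ⟩ := exists_const_mul_of_eigen _ hp.ne_zero a (T i)
    ((k : LE N (cyclo K ζ)) : LaurentSeries (cyclo K ζ)) 1 h3
  exact ⟨algebraMap (cyclo K ζ) (LaurentSeries (cyclo K ζ)) γ
      * ((k : LE N (cyclo K ζ)) : LaurentSeries (cyclo K ζ)),
    mul_mem ((LE N (cyclo K ζ)).algebraMap_mem γ) k.2, hγ⟩

/-- **The cover field (C1-E), Galois form, eigen relation over `ℚ̄`.**  As `cover_gal`, with the
eigen relation stated for the coefficientwise images over `ℚ̄`: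
`τ (T_i ^ p) = (T_i ^ p) ^ a * k ^ p` with `k` a function of level `N` over `ℚ̄`. -/
theorem cover_gal_bar {p : ℕ} (hp : p.Prime) [FiniteDimensional ℚ K]
    (hζ : IsPrimitiveRoot ζ p) (τ : Gq) (h₁ : Stable (cyclo K ζ) τ) (hτK : ∀ c ∈ K, τ c = c)
    (hτfix : ∀ c ∈ cyclo K ζ, τ c = c → c ∈ K) (a : ℕ) (hτζ : τ ζ = ζ ^ a)
    [Finite ι] (hT : ∀ i, T i ^ p ∈ LE N (cyclo K ζ))
    (heig : ∀ i, ∃ k : LaurentSeries Qb, k ∈ modularFunctionFieldBar N ∧
      coeffMap (τ : Qb →+* Qb) (coeffMap (algebraMap (cyclo K ζ) Qb) (T i) ^ p)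
        = (coeffMap (algebraMap (cyclo K ζ) Qb) (T i) ^ p) ^ a * k ^ p) :
    FiniteDimensional (LE N K) (L0 N K ζ T) ∧ IsGalois (LE N K) (L0 N K ζ T) ∧
    (∃ m : ℕ, Module.finrank (LE N K) (L0 N K ζ T) = p ^ m) ∧
    IntermediateField.adjoin (LE N (cyclo K ζ)) (Set.range (emb N K ζ T)) = ⊤ ∧
    (∀ i, T i ∈ (L0 N K ζ T).toSubfield.map (inclLS K ζ) ⊔ (LE N (cyclo K ζ)).toSubfield) ∧
    IntermediateField.adjoin (LE N (cyclo K ζ))
      (⇑(inclLS K ζ) '' (L0 N K ζ T : Set (LaurentSeries K))) = L1 N K ζ T := by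
  haveI halg : Algebra.IsAlgebraic (cyclo K ζ) Qb := by
    have h2 : Algebra.IsAlgebraic ℚ Qb := Fermat.Agent.S30.GaussDescent.isAlgebraic_rat_Qb
    infer_instance
  refine cover_gal_of_hτT N K ζ T hp hζ τ h₁ hτK hτfix a hτζ hT ?_
  intro i
  by_cases hT0 : T i = 0
  · exact ⟨0, zero_mem _, by rw [hT0, map_zero, zero_mul]⟩
  obtain ⟨k, hk, h⟩ := heig i
  obtain ⟨u, hu⟩ : ∃ u : LaurentSeries Qb, u = coeffMap (algebraMap (cyclo K ζ) Qb) (T i) :=
    ⟨_, rfl⟩
  rw [← hu] at h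
  have hu0 : u ≠ 0 := by
    rw [hu]
    exact (map_ne_zero_iff _ (coeffMap_injective_hom _)).mpr hT0
  have hτu0 : coeffMap (τ : Qb →+* Qb) u ≠ 0 :=
    (map_ne_zero_iff _ (coeffMap_injective_hom _)).mpr hu0
  have hpow : (coeffMap (τ : Qb →+* Qb) u) ^ p = (u ^ a * k) ^ p := by
    rw [← map_pow, h]
    ring
  have huk0 : u ^ a * k ≠ 0 := by
    intro h0
    rw [h0, zero_pow hp.ne_zero] at hpow
    exact hτu0 (pow_eq_zero_iff hp.ne_zero |>.mp hpow)
  have hz : (coeffMap (τ : Qb →+* Qb) u / (u ^ a * k)) ^ p = HahnSeries.C (1 : Qb) := by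
    rw [div_pow, hpow, div_self (pow_ne_zero p huk0), map_one]
  have hC := Fermat.Agent.S44.L.CocycleRoot.eq_C_of_pow_eq_C hp.ne_zero one_ne_zero hz
  obtain ⟨μ, hμ⟩ : ∃ μ : Qb, μ = (coeffMap (τ : Qb →+* Qb) u / (u ^ a * k)).coeff 0 := ⟨_, rfl⟩
  rw [← hμ, C_eq_algebraMap] at hC
  have hua0 : u ^ a ≠ 0 := left_ne_zero_of_mul huk0
  have hk0 : k ≠ 0 := right_ne_zero_of_mul huk0
  have h3 : coeffMap (τ : Qb →+* Qb) u / u ^ a = algebraMap Qb (LaurentSeries Qb) μ * k := by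
    rw [← hC]
    field_simp
  obtain ⟨c₀, hc₀⟩ : ∃ c₀ : LaurentSeries (cyclo K ζ), c₀ =
      coeffMap ((resK τ h₁ : cyclo K ζ ≃ₐ[ℚ] cyclo K ζ) : cyclo K ζ →+* cyclo K ζ) (T i)
        / T i ^ a := ⟨_, rfl⟩
  have hup : coeffMap (algebraMap (cyclo K ζ) Qb) c₀ = coeffMap (τ : Qb →+* Qb) u / u ^ a := by
    rw [hc₀, map_div₀, map_pow, up_coeffMap_resK, ← hu]
  have hmem : coeffMap (algebraMap (cyclo K ζ) Qb) c₀ ∈
      laurentBaseChange Qb (modularFunctionFieldFull N) := by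
    rw [hup, h3]
    exact mul_mem ((modularFunctionFieldBar N).algebraMap_mem μ) hk
  obtain ⟨y, hy, hyc⟩ := Fermat.Agent.S36.Descent.exists_of_coeff_mem (K := cyclo K ζ) (E := Qb)
    (modularFunctionFieldFull N) hmem (fun n => ⟨c₀.coeff n, rfl⟩)
  have hyc₀ : y = c₀ := coeffMap_injective_hom _ hyc
  refine ⟨c₀, hyc₀ ▸ hy, ?_⟩
  rw [hc₀, div_mul_cancel₀ _ (pow_ne_zero a hT0)]

end Gal

end Fermat.Agent.S33.Geo.CoverFieldInst
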