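import Mathlib

/-!
# S33 / GEO / TOP: depth propagation on an abstract pointwise model datum

Level-free, Mathlib only.  `O` a local domain with a non-unit `ϖ`, `F` a field over `O`
(the function field).  Everything happens in subrings of `F`:

* `ι` is the set of components of the special fibre, `V W` the generic (Gauss) ring of the
  component `W`;
* `Y` is the set of closed points, `R y` the local ring of the model at `y`;
* `On y W` : the point `y` lies on the component `W`;
* `Hor y f` : the horizontal orders of `f` at `y` are divisible by `p`.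

`DepthIn V p ϖ j f c` : `f = c * g ^ p * (1 + ϖ ^ j * r)` with `r ∈ V` ("`f` has `p`-th-power depth
`≥ j` along `V`, with constant `c`").

`IsPointDatum p ϖ top V R On Hor` packages what the closed points of the model deliver:

* `reg` : at depth `j < top` there is ONE `ry ∈ R y` such that the leading term `r` of every
  generic form on every component `W` through `y` is `ry - κ` modulo `ϖ V W`, `κ` a constant
  (local form at `y` + comparison on each branch);
* `topc` : at depth `top` there is a point form at `y` whose constant agrees with the constant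
  of every branch through `y` modulo `p`-th powers and `1 + ϖ ^ top O` (`ConstRel`);
* `conn` : the dual graph (components, closed points on two components) is connected.

The global input is one of

* `ConstAt V R On ϖ W` for EVERY component `W` : an element of `V W` which is, modulo `ϖ V W`,
  regular at every closed point of `W` is a constant of `O` modulo `ϖ V W` (`top_core_of_const`);
* `ConstAt V R On ϖ W₀` for ONE root component and `Van V R On ϖ` : an element of `V W` regular
  at every closed point of `W` and, at one point `y`, congruent to an element of `R y` vanishing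
  on a branch through `y`, vanishes modulo `ϖ V W` (`top_core`; this is what an étale cover,
  whose components may have larger constant fields, delivers).

* `ConstAt V R On ϖ W₀` for ONE root component and `Van V R On ϖ` (`top_core_of_root`), bundled
  with the pointwise part as `IsDatum p ϖ top V R On Hor` (`top_core`).

Conclusion (all forms): if `f` has depth `≥ 1` on every component then there is ONE constant `c`
such that `f` has depth `≥ top` with constant `c` on every component and at every closed point.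
-/

set_option autoImplicit false
set_option linter.unusedSectionVars false

namespace Fermat.Agent.S33.Geo.Top

section Defs

variable {O F : Type*} [CommRing O] [Field F] [Algebra O F]

/-- `f = c * g ^ p * (1 + ϖ ^ j * r)` with `r ∈ V`: `p`-th-power depth `≥ j` along `V` with
constant `c`. -/
def DepthIn (V : Subring F) (p : ℕ) (ϖ : O) (j : ℕ) (f : F) (c : O) : Prop :=
  ∃ g r : F, r ∈ V ∧ f = algebraMap O F c * g ^ p * (1 + algebraMap O F ϖ ^ j * r)

/-- `x ∈ ϖ V`. -/
def MemPi (V : Subring F) (ϖ : O) (x : F) : Prop :=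
  ∃ v : F, v ∈ V ∧ x = algebraMap O F ϖ * v

/-- The constants `c`, `c'` agree modulo `p`-th powers and `1 + ϖ ^ n O`. -/
def ConstRel (p : ℕ) (ϖ : O) (n : ℕ) (c c' : O) : Prop :=
  ∃ κ d d' : O, d ≠ 0 ∧ d' ≠ 0 ∧ c' * d ^ p = c * d' ^ p * (1 + ϖ ^ n * κ)

/-- **The pointwise part of the model datum** of `TOP` (what the closed points deliver). -/
structure IsPointDatum (p : ℕ) (ϖ : O) (top : ℕ) {ι Y : Type*} (V : ι → Subring F)
    (R : Y → Subring F) (On : Y → ι → Prop) (Hor : Y → F → Prop) : Prop where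
  /-- constants lie in the generic rings -/
  constV : ∀ W (a : O), algebraMap O F a ∈ V W
  /-- constants lie in the local rings -/
  constR : ∀ y (a : O), algebraMap O F a ∈ R y
  /-- every closed point lies on a component -/
  exists_on : ∀ y, ∃ W, On y W
  /-- the leading terms of the generic forms of depth `j < top` on the branches through `y`
  are, up to constants, ONE element of the local ring at `y` -/
  reg : ∀ y (f : F) (j : ℕ), f ≠ 0 → 1 ≤ j → j < top → Hor y f →
    (∀ W, On y W → ∃ c : O, c ≠ 0 ∧ DepthIn (V W) p ϖ j f c) →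
    ∃ ry : F, ry ∈ R y ∧ ∀ W, On y W → ∀ (c : O) (g r : F), c ≠ 0 → r ∈ V W →
      f = algebraMap O F c * g ^ p * (1 + algebraMap O F ϖ ^ j * r) →
      ∃ κ : O, MemPi (V W) ϖ (r - ry + algebraMap O F κ)
  /-- the point form at depth `top`, and its constant against the branch constants -/
  topc : ∀ y (f : F), f ≠ 0 → Hor y f →
    (∀ W, On y W → ∃ c : O, c ≠ 0 ∧ DepthIn (V W) p ϖ top f c) →
    ∃ cy : O, cy ≠ 0 ∧ DepthIn (R y) p ϖ top f cy ∧
      ∀ W, On y W → ∀ c : O, c ≠ 0 → DepthIn (V W) p ϖ top f c → ConstRel p ϖ top cy c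
  /-- (CONN): the dual graph is connected -/
  conn : ∀ W W' : ι, Relation.ReflTransGen (fun a b => ∃ y, On y a ∧ On y b) W W'

variable {ι Y : Type*}

/-- (CONST) on the component `W`: regular at every closed point of `W` implies constant,
modulo `ϖ`. -/
def ConstAt (V : ι → Subring F) (R : Y → Subring F) (On : Y → ι → Prop) (ϖ : O) (W : ι) : Prop :=
  ∀ x : F, x ∈ V W → (∀ y, On y W → ∃ a : F, a ∈ R y ∧ MemPi (V W) ϖ (x - a)) →
    ∃ κ : O, MemPi (V W) ϖ (x - algebraMap O F κ)

/-- (VAN): regular at every closed point of `W` and, at one point `y` of `W`, congruent to an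
element of `R y` which vanishes on a branch `W'` through `y`, implies zero modulo `ϖ`. -/
def Van (V : ι → Subring F) (R : Y → Subring F) (On : Y → ι → Prop) (ϖ : O) : Prop :=
  ∀ W (x : F), x ∈ V W → (∀ y, On y W → ∃ a : F, a ∈ R y ∧ MemPi (V W) ϖ (x - a)) →
    ∀ y W', On y W → On y W' → ∀ a : F, a ∈ R y → MemPi (V W') ϖ a → MemPi (V W) ϖ (x - a) →
      MemPi (V W) ϖ x

/-- **The abstract pointwise model datum** of `TOP`: the pointwise part, (CONST) on one root
component, and (VAN). -/
structure IsDatum (p : ℕ) (ϖ : O) (top : ℕ) (V : ι → Subring F) (R : Y → Subring F)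
    (On : Y → ι → Prop) (Hor : Y → F → Prop) : Prop
    extends IsPointDatum p ϖ top V R On Hor where
  /-- (CONST0): on ONE root component, regular at every closed point implies constant,
  modulo `ϖ` -/
  const0 : ∃ W₀ : ι, ∀ x : F, x ∈ V W₀ →
    (∀ y, On y W₀ → ∃ a : F, a ∈ R y ∧ MemPi (V W₀) ϖ (x - a)) →
    ∃ κ : O, MemPi (V W₀) ϖ (x - algebraMap O F κ)
  /-- (VAN): regular at every closed point of `W` and, at ONE point `y`, equal to a local
  function vanishing identically on a branch through `y`, implies zero, modulo `ϖ` -/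
  van : ∀ W (x : F), x ∈ V W → (∀ y, On y W → ∃ a : F, a ∈ R y ∧ MemPi (V W) ϖ (x - a)) →
    ∀ y, On y W → ∀ a : F, a ∈ R y → MemPi (V W) ϖ (x - a) →
      (∃ W', On y W' ∧ MemPi (V W') ϖ a) → MemPi (V W) ϖ x

theorem MemPi.sub {V : Subring F} {ϖ : O} {x x' : F} (h : MemPi V ϖ x) (h' : MemPi V ϖ x') :
    MemPi V ϖ (x - x') := by
  obtain ⟨v, hv, rfl⟩ := h
  obtain ⟨v', hv', rfl⟩ := h'
  exact ⟨v - v', V.sub_mem hv hv', by ring⟩

theorem MemPi.congr {V : Subring F} {ϖ : O} {x x' : F} (h : MemPi V ϖ x) (e : x' = x) :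
    MemPi V ϖ x' := e ▸ h

end Defs

/-! ### Units `1 + ϖ ^ n κ` of a local ring -/

section Units

variable {O : Type*} [CommRing O] [IsLocalRing O]

theorem isUnit_one_add_pow_mul {ϖ : O} (hϖ : ¬ IsUnit ϖ) {n : ℕ} (hn : 1 ≤ n) (κ : O) :
    IsUnit (1 + ϖ ^ n * κ) := by
  have h0 : ϖ ∈ IsLocalRing.maximalIdeal O := (IsLocalRing.mem_maximalIdeal _).mpr hϖ
  have h1 : ϖ ^ n * κ ∈ IsLocalRing.maximalIdeal O :=
    Ideal.mul_mem_right _ _ (Ideal.pow_mem_of_mem _ h0 n (by omega))
  have h2 : -(ϖ ^ n * κ) ∈ nonunits O :=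
    (IsLocalRing.mem_maximalIdeal _).mp ((IsLocalRing.maximalIdeal O).neg_mem h1)
  have h3 := IsLocalRing.isUnit_one_sub_self_of_mem_nonunits _ h2
  rwa [sub_neg_eq_add] at h3

/-- The inverse of `1 + ϖ ^ n κ` has the same shape. -/
theorem exists_inv_one_add {ϖ : O} (hϖ : ¬ IsUnit ϖ) {n : ℕ} (hn : 1 ≤ n) (κ : O) :
    ∃ κ' : O, (1 + ϖ ^ n * κ) * (1 + ϖ ^ n * κ') = 1 := by
  obtain ⟨w, hw⟩ := (isUnit_one_add_pow_mul hϖ hn κ).exists_right_inv
  refine ⟨-(κ * w), ?_⟩
  linear_combination (-(ϖ ^ n * κ)) * hw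

end Units

/-! ### The relation on constants -/

section ConstRel

variable {O : Type*} [CommRing O] [IsDomain O] [IsLocalRing O]

theorem ConstRel.refl (p : ℕ) (ϖ : O) (n : ℕ) (c : O) : ConstRel p ϖ n c c :=
  ⟨0, 1, 1, one_ne_zero, one_ne_zero, by ring⟩

theorem ConstRel.symm {p : ℕ} {ϖ : O} (hϖ : ¬ IsUnit ϖ) {n : ℕ} (hn : 1 ≤ n) {c c' : O}
    (h : ConstRel p ϖ n c c') : ConstRel p ϖ n c' c := by
  obtain ⟨κ, d, d', hd, hd', e⟩ := h
  obtain ⟨κ', hκ'⟩ := exists_inv_one_add hϖ hn κ
  refine ⟨κ', d', d, hd', hd, ?_⟩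
  linear_combination (-(1 + ϖ ^ n * κ')) * e - (c * d' ^ p) * hκ'

theorem ConstRel.trans {p : ℕ} {ϖ : O} {n : ℕ} {c c' c'' : O}
    (h : ConstRel p ϖ n c c') (h' : ConstRel p ϖ n c' c'') : ConstRel p ϖ n c c'' := by
  obtain ⟨κ, d, d', hd, hd', e⟩ := h
  obtain ⟨κ', e₁, e₁', he₁, he₁', e'⟩ := h'
  refine ⟨κ + κ' + ϖ ^ n * κ * κ', e₁ * d, e₁' * d', mul_ne_zero he₁ hd,
    mul_ne_zero he₁' hd', ?_⟩
  rw [mul_pow, mul_pow]
  linear_combination (d ^ p) * e' + (e₁' ^ p * (1 + ϖ ^ n * κ')) * e

end ConstRel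

/-! ### Moving the constant, raising the depth -/

section Depth

variable {O F : Type*} [CommRing O] [IsDomain O] [IsLocalRing O] [Field F] [Algebra O F]

/-- A form with constant `c` is a form with any constant related to `c`. -/
theorem DepthIn.of_constRel {V : Subring F} (hV : ∀ a : O, algebraMap O F a ∈ V)
    (hinj : Function.Injective (algebraMap O F)) {p : ℕ} {ϖ : O} (hϖ : ¬ IsUnit ϖ) {n : ℕ}
    (hn : 1 ≤ n) {f : F} {c c₀ : O} (h : DepthIn V p ϖ n f c) (hrel : ConstRel p ϖ n c c₀) :
    DepthIn V p ϖ n f c₀ := by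
  obtain ⟨g, r, hr, hf⟩ := h
  obtain ⟨κ, d, d', hd, hd', e⟩ := hrel
  obtain ⟨κ', hκ'⟩ := exists_inv_one_add hϖ hn κ
  have hdF : algebraMap O F d ≠ 0 := (map_ne_zero_iff _ hinj).mpr hd
  have hd'F : algebraMap O F d' ≠ 0 := (map_ne_zero_iff _ hinj).mpr hd'
  have eF := congrArg (algebraMap O F) e
  have hκF := congrArg (algebraMap O F) hκ'
  simp only [map_mul, map_pow, map_add, map_one] at eF hκF
  refine ⟨g * algebraMap O F d / algebraMap O F d',
    (r - algebraMap O F κ) * (1 + algebraMap O F ϖ ^ n * algebraMap O F κ'), ?_, ?_⟩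
  · refine V.mul_mem (V.sub_mem hr (hV κ)) ?_
    have h1 := hV (1 + ϖ ^ n * κ')
    simpa only [map_mul, map_pow, map_add, map_one] using h1
  · have h1 : algebraMap O F c₀ * (g * algebraMap O F d / algebraMap O F d') ^ p
        = algebraMap O F c * g ^ p * (1 + algebraMap O F ϖ ^ n * algebraMap O F κ) := by
      rw [div_pow, mul_pow, mul_div_assoc', eq_comm, eq_div_iff (pow_ne_zero p hd'F)]
      linear_combination (-(g ^ p)) * eF
    rw [h1, hf]
    linear_combination (-(algebraMap O F c * g ^ p * algebraMap O F ϖ ^ n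
      * (r - algebraMap O F κ))) * hκF

/-- From depth `j` with leading term constant modulo `ϖ` to depth `j + 1`. -/
theorem DepthIn.succ {V : Subring F} (hV : ∀ a : O, algebraMap O F a ∈ V) {p : ℕ} {ϖ : O}
    (hϖ : ¬ IsUnit ϖ) {j : ℕ} (hj : 1 ≤ j) {f : F} {c : O} (hc : c ≠ 0) {g r : F}
    (hf : f = algebraMap O F c * g ^ p * (1 + algebraMap O F ϖ ^ j * r))
    {κ : O} (hκ : MemPi V ϖ (r - algebraMap O F κ)) :
    ∃ c' : O, c' ≠ 0 ∧ DepthIn V p ϖ (j + 1) f c' := by
  obtain ⟨v, hv, hrv⟩ := hκ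
  obtain ⟨κ', hκ'⟩ := exists_inv_one_add hϖ hj κ
  have hu := isUnit_one_add_pow_mul hϖ hj κ
  have hκF := congrArg (algebraMap O F) hκ'
  simp only [map_mul, map_pow, map_add, map_one] at hκF
  refine ⟨c * (1 + ϖ ^ j * κ), mul_ne_zero hc hu.ne_zero, g,
    v * (1 + algebraMap O F ϖ ^ j * algebraMap O F κ'), ?_, ?_⟩
  · refine V.mul_mem hv ?_
    have h1 := hV (1 + ϖ ^ j * κ')
    simpa only [map_mul, map_pow, map_add, map_one] using h1
  · have hr : r = algebraMap O F κ + algebraMap O F ϖ * v := by linear_combination hrv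
    simp only [map_mul, map_pow, map_add, map_one]
    rw [hf, hr, pow_succ]
    linear_combination (-(algebraMap O F c * g ^ p * algebraMap O F ϖ ^ j * algebraMap O F ϖ
      * v)) * hκF

end Depth

/-! ### The theorem -/

section Main

variable {O F : Type*} [CommRing O] [IsDomain O] [IsLocalRing O] [Field F] [Algebra O F]
  {ι Y : Type*} {V : ι → Subring F} {R : Y → Subring F} {On : Y → ι → Prop}
  {Hor : Y → F → Prop}

/-- **The top stage**: depth `top` on every component gives ONE constant, on every component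
and at every closed point. -/
theorem top_stage {p : ℕ} {ϖ : O} {top : ℕ} (hϖ : ¬ IsUnit ϖ) (htop : 1 ≤ top)
    (hinj : Function.Injective (algebraMap O F)) (D : IsPointDatum p ϖ top V R On Hor) (W₀ : ι)
    (f : F) (hf : f ≠ 0) (hHor : ∀ y, Hor y f)
    (hT : ∀ W, ∃ c : O, c ≠ 0 ∧ DepthIn (V W) p ϖ top f c) :
    ∃ c : O, c ≠ 0 ∧ (∀ W, DepthIn (V W) p ϖ top f c) ∧ ∀ y, DepthIn (R y) p ϖ top f c := by
  choose cW hcW hDW using hT
  have hpt : ∀ y, ∃ cy : O, cy ≠ 0 ∧ DepthIn (R y) p ϖ top f cy ∧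
      ∀ W, On y W → ConstRel p ϖ top cy (cW W) := by
    intro y
    obtain ⟨cy, hcy, hDy, hrel⟩ := D.topc y f hf (hHor y) (fun W _ => ⟨cW W, hcW W, hDW W⟩)
    exact ⟨cy, hcy, hDy, fun W hW => hrel W hW (cW W) (hcW W) (hDW W)⟩
  have hadj : ∀ a b, (∃ y, On y a ∧ On y b) → ConstRel p ϖ top (cW a) (cW b) := by
    rintro a b ⟨y, hya, hyb⟩
    obtain ⟨cy, -, -, hrel⟩ := hpt y
    exact (ConstRel.symm hϖ htop (hrel a hya)).trans (hrel b hyb)
  have hchain : ∀ a b, Relation.ReflTransGen (fun a b => ∃ y, On y a ∧ On y b) a b →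
      ConstRel p ϖ top (cW a) (cW b) := by
    intro a b hab
    induction hab with
    | refl => exact ConstRel.refl p ϖ top _
    | tail _ hbc ih => exact ih.trans (hadj _ _ hbc)
  have hall : ∀ W, ConstRel p ϖ top (cW W) (cW W₀) := fun W => hchain W W₀ (D.conn W W₀)
  refine ⟨cW W₀, hcW W₀, fun W => (hDW W).of_constRel (D.constV W) hinj hϖ htop (hall W),
    fun y => ?_⟩
  obtain ⟨cy, -, hDy, hrel⟩ := hpt y
  obtain ⟨W, hW⟩ := D.exists_on y
  exact hDy.of_constRel (D.constR y) hinj hϖ htop ((hrel W hW).trans (hall W))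

/-- **One depth step** `j → j + 1` (`1 ≤ j < top`), given that the leading terms are constant
modulo `ϖ` as soon as they are regular at every closed point and, for the non-root components,
linked to an already constant one (`hprop`). -/
theorem depth_step {p : ℕ} {ϖ : O} {top : ℕ} (hϖ : ¬ IsUnit ϖ)
    (D : IsPointDatum p ϖ top V R On Hor) (f : F) (hf : f ≠ 0) (hHor : ∀ y, Hor y f)
    (j : ℕ) (hj : 1 ≤ j) (hjt : j < top)
    (hglob : ∀ (r : ι → F), (∀ W, r W ∈ V W) → ∀ (ry : Y → F), (∀ y, ry y ∈ R y) →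
      (∀ y W, On y W → ∃ κ : O, MemPi (V W) ϖ (r W - ry y + algebraMap O F κ)) →
      ∀ W, ∃ κ : O, MemPi (V W) ϖ (r W - algebraMap O F κ))
    (ih : ∀ W, ∃ c : O, c ≠ 0 ∧ DepthIn (V W) p ϖ j f c) :
    ∀ W, ∃ c : O, c ≠ 0 ∧ DepthIn (V W) p ϖ (j + 1) f c := by
  have ih' : ∀ W, ∃ c : O, c ≠ 0 ∧ ∃ g r : F, r ∈ V W ∧
      f = algebraMap O F c * g ^ p * (1 + algebraMap O F ϖ ^ j * r) := ih
  choose c hc g r hr hfe using ih'
  have hreg := fun y => D.reg y f j hf hj hjt (hHor y)
    (fun W _ => ⟨c W, hc W, g W, r W, hr W, hfe W⟩)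
  choose ry hry hκ using hreg
  have hk : ∀ y W, On y W → ∃ κ : O, MemPi (V W) ϖ (r W - ry y + algebraMap O F κ) :=
    fun y W h => hκ y W h (c W) (g W) (r W) (hc W) (hr W) (hfe W)
  intro W
  obtain ⟨κ, hκW⟩ := hglob r hr ry hry hk W
  exact DepthIn.succ (D.constV W) hϖ hj (hc W) (hfe W) hκW

/-- **TOP on an abstract pointwise datum, (CONST) on every component.**  If `f` has
`p`-th-power depth `≥ 1` on every component, then there is ONE constant `c` such that `f` has
depth `≥ top` with constant `c` on every component and at every closed point (`r ∈ R y`). -/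
theorem top_core_of_const {p : ℕ} {ϖ : O} {top : ℕ} (hϖ : ¬ IsUnit ϖ) (htop : 1 ≤ top)
    (hinj : Function.Injective (algebraMap O F)) [Nonempty ι]
    (D : IsPointDatum p ϖ top V R On Hor) (hconst : ∀ W, ConstAt V R On ϖ W)
    (f : F) (hf : f ≠ 0) (hHor : ∀ y, Hor y f)
    (h1 : ∀ W, ∃ c : O, c ≠ 0 ∧ DepthIn (V W) p ϖ 1 f c) :
    ∃ c : O, c ≠ 0 ∧ (∀ W, DepthIn (V W) p ϖ top f c) ∧ ∀ y, DepthIn (R y) p ϖ top f c := by
  have hA : ∀ j, 1 ≤ j → j ≤ top → ∀ W, ∃ c : O, c ≠ 0 ∧ DepthIn (V W) p ϖ j f c := by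
    intro j hj
    induction j, hj using Nat.le_induction with
    | base => intro _; exact h1
    | succ j hj ih =>
      intro hjt
      refine depth_step hϖ D f hf hHor j hj (by omega) ?_ (ih (by omega))
      intro r hr ry hry hk W
      refine hconst W (r W) (hr W) (fun y hy => ?_)
      obtain ⟨κ, hκ⟩ := hk y W hy
      exact ⟨ry y - algebraMap O F κ, (R y).sub_mem (hry y) (D.constR y κ), hκ.congr (by ring)⟩
  obtain ⟨W₀⟩ := ‹Nonempty ι›
  exact top_stage hϖ htop hinj D W₀ f hf hHor (hA top htop le_rfl)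

/-- **TOP on an abstract pointwise datum, (CONST) on one root component and (VAN).**  If `f`
has `p`-th-power depth `≥ 1` on every component, then there is ONE constant `c` such that `f`
has depth `≥ top` with constant `c` on every component and at every closed point (`r ∈ R y`). -/
theorem top_core_of_root {p : ℕ} {ϖ : O} {top : ℕ} (hϖ : ¬ IsUnit ϖ) (htop : 1 ≤ top)
    (hinj : Function.Injective (algebraMap O F))
    (D : IsPointDatum p ϖ top V R On Hor) (W₀ : ι) (hconst : ConstAt V R On ϖ W₀)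
    (hvan : Van V R On ϖ)
    (f : F) (hf : f ≠ 0) (hHor : ∀ y, Hor y f)
    (h1 : ∀ W, ∃ c : O, c ≠ 0 ∧ DepthIn (V W) p ϖ 1 f c) :
    ∃ c : O, c ≠ 0 ∧ (∀ W, DepthIn (V W) p ϖ top f c) ∧ ∀ y, DepthIn (R y) p ϖ top f c := by
  have hA : ∀ j, 1 ≤ j → j ≤ top → ∀ W, ∃ c : O, c ≠ 0 ∧ DepthIn (V W) p ϖ j f c := by
    intro j hj
    induction j, hj using Nat.le_induction with
    | base => intro _; exact h1
    | succ j hj ih =>
      intro hjt
      refine depth_step hϖ D f hf hHor j hj (by omega) ?_ (ih (by omega))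
      intro r hr ry hry hk
      -- every shifted leading term is regular at every closed point
      have hregW : ∀ W (x : F) (k : O), x = r W + algebraMap O F k → ∀ y, On y W →
          ∃ a : F, a ∈ R y ∧ MemPi (V W) ϖ (x - a) := by
        intro W x k hx y hy
        obtain ⟨κ, hκ⟩ := hk y W hy
        exact ⟨ry y - algebraMap O F κ + algebraMap O F k,
          (R y).add_mem ((R y).sub_mem (hry y) (D.constR y κ)) (D.constR y k),
          hκ.congr (by rw [hx]; ring)⟩
      -- propagation along the dual graph from the root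
      have hchain : ∀ W, Relation.ReflTransGen (fun a b => ∃ y, On y a ∧ On y b) W₀ W →
          ∃ κ : O, MemPi (V W) ϖ (r W - algebraMap O F κ) := by
        intro W hW
        induction hW with
        | refl =>
          exact hconst (r W₀) (hr W₀) (hregW W₀ (r W₀) 0 (by rw [map_zero, add_zero]))
        | @tail a b _ hab ih =>
          obtain ⟨κa, hκa⟩ := ih
          obtain ⟨y, hya, hyb⟩ := hab
          obtain ⟨κ₁, hκ₁⟩ := hk y a hya
          obtain ⟨κ₂, hκ₂⟩ := hk y b hyb
          have ha0 : ry y - algebraMap O F κ₁ - algebraMap O F κa ∈ R y :=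
            (R y).sub_mem ((R y).sub_mem (hry y) (D.constR y κ₁)) (D.constR y κa)
          have hma0 : MemPi (V a) ϖ (ry y - algebraMap O F κ₁ - algebraMap O F κa) :=
            (hκa.sub hκ₁).congr (by ring)
          have hx : r b + algebraMap O F (κ₂ - κ₁ - κa) ∈ V b :=
            (V b).add_mem (hr b) (D.constV b _)
          have hxa : MemPi (V b) ϖ (r b + algebraMap O F (κ₂ - κ₁ - κa)
              - (ry y - algebraMap O F κ₁ - algebraMap O F κa)) :=
            hκ₂.congr (by rw [map_sub, map_sub]; ring)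
          have hfin := hvan b _ hx (hregW b _ (κ₂ - κ₁ - κa) rfl) y a hyb hya _ ha0 hma0 hxa
          exact ⟨κ₁ + κa - κ₂, hfin.congr (by rw [map_sub, map_sub, map_sub, map_add]; ring)⟩
      exact fun W => hchain W (D.conn W₀ W)
  exact top_stage hϖ htop hinj D W₀ f hf hHor (hA top htop le_rfl)

/-- **TOP on the abstract pointwise datum** (`IsDatum`: the pointwise part, (CONST) on one root
component, (VAN)).  If `f` has `p`-th-power depth `≥ 1` on every component, then there is ONE
constant `c` such that `f` has depth `≥ top` with constant `c` on every component and at every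
closed point (`r ∈ R y`). -/
theorem top_core {p : ℕ} {ϖ : O} {top : ℕ} (hϖ : ¬ IsUnit ϖ) (htop : 1 ≤ top)
    (hinj : Function.Injective (algebraMap O F)) (D : IsDatum p ϖ top V R On Hor)
    (f : F) (hf : f ≠ 0) (hHor : ∀ y, Hor y f)
    (h1 : ∀ W, ∃ c : O, c ≠ 0 ∧ DepthIn (V W) p ϖ 1 f c) :
    ∃ c : O, c ≠ 0 ∧ (∀ W, DepthIn (V W) p ϖ top f c) ∧ ∀ y, DepthIn (R y) p ϖ top f c := by
  obtain ⟨W₀, h0⟩ := D.const0
  exact top_core_of_root hϖ htop hinj D.toIsPointDatum W₀ h0
    (fun W x hx hreg y W' hy hy' a ha hma hxa => D.van W x hx hreg y hy a ha hxa ⟨W', hy', hma⟩)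
    f hf hHor h1

end Main

end Fermat.Agent.S33.Geo.Top
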