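import Mathlib
import Fermat.Agent.S33.Geo.Top

/-!
# S33 / GEO / C3: the DVR calculus of one branch ring

Level-free (Mathlib + `S33/Geo/Top` for `MemPi`).  helper256.

The generic ring of a component of a model is described in the hub (`Geo/Model.lean`,
`Geo/ModelI.lean`) ELEMENTWISE, as the localisation `V = A_(s)` of the local ring `A` of a
closed point at a prime element `s` (`TopLocal.IsBranch s V`, spelled out below so that this
file needs Mathlib only).  This file proves what the chart-level consumers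
(`Geo/ChartGlobal.lean`: binders `hV`, `hne`, `hunit`; the pinning of the components through a
point; lying over in a finite cover) need of such a ring, in a form that no longer mentions `A`:

* `IsPiDvr ϖ V` : `V` is a valuation ring of `F` over `O` whose non-units are `ϖ V`
  (fields `const`, `val`, `pi_ne`, `ne`, `unit`; `ne` / `unit` are the `ChartGlobal` binders
  `hne` / `hunit` verbatim).
* `IsPiDvr.eq_of_le` : such a ring is a maximal subring among those not containing `ϖ⁻¹`;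
  `IsPiDvr.mem_of_isIntegral`, `IsPiDvr.mem_of_isIntegral_adjoin` (integrally closed: the binder
  `hV`); `IsPiDvr.inv_mem_add` (unit + non-unit is a unit);
  `IsPiDvr.comap`, `IsPiDvr.mem_iff_of_le`, `IsPiDvr.memPi_iff_of_le` (lying over in a field
  extension).
* `isPiDvr_of_isBranch` : `A` a noetherian domain with fraction field `F`, `s` prime,
  `V = A_(s)`, `ϖ = s e` with `s ∤ e`  ⟹  `IsPiDvr ϖ V`; `memPi_algebraMap_iff` (the centre of
  `V` on `A` is `(s)`).
* `isPiDvr_node_left`, `isPiDvr_node_right`, `isPiDvr_smooth` : the same in the binder shapes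
  of `NodeBlock` / `SmoothBlock`; `node_dvd_of_memPi` (the fibre is reduced at a node).
-/

set_option autoImplicit false
set_option linter.unusedSectionVars false
set_option linter.unusedVariables false

namespace Fermat.Agent.S33.Geo.BranchDvr

open Polynomial Fermat.Agent.S33.Geo.Top

/-! ### Valuation rings with uniformiser `ϖ`, elementwise -/

section PiDvr

variable {O F : Type*} [CommRing O] [Field F] [Algebra O F]

/-- `V` is a valuation ring of `F` over `O` whose non-units are exactly `ϖ V`. -/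
structure IsPiDvr (ϖ : O) (V : Subring F) : Prop where
  /-- constants lie in `V` -/
  const : ∀ a : O, algebraMap O F a ∈ V
  /-- `V` is a valuation ring of `F` -/
  val : ∀ x : F, x ∈ V ∨ x⁻¹ ∈ V
  /-- `ϖ` is nonzero in `F` -/
  pi_ne : algebraMap O F ϖ ≠ 0
  /-- `ϖ` is not a unit of `V` -/
  ne : ¬ MemPi V ϖ 1
  /-- the elements of `V` outside `ϖ V` are units -/
  unit : ∀ a : F, a ∈ V → ¬ MemPi V ϖ a → a⁻¹ ∈ V

/-- A valuation ring is integrally closed, elementwise and over any base mapping into it. -/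
theorem mem_of_isIntegral_of_val (V : Subring F) (hval : ∀ x : F, x ∈ V ∨ x⁻¹ ∈ V)
    {B : Type*} [CommRing B] [Algebra B F] (hB : ∀ b : B, algebraMap B F b ∈ V) {x : F}
    (hx : IsIntegral B x) : x ∈ V := by
  rcases hval x with h | h
  · exact h
  obtain ⟨P, hP, hPx⟩ := hx
  have hx0 : x ≠ 0 ∨ x = 0 := (em (x = 0)).symm
  rcases hx0 with hx0 | hx0
  swap
  · rw [hx0]; exact V.zero_mem
  have hsum := hP.as_sum
  have h0 : x ^ P.natDegree + ∑ i ∈ Finset.range P.natDegree, algebraMap B F (P.coeff i) * x ^ i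
      = 0 := by
    rw [← hPx]
    conv_rhs => rw [hsum]
    simp [eval₂_add, eval₂_pow, eval₂_X, eval₂_finsetSum, eval₂_mul, eval₂_C]
  rcases Nat.eq_zero_or_pos P.natDegree with hn | hn
  · rw [hn] at h0
    simp at h0
  obtain ⟨m, hm⟩ : ∃ m, P.natDegree = m + 1 := ⟨P.natDegree - 1, by omega⟩
  rw [hm] at h0
  have key : x = - ∑ i ∈ Finset.range (m + 1), algebraMap B F (P.coeff i) * x⁻¹ ^ (m - i) := by
    have e1 : x = x ^ (m + 1) * x⁻¹ ^ m := by
      rw [pow_succ, mul_assoc, mul_comm x, ← mul_assoc, ← mul_pow, mul_inv_cancel₀ hx0, one_pow,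
        one_mul]
    have e2 : x ^ (m + 1) = - ∑ i ∈ Finset.range (m + 1), algebraMap B F (P.coeff i) * x ^ i :=
      eq_neg_of_add_eq_zero_left h0
    have e4 : ∀ i ∈ Finset.range (m + 1), algebraMap B F (P.coeff i) * x ^ i * x⁻¹ ^ m
        = algebraMap B F (P.coeff i) * x⁻¹ ^ (m - i) := by
      intro i hi
      have him : i ≤ m := Nat.lt_succ_iff.mp (Finset.mem_range.mp hi)
      have e3 : x⁻¹ ^ m = x⁻¹ ^ i * x⁻¹ ^ (m - i) := by
        rw [← pow_add, Nat.add_sub_cancel' him]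
      rw [e3, mul_assoc, ← mul_assoc (x ^ i), ← mul_pow, mul_inv_cancel₀ hx0, one_pow, one_mul]
    calc x = x ^ (m + 1) * x⁻¹ ^ m := e1
      _ = - ∑ i ∈ Finset.range (m + 1), algebraMap B F (P.coeff i) * x ^ i * x⁻¹ ^ m := by
        rw [e2, neg_mul, Finset.sum_mul]
      _ = _ := by rw [Finset.sum_congr rfl e4]
  rw [key]
  exact V.neg_mem (V.sum_mem fun i _ => V.mul_mem (hB _) (V.pow_mem h _))

variable {ϖ : O} {V : Subring F}

theorem IsPiDvr.inv_pi_notMem (h : IsPiDvr ϖ V) : (algebraMap O F ϖ)⁻¹ ∉ V := fun hmem =>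
  h.ne ⟨_, hmem, (mul_inv_cancel₀ h.pi_ne).symm⟩

theorem IsPiDvr.pi_mem (h : IsPiDvr ϖ V) : algebraMap O F ϖ ∈ V := h.const ϖ

/-- An element outside `V` is the inverse of an element of `ϖ V`. -/
theorem IsPiDvr.memPi_inv_of_notMem (h : IsPiDvr ϖ V) {x : F} (hx : x ∉ V) : MemPi V ϖ x⁻¹ := by
  have hx' : x⁻¹ ∈ V := (h.val x).resolve_left hx
  by_contra hcon
  exact hx (by simpa using h.unit x⁻¹ hx' hcon)

/-- **Maximality.**  A subring containing `V` and not containing `ϖ⁻¹` is `V`. -/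
theorem IsPiDvr.eq_of_le (h : IsPiDvr ϖ V) {V' : Subring F} (hle : V ≤ V')
    (hV' : (algebraMap O F ϖ)⁻¹ ∉ V') : V' = V := by
  refine le_antisymm (fun x hx => ?_) hle
  by_contra hxV
  obtain ⟨v, hv, hxv⟩ := h.memPi_inv_of_notMem hxV
  have hx0 : x ≠ 0 := fun h0 => hxV (h0 ▸ V.zero_mem)
  apply hV'
  have e : (algebraMap O F ϖ)⁻¹ = x * v := by
    have h1 : x * (algebraMap O F ϖ * v) = 1 := by rw [← hxv, mul_inv_cancel₀ hx0]
    exact inv_eq_of_mul_eq_one_right (by rw [← h1]; ring)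
  rw [e]
  exact V'.mul_mem hx (hle hv)

/-- Two such rings, one inside the other, are equal. -/
theorem IsPiDvr.eq_of_le' (h : IsPiDvr ϖ V) {V' : Subring F} (h' : IsPiDvr ϖ V') (hle : V ≤ V') :
    V' = V :=
  h.eq_of_le hle h'.inv_pi_notMem

/-- Integrally closed, over any base mapping into `V`. -/
theorem IsPiDvr.mem_of_isIntegral (h : IsPiDvr ϖ V) {B : Type*} [CommRing B] [Algebra B F]
    (hB : ∀ b : B, algebraMap B F b ∈ V) {x : F} (hx : IsIntegral B x) : x ∈ V :=
  mem_of_isIntegral_of_val V h.val hB hx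

/-- The binder `hV` of `ChartGlobal`: everything integral over `O[u, u⁻¹]` lies in `V`, as soon
as `u` and `u⁻¹` do. -/
theorem IsPiDvr.mem_of_isIntegral_adjoin (h : IsPiDvr ϖ V) (s : Set F) (hs : ∀ t ∈ s, t ∈ V)
    (x : F) (hx : IsIntegral (Algebra.adjoin O s) x) : x ∈ V := by
  have hall : ∀ y : F, y ∈ Algebra.adjoin O s → y ∈ V := by
    intro y hy
    induction hy using Algebra.adjoin_induction with
    | mem t ht => exact hs t ht
    | algebraMap r => exact h.const r
    | add x y _ _ hx hy => exact V.add_mem hx hy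
    | mul x y _ _ hx hy => exact V.mul_mem hx hy
  exact h.mem_of_isIntegral (B := Algebra.adjoin O s) (fun b => hall _ b.2) hx

/-- `ϖ V` is closed under subtraction. -/
theorem memPi_sub' {x y : F} (hx : MemPi V ϖ x) (hy : MemPi V ϖ y) : MemPi V ϖ (x - y) := by
  obtain ⟨v, hv, rfl⟩ := hx
  obtain ⟨w, hw, rfl⟩ := hy
  exact ⟨v - w, V.sub_mem hv hw, by ring⟩

/-- `ϖ V` is an ideal of `V`. -/
theorem memPi_mul' {x a : F} (hx : MemPi V ϖ x) (ha : a ∈ V) : MemPi V ϖ (x * a) := by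
  obtain ⟨v, hv, rfl⟩ := hx
  exact ⟨v * a, V.mul_mem hv ha, by ring⟩

/-- A unit plus a non-unit is a unit. -/
theorem IsPiDvr.inv_mem_add (h : IsPiDvr ϖ V) {a m : F} (ha0 : a ≠ 0) (ha : a ∈ V)
    (ha' : a⁻¹ ∈ V) (hm : MemPi V ϖ m) : (a + m)⁻¹ ∈ V := by
  have hmV : m ∈ V := by
    obtain ⟨v, hv, rfl⟩ := hm
    exact V.mul_mem h.pi_mem hv
  refine h.unit _ (V.add_mem ha hmV) fun hcon => ?_
  have hpa : MemPi V ϖ a := by
    have := memPi_sub' hcon hm
    rwa [add_sub_cancel_right] at this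
  have : MemPi V ϖ (a * a⁻¹) := memPi_mul' hpa ha'
  rw [mul_inv_cancel₀ ha0] at this
  exact h.ne this

/-! ### Lying over in a field extension -/

section Comap

variable {L : Type*} [Field L] [Algebra F L] [Algebra O L] [IsScalarTower O F L]

/-- The trace on a subfield of a valuation ring with uniformiser `ϖ` is one. -/
theorem IsPiDvr.comap {V' : Subring L} (h : IsPiDvr ϖ V') :
    IsPiDvr ϖ (V'.comap (algebraMap F L)) where
  const := fun a => by
    rw [Subring.mem_comap, ← IsScalarTower.algebraMap_apply O F L]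
    exact h.const a
  val := fun x => by
    rw [Subring.mem_comap, Subring.mem_comap, map_inv₀]
    exact h.val _
  pi_ne := fun h0 => h.pi_ne (by rw [IsScalarTower.algebraMap_apply O F L, h0, map_zero])
  ne := by
    rintro ⟨v, hv, hv1⟩
    refine h.ne ⟨algebraMap F L v, hv, ?_⟩
    rw [IsScalarTower.algebraMap_apply O F L, ← map_mul, ← hv1, map_one]
  unit := by
    intro a ha hna
    rw [Subring.mem_comap, map_inv₀]
    refine h.unit _ ha fun ⟨v, hv, hav⟩ => hna ?_
    have hπ0 : algebraMap O F ϖ ≠ 0 := fun h0 =>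
      h.pi_ne (by rw [IsScalarTower.algebraMap_apply O F L, h0, map_zero])
    refine ⟨a / algebraMap O F ϖ, ?_, by field_simp⟩
    rw [Subring.mem_comap, map_div₀, ← IsScalarTower.algebraMap_apply O F L, hav,
      mul_div_cancel_left₀ _ h.pi_ne]
    exact hv

/-- **Lying over.**  If `V ⊆ V'` along `F → L`, both valuation rings with uniformiser `ϖ`,
then `V = V' ∩ F`. -/
theorem IsPiDvr.mem_iff_of_le (h : IsPiDvr ϖ V) {V' : Subring L} (h' : IsPiDvr ϖ V')
    (hle : ∀ x : F, x ∈ V → algebraMap F L x ∈ V') (x : F) :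
    algebraMap F L x ∈ V' ↔ x ∈ V := by
  have e : V'.comap (algebraMap F L) = V := h.eq_of_le' h'.comap (fun x hx => hle x hx)
  rw [← e, Subring.mem_comap]

/-- **Lying over, centres.**  If `V ⊆ V'` along `F → L`, both valuation rings with uniformiser
`ϖ`, then `ϖ V = ϖ V' ∩ F`. -/
theorem IsPiDvr.memPi_iff_of_le (h : IsPiDvr ϖ V) {V' : Subring L} (h' : IsPiDvr ϖ V')
    (hle : ∀ x : F, x ∈ V → algebraMap F L x ∈ V') (x : F) :
    MemPi V' ϖ (algebraMap F L x) ↔ MemPi V ϖ x := by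
  constructor
  · rintro ⟨v, hv, hxv⟩
    refine ⟨x / algebraMap O F ϖ, ?_, by have := h.pi_ne; field_simp⟩
    rw [← h.mem_iff_of_le h' hle, map_div₀, ← IsScalarTower.algebraMap_apply O F L, hxv,
      mul_div_cancel_left₀ _ h'.pi_ne]
    exact hv
  · rintro ⟨v, hv, rfl⟩
    exact ⟨algebraMap F L v, hle v hv, by
      rw [map_mul, ← IsScalarTower.algebraMap_apply O F L]⟩

end Comap

end PiDvr

/-! ### A branch ring `V = A_(s)` -/

section Branch

variable {A : Type*} [CommRing A] [IsDomain A] {F : Type*} [Field F] [Algebra A F]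
  [IsFractionRing A F] {s : A} {V : Subring F}

/-- The elements of `A` lie in `A_(s)`. -/
theorem algebraMap_mem (hs : Prime s)
    (hV : ∀ x : F, x ∈ V ↔ ∃ a b : A, ¬ s ∣ b ∧ x * algebraMap A F b = algebraMap A F a)
    (a : A) : algebraMap A F a ∈ V :=
  (hV _).mpr ⟨a, 1, hs.not_dvd_one, by rw [map_one, mul_one]⟩

/-- The local ring `A` lies in `A_(s)`. -/
theorem range_le (hs : Prime s)
    (hV : ∀ x : F, x ∈ V ↔ ∃ a b : A, ¬ s ∣ b ∧ x * algebraMap A F b = algebraMap A F a) :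
    (algebraMap A F).range ≤ V := by
  rintro _ ⟨a, rfl⟩
  exact algebraMap_mem hs hV a

theorem algebraMap_ne_zero_of_not_dvd {b : A} (hb : ¬ s ∣ b) : algebraMap A F b ≠ 0 :=
  (map_ne_zero_iff _ (IsFractionRing.injective A F)).mpr (fun h => hb (h ▸ dvd_zero s))

/-- Fractions with denominator prime to `s` lie in `A_(s)`. -/
theorem div_mem
    (hV : ∀ x : F, x ∈ V ↔ ∃ a b : A, ¬ s ∣ b ∧ x * algebraMap A F b = algebraMap A F a)
    (a : A) {b : A} (hb : ¬ s ∣ b) : algebraMap A F a / algebraMap A F b ∈ V :=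
  (hV _).mpr ⟨a, b, hb, div_mul_cancel₀ _ (algebraMap_ne_zero_of_not_dvd hb)⟩

/-- The elements of `A` prime to `s` are units of `A_(s)`. -/
theorem inv_algebraMap_mem
    (hV : ∀ x : F, x ∈ V ↔ ∃ a b : A, ¬ s ∣ b ∧ x * algebraMap A F b = algebraMap A F a)
    {b : A} (hb : ¬ s ∣ b) : (algebraMap A F b)⁻¹ ∈ V := by
  have := div_mem hV 1 hb
  rwa [map_one, one_div] at this

/-- The centre of `A_(s)` on `A` is `(s)`. -/
theorem exists_eq_mul_iff (hs : Prime s)
    (hV : ∀ x : F, x ∈ V ↔ ∃ a b : A, ¬ s ∣ b ∧ x * algebraMap A F b = algebraMap A F a)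
    (a : A) : (∃ v : F, v ∈ V ∧ algebraMap A F a = algebraMap A F s * v) ↔ s ∣ a := by
  constructor
  · rintro ⟨v, hv, hav⟩
    obtain ⟨a', b, hb, hvb⟩ := (hV v).mp hv
    have h1 : algebraMap A F (a * b) = algebraMap A F (s * a') := by
      rw [map_mul, map_mul, hav, ← hvb]; ring
    have h2 : a * b = s * a' := IsFractionRing.injective A F h1
    exact (hs.dvd_or_dvd ⟨a', h2⟩).resolve_right hb
  · rintro ⟨c, rfl⟩
    exact ⟨algebraMap A F c, algebraMap_mem hs hV c, by rw [map_mul]⟩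

/-- In a noetherian domain the powers of a prime element can be split off. -/
theorem exists_pow_mul_not_dvd [IsNoetherianRing A] (hs : Prime s) {a : A} (ha : a ≠ 0) :
    ∃ (n : ℕ) (c : A), a = s ^ n * c ∧ ¬ s ∣ c :=
  ⟨_, (FiniteMultiplicity.of_not_isUnit hs.not_isUnit ha).exists_eq_pow_mul_and_not_dvd⟩

/-- **`A_(s)` is a valuation ring of `F`** (`A` a noetherian domain, `s` prime). -/
theorem mem_or_inv_mem [IsNoetherianRing A] (hs : Prime s)
    (hV : ∀ x : F, x ∈ V ↔ ∃ a b : A, ¬ s ∣ b ∧ x * algebraMap A F b = algebraMap A F a)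
    (x : F) : x ∈ V ∨ x⁻¹ ∈ V := by
  obtain ⟨a0, b0, hb0, rfl⟩ := IsFractionRing.div_surjective (A := A) x
  by_cases ha0 : a0 = 0
  · left
    rw [ha0, map_zero, zero_div]
    exact V.zero_mem
  have hb0' : b0 ≠ 0 := nonZeroDivisors.ne_zero hb0
  obtain ⟨m, a, rfl, ha⟩ := exists_pow_mul_not_dvd hs ha0
  obtain ⟨k, b, rfl, hb⟩ := exists_pow_mul_not_dvd hs hb0'
  have hs0 : algebraMap A F s ≠ 0 :=
    (map_ne_zero_iff _ (IsFractionRing.injective A F)).mpr hs.ne_zero
  have haF : algebraMap A F a ≠ 0 := algebraMap_ne_zero_of_not_dvd ha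
  have hbF : algebraMap A F b ≠ 0 := algebraMap_ne_zero_of_not_dvd hb
  rcases le_total k m with hkm | hmk
  · left
    obtain ⟨d, rfl⟩ := Nat.exists_eq_add_of_le hkm
    have e : algebraMap A F (s ^ (k + d) * a) / algebraMap A F (s ^ k * b)
        = algebraMap A F (s ^ d * a) / algebraMap A F b := by
      simp only [map_mul, map_pow]
      field_simp
      ring
    rw [e]
    exact div_mem hV _ hb
  · right
    obtain ⟨d, rfl⟩ := Nat.exists_eq_add_of_le hmk
    have e : (algebraMap A F (s ^ m * a) / algebraMap A F (s ^ (m + d) * b))⁻¹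
        = algebraMap A F (s ^ d * b) / algebraMap A F a := by
      simp only [map_mul, map_pow]
      field_simp
      ring
    rw [e]
    exact div_mem hV _ ha

variable {O : Type*} [CommRing O] [Algebra O A] [Algebra O F] [IsScalarTower O A F]

/-- `ϖ V = s V` when `ϖ = s e` with `s ∤ e`. -/
theorem memPi_iff_mul (hs : Prime s)
    (hV : ∀ x : F, x ∈ V ↔ ∃ a b : A, ¬ s ∣ b ∧ x * algebraMap A F b = algebraMap A F a)
    {ϖ : O} {e : A} (he : ¬ s ∣ e) (hϖ : algebraMap O A ϖ = s * e) (x : F) :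
    MemPi V ϖ x ↔ ∃ v : F, v ∈ V ∧ x = algebraMap A F s * v := by
  have heF : algebraMap A F e ≠ 0 := algebraMap_ne_zero_of_not_dvd he
  have hπ : algebraMap O F ϖ = algebraMap A F s * algebraMap A F e := by
    rw [IsScalarTower.algebraMap_apply O A F, hϖ, map_mul]
  constructor
  · rintro ⟨v, hv, rfl⟩
    exact ⟨algebraMap A F e * v, V.mul_mem (algebraMap_mem hs hV e) hv, by rw [hπ]; ring⟩
  · rintro ⟨v, hv, rfl⟩
    refine ⟨(algebraMap A F e)⁻¹ * v, V.mul_mem (inv_algebraMap_mem hV he) hv, ?_⟩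
    rw [hπ]
    field_simp

/-- The centre of `V = A_(s)` on `A`, in terms of `ϖ = s e`: `a ∈ ϖ V ↔ s ∣ a`. -/
theorem memPi_algebraMap_iff (hs : Prime s)
    (hV : ∀ x : F, x ∈ V ↔ ∃ a b : A, ¬ s ∣ b ∧ x * algebraMap A F b = algebraMap A F a)
    {ϖ : O} {e : A} (he : ¬ s ∣ e) (hϖ : algebraMap O A ϖ = s * e) (a : A) :
    MemPi V ϖ (algebraMap A F a) ↔ s ∣ a := by
  rw [memPi_iff_mul hs hV he hϖ, exists_eq_mul_iff hs hV]

/-- **A branch ring is a valuation ring with uniformiser `ϖ`**: `A` a noetherian domain with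
fraction field `F`, `s` prime, `V = A_(s)`, `ϖ = s e` with `s ∤ e`. -/
theorem isPiDvr_of_isBranch [IsNoetherianRing A] (hs : Prime s)
    (hV : ∀ x : F, x ∈ V ↔ ∃ a b : A, ¬ s ∣ b ∧ x * algebraMap A F b = algebraMap A F a)
    {ϖ : O} {e : A} (he : ¬ s ∣ e) (hϖ : algebraMap O A ϖ = s * e) : IsPiDvr ϖ V where
  const := fun a => by
    rw [IsScalarTower.algebraMap_apply O A F]
    exact algebraMap_mem hs hV _
  val := mem_or_inv_mem hs hV
  pi_ne := by
    rw [IsScalarTower.algebraMap_apply O A F, hϖ]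
    exact (map_ne_zero_iff _ (IsFractionRing.injective A F)).mpr
      (mul_ne_zero hs.ne_zero (fun h => he (h ▸ dvd_zero s)))
  ne := by
    intro h1
    rw [← map_one (algebraMap A F), memPi_algebraMap_iff hs hV he hϖ] at h1
    exact hs.not_dvd_one h1
  unit := by
    intro a ha hna
    obtain ⟨a1, b1, hb1, hab⟩ := (hV a).mp ha
    have hb1F : algebraMap A F b1 ≠ 0 := algebraMap_ne_zero_of_not_dvd hb1
    by_cases hsa : s ∣ a1
    · exfalso
      apply hna
      rw [memPi_iff_mul hs hV he hϖ]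
      obtain ⟨c, rfl⟩ := hsa
      refine ⟨algebraMap A F c / algebraMap A F b1, div_mem hV c hb1, ?_⟩
      rw [map_mul] at hab
      field_simp
      exact hab
    · have e1 : a⁻¹ = algebraMap A F b1 / algebraMap A F a1 := by
        have ha1F : algebraMap A F a1 ≠ 0 := algebraMap_ne_zero_of_not_dvd hsa
        rw [← hab] at ha1F ⊢
        have ha0 : a ≠ 0 := left_ne_zero_of_mul ha1F
        field_simp
      rw [e1]
      exact div_mem hV b1 hsa

/-! ### The binder shapes of `NodeBlock` / `SmoothBlock` -/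

theorem not_dvd_mul_unit_of_node {s t : A} (hs : Prime s) (ht : Prime t)
    (hne : ¬ Associated s t) (w : Aˣ) : ¬ s ∣ t * w := fun h =>
  hne (hs.irreducible.associated_of_dvd ht.irreducible (Units.dvd_mul_right.mp h))

/-- The first branch ring of a regular node is a valuation ring with uniformiser `ϖ`. -/
theorem isPiDvr_node_left [IsNoetherianRing A] {s t : A} (hs : Prime s) (ht : Prime t)
    (hne : ¬ Associated s t) {ϖ : O} (hst : Associated (s * t) (algebraMap O A ϖ))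
    {V₁ : Subring F}
    (hV₁ : ∀ x : F, x ∈ V₁ ↔ ∃ a b : A, ¬ s ∣ b ∧ x * algebraMap A F b = algebraMap A F a) :
    IsPiDvr ϖ V₁ := by
  obtain ⟨w, hw⟩ := hst
  exact isPiDvr_of_isBranch hs hV₁ (not_dvd_mul_unit_of_node hs ht hne w)
    (by rw [← hw]; ring)

/-- The second branch ring of a regular node is a valuation ring with uniformiser `ϖ`. -/
theorem isPiDvr_node_right [IsNoetherianRing A] {s t : A} (hs : Prime s) (ht : Prime t)
    (hne : ¬ Associated s t) {ϖ : O} (hst : Associated (s * t) (algebraMap O A ϖ))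
    {V₂ : Subring F}
    (hV₂ : ∀ x : F, x ∈ V₂ ↔ ∃ a b : A, ¬ t ∣ b ∧ x * algebraMap A F b = algebraMap A F a) :
    IsPiDvr ϖ V₂ := by
  obtain ⟨w, hw⟩ := hst
  exact isPiDvr_of_isBranch ht hV₂
    (not_dvd_mul_unit_of_node ht hs (fun h => hne h.symm) w) (by rw [← hw]; ring)

/-- The branch ring of a smooth point of the fibre is a valuation ring with uniformiser `ϖ`. -/
theorem isPiDvr_smooth [IsNoetherianRing A] {ϖ : O} (hϖ : Prime (algebraMap O A ϖ))
    {V₁ : Subring F}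
    (hV₁ : ∀ x : F, x ∈ V₁ ↔
      ∃ a b : A, ¬ algebraMap O A ϖ ∣ b ∧ x * algebraMap A F b = algebraMap A F a) :
    IsPiDvr ϖ V₁ :=
  isPiDvr_of_isBranch hϖ hV₁ (e := 1) hϖ.not_dvd_one (by rw [mul_one])

/-- **The fibre is reduced at a regular node**: an element of `A` lying in `ϖ V₁` and in
`ϖ V₂` is divisible by `ϖ` in `A`. -/
theorem node_dvd_of_memPi {s t : A} (hs : Prime s) (ht : Prime t)
    (hne : ¬ Associated s t) {ϖ : O} (hst : Associated (s * t) (algebraMap O A ϖ))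
    {V₁ V₂ : Subring F}
    (hV₁ : ∀ x : F, x ∈ V₁ ↔ ∃ a b : A, ¬ s ∣ b ∧ x * algebraMap A F b = algebraMap A F a)
    (hV₂ : ∀ x : F, x ∈ V₂ ↔ ∃ a b : A, ¬ t ∣ b ∧ x * algebraMap A F b = algebraMap A F a)
    (a : A) (h1 : MemPi V₁ ϖ (algebraMap A F a)) (h2 : MemPi V₂ ϖ (algebraMap A F a)) :
    algebraMap O A ϖ ∣ a := by
  obtain ⟨w, hw⟩ := hst
  have hsa : s ∣ a :=
    (memPi_algebraMap_iff hs hV₁ (not_dvd_mul_unit_of_node hs ht hne w)
      (by rw [← hw]; ring) a).mp h1
  have hta : t ∣ a :=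
    (memPi_algebraMap_iff ht hV₂ (not_dvd_mul_unit_of_node ht hs (fun h => hne h.symm) w)
      (by rw [← hw]; ring) a).mp h2
  obtain ⟨c, rfl⟩ := hsa
  have hts : ¬ t ∣ s := fun h =>
    hne (ht.irreducible.associated_of_dvd hs.irreducible h).symm
  obtain ⟨d, rfl⟩ := (ht.dvd_or_dvd hta).resolve_left hts
  exact ⟨↑w⁻¹ * d, by rw [← hw]; ring_nf; rw [mul_assoc (s * t * d), Units.mul_inv, mul_one]⟩

/-- The same in the range form: `x ∈ A`, `x ∈ ϖ V₁`, `x ∈ ϖ V₂` ⟹ `x ∈ ϖ A`. -/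
theorem node_memPi_range {s t : A} (hs : Prime s) (ht : Prime t)
    (hne : ¬ Associated s t) {ϖ : O} (hst : Associated (s * t) (algebraMap O A ϖ))
    {V₁ V₂ : Subring F}
    (hV₁ : ∀ x : F, x ∈ V₁ ↔ ∃ a b : A, ¬ s ∣ b ∧ x * algebraMap A F b = algebraMap A F a)
    (hV₂ : ∀ x : F, x ∈ V₂ ↔ ∃ a b : A, ¬ t ∣ b ∧ x * algebraMap A F b = algebraMap A F a)
    {x : F} (hx : x ∈ (algebraMap A F).range) (h1 : MemPi V₁ ϖ x) (h2 : MemPi V₂ ϖ x) :
    MemPi (algebraMap A F).range ϖ x := by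
  obtain ⟨a, rfl⟩ := hx
  obtain ⟨c, rfl⟩ := node_dvd_of_memPi hs ht hne hst hV₁ hV₂ a h1 h2
  exact ⟨algebraMap A F c, ⟨c, rfl⟩, by
    rw [map_mul, ← IsScalarTower.algebraMap_apply O A F]⟩

/-- **The fibre is reduced at a smooth point**: `x ∈ A`, `x ∈ ϖ V₁` ⟹ `x ∈ ϖ A`. -/
theorem smooth_memPi_range {ϖ : O} (hϖ : Prime (algebraMap O A ϖ)) {V₁ : Subring F}
    (hV₁ : ∀ x : F, x ∈ V₁ ↔
      ∃ a b : A, ¬ algebraMap O A ϖ ∣ b ∧ x * algebraMap A F b = algebraMap A F a)
    {x : F} (hx : x ∈ (algebraMap A F).range) (h1 : MemPi V₁ ϖ x) :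
    MemPi (algebraMap A F).range ϖ x := by
  obtain ⟨a, rfl⟩ := hx
  obtain ⟨c, rfl⟩ := (memPi_algebraMap_iff hϖ hV₁ (e := 1) hϖ.not_dvd_one
    (by rw [mul_one]) a).mp h1
  exact ⟨algebraMap A F c, ⟨c, rfl⟩, by
    rw [map_mul, ← IsScalarTower.algebraMap_apply O A F]⟩

end Branch

end Fermat.Agent.S33.Geo.BranchDvr
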