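import Mathlib
import Fermat.Agent.S33.Geo.BranchDvr

/-!
# S33 / GEO / C3: pinning of the branches at a regular node, the discrete normal form, and
the `p`-th-power form of "the fibre is reduced"

Level-free (Mathlib + `S33/Geo/BranchDvr`).  helper256.  Continuation of `Geo/BranchDvr.lean`
(same conventions: `TopLocal.IsBranch s V` is spelled out).

* `IsDisc ϖ V` : every nonzero `x` of `F` is `ϖ ^ n * w`, `n : ℤ`, `w` a unit of `V` (the last
  binder of `Orth.depthIn_form`); `isDisc_of_isBranch`, `isDisc_node_left`, `isDisc_node_right`,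
  `isDisc_smooth`.
* `node_pin` : at a regular node `𝔪_A = (s, t)`, `s t ∼ ϖ`, a valuation ring `V'` with
  uniformiser `ϖ` (`IsPiDvr ϖ V'`) containing `A` is one of the two branch rings `A_(s)`,
  `A_(t)`.  (At a smooth point the analogous statement is false: it needs the centre of `V'` on
  the chart to be a minimal prime over `ϖ`.)
* `branch_le_of_memPi_of_unit` : the half of `node_pin` with the roles of `s`, `t` fixed.
* `hred_pow` : if the chart `S` has reduced fibre in the component form of `ChartGlobal`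
  (`hred0` / `hred1`) and every component ring is an `IsPiDvr`, then the fibre is reduced in the
  power form of `PthPoint.exists_pow_eq_of_pointwise` / `ModelExit.model_exit`
  (`x ^ n / ϖ` integral ⟹ `x / ϖ` integral).
-/

set_option autoImplicit false
set_option linter.unusedSectionVars false
set_option linter.unusedVariables false

namespace Fermat.Agent.S33.Geo.BranchPin

open Polynomial IsLocalRing Fermat.Agent.S33.Geo.Top Fermat.Agent.S33.Geo.BranchDvr

/-! ### The discrete normal form -/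

section Disc

/-- Every nonzero element of `F` is a power of `ϖ` times a unit of `V`. -/
def IsDisc {O F : Type*} [CommRing O] [Field F] [Algebra O F] (ϖ : O) (V : Subring F) : Prop :=
  ∀ a : F, a ≠ 0 → ∃ (n : ℤ) (w : F), w ∈ V ∧ w⁻¹ ∈ V ∧ a = algebraMap O F ϖ ^ n * w

variable {A : Type*} [CommRing A] [IsDomain A] {F : Type*} [Field F] [Algebra A F]
  [IsFractionRing A F] {s : A} {V : Subring F}
  {O : Type*} [CommRing O] [Algebra O A] [Algebra O F] [IsScalarTower O A F]

/-- **The discrete normal form in a branch ring**: `A` a noetherian domain, `s` prime,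
`V = A_(s)`, `ϖ = s e` with `s ∤ e`. -/
theorem isDisc_of_isBranch [IsNoetherianRing A] (hs : Prime s)
    (hV : ∀ x : F, x ∈ V ↔ ∃ a b : A, ¬ s ∣ b ∧ x * algebraMap A F b = algebraMap A F a)
    {ϖ : O} {e : A} (he : ¬ s ∣ e) (hϖ : algebraMap O A ϖ = s * e) : IsDisc ϖ V := by
  intro x hx
  obtain ⟨a0, b0, hb0, rfl⟩ := IsFractionRing.div_surjective (A := A) x
  have ha0 : a0 ≠ 0 := by
    rintro rfl
    exact hx (by rw [map_zero, zero_div])
  have hb0' : b0 ≠ 0 := nonZeroDivisors.ne_zero hb0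
  obtain ⟨m, a, rfl, ha⟩ := exists_pow_mul_not_dvd hs ha0
  obtain ⟨k, b, rfl, hb⟩ := exists_pow_mul_not_dvd hs hb0'
  have hs0 : algebraMap A F s ≠ 0 :=
    (map_ne_zero_iff _ (IsFractionRing.injective A F)).mpr hs.ne_zero
  have haF : algebraMap A F a ≠ 0 := algebraMap_ne_zero_of_not_dvd ha
  have hbF : algebraMap A F b ≠ 0 := algebraMap_ne_zero_of_not_dvd hb
  have heF : algebraMap A F e ≠ 0 := algebraMap_ne_zero_of_not_dvd he
  have hπ : algebraMap O F ϖ = algebraMap A F s * algebraMap A F e := by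
    rw [IsScalarTower.algebraMap_apply O A F, hϖ, map_mul]
  have heV : algebraMap A F e ∈ V := algebraMap_mem hs hV e
  have heV' : (algebraMap A F e)⁻¹ ∈ V := inv_algebraMap_mem hV he
  have heVm : (algebraMap A F e ^ m)⁻¹ ∈ V := by
    rw [← inv_pow]; exact V.pow_mem heV' m
  have heVk : (algebraMap A F e ^ k)⁻¹ ∈ V := by
    rw [← inv_pow]; exact V.pow_mem heV' k
  refine ⟨(m : ℤ) - (k : ℤ), (algebraMap A F e ^ m)⁻¹ * algebraMap A F e ^ k
      * (algebraMap A F a / algebraMap A F b), ?_, ?_, ?_⟩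
  · exact V.mul_mem (V.mul_mem heVm (V.pow_mem heV k)) (div_mem hV a hb)
  · have e1 : ((algebraMap A F e ^ m)⁻¹ * algebraMap A F e ^ k
        * (algebraMap A F a / algebraMap A F b))⁻¹
        = algebraMap A F e ^ m * (algebraMap A F e ^ k)⁻¹
          * (algebraMap A F b / algebraMap A F a) := by
      field_simp
    rw [e1]
    exact V.mul_mem (V.mul_mem (V.pow_mem heV m) heVk) (div_mem hV b ha)
  · rw [hπ, zpow_sub₀ (mul_ne_zero hs0 heF), zpow_natCast, zpow_natCast]
    simp only [map_mul, map_pow, mul_pow]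
    field_simp

theorem isDisc_node_left [IsNoetherianRing A] {s t : A} (hs : Prime s) (ht : Prime t)
    (hne : ¬ Associated s t) {ϖ : O} (hst : Associated (s * t) (algebraMap O A ϖ))
    {V₁ : Subring F}
    (hV₁ : ∀ x : F, x ∈ V₁ ↔ ∃ a b : A, ¬ s ∣ b ∧ x * algebraMap A F b = algebraMap A F a) :
    IsDisc ϖ V₁ := by
  obtain ⟨w, hw⟩ := hst
  exact isDisc_of_isBranch hs hV₁ (not_dvd_mul_unit_of_node hs ht hne w) (by rw [← hw]; ring)

theorem isDisc_node_right [IsNoetherianRing A] {s t : A} (hs : Prime s) (ht : Prime t)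
    (hne : ¬ Associated s t) {ϖ : O} (hst : Associated (s * t) (algebraMap O A ϖ))
    {V₂ : Subring F}
    (hV₂ : ∀ x : F, x ∈ V₂ ↔ ∃ a b : A, ¬ t ∣ b ∧ x * algebraMap A F b = algebraMap A F a) :
    IsDisc ϖ V₂ := by
  obtain ⟨w, hw⟩ := hst
  exact isDisc_of_isBranch ht hV₂
    (not_dvd_mul_unit_of_node ht hs (fun h => hne h.symm) w) (by rw [← hw]; ring)

theorem isDisc_smooth [IsNoetherianRing A] {ϖ : O} (hϖ : Prime (algebraMap O A ϖ))
    {V₁ : Subring F}
    (hV₁ : ∀ x : F, x ∈ V₁ ↔
      ∃ a b : A, ¬ algebraMap O A ϖ ∣ b ∧ x * algebraMap A F b = algebraMap A F a) :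
    IsDisc ϖ V₁ :=
  isDisc_of_isBranch hϖ hV₁ (e := 1) hϖ.not_dvd_one (by rw [mul_one])

end Disc

/-! ### Pinning at a regular node -/

section Pin

variable {A : Type*} [CommRing A] [IsDomain A] [IsLocalRing A] [IsNoetherianRing A]
  {F : Type*} [Field F] [Algebra A F] [IsFractionRing A F]
  {O : Type*} [CommRing O] [Algebra O A] [Algebra O F] [IsScalarTower O A F]

/-- Krull: in a noetherian local ring, `⋂ₙ ((s) + 𝔪ⁿ) = (s)`. -/
theorem dvd_of_forall_mem_sup_pow (s b : A)
    (h : ∀ n : ℕ, b ∈ Ideal.span {s} ⊔ maximalIdeal A ^ n) : s ∣ b := by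
  have hbot := Ideal.iInf_pow_smul_eq_bot_of_isLocalRing (R := A)
    (M := A ⧸ Ideal.span ({s} : Set A)) (maximalIdeal A) (maximalIdeal.isMaximal A).ne_top
  have hmem : Ideal.Quotient.mk (Ideal.span ({s} : Set A)) b ∈
      (⨅ i : ℕ, maximalIdeal A ^ i • ⊤ : Submodule A (A ⧸ Ideal.span ({s} : Set A))) := by
    rw [Submodule.mem_iInf]
    intro n
    obtain ⟨x, hx, y, hy, hxy⟩ := Submodule.mem_sup.mp (h n)
    have e : Ideal.Quotient.mk (Ideal.span ({s} : Set A)) b
        = y • (1 : A ⧸ Ideal.span ({s} : Set A)) := by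
      rw [← hxy, map_add, Ideal.Quotient.eq_zero_iff_mem.mpr hx, zero_add, Algebra.smul_def,
        mul_one]
      rfl
    rw [e]
    exact Submodule.smul_mem_smul hy Submodule.mem_top
  rw [hbot, Submodule.mem_bot, Ideal.Quotient.eq_zero_iff_mem, Ideal.mem_span_singleton] at hmem
  exact hmem

/-- **Half of the pinning at a node**: if `𝔪_A = (s, t)`, `s` is a non-unit and `t` a unit of a
valuation ring `V' ⊇ A` with uniformiser `ϖ`, then every element of `A` prime to `s` is a unit
of `V'`. -/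
theorem inv_mem_of_not_dvd_of_unit {s t : A} (hm : maximalIdeal A = Ideal.span {s, t})
    {ϖ : O} {V' : Subring F} (h' : IsPiDvr ϖ V') (hle : (algebraMap A F).range ≤ V')
    (hs' : MemPi V' ϖ (algebraMap A F s)) (ht0 : algebraMap A F t ≠ 0)
    (ht' : (algebraMap A F t)⁻¹ ∈ V') {b : A} (hb : ¬ s ∣ b) : (algebraMap A F b)⁻¹ ∈ V' := by
  by_contra hcon
  refine hb (dvd_of_forall_mem_sup_pow s b fun n => ?_)
  -- every element prime to `s` which is not a unit of `V'` lies in `(s) + 𝔪ⁿ`
  have key : ∀ n : ℕ, ∀ c : A, ¬ s ∣ c → (algebraMap A F c)⁻¹ ∉ V' →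
      c ∈ Ideal.span {s} ⊔ maximalIdeal A ^ n := by
    intro n
    induction n with
    | zero =>
      intro c _ _
      rw [pow_zero, Ideal.one_eq_top, sup_top_eq]
      exact Submodule.mem_top
    | succ n ih =>
      intro c hc hcV
      have hcm : c ∈ maximalIdeal A := by
        by_contra hcm
        have hu : IsUnit c := by
          by_contra hnu
          exact hcm ((mem_maximalIdeal c).mpr hnu)
        obtain ⟨d, hd⟩ := hu.exists_right_inv
        apply hcV
        have e : (algebraMap A F c)⁻¹ = algebraMap A F d := by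
          refine inv_eq_of_mul_eq_one_right ?_
          rw [← map_mul, hd, map_one]
        rw [e]
        exact hle ⟨d, rfl⟩
      rw [hm] at hcm
      obtain ⟨x, c1, hxc⟩ := Ideal.mem_span_pair.mp hcm
      have hc1 : ¬ s ∣ c1 := by
        rintro ⟨d, rfl⟩
        exact hc ⟨x + d * t, by rw [← hxc]; ring⟩
      have hc1V : (algebraMap A F c1)⁻¹ ∉ V' := by
        intro hc1V
        apply hcV
        have hc10 : algebraMap A F c1 ≠ 0 := algebraMap_ne_zero_of_not_dvd hc1
        have e : algebraMap A F c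
            = algebraMap A F c1 * algebraMap A F t + algebraMap A F s * algebraMap A F x := by
          rw [← hxc]
          simp only [map_add, map_mul]
          ring
        rw [e]
        refine h'.inv_mem_add (mul_ne_zero hc10 ht0)
          (V'.mul_mem (hle ⟨c1, rfl⟩) (hle ⟨t, rfl⟩)) ?_ (memPi_mul' hs' (hle ⟨x, rfl⟩))
        rw [mul_inv]
        exact V'.mul_mem hc1V ht'
      have h1 := ih c1 hc1 hc1V
      obtain ⟨y, hy, z, hz, hyz⟩ := Submodule.mem_sup.mp h1
      have htm : t ∈ maximalIdeal A := by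
        rw [hm]
        exact Ideal.subset_span (by simp)
      refine Submodule.mem_sup.mpr ⟨x * s + y * t, ?_, z * t, ?_, ?_⟩
      · exact Ideal.add_mem _ (Ideal.mul_mem_left _ _ (Ideal.mem_span_singleton_self s))
          (Ideal.mul_mem_right _ _ hy)
      · rw [pow_succ]
        exact Ideal.mul_mem_mul hz htm
      · rw [← hxc, ← hyz]
        ring
  exact key n b hb hcon

/-- The same as an inclusion of rings: `A_(s) ≤ V'`. -/
theorem branch_le_of_memPi_of_unit {s t : A} (hm : maximalIdeal A = Ideal.span {s, t})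
    {ϖ : O} {V' : Subring F} (h' : IsPiDvr ϖ V') (hle : (algebraMap A F).range ≤ V')
    (hs' : MemPi V' ϖ (algebraMap A F s)) (ht0 : algebraMap A F t ≠ 0)
    (ht' : (algebraMap A F t)⁻¹ ∈ V') {V₁ : Subring F}
    (hV₁ : ∀ x : F, x ∈ V₁ ↔ ∃ a b : A, ¬ s ∣ b ∧ x * algebraMap A F b = algebraMap A F a) :
    V₁ ≤ V' := by
  intro x hx
  obtain ⟨a, b, hb, hab⟩ := (hV₁ x).mp hx
  have hbF : algebraMap A F b ≠ 0 := algebraMap_ne_zero_of_not_dvd hb
  have e : x = algebraMap A F a * (algebraMap A F b)⁻¹ := by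
    rw [← hab, mul_assoc, mul_inv_cancel₀ hbF, mul_one]
  rw [e]
  exact V'.mul_mem (hle ⟨a, rfl⟩) (inv_mem_of_not_dvd_of_unit hm h' hle hs' ht0 ht' hb)

/-- **Pinning at a regular node.**  `A` a noetherian local domain with `𝔪_A = (s, t)`, `s`, `t`
non-associated primes, `s t ∼ ϖ`, `V₁ = A_(s)`, `V₂ = A_(t)`.  A valuation ring `V'` of `F`
with uniformiser `ϖ` containing `A` is `V₁` or `V₂`. -/
theorem node_pin {s t : A} (hs : Prime s) (ht : Prime t) (hne : ¬ Associated s t)
    (hm : maximalIdeal A = Ideal.span {s, t}) {ϖ : O}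
    (hst : Associated (s * t) (algebraMap O A ϖ)) {V₁ V₂ : Subring F}
    (hV₁ : ∀ x : F, x ∈ V₁ ↔ ∃ a b : A, ¬ s ∣ b ∧ x * algebraMap A F b = algebraMap A F a)
    (hV₂ : ∀ x : F, x ∈ V₂ ↔ ∃ a b : A, ¬ t ∣ b ∧ x * algebraMap A F b = algebraMap A F a)
    {V' : Subring F} (h' : IsPiDvr ϖ V') (hle : (algebraMap A F).range ≤ V') :
    V' = V₁ ∨ V' = V₂ := by
  have hs0 : algebraMap A F s ≠ 0 :=
    (map_ne_zero_iff _ (IsFractionRing.injective A F)).mpr hs.ne_zero
  have ht0 : algebraMap A F t ≠ 0 :=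
    (map_ne_zero_iff _ (IsFractionRing.injective A F)).mpr ht.ne_zero
  have hsV : algebraMap A F s ∈ V' := hle ⟨s, rfl⟩
  have htV : algebraMap A F t ∈ V' := hle ⟨t, rfl⟩
  have hm' : maximalIdeal A = Ideal.span {t, s} := by rw [hm, Set.pair_comm]
  obtain ⟨w, hw⟩ := id hst
  have hπ : algebraMap O F ϖ = algebraMap A F s * algebraMap A F t * algebraMap A F (w : A) := by
    rw [IsScalarTower.algebraMap_apply O A F, ← hw, map_mul, map_mul]
  have hwV : algebraMap A F (w : A) ∈ V' := hle ⟨_, rfl⟩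
  by_cases hsu : MemPi V' ϖ (algebraMap A F s)
  · -- `s` is a non-unit of `V'`: then `t` is a unit
    left
    have htu : (algebraMap A F t)⁻¹ ∈ V' := by
      refine h'.unit _ htV fun htn => h'.ne ?_
      obtain ⟨v1, hv1, e1⟩ := hsu
      obtain ⟨v2, hv2, e2⟩ := htn
      refine ⟨v1 * v2 * algebraMap A F (w : A), V'.mul_mem (V'.mul_mem hv1 hv2) hwV, ?_⟩
      have hπ0 := h'.pi_ne
      have e3 : algebraMap O F ϖ * 1
          = algebraMap O F ϖ * (algebraMap O F ϖ * (v1 * v2 * algebraMap A F (w : A))) := by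
        rw [mul_one]
        conv_lhs => rw [hπ, e1, e2]
        ring
      exact mul_left_cancel₀ hπ0 e3
    exact (isPiDvr_node_left hs ht hne hst hV₁).eq_of_le
      (branch_le_of_memPi_of_unit hm h' hle hsu ht0 htu hV₁) h'.inv_pi_notMem
  · -- `s` is a unit of `V'`: then `t` is a non-unit
    right
    have hsu' : (algebraMap A F s)⁻¹ ∈ V' := h'.unit _ hsV hsu
    have htn : MemPi V' ϖ (algebraMap A F t) := by
      by_contra htn
      have htu : (algebraMap A F t)⁻¹ ∈ V' := h'.unit _ htV htn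
      apply h'.inv_pi_notMem
      have hwu : (algebraMap A F (w : A))⁻¹ ∈ V' := by
        have e : (algebraMap A F (w : A))⁻¹ = algebraMap A F ((w⁻¹ : Aˣ) : A) := by
          refine inv_eq_of_mul_eq_one_right ?_
          rw [← map_mul, Units.mul_inv, map_one]
        rw [e]
        exact hle ⟨_, rfl⟩
      rw [hπ, mul_inv, mul_inv]
      exact V'.mul_mem (V'.mul_mem hsu' htu) hwu
    exact (isPiDvr_node_right hs ht hne hst hV₂).eq_of_le
      (branch_le_of_memPi_of_unit hm' h' hle htn hs0 hsu' hV₂) h'.inv_pi_notMem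

end Pin

/-! ### The fibre is reduced, power form -/

section Red

variable {O F : Type*} [CommRing O] [Field F] [Algebra O F]

/-- **Reduced fibre, power form.**  If the chart `S` has reduced fibre in the component form
(`x` integral over `S` and `x ∈ ϖ V W` for every component `W` ⟹ `x / ϖ` integral over `S`:
the binders `hred0` / `hred1` of `ChartGlobal`), every component ring is a valuation ring with
uniformiser `ϖ` and contains the chart, then `x ^ n / ϖ` integral ⟹ `x / ϖ` integral (the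
binders `hred0` / `hredinf` of `ModelExit.model_exit`). -/
theorem hred_pow (ϖ : O) (hπ0 : algebraMap O F ϖ ≠ 0) {ι : Type*} (V : ι → Subring F)
    (hdvr : ∀ W, IsPiDvr ϖ (V W)) (S : Subalgebra O F)
    (hSV : ∀ W (x : F), IsIntegral S x → x ∈ V W)
    (hred : ∀ x : F, IsIntegral S x → (∀ W, MemPi (V W) ϖ x) →
      ∃ w : F, IsIntegral S w ∧ x = algebraMap O F ϖ * w)
    (n : ℕ) (x : F) (hx : IsIntegral S x)
    (hxn : IsIntegral S (x ^ n / algebraMap O F ϖ)) :
    IsIntegral S (x / algebraMap O F ϖ) := by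
  have hall : ∀ W, MemPi (V W) ϖ x := by
    intro W
    by_contra hcon
    have hxV : x ∈ V W := hSV W x hx
    have hxu : x⁻¹ ∈ V W := (hdvr W).unit x hxV hcon
    have hx0 : x ≠ 0 := by
      rintro rfl
      exact hcon ⟨0, (V W).zero_mem, by rw [mul_zero]⟩
    have hv : x ^ n / algebraMap O F ϖ ∈ V W := hSV W _ hxn
    have hxn' : (x ^ n)⁻¹ ∈ V W := by
      rw [← inv_pow]; exact (V W).pow_mem hxu n
    refine (hdvr W).ne ⟨x ^ n / algebraMap O F ϖ * (x ^ n)⁻¹, (V W).mul_mem hv hxn', ?_⟩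
    field_simp
  obtain ⟨w, hw, rfl⟩ := hred x hx hall
  rwa [mul_div_cancel_left₀ _ hπ0]

end Red

end Fermat.Agent.S33.Geo.BranchPin
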