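/-
S33 (helper19), GEO, level-free: THE THREE GLOBAL FIELDS OF THE MODEL DATUM FOR A TWO-CHART MODEL
WITH FINITELY MANY COMPONENTS.

`O` a commutative ring with an element `π`, `F` a field over `O`, `u : F` nonzero.  The charts are
the integral closures of `O[u]`, `O[u⁻¹]` in `F` (as in `S30/Model/CechP1`).  The components of
the fibre `π = 0` are given by their generic rings `V W : Subring F`; `Top.MemPi (V W) π x` says
`x ∈ π V W`.  On the chart `u⁻¹` only the maximal ideals containing `u⁻¹` (the points over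
`u = ∞`) are ever used, so a datum whose closed points are: all points of the chart `u`, and the
points of the chart `u⁻¹` over `u = ∞`, is enough.

* `conn_of_charts`   (CONN): reduced fibre on both charts + every such maximal ideal lying on
  two components is a point of `Y`  ⟹  the graph (components, points) is connected.
  Otherwise the CRT elements of a separating pair of component sets contradict
  `CechP1.connected`.
* `van_of_charts`    (VAN): an element of `V` which is regular modulo `π V` at every such closed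
  point and vanishes at ONE closed point lies in `π V`.
* `const0_of_charts` (CONST0): the same with a closed point of residue degree one instead of the
  vanishing: the element is congruent to a constant of `O`.
* `van_of_points`, `constAt_of_points` : the same as producers of `Top.Van`, `Top.ConstAt`.

No hypothesis on constant fields of the components.
-/
import Mathlib
import Fermat.Agent.S30.Model.CechP1
import Fermat.Agent.S33.Geo.Top

set_option autoImplicit false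

namespace Fermat.Agent.S33.Geo.ChartGlobal

open Polynomial Fermat.Agent.S30.Model Fermat.Agent.S33.Geo.Top

variable {O F : Type*} [CommRing O] [Field F] [Algebra O F]

/-! ### `x ∈ ϖ V` -/

theorem memPi_zero (V : Subring F) (ϖ : O) : MemPi V ϖ 0 := ⟨0, V.zero_mem, by simp⟩

theorem memPi_add {V : Subring F} {ϖ : O} {x y : F} (hx : MemPi V ϖ x) (hy : MemPi V ϖ y) :
    MemPi V ϖ (x + y) := by
  obtain ⟨v, hv, rfl⟩ := hx
  obtain ⟨w, hw, rfl⟩ := hy
  exact ⟨v + w, V.add_mem hv hw, by ring⟩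

theorem memPi_neg {V : Subring F} {ϖ : O} {x : F} (hx : MemPi V ϖ x) : MemPi V ϖ (-x) := by
  obtain ⟨v, hv, rfl⟩ := hx
  exact ⟨-v, V.neg_mem hv, by ring⟩

theorem memPi_mul_left {V : Subring F} {ϖ : O} {x : F} (hx : MemPi V ϖ x) {a : F} (ha : a ∈ V) :
    MemPi V ϖ (a * x) := by
  obtain ⟨v, hv, rfl⟩ := hx
  exact ⟨a * v, V.mul_mem ha hv, by ring⟩

theorem memPi_mul_right {V : Subring F} {ϖ : O} {x : F} (hx : MemPi V ϖ x) {a : F} (ha : a ∈ V) :
    MemPi V ϖ (x * a) := by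
  obtain ⟨v, hv, rfl⟩ := hx
  exact ⟨v * a, V.mul_mem hv ha, by ring⟩

theorem memPi_sum {V : Subring F} {ϖ : O} {α : Type*} (s : Finset α) (f : α → F)
    (h : ∀ i ∈ s, MemPi V ϖ (f i)) : MemPi V ϖ (∑ i ∈ s, f i) := by
  classical
  induction s using Finset.induction_on with
  | empty => rw [Finset.sum_empty]; exact memPi_zero V ϖ
  | insert a s ha ih =>
    rw [Finset.sum_insert ha]
    exact memPi_add (h a (Finset.mem_insert_self a s))
      (ih fun i hi => h i (Finset.mem_insert_of_mem hi))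

/-! ### (CONN) -/

/-- The elements of `C` lying in `ϖ V W` for every `W ∈ S`. -/
def cenIdeal {C : Type*} [CommRing C] (j : C →+* F) {ι : Type*} (V : ι → Subring F)
    (hjV : ∀ W c, j c ∈ V W) (ϖ : O) (S : Set ι) : Ideal C where
  carrier := {b | ∀ W ∈ S, MemPi (V W) ϖ (j b)}
  add_mem' := fun {a b} ha hb W hW => by
    rw [map_add]; exact memPi_add (ha W hW) (hb W hW)
  zero_mem' := fun W _ => by
    rw [map_zero]; exact memPi_zero _ _
  smul_mem' := fun c b hb W hW => by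
    rw [smul_eq_mul, map_mul]; exact memPi_mul_left (hb W hW) (hjV W c)

theorem mem_cenIdeal {C : Type*} [CommRing C] (j : C →+* F) {ι : Type*} (V : ι → Subring F)
    (hjV : ∀ W c, j c ∈ V W) (ϖ : O) (S : Set ι) (b : C) :
    b ∈ cenIdeal j V hjV ϖ S ↔ ∀ W ∈ S, MemPi (V W) ϖ (j b) := Iff.rfl

/-- CRT for a separated pair of component sets; only the maximal ideals containing an element
`s`, a power of which is already split, have to be looked at. -/
theorem exists_split {C : Type*} [CommRing C] (j : C →+* F) {ι : Type*} [Finite ι]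
    (V : ι → Subring F) (hjV : ∀ W c, j c ∈ V W) (ϖ : O) (S : Set ι) (s : C) (n : ℕ)
    (hs : s ^ n ∈ cenIdeal j V hjV ϖ S ⊔ cenIdeal j V hjV ϖ Sᶜ)
    (hpt : ∀ 𝔪 : Ideal C, 𝔪.IsMaximal → s ∈ 𝔪 → ∀ W ∈ S, ∀ W' ∉ S,
      (∀ b : C, MemPi (V W) ϖ (j b) → b ∈ 𝔪) → (∀ b : C, MemPi (V W') ϖ (j b) → b ∈ 𝔪) → False) :
    ∃ e f : C, e + f = 1 ∧ (∀ W ∈ S, MemPi (V W) ϖ (j e)) ∧ (∀ W ∉ S, MemPi (V W) ϖ (j f)) := by
  classical
  have key : ∀ (𝔪 : Ideal C), 𝔪.IsMaximal → ∀ T : Set ι, cenIdeal j V hjV ϖ T ≤ 𝔪 →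
      ∃ W ∈ T, ∀ b : C, MemPi (V W) ϖ (j b) → b ∈ 𝔪 := by
    intro 𝔪 h𝔪 T hT
    by_contra hcon
    push Not at hcon
    have hch : ∀ W : ι, ∃ b : C, b ∉ 𝔪 ∧ (W ∈ T → MemPi (V W) ϖ (j b)) := by
      intro W
      by_cases hW : W ∈ T
      · obtain ⟨b, hb, hb𝔪⟩ := hcon W hW
        exact ⟨b, hb𝔪, fun _ => hb⟩
      · exact ⟨1, (Ideal.ne_top_iff_one 𝔪).mp h𝔪.ne_top, fun h => absurd h hW⟩
    choose b hb𝔪 hbT using hch
    have := Fintype.ofFinite ι
    have := h𝔪.isPrime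
    have hprod_not : ∏ W, b W ∉ 𝔪 := by
      intro hmem
      obtain ⟨W, -, hW⟩ := Ideal.IsPrime.prod_mem_iff.mp hmem
      exact hb𝔪 W hW
    apply hprod_not
    apply hT
    rw [mem_cenIdeal]
    intro W hW
    rw [← Finset.mul_prod_erase Finset.univ b (Finset.mem_univ W), map_mul]
    exact memPi_mul_right (hbT W hW) (hjV W _)
  have hsup : cenIdeal j V hjV ϖ S ⊔ cenIdeal j V hjV ϖ Sᶜ = ⊤ := by
    by_contra hne
    obtain ⟨𝔪, h𝔪, hle⟩ := Ideal.exists_le_maximal _ hne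
    have hs𝔪 : s ∈ 𝔪 := h𝔪.isPrime.mem_of_pow_mem n (hle hs)
    obtain ⟨W, hW, hWm⟩ := key 𝔪 h𝔪 S (le_sup_left.trans hle)
    obtain ⟨W', hW', hWm'⟩ := key 𝔪 h𝔪 Sᶜ (le_sup_right.trans hle)
    exact hpt 𝔪 h𝔪 hs𝔪 W hW W' hW' hWm hWm'
  have h1 : (1 : C) ∈ cenIdeal j V hjV ϖ S ⊔ cenIdeal j V hjV ϖ Sᶜ := by
    rw [hsup]; exact Submodule.mem_top
  obtain ⟨e, he, f, hf, hef⟩ := Submodule.mem_sup.mp h1
  exact ⟨e, f, hef, he, fun W hW => hf W hW⟩

/-- **(CONN).**  Two charts with reduced fibre, finitely many components with generic rings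
`V W`; every maximal ideal of the chart `u`, and every maximal ideal of the chart `u⁻¹`
containing `u⁻¹`, which lies on two components is a point of `Y` on both.  Then the graph of
components is connected. -/
theorem conn_of_charts [IsNoetherianRing O] (π : O) (hπ : Prime π)
    (hinj : Function.Injective (algebraMap O F))
    (hOL : ∀ x : F, IsIntegral O x → ∃ a : O, algebraMap O F a = x)
    (u : F) (hu : u ≠ 0)
    (hfin : ∃ s : Finset F, (∀ β ∈ s, IsIntegral (Algebra.adjoin O ({u} : Set F)) β) ∧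
      ∀ x : F, IsIntegral (Algebra.adjoin O ({u} : Set F)) x →
        ∃ f : F → O[X], x = ∑ β ∈ s, aeval u (f β) * β)
    {ι Y : Type*} [Finite ι] (V : ι → Subring F) (On : Y → ι → Prop)
    (hV : ∀ W (x : F), IsIntegral (Algebra.adjoin O ({u, u⁻¹} : Set F)) x → x ∈ V W)
    (hne : ∀ W, ¬ MemPi (V W) π 1)
    (hred0 : ∀ x : F, IsIntegral (Algebra.adjoin O ({u} : Set F)) x →
      (∀ W, MemPi (V W) π x) →
      ∃ w : F, IsIntegral (Algebra.adjoin O ({u} : Set F)) w ∧ x = algebraMap O F π * w)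
    (hred1 : ∀ x : F, IsIntegral (Algebra.adjoin O ({u⁻¹} : Set F)) x →
      (∀ W, MemPi (V W) π x) →
      ∃ w : F, IsIntegral (Algebra.adjoin O ({u⁻¹} : Set F)) w ∧ x = algebraMap O F π * w)
    (hpt0 : ∀ 𝔪 : Ideal (integralClosure (Algebra.adjoin O ({u} : Set F)) F), 𝔪.IsMaximal →
      ∀ W W' : ι,
        (∀ b : integralClosure (Algebra.adjoin O ({u} : Set F)) F,
          MemPi (V W) π (b : F) → b ∈ 𝔪) →
        (∀ b : integralClosure (Algebra.adjoin O ({u} : Set F)) F,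
          MemPi (V W') π (b : F) → b ∈ 𝔪) →
        ∃ y, On y W ∧ On y W')
    (hpt1 : ∀ 𝔪 : Ideal (integralClosure (Algebra.adjoin O ({u⁻¹} : Set F)) F), 𝔪.IsMaximal →
      (∀ s : integralClosure (Algebra.adjoin O ({u⁻¹} : Set F)) F, (s : F) = u⁻¹ → s ∈ 𝔪) →
      ∀ W W' : ι,
        (∀ b : integralClosure (Algebra.adjoin O ({u⁻¹} : Set F)) F,
          MemPi (V W) π (b : F) → b ∈ 𝔪) →
        (∀ b : integralClosure (Algebra.adjoin O ({u⁻¹} : Set F)) F,
          MemPi (V W') π (b : F) → b ∈ 𝔪) →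
        ∃ y, On y W ∧ On y W') :
    ∀ W W' : ι, Relation.ReflTransGen (fun a b => ∃ y, On y a ∧ On y b) W W' := by
  intro W0 W1
  by_contra hW1
  set S : Set ι := {W | Relation.ReflTransGen (fun a b => ∃ y, On y a ∧ On y b) W0 W} with hS
  have hW0S : W0 ∈ S := Relation.ReflTransGen.refl
  have hW1S : W1 ∉ S := hW1
  have h0le : Algebra.adjoin O ({u} : Set F) ≤ Algebra.adjoin O ({u, u⁻¹} : Set F) :=
    Algebra.adjoin_mono (by simp)
  have h1le : Algebra.adjoin O ({u⁻¹} : Set F) ≤ Algebra.adjoin O ({u, u⁻¹} : Set F) :=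
    Algebra.adjoin_mono (by simp)
  have hV0 : ∀ W (x : F), IsIntegral (Algebra.adjoin O ({u} : Set F)) x → x ∈ V W :=
    fun W x hx => hV W x (CechP1.isIntegral_mono h0le hx)
  have hV1 : ∀ W (x : F), IsIntegral (Algebra.adjoin O ({u⁻¹} : Set F)) x → x ∈ V W :=
    fun W x hx => hV W x (CechP1.isIntegral_mono h1le hx)
  have hu01 : IsIntegral (Algebra.adjoin O ({u, u⁻¹} : Set F)) u :=
    CechP1.isIntegral_adjoin_of_mem (Algebra.subset_adjoin (by simp))
  have hui01 : IsIntegral (Algebra.adjoin O ({u, u⁻¹} : Set F)) u⁻¹ :=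
    CechP1.isIntegral_adjoin_of_mem (Algebra.subset_adjoin (by simp))
  have hui1 : IsIntegral (Algebra.adjoin O ({u⁻¹} : Set F)) u⁻¹ :=
    CechP1.isIntegral_adjoin_of_mem (Algebra.subset_adjoin (by simp))
  have huV : ∀ W, u⁻¹ ∈ V W := fun W => hV W _ hui01
  -- the CRT elements on the chart `u`
  obtain ⟨e0, f0, hef0, he0, hf0⟩ := exists_split
    (integralClosure (Algebra.adjoin O ({u} : Set F)) F).val.toRingHom V
    (fun W c => hV0 W _ c.2) π S 0 1 (by rw [pow_one]; exact Submodule.zero_mem _) (by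
      intro 𝔪 h𝔪 _ W hW W' hW' hc hc'
      obtain ⟨y, hy, hy'⟩ := hpt0 𝔪 h𝔪 W W' hc hc'
      exact hW' (Relation.ReflTransGen.tail hW ⟨y, hy, hy'⟩))
  have hsum0 : (e0 : F) + (f0 : F) = 1 := by
    have h := congrArg (fun c : integralClosure (Algebra.adjoin O ({u} : Set F)) F => (c : F)) hef0
    simpa using h
  have he0' : ∀ W ∈ S, MemPi (V W) π (e0 : F) := he0
  have hf0' : ∀ W ∉ S, MemPi (V W) π (f0 : F) := hf0
  -- a power of `u⁻¹` is split on the chart `u⁻¹`
  have hswap : ∀ z : F, IsIntegral (Algebra.adjoin O ({u} : Set F)) z →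
      ∃ n : ℕ, IsIntegral (Algebra.adjoin O ({u⁻¹} : Set F)) (u⁻¹ ^ n * z) := by
    intro z hz
    have hz' : IsIntegral (Algebra.adjoin O ({u⁻¹, u⁻¹⁻¹} : Set F)) z := by
      rw [inv_inv, Set.pair_comm]; exact CechP1.isIntegral_mono h0le hz
    exact CechP1.exists_pow_mul_isIntegral u⁻¹ (inv_ne_zero hu) z hz'
  obtain ⟨ne, hne_e⟩ := hswap _ e0.2
  obtain ⟨nf, hnf_f⟩ := hswap _ f0.2
  have hEint : IsIntegral (Algebra.adjoin O ({u⁻¹} : Set F)) (u⁻¹ ^ (ne + nf) * (e0 : F)) := by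
    have e : u⁻¹ ^ (ne + nf) * (e0 : F) = u⁻¹ ^ nf * (u⁻¹ ^ ne * (e0 : F)) := by
      rw [pow_add]; ring
    rw [e]; exact (hui1.pow nf).mul hne_e
  have hFint : IsIntegral (Algebra.adjoin O ({u⁻¹} : Set F)) (u⁻¹ ^ (ne + nf) * (f0 : F)) := by
    have e : u⁻¹ ^ (ne + nf) * (f0 : F) = u⁻¹ ^ ne * (u⁻¹ ^ nf * (f0 : F)) := by
      rw [pow_add]; ring
    rw [e]; exact (hui1.pow ne).mul hnf_f
  obtain ⟨e1, f1, hef1, he1, hf1⟩ := exists_split
    (integralClosure (Algebra.adjoin O ({u⁻¹} : Set F)) F).val.toRingHom V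
    (fun W c => hV1 W _ c.2) π S
    (⟨u⁻¹, hui1⟩ : integralClosure (Algebra.adjoin O ({u⁻¹} : Set F)) F) (ne + nf) (by
      have hsplit : (⟨u⁻¹, hui1⟩ : integralClosure (Algebra.adjoin O ({u⁻¹} : Set F)) F) ^ (ne + nf)
          = (⟨u⁻¹ ^ (ne + nf) * (e0 : F), hEint⟩ :
              integralClosure (Algebra.adjoin O ({u⁻¹} : Set F)) F)
            + ⟨u⁻¹ ^ (ne + nf) * (f0 : F), hFint⟩ := by
        apply Subtype.ext
        show u⁻¹ ^ (ne + nf) = u⁻¹ ^ (ne + nf) * (e0 : F) + u⁻¹ ^ (ne + nf) * (f0 : F)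
        rw [← mul_add, hsum0, mul_one]
      rw [hsplit]
      refine Submodule.add_mem_sup ?_ ?_
      · rw [mem_cenIdeal]
        intro W hW
        exact memPi_mul_left (he0' W hW) ((V W).pow_mem (huV W) _)
      · rw [mem_cenIdeal]
        intro W hW
        exact memPi_mul_left (hf0' W hW) ((V W).pow_mem (huV W) _)) (by
      intro 𝔪 h𝔪 hs𝔪 W hW W' hW' hc hc'
      obtain ⟨y, hy, hy'⟩ := hpt1 𝔪 h𝔪
        (fun s hs => by
          have : s = ⟨u⁻¹, hui1⟩ := Subtype.ext hs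
          rw [this]; exact hs𝔪) W W' hc hc'
      exact hW' (Relation.ReflTransGen.tail hW ⟨y, hy, hy'⟩))
  have hsum1 : (e1 : F) + (f1 : F) = 1 := by
    have h := congrArg (fun c : integralClosure (Algebra.adjoin O ({u⁻¹} : Set F)) F => (c : F)) hef1
    simpa using h
  have he1' : ∀ W ∈ S, MemPi (V W) π (e1 : F) := he1
  have hf1' : ∀ W ∉ S, MemPi (V W) π (f1 : F) := hf1
  -- idempotent modulo `π` on the chart `u`
  have h0 : ∃ w : F, IsIntegral (Algebra.adjoin O ({u} : Set F)) w ∧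
      (e0 : F) ^ 2 - (e0 : F) = algebraMap O F π * w := by
    refine hred0 _ ((e0.2.pow 2).sub e0.2) fun W => ?_
    have e : (e0 : F) ^ 2 - (e0 : F) = -((e0 : F) * (f0 : F)) := by
      have hf : (f0 : F) = 1 - (e0 : F) := by rw [← hsum0]; ring
      rw [hf]; ring
    rw [e]
    by_cases hW : W ∈ S
    · exact memPi_neg (memPi_mul_right (he0' W hW) (hV0 W _ f0.2))
    · exact memPi_neg (memPi_mul_left (hf0' W hW) (hV0 W _ e0.2))
  have h1 : ∃ w : F, IsIntegral (Algebra.adjoin O ({u⁻¹} : Set F)) w ∧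
      (e1 : F) ^ 2 - (e1 : F) = algebraMap O F π * w := by
    refine hred1 _ ((e1.2.pow 2).sub e1.2) fun W => ?_
    have e : (e1 : F) ^ 2 - (e1 : F) = -((e1 : F) * (f1 : F)) := by
      have hf : (f1 : F) = 1 - (e1 : F) := by rw [← hsum1]; ring
      rw [hf]; ring
    rw [e]
    by_cases hW : W ∈ S
    · exact memPi_neg (memPi_mul_right (he1' W hW) (hV1 W _ f1.2))
    · exact memPi_neg (memPi_mul_left (hf1' W hW) (hV1 W _ e1.2))
  -- agreement modulo `π` on the overlap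
  have h01 : ∃ w : F, IsIntegral (Algebra.adjoin O ({u, u⁻¹} : Set F)) w ∧
      (e0 : F) - (e1 : F) = algebraMap O F π * w := by
    have hz : ∀ W, MemPi (V W) π ((e0 : F) - (e1 : F)) := by
      intro W
      by_cases hW : W ∈ S
      · exact (he0' W hW).sub (he1' W hW)
      · have e : (e0 : F) - (e1 : F) = (f1 : F) - (f0 : F) := by
          have hf0e : (e0 : F) = 1 - (f0 : F) := by rw [← hsum0]; ring
          have hf1e : (e1 : F) = 1 - (f1 : F) := by rw [← hsum1]; ring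
          rw [hf0e, hf1e]; ring
        rw [e]
        exact (hf1' W hW).sub (hf0' W hW)
    have hz01 : IsIntegral (Algebra.adjoin O ({u, u⁻¹} : Set F)) ((e0 : F) - (e1 : F)) :=
      (CechP1.isIntegral_mono h0le e0.2).sub (CechP1.isIntegral_mono h1le e1.2)
    obtain ⟨n, hn⟩ := CechP1.exists_pow_mul_isIntegral u hu _ hz01
    obtain ⟨w, hw, hzw⟩ := hred0 _ hn
      (fun W => memPi_mul_left (hz W) ((V W).pow_mem (hV W u hu01) n))
    refine ⟨u⁻¹ ^ n * w, (hui01.pow n).mul (CechP1.isIntegral_mono h0le hw), ?_⟩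
    have h2 : u⁻¹ ^ n * u ^ n = 1 := by rw [← mul_pow, inv_mul_cancel₀ hu, one_pow]
    calc (e0 : F) - (e1 : F) = (u⁻¹ ^ n * u ^ n) * ((e0 : F) - (e1 : F)) := by rw [h2, one_mul]
      _ = u⁻¹ ^ n * (u ^ n * ((e0 : F) - (e1 : F))) := by ring
      _ = algebraMap O F π * (u⁻¹ ^ n * w) := by rw [hzw]; ring
  rcases CechP1.connected π hπ hinj hOL u hu hfin (e0 : F) (e1 : F) e0.2 e1.2 h0 h1 h01 with
    ⟨⟨w0, hw0, hew0⟩, -⟩ | ⟨⟨w0, hw0, hew0⟩, -⟩
  · apply hne W1
    have h : MemPi (V W1) π ((e0 : F) + (f0 : F)) :=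
      memPi_add (⟨w0, hV0 W1 w0 hw0, hew0⟩ : MemPi (V W1) π (e0 : F)) (hf0' W1 hW1S)
    rwa [hsum0] at h
  · apply hne W0
    have h : MemPi (V W0) π ((e0 : F) - ((e0 : F) - 1)) :=
      (he0' W0 hW0S).sub ⟨w0, hV0 W0 w0 hw0, hew0⟩
    rwa [sub_sub_cancel] at h

/-! ### (VAN) and (CONST0) -/

/-- If a power of `s` is a denominator of `x` modulo `ϖ V`, and `x` is regular modulo `ϖ V` at
every maximal ideal of `C` over the centre of `V` containing `s`, then `x` is congruent modulo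
`ϖ V` to an element of `C`. -/
theorem exists_chart_rep {C : Type*} [CommRing C] (j : C →+* F) (V : Subring F)
    (hjV : ∀ c, j c ∈ V) (ϖ : O) (x : F) (hx : x ∈ V) (s : C) (n : ℕ)
    (hs : ∃ c : C, MemPi V ϖ (j (s ^ n) * x - j c))
    (hreg : ∀ 𝔪 : Ideal C, 𝔪.IsMaximal → s ∈ 𝔪 → (∀ b : C, MemPi V ϖ (j b) → b ∈ 𝔪) →
      ∃ b c : C, b ∉ 𝔪 ∧ MemPi V ϖ (j b * x - j c)) :
    ∃ c : C, MemPi V ϖ (x - j c) := by
  let J : Ideal C :=
    { carrier := {b | ∃ c : C, MemPi V ϖ (j b * x - j c)}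
      add_mem' := by
        rintro a b ⟨c, hc⟩ ⟨d, hd⟩
        refine ⟨c + d, ?_⟩
        have h := memPi_add hc hd
        have e : j (a + b) * x - j (c + d) = j a * x - j c + (j b * x - j d) := by
          rw [map_add, map_add]; ring
        rw [e]; exact h
      zero_mem' := ⟨0, by rw [map_zero, zero_mul, sub_zero]; exact memPi_zero V ϖ⟩
      smul_mem' := by
        rintro a b ⟨c, hc⟩
        refine ⟨a * c, ?_⟩
        have h := memPi_mul_left hc (hjV a)
        have e : j (a • b) * x - j (a * c) = j a * (j b * x - j c) := by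
          rw [smul_eq_mul, map_mul, map_mul]; ring
        rw [e]; exact h }
  have hmemJ : ∀ b : C, b ∈ J ↔ ∃ c : C, MemPi V ϖ (j b * x - j c) := fun b => Iff.rfl
  by_cases hJ : J = ⊤
  · have h1 : (1 : C) ∈ J := by rw [hJ]; exact Submodule.mem_top
    obtain ⟨c, hc⟩ := (hmemJ 1).mp h1
    refine ⟨c, ?_⟩
    rwa [map_one, one_mul] at hc
  · exfalso
    obtain ⟨𝔪, h𝔪, hle⟩ := Ideal.exists_le_maximal J hJ
    have hs𝔪 : s ∈ 𝔪 := h𝔪.isPrime.mem_of_pow_mem n (hle ((hmemJ _).mpr hs))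
    obtain ⟨b, c, hb, hbc⟩ := hreg 𝔪 h𝔪 hs𝔪 (fun b hb => hle ((hmemJ b).mpr ⟨0, by
      rw [map_zero, sub_zero]; exact memPi_mul_right hb hx⟩))
    exact hb (hle ((hmemJ b).mpr ⟨c, hbc⟩))

/-- The box-span argument of `CechP1.isIntegral_of_two_charts`, from explicit equations. -/
theorem isIntegral_of_two_eqns {L : Type*} [Field L] [Algebra O L] (u : L) (hu : u ≠ 0) (x : L)
    (d r1 : ℕ) (a : ℕ → O[X]) (ha : ∀ i, (a i).natDegree ≤ r1)
    (hxd : x ^ d = ∑ i ∈ Finset.range d, aeval u (a i) * x ^ i)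
    (e r2 : ℕ) (b : ℕ → O[X]) (hb : ∀ i, (b i).natDegree ≤ r2)
    (hxe : x ^ e = ∑ i ∈ Finset.range e, aeval u⁻¹ (b i) * x ^ i) : IsIntegral O x := by
  set A := r1 + r2 with hA
  set B := d + e with hB
  refine isIntegral_of_smul_mem_submodule (CechP1.boxSpan (O := O) u x A B) ?_
    (CechP1.boxSpan_fg u x A B) x ?_
  · intro hbot
    have h1mem : (1 : L) ∈ CechP1.boxSpan (O := O) u x A B := by
      have := CechP1.mem_boxSpan (O := O) u x (A := A) (B := B) (a := 0) (b := 0)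
        (by omega) (by omega)
      simpa using this
    rw [hbot, Submodule.mem_bot] at h1mem
    exact one_ne_zero h1mem
  · intro n hn
    induction hn using Submodule.span_induction with
    | mem y hy =>
      obtain ⟨⟨a', b'⟩, hab, rfl⟩ := hy
      simp only [Finset.coe_product, Finset.coe_range, Set.mem_prod, Set.mem_Iio] at hab
      obtain ⟨ha', hb'⟩ := hab
      show x • (u ^ a' * x ^ b') ∈ _
      rw [smul_eq_mul]
      by_cases hbB : b' + 1 ≤ B
      · have e1 : x * (u ^ a' * x ^ b') = u ^ a' * x ^ (b' + 1) := by ring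
        rw [e1]
        exact CechP1.mem_boxSpan u x (by omega) hbB
      · have hb'B : b' = B := by omega
        subst hb'B
        by_cases har : r2 ≤ a'
        · have e1 : x * (u ^ a' * x ^ (d + e)) =
              ∑ i ∈ Finset.range e, u ^ a' * aeval u⁻¹ (b i) * x ^ (d + 1 + i) := by
            have : x * (u ^ a' * x ^ (d + e)) = u ^ a' * x ^ (d + 1) * x ^ e := by ring
            rw [this, hxe, Finset.mul_sum]
            refine Finset.sum_congr rfl fun i _ => ?_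
            ring
          rw [e1]
          refine Submodule.sum_mem _ fun i hi => ?_
          have hi' := Finset.mem_range.mp hi
          exact CechP1.aeval_inv_mul_mem u x hu (b i) ((hb i).trans har) (by omega) (by omega)
        · have e1 : x * (u ^ a' * x ^ (d + e)) =
              ∑ i ∈ Finset.range d, u ^ a' * aeval u (a i) * x ^ (e + 1 + i) := by
            have : x * (u ^ a' * x ^ (d + e)) = u ^ a' * x ^ (e + 1) * x ^ d := by ring
            rw [this, hxd, Finset.mul_sum]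
            refine Finset.sum_congr rfl fun i _ => ?_
            ring
          rw [e1]
          refine Submodule.sum_mem _ fun i hi => ?_
          have hi' := Finset.mem_range.mp hi
          have := ha i
          exact CechP1.aeval_mul_mem u x (a i) (by omega) (by omega)
    | zero => simp
    | add y z _ _ hy hz => rw [smul_add]; exact Submodule.add_mem _ hy hz
    | smul c y _ hy =>
      rw [smul_comm]; exact Submodule.smul_mem _ _ hy

/-- An element of `V` congruent modulo `π V` to an element of each chart satisfies a monic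
equation over `O` modulo `π V` (two-chart integrality in the residue field `V / π V`). -/
theorem exists_monic_of_reps (π : O) (u : F) (hu : u ≠ 0) (V : Subring F)
    (hV : ∀ x : F, IsIntegral (Algebra.adjoin O ({u, u⁻¹} : Set F)) x → x ∈ V)
    (hne : ¬ MemPi V π 1)
    (hunit : ∀ a : F, a ∈ V → ¬ MemPi V π a → a⁻¹ ∈ V)
    (x : F) (hx : x ∈ V)
    (c0 : F) (hc0 : IsIntegral (Algebra.adjoin O ({u} : Set F)) c0) (hxc0 : MemPi V π (x - c0))
    (c1 : F) (hc1 : IsIntegral (Algebra.adjoin O ({u⁻¹} : Set F)) c1)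
    (hxc1 : MemPi V π (x - c1)) :
    ∃ q : O[X], q.Monic ∧ MemPi V π (aeval x q) := by
  classical
  have h0le : Algebra.adjoin O ({u} : Set F) ≤ Algebra.adjoin O ({u, u⁻¹} : Set F) :=
    Algebra.adjoin_mono (by simp)
  have h1le : Algebra.adjoin O ({u⁻¹} : Set F) ≤ Algebra.adjoin O ({u, u⁻¹} : Set F) :=
    Algebra.adjoin_mono (by simp)
  have hVO : ∀ a : O, algebraMap O F a ∈ V := fun a =>
    hV _ (CechP1.isIntegral_adjoin_of_mem (Subalgebra.algebraMap_mem _ a))
  have huV : u ∈ V := hV u (CechP1.isIntegral_adjoin_of_mem (Algebra.subset_adjoin (by simp)))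
  have huiV : u⁻¹ ∈ V :=
    hV u⁻¹ (CechP1.isIntegral_adjoin_of_mem (Algebra.subset_adjoin (by simp)))
  have hc0V : c0 ∈ V := hV c0 (CechP1.isIntegral_mono h0le hc0)
  have hc1V : c1 ∈ V := hV c1 (CechP1.isIntegral_mono h1le hc1)
  set I : Ideal V := Ideal.span {(⟨algebraMap O F π, hVO π⟩ : V)} with hI
  have hmemI : ∀ a : V, a ∈ I ↔ MemPi V π (a : F) := by
    intro a
    rw [hI, Ideal.mem_span_singleton']
    constructor
    · rintro ⟨c, hc⟩
      refine ⟨c, c.2, ?_⟩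
      have h : (c : F) * algebraMap O F π = (a : F) := congrArg Subtype.val hc
      rw [← h]; ring
    · rintro ⟨v, hv, hav⟩
      exact ⟨⟨v, hv⟩, Subtype.ext (show v * algebraMap O F π = (a : F) by rw [hav]; ring)⟩
  have hImax : I.IsMaximal := by
    rw [Ideal.isMaximal_iff]
    refine ⟨fun h1 => hne ((hmemI 1).mp h1), ?_⟩
    intro J a _ haI haJ
    have ha' : ¬ MemPi V π (a : F) := fun h => haI ((hmemI a).mpr h)
    have hinv : (a : F)⁻¹ ∈ V := hunit a a.2 ha'
    have ha0 : (a : F) ≠ 0 := fun h0 => ha' (h0 ▸ memPi_zero V π)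
    have h1 : (1 : V) = ⟨(a : F)⁻¹, hinv⟩ * a :=
      Subtype.ext (show (1 : F) = (a : F)⁻¹ * (a : F) by rw [inv_mul_cancel₀ ha0])
    rw [h1]
    exact J.mul_mem_left _ haJ
  have := hImax
  let _ : Field (V ⧸ I) := Ideal.Quotient.field I
  let φ0 : O →+* V := (algebraMap O F).codRestrict V hVO
  let ψ : V →+* V ⧸ I := Ideal.Quotient.mk I
  let _ : Algebra O (V ⧸ I) := (ψ.comp φ0).toAlgebra
  have hψmem : ∀ a b : V, MemPi V π ((a : F) - (b : F)) → ψ a = ψ b := by
    intro a b h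
    exact Ideal.Quotient.eq.mpr ((hmemI (a - b)).mpr h)
  have hval : ∀ (t : V) (q : O[X]), ((eval₂ φ0 t q : V) : F) = aeval (t : F) q := by
    intro t q
    rw [aeval_def]
    exact hom_eval₂ q φ0 V.subtype t
  have haev : ∀ (t : V) (q : O[X]), aeval (ψ t) q = ψ (eval₂ φ0 t q) := by
    intro t q
    rw [aeval_def, hom_eval₂]
    rfl
  have transfer : ∀ (t c : V), MemPi V π (x - (c : F)) → ∀ (d : ℕ) (a : ℕ → O[X]),
      (c : F) ^ d = ∑ i ∈ Finset.range d, aeval (t : F) (a i) * (c : F) ^ i →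
      (ψ ⟨x, hx⟩) ^ d = ∑ i ∈ Finset.range d, aeval (ψ t) (a i) * (ψ ⟨x, hx⟩) ^ i := by
    intro t c hxc d a h
    have hxc' : ψ ⟨x, hx⟩ = ψ c := hψmem ⟨x, hx⟩ c hxc
    have hV_eq : c ^ d = ∑ i ∈ Finset.range d, eval₂ φ0 t (a i) * c ^ i := by
      have hs : V.subtype (c ^ d)
          = V.subtype (∑ i ∈ Finset.range d, eval₂ φ0 t (a i) * c ^ i) := by
        rw [map_pow, map_sum]
        have e : ∀ i, V.subtype (eval₂ φ0 t (a i) * c ^ i)
            = aeval (t : F) (a i) * (c : F) ^ i := by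
          intro i
          rw [map_mul, map_pow]
          exact congrArg (· * (c : F) ^ i) (hval t (a i))
        simp only [e]
        exact h
      exact Subtype.ext hs
    rw [hxc']
    have h2 := congrArg ψ hV_eq
    rw [map_pow, map_sum] at h2
    rw [h2]
    refine Finset.sum_congr rfl fun i _ => ?_
    rw [map_mul, map_pow, haev]
  obtain ⟨d, r1, a, ha, hxd⟩ := CechP1.exists_eqn_of_isIntegral u c0 hc0
  obtain ⟨e, r2, b, hb, hxe⟩ := CechP1.exists_eqn_of_isIntegral u⁻¹ c1 hc1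
  have E0 := transfer ⟨u, huV⟩ ⟨c0, hc0V⟩ hxc0 d a hxd
  have E1 := transfer ⟨u⁻¹, huiV⟩ ⟨c1, hc1V⟩ hxc1 e b hxe
  have h1V : (⟨u, huV⟩ : V) * ⟨u⁻¹, huiV⟩ = 1 :=
    Subtype.ext (show u * u⁻¹ = 1 from mul_inv_cancel₀ hu)
  have hψ1 : ψ ⟨u, huV⟩ * ψ ⟨u⁻¹, huiV⟩ = 1 := by rw [← map_mul, h1V, map_one]
  have hψu : ψ ⟨u, huV⟩ ≠ 0 := left_ne_zero_of_mul_eq_one hψ1
  have hψui : ψ ⟨u⁻¹, huiV⟩ = (ψ ⟨u, huV⟩)⁻¹ := eq_inv_of_mul_eq_one_right hψ1
  rw [hψui] at E1
  have hint : IsIntegral O (ψ ⟨x, hx⟩) :=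
    isIntegral_of_two_eqns (ψ ⟨u, huV⟩) hψu (ψ ⟨x, hx⟩) d r1 a ha E0 e r2 b hb E1
  obtain ⟨q, hq, hq0⟩ := hint
  refine ⟨q, hq, ?_⟩
  have h1 : ψ (eval₂ φ0 ⟨x, hx⟩ q) = 0 := by
    rw [hom_eval₂]; exact hq0
  have h2 : eval₂ φ0 (⟨x, hx⟩ : V) q ∈ I := Ideal.Quotient.eq_zero_iff_mem.mp h1
  have h3 := (hmemI _).mp h2
  rwa [hval] at h3

/-- A monic equation over `O` modulo `π V` and vanishing at one point of a chart force
`x ∈ π V`. -/
theorem memPi_of_monic {C : Type*} [CommRing C] (j : C →+* F) (jO : O →+* C)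
    (hjO : ∀ a : O, j (jO a) = algebraMap O F a) (π : O) (hloc : ∀ a : O, ¬ π ∣ a → IsUnit a)
    (V : Subring F) (hjV : ∀ c, j c ∈ V) (hne : ¬ MemPi V π 1)
    (hunit : ∀ a : F, a ∈ V → ¬ MemPi V π a → a⁻¹ ∈ V)
    (x : F) (hx : x ∈ V)
    (𝔪 : Ideal C) (h𝔪 : 𝔪.IsPrime) (hcen : ∀ b : C, MemPi V π (j b) → b ∈ 𝔪)
    (b c : C) (hb : b ∉ 𝔪) (hc : c ∈ 𝔪) (hbc : MemPi V π (j b * x - j c)) :
    ∀ (n : ℕ) (q : O[X]), q.Monic → q.natDegree = n → MemPi V π (aeval x q) → MemPi V π x := by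
  have hVO : ∀ a : O, algebraMap O F a ∈ V := fun a => by rw [← hjO a]; exact hjV _
  have hpow : ∀ i : ℕ, MemPi V π ((j b * x) ^ i - (j c) ^ i) := by
    intro i
    induction i with
    | zero => rw [pow_zero, pow_zero, sub_self]; exact memPi_zero V π
    | succ i ih =>
      have e : (j b * x) ^ (i + 1) - (j c) ^ (i + 1)
          = (j b * x) * ((j b * x) ^ i - (j c) ^ i) + (j b * x - j c) * (j c) ^ i := by ring
      rw [e]
      exact memPi_add (memPi_mul_left ih (V.mul_mem (hjV b) hx))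
        (memPi_mul_right hbc (V.pow_mem (hjV c) i))
  intro n
  induction n with
  | zero =>
    intro q hq hdeg hqx
    have hq1 : q = 1 := eq_one_of_monic_natDegree_zero hq hdeg
    rw [hq1, map_one] at hqx
    exact absurd hqx hne
  | succ n ih =>
    intro q hq hdeg hqx
    -- the homogenised value of `q` at `c / b`
    have hjE : j (∑ i ∈ Finset.range (q.natDegree + 1),
          jO (q.coeff i) * b ^ (q.natDegree - i) * c ^ i)
        = ∑ i ∈ Finset.range (q.natDegree + 1),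
          algebraMap O F (q.coeff i) * (j b) ^ (q.natDegree - i) * (j c) ^ i := by
      rw [map_sum]
      refine Finset.sum_congr rfl fun i _ => ?_
      rw [map_mul, map_mul, map_pow, map_pow, hjO]
    have hqsum : (j b) ^ q.natDegree * aeval x q = ∑ i ∈ Finset.range (q.natDegree + 1),
        algebraMap O F (q.coeff i) * (j b) ^ (q.natDegree - i) * (j b * x) ^ i := by
      rw [aeval_eq_sum_range, Finset.mul_sum]
      refine Finset.sum_congr rfl fun i hi => ?_
      have hi' : i ≤ q.natDegree := by have := Finset.mem_range.mp hi; omega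
      have hk : (j b) ^ q.natDegree = (j b) ^ (q.natDegree - i) * (j b) ^ i := by
        rw [← pow_add]; congr 1; omega
      rw [hk, Algebra.smul_def, mul_pow]
      ring
    have hEmem : MemPi V π (j (∑ i ∈ Finset.range (q.natDegree + 1),
          jO (q.coeff i) * b ^ (q.natDegree - i) * c ^ i)) := by
      have e : j (∑ i ∈ Finset.range (q.natDegree + 1),
            jO (q.coeff i) * b ^ (q.natDegree - i) * c ^ i)
          = (j b) ^ q.natDegree * aeval x q - ∑ i ∈ Finset.range (q.natDegree + 1),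
            algebraMap O F (q.coeff i) * (j b) ^ (q.natDegree - i)
              * ((j b * x) ^ i - (j c) ^ i) := by
        rw [hqsum, hjE, ← Finset.sum_sub_distrib]
        refine Finset.sum_congr rfl fun i _ => ?_
        ring
      rw [e]
      refine (memPi_mul_left hqx (V.pow_mem (hjV b) _)).sub ?_
      exact memPi_sum _ _ fun i _ =>
        memPi_mul_left (hpow i) (V.mul_mem (hVO _) (V.pow_mem (hjV b) _))
    have hE𝔪 := hcen _ hEmem
    have hcoeff : jO (q.coeff 0) ∈ 𝔪 := by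
      rw [Finset.sum_range_succ'] at hE𝔪
      have hsum𝔪 : (∑ i ∈ Finset.range q.natDegree,
          jO (q.coeff (i + 1)) * b ^ (q.natDegree - (i + 1)) * c ^ (i + 1)) ∈ 𝔪 :=
        Ideal.sum_mem _ fun i _ =>
          Ideal.mul_mem_left _ _ (Ideal.pow_mem_of_mem _ hc _ (Nat.succ_pos i))
      have h0 : jO (q.coeff 0) * b ^ (q.natDegree - 0) * c ^ 0 ∈ 𝔪 := by
        have := 𝔪.sub_mem hE𝔪 hsum𝔪
        rwa [add_sub_cancel_left] at this
      rw [pow_zero, mul_one] at h0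
      rcases h𝔪.mem_or_mem h0 with h | h
      · exact h
      · exact absurd (h𝔪.mem_of_pow_mem _ h) hb
    have hπdvd : π ∣ q.coeff 0 := by
      by_contra hnd
      exact h𝔪.ne_top (Ideal.eq_top_of_isUnit_mem _ hcoeff ((hloc _ hnd).map jO))
    obtain ⟨a0, ha0⟩ := hπdvd
    have hsplit : aeval x q.divX * x + algebraMap O F (q.coeff 0) = aeval x q := by
      have h := congrArg (aeval x) (divX_mul_X_add q)
      rwa [map_add, map_mul, aeval_X, aeval_C] at h
    have h1 : MemPi V π (aeval x q.divX * x) := by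
      have e : aeval x q.divX * x = aeval x q - algebraMap O F (q.coeff 0) := by
        rw [← hsplit]; ring
      rw [e]
      exact hqx.sub ⟨algebraMap O F a0, hVO a0, by rw [ha0, map_mul]⟩
    by_cases hxπ : MemPi V π x
    · exact hxπ
    · have hxinv := hunit x hx hxπ
      have hx0 : x ≠ 0 := fun h0 => hxπ (h0 ▸ memPi_zero V π)
      have h2 : MemPi V π (aeval x q.divX) := by
        have e : aeval x q.divX = x⁻¹ * (aeval x q.divX * x) := by
          rw [mul_comm (aeval x q.divX) x, ← mul_assoc, inv_mul_cancel₀ hx0, one_mul]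
        rw [e]; exact memPi_mul_left h1 hxinv
      have hdeg' : q.divX.natDegree = n := by
        rw [natDegree_divX_eq_natDegree_tsub_one, hdeg]; rfl
      have hmon : q.divX.Monic := by
        show q.divX.leadingCoeff = 1
        rw [leadingCoeff, hdeg', coeff_divX]
        have := hq.coeff_natDegree
        rwa [hdeg] at this
      exact ih q.divX hmon hdeg' h2

section Charts

variable (π : O) (u : F) (V : Subring F)

/-- Representatives on both charts: `x ∈ V`, regular modulo `π V` at every maximal ideal of the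
chart `u` over the centre of `V` and at every maximal ideal of the chart `u⁻¹` over the centre
of `V` containing `u⁻¹`, is congruent modulo `π V` to an element of each chart. -/
theorem exists_reps (hu : u ≠ 0)
    (hV : ∀ x : F, IsIntegral (Algebra.adjoin O ({u, u⁻¹} : Set F)) x → x ∈ V)
    (x : F) (hx : x ∈ V)
    (hreg0 : ∀ 𝔪 : Ideal (integralClosure (Algebra.adjoin O ({u} : Set F)) F), 𝔪.IsMaximal →
      (∀ b : integralClosure (Algebra.adjoin O ({u} : Set F)) F, MemPi V π (b : F) → b ∈ 𝔪) →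
      ∃ b c : integralClosure (Algebra.adjoin O ({u} : Set F)) F,
        b ∉ 𝔪 ∧ MemPi V π ((b : F) * x - (c : F)))
    (hreg1 : ∀ 𝔪 : Ideal (integralClosure (Algebra.adjoin O ({u⁻¹} : Set F)) F), 𝔪.IsMaximal →
      (∀ s : integralClosure (Algebra.adjoin O ({u⁻¹} : Set F)) F, (s : F) = u⁻¹ → s ∈ 𝔪) →
      (∀ b : integralClosure (Algebra.adjoin O ({u⁻¹} : Set F)) F, MemPi V π (b : F) → b ∈ 𝔪) →
      ∃ b c : integralClosure (Algebra.adjoin O ({u⁻¹} : Set F)) F,
        b ∉ 𝔪 ∧ MemPi V π ((b : F) * x - (c : F))) :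
    (∃ c0 : integralClosure (Algebra.adjoin O ({u} : Set F)) F, MemPi V π (x - (c0 : F))) ∧
      ∃ c1 : integralClosure (Algebra.adjoin O ({u⁻¹} : Set F)) F, MemPi V π (x - (c1 : F)) := by
  have h0le : Algebra.adjoin O ({u} : Set F) ≤ Algebra.adjoin O ({u, u⁻¹} : Set F) :=
    Algebra.adjoin_mono (by simp)
  have h1le : Algebra.adjoin O ({u⁻¹} : Set F) ≤ Algebra.adjoin O ({u, u⁻¹} : Set F) :=
    Algebra.adjoin_mono (by simp)
  have hV0 : ∀ z : F, IsIntegral (Algebra.adjoin O ({u} : Set F)) z → z ∈ V :=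
    fun z hz => hV z (CechP1.isIntegral_mono h0le hz)
  have hV1 : ∀ z : F, IsIntegral (Algebra.adjoin O ({u⁻¹} : Set F)) z → z ∈ V :=
    fun z hz => hV z (CechP1.isIntegral_mono h1le hz)
  have hui1 : IsIntegral (Algebra.adjoin O ({u⁻¹} : Set F)) u⁻¹ :=
    CechP1.isIntegral_adjoin_of_mem (Algebra.subset_adjoin (by simp))
  have huiV : u⁻¹ ∈ V := hV1 _ hui1
  -- a representative on the chart `u`
  obtain ⟨c0, hc0⟩ := exists_chart_rep
    (integralClosure (Algebra.adjoin O ({u} : Set F)) F).val.toRingHom V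
    (fun c => hV0 _ c.2) π x hx 0 1
    ⟨0, by rw [pow_one, map_zero, zero_mul, sub_zero]; exact memPi_zero V π⟩
    (fun 𝔫 h𝔫 _ hcen' => hreg0 𝔫 h𝔫 hcen')
  have hc0' : MemPi V π (x - (c0 : F)) := hc0
  -- a representative on the chart `u⁻¹`
  have hc0int : IsIntegral (Algebra.adjoin O ({u⁻¹, u⁻¹⁻¹} : Set F)) (c0 : F) := by
    rw [inv_inv, Set.pair_comm]; exact CechP1.isIntegral_mono h0le c0.2
  obtain ⟨n, hn⟩ := CechP1.exists_pow_mul_isIntegral u⁻¹ (inv_ne_zero hu) (c0 : F) hc0int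
  obtain ⟨c1, hc1⟩ := exists_chart_rep
    (integralClosure (Algebra.adjoin O ({u⁻¹} : Set F)) F).val.toRingHom V
    (fun c => hV1 _ c.2) π x hx
    (⟨u⁻¹, hui1⟩ : integralClosure (Algebra.adjoin O ({u⁻¹} : Set F)) F) n
    ⟨⟨u⁻¹ ^ n * (c0 : F), hn⟩, by
      have e : (integralClosure (Algebra.adjoin O ({u⁻¹} : Set F)) F).val.toRingHom
            ((⟨u⁻¹, hui1⟩ : integralClosure (Algebra.adjoin O ({u⁻¹} : Set F)) F) ^ n) * x
          - (integralClosure (Algebra.adjoin O ({u⁻¹} : Set F)) F).val.toRingHom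
            ⟨u⁻¹ ^ n * (c0 : F), hn⟩ = u⁻¹ ^ n * (x - (c0 : F)) := by
        rw [map_pow]
        show u⁻¹ ^ n * x - u⁻¹ ^ n * (c0 : F) = u⁻¹ ^ n * (x - (c0 : F))
        ring
      rw [e]
      exact memPi_mul_left hc0' (V.pow_mem huiV n)⟩
    (fun 𝔫 h𝔫 hs𝔫 hcen' => hreg1 𝔫 h𝔫
      (fun s hs => by
        have : s = ⟨u⁻¹, hui1⟩ := Subtype.ext hs
        rw [this]; exact hs𝔫) hcen')
  exact ⟨⟨c0, hc0'⟩, ⟨c1, hc1⟩⟩

/-- **(VAN), one component.**  `x ∈ V` is regular modulo `π V` at every maximal ideal of the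
chart `u` over the centre of `V` and at every maximal ideal of the chart `u⁻¹` over the centre
of `V` containing `u⁻¹`; at one point `𝔪` of a chart `t ∈ {u, u⁻¹}` it is congruent to `c / b`
with `c ∈ 𝔪`, `b ∉ 𝔪`.  Then `x ∈ π V`. -/
theorem van_of_charts (hloc : ∀ a : O, ¬ π ∣ a → IsUnit a) (hu : u ≠ 0)
    (hV : ∀ x : F, IsIntegral (Algebra.adjoin O ({u, u⁻¹} : Set F)) x → x ∈ V)
    (hne : ¬ MemPi V π 1)
    (hunit : ∀ a : F, a ∈ V → ¬ MemPi V π a → a⁻¹ ∈ V)
    (x : F) (hx : x ∈ V)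
    (hreg0 : ∀ 𝔪 : Ideal (integralClosure (Algebra.adjoin O ({u} : Set F)) F), 𝔪.IsMaximal →
      (∀ b : integralClosure (Algebra.adjoin O ({u} : Set F)) F, MemPi V π (b : F) → b ∈ 𝔪) →
      ∃ b c : integralClosure (Algebra.adjoin O ({u} : Set F)) F,
        b ∉ 𝔪 ∧ MemPi V π ((b : F) * x - (c : F)))
    (hreg1 : ∀ 𝔪 : Ideal (integralClosure (Algebra.adjoin O ({u⁻¹} : Set F)) F), 𝔪.IsMaximal →
      (∀ s : integralClosure (Algebra.adjoin O ({u⁻¹} : Set F)) F, (s : F) = u⁻¹ → s ∈ 𝔪) →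
      (∀ b : integralClosure (Algebra.adjoin O ({u⁻¹} : Set F)) F, MemPi V π (b : F) → b ∈ 𝔪) →
      ∃ b c : integralClosure (Algebra.adjoin O ({u⁻¹} : Set F)) F,
        b ∉ 𝔪 ∧ MemPi V π ((b : F) * x - (c : F)))
    {t : F} (ht : t = u ∨ t = u⁻¹)
    (𝔪 : Ideal (integralClosure (Algebra.adjoin O ({t} : Set F)) F)) (h𝔪 : 𝔪.IsPrime)
    (hcen : ∀ b : integralClosure (Algebra.adjoin O ({t} : Set F)) F,
      MemPi V π (b : F) → b ∈ 𝔪)
    (b c : integralClosure (Algebra.adjoin O ({t} : Set F)) F) (hb : b ∉ 𝔪) (hc : c ∈ 𝔪)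
    (hbc : MemPi V π ((b : F) * x - (c : F))) : MemPi V π x := by
  have h0le : Algebra.adjoin O ({u} : Set F) ≤ Algebra.adjoin O ({u, u⁻¹} : Set F) :=
    Algebra.adjoin_mono (by simp)
  have h1le : Algebra.adjoin O ({u⁻¹} : Set F) ≤ Algebra.adjoin O ({u, u⁻¹} : Set F) :=
    Algebra.adjoin_mono (by simp)
  obtain ⟨⟨c0, hc0⟩, ⟨c1, hc1⟩⟩ := exists_reps π u V hu hV x hx hreg0 hreg1
  obtain ⟨q, hq, hqx⟩ := exists_monic_of_reps π u hu V hV hne hunit x hx
    (c0 : F) c0.2 hc0 (c1 : F) c1.2 hc1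
  have htV : ∀ z : integralClosure (Algebra.adjoin O ({t} : Set F)) F, (z : F) ∈ V := by
    rcases ht with rfl | rfl
    · exact fun z => hV _ (CechP1.isIntegral_mono h0le z.2)
    · exact fun z => hV _ (CechP1.isIntegral_mono h1le z.2)
  exact memPi_of_monic
    (integralClosure (Algebra.adjoin O ({t} : Set F)) F).val.toRingHom
    ((algebraMap (Algebra.adjoin O ({t} : Set F))
        (integralClosure (Algebra.adjoin O ({t} : Set F)) F)).comp
      (algebraMap O (Algebra.adjoin O ({t} : Set F))))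
    (fun _ => rfl) π hloc V htV hne hunit x hx 𝔪 h𝔪 hcen b c hb hc hbc _ q hq rfl hqx

/-- **(CONST0), one component.**  `x ∈ V` regular modulo `π V` at the closed points as in
`van_of_charts`, and one maximal ideal `𝔪` of a chart `t ∈ {u, u⁻¹}` over the centre of `V` of
residue degree one.  Then `x` is congruent modulo `π V` to a constant of `O`. -/
theorem const0_of_charts (hloc : ∀ a : O, ¬ π ∣ a → IsUnit a) (hu : u ≠ 0)
    (hV : ∀ x : F, IsIntegral (Algebra.adjoin O ({u, u⁻¹} : Set F)) x → x ∈ V)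
    (hne : ¬ MemPi V π 1)
    (hunit : ∀ a : F, a ∈ V → ¬ MemPi V π a → a⁻¹ ∈ V)
    (x : F) (hx : x ∈ V)
    (hreg0 : ∀ 𝔪 : Ideal (integralClosure (Algebra.adjoin O ({u} : Set F)) F), 𝔪.IsMaximal →
      (∀ b : integralClosure (Algebra.adjoin O ({u} : Set F)) F, MemPi V π (b : F) → b ∈ 𝔪) →
      ∃ b c : integralClosure (Algebra.adjoin O ({u} : Set F)) F,
        b ∉ 𝔪 ∧ MemPi V π ((b : F) * x - (c : F)))
    (hreg1 : ∀ 𝔪 : Ideal (integralClosure (Algebra.adjoin O ({u⁻¹} : Set F)) F), 𝔪.IsMaximal →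
      (∀ s : integralClosure (Algebra.adjoin O ({u⁻¹} : Set F)) F, (s : F) = u⁻¹ → s ∈ 𝔪) →
      (∀ b : integralClosure (Algebra.adjoin O ({u⁻¹} : Set F)) F, MemPi V π (b : F) → b ∈ 𝔪) →
      ∃ b c : integralClosure (Algebra.adjoin O ({u⁻¹} : Set F)) F,
        b ∉ 𝔪 ∧ MemPi V π ((b : F) * x - (c : F)))
    {t : F} (ht : t = u ∨ t = u⁻¹)
    (𝔪 : Ideal (integralClosure (Algebra.adjoin O ({t} : Set F)) F)) (h𝔪 : 𝔪.IsMaximal)
    (hcen : ∀ b : integralClosure (Algebra.adjoin O ({t} : Set F)) F,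
      MemPi V π (b : F) → b ∈ 𝔪)
    (hdeg : ∀ a : integralClosure (Algebra.adjoin O ({t} : Set F)) F, ∃ κ : O,
      ∃ m : integralClosure (Algebra.adjoin O ({t} : Set F)) F,
        m ∈ 𝔪 ∧ (a : F) - algebraMap O F κ = (m : F)) :
    ∃ κ : O, MemPi V π (x - algebraMap O F κ) := by
  have hVO : ∀ a : O, algebraMap O F a ∈ V := fun a =>
    hV _ (CechP1.isIntegral_adjoin_of_mem (Subalgebra.algebraMap_mem _ a))
  have hκint : ∀ (κ : O) (s : Set F), IsIntegral (Algebra.adjoin O s) (algebraMap O F κ) :=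
    fun κ s => CechP1.isIntegral_adjoin_of_mem (Subalgebra.algebraMap_mem _ κ)
  obtain ⟨⟨c0, hc0⟩, ⟨c1, hc1⟩⟩ := exists_reps π u V hu hV x hx hreg0 hreg1
  -- a representative on the chart `t`
  have hct : ∃ c : integralClosure (Algebra.adjoin O ({t} : Set F)) F,
      MemPi V π (x - (c : F)) := by
    rcases ht with rfl | rfl
    · exact ⟨c0, hc0⟩
    · exact ⟨c1, hc1⟩
  obtain ⟨c, hc⟩ := hct
  obtain ⟨κ, m, hm, hκ⟩ := hdeg c
  refine ⟨κ, ?_⟩
  refine van_of_charts π u V hloc hu hV hne hunit (x - algebraMap O F κ)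
    (V.sub_mem hx (hVO κ)) ?_ ?_ ht 𝔪 h𝔪.isPrime hcen 1 m
    ((Ideal.ne_top_iff_one 𝔪).mp h𝔪.ne_top) hm ?_
  · intro 𝔫 h𝔫 hcen'
    obtain ⟨b', c', hb', hbc'⟩ := hreg0 𝔫 h𝔫 hcen'
    refine ⟨b', c' - b' * ⟨algebraMap O F κ, hκint κ _⟩, hb', ?_⟩
    have e : (b' : F) * (x - algebraMap O F κ)
        - ((c' - b' * ⟨algebraMap O F κ, hκint κ _⟩ :
            integralClosure (Algebra.adjoin O ({u} : Set F)) F) : F)
        = (b' : F) * x - (c' : F) := by
      show (b' : F) * (x - algebraMap O F κ) - ((c' : F) - (b' : F) * algebraMap O F κ) = _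
      ring
    rw [e]; exact hbc'
  · intro 𝔫 h𝔫 hs𝔫 hcen'
    obtain ⟨b', c', hb', hbc'⟩ := hreg1 𝔫 h𝔫 hs𝔫 hcen'
    refine ⟨b', c' - b' * ⟨algebraMap O F κ, hκint κ _⟩, hb', ?_⟩
    have e : (b' : F) * (x - algebraMap O F κ)
        - ((c' - b' * ⟨algebraMap O F κ, hκint κ _⟩ :
            integralClosure (Algebra.adjoin O ({u⁻¹} : Set F)) F) : F)
        = (b' : F) * x - (c' : F) := by
      show (b' : F) * (x - algebraMap O F κ) - ((c' : F) - (b' : F) * algebraMap O F κ) = _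
      ring
    rw [e]; exact hbc'
  · have e : ((1 : integralClosure (Algebra.adjoin O ({t} : Set F)) F) : F)
        * (x - algebraMap O F κ) - (m : F) = x - (c : F) := by
      rw [← hκ]
      show (1 : F) * (x - algebraMap O F κ) - ((c : F) - algebraMap O F κ) = x - (c : F)
      ring
    rw [e]; exact hc

end Charts

/-! ### The fields `Van`, `ConstAt` of the datum -/

section Points

variable (π : O) (u : F) {ι Y : Type*} (V : ι → Subring F) (R : Y → Subring F)
  (On : Y → ι → Prop)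

/-- The regularity hypothesis of `van_of_charts` on the chart `u`, from the datum form. -/
theorem hreg0_of_points
    (hV : ∀ W (x : F), IsIntegral (Algebra.adjoin O ({u, u⁻¹} : Set F)) x → x ∈ V W)
    (hY0 : ∀ W (𝔪 : Ideal (integralClosure (Algebra.adjoin O ({u} : Set F)) F)), 𝔪.IsMaximal →
      (∀ b : integralClosure (Algebra.adjoin O ({u} : Set F)) F,
        MemPi (V W) π (b : F) → b ∈ 𝔪) →
      ∃ y, On y W ∧ ∀ a : F, a ∈ R y →
        ∃ b c : integralClosure (Algebra.adjoin O ({u} : Set F)) F,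
          b ∉ 𝔪 ∧ a * (b : F) = (c : F))
    (W : ι) (x : F)
    (hregY : ∀ y, On y W → ∃ a : F, a ∈ R y ∧ MemPi (V W) π (x - a)) :
    ∀ 𝔪 : Ideal (integralClosure (Algebra.adjoin O ({u} : Set F)) F), 𝔪.IsMaximal →
      (∀ b : integralClosure (Algebra.adjoin O ({u} : Set F)) F,
        MemPi (V W) π (b : F) → b ∈ 𝔪) →
      ∃ b c : integralClosure (Algebra.adjoin O ({u} : Set F)) F,
        b ∉ 𝔪 ∧ MemPi (V W) π ((b : F) * x - (c : F)) := by
  intro 𝔪 h𝔪 hcen
  obtain ⟨y, hy, hloc⟩ := hY0 W 𝔪 h𝔪 hcen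
  obtain ⟨a, haR, hxa⟩ := hregY y hy
  obtain ⟨b, c, hb, habc⟩ := hloc a haR
  refine ⟨b, c, hb, ?_⟩
  have e : (b : F) * x - (c : F) = (b : F) * (x - a) := by rw [← habc]; ring
  rw [e]
  exact memPi_mul_left hxa
    (hV W _ (CechP1.isIntegral_mono (Algebra.adjoin_mono (by simp)) b.2))

/-- The regularity hypothesis of `van_of_charts` on the chart `u⁻¹`, from the datum form. -/
theorem hreg1_of_points
    (hV : ∀ W (x : F), IsIntegral (Algebra.adjoin O ({u, u⁻¹} : Set F)) x → x ∈ V W)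
    (hY1 : ∀ W (𝔪 : Ideal (integralClosure (Algebra.adjoin O ({u⁻¹} : Set F)) F)),
      𝔪.IsMaximal →
      (∀ s : integralClosure (Algebra.adjoin O ({u⁻¹} : Set F)) F, (s : F) = u⁻¹ → s ∈ 𝔪) →
      (∀ b : integralClosure (Algebra.adjoin O ({u⁻¹} : Set F)) F,
        MemPi (V W) π (b : F) → b ∈ 𝔪) →
      ∃ y, On y W ∧ ∀ a : F, a ∈ R y →
        ∃ b c : integralClosure (Algebra.adjoin O ({u⁻¹} : Set F)) F,
          b ∉ 𝔪 ∧ a * (b : F) = (c : F))
    (W : ι) (x : F)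
    (hregY : ∀ y, On y W → ∃ a : F, a ∈ R y ∧ MemPi (V W) π (x - a)) :
    ∀ 𝔪 : Ideal (integralClosure (Algebra.adjoin O ({u⁻¹} : Set F)) F), 𝔪.IsMaximal →
      (∀ s : integralClosure (Algebra.adjoin O ({u⁻¹} : Set F)) F, (s : F) = u⁻¹ → s ∈ 𝔪) →
      (∀ b : integralClosure (Algebra.adjoin O ({u⁻¹} : Set F)) F,
        MemPi (V W) π (b : F) → b ∈ 𝔪) →
      ∃ b c : integralClosure (Algebra.adjoin O ({u⁻¹} : Set F)) F,
        b ∉ 𝔪 ∧ MemPi (V W) π ((b : F) * x - (c : F)) := by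
  intro 𝔪 h𝔪 hs hcen
  obtain ⟨y, hy, hloc⟩ := hY1 W 𝔪 h𝔪 hs hcen
  obtain ⟨a, haR, hxa⟩ := hregY y hy
  obtain ⟨b, c, hb, habc⟩ := hloc a haR
  refine ⟨b, c, hb, ?_⟩
  have e : (b : F) * x - (c : F) = (b : F) * (x - a) := by rw [← habc]; ring
  rw [e]
  exact memPi_mul_left hxa
    (hV W _ (CechP1.isIntegral_mono (Algebra.adjoin_mono (by simp)) b.2))

/-- **(VAN) as the field `Top.Van` of the datum.**  The closed points `Y` cover every maximal
ideal of the chart `u` and every maximal ideal of the chart `u⁻¹` containing `u⁻¹` (`hY0`,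
`hY1`: `R y` lies in the localisation), and each `y : Y` is a prime of one of the two charts
containing the centres of the components through `y` (`hpoint`). -/
theorem van_of_points (hloc : ∀ a : O, ¬ π ∣ a → IsUnit a) (hu : u ≠ 0)
    (hV : ∀ W (x : F), IsIntegral (Algebra.adjoin O ({u, u⁻¹} : Set F)) x → x ∈ V W)
    (hne : ∀ W, ¬ MemPi (V W) π 1)
    (hunit : ∀ W (a : F), a ∈ V W → ¬ MemPi (V W) π a → a⁻¹ ∈ V W)
    (hY0 : ∀ W (𝔪 : Ideal (integralClosure (Algebra.adjoin O ({u} : Set F)) F)), 𝔪.IsMaximal →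
      (∀ b : integralClosure (Algebra.adjoin O ({u} : Set F)) F,
        MemPi (V W) π (b : F) → b ∈ 𝔪) →
      ∃ y, On y W ∧ ∀ a : F, a ∈ R y →
        ∃ b c : integralClosure (Algebra.adjoin O ({u} : Set F)) F,
          b ∉ 𝔪 ∧ a * (b : F) = (c : F))
    (hY1 : ∀ W (𝔪 : Ideal (integralClosure (Algebra.adjoin O ({u⁻¹} : Set F)) F)),
      𝔪.IsMaximal →
      (∀ s : integralClosure (Algebra.adjoin O ({u⁻¹} : Set F)) F, (s : F) = u⁻¹ → s ∈ 𝔪) →
      (∀ b : integralClosure (Algebra.adjoin O ({u⁻¹} : Set F)) F,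
        MemPi (V W) π (b : F) → b ∈ 𝔪) →
      ∃ y, On y W ∧ ∀ a : F, a ∈ R y →
        ∃ b c : integralClosure (Algebra.adjoin O ({u⁻¹} : Set F)) F,
          b ∉ 𝔪 ∧ a * (b : F) = (c : F))
    (hpoint : ∀ y, ∃ t : F, (t = u ∨ t = u⁻¹) ∧
      ∃ 𝔪 : Ideal (integralClosure (Algebra.adjoin O ({t} : Set F)) F), 𝔪.IsPrime ∧
        (∀ W, On y W → ∀ b : integralClosure (Algebra.adjoin O ({t} : Set F)) F,
          MemPi (V W) π (b : F) → b ∈ 𝔪) ∧
        ∀ a : F, a ∈ R y → ∃ b c : integralClosure (Algebra.adjoin O ({t} : Set F)) F,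
          b ∉ 𝔪 ∧ a * (b : F) = (c : F)) :
    Van V R On π := by
  intro W x hx hregY y W' hOn hOn' a haR haW' hxa
  obtain ⟨t, ht, 𝔪, h𝔪, hcenY, hlocY⟩ := hpoint y
  obtain ⟨b, c, hb, habc⟩ := hlocY a haR
  have htV : ∀ (W'' : ι) (z : integralClosure (Algebra.adjoin O ({t} : Set F)) F),
      (z : F) ∈ V W'' := by
    intro W'' z
    rcases ht with rfl | rfl
    · exact hV W'' _ (CechP1.isIntegral_mono (Algebra.adjoin_mono (by simp)) z.2)
    · exact hV W'' _ (CechP1.isIntegral_mono (Algebra.adjoin_mono (by simp)) z.2)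
  have hc𝔪 : c ∈ 𝔪 := hcenY W' hOn' c (by
    rw [← habc]; exact memPi_mul_right haW' (htV W' b))
  have hbc : MemPi (V W) π ((b : F) * x - (c : F)) := by
    have e : (b : F) * x - (c : F) = (b : F) * (x - a) := by rw [← habc]; ring
    rw [e]; exact memPi_mul_left hxa (htV W b)
  exact van_of_charts π u (V W) hloc hu (hV W) (hne W) (hunit W) x hx
    (hreg0_of_points π u V R On hV hY0 W x hregY)
    (hreg1_of_points π u V R On hV hY1 W x hregY)
    ht 𝔪 h𝔪 (hcenY W hOn) b c hb hc𝔪 hbc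

/-- **(CONST0) as `Top.ConstAt` at a root component `W₀`** carrying a closed point of residue
degree one (a maximal ideal `𝔪` of one of the charts over the centre of `V W₀`). -/
theorem constAt_of_points (hloc : ∀ a : O, ¬ π ∣ a → IsUnit a) (hu : u ≠ 0)
    (hV : ∀ W (x : F), IsIntegral (Algebra.adjoin O ({u, u⁻¹} : Set F)) x → x ∈ V W)
    (hne : ∀ W, ¬ MemPi (V W) π 1)
    (hunit : ∀ W (a : F), a ∈ V W → ¬ MemPi (V W) π a → a⁻¹ ∈ V W)
    (hY0 : ∀ W (𝔪 : Ideal (integralClosure (Algebra.adjoin O ({u} : Set F)) F)), 𝔪.IsMaximal →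
      (∀ b : integralClosure (Algebra.adjoin O ({u} : Set F)) F,
        MemPi (V W) π (b : F) → b ∈ 𝔪) →
      ∃ y, On y W ∧ ∀ a : F, a ∈ R y →
        ∃ b c : integralClosure (Algebra.adjoin O ({u} : Set F)) F,
          b ∉ 𝔪 ∧ a * (b : F) = (c : F))
    (hY1 : ∀ W (𝔪 : Ideal (integralClosure (Algebra.adjoin O ({u⁻¹} : Set F)) F)),
      𝔪.IsMaximal →
      (∀ s : integralClosure (Algebra.adjoin O ({u⁻¹} : Set F)) F, (s : F) = u⁻¹ → s ∈ 𝔪) →
      (∀ b : integralClosure (Algebra.adjoin O ({u⁻¹} : Set F)) F,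
        MemPi (V W) π (b : F) → b ∈ 𝔪) →
      ∃ y, On y W ∧ ∀ a : F, a ∈ R y →
        ∃ b c : integralClosure (Algebra.adjoin O ({u⁻¹} : Set F)) F,
          b ∉ 𝔪 ∧ a * (b : F) = (c : F))
    (W₀ : ι) {t : F} (ht : t = u ∨ t = u⁻¹)
    (𝔪 : Ideal (integralClosure (Algebra.adjoin O ({t} : Set F)) F)) (h𝔪 : 𝔪.IsMaximal)
    (hcen : ∀ b : integralClosure (Algebra.adjoin O ({t} : Set F)) F,
      MemPi (V W₀) π (b : F) → b ∈ 𝔪)
    (hdeg : ∀ a : integralClosure (Algebra.adjoin O ({t} : Set F)) F, ∃ κ : O,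
      ∃ m : integralClosure (Algebra.adjoin O ({t} : Set F)) F,
        m ∈ 𝔪 ∧ (a : F) - algebraMap O F κ = (m : F)) :
    ConstAt V R On π W₀ := by
  intro x hx hregY
  exact const0_of_charts π u (V W₀) hloc hu (hV W₀) (hne W₀) (hunit W₀) x hx
    (hreg0_of_points π u V R On hV hY0 W₀ x hregY)
    (hreg1_of_points π u V R On hV hY1 W₀ x hregY) ht 𝔪 h𝔪 hcen hdeg

end Points

end Fermat.Agent.S33.Geo.ChartGlobal
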