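import Mathlib
import Fermat.Agent.S44.L.LocalPrincipal
import Fermat.Agent.S44.L.Node

/-!
# S33, strand GEO, bricks (CMP-lead), (CMP-top): comparison of a local form with a branch form

Level-free commutative algebra (helper133).  Imports Mathlib and the two landed level-free files
`S44/L/LocalPrincipal`, `S44/L/Node` only.

Setting (that of `S44/L/Node.node_lemma`): `O` a discrete valuation ring with uniformiser `ϖ`
and perfect residue field (`hperf`), `R` a noetherian domain over `O`, `F = Frac R`, and `s` a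
prime element of `R` dividing `ϖ` exactly once (`ϖ = s * ε`, `s ∤ ε`): a branch through a closed
point of the special fibre.  A function `f ∈ Fˣ` has *depth `≥ j` with constant `c ∈ O` along
`s`* (`DepthAt`) if `f = c * g ^ p * (1 + ϖ ^ j * w)` with `w = a / b ∈ R_(s)` (`s ∤ b`).

* `branch_cmp` (CMP-lead): a local form `f = c * h ^ p * (1 + ϖ ^ i * r)` with `r ∈ R` and a branch form
  `f = c₁ * g₁ ^ p * (1 + ϖ ^ i * a₁ / b₁)` of the same depth `i`, `1 ≤ i`, `i + 1 ≤ p`,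
  `ϖ ^ i ∣ p`: then `c₁ = c * (p-th power) * (1 + ϖ ^ i * e)` with `e ∈ O` and the branch leading
  term is `a₁ / b₁ ≡ r - e` modulo `s` (regular at the point, up to a constant).
* `branch_cmp_top` (CMP-top): the constants half under `1 ≤ i ≤ p`, `ϖ ∣ p`, `ϖ ^ (i - 1) ∣ p` (the top
  depth: `i = 2` for `e = 1`, `i = p` for `e = p - 1`).
* `cmp_lead`, `cmp_const`: the same two statements in the orientation `c = c₁ * ...`.
-/

set_option autoImplicit false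
set_option linter.unusedSectionVars false
set_option linter.style.haveILetI false

namespace Fermat.Agent.S33.Geo.HDCmp

open Fermat.Agent.S44.L.Node

/-! ### Two congruences for `p`-th powers -/

section Ring

variable {D : Type*} [CommRing D]

/-- `(A + s w) ^ p ≡ A ^ p` modulo `s ^ (i + 1)` when `s ^ i ∣ p` and `i + 1 ≤ p`. -/
theorem pow_succ_dvd_add_pow_sub_pow {p : ℕ} (hp : p.Prime) {s : D} {i : ℕ} (hip : i + 1 ≤ p)
    (hsp : s ^ i ∣ (p : D)) (A w : D) : s ^ (i + 1) ∣ (A + s * w) ^ p - A ^ p := by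
  obtain ⟨ρ, hρ⟩ := exists_add_pow_prime_eq hp A (s * w)
  obtain ⟨κ, hκ⟩ := hsp
  obtain ⟨d, hd⟩ := Nat.exists_eq_add_of_le hip
  refine ⟨s ^ d * w ^ p + κ * A * w * ρ, ?_⟩
  have h1 : (s * w) ^ p = s ^ (i + 1) * (s ^ d * w ^ p) := by
    rw [mul_pow, ← mul_assoc, ← pow_add, ← hd]
  rw [hρ, h1, hκ]
  ring

/-- If the prime `s` divides `p` and `x ^ p - y ^ p`, it divides `x - y`. -/
theorem dvd_sub_of_dvd_pow_sub_pow {p : ℕ} (hp : p.Prime) {s : D} (hs : Prime s)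
    (hsp : s ∣ (p : D)) {x y : D} (h : s ∣ x ^ p - y ^ p) : s ∣ x - y := by
  obtain ⟨ρ, hρ⟩ := exists_add_pow_prime_eq hp (x - y) y
  rw [sub_add_cancel] at hρ
  apply hs.dvd_of_dvd_pow (n := p)
  have h1 : (x - y) ^ p = (x ^ p - y ^ p) - (p : D) * ((x - y) * y * ρ) := by
    linear_combination -hρ
  rw [h1]
  exact dvd_sub h (Dvd.dvd.mul_right hsp _)

end Ring

/-! ### The comparison lemma on a branch -/

section Cmp

variable {O : Type*} [CommRing O] [IsDomain O] [IsDiscreteValuationRing O]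
  {R : Type*} [CommRing R] [IsDomain R] [IsNoetherianRing R] [Algebra O R]
  {F : Type*} [Field F] [Algebra R F] [IsFractionRing R F]

/-- **Depth along a prime.**  `f = c * g ^ p * (1 + ϖ ^ j * w)` with `w = a / b ∈ R_(s)`
(`s ∤ b`): the function `f` has depth `≥ j` with constant `c` along the prime `s` of `R`. -/
def DepthAt (p : ℕ) (ϖ : O) (j : ℕ) (s : R) (f : F) (c : O) : Prop :=
  ∃ (g : F) (a b : R), ¬ s ∣ b ∧ algebraMap R F b * f =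
    algebraMap R F (algebraMap O R c) * g ^ p *
      algebraMap R F (b + algebraMap O R ϖ ^ j * a)

/-- Weakening the depth. -/
theorem DepthAt.mono {p : ℕ} {ϖ : O} {i j : ℕ} (hij : i ≤ j) {s : R} {f : F} {c : O}
    (h : DepthAt p ϖ j s f c) : DepthAt p ϖ i s f c := by
  obtain ⟨g, a, b, hb, e⟩ := h
  obtain ⟨k, rfl⟩ := Nat.exists_eq_add_of_le hij
  have h1 : algebraMap O R ϖ ^ (i + k) * a = algebraMap O R ϖ ^ i * (algebraMap O R ϖ ^ k * a) := by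
    rw [pow_add, mul_assoc]
  exact ⟨g, algebraMap O R ϖ ^ k * a, b, hb, by rw [e, h1]⟩

/-- The ring-level core of `branch_cmp`: from the reduced branch relation, the congruence modulo
`s ^ (i + 1)` (`i = i' + 1`). -/
theorem cmp_core {p : ℕ} (hp : p.Prime) {s ε : R} (hs : Prime s) {i' : ℕ} (hip : i' + 2 ≤ p)
    (hsp : s ^ (i' + 1) ∣ (p : R)) {b₁ X Y a₀ r a₁ : R} (hb₁ : ¬ s ∣ b₁) (hX : ¬ s ∣ X)
    (e : b₁ * (1 + s * ε * a₀) * (1 + (s * ε) ^ (i' + 1) * r) * X ^ p =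
      (b₁ + (s * ε) ^ (i' + 1) * a₁) * Y ^ p) :
    s ^ (i' + 2) ∣ b₁ * (s * ε) * a₀ + (s * ε) ^ (i' + 1) * (b₁ * r - a₁) := by
  have hsp1 : s ∣ (p : R) := (dvd_pow_self s (Nat.succ_ne_zero i')).trans hsp
  have h1 : s ∣ b₁ * (X ^ p - Y ^ p) :=
    ⟨ε * (s * ε) ^ i' * a₁ * Y ^ p
      - b₁ * X ^ p * (ε * a₀ + ε * (s * ε) ^ i' * r + ε * a₀ * (s * ε) ^ (i' + 1) * r), by
      linear_combination e⟩
  have h2 : s ∣ X ^ p - Y ^ p := (hs.dvd_or_dvd h1).resolve_left hb₁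
  obtain ⟨w, hw⟩ := dvd_sub_of_dvd_pow_sub_pow hp hs hsp1 h2
  have hY : Y = X + s * (-w) := by linear_combination -hw
  obtain ⟨M, hM⟩ := pow_succ_dvd_add_pow_sub_pow hp (i := i' + 1) hip hsp X (-w)
  rw [← hY] at hM
  have h3 : s ^ (i' + 2) ∣ X ^ p * (b₁ * (s * ε) * a₀ + (s * ε) ^ (i' + 1) * (b₁ * r - a₁)
      + b₁ * (s * ε) ^ (i' + 2) * a₀ * r) :=
    ⟨(b₁ + (s * ε) ^ (i' + 1) * a₁) * M, by
      linear_combination e + (b₁ + (s * ε) ^ (i' + 1) * a₁) * hM⟩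
  have h4 := hs.pow_dvd_of_dvd_mul_left (i' + 2) (fun hd => hX (hs.dvd_of_dvd_pow hd)) h3
  have h5 : s ^ (i' + 2) ∣ b₁ * (s * ε) ^ (i' + 2) * a₀ * r :=
    ⟨b₁ * ε ^ (i' + 2) * a₀ * r, by rw [mul_pow]; ring⟩
  exact (dvd_add_left h5).mp h4

/-- The ring-level core of `cmp_const`: one power of `s` less, under the weaker hypotheses
`i ≤ p`, `s ^ (i - 1) ∣ p` (`i = i' + 1`). -/
theorem cmp_core_const {p : ℕ} (hp : p.Prime) {s ε : R} (hs : Prime s) {i' : ℕ}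
    (hip : i' + 1 ≤ p) (hsp : s ^ i' ∣ (p : R)) (hsp1 : s ∣ (p : R)) {b₁ X Y a₀ r a₁ : R}
    (hb₁ : ¬ s ∣ b₁) (hX : ¬ s ∣ X)
    (e : b₁ * (1 + s * ε * a₀) * (1 + (s * ε) ^ (i' + 1) * r) * X ^ p =
      (b₁ + (s * ε) ^ (i' + 1) * a₁) * Y ^ p) :
    s ^ (i' + 1) ∣ b₁ * (s * ε) * a₀ := by
  have h1 : s ∣ b₁ * (X ^ p - Y ^ p) :=
    ⟨ε * (s * ε) ^ i' * a₁ * Y ^ p
      - b₁ * X ^ p * (ε * a₀ + ε * (s * ε) ^ i' * r + ε * a₀ * (s * ε) ^ (i' + 1) * r), by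
      linear_combination e⟩
  have h2 : s ∣ X ^ p - Y ^ p := (hs.dvd_or_dvd h1).resolve_left hb₁
  obtain ⟨w, hw⟩ := dvd_sub_of_dvd_pow_sub_pow hp hs hsp1 h2
  have hY : Y = X + s * (-w) := by linear_combination -hw
  obtain ⟨M, hM⟩ := pow_succ_dvd_add_pow_sub_pow hp (i := i') hip hsp X (-w)
  rw [← hY] at hM
  have h3 : s ^ (i' + 1) ∣ X ^ p * (b₁ * (s * ε) * a₀ + (s * ε) ^ (i' + 1) * (b₁ * r - a₁)
      + b₁ * (s * ε) ^ (i' + 2) * a₀ * r) :=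
    ⟨(b₁ + (s * ε) ^ (i' + 1) * a₁) * M, by
      linear_combination e + (b₁ + (s * ε) ^ (i' + 1) * a₁) * hM⟩
  have h4 := hs.pow_dvd_of_dvd_mul_left (i' + 1) (fun hd => hX (hs.dvd_of_dvd_pow hd)) h3
  have h5 : s ^ (i' + 1) ∣ (s * ε) ^ (i' + 1) * (b₁ * r - a₁)
      + b₁ * (s * ε) ^ (i' + 2) * a₀ * r :=
    ⟨ε ^ (i' + 1) * (b₁ * r - a₁) + b₁ * s * ε ^ (i' + 2) * a₀ * r, by
      rw [mul_pow, mul_pow]; ring⟩
  rw [add_assoc] at h4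
  exact (dvd_add_left h5).mp h4

/-- From `s ^ (i' + 1) ∣ b₁ * ϖ * a₀` with `a₀ ∈ O`, `s ∤ b₁`: `ϖ ^ i' ∣ a₀` in `O`. -/
theorem exists_eq_pow_mul_of_dvd {ϖ : O} (hϖ : Irreducible ϖ) {s ε : R} (hs : Prime s)
    (hε : ¬ s ∣ ε) (hsε : algebraMap O R ϖ = s * ε) {i' : ℕ} {b₁ : R} (hb₁ : ¬ s ∣ b₁) {a₀ : O}
    (h : s ^ (i' + 1) ∣ b₁ * (s * ε) * algebraMap O R a₀) : ∃ e' : O, a₀ = ϖ ^ i' * e' := by
  by_cases h0 : a₀ = 0
  · exact ⟨0, by rw [h0, mul_zero]⟩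
  obtain ⟨n, η, hη⟩ := IsDiscreteValuationRing.eq_unit_mul_pow_irreducible h0 hϖ
  by_cases hlt : n < i'
  · exfalso
    obtain ⟨k, hk⟩ : ∃ k, i' = n + 1 + k := ⟨i' - n - 1, by omega⟩
    have hEη : IsUnit (algebraMap O R η) := η.isUnit.map (algebraMap O R)
    have hA0 : algebraMap O R a₀ = algebraMap O R η * (s * ε) ^ n := by
      rw [hη, map_mul, map_pow, hsε]
    rw [hA0, hk] at h
    have h1 : s ^ (n + 1) * s ^ (k + 1) ∣ s ^ (n + 1) * (b₁ * ε ^ (n + 1) * algebraMap O R η) := by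
      have h2 : s ^ (n + 1) * (b₁ * ε ^ (n + 1) * algebraMap O R η)
          = b₁ * (s * ε) * (algebraMap O R η * (s * ε) ^ n) := by
        ring
      have h3 : s ^ (n + 1) * s ^ (k + 1) = s ^ (n + 1 + k + 1) := by ring
      rw [h2, h3]
      exact h
    have h4 := (mul_dvd_mul_iff_left (pow_ne_zero (n + 1) hs.ne_zero)).mp h1
    have h5 : s ∣ b₁ * ε ^ (n + 1) * algebraMap O R η :=
      (dvd_pow_self s (Nat.succ_ne_zero k)).trans h4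
    exact (hs.dvd_or_dvd h5).elim (fun hd => (hs.dvd_or_dvd hd).elim hb₁
      (fun hd' => hε (hs.dvd_of_dvd_pow hd')))
      (fun hd => hs.not_isUnit (isUnit_of_dvd_unit hd hEη))
  · obtain ⟨k, hk⟩ := Nat.exists_eq_add_of_le (not_lt.mp hlt)
    exact ⟨η * ϖ ^ k, by rw [hη, hk, pow_add]; ring⟩

/-- Preparation for `cmp_lead` / `cmp_const`: clear denominators, orders and units. -/
theorem cmp_prep (p : ℕ) (hp : p.Prime) (ϖ : O) (hϖ : Irreducible ϖ)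
    (hperf : ∀ a : O, ∃ b : O, ϖ ∣ a - b ^ p)
    (i : ℕ) (hi1 : 1 ≤ i)
    (s ε : R) (hs : Prime s) (hε : ¬ s ∣ ε) (hsε : algebraMap O R ϖ = s * ε)
    (f : F) (hf : f ≠ 0)
    (c c₁ : O) (hc : c ≠ 0) (hc₁ : c₁ ≠ 0) (h g₁ : F) (r a₁ b₁ : R) (hb₁ : ¬ s ∣ b₁)
    (hB : f = algebraMap R F (algebraMap O R c) * h ^ p *
      algebraMap R F (1 + algebraMap O R ϖ ^ i * r))
    (hA : algebraMap R F b₁ * f = algebraMap R F (algebraMap O R c₁) * g₁ ^ p *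
      algebraMap R F (b₁ + algebraMap O R ϖ ^ i * a₁)) :
    ∃ (a₀ d d' : O) (X Y : R), d ≠ 0 ∧ d' ≠ 0 ∧ ¬ s ∣ X ∧
      c * d ^ p = c₁ * d' ^ p * (1 + ϖ * a₀) ∧
      b₁ * (1 + s * ε * algebraMap O R a₀) * (1 + (s * ε) ^ i * r) * X ^ p
        = (b₁ + (s * ε) ^ i * a₁) * Y ^ p := by
  obtain ⟨i', rfl⟩ : ∃ i', i = i' + 1 := ⟨i - 1, by omega⟩
  have hinj := IsFractionRing.injective R F
  have hsu : ∀ x : R, IsUnit x → ¬ s ∣ x := fun x hx hd =>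
    hs.not_isUnit (isUnit_of_dvd_unit hd hx)
  have hb₁0 : b₁ ≠ 0 := fun h0 => hb₁ (h0 ▸ dvd_zero s)
  have hε0 : ε ≠ 0 := fun h0 => hε (h0 ▸ dvd_zero s)
  have hεpow : ∀ n : ℕ, ¬ s ∣ ε ^ n := fun n hd => hε (hs.dvd_of_dvd_pow hd)
  -- the constants
  obtain ⟨m, εc, hεc⟩ := IsDiscreteValuationRing.eq_unit_mul_pow_irreducible hc hϖ
  obtain ⟨m₁, ε₁, hε₁⟩ := IsDiscreteValuationRing.eq_unit_mul_pow_irreducible hc₁ hϖ
  have hcR : algebraMap O R c = algebraMap O R εc * (s * ε) ^ m := by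
    rw [hεc, map_mul, map_pow, hsε]
  have hc₁R : algebraMap O R c₁ = algebraMap O R ε₁ * (s * ε) ^ m₁ := by
    rw [hε₁, map_mul, map_pow, hsε]
  have hEc : IsUnit (algebraMap O R εc) := εc.isUnit.map (algebraMap O R)
  have hE₁ : IsUnit (algebraMap O R ε₁) := ε₁.isUnit.map (algebraMap O R)
  have hone : ¬ s ∣ 1 + (s * ε) ^ (i' + 1) * r := by
    intro hd
    have h3 : s ∣ (s * ε) ^ (i' + 1) * r :=
      Dvd.dvd.mul_right (dvd_pow (Dvd.intro _ rfl) (Nat.succ_ne_zero i')) _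
    exact hs.not_isUnit (isUnit_of_dvd_one ((dvd_add_left h3).mp hd))
  have hbr : ¬ s ∣ b₁ + (s * ε) ^ (i' + 1) * a₁ := by
    intro hd
    have h3 : s ∣ (s * ε) ^ (i' + 1) * a₁ :=
      Dvd.dvd.mul_right (dvd_pow (Dvd.intro _ rfl) (Nat.succ_ne_zero i')) _
    exact hb₁ ((dvd_add_left h3).mp hd)
  have hh : h ≠ 0 := by
    rintro rfl
    rw [zero_pow hp.ne_zero, mul_zero, zero_mul] at hB
    exact hf hB
  -- fractions
  obtain ⟨hn, hd, hhd, rfl⟩ := IsFractionRing.div_surjective R h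
  obtain ⟨gn, gd, hgd, rfl⟩ := IsFractionRing.div_surjective R g₁
  have hhd0 : hd ≠ 0 := nonZeroDivisors.ne_zero hhd
  have hgd0 : gd ≠ 0 := nonZeroDivisors.ne_zero hgd
  have hhdF : algebraMap R F hd ≠ 0 := (map_ne_zero_iff _ hinj).mpr hhd0
  have hgdF : algebraMap R F gd ≠ 0 := (map_ne_zero_iff _ hinj).mpr hgd0
  have hhn0 : hn ≠ 0 := by
    rintro rfl
    exact hh (by simp)
  rw [hB, hsε] at hA
  have eR : b₁ * algebraMap O R c * (1 + (s * ε) ^ (i' + 1) * r) * (hn * gd) ^ p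
      = algebraMap O R c₁ * (b₁ + (s * ε) ^ (i' + 1) * a₁) * (gn * hd) ^ p := by
    apply hinj
    simp only [map_mul, map_pow] at hA ⊢
    rw [div_pow, div_pow] at hA
    field_simp at hA
    linear_combination hA
  rw [hcR, hc₁R] at eR
  have hgn0 : gn ≠ 0 := by
    rintro rfl
    rw [zero_mul, zero_pow hp.ne_zero, mul_zero] at eR
    have h1 : (1 : R) + (s * ε) ^ (i' + 1) * r ≠ 0 := fun h0 => hone (h0 ▸ dvd_zero s)
    exact mul_ne_zero (mul_ne_zero (mul_ne_zero hb₁0 (mul_ne_zero hEc.ne_zero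
      (pow_ne_zero _ (mul_ne_zero hs.ne_zero hε0)))) h1)
      (pow_ne_zero _ (mul_ne_zero hhn0 hgd0)) eR
  have hA' : ¬ s ∣ b₁ * algebraMap O R εc * ε ^ m * (1 + (s * ε) ^ (i' + 1) * r) := fun hd' =>
    (hs.dvd_or_dvd hd').elim (fun hd2 => (hs.dvd_or_dvd hd2).elim
      (fun hd3 => (hs.dvd_or_dvd hd3).elim hb₁ (hsu _ hEc)) (hεpow m)) hone
  have hB' : ¬ s ∣ algebraMap O R ε₁ * ε ^ m₁ * (b₁ + (s * ε) ^ (i' + 1) * a₁) := fun hd' =>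
    (hs.dvd_or_dvd hd').elim (fun hd2 => (hs.dvd_or_dvd hd2).elim (hsu _ hE₁) (hεpow m₁)) hbr
  have eR' : (b₁ * algebraMap O R εc * ε ^ m * (1 + (s * ε) ^ (i' + 1) * r)) * s ^ m
        * (hn * gd) ^ p
      = (algebraMap O R ε₁ * ε ^ m₁ * (b₁ + (s * ε) ^ (i' + 1) * a₁)) * s ^ m₁
        * (gn * hd) ^ p := by
    linear_combination eR
  obtain ⟨X, Y, α, β, hX, hY, eo, eXY⟩ := exists_reduced hs hA' hB'
    (mul_ne_zero hhn0 hgd0) (mul_ne_zero hgn0 hhd0) eR'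
  -- normalise the unit ratio (perfect residue field)
  obtain ⟨βu, a₀, hβu, hβa⟩ := exists_eq_pow_mul_one_add hp.ne_zero hϖ hperf
    (u := (εc : O) * ((ε₁⁻¹ : Oˣ) : O)) (εc.isUnit.mul ε₁⁻¹.isUnit)
  have hεcE : (εc : O) = ε₁ * (βu ^ p * (1 + ϖ * a₀)) := by
    rw [← hβa]
    have h1 := Units.mul_inv ε₁
    linear_combination (-(εc : O)) * h1
  have hEcR : algebraMap O R εc
      = algebraMap O R ε₁ * (algebraMap O R βu ^ p * (1 + s * ε * algebraMap O R a₀)) := by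
    rw [hεcE]
    simp only [map_mul, map_pow, map_add, map_one]
    rw [hsε]
  have hBu : IsUnit (algebraMap O R βu) := hβu.map (algebraMap O R)
  rw [hEcR] at eXY
  have hpow : ε ^ m * (ε ^ α) ^ p = ε ^ m₁ * (ε ^ β) ^ p := by
    rw [← pow_mul, ← pow_add, ← pow_mul, ← pow_add, mul_comm α p, mul_comm β p, eo]
  have key : b₁ * (1 + s * ε * algebraMap O R a₀) * (1 + (s * ε) ^ (i' + 1) * r)
        * (algebraMap O R βu * (X * ε ^ β)) ^ p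
      = (b₁ + (s * ε) ^ (i' + 1) * a₁) * (Y * ε ^ α) ^ p := by
    apply mul_left_cancel₀ (mul_ne_zero hE₁.ne_zero
      (mul_ne_zero (pow_ne_zero m hε0) (pow_ne_zero p (pow_ne_zero α hε0))))
    linear_combination (ε ^ α) ^ p * (ε ^ β) ^ p * eXY
      - algebraMap O R ε₁ * (b₁ + (s * ε) ^ (i' + 1) * a₁) * Y ^ p * (ε ^ α) ^ p * hpow
  have hX' : ¬ s ∣ algebraMap O R βu * (X * ε ^ β) := fun hd' =>
    (hs.dvd_or_dvd hd').elim (hsu _ hBu) (fun hd2 => (hs.dvd_or_dvd hd2).elim hX (hεpow β))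
  have hpowϖ : ϖ ^ m * (ϖ ^ α) ^ p = ϖ ^ m₁ * (ϖ ^ β) ^ p := by
    rw [← pow_mul, ← pow_add, ← pow_mul, ← pow_add, mul_comm α p, mul_comm β p, eo]
  refine ⟨a₀, ϖ ^ α, βu * ϖ ^ β, _, _, pow_ne_zero _ hϖ.ne_zero,
    mul_ne_zero hβu.ne_zero (pow_ne_zero _ hϖ.ne_zero), hX', ?_, key⟩
  rw [hεc, hε₁, hεcE]
  linear_combination ((ε₁ : O) * βu ^ p * (1 + ϖ * a₀)) * hpowϖ

/-- **(CMP), constants.**  Let `s` be a prime of `R` dividing `ϖ` exactly once (`ϖ = s * ε`,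
`s ∤ ε`), `1 ≤ i ≤ p`, `ϖ ∣ p`, `ϖ ^ (i - 1) ∣ p`.  If `f = c * h ^ p * (1 + ϖ ^ i * r)` with
`r ∈ R` and `f = c₁ * g₁ ^ p * (1 + ϖ ^ i * a₁ / b₁)` with `s ∤ b₁`, then
`c = c₁ * (p-th power) * (1 + ϖ ^ i * e)` for some `e ∈ O`. -/
theorem cmp_const (p : ℕ) (hp : p.Prime) (ϖ : O) (hϖ : Irreducible ϖ) (hϖp : ϖ ∣ (p : O))
    (hperf : ∀ a : O, ∃ b : O, ϖ ∣ a - b ^ p)
    (i : ℕ) (hi1 : 1 ≤ i) (hip : i ≤ p) (hpϖ : ϖ ^ (i - 1) ∣ (p : O))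
    (s ε : R) (hs : Prime s) (hε : ¬ s ∣ ε) (hsε : algebraMap O R ϖ = s * ε)
    (f : F) (hf : f ≠ 0)
    (c c₁ : O) (hc : c ≠ 0) (hc₁ : c₁ ≠ 0) (h g₁ : F) (r a₁ b₁ : R) (hb₁ : ¬ s ∣ b₁)
    (hB : f = algebraMap R F (algebraMap O R c) * h ^ p *
      algebraMap R F (1 + algebraMap O R ϖ ^ i * r))
    (hA : algebraMap R F b₁ * f = algebraMap R F (algebraMap O R c₁) * g₁ ^ p *
      algebraMap R F (b₁ + algebraMap O R ϖ ^ i * a₁)) :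
    ∃ e d d' : O, d ≠ 0 ∧ d' ≠ 0 ∧ c * d ^ p = c₁ * d' ^ p * (1 + ϖ ^ i * e) := by
  obtain ⟨a₀, d, d', X, Y, hd, hd', hX, hcc, key⟩ := cmp_prep p hp ϖ hϖ hperf i hi1 s ε hs hε hsε
    f hf c c₁ hc hc₁ h g₁ r a₁ b₁ hb₁ hB hA
  obtain ⟨i', rfl⟩ : ∃ i', i = i' + 1 := ⟨i - 1, by omega⟩
  rw [Nat.add_sub_cancel] at hpϖ
  obtain ⟨cp, hcp⟩ := hpϖ
  have hsp : s ^ i' ∣ (p : R) :=
    ⟨ε ^ i' * algebraMap O R cp, by
      rw [← map_natCast (algebraMap O R) p, hcp, map_mul, map_pow, hsε, mul_pow]; ring⟩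
  obtain ⟨cp1, hcp1⟩ := hϖp
  have hsp1 : s ∣ (p : R) :=
    ⟨ε * algebraMap O R cp1, by
      rw [← map_natCast (algebraMap O R) p, hcp1, map_mul, hsε]; ring⟩
  have hdag := cmp_core_const hp hs hip hsp hsp1 hb₁ hX key
  obtain ⟨e', he'⟩ := exists_eq_pow_mul_of_dvd hϖ hs hε hsε hb₁ hdag
  refine ⟨e', d, d', hd, hd', ?_⟩
  rw [hcc, he']
  ring

/-- **(CMP), leading terms** (orientation `c = c₁ * ...`).  Let `s` be a prime of `R` dividing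
`ϖ` exactly once (`ϖ = s * ε`, `s ∤ ε`), `1 ≤ i`, `i + 1 ≤ p`, `ϖ ^ i ∣ p`.  If
`f = c * h ^ p * (1 + ϖ ^ i * r)` with `r ∈ R` and `f = c₁ * g₁ ^ p * (1 + ϖ ^ i * a₁ / b₁)` with
`s ∤ b₁`, then `c = c₁ * (p-th power) * (1 + ϖ ^ i * e)` for some `e ∈ O`, and the branch leading
term is the local one plus the constant: `a₁ / b₁ ≡ r + e` modulo `s`. -/
theorem cmp_lead (p : ℕ) (hp : p.Prime) (ϖ : O) (hϖ : Irreducible ϖ)
    (hperf : ∀ a : O, ∃ b : O, ϖ ∣ a - b ^ p)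
    (i : ℕ) (hi1 : 1 ≤ i) (hip : i + 1 ≤ p) (hpϖ : ϖ ^ i ∣ (p : O))
    (s ε : R) (hs : Prime s) (hε : ¬ s ∣ ε) (hsε : algebraMap O R ϖ = s * ε)
    (f : F) (hf : f ≠ 0)
    (c c₁ : O) (hc : c ≠ 0) (hc₁ : c₁ ≠ 0) (h g₁ : F) (r a₁ b₁ : R) (hb₁ : ¬ s ∣ b₁)
    (hB : f = algebraMap R F (algebraMap O R c) * h ^ p *
      algebraMap R F (1 + algebraMap O R ϖ ^ i * r))
    (hA : algebraMap R F b₁ * f = algebraMap R F (algebraMap O R c₁) * g₁ ^ p *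
      algebraMap R F (b₁ + algebraMap O R ϖ ^ i * a₁)) :
    ∃ e d d' : O, d ≠ 0 ∧ d' ≠ 0 ∧ c * d ^ p = c₁ * d' ^ p * (1 + ϖ ^ i * e) ∧
      s ∣ a₁ - b₁ * (r + algebraMap O R e) := by
  obtain ⟨a₀, d, d', X, Y, hd, hd', hX, hcc, key⟩ := cmp_prep p hp ϖ hϖ hperf i hi1 s ε hs hε hsε
    f hf c c₁ hc hc₁ h g₁ r a₁ b₁ hb₁ hB hA
  obtain ⟨i', rfl⟩ : ∃ i', i = i' + 1 := ⟨i - 1, by omega⟩
  have hεpow : ∀ n : ℕ, ¬ s ∣ ε ^ n := fun n hd => hε (hs.dvd_of_dvd_pow hd)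
  obtain ⟨cp, hcp⟩ := hpϖ
  have hsp : s ^ (i' + 1) ∣ (p : R) :=
    ⟨ε ^ (i' + 1) * algebraMap O R cp, by
      rw [← map_natCast (algebraMap O R) p, hcp, map_mul, map_pow, hsε, mul_pow]; ring⟩
  have hdag := cmp_core hp hs (by omega) hsp hb₁ hX key
  have hdag' : s ^ (i' + 1) ∣ b₁ * (s * ε) * algebraMap O R a₀ := by
    have h1 : s ^ (i' + 1) ∣ b₁ * (s * ε) * algebraMap O R a₀
        + (s * ε) ^ (i' + 1) * (b₁ * r - a₁) :=
      (pow_dvd_pow s (Nat.le_succ (i' + 1))).trans hdag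
    have h2 : s ^ (i' + 1) ∣ (s * ε) ^ (i' + 1) * (b₁ * r - a₁) :=
      ⟨ε ^ (i' + 1) * (b₁ * r - a₁), by rw [mul_pow]; ring⟩
    exact (dvd_add_left h2).mp h1
  obtain ⟨e', he'⟩ := exists_eq_pow_mul_of_dvd hϖ hs hε hsε hb₁ hdag'
  refine ⟨e', d, d', hd, hd', ?_, ?_⟩
  · rw [hcc, he']
    ring
  · have hA0 : algebraMap O R a₀ = (s * ε) ^ i' * algebraMap O R e' := by
      rw [he', map_mul, map_pow, hsε]
    rw [hA0] at hdag
    have h1 : s ^ (i' + 1) * s ∣ s ^ (i' + 1) * (ε ^ (i' + 1) *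
        (b₁ * (r + algebraMap O R e') - a₁)) := by
      have h2 : s ^ (i' + 1) * (ε ^ (i' + 1) * (b₁ * (r + algebraMap O R e') - a₁))
          = b₁ * (s * ε) * ((s * ε) ^ i' * algebraMap O R e')
            + (s * ε) ^ (i' + 1) * (b₁ * r - a₁) := by
        ring
      have h3 : s ^ (i' + 1) * s = s ^ (i' + 2) := by ring
      rw [h2, h3]
      exact hdag
    have h4 := (mul_dvd_mul_iff_left (pow_ne_zero (i' + 1) hs.ne_zero)).mp h1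
    have h6 := (hs.dvd_or_dvd h4).resolve_left (hεpow (i' + 1))
    have h7 : a₁ - b₁ * (r + algebraMap O R e') = -(b₁ * (r + algebraMap O R e') - a₁) := by
      ring
    rw [h7]
    exact (dvd_neg).mpr h6

/-- `1 + ϖ ^ i * e₀` (`1 ≤ i`) has an inverse of the same shape, with `ϖ ∣ e₀ + e`. -/
theorem exists_inv_one_add {ϖ : O} (hϖ : Irreducible ϖ) {i : ℕ} (hi1 : 1 ≤ i) (e₀ : O) :
    ∃ e : O, (1 + ϖ ^ i * e₀) * (1 + ϖ ^ i * e) = 1 ∧ ϖ ∣ e₀ + e := by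
  obtain ⟨i', rfl⟩ : ∃ i', i = i' + 1 := ⟨i - 1, by omega⟩
  have h1 : IsUnit (1 - -(ϖ ^ (i' + 1) * e₀)) := by
    apply IsLocalRing.isUnit_one_sub_self_of_mem_nonunits
    rw [mem_nonunits_iff]
    intro hu
    exact hϖ.not_isUnit (isUnit_of_dvd_unit ⟨-(ϖ ^ i' * e₀), by ring⟩ hu)
  obtain ⟨u, hu⟩ := h1
  have huu : (u : O) * ((u⁻¹ : Oˣ) : O) = 1 := Units.mul_inv u
  refine ⟨-e₀ * ((u⁻¹ : Oˣ) : O), ?_, ⟨ϖ ^ i' * e₀ * e₀ * ((u⁻¹ : Oˣ) : O), ?_⟩⟩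
  · linear_combination (-(ϖ ^ (i' + 1) * e₀)) * huu
      + ϖ ^ (i' + 1) * e₀ * ((u⁻¹ : Oˣ) : O) * hu
  · linear_combination (-e₀) * huu + e₀ * ((u⁻¹ : Oˣ) : O) * hu

/-- **(CMP-lead), statement of record.**  Let `s` be a prime of `R` dividing `ϖ` exactly once
(`ϖ = s * ε`, `s ∤ ε`), `1 ≤ i`, `i + 1 ≤ p`, `ϖ ^ i ∣ p`.  If `f = c * h ^ p * (1 + ϖ ^ i * r)`
with `r ∈ R` (local form) and `f = c₁ * g₁ ^ p * (1 + ϖ ^ i * a₁ / b₁)` with `s ∤ b₁` (branch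
form), then `c₁ = c * (p-th power) * (1 + ϖ ^ i * e)` for some `e ∈ O`, and the branch leading
term is the local one minus the constant: `a₁ / b₁ ≡ r - e` modulo `s`. -/
theorem branch_cmp (p : ℕ) (hp : p.Prime) (ϖ : O) (hϖ : Irreducible ϖ)
    (hperf : ∀ a : O, ∃ b : O, ϖ ∣ a - b ^ p)
    (i : ℕ) (hi1 : 1 ≤ i) (hip : i + 1 ≤ p) (hpϖ : ϖ ^ i ∣ (p : O))
    (s ε : R) (hs : Prime s) (hε : ¬ s ∣ ε) (hsε : algebraMap O R ϖ = s * ε)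
    (f : F) (hf : f ≠ 0)
    (c c₁ : O) (hc : c ≠ 0) (hc₁ : c₁ ≠ 0) (h g₁ : F) (r a₁ b₁ : R) (hb₁ : ¬ s ∣ b₁)
    (hB : f = algebraMap R F (algebraMap O R c) * h ^ p *
      algebraMap R F (1 + algebraMap O R ϖ ^ i * r))
    (hA : algebraMap R F b₁ * f = algebraMap R F (algebraMap O R c₁) * g₁ ^ p *
      algebraMap R F (b₁ + algebraMap O R ϖ ^ i * a₁)) :
    ∃ e d d' : O, d ≠ 0 ∧ d' ≠ 0 ∧ c₁ * d ^ p = c * d' ^ p * (1 + ϖ ^ i * e) ∧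
      s ∣ a₁ - b₁ * (r - algebraMap O R e) := by
  obtain ⟨e₀, d, d', hd, hd', hcc, hdvd⟩ := cmp_lead p hp ϖ hϖ hperf i hi1 hip hpϖ s ε hs hε hsε
    f hf c c₁ hc hc₁ h g₁ r a₁ b₁ hb₁ hB hA
  obtain ⟨e, he, x, hx⟩ := exists_inv_one_add hϖ hi1 e₀
  refine ⟨e, d', d, hd', hd, ?_, ?_⟩
  · linear_combination (-(1 + ϖ ^ i * e)) * hcc - c₁ * d' ^ p * he
  · have h1 : a₁ - b₁ * (r - algebraMap O R e)
        = (a₁ - b₁ * (r + algebraMap O R e₀)) + s * (ε * algebraMap O R x * b₁) := by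
      have h2 : algebraMap O R e₀ + algebraMap O R e = s * ε * algebraMap O R x := by
        rw [← map_add, hx, map_mul, hsε]
      linear_combination b₁ * h2
    rw [h1]
    exact dvd_add hdvd (Dvd.intro _ rfl)

/-- **(CMP-top), statement of record.**  The constants half of `branch_cmp` under the weaker
hypotheses `1 ≤ i ≤ p`, `ϖ ∣ p`, `ϖ ^ (i - 1) ∣ p` (so it applies at the top depth: `i = 2` for
`e = 1`, `i = p` for `e = p - 1`): `c₁ = c * (p-th power) * (1 + ϖ ^ i * e)`. -/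
theorem branch_cmp_top (p : ℕ) (hp : p.Prime) (ϖ : O) (hϖ : Irreducible ϖ) (hϖp : ϖ ∣ (p : O))
    (hperf : ∀ a : O, ∃ b : O, ϖ ∣ a - b ^ p)
    (i : ℕ) (hi1 : 1 ≤ i) (hip : i ≤ p) (hpϖ : ϖ ^ (i - 1) ∣ (p : O))
    (s ε : R) (hs : Prime s) (hε : ¬ s ∣ ε) (hsε : algebraMap O R ϖ = s * ε)
    (f : F) (hf : f ≠ 0)
    (c c₁ : O) (hc : c ≠ 0) (hc₁ : c₁ ≠ 0) (h g₁ : F) (r a₁ b₁ : R) (hb₁ : ¬ s ∣ b₁)
    (hB : f = algebraMap R F (algebraMap O R c) * h ^ p *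
      algebraMap R F (1 + algebraMap O R ϖ ^ i * r))
    (hA : algebraMap R F b₁ * f = algebraMap R F (algebraMap O R c₁) * g₁ ^ p *
      algebraMap R F (b₁ + algebraMap O R ϖ ^ i * a₁)) :
    ∃ e d d' : O, d ≠ 0 ∧ d' ≠ 0 ∧ c₁ * d ^ p = c * d' ^ p * (1 + ϖ ^ i * e) := by
  obtain ⟨e₀, d, d', hd, hd', hcc⟩ := cmp_const p hp ϖ hϖ hϖp hperf i hi1 hip hpϖ s ε hs hε hsε
    f hf c c₁ hc hc₁ h g₁ r a₁ b₁ hb₁ hB hA
  obtain ⟨e, he, -⟩ := exists_inv_one_add hϖ hi1 e₀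
  exact ⟨e, d', d, hd', hd, by
    linear_combination (-(1 + ϖ ^ i * e)) * hcc - c₁ * d' ^ p * he⟩

end Cmp

end Fermat.Agent.S33.Geo.HDCmp
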