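import Mathlib
import Fermat.Agent.S44.L.Node

/-!
# S33 (ordinary at `p`, `p ∥ N`), brick GEO.HD: depth of a Kummer function at a closed point

Level-free commutative algebra (helper198).  Imports Mathlib and the landed level-free files
`S44/L/LocalPrincipal`, `S44/L/Node` only.

Setting (the binder block of `S44/L/Node.node_lemma`): `O` a discrete valuation ring with
uniformiser `ϖ`, perfect residue field (`hperf`), `ϖ ^ (top - 1) ∣ p`, `2 ≤ top ≤ p`
(`e = 1`: `top = 2`; `e = p - 1`: `top = p`); `R` a noetherian local domain over `O`,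
`F = Frac R`.

* `branch_cmp` : two depth-`i` forms `c g ^ p (1 + ϖ ^ i a / b)`, `c' g' ^ p (1 + ϖ ^ i a' / b')`
  of the same `f` on one branch `s` (`s` a prime element, `ϖ = s w`, `s ∤ w`; `1 ≤ i ≤ top`):
  the constants agree modulo `(Frac O)ˣᵖ (1 + ϖ ^ i O)`, and for `i < top` the leading terms
  differ by a constant of `O` modulo `s`.
* `hd_node` : at a regular node (`m_R = (s, t)`, `s t = ϖ * unit`), a function with `p`-divisible
  horizontal orders and depth `≥ j` on both branches (`1 ≤ j ≤ top`) is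
  `c h ^ p (1 + ϖ ^ j r)` with `r ∈ R`.
* `hd_smooth` : the same at a smooth point (`ϖ` prime in `R`, `m_R = (ϖ, z)`).
-/

set_option autoImplicit false
set_option linter.unusedSectionVars false
set_option linter.unusedVariables false
set_option linter.style.haveILetI false

namespace Fermat.Agent.S33.Geo.HDCore

open IsLocalRing
open Fermat.Agent.S44.L.LocalPrincipal Fermat.Agent.S44.L.Node

/-! ### Elementary lemmas -/

section Basic

/-- Frobenius is injective modulo a prime element dividing `p`. -/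
theorem dvd_sub_of_dvd_pow_sub_pow {R : Type*} [CommRing R] {p : ℕ} (hp : p.Prime) {s : R}
    (hs : Prime s) (hsp : s ∣ (p : R)) {A B : R} (h : s ∣ A ^ p - B ^ p) : s ∣ A - B := by
  obtain ⟨r, hr⟩ := exists_add_pow_prime_eq hp (A - B) B
  rw [sub_add_cancel] at hr
  have h3 : (A - B) ^ p = (A ^ p - B ^ p) - (p : R) * ((A - B) * B * r) := by
    linear_combination -hr
  refine hs.dvd_of_dvd_pow (n := p) ?_
  rw [h3]
  exact dvd_sub h (Dvd.dvd.mul_right hsp _)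

/-- `(B + s ρ) ^ p ≡ B ^ p` modulo `s ^ top` when `s ^ (top - 1) ∣ p` and `top ≤ p`. -/
theorem pow_top_dvd_add_pow_sub {R : Type*} [CommRing R] {p : ℕ} (hp : p.Prime) {top : ℕ}
    (htop1 : 1 ≤ top) (htop : top ≤ p) {s : R} (hκ : s ^ (top - 1) ∣ (p : R)) (B ρ : R) :
    s ^ top ∣ (B + s * ρ) ^ p - B ^ p := by
  obtain ⟨r, hr⟩ := exists_add_pow_prime_eq hp B (s * ρ)
  obtain ⟨κ, hκ⟩ := hκ
  obtain ⟨d, hd⟩ := Nat.exists_eq_add_of_le htop
  have hst : s ^ (top - 1) * s = s ^ top := pow_sub_one_mul (by omega) s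
  have hsp : s ^ p = s ^ top * s ^ d := by rw [← pow_add, ← hd]
  refine ⟨s ^ d * ρ ^ p + κ * B * ρ * r, ?_⟩
  linear_combination hr + ρ ^ p * hsp + (B * s * ρ * r) * hκ + (κ * B * ρ * r) * hst

variable {O : Type*} [CommRing O] [IsDomain O] [IsDiscreteValuationRing O]
  {R : Type*} [CommRing R] [IsDomain R] [Algebra O R]

/-- An element of `O` divisible by `s ^ k` in `R` is divisible by `ϖ ^ k` in `O`
(`ϖ = s w`, `s ∤ w`). -/
theorem pow_dvd_of_pow_dvd_algebraMap {ϖ : O} (hϖ : Irreducible ϖ) {s w : R} (hs : Prime s)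
    (hsw : algebraMap O R ϖ = s * w) (hw : ¬ s ∣ w) {d : O} {k : ℕ}
    (h : s ^ k ∣ algebraMap O R d) : ϖ ^ k ∣ d := by
  by_cases h0 : d = 0
  · rw [h0]; exact dvd_zero _
  obtain ⟨n, ε, hn⟩ := IsDiscreteValuationRing.eq_unit_mul_pow_irreducible h0 hϖ
  by_cases hlt : n < k
  · exfalso
    have h1 : algebraMap O R d = s ^ n * (algebraMap O R ε * w ^ n) := by
      rw [hn, map_mul, map_pow, hsw, mul_pow]; ring
    rw [h1] at h
    obtain ⟨e, rfl⟩ := Nat.exists_eq_add_of_lt hlt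
    have h2 : s ^ (n + e + 1) = s ^ n * s ^ (e + 1) := by ring
    rw [h2] at h
    have h3 : s ^ (e + 1) ∣ algebraMap O R ε * w ^ n :=
      (mul_dvd_mul_iff_left (pow_ne_zero n hs.ne_zero)).mp h
    have h4 : s ∣ algebraMap O R ε * w ^ n := (dvd_pow_self s (Nat.succ_ne_zero e)).trans h3
    rcases hs.dvd_or_dvd h4 with h5 | h5
    · exact hs.not_isUnit (isUnit_of_dvd_unit h5 (ε.isUnit.map (algebraMap O R)))
    · exact hw (hs.dvd_of_dvd_pow h5)
  · rw [hn]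
    exact Dvd.dvd.mul_left (pow_dvd_pow ϖ (not_lt.mp hlt)) _

end Basic

/-! ### From the fraction field to the ring -/

section Frac

variable {R : Type*} [CommRing R] [IsDomain R]
  {F : Type*} [Field F] [Algebra R F] [IsFractionRing R F]

/-- Two expressions `b f = A g ^ p`, `b' f = A' g' ^ p` of the same `f ≠ 0` give
`b' A X ^ p = b A' Y ^ p` in `R`. -/
theorem exists_ring_eq {p : ℕ} (hp : p ≠ 0) {f g g' : F} (hf : f ≠ 0) {b b' A A' : R}
    (hb : b ≠ 0) (hb' : b' ≠ 0)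
    (e : algebraMap R F b * f = algebraMap R F A * g ^ p)
    (e' : algebraMap R F b' * f = algebraMap R F A' * g' ^ p) :
    ∃ X Y : R, X ≠ 0 ∧ Y ≠ 0 ∧ b' * A * X ^ p = b * A' * Y ^ p := by
  have hinj := IsFractionRing.injective R F
  have hbF : algebraMap R F b ≠ 0 := (map_ne_zero_iff _ hinj).mpr hb
  have hb'F : algebraMap R F b' ≠ 0 := (map_ne_zero_iff _ hinj).mpr hb'
  have hg : g ≠ 0 := by
    rintro rfl
    rw [zero_pow hp, mul_zero] at e
    exact mul_ne_zero hbF hf e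
  have hg' : g' ≠ 0 := by
    rintro rfl
    rw [zero_pow hp, mul_zero] at e'
    exact mul_ne_zero hb'F hf e'
  obtain ⟨gn, gd, hgd, rfl⟩ := IsFractionRing.div_surjective R g
  obtain ⟨gn', gd', hgd', rfl⟩ := IsFractionRing.div_surjective R g'
  have hgd0 : gd ≠ 0 := nonZeroDivisors.ne_zero hgd
  have hgd'0 : gd' ≠ 0 := nonZeroDivisors.ne_zero hgd'
  have hgdF : algebraMap R F gd ≠ 0 := (map_ne_zero_iff _ hinj).mpr hgd0
  have hgd'F : algebraMap R F gd' ≠ 0 := (map_ne_zero_iff _ hinj).mpr hgd'0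
  have hgn0 : gn ≠ 0 := by
    rintro rfl
    exact hg (by simp)
  have hgn'0 : gn' ≠ 0 := by
    rintro rfl
    exact hg' (by simp)
  have h1 : algebraMap R F b * f * algebraMap R F gd ^ p
      = algebraMap R F A * algebraMap R F gn ^ p := by
    rw [e, div_pow]
    field_simp
  have h2 : algebraMap R F b' * f * algebraMap R F gd' ^ p
      = algebraMap R F A' * algebraMap R F gn' ^ p := by
    rw [e', div_pow]
    field_simp
  refine ⟨gn * gd', gn' * gd, mul_ne_zero hgn0 hgd'0, mul_ne_zero hgn'0 hgd0, ?_⟩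
  apply hinj
  simp only [map_mul, map_pow]
  linear_combination (-(algebraMap R F b' * algebraMap R F gd' ^ p)) * h1
    + (algebraMap R F b * algebraMap R F gd ^ p) * h2

/-- Field bookkeeping at a node: `u s ^ i t ^ j h ^ p = ϖ ^ M (u v⁻¹ ^ M) H ^ p` when
`i ≡ j ≡ M` modulo `p` (`ϖ = s t v`). -/
theorem f_eq_aux {K : Type*} [Field K] {p i j M α β α' β' : ℕ}
    (h1 : i + p * α = M + p * β) (h2 : j + p * α' = M + p * β')
    {S T V Vi xu h : K} (hS : S ≠ 0) (hT : T ≠ 0) (hV : V * Vi = 1) :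
    xu * S ^ i * T ^ j * h ^ p =
      (S * T * V) ^ M * (xu * Vi ^ M) * ((S ^ β * T ^ β' * h) / (S ^ α * T ^ α')) ^ p := by
  have eS : S ^ i * (S ^ α) ^ p = S ^ M * (S ^ β) ^ p := by
    rw [← pow_mul, ← pow_add, ← pow_mul, ← pow_add, mul_comm α p, mul_comm β p, h1]
  have eT : T ^ j * (T ^ α') ^ p = T ^ M * (T ^ β') ^ p := by
    rw [← pow_mul, ← pow_add, ← pow_mul, ← pow_add, mul_comm α' p, mul_comm β' p, h2]
  have eV : (V * Vi) ^ M = 1 := by rw [hV, one_pow]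
  have hden : S ^ α * T ^ α' ≠ 0 := mul_ne_zero (pow_ne_zero _ hS) (pow_ne_zero _ hT)
  rw [div_pow, mul_div_assoc', eq_div_iff (pow_ne_zero p hden)]
  linear_combination (exp := 1) (xu * h ^ p * T ^ j * (T ^ α') ^ p) * eS
    + (xu * h ^ p * S ^ M * (S ^ β) ^ p) * eT
    - (xu * S ^ M * T ^ M * (S ^ β) ^ p * (T ^ β') ^ p * h ^ p) * eV

/-- Field bookkeeping at a smooth point: `u ϖ ^ k h ^ p = ϖ ^ M u H ^ p` when `k ≡ M` modulo
`p`. -/
theorem f_eq_aux1 {K : Type*} [Field K] {p k M α β : ℕ} (h1 : k + p * α = M + p * β)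
    {S xu h : K} (hS : S ≠ 0) :
    xu * S ^ k * h ^ p = S ^ M * xu * ((S ^ β * h) / S ^ α) ^ p := by
  have eS : S ^ k * (S ^ α) ^ p = S ^ M * (S ^ β) ^ p := by
    rw [← pow_mul, ← pow_add, ← pow_mul, ← pow_add, mul_comm α p, mul_comm β p, h1]
  rw [div_pow, mul_div_assoc', eq_div_iff (pow_ne_zero p (pow_ne_zero _ hS))]
  linear_combination (exp := 1) (xu * h ^ p) * eS

end Frac

/-! ### Two forms on one branch -/

section BranchCmp

variable {O : Type*} [CommRing O] [IsDomain O] [IsDiscreteValuationRing O]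
  {R : Type*} [CommRing R] [IsDomain R] [IsNoetherianRing R] [Algebra O R]
  {F : Type*} [Field F] [Algebra R F] [IsFractionRing R F]

/-- **(BC) Two depth-`i` forms on one branch.**  `s` a prime element of `R` with `ϖ = s w`,
`s ∤ w`; `1 ≤ i ≤ top`.  If `f = c g ^ p (1 + ϖ ^ i a / b) = c' g' ^ p (1 + ϖ ^ i a' / b')`
(`s ∤ b`, `s ∤ b'`), then `c / c' ∈ (Frac O)ˣᵖ (1 + ϖ ^ i κ)` for some `κ ∈ O`, and for `i < top`
the leading terms satisfy `a' / b' ≡ a / b + κ` modulo `s`. -/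
theorem branch_cmp (p : ℕ) (hp : p.Prime) (top : ℕ) (h2top : 2 ≤ top)
    (ϖ : O) (hϖ : Irreducible ϖ) (hpϖ : ϖ ^ (top - 1) ∣ (p : O)) (htop : top ≤ p)
    (hperf : ∀ a : O, ∃ b : O, ϖ ∣ a - b ^ p)
    (s w : R) (hs : Prime s) (hsw : algebraMap O R ϖ = s * w) (hw : ¬ s ∣ w)
    (f : F) (hf : f ≠ 0) (i : ℕ) (hi1 : 1 ≤ i) (hi : i ≤ top)
    (c c' : O) (hc : c ≠ 0) (hc' : c' ≠ 0)
    (g g' : F) (a b a' b' : R) (hb : ¬ s ∣ b) (hb' : ¬ s ∣ b')
    (e : algebraMap R F b * f = algebraMap R F (algebraMap O R c) * g ^ p *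
      algebraMap R F (b + algebraMap O R ϖ ^ i * a))
    (e' : algebraMap R F b' * f = algebraMap R F (algebraMap O R c') * g' ^ p *
      algebraMap R F (b' + algebraMap O R ϖ ^ i * a')) :
    ∃ d d' κ : O, d ≠ 0 ∧ d' ≠ 0 ∧ c * d ^ p = c' * d' ^ p * (1 + ϖ ^ i * κ) ∧
      (i < top → s ∣ a * b' - a' * b + algebraMap O R κ * (b * b')) := by
  have hb0 : b ≠ 0 := fun h0 => hb (h0 ▸ dvd_zero s)
  have hb'0 : b' ≠ 0 := fun h0 => hb' (h0 ▸ dvd_zero s)
  have hw0 : w ≠ 0 := fun h0 => hw (h0 ▸ dvd_zero s)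
  have hsu : ∀ x : R, IsUnit x → ¬ s ∣ x := fun x hx hd =>
    hs.not_isUnit (isUnit_of_dvd_unit hd hx)
  have hswn : ∀ n : ℕ, ¬ s ∣ w ^ n := fun n hd => hw (hs.dvd_of_dvd_pow hd)
  -- the uniformiser in `R`
  obtain ⟨P, hP⟩ : ∃ P : R, P = algebraMap O R ϖ := ⟨_, rfl⟩
  rw [← hP] at e e' hsw
  have hsP : s ∣ P := ⟨w, hsw⟩
  have hPi : P ^ (i - 1) * P = P ^ i := pow_sub_one_mul (by omega) P
  obtain ⟨q, hq⟩ : ∃ q : R, P ^ i = s * q := ⟨w * P ^ (i - 1), by rw [← hPi, hsw]; ring⟩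
  have hsPi : s ^ i ∣ P ^ i := by rw [hsw, mul_pow]; exact dvd_mul_right _ _
  -- `p` in `R`
  obtain ⟨cp, hcp⟩ := hpϖ
  have hpR : (p : R) = (s * w) ^ (top - 1) * algebraMap O R cp := by
    rw [← hsw, hP, ← map_pow, ← map_mul, ← hcp, map_natCast]
  have hκs : s ^ (top - 1) ∣ (p : R) :=
    ⟨w ^ (top - 1) * algebraMap O R cp, by rw [hpR, mul_pow]; ring⟩
  have hsp : s ∣ (p : R) := (dvd_pow_self s (by omega : top - 1 ≠ 0)).trans hκs
  -- the two numerators
  obtain ⟨C, hC⟩ : ∃ C : R, C = b + P ^ i * a := ⟨_, rfl⟩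
  obtain ⟨C', hC'⟩ : ∃ C' : R, C' = b' + P ^ i * a' := ⟨_, rfl⟩
  rw [← hC] at e
  rw [← hC'] at e'
  have hCq : C = b + s * (q * a) := by rw [hC, hq]; ring
  have hC'q : C' = b' + s * (q * a') := by rw [hC', hq]; ring
  have hCs : ¬ s ∣ C := fun hd => hb (by
    rw [hCq] at hd
    exact (dvd_add_left (dvd_mul_right s _)).mp hd)
  have hC's : ¬ s ∣ C' := fun hd => hb' (by
    rw [hC'q] at hd
    exact (dvd_add_left (dvd_mul_right s _)).mp hd)
  -- the constants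
  obtain ⟨m, ε, hε⟩ := IsDiscreteValuationRing.eq_unit_mul_pow_irreducible hc hϖ
  obtain ⟨m', ε', hε'⟩ := IsDiscreteValuationRing.eq_unit_mul_pow_irreducible hc' hϖ
  have hcR : algebraMap O R c = algebraMap O R ε * w ^ m * s ^ m := by
    rw [hε, map_mul, map_pow, ← hP, hsw, mul_pow]; ring
  have hc'R : algebraMap O R c' = algebraMap O R ε' * w ^ m' * s ^ m' := by
    rw [hε', map_mul, map_pow, ← hP, hsw, mul_pow]; ring
  have hεu : IsUnit (algebraMap O R (ε : O)) := ε.isUnit.map (algebraMap O R)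
  have hε'u : IsUnit (algebraMap O R (ε' : O)) := ε'.isUnit.map (algebraMap O R)
  -- the relation in `R`
  obtain ⟨X₀, Y₀, hX₀, hY₀, E₀⟩ := exists_ring_eq (f := f) (g := g) (g' := g') hp.ne_zero hf
    hb0 hb'0 (A := algebraMap O R c * C) (A' := algebraMap O R c' * C')
    (by rw [e, map_mul]; ring) (by rw [e', map_mul]; ring)
  have hA : ¬ s ∣ b' * algebraMap O R ε * w ^ m * C := fun hd =>
    (hs.dvd_or_dvd hd).elim (fun hd => (hs.dvd_or_dvd hd).elim
      (fun hd => (hs.dvd_or_dvd hd).elim hb' (hsu _ hεu)) (hswn m)) hCs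
  have hB : ¬ s ∣ b * algebraMap O R ε' * w ^ m' * C' := fun hd =>
    (hs.dvd_or_dvd hd).elim (fun hd => (hs.dvd_or_dvd hd).elim
      (fun hd => (hs.dvd_or_dvd hd).elim hb (hsu _ hε'u)) (hswn m')) hC's
  obtain ⟨X₁, Y₁, α, β, hX₁, hY₁, eo, E₁⟩ := exists_reduced hs (p := p) (i := m) (m := m')
    hA hB hX₀ hY₀ (by rw [hcR, hc'R] at E₀; linear_combination E₀)
  -- remove the powers of `w`
  have hwpow : w ^ (m + p * α) = w ^ (m' + p * β) := by rw [eo]
  obtain ⟨X, hXdef⟩ : ∃ X : R, X = w ^ β * X₁ := ⟨_, rfl⟩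
  obtain ⟨Y, hYdef⟩ : ∃ Y : R, Y = w ^ α * Y₁ := ⟨_, rfl⟩
  have hXs : ¬ s ∣ X := fun hd => by
    rw [hXdef] at hd
    exact (hs.dvd_or_dvd hd).elim (hswn β) hX₁
  have E₂ : b' * algebraMap O R ε * C * X ^ p = b * algebraMap O R ε' * C' * Y ^ p := by
    rw [hXdef, hYdef]
    apply mul_left_cancel₀ (pow_ne_zero (m + p * α) hw0)
    linear_combination (exp := 1) (w ^ (p * α) * w ^ (p * β)) * E₁
      - (b * algebraMap O R ε' * C' * (w ^ α * Y₁) ^ p) * hwpow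
  -- `ε = ε' β₀ ^ p (1 + ϖ e₀)`
  obtain ⟨β₀, e₀, hβ₀, hη⟩ :=
    exists_eq_pow_mul_one_add hp.ne_zero hϖ hperf (ε * ε'⁻¹).isUnit
  have hεε : (ε : O) = ε' * β₀ ^ p * (1 + ϖ * e₀) := by
    have h3 : ((ε * ε'⁻¹ : Oˣ) : O) * (ε' : O) = ε := by
      rw [Units.val_mul, mul_assoc, Units.inv_mul, mul_one]
    rw [← h3, hη]; ring
  have hεR : algebraMap O R (ε : O)
      = algebraMap O R ε' * algebraMap O R β₀ ^ p * (1 + P * algebraMap O R e₀) := by
    rw [hεε, map_mul, map_mul, map_pow, map_add, map_one, map_mul, hP]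
  have hβ₀u : IsUnit (algebraMap O R β₀) := hβ₀.map (algebraMap O R)
  -- `Y ≡ β₀ X` modulo `s`
  have hdvd1 : s ∣ b * b' * algebraMap O R ε' * ((algebraMap O R β₀ * X) ^ p - Y ^ p) :=
    ⟨b * algebraMap O R ε' * Y ^ p * (q * a')
        - b' * algebraMap O R ε' * algebraMap O R β₀ ^ p * X ^ p
          * (w * algebraMap O R e₀ * C + q * a), by
      linear_combination E₂ - (b' * C * X ^ p) * hεR
        - (b' * algebraMap O R ε' * algebraMap O R β₀ ^ p * X ^ p) * hCq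
        + (b * algebraMap O R ε' * Y ^ p) * hC'q
        - (b' * algebraMap O R ε' * algebraMap O R β₀ ^ p * X ^ p * algebraMap O R e₀ * C) * hsw⟩
  have hdvd2 : s ∣ (algebraMap O R β₀ * X) ^ p - Y ^ p :=
    (hs.dvd_or_dvd hdvd1).resolve_left fun hd =>
      (hs.dvd_or_dvd hd).elim (fun hd => (hs.dvd_or_dvd hd).elim hb hb') (hsu _ hε'u)
  have hdvd3 : s ∣ Y - algebraMap O R β₀ * X :=
    dvd_sub_of_dvd_pow_sub_pow hp hs hsp ((dvd_sub_comm).mp hdvd2)
  obtain ⟨ρ, hρ⟩ := hdvd3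
  have hYeq : Y = algebraMap O R β₀ * X + s * ρ := by linear_combination hρ
  obtain ⟨Q, hQ⟩ := pow_top_dvd_add_pow_sub hp (by omega : 1 ≤ top) htop hκs
    (algebraMap O R β₀ * X) ρ
  rw [← hYeq] at hQ
  -- the key divisibility
  obtain ⟨D, hD⟩ : ∃ D : R, D = b' * (1 + P * algebraMap O R e₀) * C - b * C' := ⟨_, rfl⟩
  have hDtop : s ^ top ∣ D := by
    have h4 : s ^ top ∣ algebraMap O R ε' * (algebraMap O R β₀ ^ p * (X ^ p * D)) :=
      ⟨b * algebraMap O R ε' * C' * Q, by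
        linear_combination E₂ - (b' * C * X ^ p) * hεR + (b * algebraMap O R ε' * C') * hQ
          + (algebraMap O R ε' * algebraMap O R β₀ ^ p * X ^ p) * hD⟩
    have h5 := hs.pow_dvd_of_dvd_mul_left top (hsu _ hε'u) h4
    have h6 := hs.pow_dvd_of_dvd_mul_left top (hsu _ (hβ₀u.pow p)) h5
    exact hs.pow_dvd_of_dvd_mul_left top (fun hd => hXs (hs.dvd_of_dvd_pow hd)) h6
  -- `ϖ ^ (i - 1) ∣ e₀`
  have hDi : s ^ i ∣ D := (pow_dvd_pow s hi).trans hDtop
  have h7 : s ^ i ∣ s * (w * algebraMap O R e₀ * b * b') := by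
    have h8 : s * (w * algebraMap O R e₀ * b * b')
        = D - P ^ i * (a * b' - a' * b + P * algebraMap O R e₀ * a * b') := by
      linear_combination (-(b' * (1 + P * algebraMap O R e₀))) * hC + b * hC' - hD
        - (algebraMap O R e₀ * b * b') * hsw
    rw [h8]
    exact dvd_sub hDi (Dvd.dvd.mul_right hsPi _)
  have h9 : s ^ (i - 1) ∣ algebraMap O R e₀ := by
    have h10 : s ^ (i - 1) ∣ w * algebraMap O R e₀ * b * b' := by
      rw [← pow_sub_one_mul (by omega : i ≠ 0) s, mul_comm (s ^ (i - 1)) s] at h7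
      exact (mul_dvd_mul_iff_left hs.ne_zero).mp h7
    have h11 : s ^ (i - 1) ∣ algebraMap O R e₀ * (b * b' * w) := by
      have : algebraMap O R e₀ * (b * b' * w) = w * algebraMap O R e₀ * b * b' := by ring
      rw [this]; exact h10
    refine hs.pow_dvd_of_dvd_mul_right (i - 1) ?_ h11
    exact fun hd => (hs.dvd_or_dvd hd).elim (fun hd => (hs.dvd_or_dvd hd).elim hb hb') hw
  obtain ⟨κ, hκ⟩ := pow_dvd_of_pow_dvd_algebraMap hϖ hs (by rw [← hP]; exact hsw) hw h9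
  have hϖi : ϖ ^ (i - 1) * ϖ = ϖ ^ i := pow_sub_one_mul (by omega) ϖ
  have hεε' : (ε : O) = ε' * β₀ ^ p * (1 + ϖ ^ i * κ) := by
    rw [hεε, hκ]; linear_combination (ε' * β₀ ^ p * κ) * hϖi
  have hϖpow : ϖ ^ (m + p * α) = ϖ ^ (m' + p * β) := by rw [eo]
  refine ⟨ϖ ^ α, β₀ * ϖ ^ β, κ, pow_ne_zero _ hϖ.ne_zero,
    mul_ne_zero hβ₀.ne_zero (pow_ne_zero _ hϖ.ne_zero), ?_, ?_⟩
  · rw [hε, hε']
    linear_combination (exp := 1) (ϖ ^ (m + p * α)) * hεε'
      + (ε' * β₀ ^ p * (1 + ϖ ^ i * κ)) * hϖpow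
  · intro hlt
    have heR : algebraMap O R e₀ = P ^ (i - 1) * algebraMap O R κ := by
      rw [hκ, map_mul, map_pow, hP]
    obtain ⟨D₁, hD₁⟩ : ∃ D₁ : R, D₁ = algebraMap O R κ * (b * b') + a * b' - a' * b
        + P ^ i * algebraMap O R κ * a * b' := ⟨_, rfl⟩
    have hDD : D = s ^ i * (w ^ i * D₁) := by
      have h12 : P ^ i = s ^ i * w ^ i := by rw [hsw, mul_pow]
      linear_combination hD + (b' * P * C) * heR + (b' * algebraMap O R κ * C) * hPi
        + (b' * (1 + P ^ i * algebraMap O R κ)) * hC - b * hC' + D₁ * h12 - (P ^ i) * hD₁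
    have h13 : s ^ (i + 1) ∣ D := (pow_dvd_pow s (by omega)).trans hDtop
    rw [hDD, pow_succ] at h13
    have h14 : s ∣ w ^ i * D₁ := (mul_dvd_mul_iff_left (pow_ne_zero i hs.ne_zero)).mp h13
    have h15 : s ∣ D₁ := (hs.dvd_or_dvd h14).resolve_left (hswn i)
    have h16 : a * b' - a' * b + algebraMap O R κ * (b * b')
        = D₁ - s * (q * algebraMap O R κ * a * b') := by
      rw [hD₁, hq]; ring
    rw [h16]
    exact dvd_sub h15 (dvd_mul_right s _)

end BranchCmp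

/-! ### The unit case -/

section Core

variable {O : Type*} [CommRing O] [IsDomain O] [IsDiscreteValuationRing O]
  {R : Type*} [CommRing R] [IsDomain R] [IsLocalRing R] [IsNoetherianRing R] [Algebra O R]
  {F : Type*} [Field F] [Algebra R F] [IsFractionRing R F]

/-- From depth `i` with a constant leading term to depth `i + 1`. -/
theorem step_finish {p : ℕ} {ϖ : O} (hϖ : Irreducible ϖ) {u γ r r' : R} {c κ : O}
    (hc : IsUnit c) {i : ℕ} (hi : 1 ≤ i)
    (hu : u = algebraMap O R c * γ ^ p * (1 + algebraMap O R ϖ ^ i * r))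
    (hr : r + algebraMap O R κ = algebraMap O R ϖ * r') :
    ∃ (c' : O) (r'' : R), IsUnit c' ∧
      u = algebraMap O R c' * γ ^ p * (1 + algebraMap O R ϖ ^ (i + 1) * r'') := by
  have hm : ϖ ^ i * κ ∈ nonunits O := by
    have hϖm : ϖ ∈ maximalIdeal O := hϖ.not_isUnit
    have h1 : ϖ ^ i * κ ∈ maximalIdeal O :=
      Ideal.mul_mem_right _ _ (Ideal.pow_mem_of_mem _ hϖm _ (by omega))
    exact h1
  obtain ⟨ω, hω⟩ := IsLocalRing.isUnit_one_sub_self_of_mem_nonunits _ hm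
  have hωR : algebraMap O R (ω : O) = 1 - algebraMap O R ϖ ^ i * algebraMap O R κ := by
    rw [hω, map_sub, map_one, map_mul, map_pow]
  have hωω : algebraMap O R (ω : O) * algebraMap O R ((ω⁻¹ : Oˣ) : O) = 1 := by
    rw [← map_mul, Units.mul_inv, map_one]
  refine ⟨c * ω, r' * algebraMap O R ((ω⁻¹ : Oˣ) : O), hc.mul ω.isUnit, ?_⟩
  rw [hu, map_mul]
  linear_combination (algebraMap O R c * γ ^ p * algebraMap O R ϖ ^ i) * hr
    - (algebraMap O R c * γ ^ p) * hωR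
    - (algebraMap O R c * γ ^ p * algebraMap O R ϖ ^ (i + 1) * r') * hωω

/-- Depth one from `u ≡ γ ^ p` modulo `ϖ`. -/
theorem unit_base {p : ℕ} {ϖ : O} {u γ z : R} (hu : IsUnit u)
    (hPm : algebraMap O R ϖ ∈ maximalIdeal R)
    (h : u = γ ^ p + algebraMap O R ϖ * z) :
    ∃ (c : O) (γ' r : R), IsUnit c ∧
      u = algebraMap O R c * γ' ^ p * (1 + algebraMap O R ϖ ^ 1 * r) := by
  have hγu : IsUnit (γ ^ p) := by
    have h5 : IsUnit (γ ^ p + algebraMap O R ϖ * z) := h ▸ hu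
    rcases IsLocalRing.isUnit_or_isUnit_of_isUnit_add h5 with h6 | h6
    · exact h6
    · exfalso
      have h7 : algebraMap O R ϖ * z ∈ maximalIdeal R := Ideal.mul_mem_right _ _ hPm
      exact h7 h6
  obtain ⟨ω, hω⟩ := hγu
  have hωω : (ω : R) * ((ω⁻¹ : Rˣ) : R) = 1 := Units.mul_inv ω
  refine ⟨1, γ, z * ((ω⁻¹ : Rˣ) : R), isUnit_one, ?_⟩
  rw [h, map_one, pow_one]
  linear_combination (-(algebraMap O R ϖ * z)) * hωω
    + (algebraMap O R ϖ * z * ((ω⁻¹ : Rˣ) : R)) * hω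

/-- **HD-local for a unit, regular node.** -/
theorem unit_node (p : ℕ) (hp : p.Prime) (top : ℕ) (h2top : 2 ≤ top)
    (ϖ : O) (hϖ : Irreducible ϖ) (hpϖ : ϖ ^ (top - 1) ∣ (p : O)) (htop : top ≤ p)
    (hperf : ∀ a : O, ∃ b : O, ϖ ∣ a - b ^ p)
    (s t : R) (hs : Prime s) (ht : Prime t) (hne : ¬ Associated s t)
    (hm : maximalIdeal R = Ideal.span {s, t})
    (hst : Associated (s * t) (algebraMap O R ϖ))
    (u : R) (hu : IsUnit u) (j : ℕ) (hj1 : 1 ≤ j) (hj : j ≤ top)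
    (ε₁ ε₂ : O) (hε₁ : IsUnit ε₁) (hε₂ : IsUnit ε₂)
    (hbr₁ : ∃ (g : F) (a b : R), ¬ s ∣ b ∧ algebraMap R F b * algebraMap R F u =
      algebraMap R F (algebraMap O R ε₁) * g ^ p *
        algebraMap R F (b + algebraMap O R ϖ ^ j * a))
    (hbr₂ : ∃ (g : F) (a b : R), ¬ t ∣ b ∧ algebraMap R F b * algebraMap R F u =
      algebraMap R F (algebraMap O R ε₂) * g ^ p *
        algebraMap R F (b + algebraMap O R ϖ ^ j * a)) :
    ∃ (c : O) (γ r : R), IsUnit c ∧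
      u = algebraMap O R c * γ ^ p * (1 + algebraMap O R ϖ ^ j * r) := by
  obtain ⟨v, hv⟩ := hst
  have hsnt : ¬ s ∣ t := not_dvd_of_not_associated hs ht hne
  have htns : ¬ t ∣ s := not_dvd_of_not_associated ht hs (fun h => hne h.symm)
  have hm' : maximalIdeal R = Ideal.span {t, s} := by rw [hm, Set.pair_comm]
  have hsm : s ∈ maximalIdeal R := mem_maximalIdeal_left hm
  have htm : t ∈ maximalIdeal R := mem_maximalIdeal_right hm
  have hinj := IsFractionRing.injective R F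
  have hsu : ∀ x : R, IsUnit x → ¬ s ∣ x := fun x hx hd =>
    hs.not_isUnit (isUnit_of_dvd_unit hd hx)
  have htu : ∀ x : R, IsUnit x → ¬ t ∣ x := fun x hx hd =>
    ht.not_isUnit (isUnit_of_dvd_unit hd hx)
  have hvv : (v : R) * ((v⁻¹ : Rˣ) : R) = 1 := Units.mul_inv v
  have hsw : algebraMap O R ϖ = s * (t * v) := by rw [← hv]; ring
  have htw : algebraMap O R ϖ = t * (s * v) := by rw [← hv]; ring
  have hsw' : ¬ s ∣ t * v := fun hd => (hs.dvd_or_dvd hd).elim hsnt (hsu _ v.isUnit)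
  have htw' : ¬ t ∣ s * v := fun hd => (ht.dvd_or_dvd hd).elim htns (htu _ v.isUnit)
  have hPm : algebraMap O R ϖ ∈ maximalIdeal R := by
    rw [hsw]; exact Ideal.mul_mem_right _ _ hsm
  have hsP : ∀ n : ℕ, n ≠ 0 → s ∣ algebraMap O R ϖ ^ n := fun n hn => dvd_pow ⟨t * v, hsw⟩ hn
  have htP : ∀ n : ℕ, n ≠ 0 → t ∣ algebraMap O R ϖ ^ n := fun n hn => dvd_pow ⟨s * v, htw⟩ hn
  have hpm : (p : R) ∈ maximalIdeal R := by
    obtain ⟨cp, hcp⟩ := hpϖ
    have hpR : (p : R) = algebraMap O R ϖ ^ (top - 1) * algebraMap O R cp := by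
      rw [← map_pow, ← map_mul, ← hcp, map_natCast]
    rw [hpR]
    exact Ideal.mul_mem_right _ _ (Ideal.pow_mem_of_mem _ hPm _ (by omega))
  obtain ⟨g₁, A₁, b₁, hb₁, h₁⟩ := hbr₁
  obtain ⟨g₂, A₂, b₂, hb₂, h₂⟩ := hbr₂
  have huF : algebraMap R F u ≠ 0 := (map_ne_zero_iff _ hinj).mpr hu.ne_zero
  -- depth one: glue the two branch roots at the node
  have hbase : ∃ γ z : R, u = γ ^ p + algebraMap O R ϖ * z := by
    have hc₁ : ¬ s ∣ b₁ + algebraMap O R ϖ ^ j * A₁ := fun hd =>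
      hb₁ ((dvd_add_left (Dvd.dvd.mul_right (hsP j (by omega)) _)).mp hd)
    have hc₂ : ¬ t ∣ b₂ + algebraMap O R ϖ ^ j * A₂ := fun hd =>
      hb₂ ((dvd_add_left (Dvd.dvd.mul_right (htP j (by omega)) _)).mp hd)
    obtain ⟨β₁, a₁, hβ₁, e₁⟩ := exists_eq_pow_mul_one_add hp.ne_zero hϖ hperf hε₁
    obtain ⟨β₂, a₂, hβ₂, e₂⟩ := exists_eq_pow_mul_one_add hp.ne_zero hϖ hperf hε₂
    have e₁R : algebraMap O R ε₁ =
        algebraMap O R β₁ ^ p * (1 + algebraMap O R ϖ * algebraMap O R a₁) := by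
      rw [e₁, map_mul, map_pow, map_add, map_one, map_mul]
    have e₂R : algebraMap O R ε₂ =
        algebraMap O R β₂ ^ p * (1 + algebraMap O R ϖ * algebraMap O R a₂) := by
      rw [e₂, map_mul, map_pow, map_add, map_one, map_mul]
    obtain ⟨X₁, Y₁, hX₁, hY₁, E₁⟩ :=
      exists_branch_eq hp.ne_zero hs hu (hε₁.map (algebraMap O R)) hb₁ hc₁ h₁
    obtain ⟨X₂, Y₂, hX₂, hY₂, E₂⟩ :=
      exists_branch_eq hp.ne_zero ht hu (hε₂.map (algebraMap O R)) hb₂ hc₂ h₂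
    have E₁' : b₁ * u * X₁ ^ p = (1 + algebraMap O R ϖ * algebraMap O R a₁) *
        (b₁ + algebraMap O R ϖ ^ j * A₁) * (algebraMap O R β₁ * Y₁) ^ p := by
      rw [E₁, e₁R]; ring
    have E₂' : b₂ * u * X₂ ^ p = (1 + algebraMap O R ϖ * algebraMap O R a₂) *
        (b₂ + algebraMap O R ϖ ^ j * A₂) * (algebraMap O R β₂ * Y₂) ^ p := by
      rw [E₂, e₂R]; ring
    obtain ⟨q₁, hq₁⟩ := hsP j (by omega)
    obtain ⟨q₂, hq₂⟩ := htP j (by omega)
    obtain ⟨γ₁, -, hγ₁u⟩ := exists_root_mod hp.ne_zero hs hm hb₁ hX₁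
      (c := (1 + algebraMap O R ϖ * algebraMap O R a₁) * (b₁ + algebraMap O R ϖ ^ j * A₁))
      ⟨t * v * algebraMap O R a₁ * (b₁ + algebraMap O R ϖ ^ j * A₁) + q₁ * A₁, by
        linear_combination (algebraMap O R a₁ * (b₁ + algebraMap O R ϖ ^ j * A₁)) * hsw
          + A₁ * hq₁⟩ E₁'
    obtain ⟨γ₂, -, hγ₂u⟩ := exists_root_mod hp.ne_zero ht hm' hb₂ hX₂
      (c := (1 + algebraMap O R ϖ * algebraMap O R a₂) * (b₂ + algebraMap O R ϖ ^ j * A₂))
      ⟨s * v * algebraMap O R a₂ * (b₂ + algebraMap O R ϖ ^ j * A₂) + q₂ * A₂, by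
        linear_combination (algebraMap O R a₂ * (b₂ + algebraMap O R ϖ ^ j * A₂)) * htw
          + A₂ * hq₂⟩ E₂'
    have hγm : γ₁ - γ₂ ∈ maximalIdeal R := by
      obtain ⟨r, hr⟩ := exists_add_pow_prime_eq hp (γ₁ - γ₂) γ₂
      rw [sub_add_cancel] at hr
      obtain ⟨x₁, hx₁⟩ := hγ₁u
      obtain ⟨x₂, hx₂⟩ := hγ₂u
      have h3 : (γ₁ - γ₂) ^ p = t * x₂ - s * x₁ - (p : R) * ((γ₁ - γ₂) * γ₂ * r) := by
        linear_combination -hr + hx₂ - hx₁
      have h4 : (γ₁ - γ₂) ^ p ∈ maximalIdeal R := by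
        rw [h3]
        exact Ideal.sub_mem _ (Ideal.sub_mem _ (Ideal.mul_mem_right _ _ htm)
          (Ideal.mul_mem_right _ _ hsm)) (Ideal.mul_mem_right _ _ hpm)
      exact (maximalIdeal.isMaximal R).isPrime.mem_of_pow_mem p h4
    rw [hm, Ideal.mem_span_pair] at hγm
    obtain ⟨α, β, hαβ⟩ := hγm
    obtain ⟨γ, hγ⟩ : ∃ γ : R, γ = γ₁ - α * s := ⟨_, rfl⟩
    have hsγ : s ∣ γ₁ - γ := ⟨α, by rw [hγ]; ring⟩
    have htγ : t ∣ γ₂ - γ := ⟨-β, by rw [hγ]; linear_combination hαβ⟩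
    have hsu' : s ∣ u - γ ^ p := by
      have h5 : u - γ ^ p = (u - γ₁ ^ p) + (γ₁ ^ p - γ ^ p) := by ring
      rw [h5]
      exact dvd_add hγ₁u (hsγ.trans (sub_dvd_pow_sub_pow γ₁ γ p))
    have htu' : t ∣ u - γ ^ p := by
      have h5 : u - γ ^ p = (u - γ₂ ^ p) + (γ₂ ^ p - γ ^ p) := by ring
      rw [h5]
      exact dvd_add hγ₂u (htγ.trans (sub_dvd_pow_sub_pow γ₂ γ p))
    obtain ⟨x₁, hx₁⟩ := hsu'
    have htx₁ : t ∣ x₁ := (ht.dvd_or_dvd (hx₁ ▸ htu')).resolve_left htns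
    obtain ⟨x₂, rfl⟩ := htx₁
    refine ⟨γ, ((v⁻¹ : Rˣ) : R) * x₂, ?_⟩
    rw [← hv]
    linear_combination hx₁ - s * t * x₂ * hvv
  obtain ⟨γ, z, hγz⟩ := hbase
  -- induction on the depth
  have key : ∀ i, 1 ≤ i → i ≤ j → ∃ (c : O) (γ' r : R), IsUnit c ∧
      u = algebraMap O R c * γ' ^ p * (1 + algebraMap O R ϖ ^ i * r) := by
    intro i hi1
    induction i, hi1 using Nat.le_induction with
    | base => intro _; exact unit_base hu hPm hγz
    | succ i hi1 ih =>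
      intro hij
      obtain ⟨c, γ', r, hcu, hur⟩ := ih (by omega)
      have hjs : algebraMap O R ϖ ^ j = algebraMap O R ϖ ^ i * algebraMap O R ϖ ^ (j - i) := by
        rw [← pow_add]; congr 1; omega
      have eA : algebraMap R F 1 * algebraMap R F u = algebraMap R F (algebraMap O R c) *
          algebraMap R F γ' ^ p * algebraMap R F (1 + algebraMap O R ϖ ^ i * r) := by
        have h30 := congrArg (algebraMap R F) hur
        simp only [map_mul, map_pow] at h30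
        rw [map_one, one_mul]
        exact h30
      have eB₁ : algebraMap R F b₁ * algebraMap R F u = algebraMap R F (algebraMap O R ε₁) *
          g₁ ^ p * algebraMap R F (b₁ + algebraMap O R ϖ ^ i *
            (algebraMap O R ϖ ^ (j - i) * A₁)) := by
        have h31 : b₁ + algebraMap O R ϖ ^ i * (algebraMap O R ϖ ^ (j - i) * A₁)
            = b₁ + algebraMap O R ϖ ^ j * A₁ := by rw [hjs]; ring
        rw [h31]; exact h₁
      have eB₂ : algebraMap R F b₂ * algebraMap R F u = algebraMap R F (algebraMap O R ε₂) *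
          g₂ ^ p * algebraMap R F (b₂ + algebraMap O R ϖ ^ i *
            (algebraMap O R ϖ ^ (j - i) * A₂)) := by
        have h31 : b₂ + algebraMap O R ϖ ^ i * (algebraMap O R ϖ ^ (j - i) * A₂)
            = b₂ + algebraMap O R ϖ ^ j * A₂ := by rw [hjs]; ring
        rw [h31]; exact h₂
      obtain ⟨-, -, κ₁, -, -, -, hκ₁⟩ := branch_cmp (F := F) p hp top h2top ϖ hϖ hpϖ htop hperf
        s (t * v) hs hsw hsw' (algebraMap R F u) huF i hi1 (by omega) c ε₁ hcu.ne_zero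
        hε₁.ne_zero (algebraMap R F γ') g₁ r 1 (algebraMap O R ϖ ^ (j - i) * A₁) b₁
        (hsu _ isUnit_one) hb₁ eA eB₁
      obtain ⟨-, -, κ₂, -, -, -, hκ₂⟩ := branch_cmp (F := F) p hp top h2top ϖ hϖ hpϖ htop hperf
        t (s * v) ht htw htw' (algebraMap R F u) huF i hi1 (by omega) c ε₂ hcu.ne_zero
        hε₂.ne_zero (algebraMap R F γ') g₂ r 1 (algebraMap O R ϖ ^ (j - i) * A₂) b₂
        (htu _ isUnit_one) hb₂ eA eB₂
      have hs₁ : s ∣ r + algebraMap O R κ₁ := by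
        have h20 : s ∣ b₁ * (r + algebraMap O R κ₁) := by
          have h21 : b₁ * (r + algebraMap O R κ₁)
              = (r * b₁ - algebraMap O R ϖ ^ (j - i) * A₁ * 1 + algebraMap O R κ₁ * (1 * b₁))
                + algebraMap O R ϖ ^ (j - i) * A₁ := by ring
          rw [h21]
          exact dvd_add (hκ₁ (by omega)) (Dvd.dvd.mul_right (hsP (j - i) (by omega)) _)
        exact (hs.dvd_or_dvd h20).resolve_left hb₁
      have ht₂ : t ∣ r + algebraMap O R κ₂ := by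
        have h20 : t ∣ b₂ * (r + algebraMap O R κ₂) := by
          have h21 : b₂ * (r + algebraMap O R κ₂)
              = (r * b₂ - algebraMap O R ϖ ^ (j - i) * A₂ * 1 + algebraMap O R κ₂ * (1 * b₂))
                + algebraMap O R ϖ ^ (j - i) * A₂ := by ring
          rw [h21]
          exact dvd_add (hκ₂ (by omega)) (Dvd.dvd.mul_right (htP (j - i) (by omega)) _)
        exact (ht.dvd_or_dvd h20).resolve_left hb₂
      have hmem : algebraMap O R (κ₁ - κ₂) ∈ maximalIdeal R := by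
        obtain ⟨y₁, hy₁⟩ := hs₁
        obtain ⟨y₂, hy₂⟩ := ht₂
        have h22 : algebraMap O R (κ₁ - κ₂) = s * y₁ - t * y₂ := by
          rw [map_sub]; linear_combination hy₁ - hy₂
        rw [h22]
        exact Ideal.sub_mem _ (Ideal.mul_mem_right _ _ hsm) (Ideal.mul_mem_right _ _ htm)
      have hnu : ¬ IsUnit (κ₁ - κ₂) := fun hu' => hmem (hu'.map (algebraMap O R))
      have hϖκ : ϖ ∣ κ₁ - κ₂ := by
        have h23 : κ₁ - κ₂ ∈ maximalIdeal O := hnu
        rwa [hϖ.maximalIdeal_eq, Ideal.mem_span_singleton] at h23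
      obtain ⟨x, hx⟩ := hϖκ
      have hs₂ : s ∣ r + algebraMap O R κ₂ := by
        have h24 := congrArg (algebraMap O R) hx
        rw [map_sub, map_mul] at h24
        have h25 : r + algebraMap O R κ₂
            = (r + algebraMap O R κ₁) - algebraMap O R ϖ * algebraMap O R x := by
          linear_combination -h24
        rw [h25]
        exact dvd_sub hs₁ (Dvd.dvd.mul_right ⟨t * v, hsw⟩ _)
      obtain ⟨y₁, hy₁⟩ := hs₂
      have hty : t ∣ y₁ := (ht.dvd_or_dvd (hy₁ ▸ ht₂)).resolve_left htns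
      obtain ⟨y₂, rfl⟩ := hty
      have hr : r + algebraMap O R κ₂ = algebraMap O R ϖ * (((v⁻¹ : Rˣ) : R) * y₂) := by
        rw [hy₁, ← hv]
        linear_combination (-(s * t * y₂)) * hvv
      obtain ⟨c', r'', hc'u, hu'⟩ := step_finish hϖ hcu hi1 hur hr
      exact ⟨c', γ', r'', hc'u, hu'⟩
  exact key j hj1 le_rfl

/-- **HD-local for a unit, smooth point.** -/
theorem unit_smooth (p : ℕ) (hp : p.Prime) (top : ℕ) (h2top : 2 ≤ top)
    (ϖ : O) (hϖ : Irreducible ϖ) (hpϖ : ϖ ^ (top - 1) ∣ (p : O)) (htop : top ≤ p)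
    (hperf : ∀ a : O, ∃ b : O, ϖ ∣ a - b ^ p)
    (z : R) (hπ : Prime (algebraMap O R ϖ))
    (hm : maximalIdeal R = Ideal.span {algebraMap O R ϖ, z})
    (u : R) (hu : IsUnit u) (j : ℕ) (hj1 : 1 ≤ j) (hj : j ≤ top)
    (ε₁ : O) (hε₁ : IsUnit ε₁)
    (hbr : ∃ (g : F) (a b : R), ¬ algebraMap O R ϖ ∣ b ∧
      algebraMap R F b * algebraMap R F u =
        algebraMap R F (algebraMap O R ε₁) * g ^ p *
          algebraMap R F (b + algebraMap O R ϖ ^ j * a)) :
    ∃ (c : O) (γ r : R), IsUnit c ∧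
      u = algebraMap O R c * γ ^ p * (1 + algebraMap O R ϖ ^ j * r) := by
  have hinj := IsFractionRing.injective R F
  have hPm : algebraMap O R ϖ ∈ maximalIdeal R := mem_maximalIdeal_left hm
  have hPu : ∀ x : R, IsUnit x → ¬ algebraMap O R ϖ ∣ x := fun x hx hd =>
    hπ.not_isUnit (isUnit_of_dvd_unit hd hx)
  have hPP : ∀ n : ℕ, n ≠ 0 → algebraMap O R ϖ ∣ algebraMap O R ϖ ^ n :=
    fun n hn => dvd_pow_self _ hn
  obtain ⟨g₁, A₁, b₁, hb₁, h₁⟩ := hbr
  have huF : algebraMap R F u ≠ 0 := (map_ne_zero_iff _ hinj).mpr hu.ne_zero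
  have hbase : ∃ γ z' : R, u = γ ^ p + algebraMap O R ϖ * z' := by
    have hc₁ : ¬ algebraMap O R ϖ ∣ b₁ + algebraMap O R ϖ ^ j * A₁ := fun hd =>
      hb₁ ((dvd_add_left (Dvd.dvd.mul_right (hPP j (by omega)) _)).mp hd)
    obtain ⟨β₁, a₁, hβ₁, e₁⟩ := exists_eq_pow_mul_one_add hp.ne_zero hϖ hperf hε₁
    have e₁R : algebraMap O R ε₁ =
        algebraMap O R β₁ ^ p * (1 + algebraMap O R ϖ * algebraMap O R a₁) := by
      rw [e₁, map_mul, map_pow, map_add, map_one, map_mul]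
    obtain ⟨X₁, Y₁, hX₁, hY₁, E₁⟩ :=
      exists_branch_eq hp.ne_zero hπ hu (hε₁.map (algebraMap O R)) hb₁ hc₁ h₁
    have E₁' : b₁ * u * X₁ ^ p = (1 + algebraMap O R ϖ * algebraMap O R a₁) *
        (b₁ + algebraMap O R ϖ ^ j * A₁) * (algebraMap O R β₁ * Y₁) ^ p := by
      rw [E₁, e₁R]; ring
    obtain ⟨q₁, hq₁⟩ := hPP j (by omega)
    obtain ⟨γ₁, -, hγ₁u⟩ := exists_root_mod hp.ne_zero hπ hm hb₁ hX₁
      (c := (1 + algebraMap O R ϖ * algebraMap O R a₁) * (b₁ + algebraMap O R ϖ ^ j * A₁))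
      ⟨algebraMap O R a₁ * (b₁ + algebraMap O R ϖ ^ j * A₁) + q₁ * A₁, by
        linear_combination A₁ * hq₁⟩ E₁'
    obtain ⟨x₁, hx₁⟩ := hγ₁u
    exact ⟨γ₁, x₁, by linear_combination hx₁⟩
  obtain ⟨γ, z', hγz⟩ := hbase
  have key : ∀ i, 1 ≤ i → i ≤ j → ∃ (c : O) (γ' r : R), IsUnit c ∧
      u = algebraMap O R c * γ' ^ p * (1 + algebraMap O R ϖ ^ i * r) := by
    intro i hi1
    induction i, hi1 using Nat.le_induction with
    | base => intro _; exact unit_base hu hPm hγz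
    | succ i hi1 ih =>
      intro hij
      obtain ⟨c, γ', r, hcu, hur⟩ := ih (by omega)
      have hjs : algebraMap O R ϖ ^ j = algebraMap O R ϖ ^ i * algebraMap O R ϖ ^ (j - i) := by
        rw [← pow_add]; congr 1; omega
      have eA : algebraMap R F 1 * algebraMap R F u = algebraMap R F (algebraMap O R c) *
          algebraMap R F γ' ^ p * algebraMap R F (1 + algebraMap O R ϖ ^ i * r) := by
        have h30 := congrArg (algebraMap R F) hur
        simp only [map_mul, map_pow] at h30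
        rw [map_one, one_mul]
        exact h30
      have eB₁ : algebraMap R F b₁ * algebraMap R F u = algebraMap R F (algebraMap O R ε₁) *
          g₁ ^ p * algebraMap R F (b₁ + algebraMap O R ϖ ^ i *
            (algebraMap O R ϖ ^ (j - i) * A₁)) := by
        have h31 : b₁ + algebraMap O R ϖ ^ i * (algebraMap O R ϖ ^ (j - i) * A₁)
            = b₁ + algebraMap O R ϖ ^ j * A₁ := by rw [hjs]; ring
        rw [h31]; exact h₁
      obtain ⟨-, -, κ₁, -, -, -, hκ₁⟩ := branch_cmp (F := F) p hp top h2top ϖ hϖ hpϖ htop hperf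
        (algebraMap O R ϖ) 1 hπ (mul_one _).symm (hPu _ isUnit_one) (algebraMap R F u) huF i hi1
        (by omega) c ε₁ hcu.ne_zero hε₁.ne_zero (algebraMap R F γ') g₁ r 1
        (algebraMap O R ϖ ^ (j - i) * A₁) b₁ (hPu _ isUnit_one) hb₁ eA eB₁
      have hs₁ : algebraMap O R ϖ ∣ r + algebraMap O R κ₁ := by
        have h20 : algebraMap O R ϖ ∣ b₁ * (r + algebraMap O R κ₁) := by
          have h21 : b₁ * (r + algebraMap O R κ₁)
              = (r * b₁ - algebraMap O R ϖ ^ (j - i) * A₁ * 1 + algebraMap O R κ₁ * (1 * b₁))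
                + algebraMap O R ϖ ^ (j - i) * A₁ := by ring
          rw [h21]
          exact dvd_add (hκ₁ (by omega)) (Dvd.dvd.mul_right (hPP (j - i) (by omega)) _)
        exact (hπ.dvd_or_dvd h20).resolve_left hb₁
      obtain ⟨r', hr⟩ := hs₁
      obtain ⟨c', r'', hc'u, hu'⟩ := step_finish hϖ hcu hi1 hur hr
      exact ⟨c', γ', r'', hc'u, hu'⟩
  exact key j hj1 le_rfl

end Core

/-! ### Orders on a branch, general numerator -/

section Orders

variable {R : Type*} [CommRing R] [IsDomain R] [IsLocalRing R] [IsNoetherianRing R]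
  {F : Type*} [Field F] [Algebra R F] [IsFractionRing R F]

/-- `S44/L/Node.exists_orders` with an arbitrary numerator `c ≡ b` modulo `s`. -/
theorem exists_orders_gen {p : ℕ} (hp : p ≠ 0) {s t : R} (hs : Prime s) (ht : Prime t)
    (hne : ¬ Associated s t) (hm : maximalIdeal R = Ideal.span {s, t}) (v u : Rˣ)
    {i j m : ℕ} {w : R} (hw : IsUnit w) {h g : F} (hh : h ≠ 0) {b c : R} (hb : ¬ s ∣ b)
    (hcb : s ∣ c - b)
    (e : algebraMap R F b *
        (algebraMap R F u * algebraMap R F s ^ i * algebraMap R F t ^ j * h ^ p) =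
      algebraMap R F (w * (s * t * v) ^ m) * g ^ p * algebraMap R F c) :
    ∃ α β α' β' : ℕ, i + p * α = m + p * β ∧ j + p * α' = m + p * β' := by
  have hinj := IsFractionRing.injective R F
  have hsnt : ¬ s ∣ t := not_dvd_of_not_associated hs ht hne
  have hb0 : b ≠ 0 := fun h0 => hb (h0 ▸ dvd_zero s)
  have hc : ¬ s ∣ c := by
    intro hd
    apply hb
    have h1 : b = c - (c - b) := by ring
    rw [h1]
    exact dvd_sub hd hcb
  have hsu : ∀ x : R, IsUnit x → ¬ s ∣ x := fun x hx hd =>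
    hs.not_isUnit (isUnit_of_dvd_unit hd hx)
  obtain ⟨hn, hd, hhd, rfl⟩ := IsFractionRing.div_surjective R h
  obtain ⟨gn, gd, hgd, rfl⟩ := IsFractionRing.div_surjective R g
  have hhd0 : hd ≠ 0 := nonZeroDivisors.ne_zero hhd
  have hgd0 : gd ≠ 0 := nonZeroDivisors.ne_zero hgd
  have hhdF : algebraMap R F hd ≠ 0 := (map_ne_zero_iff _ hinj).mpr hhd0
  have hgdF : algebraMap R F gd ≠ 0 := (map_ne_zero_iff _ hinj).mpr hgd0
  have hhn0 : hn ≠ 0 := by
    rintro rfl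
    exact hh (by simp)
  have eR : (b * u * t ^ j) * s ^ i * (hn * gd) ^ p
      = (w * t ^ m * (v : R) ^ m * c) * s ^ m * (gn * hd) ^ p := by
    apply hinj
    simp only [map_mul, map_pow] at e ⊢
    rw [div_pow, div_pow] at e
    field_simp at e
    linear_combination e
  have hgn0 : gn ≠ 0 := by
    rintro rfl
    rw [zero_mul, zero_pow hp, mul_zero] at eR
    refine mul_ne_zero (mul_ne_zero (mul_ne_zero (mul_ne_zero hb0 u.ne_zero)
      (pow_ne_zero _ ht.ne_zero)) (pow_ne_zero _ hs.ne_zero))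
      (pow_ne_zero _ (mul_ne_zero hhn0 hgd0)) eR
  have hA : ¬ s ∣ b * u * t ^ j := fun hd' =>
    (hs.dvd_or_dvd hd').elim (fun hd'' => (hs.dvd_or_dvd hd'').elim hb (hsu _ u.isUnit))
      (fun hd'' => hsnt (hs.dvd_of_dvd_pow hd''))
  have hB : ¬ s ∣ w * t ^ m * (v : R) ^ m * c := fun hd' =>
    (hs.dvd_or_dvd hd').elim (fun hd'' => (hs.dvd_or_dvd hd'').elim
      (fun hd3 => (hs.dvd_or_dvd hd3).elim (hsu _ hw)
        (fun hd4 => hsnt (hs.dvd_of_dvd_pow hd4)))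
      (hsu _ (v.isUnit.pow m))) hc
  obtain ⟨X, Y, α, β, hX, hY, e1, e2⟩ :=
    exists_reduced hs hA hB (mul_ne_zero hhn0 hgd0) (mul_ne_zero hgn0 hhd0) eR
  refine ⟨α, β, ?_⟩
  haveI : IsDomain (R ⧸ Ideal.span {s}) := isDomain_quot hs
  set mk := Ideal.Quotient.mk (Ideal.span {s}) with hmk
  have hb' : mk b ≠ 0 := fun h0 => hb (mk_eq_zero_iff.mp h0)
  have hX' : mk X ≠ 0 := fun h0 => hX (mk_eq_zero_iff.mp h0)
  have hY' : mk Y ≠ 0 := fun h0 => hY (mk_eq_zero_iff.mp h0)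
  have hpt : Prime (mk t) := prime_mk hs ht hne hm
  have hcb' : mk c = mk b := by
    rw [← sub_eq_zero, ← map_sub, mk_eq_zero_iff]
    exact hcb
  have e3 : mk u * mk t ^ j * mk X ^ p = (mk w * mk (v : R) ^ m) * mk t ^ m * mk Y ^ p := by
    have h5 := congrArg mk e2
    simp only [map_mul, map_pow] at h5
    rw [hcb'] at h5
    apply mul_left_cancel₀ hb'
    linear_combination h5
  have hA' : ¬ mk t ∣ mk u := fun hd' =>
    hpt.not_isUnit (isUnit_of_dvd_unit hd' (u.isUnit.map mk))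
  have hB' : ¬ mk t ∣ mk w * mk (v : R) ^ m := fun hd' =>
    hpt.not_isUnit (isUnit_of_dvd_unit hd' ((hw.map mk).mul ((v.isUnit.map mk).pow m)))
  obtain ⟨X₂, Y₂, α', β', -, -, e4, -⟩ := exists_reduced hpt hA' hB' hX' hY' e3
  exact ⟨α', β', e1, e4⟩

end Orders

/-! ### HD-local -/

section Main

variable {O : Type*} [CommRing O] [IsDomain O] [IsDiscreteValuationRing O]
  {R : Type*} [CommRing R] [IsDomain R] [IsLocalRing R] [IsNoetherianRing R] [Algebra O R]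
  {F : Type*} [Field F] [Algebra R F] [IsFractionRing R F]

/-- **HD-local at a regular node.**  `O` a discrete valuation ring with uniformiser `ϖ`,
`ϖ ^ (top - 1) ∣ p`, `2 ≤ top ≤ p`, perfect residue field; `R` a noetherian local domain over
`O` with maximal ideal `(s, t)`, `s`, `t` non-associated primes, `s t = ϖ * unit`.  If `f ∈ Fˣ`
has all horizontal orders divisible by `p` and is `c₁ g₁ ^ p (1 + ϖ ^ j w₁)` with `w₁ ∈ R_(s)`
and `c₂ g₂ ^ p (1 + ϖ ^ j w₂)` with `w₂ ∈ R_(t)` (`1 ≤ j ≤ top`), then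
`f = c h ^ p (1 + ϖ ^ j r)` with `c ∈ O`, `h ∈ F` and `r ∈ R`. -/
theorem hd_node (p : ℕ) (hp : p.Prime) (top : ℕ) (h2top : 2 ≤ top)
    (ϖ : O) (hϖ : Irreducible ϖ) (hpϖ : ϖ ^ (top - 1) ∣ (p : O)) (htop : top ≤ p)
    (hperf : ∀ a : O, ∃ b : O, ϖ ∣ a - b ^ p)
    (s t : R) (hs : Prime s) (ht : Prime t) (hne : ¬ Associated s t)
    (hm : maximalIdeal R = Ideal.span {s, t})
    (hst : Associated (s * t) (algebraMap O R ϖ))
    (f : F) (hf : f ≠ 0)
    (hhor : ∀ q : R, Prime q → ¬ q ∣ algebraMap O R ϖ →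
      ∃ (a b : R) (h : F), ¬ q ∣ a ∧ ¬ q ∣ b ∧ algebraMap R F b * f = algebraMap R F a * h ^ p)
    (j : ℕ) (hj1 : 1 ≤ j) (hj : j ≤ top)
    (c₁ c₂ : O) (hc₁ : c₁ ≠ 0) (hc₂ : c₂ ≠ 0)
    (hbr₁ : ∃ (g : F) (a b : R), ¬ s ∣ b ∧ algebraMap R F b * f =
      algebraMap R F (algebraMap O R c₁) * g ^ p *
        algebraMap R F (b + algebraMap O R ϖ ^ j * a))
    (hbr₂ : ∃ (g : F) (a b : R), ¬ t ∣ b ∧ algebraMap R F b * f =
      algebraMap R F (algebraMap O R c₂) * g ^ p *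
        algebraMap R F (b + algebraMap O R ϖ ^ j * a)) :
    ∃ (c : O) (h : F) (r : R), c ≠ 0 ∧
      f = algebraMap R F (algebraMap O R c) * h ^ p *
        algebraMap R F (1 + algebraMap O R ϖ ^ j * r) := by
  have hst' := hst
  obtain ⟨v, hv⟩ := hst
  have hinj := IsFractionRing.injective R F
  haveI : IsDomain (R ⧸ Ideal.span {s}) := isDomain_quot hs
  haveI : IsPrincipalIdealRing (R ⧸ Ideal.span {s}) := isPrincipalIdealRing_quot hs hm
  haveI : UniqueFactorizationMonoid R := quot_ufm hs.ne_zero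
  -- factorisation of `f`
  obtain ⟨u, i₀, j₀, h, hfe⟩ := exists_eq_unit_mul_pow_mul_pow_mul_pow s t hp.ne_zero hf (by
    intro g hg hgs hgt
    refine hhor g hg ?_
    rw [← hv]
    intro hd
    rcases hg.dvd_or_dvd hd with hd | hd
    · rcases hg.dvd_or_dvd hd with hd | hd
      · exact hgs (hg.associated_of_dvd hs hd)
      · exact hgt (hg.associated_of_dvd ht hd)
    · exact hg.not_isUnit (isUnit_of_dvd_unit hd v.isUnit))
  have hh : h ≠ 0 := by
    rintro rfl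
    rw [zero_pow hp.ne_zero, mul_zero] at hfe
    exact hf hfe
  -- the constants
  obtain ⟨m₁, ε₁, hε₁⟩ := IsDiscreteValuationRing.eq_unit_mul_pow_irreducible hc₁ hϖ
  obtain ⟨m₂, ε₂, hε₂⟩ := IsDiscreteValuationRing.eq_unit_mul_pow_irreducible hc₂ hϖ
  have hc₁R : algebraMap O R c₁ = algebraMap O R ε₁ * (s * t * v) ^ m₁ := by
    rw [hε₁, map_mul, map_pow, hv]
  have hc₂R : algebraMap O R c₂ = algebraMap O R ε₂ * (s * t * v) ^ m₂ := by
    rw [hε₂, map_mul, map_pow, hv]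
  obtain ⟨g₁, a₁, b₁, hb₁, e₁⟩ := hbr₁
  obtain ⟨g₂, a₂, b₂, hb₂, e₂⟩ := hbr₂
  rw [hfe, hc₁R] at e₁
  rw [hfe, hc₂R] at e₂
  have hsϖ : s ∣ algebraMap O R ϖ ^ j := dvd_pow ⟨t * v, by rw [← hv]; ring⟩ (by omega)
  have htϖ : t ∣ algebraMap O R ϖ ^ j := dvd_pow ⟨s * v, by rw [← hv]; ring⟩ (by omega)
  -- orders along the branches and at the node
  obtain ⟨α₁, β₁, α₁', β₁', o₁, o₁'⟩ := exists_orders_gen hp.ne_zero hs ht hne hm v u
    ((ε₁.isUnit).map (algebraMap O R)) hh hb₁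
    (c := b₁ + algebraMap O R ϖ ^ j * a₁) (by
      rw [add_sub_cancel_left]; exact Dvd.dvd.mul_right hsϖ _) e₁
  have hm' : maximalIdeal R = Ideal.span {t, s} := by rw [hm, Set.pair_comm]
  have e₂' : algebraMap R F b₂ *
        (algebraMap R F u * algebraMap R F t ^ j₀ * algebraMap R F s ^ i₀ * h ^ p) =
      algebraMap R F (algebraMap O R ε₂ * (t * s * v) ^ m₂) * g₂ ^ p *
        algebraMap R F (b₂ + algebraMap O R ϖ ^ j * a₂) := by
    rw [mul_comm t s, ← e₂]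
    ring
  obtain ⟨α₂, β₂, α₂', β₂', o₂, o₂'⟩ := exists_orders_gen hp.ne_zero ht hs (fun h => hne h.symm)
    hm' v u ((ε₂.isUnit).map (algebraMap O R)) hh hb₂
    (c := b₂ + algebraMap O R ϖ ^ j * a₂) (by
      rw [add_sub_cancel_left]; exact Dvd.dvd.mul_right htϖ _) e₂'
  have o₃ : m₂ + p * (β₂' + α₁) = m₁ + p * (β₁ + α₂') := by
    rw [mul_add, mul_add]
    linarith
  -- reduction to a unit
  have hS0 : algebraMap R F s ≠ 0 := (map_ne_zero_iff _ hinj).mpr hs.ne_zero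
  have hT0 : algebraMap R F t ≠ 0 := (map_ne_zero_iff _ hinj).mpr ht.ne_zero
  have hVV : algebraMap R F (v : R) * algebraMap R F ((v⁻¹ : Rˣ) : R) = 1 := by
    rw [← map_mul, Units.mul_inv, map_one]
  simp only [map_mul, map_pow] at e₁ e₂
  obtain ⟨g₁', E₁⟩ := exists_unit_branch_aux (M := m₁) (A := 0) (B := 0) o₁ o₁' rfl hS0 hT0 hVV
    hh e₁
  obtain ⟨g₂', E₂⟩ := exists_unit_branch_aux (M := m₁) o₁ o₁' o₃ hS0 hT0 hVV hh e₂
  have hu' : IsUnit ((u : R) * ((v⁻¹ : Rˣ) : R) ^ m₁) := u.isUnit.mul ((v⁻¹).isUnit.pow m₁)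
  obtain ⟨c, γ, r, hcu, hur⟩ := unit_node (F := F) p hp top h2top ϖ hϖ hpϖ htop hperf s t hs ht
    hne hm hst' ((u : R) * ((v⁻¹ : Rˣ) : R) ^ m₁) hu' j hj1 hj ε₁ ε₂ ε₁.isUnit ε₂.isUnit
    ⟨g₁', a₁, b₁, hb₁, by
      simp only [map_mul, map_pow]
      exact E₁⟩
    ⟨g₂', a₂, b₂, hb₂, by
      simp only [map_mul, map_pow]
      exact E₂⟩
  -- conclusion
  have hfeq := f_eq_aux (K := F) (p := p) (xu := algebraMap R F u) (h := h) o₁ o₁' hS0 hT0 hVV
  have hSTV : algebraMap R F s * algebraMap R F t * algebraMap R F (v : R)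
      = algebraMap R F (algebraMap O R ϖ) := by
    rw [← map_mul, ← map_mul, hv]
  have huF : algebraMap R F (u : R) * algebraMap R F ((v⁻¹ : Rˣ) : R) ^ m₁
      = algebraMap R F (algebraMap O R c) * algebraMap R F γ ^ p *
        algebraMap R F (1 + algebraMap O R ϖ ^ j * r) := by
    have h30 := congrArg (algebraMap R F) hur
    simp only [map_mul, map_pow] at h30
    exact h30
  refine ⟨ϖ ^ m₁ * c, algebraMap R F γ * ((algebraMap R F s ^ β₁ * algebraMap R F t ^ β₁' * h) /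
    (algebraMap R F s ^ α₁ * algebraMap R F t ^ α₁')), r,
    mul_ne_zero (pow_ne_zero _ hϖ.ne_zero) hcu.ne_zero, ?_⟩
  rw [hfe, hfeq, hSTV, huF]
  simp only [map_mul, map_pow]
  ring

/-- **HD-local at a smooth point.**  `ϖ` is a prime element of the noetherian local domain `R`
and `m_R = (ϖ, z)`.  If `f ∈ Fˣ` has all horizontal orders divisible by `p` and is
`c₁ g ^ p (1 + ϖ ^ j w)` with `w ∈ R_(ϖ)` (`1 ≤ j ≤ top`), then `f = c h ^ p (1 + ϖ ^ j r)` with
`c ∈ O`, `h ∈ F` and `r ∈ R`. -/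
theorem hd_smooth (p : ℕ) (hp : p.Prime) (top : ℕ) (h2top : 2 ≤ top)
    (ϖ : O) (hϖ : Irreducible ϖ) (hpϖ : ϖ ^ (top - 1) ∣ (p : O)) (htop : top ≤ p)
    (hperf : ∀ a : O, ∃ b : O, ϖ ∣ a - b ^ p)
    (z : R) (hπ : Prime (algebraMap O R ϖ))
    (hm : maximalIdeal R = Ideal.span {algebraMap O R ϖ, z})
    (f : F) (hf : f ≠ 0)
    (hhor : ∀ q : R, Prime q → ¬ q ∣ algebraMap O R ϖ →
      ∃ (a b : R) (h : F), ¬ q ∣ a ∧ ¬ q ∣ b ∧ algebraMap R F b * f = algebraMap R F a * h ^ p)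
    (j : ℕ) (hj1 : 1 ≤ j) (hj : j ≤ top)
    (c₁ : O) (hc₁ : c₁ ≠ 0)
    (hbr : ∃ (g : F) (a b : R), ¬ algebraMap O R ϖ ∣ b ∧ algebraMap R F b * f =
      algebraMap R F (algebraMap O R c₁) * g ^ p *
        algebraMap R F (b + algebraMap O R ϖ ^ j * a)) :
    ∃ (c : O) (h : F) (r : R), c ≠ 0 ∧
      f = algebraMap R F (algebraMap O R c) * h ^ p *
        algebraMap R F (1 + algebraMap O R ϖ ^ j * r) := by
  have hinj := IsFractionRing.injective R F
  haveI : IsDomain (R ⧸ Ideal.span {algebraMap O R ϖ}) := isDomain_quot hπ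
  haveI : IsPrincipalIdealRing (R ⧸ Ideal.span {algebraMap O R ϖ}) :=
    isPrincipalIdealRing_quot hπ hm
  obtain ⟨u, k, h, hfe⟩ := quot_exists_eq_unit_mul_pow_mul_pow hπ.ne_zero hp.ne_zero hf hhor
  have hPu : ∀ x : R, IsUnit x → ¬ algebraMap O R ϖ ∣ x := fun x hx hd =>
    hπ.not_isUnit (isUnit_of_dvd_unit hd hx)
  obtain ⟨m, ε, hε⟩ := IsDiscreteValuationRing.eq_unit_mul_pow_irreducible hc₁ hϖ
  have hc₁R : algebraMap O R c₁ = algebraMap O R ε * algebraMap O R ϖ ^ m := by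
    rw [hε, map_mul, map_pow]
  obtain ⟨g, a, b, hb, e⟩ := hbr
  have hb0 : b ≠ 0 := fun h0 => hb (h0 ▸ dvd_zero _)
  obtain ⟨C, hC⟩ : ∃ C : R, C = b + algebraMap O R ϖ ^ j * a := ⟨_, rfl⟩
  rw [← hC] at e
  have hCs : ¬ algebraMap O R ϖ ∣ C := fun hd => hb (by
    rw [hC] at hd
    exact (dvd_add_left (Dvd.dvd.mul_right (dvd_pow_self _ (by omega)) _)).mp hd)
  -- the relation in `R`
  obtain ⟨X₀, Y₀, hX₀, hY₀, E₀⟩ := exists_ring_eq (f := f) (g := g) (g' := h) hp.ne_zero hf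
    hb0 one_ne_zero (A := algebraMap O R c₁ * C) (A' := u * algebraMap O R ϖ ^ k)
    (by rw [e, map_mul]; ring) (by rw [map_one, one_mul, hfe, map_mul, map_pow])
  have hA : ¬ algebraMap O R ϖ ∣ algebraMap O R ε * C := fun hd =>
    (hπ.dvd_or_dvd hd).elim (hPu _ (ε.isUnit.map (algebraMap O R))) hCs
  have hB : ¬ algebraMap O R ϖ ∣ b * u := fun hd =>
    (hπ.dvd_or_dvd hd).elim hb (hPu _ u.isUnit)
  obtain ⟨X₁, Y₁, α, β, hX₁, hY₁, eo, E₁⟩ := exists_reduced hπ (p := p) (i := m) (m := k)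
    hA hB hX₀ hY₀ (by rw [hc₁R] at E₀; linear_combination E₀)
  have hY₁0 : Y₁ ≠ 0 := fun h0 => hY₁ (h0 ▸ dvd_zero _)
  have hY₁F : algebraMap R F Y₁ ≠ 0 := (map_ne_zero_iff _ hinj).mpr hY₁0
  -- the unit
  obtain ⟨c, γ, r, hcu, hur⟩ := unit_smooth (F := F) p hp top h2top ϖ hϖ hpϖ htop hperf z hπ hm
    (u : R) u.isUnit j hj1 hj ε ε.isUnit
    ⟨algebraMap R F X₁ / algebraMap R F Y₁, a, b, hb, by
      rw [← hC, div_pow]
      have h40 := congrArg (algebraMap R F) E₁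
      simp only [map_mul, map_pow] at h40
      field_simp
      linear_combination -h40⟩
  -- conclusion
  have hS0 : algebraMap R F (algebraMap O R ϖ) ≠ 0 := (map_ne_zero_iff _ hinj).mpr hπ.ne_zero
  have hfeq := f_eq_aux1 (K := F) (p := p) (xu := algebraMap R F u) (h := h) eo.symm hS0
  have huF : algebraMap R F (u : R)
      = algebraMap R F (algebraMap O R c) * algebraMap R F γ ^ p *
        algebraMap R F (1 + algebraMap O R ϖ ^ j * r) := by
    have h30 := congrArg (algebraMap R F) hur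
    simp only [map_mul, map_pow] at h30
    exact h30
  refine ⟨ϖ ^ m * c, algebraMap R F γ * ((algebraMap R F (algebraMap O R ϖ) ^ α * h) /
    algebraMap R F (algebraMap O R ϖ) ^ β), r,
    mul_ne_zero (pow_ne_zero _ hϖ.ne_zero) hcu.ne_zero, ?_⟩
  rw [hfe, hfeq, huF]
  simp only [map_mul, map_pow]
  ring

end Main

end Fermat.Agent.S33.Geo.HDCore
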