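import Mathlib
import Fermat.Agent.S33.Geo.Top
import Fermat.Agent.S33.Geo.HDCmp
import Fermat.Agent.S33.Geo.HDCore
import Fermat.Agent.S44.L.NodeGlue

/-!
# S33 / GEO / TOP: the fields `reg` and `topc` of the pointwise datum at one closed point

`O` a discrete valuation ring with uniformiser `ϖ`; `A` the local ring of the model at a closed
point `y` (a noetherian local domain over `O`), `F = Frac A` the function field, with the
`O`-algebra structure of `F` factoring through `A`.  The local ring inside `F` is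
`(algebraMap A F).range`; a branch ring `V` through `y` is given ELEMENTWISE as the localisation
of `A` at the branch prime `s` (`IsBranch s V`).

From `HDCore.hd_node` / `HDCore.hd_smooth` (local form at `y`), `HDCmp.branch_cmp` (leading
terms) and `HDCmp.branch_cmp_top` (constants at the top depth), with `2 ≤ top ≤ p`,
`ϖ ^ (top - 1) ∣ p`:

* `node_reg`, `smooth_reg` : ONE local leading term `ry` for all the branches through `y`
  (depth `j < top`);
* `node_topc`, `smooth_topc` : the point form at depth `top` and its constant against the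
  branch constants;
* `reg_of_node`, `reg_of_smooth`, `topc_of_node`, `topc_of_smooth` : the same in the literal
  shape of the fields `reg` and `topc` of `Top.IsPointDatum` at the point `y`
  (`On := On y`, `Ry := R y`);
* `powAt_of_depthIn` : the exit of `Top.top_core` at `ϖ = p`, `top = 2` into the datum
  `PthPoint.PowAt` consumed by `PthPoint.exists_pow_eq_of_pointwise`.
-/

set_option autoImplicit false
set_option linter.unusedSectionVars false
set_option linter.unusedVariables false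

namespace Fermat.Agent.S33.Geo.TopLocal

open IsLocalRing
open Fermat.Agent.S33.Geo.Top Fermat.Agent.S33.Geo.HDCmp

section Point

variable {O : Type*} [CommRing O] [IsDomain O] [IsDiscreteValuationRing O]
  {A : Type*} [CommRing A] [IsDomain A] [IsLocalRing A] [IsNoetherianRing A] [Algebra O A]
  {F : Type*} [Field F] [Algebra A F] [IsFractionRing A F] [Algebra O F] [IsScalarTower O A F]

/-- Horizontal orders of `f` at the point divisible by `p` (the `hhor` of `Node.node_lemma`). -/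
def HorAt (p : ℕ) (ϖ : O) (A : Type*) [CommRing A] [Algebra O A] {F : Type*} [Field F]
    [Algebra A F] (f : F) : Prop :=
  ∀ q : A, Prime q → ¬ q ∣ algebraMap O A ϖ →
    ∃ (a b : A) (h : F), ¬ q ∣ a ∧ ¬ q ∣ b ∧ algebraMap A F b * f = algebraMap A F a * h ^ p

/-- `V` is the localisation of `A` at the prime element `s`, elementwise. -/
def IsBranch (s : A) (V : Subring F) : Prop :=
  ∀ x : F, x ∈ V ↔ ∃ a b : A, ¬ s ∣ b ∧ x * algebraMap A F b = algebraMap A F a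

/-- A generic form along a branch ring is a branch form of `HDCmp`. -/
theorem depthAt_of_depthIn {s : A} {V : Subring F} (hV : IsBranch s V) {p : ℕ} {ϖ : O} {j : ℕ}
    {f : F} {c : O} (h : DepthIn V p ϖ j f c) : DepthAt p ϖ j s f c := by
  obtain ⟨g, r, hr, hf⟩ := h
  obtain ⟨a, b, hb, hab⟩ := (hV r).mp hr
  refine ⟨g, a, b, hb, ?_⟩
  rw [hf]
  simp only [map_add, map_mul, map_pow, ← IsScalarTower.algebraMap_apply O A F]
  linear_combination (algebraMap O F c * g ^ p * algebraMap O F ϖ ^ j) * hab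

/-- A point form of `HDCore` is a form along the local ring inside `F`. -/
theorem depthIn_of_eq {Ry : Subring F} (hR : ∀ a : A, algebraMap A F a ∈ Ry) {p : ℕ} {ϖ : O}
    {j : ℕ} {f : F} {c : O} {h : F} {r : A}
    (hf : f = algebraMap A F (algebraMap O A c) * h ^ p *
      algebraMap A F (1 + algebraMap O A ϖ ^ j * r)) :
    DepthIn Ry p ϖ j f c := by
  refine ⟨h, algebraMap A F r, hR r, ?_⟩
  rw [hf]
  simp only [map_add, map_mul, map_pow, map_one, ← IsScalarTower.algebraMap_apply O A F]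

/-- A point form of `HDCore` is a form along `(algebraMap A F).range`. -/
theorem depthIn_range_of_eq {p : ℕ} {ϖ : O} {j : ℕ} {f : F} {c : O} {h : F} {r : A}
    (hf : f = algebraMap A F (algebraMap O A c) * h ^ p *
      algebraMap A F (1 + algebraMap O A ϖ ^ j * r)) :
    DepthIn (algebraMap A F).range p ϖ j f c :=
  depthIn_of_eq (fun a => RingHom.mem_range_self _ a) hf

/-- **`reg` on one branch**: point form against generic form at the same depth `j`,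
`j + 1 ≤ p`, `ϖ ^ j ∣ p`: the generic leading term is the point leading term up to a
constant, modulo `ϖ V`. -/
theorem reg_branch (p : ℕ) (hp : p.Prime) (ϖ : O) (hϖ : Irreducible ϖ)
    (hperf : ∀ a : O, ∃ b : O, ϖ ∣ a - b ^ p) (f : F) (hf : f ≠ 0)
    (s w : A) (hs : Prime s) (hsw : algebraMap O A ϖ = s * w) (hw : ¬ s ∣ w)
    {V : Subring F} (hV : IsBranch s V)
    (j : ℕ) (hj1 : 1 ≤ j) (hjp : j + 1 ≤ p) (hpϖ : ϖ ^ j ∣ (p : O))
    (cy : O) (hcy : cy ≠ 0) (h : F) (ry : A)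
    (hpt : f = algebraMap A F (algebraMap O A cy) * h ^ p *
      algebraMap A F (1 + algebraMap O A ϖ ^ j * ry))
    (c : O) (g r : F) (hc : c ≠ 0) (hr : r ∈ V)
    (hgen : f = algebraMap O F c * g ^ p * (1 + algebraMap O F ϖ ^ j * r)) :
    ∃ κ : O, MemPi V ϖ (r - algebraMap A F ry + algebraMap O F κ) := by
  have hinj := IsFractionRing.injective A F
  obtain ⟨a₁, b₁, hb₁, hab⟩ := (hV r).mp hr
  have hA : algebraMap A F b₁ * f = algebraMap A F (algebraMap O A c) * g ^ p *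
      algebraMap A F (b₁ + algebraMap O A ϖ ^ j * a₁) := by
    rw [hgen]
    simp only [map_add, map_mul, map_pow, ← IsScalarTower.algebraMap_apply O A F]
    linear_combination (algebraMap O F c * g ^ p * algebraMap O F ϖ ^ j) * hab
  obtain ⟨e, d, d', -, -, -, x, hx⟩ := branch_cmp p hp ϖ hϖ hperf j hj1 hjp hpϖ s w hs hw hsw
    f hf cy c hcy hc h g ry a₁ b₁ hb₁ hpt hA
  have hb0 : algebraMap A F b₁ ≠ 0 :=
    (map_ne_zero_iff _ hinj).mpr (fun h0 => hb₁ (h0 ▸ dvd_zero s))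
  have hw0 : algebraMap A F w ≠ 0 :=
    (map_ne_zero_iff _ hinj).mpr (fun h0 => hw (h0 ▸ dvd_zero s))
  refine ⟨e, algebraMap A F x / (algebraMap A F b₁ * algebraMap A F w), ?_, ?_⟩
  · rw [hV]
    refine ⟨x, b₁ * w, ?_, ?_⟩
    · intro hd
      rcases hs.dvd_or_dvd hd with h' | h'
      · exact hb₁ h'
      · exact hw h'
    · rw [map_mul, div_mul_cancel₀ _ (mul_ne_zero hb0 hw0)]
  · have hπ : algebraMap O F ϖ = algebraMap A F s * algebraMap A F w := by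
      rw [IsScalarTower.algebraMap_apply O A F, hsw, map_mul]
    have hxF := congrArg (algebraMap A F) hx
    simp only [map_sub, map_mul] at hxF
    have hr' : r = algebraMap A F a₁ / algebraMap A F b₁ := by
      rw [eq_div_iff hb0]; exact hab
    rw [hπ, hr', IsScalarTower.algebraMap_apply O A F e]
    field_simp
    linear_combination hxF

/-- **The constants at the top depth on one branch.** -/
theorem constRel_branch (p : ℕ) (hp : p.Prime) (ϖ : O) (hϖ : Irreducible ϖ) (hϖp : ϖ ∣ (p : O))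
    (hperf : ∀ a : O, ∃ b : O, ϖ ∣ a - b ^ p) (f : F) (hf : f ≠ 0)
    (s w : A) (hs : Prime s) (hsw : algebraMap O A ϖ = s * w) (hw : ¬ s ∣ w)
    {V : Subring F} (hV : IsBranch s V)
    (i : ℕ) (hi1 : 1 ≤ i) (hip : i ≤ p) (hpϖ : ϖ ^ (i - 1) ∣ (p : O))
    (cy : O) (hcy : cy ≠ 0) (h : F) (ry : A)
    (hpt : f = algebraMap A F (algebraMap O A cy) * h ^ p *
      algebraMap A F (1 + algebraMap O A ϖ ^ i * ry))
    (c : O) (hc : c ≠ 0) (hD : DepthIn V p ϖ i f c) : ConstRel p ϖ i cy c := by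
  obtain ⟨g, a₁, b₁, hb₁, hA⟩ := depthAt_of_depthIn hV hD
  obtain ⟨e, d, d', hd, hd', hrel⟩ := branch_cmp_top p hp ϖ hϖ hϖp hperf i hi1 hip hpϖ s w hs hw
    hsw f hf cy c hcy hc h g ry a₁ b₁ hb₁ hpt hA
  exact ⟨e, d, d', hd, hd', hrel⟩

/-! ### A regular node -/

/-- **`reg` at a regular node**: ONE local leading term for both branches. -/
theorem node_reg (p : ℕ) (hp : p.Prime) (ϖ : O) (hϖ : Irreducible ϖ)
    (hperf : ∀ a : O, ∃ b : O, ϖ ∣ a - b ^ p) (top : ℕ) (htopp : top ≤ p)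
    (hpϖ : ϖ ^ (top - 1) ∣ (p : O))
    (s t : A) (hs : Prime s) (ht : Prime t) (hne : ¬ Associated s t)
    (hm : maximalIdeal A = Ideal.span {s, t}) (hst : Associated (s * t) (algebraMap O A ϖ))
    {V₁ V₂ : Subring F} (hV₁ : IsBranch s V₁) (hV₂ : IsBranch t V₂)
    (f : F) (hf : f ≠ 0) (hhor : HorAt p ϖ A f) (j : ℕ) (hj1 : 1 ≤ j) (hjt : j < top)
    (h₁ : ∃ c : O, c ≠ 0 ∧ DepthIn V₁ p ϖ j f c) (h₂ : ∃ c : O, c ≠ 0 ∧ DepthIn V₂ p ϖ j f c) :
    ∃ ry : A,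
      (∀ (c : O) (g r : F), c ≠ 0 → r ∈ V₁ →
        f = algebraMap O F c * g ^ p * (1 + algebraMap O F ϖ ^ j * r) →
        ∃ κ : O, MemPi V₁ ϖ (r - algebraMap A F ry + algebraMap O F κ)) ∧
      (∀ (c : O) (g r : F), c ≠ 0 → r ∈ V₂ →
        f = algebraMap O F c * g ^ p * (1 + algebraMap O F ϖ ^ j * r) →
        ∃ κ : O, MemPi V₂ ϖ (r - algebraMap A F ry + algebraMap O F κ)) := by
  obtain ⟨c₁, hc₁, hD₁⟩ := h₁
  obtain ⟨c₂, hc₂, hD₂⟩ := h₂
  have hpj' : ϖ ^ j ∣ (p : O) := (pow_dvd_pow ϖ (by omega)).trans hpϖ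
  obtain ⟨cy, h, ry, hcy, hpt⟩ := HDCore.hd_node p hp top (by omega) ϖ hϖ hpϖ htopp hperf
    s t hs ht hne hm hst f hf hhor j hj1 (by omega) c₁ c₂ hc₁ hc₂
    (depthAt_of_depthIn hV₁ hD₁) (depthAt_of_depthIn hV₂ hD₂)
  obtain ⟨u, hu⟩ := hst
  have hsnt : ¬ s ∣ t := fun hd => hne (hs.associated_of_dvd ht hd)
  have htns : ¬ t ∣ s := fun hd => hne (ht.associated_of_dvd hs hd).symm
  have hsw : ¬ s ∣ t * u := fun hd =>
    (hs.dvd_or_dvd hd).elim hsnt (fun h' => hs.not_isUnit (isUnit_of_dvd_unit h' u.isUnit))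
  have htw : ¬ t ∣ s * u := fun hd =>
    (ht.dvd_or_dvd hd).elim htns (fun h' => ht.not_isUnit (isUnit_of_dvd_unit h' u.isUnit))
  refine ⟨ry, fun c g r hc hr hgen => ?_, fun c g r hc hr hgen => ?_⟩
  · exact reg_branch p hp ϖ hϖ hperf f hf s (t * u) hs (by rw [← hu]; ring) hsw hV₁ j hj1
      (by omega) hpj' cy hcy h ry hpt c g r hc hr hgen
  · exact reg_branch p hp ϖ hϖ hperf f hf t (s * u) ht (by rw [← hu]; ring) htw hV₂ j hj1
      (by omega) hpj' cy hcy h ry hpt c g r hc hr hgen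

/-- **`topc` at a regular node.** -/
theorem node_topc (p : ℕ) (hp : p.Prime) (ϖ : O) (hϖ : Irreducible ϖ)
    (hperf : ∀ a : O, ∃ b : O, ϖ ∣ a - b ^ p) (top : ℕ) (h2top : 2 ≤ top) (htopp : top ≤ p)
    (hpϖ : ϖ ^ (top - 1) ∣ (p : O))
    (s t : A) (hs : Prime s) (ht : Prime t) (hne : ¬ Associated s t)
    (hm : maximalIdeal A = Ideal.span {s, t}) (hst : Associated (s * t) (algebraMap O A ϖ))
    {V₁ V₂ : Subring F} (hV₁ : IsBranch s V₁) (hV₂ : IsBranch t V₂)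
    (f : F) (hf : f ≠ 0) (hhor : HorAt p ϖ A f)
    (h₁ : ∃ c : O, c ≠ 0 ∧ DepthIn V₁ p ϖ top f c)
    (h₂ : ∃ c : O, c ≠ 0 ∧ DepthIn V₂ p ϖ top f c) :
    ∃ cy : O, cy ≠ 0 ∧ DepthIn (algebraMap A F).range p ϖ top f cy ∧
      (∀ c : O, c ≠ 0 → DepthIn V₁ p ϖ top f c → ConstRel p ϖ top cy c) ∧
      (∀ c : O, c ≠ 0 → DepthIn V₂ p ϖ top f c → ConstRel p ϖ top cy c) := by
  obtain ⟨c₁, hc₁, hD₁⟩ := h₁
  obtain ⟨c₂, hc₂, hD₂⟩ := h₂
  have hϖp : ϖ ∣ (p : O) := (dvd_pow_self ϖ (by omega)).trans hpϖ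
  obtain ⟨cy, h, ry, hcy, hpt⟩ := HDCore.hd_node p hp top h2top ϖ hϖ hpϖ htopp hperf
    s t hs ht hne hm hst f hf hhor top (by omega) le_rfl c₁ c₂ hc₁ hc₂
    (depthAt_of_depthIn hV₁ hD₁) (depthAt_of_depthIn hV₂ hD₂)
  obtain ⟨u, hu⟩ := hst
  have hsnt : ¬ s ∣ t := fun hd => hne (hs.associated_of_dvd ht hd)
  have htns : ¬ t ∣ s := fun hd => hne (ht.associated_of_dvd hs hd).symm
  have hsw : ¬ s ∣ t * u := fun hd =>
    (hs.dvd_or_dvd hd).elim hsnt (fun h' => hs.not_isUnit (isUnit_of_dvd_unit h' u.isUnit))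
  have htw : ¬ t ∣ s * u := fun hd =>
    (ht.dvd_or_dvd hd).elim htns (fun h' => ht.not_isUnit (isUnit_of_dvd_unit h' u.isUnit))
  refine ⟨cy, hcy, depthIn_range_of_eq hpt, fun c hc hD => ?_, fun c hc hD => ?_⟩
  · exact constRel_branch p hp ϖ hϖ hϖp hperf f hf s (t * u) hs (by rw [← hu]; ring) hsw hV₁
      top (by omega) htopp hpϖ cy hcy h ry hpt c hc hD
  · exact constRel_branch p hp ϖ hϖ hϖp hperf f hf t (s * u) ht (by rw [← hu]; ring) htw hV₂
      top (by omega) htopp hpϖ cy hcy h ry hpt c hc hD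

/-! ### A smooth point -/

/-- **`reg` at a smooth point** of the fibre. -/
theorem smooth_reg (p : ℕ) (hp : p.Prime) (ϖ : O) (hϖ : Irreducible ϖ)
    (hperf : ∀ a : O, ∃ b : O, ϖ ∣ a - b ^ p) (top : ℕ) (htopp : top ≤ p)
    (hpϖ : ϖ ^ (top - 1) ∣ (p : O))
    (z : A) (hϖA : Prime (algebraMap O A ϖ))
    (hm : maximalIdeal A = Ideal.span {algebraMap O A ϖ, z})
    {V₁ : Subring F} (hV₁ : IsBranch (algebraMap O A ϖ) V₁)
    (f : F) (hf : f ≠ 0) (hhor : HorAt p ϖ A f) (j : ℕ) (hj1 : 1 ≤ j) (hjt : j < top)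
    (h₁ : ∃ c : O, c ≠ 0 ∧ DepthIn V₁ p ϖ j f c) :
    ∃ ry : A, ∀ (c : O) (g r : F), c ≠ 0 → r ∈ V₁ →
      f = algebraMap O F c * g ^ p * (1 + algebraMap O F ϖ ^ j * r) →
      ∃ κ : O, MemPi V₁ ϖ (r - algebraMap A F ry + algebraMap O F κ) := by
  obtain ⟨c₁, hc₁, hD₁⟩ := h₁
  have hpj' : ϖ ^ j ∣ (p : O) := (pow_dvd_pow ϖ (by omega)).trans hpϖ
  obtain ⟨cy, h, ry, hcy, hpt⟩ := HDCore.hd_smooth p hp top (by omega) ϖ hϖ hpϖ htopp hperf
    z hϖA hm f hf hhor j hj1 (by omega) c₁ hc₁ (depthAt_of_depthIn hV₁ hD₁)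
  refine ⟨ry, fun c g r hc hr hgen => ?_⟩
  exact reg_branch p hp ϖ hϖ hperf f hf (algebraMap O A ϖ) 1 hϖA (mul_one _).symm
    hϖA.not_dvd_one hV₁ j hj1 (by omega) hpj' cy hcy h ry hpt c g r hc hr hgen

/-- **`topc` at a smooth point** of the fibre. -/
theorem smooth_topc (p : ℕ) (hp : p.Prime) (ϖ : O) (hϖ : Irreducible ϖ)
    (hperf : ∀ a : O, ∃ b : O, ϖ ∣ a - b ^ p) (top : ℕ) (h2top : 2 ≤ top) (htopp : top ≤ p)
    (hpϖ : ϖ ^ (top - 1) ∣ (p : O))
    (z : A) (hϖA : Prime (algebraMap O A ϖ))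
    (hm : maximalIdeal A = Ideal.span {algebraMap O A ϖ, z})
    {V₁ : Subring F} (hV₁ : IsBranch (algebraMap O A ϖ) V₁)
    (f : F) (hf : f ≠ 0) (hhor : HorAt p ϖ A f)
    (h₁ : ∃ c : O, c ≠ 0 ∧ DepthIn V₁ p ϖ top f c) :
    ∃ cy : O, cy ≠ 0 ∧ DepthIn (algebraMap A F).range p ϖ top f cy ∧
      ∀ c : O, c ≠ 0 → DepthIn V₁ p ϖ top f c → ConstRel p ϖ top cy c := by
  obtain ⟨c₁, hc₁, hD₁⟩ := h₁
  have hϖp : ϖ ∣ (p : O) := (dvd_pow_self ϖ (by omega)).trans hpϖ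
  obtain ⟨cy, h, ry, hcy, hpt⟩ := HDCore.hd_smooth p hp top h2top ϖ hϖ hpϖ htopp hperf
    z hϖA hm f hf hhor top (by omega) le_rfl c₁ hc₁ (depthAt_of_depthIn hV₁ hD₁)
  refine ⟨cy, hcy, depthIn_range_of_eq hpt, fun c hc hD => ?_⟩
  exact constRel_branch p hp ϖ hϖ hϖp hperf f hf (algebraMap O A ϖ) 1 hϖA (mul_one _).symm
    hϖA.not_dvd_one hV₁ top (by omega) htopp hpϖ cy hcy h ry hpt c hc hD

/-! ### The fields `reg` and `topc` of `Top.IsPointDatum` at one point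

`ι` the components, `V : ι → Subring F` the generic rings, `On : ι → Prop` the components
through the point `y` (`On := On y`), `Ry` the local ring of the datum at `y` (`Ry := R y`),
which has to contain the image of `A`. -/

variable {ι : Type*} {V : ι → Subring F} {On : ι → Prop} {Ry : Subring F}

/-- The field `reg` at a regular node lying on exactly the components `W₁`, `W₂`. -/
theorem reg_of_node (hR : ∀ a : A, algebraMap A F a ∈ Ry)
    (p : ℕ) (hp : p.Prime) (ϖ : O) (hϖ : Irreducible ϖ)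
    (hperf : ∀ a : O, ∃ b : O, ϖ ∣ a - b ^ p) (top : ℕ) (htopp : top ≤ p)
    (hpϖ : ϖ ^ (top - 1) ∣ (p : O))
    (s t : A) (hs : Prime s) (ht : Prime t) (hne : ¬ Associated s t)
    (hm : maximalIdeal A = Ideal.span {s, t}) (hst : Associated (s * t) (algebraMap O A ϖ))
    (W₁ W₂ : ι) (hOn : ∀ W, On W → W = W₁ ∨ W = W₂) (hOn₁ : On W₁) (hOn₂ : On W₂)
    (hV₁ : IsBranch s (V W₁)) (hV₂ : IsBranch t (V W₂))
    (f : F) (j : ℕ) (hf : f ≠ 0) (hj1 : 1 ≤ j) (hjt : j < top) (hhor : HorAt p ϖ A f)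
    (hD : ∀ W, On W → ∃ c : O, c ≠ 0 ∧ DepthIn (V W) p ϖ j f c) :
    ∃ ry : F, ry ∈ Ry ∧ ∀ W, On W → ∀ (c : O) (g r : F), c ≠ 0 → r ∈ V W →
      f = algebraMap O F c * g ^ p * (1 + algebraMap O F ϖ ^ j * r) →
      ∃ κ : O, MemPi (V W) ϖ (r - ry + algebraMap O F κ) := by
  obtain ⟨ry, h1, h2⟩ := node_reg p hp ϖ hϖ hperf top htopp hpϖ s t hs ht hne hm hst hV₁ hV₂
    f hf hhor j hj1 hjt (hD W₁ hOn₁) (hD W₂ hOn₂)
  refine ⟨algebraMap A F ry, hR ry, fun W hW => ?_⟩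
  rcases hOn W hW with rfl | rfl
  · exact h1
  · exact h2

/-- The field `topc` at a regular node lying on exactly the components `W₁`, `W₂`. -/
theorem topc_of_node (hR : ∀ a : A, algebraMap A F a ∈ Ry)
    (p : ℕ) (hp : p.Prime) (ϖ : O) (hϖ : Irreducible ϖ)
    (hperf : ∀ a : O, ∃ b : O, ϖ ∣ a - b ^ p) (top : ℕ) (h2top : 2 ≤ top) (htopp : top ≤ p)
    (hpϖ : ϖ ^ (top - 1) ∣ (p : O))
    (s t : A) (hs : Prime s) (ht : Prime t) (hne : ¬ Associated s t)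
    (hm : maximalIdeal A = Ideal.span {s, t}) (hst : Associated (s * t) (algebraMap O A ϖ))
    (W₁ W₂ : ι) (hOn : ∀ W, On W → W = W₁ ∨ W = W₂) (hOn₁ : On W₁) (hOn₂ : On W₂)
    (hV₁ : IsBranch s (V W₁)) (hV₂ : IsBranch t (V W₂))
    (f : F) (hf : f ≠ 0) (hhor : HorAt p ϖ A f)
    (hD : ∀ W, On W → ∃ c : O, c ≠ 0 ∧ DepthIn (V W) p ϖ top f c) :
    ∃ cy : O, cy ≠ 0 ∧ DepthIn Ry p ϖ top f cy ∧
      ∀ W, On W → ∀ c : O, c ≠ 0 → DepthIn (V W) p ϖ top f c → ConstRel p ϖ top cy c := by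
  obtain ⟨cy, hcy, ⟨g, r, ⟨r', rfl⟩, hfe⟩, h1, h2⟩ := node_topc p hp ϖ hϖ hperf top h2top htopp
    hpϖ s t hs ht hne hm hst hV₁ hV₂ f hf hhor (hD W₁ hOn₁) (hD W₂ hOn₂)
  refine ⟨cy, hcy, ⟨g, _, hR r', hfe⟩, fun W hW => ?_⟩
  rcases hOn W hW with rfl | rfl
  · exact h1
  · exact h2

/-- The field `reg` at a smooth point of the fibre, lying on exactly the component `W₁`. -/
theorem reg_of_smooth (hR : ∀ a : A, algebraMap A F a ∈ Ry)
    (p : ℕ) (hp : p.Prime) (ϖ : O) (hϖ : Irreducible ϖ)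
    (hperf : ∀ a : O, ∃ b : O, ϖ ∣ a - b ^ p) (top : ℕ) (htopp : top ≤ p)
    (hpϖ : ϖ ^ (top - 1) ∣ (p : O))
    (z : A) (hϖA : Prime (algebraMap O A ϖ))
    (hm : maximalIdeal A = Ideal.span {algebraMap O A ϖ, z})
    (W₁ : ι) (hOn : ∀ W, On W → W = W₁) (hOn₁ : On W₁)
    (hV₁ : IsBranch (algebraMap O A ϖ) (V W₁))
    (f : F) (j : ℕ) (hf : f ≠ 0) (hj1 : 1 ≤ j) (hjt : j < top) (hhor : HorAt p ϖ A f)
    (hD : ∀ W, On W → ∃ c : O, c ≠ 0 ∧ DepthIn (V W) p ϖ j f c) :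
    ∃ ry : F, ry ∈ Ry ∧ ∀ W, On W → ∀ (c : O) (g r : F), c ≠ 0 → r ∈ V W →
      f = algebraMap O F c * g ^ p * (1 + algebraMap O F ϖ ^ j * r) →
      ∃ κ : O, MemPi (V W) ϖ (r - ry + algebraMap O F κ) := by
  obtain ⟨ry, h1⟩ := smooth_reg p hp ϖ hϖ hperf top htopp hpϖ z hϖA hm hV₁
    f hf hhor j hj1 hjt (hD W₁ hOn₁)
  refine ⟨algebraMap A F ry, hR ry, fun W hW => ?_⟩
  obtain rfl := hOn W hW
  exact h1

/-- The field `topc` at a smooth point of the fibre, lying on exactly the component `W₁`. -/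
theorem topc_of_smooth (hR : ∀ a : A, algebraMap A F a ∈ Ry)
    (p : ℕ) (hp : p.Prime) (ϖ : O) (hϖ : Irreducible ϖ)
    (hperf : ∀ a : O, ∃ b : O, ϖ ∣ a - b ^ p) (top : ℕ) (h2top : 2 ≤ top) (htopp : top ≤ p)
    (hpϖ : ϖ ^ (top - 1) ∣ (p : O))
    (z : A) (hϖA : Prime (algebraMap O A ϖ))
    (hm : maximalIdeal A = Ideal.span {algebraMap O A ϖ, z})
    (W₁ : ι) (hOn : ∀ W, On W → W = W₁) (hOn₁ : On W₁)
    (hV₁ : IsBranch (algebraMap O A ϖ) (V W₁))
    (f : F) (hf : f ≠ 0) (hhor : HorAt p ϖ A f)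
    (hD : ∀ W, On W → ∃ c : O, c ≠ 0 ∧ DepthIn (V W) p ϖ top f c) :
    ∃ cy : O, cy ≠ 0 ∧ DepthIn Ry p ϖ top f cy ∧
      ∀ W, On W → ∀ c : O, c ≠ 0 → DepthIn (V W) p ϖ top f c → ConstRel p ϖ top cy c := by
  obtain ⟨cy, hcy, ⟨g, r, ⟨r', rfl⟩, hfe⟩, h1⟩ := smooth_topc p hp ϖ hϖ hperf top h2top htopp
    hpϖ z hϖA hm hV₁ f hf hhor (hD W₁ hOn₁)
  refine ⟨cy, hcy, ⟨g, _, hR r', hfe⟩, fun W hW => ?_⟩
  obtain rfl := hOn W hW
  exact h1

end Point

/-! ### The exit into `PthPoint.PowAt` -/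

section Exit

open Fermat.Agent.S44.L

variable {O F : Type*} [CommRing O] [Field F] [Algebra O F]

/-- **Exit of `TOP` at `ϖ = p`, `top = 2`**: the point form with `r` in the local ring of the
chart `integralClosure S F` at `𝔪` is the datum `PthPoint.PowAt` for `f / c`. -/
theorem powAt_of_depthIn (S : Subalgebra O F) (p : ℕ) (𝔪 : Ideal (integralClosure S F))
    [𝔪.IsPrime] (A : Type*) [CommRing A] [Algebra (integralClosure S F) A]
    [IsLocalization.AtPrime A 𝔪] [Algebra A F] [IsScalarTower (integralClosure S F) A F]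
    {f : F} {c : O} (hc : algebraMap O F c ≠ 0)
    (h : DepthIn (algebraMap A F).range p (p : O) 2 f c) :
    PthPoint.PowAt S p (f / algebraMap O F c) 𝔪 := by
  obtain ⟨g, r, ⟨w, rfl⟩, hf⟩ := h
  refine NodeGlue.powAt_of_atPrime S p _ 𝔪 A g w ?_
  rw [hf, map_natCast, mul_assoc, mul_div_cancel_left₀ _ hc]

end Exit

end Fermat.Agent.S33.Geo.TopLocal
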