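import Mathlib
import Fermat.Agent.S33.Geo.Top
import Fermat.Agent.S33.Geo.TopLocal
import Fermat.Agent.S44.L.DepthHenselExit

/-!
# S33 / GEO / Stage B hub: a level-free model package with LOCAL BLOCKS

Level-free (Mathlib + `S33/Geo/{Top, TopLocal}` + `S44/L/DepthHenselExit.locAt`).

`O` a discrete valuation ring with uniformiser `ϖ`, `F` a field over `O` (the function field of
the curve), `p` a prime number.  A model of `F` over `O` is described inside `F` by

* `ι`, `V : ι → Subring F` : the components of the special fibre and their generic rings;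
* `Y`, `R : Y → Subring F` : the closed points of the special fibre and their local rings;
* `On y W` : the point `y` lies on the component `W`;
* `Hor : F → Prop` : "the horizontal divisor of `f` is divisible by `p`" (one global predicate).

What the closed points deliver is packaged as LOCAL BLOCKS: a presentation `A` of the local
ring `R y` (a noetherian local domain with fraction field `F`) which is

* a REGULAR NODE (`NodeBlock`): `𝔪_A = (s, t)`, `s`, `t` non-associated primes, `s t ∼ ϖ`, and
  the generic rings of the two components through `y` are the localisations `A_(s)`, `A_(t)`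
  (`TopLocal.IsBranch`);
* or a SMOOTH POINT of the fibre (`SmoothBlock`): `ϖ` prime in `A`, `𝔪_A = (ϖ, z)`, and the
  generic ring of the one component through `y` is `A_(ϖ)`;

in both cases with `Hor f → TopLocal.HorAt p ϖ A f`.

`IsModel p ϖ V R On Hor` : every point carries a block, the dual graph is connected, (CONST) on
one root component and (VAN) (the three global fields of `Top.IsDatum`, verbatim).

The same blocks feed three consumers:

* `IsModel.isDatum` : `Top.IsDatum p ϖ top V R On (fun _ => Hor)` for `2 ≤ top ≤ p`,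
  `ϖ ^ (top - 1) ∣ p` (through `TopLocal.reg_of_node`, `topc_of_node`, `reg_of_smooth`,
  `topc_of_smooth`), hence `IsModel.top_core`;
* the tame base change `O ⊆ O[ζ_p]` (row Z1: `depth_step_of_reg` + `glob_of_root` below are the
  two abstract halves of one depth step which do not need the field `topc`);
* finite covers unramified in codimension one (row C3: `S44/L/UnrPur` turns a block at `y` into
  blocks at the points above `y`).

`Covers ϖ u R` : the points of the model are the closed points of the fibre of the two charts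
`integralClosure O[u] F`, `integralClosure O[u⁻¹] F`, with `R y = DepthHenselExit.locAt`.
-/

set_option autoImplicit false
set_option linter.unusedSectionVars false
set_option linter.unusedVariables false

namespace Fermat.Agent.S33.Geo.Model

open IsLocalRing
open Fermat.Agent.S33.Geo.Top Fermat.Agent.S33.Geo.TopLocal

universe u

/-! ### Local blocks -/

section Blocks

variable {O : Type*} [CommRing O] [IsDomain O] [IsDiscreteValuationRing O]
  {F : Type u} [Field F] [Algebra O F]

/-- **A regular node of the model**: the local ring `Ry ⊆ F` has a presentation `A` with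
`𝔪_A = (s, t)`, `s`, `t` non-associated primes, `s t ∼ ϖ`; the generic rings of the two
branches are `V₁ = A_(s)`, `V₂ = A_(t)`; horizontal functions are horizontal at `A`. -/
def NodeBlock (p : ℕ) (ϖ : O) (Hor : F → Prop) (Ry V₁ V₂ : Subring F) : Prop :=
  ∃ (A : Type u) (_ : CommRing A) (_ : IsDomain A) (_ : IsLocalRing A) (_ : IsNoetherianRing A)
    (_ : Algebra O A) (_ : Algebra A F) (_ : IsFractionRing A F) (_ : IsScalarTower O A F),
    (algebraMap A F).range = Ry ∧ (∀ f : F, Hor f → HorAt p ϖ A f) ∧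
    ∃ s t : A, Prime s ∧ Prime t ∧ ¬ Associated s t ∧ maximalIdeal A = Ideal.span {s, t} ∧
      Associated (s * t) (algebraMap O A ϖ) ∧ IsBranch s V₁ ∧ IsBranch t V₂

/-- **A smooth point of the special fibre of the model**: the local ring `Ry ⊆ F` has a
presentation `A` in which `ϖ` is prime and `𝔪_A = (ϖ, z)`; the generic ring of the branch is
`V₁ = A_(ϖ)`; horizontal functions are horizontal at `A`. -/
def SmoothBlock (p : ℕ) (ϖ : O) (Hor : F → Prop) (Ry V₁ : Subring F) : Prop :=
  ∃ (A : Type u) (_ : CommRing A) (_ : IsDomain A) (_ : IsLocalRing A) (_ : IsNoetherianRing A)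
    (_ : Algebra O A) (_ : Algebra A F) (_ : IsFractionRing A F) (_ : IsScalarTower O A F),
    (algebraMap A F).range = Ry ∧ (∀ f : F, Hor f → HorAt p ϖ A f) ∧
    Prime (algebraMap O A ϖ) ∧ ∃ z : A, maximalIdeal A = Ideal.span {algebraMap O A ϖ, z} ∧
      IsBranch (algebraMap O A ϖ) V₁

/-- **The level-free model package**: every closed point is a regular node (on exactly two
components) or a smooth point of the fibre (on exactly one), the dual graph is connected,
(CONST) holds on one root component, and (VAN) holds. -/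
structure IsModel (p : ℕ) (ϖ : O) {ι Y : Type*} (V : ι → Subring F) (R : Y → Subring F)
    (On : Y → ι → Prop) (Hor : F → Prop) : Prop where
  /-- constants lie in the generic rings -/
  constV : ∀ W (a : O), algebraMap O F a ∈ V W
  /-- the local block at every closed point -/
  block : ∀ y,
    (∃ W₁ W₂, (∀ W, On y W ↔ W = W₁ ∨ W = W₂) ∧ NodeBlock p ϖ Hor (R y) (V W₁) (V W₂)) ∨
    (∃ W₁, (∀ W, On y W ↔ W = W₁) ∧ SmoothBlock p ϖ Hor (R y) (V W₁))
  /-- (CONN): the dual graph is connected -/
  conn : ∀ W W' : ι, Relation.ReflTransGen (fun a b => ∃ y, On y a ∧ On y b) W W'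
  /-- (CONST0): on ONE root component, regular at every closed point implies constant,
  modulo `ϖ` -/
  const0 : ∃ W₀ : ι, ∀ x : F, x ∈ V W₀ →
    (∀ y, On y W₀ → ∃ a : F, a ∈ R y ∧ MemPi (V W₀) ϖ (x - a)) →
    ∃ κ : O, MemPi (V W₀) ϖ (x - algebraMap O F κ)
  /-- (VAN): regular at every closed point of `W` and, at ONE point `y`, equal to a local
  function vanishing identically on a branch through `y`, implies zero, modulo `ϖ` -/
  van : ∀ W (x : F), x ∈ V W → (∀ y, On y W → ∃ a : F, a ∈ R y ∧ MemPi (V W) ϖ (x - a)) →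
    ∀ y, On y W → ∀ a : F, a ∈ R y → MemPi (V W) ϖ (x - a) →
      (∃ W', On y W' ∧ MemPi (V W') ϖ a) → MemPi (V W) ϖ x

/-- **The points of the model are the closed points of the fibre of the two charts** of `u`:
every maximal ideal containing `ϖ` of `integralClosure O[u] F` or `integralClosure O[u⁻¹] F`
is a point `y` of the model, with `R y` the local ring of the chart (`DepthHenselExit.locAt`). -/
def Covers (ϖ : O) (u : F) {Y : Type*} (R : Y → Subring F) : Prop :=
  ∀ v : F, v = u ∨ v = u⁻¹ →
    ∀ (𝔪 : Ideal (integralClosure (Algebra.adjoin O ({v} : Set F)) F)) (h𝔪 : 𝔪.IsMaximal),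
      algebraMap O (integralClosure (Algebra.adjoin O ({v} : Set F)) F) ϖ ∈ 𝔪 →
      ∃ y, R y = Fermat.Agent.S44.L.DepthHenselExit.locAt
        (Algebra.adjoin O ({v} : Set F)) 𝔪 h𝔪.isPrime

variable {p : ℕ} {ϖ : O} {ι Y : Type*} {V : ι → Subring F} {R : Y → Subring F}
  {On : Y → ι → Prop} {Hor : F → Prop}

/-- Constants lie in the local rings of a model. -/
theorem IsModel.constR (D : IsModel p ϖ V R On Hor) (y : Y) (a : O) :
    algebraMap O F a ∈ R y := by
  rcases D.block y with ⟨W₁, W₂, -, A, _, _, _, _, _, _, _, _, hrange, -⟩ |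
    ⟨W₁, -, A, _, _, _, _, _, _, _, _, hrange, -⟩
  · rw [← hrange, IsScalarTower.algebraMap_apply O A F]
    exact ⟨_, rfl⟩
  · rw [← hrange, IsScalarTower.algebraMap_apply O A F]
    exact ⟨_, rfl⟩

/-- Every closed point of a model lies on a component. -/
theorem IsModel.exists_on (D : IsModel p ϖ V R On Hor) (y : Y) : ∃ W, On y W := by
  rcases D.block y with ⟨W₁, W₂, hOn, -⟩ | ⟨W₁, hOn, -⟩
  · exact ⟨W₁, (hOn W₁).mpr (Or.inl rfl)⟩
  · exact ⟨W₁, (hOn W₁).mpr rfl⟩

/-- **The pointwise datum of `TOP` from the local blocks.** -/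
theorem IsModel.isPointDatum (hp : p.Prime) (hϖ : Irreducible ϖ)
    (hperf : ∀ a : O, ∃ b : O, ϖ ∣ a - b ^ p) {top : ℕ} (h2top : 2 ≤ top) (htopp : top ≤ p)
    (hpϖ : ϖ ^ (top - 1) ∣ (p : O)) (D : IsModel p ϖ V R On Hor) :
    IsPointDatum p ϖ top V R On (fun _ f => Hor f) where
  constV := D.constV
  constR := D.constR
  exists_on := D.exists_on
  reg := by
    intro y f j hf hj1 hjt hhor hD
    rcases D.block y with ⟨W₁, W₂, hOn, A, _, _, _, _, _, _, _, _, hrange, hHor, s, t, hs, ht,
      hne, hm, hst, hV₁, hV₂⟩ | ⟨W₁, hOn, A, _, _, _, _, _, _, _, _, hrange, hHor, hϖA, z, hm, hV₁⟩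
    · exact reg_of_node (Ry := R y) (On := On y) (V := V)
        (fun a => hrange ▸ ⟨a, rfl⟩) p hp ϖ hϖ hperf top htopp hpϖ s t hs ht hne hm hst W₁ W₂
        (fun W hW => (hOn W).mp hW) ((hOn W₁).mpr (Or.inl rfl)) ((hOn W₂).mpr (Or.inr rfl))
        hV₁ hV₂ f j hf hj1 hjt (hHor f hhor) hD
    · exact reg_of_smooth (Ry := R y) (On := On y) (V := V)
        (fun a => hrange ▸ ⟨a, rfl⟩) p hp ϖ hϖ hperf top htopp hpϖ z hϖA hm W₁
        (fun W hW => (hOn W).mp hW) ((hOn W₁).mpr rfl) hV₁ f j hf hj1 hjt (hHor f hhor) hD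
  topc := by
    intro y f hf hhor hD
    rcases D.block y with ⟨W₁, W₂, hOn, A, _, _, _, _, _, _, _, _, hrange, hHor, s, t, hs, ht,
      hne, hm, hst, hV₁, hV₂⟩ | ⟨W₁, hOn, A, _, _, _, _, _, _, _, _, hrange, hHor, hϖA, z, hm, hV₁⟩
    · exact topc_of_node (Ry := R y) (On := On y) (V := V)
        (fun a => hrange ▸ ⟨a, rfl⟩) p hp ϖ hϖ hperf top h2top htopp hpϖ s t hs ht hne hm hst
        W₁ W₂ (fun W hW => (hOn W).mp hW) ((hOn W₁).mpr (Or.inl rfl))
        ((hOn W₂).mpr (Or.inr rfl)) hV₁ hV₂ f hf (hHor f hhor) hD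
    · exact topc_of_smooth (Ry := R y) (On := On y) (V := V)
        (fun a => hrange ▸ ⟨a, rfl⟩) p hp ϖ hϖ hperf top h2top htopp hpϖ z hϖA hm W₁
        (fun W hW => (hOn W).mp hW) ((hOn W₁).mpr rfl) hV₁ f hf (hHor f hhor) hD
  conn := D.conn

/-- **The abstract datum of `TOP` from a model.** -/
theorem IsModel.isDatum (hp : p.Prime) (hϖ : Irreducible ϖ)
    (hperf : ∀ a : O, ∃ b : O, ϖ ∣ a - b ^ p) {top : ℕ} (h2top : 2 ≤ top) (htopp : top ≤ p)
    (hpϖ : ϖ ^ (top - 1) ∣ (p : O)) (D : IsModel p ϖ V R On Hor) :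
    IsDatum p ϖ top V R On (fun _ f => Hor f) where
  toIsPointDatum := D.isPointDatum hp hϖ hperf h2top htopp hpϖ
  const0 := D.const0
  van := D.van

/-- **`TOP` on a model**: if the horizontal function `f ≠ 0` has `p`-th-power depth `≥ 1` on
every component, then there is ONE constant `c` such that `f` has depth `≥ top` with constant
`c` on every component and at every closed point. -/
theorem IsModel.top_core (hp : p.Prime) (hϖ : Irreducible ϖ)
    (hperf : ∀ a : O, ∃ b : O, ϖ ∣ a - b ^ p) {top : ℕ} (h2top : 2 ≤ top) (htopp : top ≤ p)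
    (hpϖ : ϖ ^ (top - 1) ∣ (p : O)) (hinj : Function.Injective (algebraMap O F))
    (D : IsModel p ϖ V R On Hor) (f : F) (hf : f ≠ 0) (hHor : Hor f)
    (h1 : ∀ W, ∃ c : O, c ≠ 0 ∧ DepthIn (V W) p ϖ 1 f c) :
    ∃ c : O, c ≠ 0 ∧ (∀ W, DepthIn (V W) p ϖ top f c) ∧ ∀ y, DepthIn (R y) p ϖ top f c :=
  Top.top_core hϖ.not_isUnit (by omega) hinj (D.isDatum hp hϖ hperf h2top htopp hpϖ) f hf
    (fun _ => hHor) h1

end Blocks

/-! ### One depth step without the field `topc` (for the tame base change, row Z1) -/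

section Step

variable {O F : Type*} [CommRing O] [IsDomain O] [IsLocalRing O] [Field F] [Algebra O F]
  {ι Y : Type*} {V : ι → Subring F} {R : Y → Subring F} {On : Y → ι → Prop}

/-- **Propagation from the root component**: leading terms `r W ∈ V W` which are, at every
closed point `y` and on every branch `W` through `y`, congruent to ONE local function `ry y`
up to a constant, are constant modulo `ϖ` on every component — given (CONST) on one root
component, (VAN), and the connectedness of the dual graph. -/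
theorem glob_of_root {ϖ : O} (constV : ∀ W (a : O), algebraMap O F a ∈ V W)
    (constR : ∀ y (a : O), algebraMap O F a ∈ R y)
    (conn : ∀ W W' : ι, Relation.ReflTransGen (fun a b => ∃ y, On y a ∧ On y b) W W')
    (W₀ : ι) (hconst : ConstAt V R On ϖ W₀) (hvan : Van V R On ϖ)
    (r : ι → F) (hr : ∀ W, r W ∈ V W) (ry : Y → F) (hry : ∀ y, ry y ∈ R y)
    (hk : ∀ y W, On y W → ∃ κ : O, MemPi (V W) ϖ (r W - ry y + algebraMap O F κ)) :
    ∀ W, ∃ κ : O, MemPi (V W) ϖ (r W - algebraMap O F κ) := by
  -- every shifted leading term is regular at every closed point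
  have hregW : ∀ W (x : F) (k : O), x = r W + algebraMap O F k → ∀ y, On y W →
      ∃ a : F, a ∈ R y ∧ MemPi (V W) ϖ (x - a) := by
    intro W x k hx y hy
    obtain ⟨κ, hκ⟩ := hk y W hy
    exact ⟨ry y - algebraMap O F κ + algebraMap O F k,
      (R y).add_mem ((R y).sub_mem (hry y) (constR y κ)) (constR y k),
      hκ.congr (by rw [hx]; ring)⟩
  -- propagation along the dual graph from the root
  have hchain : ∀ W, Relation.ReflTransGen (fun a b => ∃ y, On y a ∧ On y b) W₀ W →
      ∃ κ : O, MemPi (V W) ϖ (r W - algebraMap O F κ) := by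
    intro W hW
    induction hW with
    | refl =>
      exact hconst (r W₀) (hr W₀) (hregW W₀ (r W₀) 0 (by rw [map_zero, add_zero]))
    | @tail a b _ hab ih =>
      obtain ⟨κa, hκa⟩ := ih
      obtain ⟨y, hya, hyb⟩ := hab
      obtain ⟨κ₁, hκ₁⟩ := hk y a hya
      obtain ⟨κ₂, hκ₂⟩ := hk y b hyb
      have ha0 : ry y - algebraMap O F κ₁ - algebraMap O F κa ∈ R y :=
        (R y).sub_mem ((R y).sub_mem (hry y) (constR y κ₁)) (constR y κa)
      have hma0 : MemPi (V a) ϖ (ry y - algebraMap O F κ₁ - algebraMap O F κa) :=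
        (hκa.sub hκ₁).congr (by ring)
      have hx : r b + algebraMap O F (κ₂ - κ₁ - κa) ∈ V b :=
        (V b).add_mem (hr b) (constV b _)
      have hxa : MemPi (V b) ϖ (r b + algebraMap O F (κ₂ - κ₁ - κa)
          - (ry y - algebraMap O F κ₁ - algebraMap O F κa)) :=
        hκ₂.congr (by rw [map_sub, map_sub]; ring)
      have hfin := hvan b _ hx (hregW b _ (κ₂ - κ₁ - κa) rfl) y a hyb hya _ ha0 hma0 hxa
      exact ⟨κ₁ + κa - κ₂, hfin.congr (by rw [map_sub, map_sub, map_sub, map_add]; ring)⟩
  exact fun W => hchain W (conn W₀ W)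

/-- **One depth step `j → j + 1` from a bare `reg` statement** (no field `topc`): if at every
closed point the leading terms of the generic forms of depth `j` of `f` are, up to constants,
ONE element of the local ring (`hreg`), and leading terms of this kind are constant modulo `ϖ`
(`hglob`, e.g. `glob_of_root`), then depth `≥ j` on every component gives depth `≥ j + 1` on
every component. -/
theorem depth_step_of_reg {p : ℕ} {ϖ : O} (hϖ : ¬ IsUnit ϖ)
    (constV : ∀ W (a : O), algebraMap O F a ∈ V W) (f : F) (j : ℕ) (hj : 1 ≤ j)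
    (hreg : ∀ y, (∀ W, On y W → ∃ c : O, c ≠ 0 ∧ DepthIn (V W) p ϖ j f c) →
      ∃ ry : F, ry ∈ R y ∧ ∀ W, On y W → ∀ (c : O) (g r : F), c ≠ 0 → r ∈ V W →
        f = algebraMap O F c * g ^ p * (1 + algebraMap O F ϖ ^ j * r) →
        ∃ κ : O, MemPi (V W) ϖ (r - ry + algebraMap O F κ))
    (hglob : ∀ (r : ι → F), (∀ W, r W ∈ V W) → ∀ (ry : Y → F), (∀ y, ry y ∈ R y) →
      (∀ y W, On y W → ∃ κ : O, MemPi (V W) ϖ (r W - ry y + algebraMap O F κ)) →
      ∀ W, ∃ κ : O, MemPi (V W) ϖ (r W - algebraMap O F κ))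
    (ih : ∀ W, ∃ c : O, c ≠ 0 ∧ DepthIn (V W) p ϖ j f c) :
    ∀ W, ∃ c : O, c ≠ 0 ∧ DepthIn (V W) p ϖ (j + 1) f c := by
  have ih' : ∀ W, ∃ c : O, c ≠ 0 ∧ ∃ g r : F, r ∈ V W ∧
      f = algebraMap O F c * g ^ p * (1 + algebraMap O F ϖ ^ j * r) := ih
  choose c hc g r hr hfe using ih'
  have hreg' := fun y => hreg y (fun W _ => ⟨c W, hc W, g W, r W, hr W, hfe W⟩)
  choose ry hry hκ using hreg'
  have hk : ∀ y W, On y W → ∃ κ : O, MemPi (V W) ϖ (r W - ry y + algebraMap O F κ) :=
    fun y W h => hκ y W h (c W) (g W) (r W) (hc W) (hr W) (hfe W)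
  intro W
  obtain ⟨κ, hκW⟩ := hglob r hr ry hry hk W
  exact DepthIn.succ (constV W) hϖ hj (hc W) (hfe W) hκW

end Step

end Fermat.Agent.S33.Geo.Model
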