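import Mathlib
import Fermat.Agent.S33.Geo.Model
import Fermat.Agent.S33.Geo.ChartGlobal
import Fermat.Agent.S33.Geo.BranchDvr
import Fermat.Agent.S33.Geo.BranchPin

/-!
# S33 / GEO / C3 (T1): the components of the two charts, from the blocks at the closed points

Level-free (Mathlib + `S33/Geo/{Top, TopLocal, Model, ChartGlobal, BranchDvr, BranchPin}` +
`CechP1` + `DepthHenselExit.locAt`).  helper76.

`O` a ring, `F` a field over `O`, `ϖ : O`, `u : F`; the two charts are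
`C_t := integralClosure O[t] F` for `t = u`, `u⁻¹`.

* `IsGen ϖ u W` : `W` is the generic ring of a component of the fibre of the two charts: a
  valuation ring of `F` with uniformiser `ϖ` (`BranchDvr.IsPiDvr`) containing `u`, `u⁻¹`, which is
  a localisation of each of the two charts (field `loc`).  The canonical component type of the
  model of the two charts is `{W : Subring F // IsGen ϖ u W}`, with `V := Subtype.val`.
* `IsGen.hV`, `IsGen.hne`, `IsGen.hunit`, `IsGen.constV` : the binders `hV`, `hne`, `hunit`,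
  `constV` of `ChartGlobal` / `Model.IsModel` for this component type; `IsGen.unif` (a field,
  `BranchPin.IsDisc`): the binder `hunif` of `Orth.depthIn_form`.
* `finite_isGen`, `finite_comp` : there are finitely many components when the chart `u` is
  noetherian (`W ↦` its centre is an injection into the minimal primes over `ϖ`);
  `isNoetherianRing_chart` : the chart is noetherian under the binder `hfin` of `ChartGlobal`.
* `BlockU p ϖ u Hor Ry` : a `Model.NodeBlock` / `Model.SmoothBlock` at the local ring `Ry` whose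
  branch rings contain `u`, `u⁻¹`.
* `node_facts`, `smooth_facts`, `forall_isGen` : the branch rings of a block at a point of a
  chart are components, and every component is a branch ring of the block at some closed point
  of the chart `u` (so a property of the branch rings is a property of all components).
* `pinned_block` : a `BlockU` at the local ring `locAt O[t] 𝔪` of a chart is a block of
  `Model.IsModel` for the component type above and the incidence relation "the centre of `W` on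
  the chart lies in `𝔪`", i.e. the components through the point are EXACTLY the branch rings of
  its block.
* `hred0`, `hred1` : the fibres of the two charts are reduced (the binders `hred0`, `hred1` of
  `ChartGlobal.conn_of_charts`), from the blocks at the closed points of the chart `u` and at
  the closed points over `u = ∞` of the chart `u⁻¹`.
-/

set_option autoImplicit false
set_option linter.unusedSectionVars false
set_option linter.unusedVariables false

namespace Fermat.Agent.S33.Geo.ChartBranch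

open Polynomial Fermat.Agent.S30.Model Fermat.Agent.S33.Geo.Top Fermat.Agent.S33.Geo.TopLocal
  Fermat.Agent.S33.Geo.Model Fermat.Agent.S33.Geo.ChartGlobal Fermat.Agent.S33.Geo.BranchDvr
  Fermat.Agent.S33.Geo.BranchPin Fermat.Agent.S44.L.DepthHenselExit

universe v

/-! ### Generic rings of the two charts -/

section Gen

variable {O : Type*} [CommRing O] {F : Type v} [Field F] [Algebra O F]

/-- **The generic ring of a component of the fibre of the two charts of `u`**: a valuation ring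
of `F` over `O` with uniformiser `ϖ`, containing `u` and `u⁻¹`, every element of which is a
fraction of elements of the chart `integralClosure O[t] F` (`t = u`, `u⁻¹`) with denominator a
unit of `W`. -/
structure IsGen (ϖ : O) (u : F) (W : Subring F) : Prop where
  /-- `W` is a valuation ring with uniformiser `ϖ` -/
  dvr : IsPiDvr ϖ W
  /-- `u ∈ W` -/
  mem : u ∈ W
  /-- `u⁻¹ ∈ W` -/
  inv_mem : u⁻¹ ∈ W
  /-- `W` is discrete: every nonzero element is a power of `ϖ` times a unit of `W` -/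
  unif : IsDisc ϖ W
  /-- `W` is a localisation of each of the two charts -/
  loc : ∀ t : F, t = u ∨ t = u⁻¹ → ∀ x : F, x ∈ W →
    ∃ b c : integralClosure (Algebra.adjoin O ({t} : Set F)) F,
      ¬ MemPi W ϖ (b : F) ∧ x * (b : F) = (c : F)

variable {ϖ : O} {u : F} {W : Subring F}

/-- The binder `hV` of `ChartGlobal`. -/
theorem IsGen.hV (h : IsGen ϖ u W) (x : F)
    (hx : IsIntegral (Algebra.adjoin O ({u, u⁻¹} : Set F)) x) : x ∈ W :=
  h.dvr.mem_of_isIntegral_adjoin {u, u⁻¹} (by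
    intro t ht
    rcases ht with rfl | rfl
    · exact h.mem
    · exact h.inv_mem) x hx

/-- The binder `hne` of `ChartGlobal`. -/
theorem IsGen.hne (h : IsGen ϖ u W) : ¬ MemPi W ϖ 1 := h.dvr.ne

/-- The binder `hunit` of `ChartGlobal`. -/
theorem IsGen.hunit (h : IsGen ϖ u W) (a : F) (ha : a ∈ W) (hna : ¬ MemPi W ϖ a) : a⁻¹ ∈ W :=
  h.dvr.unit a ha hna

/-- The field `constV` of `Model.IsModel`. -/
theorem IsGen.constV (h : IsGen ϖ u W) (a : O) : algebraMap O F a ∈ W := h.dvr.const a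

/-- The two charts lie in a generic ring. -/
theorem IsGen.chart_mem (h : IsGen ϖ u W) {t : F} (ht : t = u ∨ t = u⁻¹)
    (b : integralClosure (Algebra.adjoin O ({t} : Set F)) F) : (b : F) ∈ W := by
  refine h.hV _ (CechP1.isIntegral_mono (Algebra.adjoin_mono ?_) b.2)
  rcases ht with rfl | rfl <;> simp

/-- A non-unit of a generic ring is not `0`-free: elements outside `ϖ W` are nonzero. -/
theorem ne_zero_of_not_memPi {x : F} (hx : ¬ MemPi W ϖ x) : x ≠ 0 := fun h0 =>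
  hx (h0 ▸ memPi_zero W ϖ)

/-- The local ring of a chart at a prime containing the centre of `W` lies in `W`. -/
theorem IsGen.locAt_le (h : IsGen ϖ u W) {t : F} (ht : t = u ∨ t = u⁻¹)
    (𝔪 : Ideal (integralClosure (Algebra.adjoin O ({t} : Set F)) F)) (h𝔪 : 𝔪.IsPrime)
    (hcen : ∀ b : integralClosure (Algebra.adjoin O ({t} : Set F)) F,
      MemPi W ϖ (b : F) → b ∈ 𝔪) :
    locAt (Algebra.adjoin O ({t} : Set F)) 𝔪 h𝔪 ≤ W := by
  rintro x ⟨d, hd, hdx⟩
  have hdW : (d : F) ∈ W := h.chart_mem ht d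
  have hnd : ¬ MemPi W ϖ (d : F) := fun hm => hd (hcen d hm)
  have hd0 : (d : F) ≠ 0 := ne_zero_of_not_memPi hnd
  have hinv := h.dvr.unit _ hdW hnd
  have hdxW : (d : F) * x ∈ W :=
    h.chart_mem ht (⟨_, hdx⟩ : integralClosure (Algebra.adjoin O ({t} : Set F)) F)
  have e : x = (d : F)⁻¹ * ((d : F) * x) := by field_simp
  rw [e]
  exact W.mul_mem hinv hdxW

/-- The centre of `W` on the chart `t`, as an ideal. -/
def cen (ϖ : O) (t : F) (W : Subring F)
    (hW : ∀ b : integralClosure (Algebra.adjoin O ({t} : Set F)) F, (b : F) ∈ W) :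
    Ideal (integralClosure (Algebra.adjoin O ({t} : Set F)) F) where
  carrier := {b | MemPi W ϖ (b : F)}
  add_mem' := fun {a b} ha hb => by
    show MemPi W ϖ ((a : F) + (b : F))
    exact memPi_add ha hb
  zero_mem' := by
    show MemPi W ϖ (0 : F)
    exact memPi_zero W ϖ
  smul_mem' := fun c b hb => by
    show MemPi W ϖ ((c : F) * (b : F))
    exact memPi_mul_left hb (hW c)

theorem mem_cen {t : F} (hW : ∀ b : integralClosure (Algebra.adjoin O ({t} : Set F)) F,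
    (b : F) ∈ W) (b : integralClosure (Algebra.adjoin O ({t} : Set F)) F) :
    b ∈ cen ϖ t W hW ↔ MemPi W ϖ (b : F) := Iff.rfl

/-- The centre of a generic ring is a prime ideal. -/
theorem IsGen.cen_isPrime (h : IsGen ϖ u W) {t : F} (ht : t = u ∨ t = u⁻¹) :
    (cen ϖ t W (h.chart_mem ht)).IsPrime := by
  constructor
  · rw [Ideal.ne_top_iff_one]
    intro h1
    exact h.dvr.ne h1
  · intro a b hab
    by_contra hcon
    push Not at hcon
    obtain ⟨ha, hb⟩ := hcon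
    have ha' : ¬ MemPi W ϖ (a : F) := ha
    have hab' : MemPi W ϖ ((a : F) * (b : F)) := hab
    have hainv := h.dvr.unit _ (h.chart_mem ht a) ha'
    have ha0 : (a : F) ≠ 0 := ne_zero_of_not_memPi ha'
    apply hb
    have e : (b : F) = (a : F)⁻¹ * ((a : F) * (b : F)) := by field_simp
    show MemPi W ϖ (b : F)
    rw [e]
    exact memPi_mul_left hab' hainv

/-- The centre of a generic ring contains `ϖ`. -/
theorem IsGen.pi_mem_cen (h : IsGen ϖ u W) {t : F} (ht : t = u ∨ t = u⁻¹) :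
    algebraMap O (integralClosure (Algebra.adjoin O ({t} : Set F)) F) ϖ ∈
      cen ϖ t W (h.chart_mem ht) := by
  show MemPi W ϖ (algebraMap O F ϖ)
  exact ⟨1, W.one_mem, by rw [mul_one]⟩

/-- The centre of a generic ring is minimal among the primes containing `ϖ`. -/
theorem IsGen.cen_le_of_le (h : IsGen ϖ u W) {t : F} (ht : t = u ∨ t = u⁻¹)
    (𝔓 : Ideal (integralClosure (Algebra.adjoin O ({t} : Set F)) F)) (h𝔓 : 𝔓.IsPrime)
    (hϖ : algebraMap O (integralClosure (Algebra.adjoin O ({t} : Set F)) F) ϖ ∈ 𝔓)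
    (hle : 𝔓 ≤ cen ϖ t W (h.chart_mem ht)) : cen ϖ t W (h.chart_mem ht) ≤ 𝔓 := by
  intro b hb
  obtain ⟨w, hw, hbw⟩ := (hb : MemPi W ϖ (b : F))
  obtain ⟨d, c, hd, hwd⟩ := h.loc t ht w hw
  have e : b * d = algebraMap O (integralClosure (Algebra.adjoin O ({t} : Set F)) F) ϖ * c := by
    apply Subtype.ext
    show (b : F) * (d : F) = algebraMap O F ϖ * (c : F)
    rw [hbw, mul_assoc, hwd]
  have hbd : b * d ∈ 𝔓 := by
    rw [e]
    exact 𝔓.mul_mem_right _ hϖ
  rcases h𝔓.mem_or_mem hbd with hb' | hd'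
  · exact hb'
  · exact absurd (hle hd') hd

/-- A generic ring is determined by its centre on one chart. -/
theorem IsGen.le_of_cen_le (h : IsGen ϖ u W) {W' : Subring F} (h' : IsGen ϖ u W') {t : F}
    (ht : t = u ∨ t = u⁻¹)
    (hle : ∀ b : integralClosure (Algebra.adjoin O ({t} : Set F)) F,
      MemPi W' ϖ (b : F) → MemPi W ϖ (b : F)) : W ≤ W' := by
  intro x hx
  obtain ⟨b, c, hb, hxb⟩ := h.loc t ht x hx
  have hb' : ¬ MemPi W' ϖ (b : F) := fun hm => hb (hle b hm)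
  have hb0 : (b : F) ≠ 0 := ne_zero_of_not_memPi hb
  have hinv := h'.dvr.unit _ (h'.chart_mem ht b) hb'
  have e : x = (c : F) * (b : F)⁻¹ := by
    rw [← hxb]
    field_simp
  rw [e]
  exact W'.mul_mem (h'.chart_mem ht c) hinv

/-- Every generic ring passes through a closed point of the fibre of the chart `u`. -/
theorem IsGen.exists_point (h : IsGen ϖ u W) :
    ∃ (𝔪 : Ideal (integralClosure (Algebra.adjoin O ({u} : Set F)) F)) (h𝔪 : 𝔪.IsMaximal),
      algebraMap O (integralClosure (Algebra.adjoin O ({u} : Set F)) F) ϖ ∈ 𝔪 ∧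
      ∀ b : integralClosure (Algebra.adjoin O ({u} : Set F)) F, MemPi W ϖ (b : F) → b ∈ 𝔪 := by
  obtain ⟨𝔪, h𝔪, hle⟩ := Ideal.exists_le_maximal _ (h.cen_isPrime (Or.inl rfl)).ne_top
  exact ⟨𝔪, h𝔪, hle (h.pi_mem_cen (Or.inl rfl)), fun b hb => hle hb⟩

/-- **Finitely many components**: the generic rings inject into the minimal primes over `ϖ` of
the (noetherian) chart `u`. -/
theorem finite_comp (ϖ : O) (u : F)
    [IsNoetherianRing (integralClosure (Algebra.adjoin O ({u} : Set F)) F)] :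
    Finite {W : Subring F // IsGen ϖ u W} := by
  classical
  have hfin := Ideal.finite_minimalPrimes_of_isNoetherianRing
    (integralClosure (Algebra.adjoin O ({u} : Set F)) F)
    (Ideal.span {algebraMap O (integralClosure (Algebra.adjoin O ({u} : Set F)) F) ϖ})
  have hmem : ∀ W : {W : Subring F // IsGen ϖ u W},
      cen ϖ u W.1 (W.2.chart_mem (Or.inl rfl)) ∈
        (Ideal.span {algebraMap O (integralClosure (Algebra.adjoin O ({u} : Set F)) F)
          ϖ}).minimalPrimes := by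
    intro W
    refine ⟨⟨W.2.cen_isPrime (Or.inl rfl), ?_⟩, ?_⟩
    · rw [Ideal.span_singleton_le_iff_mem]
      exact W.2.pi_mem_cen (Or.inl rfl)
    · rintro 𝔓 ⟨h𝔓, hspan⟩ hle
      exact W.2.cen_le_of_le (Or.inl rfl) 𝔓 h𝔓
        ((Ideal.span_singleton_le_iff_mem _).mp hspan) hle
  have := hfin.to_subtype
  refine Finite.of_injective
    (fun W : {W : Subring F // IsGen ϖ u W} =>
      (⟨cen ϖ u W.1 (W.2.chart_mem (Or.inl rfl)), hmem W⟩ :
        (Ideal.span {algebraMap O (integralClosure (Algebra.adjoin O ({u} : Set F)) F)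
          ϖ}).minimalPrimes)) ?_
  intro W W' hWW'
  have hcen : cen ϖ u W.1 (W.2.chart_mem (Or.inl rfl)) =
      cen ϖ u W'.1 (W'.2.chart_mem (Or.inl rfl)) := congrArg Subtype.val hWW'
  apply Subtype.ext
  have h1 : W.1 ≤ W'.1 := W.2.le_of_cen_le W'.2 (Or.inl rfl) (fun b hb => by
    have hb' : b ∈ cen ϖ u W'.1 (W'.2.chart_mem (Or.inl rfl)) := hb
    rw [← hcen] at hb'
    exact hb')
  exact (W.2.dvr.eq_of_le' W'.2.dvr h1).symm

/-- The set form of `finite_comp`. -/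
theorem finite_isGen (ϖ : O) (u : F)
    [IsNoetherianRing (integralClosure (Algebra.adjoin O ({u} : Set F)) F)] :
    {W : Subring F | IsGen ϖ u W}.Finite := by
  have := finite_comp ϖ u
  exact Set.finite_coe_iff.mp this

end Gen

/-! ### Change of chart -/

section Change

variable {O : Type*} [CommRing O] {F : Type v} [Field F] [Algebra O F]

/-- An element of the chart `t` becomes an element of the chart `t⁻¹` after multiplication by a
power of `t⁻¹`. -/
theorem chart_change (t : F) (ht : t ≠ 0) (x : F)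
    (hx : IsIntegral (Algebra.adjoin O ({t} : Set F)) x) :
    ∃ n : ℕ, IsIntegral (Algebra.adjoin O ({t⁻¹} : Set F)) (t⁻¹ ^ n * x) := by
  have h2 : IsIntegral (Algebra.adjoin O ({t⁻¹, t⁻¹⁻¹} : Set F)) x := by
    refine CechP1.isIntegral_mono (Algebra.adjoin_mono ?_) hx
    rw [inv_inv]
    simp
  exact CechP1.exists_pow_mul_isIntegral t⁻¹ (inv_ne_zero ht) x h2

/-- The same for two elements at once. -/
theorem chart_change₂ (t : F) (ht : t ≠ 0)
    (b c : integralClosure (Algebra.adjoin O ({t} : Set F)) F) :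
    ∃ (n : ℕ) (b' c' : integralClosure (Algebra.adjoin O ({t⁻¹} : Set F)) F),
      (b' : F) = t⁻¹ ^ n * (b : F) ∧ (c' : F) = t⁻¹ ^ n * (c : F) := by
  obtain ⟨n₁, h₁⟩ := chart_change t ht (b : F) b.2
  obtain ⟨n₂, h₂⟩ := chart_change t ht (c : F) c.2
  have htinv : IsIntegral (Algebra.adjoin O ({t⁻¹} : Set F)) t⁻¹ :=
    CechP1.isIntegral_adjoin_of_mem (Algebra.subset_adjoin rfl)
  have e₁ : t⁻¹ ^ (n₁ + n₂) * (b : F) = t⁻¹ ^ n₂ * (t⁻¹ ^ n₁ * (b : F)) := by
    rw [pow_add]; ring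
  have e₂ : t⁻¹ ^ (n₁ + n₂) * (c : F) = t⁻¹ ^ n₁ * (t⁻¹ ^ n₂ * (c : F)) := by
    rw [pow_add]; ring
  exact ⟨n₁ + n₂, ⟨_, e₁ ▸ (htinv.pow n₂).mul h₁⟩, ⟨_, e₂ ▸ (htinv.pow n₁).mul h₂⟩, rfl, rfl⟩

/-- An element which lies in the local ring of the chart at every maximal ideal lies in the
chart. -/
theorem isIntegral_of_forall_locAt (S : Subalgebra O F) (w : F)
    (h : ∀ (𝔪 : Ideal (integralClosure S F)) (h𝔪 : 𝔪.IsMaximal), w ∈ locAt S 𝔪 h𝔪.isPrime) :
    IsIntegral S w := by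
  let I : Ideal (integralClosure S F) :=
    { carrier := {d | IsIntegral S ((d : F) * w)}
      add_mem' := fun {a b} ha hb => by
        show IsIntegral S (((a : F) + (b : F)) * w)
        rw [add_mul]
        exact IsIntegral.add ha hb
      zero_mem' := by
        show IsIntegral S ((0 : F) * w)
        rw [zero_mul]
        exact isIntegral_zero
      smul_mem' := fun c d hd => by
        show IsIntegral S (((c : F) * (d : F)) * w)
        rw [mul_assoc]
        exact IsIntegral.mul c.2 hd }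
  by_cases hI : I = ⊤
  · have h1 : (1 : integralClosure S F) ∈ I := by
      rw [hI]
      exact Submodule.mem_top
    have h2 : IsIntegral S ((1 : F) * w) := h1
    rwa [one_mul] at h2
  · obtain ⟨𝔪, h𝔪, hle⟩ := Ideal.exists_le_maximal I hI
    obtain ⟨d, hd, hdw⟩ := h 𝔪 h𝔪
    exact absurd (hle (show d ∈ I from hdw)) hd

/-- **Reducedness of the fibre of a chart, from the closed points of the fibre**: an element
of the chart which lies in `ϖ R_𝔪` for every maximal `𝔪 ∋ ϖ` is `ϖ` times an element of the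
chart. -/
theorem red_of_points (ϖ : O) (hϖ0 : algebraMap O F ϖ ≠ 0) (S : Subalgebra O F) (x : F)
    (hx : IsIntegral S x)
    (hpt : ∀ (𝔪 : Ideal (integralClosure S F)) (h𝔪 : 𝔪.IsMaximal),
      algebraMap O (integralClosure S F) ϖ ∈ 𝔪 → MemPi (locAt S 𝔪 h𝔪.isPrime) ϖ x) :
    ∃ w : F, IsIntegral S w ∧ x = algebraMap O F ϖ * w := by
  refine ⟨x / algebraMap O F ϖ, isIntegral_of_forall_locAt S _ ?_, by field_simp⟩
  intro 𝔪 h𝔪
  by_cases hϖ : algebraMap O (integralClosure S F) ϖ ∈ 𝔪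
  · obtain ⟨v, hv, hxv⟩ := hpt 𝔪 h𝔪 hϖ
    have e : x / algebraMap O F ϖ = v := by
      rw [hxv]
      field_simp
    rw [e]
    exact hv
  · refine ⟨algebraMap O (integralClosure S F) ϖ, hϖ, ?_⟩
    have e : algebraMap O F ϖ * (x / algebraMap O F ϖ) = x := by field_simp
    show IsIntegral S (algebraMap O F ϖ * (x / algebraMap O F ϖ))
    rw [e]
    exact hx

end Change

/-! ### The branch rings of a local presentation of a point of a chart -/

section Point

variable {O : Type*} [CommRing O] {F : Type v} [Field F] [Algebra O F]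
  {A : Type*} [CommRing A] [IsDomain A] [Algebra O A] [Algebra A F] [IsFractionRing A F]
  [IsScalarTower O A F]

/-- The centre of the first branch ring of a regular node on its local ring. -/
theorem node_cen_left {s t : A} (hs : Prime s) (ht : Prime t) (hne : ¬ Associated s t) {ϖ : O}
    (hst : Associated (s * t) (algebraMap O A ϖ)) {V₁ : Subring F} (hV₁ : IsBranch s V₁)
    (a : A) : MemPi V₁ ϖ (algebraMap A F a) ↔ s ∣ a := by
  obtain ⟨w, hw⟩ := hst
  exact memPi_algebraMap_iff hs hV₁ (not_dvd_mul_unit_of_node hs ht hne w)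
    (by rw [← hw]; ring) a

/-- The centre of the second branch ring of a regular node on its local ring. -/
theorem node_cen_right {s t : A} (hs : Prime s) (ht : Prime t) (hne : ¬ Associated s t) {ϖ : O}
    (hst : Associated (s * t) (algebraMap O A ϖ)) {V₂ : Subring F} (hV₂ : IsBranch t V₂)
    (a : A) : MemPi V₂ ϖ (algebraMap A F a) ↔ t ∣ a := by
  obtain ⟨w, hw⟩ := hst
  exact memPi_algebraMap_iff ht hV₂ (not_dvd_mul_unit_of_node ht hs (fun h => hne h.symm) w)
    (by rw [← hw]; ring) a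

/-- The centre of the branch ring of a smooth point of the fibre on its local ring. -/
theorem smooth_cen {ϖ : O} (hϖ : Prime (algebraMap O A ϖ)) {V₁ : Subring F}
    (hV₁ : IsBranch (algebraMap O A ϖ) V₁) (a : A) :
    MemPi V₁ ϖ (algebraMap A F a) ↔ algebraMap O A ϖ ∣ a :=
  memPi_algebraMap_iff hϖ hV₁ (e := 1) hϖ.not_dvd_one (by rw [mul_one]) a

variable {t : F} (𝔪 : Ideal (integralClosure (Algebra.adjoin O ({t} : Set F)) F))
  (h𝔪 : 𝔪.IsPrime)
  (hrange : (algebraMap A F).range = locAt (Algebra.adjoin O ({t} : Set F)) 𝔪 h𝔪)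

include hrange

/-- The elements of the chart lie in the presentation of the local ring. -/
theorem chart_mem_range (b : integralClosure (Algebra.adjoin O ({t} : Set F)) F) :
    (b : F) ∈ (algebraMap A F).range := by
  rw [hrange]
  exact coe_mem_locAt _ 𝔪 h𝔪 b

/-- The chart elements outside `𝔪` are units of the local ring. -/
theorem inv_mem_range {d : integralClosure (Algebra.adjoin O ({t} : Set F)) F} (hd : d ∉ 𝔪) :
    (d : F) ≠ 0 ∧ (d : F)⁻¹ ∈ (algebraMap A F).range := by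
  have hd0 : (d : F) ≠ 0 := fun h0 => hd (by
    have e : d = 0 := Subtype.ext h0
    rw [e]
    exact 𝔪.zero_mem)
  refine ⟨hd0, ?_⟩
  rw [hrange]
  exact ⟨d, hd, by rw [mul_inv_cancel₀ hd0]; exact isIntegral_one⟩

/-- A branch ring `A_(s)` of the local ring of a chart at `𝔪` is a localisation of the chart. -/
theorem loc_of_isBranch {s : A} {V : Subring F} (hV : IsBranch s V) (ϖ : O)
    (hle : (algebraMap A F).range ≤ V)
    (hcen : ∀ a : A, MemPi V ϖ (algebraMap A F a) → s ∣ a) (x : F) (hx : x ∈ V) :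
    ∃ b c : integralClosure (Algebra.adjoin O ({t} : Set F)) F,
      ¬ MemPi V ϖ (b : F) ∧ x * (b : F) = (c : F) := by
  obtain ⟨a, b, hb, hab⟩ := (hV x).mp hx
  have hbR : algebraMap A F b ∈ locAt (Algebra.adjoin O ({t} : Set F)) 𝔪 h𝔪 :=
    hrange ▸ ⟨b, rfl⟩
  have haR : algebraMap A F a ∈ locAt (Algebra.adjoin O ({t} : Set F)) 𝔪 h𝔪 :=
    hrange ▸ ⟨a, rfl⟩
  obtain ⟨d₁, hd₁, hd₁b⟩ := hbR
  obtain ⟨d₂, hd₂, hd₂a⟩ := haR
  refine ⟨d₂ * (⟨_, hd₁b⟩ : integralClosure (Algebra.adjoin O ({t} : Set F)) F),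
    d₁ * (⟨_, hd₂a⟩ : integralClosure (Algebra.adjoin O ({t} : Set F)) F), ?_, ?_⟩
  · intro hm
    have hm' : MemPi V ϖ ((d₂ : F) * ((d₁ : F) * algebraMap A F b)) := hm
    obtain ⟨h10, h1⟩ := inv_mem_range 𝔪 h𝔪 hrange hd₁
    obtain ⟨h20, h2⟩ := inv_mem_range 𝔪 h𝔪 hrange hd₂
    apply hb
    apply hcen
    have e : algebraMap A F b = ((d₂ : F) * ((d₁ : F) * algebraMap A F b)) *
        ((d₁ : F)⁻¹ * (d₂ : F)⁻¹) := by
      field_simp
    rw [e]
    exact memPi_mul_right hm' (V.mul_mem (hle h1) (hle h2))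
  · show x * ((d₂ : F) * ((d₁ : F) * algebraMap A F b)) =
      (d₁ : F) * ((d₂ : F) * algebraMap A F a)
    rw [← hab]
    ring

/-- **A branch ring of a point of a chart is a generic ring of the two charts**, as soon as it
contains `u` and `u⁻¹`. -/
theorem isGen_of_isBranch (ϖ : O) {u : F} (hu : u ≠ 0) (ht : t = u ∨ t = u⁻¹)
    {s : A} {V : Subring F} (hV : IsBranch s V) (hdvr : IsPiDvr ϖ V)
    (hunif : IsDisc ϖ V)
    (hle : (algebraMap A F).range ≤ V)
    (hcen : ∀ a : A, MemPi V ϖ (algebraMap A F a) → s ∣ a)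
    (hmem : u ∈ V) (hinv : u⁻¹ ∈ V) : IsGen ϖ u V where
  dvr := hdvr
  mem := hmem
  inv_mem := hinv
  unif := hunif
  loc := by
    have ht0 : t ≠ 0 := by
      rcases ht with h | h
      · rw [h]; exact hu
      · rw [h]; exact inv_ne_zero hu
    have htV : t ∈ V := by
      rcases ht with h | h
      · rw [h]; exact hmem
      · rw [h]; exact hinv
    have home := loc_of_isBranch 𝔪 h𝔪 hrange hV ϖ hle hcen
    have away : ∀ x : F, x ∈ V →
        ∃ b c : integralClosure (Algebra.adjoin O ({t⁻¹} : Set F)) F,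
          ¬ MemPi V ϖ (b : F) ∧ x * (b : F) = (c : F) := by
      intro x hx
      obtain ⟨b, c, hb, hxb⟩ := home x hx
      obtain ⟨n, b', c', hb', hc'⟩ := chart_change₂ t ht0 b c
      refine ⟨b', c', ?_, ?_⟩
      · intro hm
        apply hb
        have e : (b : F) = (b' : F) * t ^ n := by
          rw [hb', inv_pow]
          field_simp
        rw [e]
        exact memPi_mul_right hm (V.pow_mem htV n)
      · rw [hb', hc', ← hxb]
        ring
    intro t' ht' x hx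
    have hcase : t' = t ∨ t' = t⁻¹ := by
      rcases ht with h | h
      · rw [h]; exact ht'
      · rw [h, inv_inv]; exact ht'.symm
    rcases hcase with rfl | rfl
    · exact home x hx
    · exact away x hx

/-- The centre on the chart of a branch ring of the local ring at `𝔪` lies in `𝔪`. -/
theorem cen_le_of_isBranch {s : A} (hs : ¬ IsUnit s) {V : Subring F} (ϖ : O)
    (hcen : ∀ a : A, MemPi V ϖ (algebraMap A F a) → s ∣ a)
    (b : integralClosure (Algebra.adjoin O ({t} : Set F)) F) (hb : MemPi V ϖ (b : F)) :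
    b ∈ 𝔪 := by
  by_contra hb𝔪
  obtain ⟨b', hb'⟩ := chart_mem_range 𝔪 h𝔪 hrange b
  obtain ⟨hb0, k, hk⟩ := inv_mem_range 𝔪 h𝔪 hrange hb𝔪
  have h1 : b' * k = 1 := by
    apply IsFractionRing.injective A F
    rw [map_mul, hb', hk, mul_inv_cancel₀ hb0, map_one]
  have hsb : s ∣ b' := hcen b' (by rw [hb']; exact hb)
  exact hs (isUnit_of_dvd_unit hsb (IsUnit.of_mul_eq_one _ h1))

variable {ϖ : O} {u : F} {W : Subring F}

/-- A generic ring centred in `𝔪` contains the local ring at `𝔪`. -/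
theorem IsGen.range_le (h : IsGen ϖ u W) (ht : t = u ∨ t = u⁻¹)
    (hcen : ∀ b : integralClosure (Algebra.adjoin O ({t} : Set F)) F,
      MemPi W ϖ (b : F) → b ∈ 𝔪) (a : A) : algebraMap A F a ∈ W :=
  h.locAt_le ht 𝔪 h𝔪 hcen (hrange ▸ ⟨a, rfl⟩)

/-- A generic ring containing the local ring at `𝔪`, in which `s` is not a unit, lies in the
branch ring `A_(s)`. -/
theorem IsGen.le_branch (h : IsGen ϖ u W) (ht : t = u ∨ t = u⁻¹)
    (hAW : ∀ a : A, algebraMap A F a ∈ W) {s : A} {V : Subring F} (hV : IsBranch s V)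
    (hs : MemPi W ϖ (algebraMap A F s)) : W ≤ V := by
  intro x hx
  obtain ⟨b, c, hb, hxb⟩ := h.loc t ht x hx
  obtain ⟨b', hb'⟩ := chart_mem_range 𝔪 h𝔪 hrange b
  obtain ⟨c', hc'⟩ := chart_mem_range 𝔪 h𝔪 hrange c
  refine (hV x).mpr ⟨c', b', ?_, by rw [hb', hc']; exact hxb⟩
  rintro ⟨k, rfl⟩
  apply hb
  rw [← hb', map_mul]
  exact memPi_mul_right hs (hAW k)

/-- **Pinning at a regular node**: a generic ring centred in `𝔪` is one of the two branch
rings. -/
theorem IsGen.eq_of_node (h : IsGen ϖ u W) (ht : t = u ∨ t = u⁻¹)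
    (hcen : ∀ b : integralClosure (Algebra.adjoin O ({t} : Set F)) F,
      MemPi W ϖ (b : F) → b ∈ 𝔪)
    {s t' : A} (hst : Associated (s * t') (algebraMap O A ϖ)) {V₁ V₂ : Subring F}
    (hV₁ : IsBranch s V₁) (hV₂ : IsBranch t' V₂) (h₁ : IsPiDvr ϖ V₁) (h₂ : IsPiDvr ϖ V₂) :
    W = V₁ ∨ W = V₂ := by
  have hAW := h.range_le 𝔪 h𝔪 hrange ht hcen
  obtain ⟨e, he⟩ := hst
  have key : MemPi W ϖ (algebraMap A F s) ∨ MemPi W ϖ (algebraMap A F t') := by
    by_contra hcon
    push Not at hcon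
    obtain ⟨hs, ht'⟩ := hcon
    have h1 := h.dvr.unit _ (hAW s) hs
    have h2 := h.dvr.unit _ (hAW t') ht'
    have h3 : algebraMap A F ((e⁻¹ : Aˣ) : A) ∈ W := hAW _
    have hs0 : algebraMap A F s ≠ 0 := ne_zero_of_not_memPi hs
    have ht0 : algebraMap A F t' ≠ 0 := ne_zero_of_not_memPi ht'
    have hee : algebraMap A F (e : A) * algebraMap A F ((e⁻¹ : Aˣ) : A) = 1 := by
      rw [← map_mul, Units.mul_inv, map_one]
    apply h.dvr.ne
    refine ⟨(algebraMap A F s)⁻¹ * (algebraMap A F t')⁻¹ * algebraMap A F ((e⁻¹ : Aˣ) : A),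
      W.mul_mem (W.mul_mem h1 h2) h3, ?_⟩
    rw [IsScalarTower.algebraMap_apply O A F, ← he, map_mul, map_mul]
    have e1 : algebraMap A F s * algebraMap A F t' * algebraMap A F (e : A) *
        ((algebraMap A F s)⁻¹ * (algebraMap A F t')⁻¹ * algebraMap A F ((e⁻¹ : Aˣ) : A)) =
        (algebraMap A F s * (algebraMap A F s)⁻¹) * (algebraMap A F t' * (algebraMap A F t')⁻¹) *
          (algebraMap A F (e : A) * algebraMap A F ((e⁻¹ : Aˣ) : A)) := by ring
    rw [e1, mul_inv_cancel₀ hs0, mul_inv_cancel₀ ht0, hee]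
    ring
  rcases key with hs | ht'
  · left
    exact (h.dvr.eq_of_le (h.le_branch 𝔪 h𝔪 hrange ht hAW hV₁ hs) h₁.inv_pi_notMem).symm
  · right
    exact (h.dvr.eq_of_le (h.le_branch 𝔪 h𝔪 hrange ht hAW hV₂ ht') h₂.inv_pi_notMem).symm

/-- **Pinning at a smooth point of the fibre**: a generic ring centred in `𝔪` is the branch
ring. -/
theorem IsGen.eq_of_smooth (h : IsGen ϖ u W) (ht : t = u ∨ t = u⁻¹)
    (hcen : ∀ b : integralClosure (Algebra.adjoin O ({t} : Set F)) F,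
      MemPi W ϖ (b : F) → b ∈ 𝔪)
    {V₁ : Subring F} (hV₁ : IsBranch (algebraMap O A ϖ) V₁) (h₁ : IsPiDvr ϖ V₁) : W = V₁ := by
  have hAW := h.range_le 𝔪 h𝔪 hrange ht hcen
  have hs : MemPi W ϖ (algebraMap A F (algebraMap O A ϖ)) :=
    ⟨1, W.one_mem, by rw [mul_one, ← IsScalarTower.algebraMap_apply O A F]⟩
  exact (h.dvr.eq_of_le (h.le_branch 𝔪 h𝔪 hrange ht hAW hV₁ hs) h₁.inv_pi_notMem).symm

end Point

/-! ### Blocks at the closed points of the charts -/

section Blocks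

variable {O : Type*} [CommRing O] [IsDomain O] [IsDiscreteValuationRing O]
  {F : Type v} [Field F] [Algebra O F]

/-- A local block (`Model.NodeBlock` or `Model.SmoothBlock`) at the local ring `Ry` whose branch
rings contain `u` and `u⁻¹`. -/
def BlockU (p : ℕ) (ϖ : O) (u : F) (Hor : F → Prop) (Ry : Subring F) : Prop :=
  (∃ V₁ V₂ : Subring F, NodeBlock p ϖ Hor Ry V₁ V₂ ∧ (u ∈ V₁ ∧ u⁻¹ ∈ V₁) ∧ (u ∈ V₂ ∧ u⁻¹ ∈ V₂)) ∨
  (∃ V₁ : Subring F, SmoothBlock p ϖ Hor Ry V₁ ∧ u ∈ V₁ ∧ u⁻¹ ∈ V₁)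

/-- **Everything a regular node at a point of a chart says about the generic rings**: its
branch rings are generic rings of the two charts, they are the only generic rings centred in
`𝔪`, and the fibre is reduced at the point. -/
theorem node_facts (p : ℕ) (ϖ : O) {u : F} (hu : u ≠ 0) (Hor : F → Prop) {t : F}
    (ht : t = u ∨ t = u⁻¹)
    (𝔪 : Ideal (integralClosure (Algebra.adjoin O ({t} : Set F)) F)) (h𝔪 : 𝔪.IsPrime)
    {V₁ V₂ : Subring F}
    (hN : NodeBlock p ϖ Hor (locAt (Algebra.adjoin O ({t} : Set F)) 𝔪 h𝔪) V₁ V₂)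
    (hu₁ : u ∈ V₁ ∧ u⁻¹ ∈ V₁) (hu₂ : u ∈ V₂ ∧ u⁻¹ ∈ V₂) :
    IsGen ϖ u V₁ ∧ IsGen ϖ u V₂ ∧
      (∀ W : Subring F, IsGen ϖ u W →
        (∀ b : integralClosure (Algebra.adjoin O ({t} : Set F)) F, MemPi W ϖ (b : F) → b ∈ 𝔪) →
        W = V₁ ∨ W = V₂) ∧
      (∀ b : integralClosure (Algebra.adjoin O ({t} : Set F)) F, MemPi V₁ ϖ (b : F) → b ∈ 𝔪) ∧
      (∀ b : integralClosure (Algebra.adjoin O ({t} : Set F)) F, MemPi V₂ ϖ (b : F) → b ∈ 𝔪) ∧
      (∀ x : F, x ∈ locAt (Algebra.adjoin O ({t} : Set F)) 𝔪 h𝔪 → MemPi V₁ ϖ x → MemPi V₂ ϖ x →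
        MemPi (locAt (Algebra.adjoin O ({t} : Set F)) 𝔪 h𝔪) ϖ x) := by
  obtain ⟨A, _, _, _, _, _, _, _, _, hrange, hHor, s, t', hs, ht', hne, hm, hst, hV₁, hV₂⟩ := hN
  have h₁ : IsPiDvr ϖ V₁ := isPiDvr_node_left hs ht' hne hst hV₁
  have h₂ : IsPiDvr ϖ V₂ := isPiDvr_node_right hs ht' hne hst hV₂
  have c₁ := node_cen_left hs ht' hne hst hV₁
  have c₂ := node_cen_right hs ht' hne hst hV₂
  have g₁ : IsGen ϖ u V₁ := isGen_of_isBranch 𝔪 h𝔪 hrange ϖ hu ht hV₁ h₁
    (isDisc_node_left hs ht' hne hst hV₁) (range_le hs hV₁) (fun a => (c₁ a).mp) hu₁.1 hu₁.2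
  have g₂ : IsGen ϖ u V₂ := isGen_of_isBranch 𝔪 h𝔪 hrange ϖ hu ht hV₂ h₂
    (isDisc_node_right hs ht' hne hst hV₂) (range_le ht' hV₂) (fun a => (c₂ a).mp) hu₂.1 hu₂.2
  refine ⟨g₁, g₂, ?_, ?_, ?_, ?_⟩
  · intro W hW hcen
    exact hW.eq_of_node 𝔪 h𝔪 hrange ht hcen hst hV₁ hV₂ h₁ h₂
  · exact cen_le_of_isBranch 𝔪 h𝔪 hrange hs.not_isUnit ϖ (fun a => (c₁ a).mp)
  · exact cen_le_of_isBranch 𝔪 h𝔪 hrange ht'.not_isUnit ϖ (fun a => (c₂ a).mp)
  · intro x hx hx1 hx2
    rw [← hrange] at hx ⊢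
    exact node_memPi_range hs ht' hne hst hV₁ hV₂ hx hx1 hx2

/-- **Everything a smooth point of the fibre of a chart says about the generic rings**: its
branch ring is a generic ring of the two charts, the only one centred in `𝔪`, and the fibre is
reduced at the point. -/
theorem smooth_facts (p : ℕ) (ϖ : O) {u : F} (hu : u ≠ 0) (Hor : F → Prop) {t : F}
    (ht : t = u ∨ t = u⁻¹)
    (𝔪 : Ideal (integralClosure (Algebra.adjoin O ({t} : Set F)) F)) (h𝔪 : 𝔪.IsPrime)
    {V₁ : Subring F}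
    (hS : SmoothBlock p ϖ Hor (locAt (Algebra.adjoin O ({t} : Set F)) 𝔪 h𝔪) V₁)
    (hu₁ : u ∈ V₁ ∧ u⁻¹ ∈ V₁) :
    IsGen ϖ u V₁ ∧
      (∀ W : Subring F, IsGen ϖ u W →
        (∀ b : integralClosure (Algebra.adjoin O ({t} : Set F)) F, MemPi W ϖ (b : F) → b ∈ 𝔪) →
        W = V₁) ∧
      (∀ b : integralClosure (Algebra.adjoin O ({t} : Set F)) F, MemPi V₁ ϖ (b : F) → b ∈ 𝔪) ∧
      (∀ x : F, x ∈ locAt (Algebra.adjoin O ({t} : Set F)) 𝔪 h𝔪 → MemPi V₁ ϖ x →
        MemPi (locAt (Algebra.adjoin O ({t} : Set F)) 𝔪 h𝔪) ϖ x) := by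
  obtain ⟨A, _, _, _, _, _, _, _, _, hrange, hHor, hϖA, z, hm, hV₁⟩ := hS
  have h₁ : IsPiDvr ϖ V₁ := isPiDvr_smooth hϖA hV₁
  have c₁ := smooth_cen hϖA hV₁
  have g₁ : IsGen ϖ u V₁ := isGen_of_isBranch 𝔪 h𝔪 hrange ϖ hu ht hV₁ h₁
    (isDisc_smooth hϖA hV₁) (range_le hϖA hV₁) (fun a => (c₁ a).mp) hu₁.1 hu₁.2
  refine ⟨g₁, ?_, ?_, ?_⟩
  · intro W hW hcen
    exact hW.eq_of_smooth 𝔪 h𝔪 hrange ht hcen hV₁ h₁
  · exact cen_le_of_isBranch 𝔪 h𝔪 hrange hϖA.not_isUnit ϖ (fun a => (c₁ a).mp)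
  · intro x hx hx1
    rw [← hrange] at hx ⊢
    exact smooth_memPi_range hϖA hV₁ hx hx1

/-- `node_facts` / `smooth_facts` for a `BlockU`. -/
theorem block_facts (p : ℕ) (ϖ : O) {u : F} (hu : u ≠ 0) (Hor : F → Prop) {t : F}
    (ht : t = u ∨ t = u⁻¹)
    (𝔪 : Ideal (integralClosure (Algebra.adjoin O ({t} : Set F)) F)) (h𝔪 : 𝔪.IsPrime)
    (hB : BlockU p ϖ u Hor (locAt (Algebra.adjoin O ({t} : Set F)) 𝔪 h𝔪)) :
    (∃ V₁ V₂ : Subring F, IsGen ϖ u V₁ ∧ IsGen ϖ u V₂ ∧
      NodeBlock p ϖ Hor (locAt (Algebra.adjoin O ({t} : Set F)) 𝔪 h𝔪) V₁ V₂ ∧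
      (∀ W : Subring F, IsGen ϖ u W →
        (∀ b : integralClosure (Algebra.adjoin O ({t} : Set F)) F, MemPi W ϖ (b : F) → b ∈ 𝔪) →
        W = V₁ ∨ W = V₂) ∧
      (∀ b : integralClosure (Algebra.adjoin O ({t} : Set F)) F, MemPi V₁ ϖ (b : F) → b ∈ 𝔪) ∧
      (∀ b : integralClosure (Algebra.adjoin O ({t} : Set F)) F, MemPi V₂ ϖ (b : F) → b ∈ 𝔪) ∧
      (∀ x : F, x ∈ locAt (Algebra.adjoin O ({t} : Set F)) 𝔪 h𝔪 → MemPi V₁ ϖ x → MemPi V₂ ϖ x →
        MemPi (locAt (Algebra.adjoin O ({t} : Set F)) 𝔪 h𝔪) ϖ x)) ∨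
    (∃ V₁ : Subring F, IsGen ϖ u V₁ ∧
      SmoothBlock p ϖ Hor (locAt (Algebra.adjoin O ({t} : Set F)) 𝔪 h𝔪) V₁ ∧
      (∀ W : Subring F, IsGen ϖ u W →
        (∀ b : integralClosure (Algebra.adjoin O ({t} : Set F)) F, MemPi W ϖ (b : F) → b ∈ 𝔪) →
        W = V₁) ∧
      (∀ b : integralClosure (Algebra.adjoin O ({t} : Set F)) F, MemPi V₁ ϖ (b : F) → b ∈ 𝔪) ∧
      (∀ x : F, x ∈ locAt (Algebra.adjoin O ({t} : Set F)) 𝔪 h𝔪 → MemPi V₁ ϖ x →
        MemPi (locAt (Algebra.adjoin O ({t} : Set F)) 𝔪 h𝔪) ϖ x)) := by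
  rcases hB with ⟨V₁, V₂, hN, hu₁, hu₂⟩ | ⟨V₁, hS, hu₁⟩
  · obtain ⟨g₁, g₂, h3, h4, h5, h6⟩ := node_facts p ϖ hu Hor ht 𝔪 h𝔪 hN hu₁ hu₂
    exact Or.inl ⟨V₁, V₂, g₁, g₂, hN, h3, h4, h5, h6⟩
  · obtain ⟨g₁, h3, h4, h5⟩ := smooth_facts p ϖ hu Hor ht 𝔪 h𝔪 hS hu₁
    exact Or.inr ⟨V₁, g₁, hS, h3, h4, h5⟩

/-- **Every component is a branch ring of a block at a closed point of the chart `u`**: a
property of the branch rings of (chosen) blocks at the closed points of the fibre of the chart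
`u` holds for every generic ring of the two charts. -/
theorem forall_isGen (p : ℕ) (ϖ : O) {u : F} (hu : u ≠ 0) (Hor : F → Prop)
    (P : Subring F → Prop)
    (hblk0 : ∀ (𝔪 : Ideal (integralClosure (Algebra.adjoin O ({u} : Set F)) F))
      (h𝔪 : 𝔪.IsMaximal),
      algebraMap O (integralClosure (Algebra.adjoin O ({u} : Set F)) F) ϖ ∈ 𝔪 →
      (∃ V₁ V₂ : Subring F,
        NodeBlock p ϖ Hor (locAt (Algebra.adjoin O ({u} : Set F)) 𝔪 h𝔪.isPrime) V₁ V₂ ∧
        (u ∈ V₁ ∧ u⁻¹ ∈ V₁) ∧ (u ∈ V₂ ∧ u⁻¹ ∈ V₂) ∧ P V₁ ∧ P V₂) ∨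
      (∃ V₁ : Subring F,
        SmoothBlock p ϖ Hor (locAt (Algebra.adjoin O ({u} : Set F)) 𝔪 h𝔪.isPrime) V₁ ∧
        (u ∈ V₁ ∧ u⁻¹ ∈ V₁) ∧ P V₁))
    (W : Subring F) (hW : IsGen ϖ u W) : P W := by
  obtain ⟨𝔪, h𝔪, hϖ, hcen⟩ := hW.exists_point
  rcases hblk0 𝔪 h𝔪 hϖ with ⟨V₁, V₂, hN, hu₁, hu₂, hP₁, hP₂⟩ | ⟨V₁, hS, hu₁, hP₁⟩
  · obtain ⟨-, -, hpin, -⟩ := node_facts p ϖ hu Hor (Or.inl rfl) 𝔪 h𝔪.isPrime hN hu₁ hu₂
    rcases hpin W hW hcen with rfl | rfl
    · exact hP₁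
    · exact hP₂
  · obtain ⟨-, hpin, -⟩ := smooth_facts p ϖ hu Hor (Or.inl rfl) 𝔪 h𝔪.isPrime hS hu₁
    rw [hpin W hW hcen]
    exact hP₁

/-- **The pinned block at a point of a chart**, in the literal shape of the field `block` of
`Model.IsModel` for the component type `{W // IsGen ϖ u W}`, `V := Subtype.val`, and the
incidence relation "the centre of `W` on the chart lies in `𝔪`": the components through the
point are exactly the branch rings of its block. -/
theorem pinned_block (p : ℕ) (ϖ : O) {u : F} (hu : u ≠ 0) (Hor : F → Prop) {t : F}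
    (ht : t = u ∨ t = u⁻¹)
    (𝔪 : Ideal (integralClosure (Algebra.adjoin O ({t} : Set F)) F)) (h𝔪 : 𝔪.IsPrime)
    (hB : BlockU p ϖ u Hor (locAt (Algebra.adjoin O ({t} : Set F)) 𝔪 h𝔪)) :
    (∃ W₁ W₂ : {W : Subring F // IsGen ϖ u W},
      (∀ W : {W : Subring F // IsGen ϖ u W},
        (∀ b : integralClosure (Algebra.adjoin O ({t} : Set F)) F,
          MemPi (W : Subring F) ϖ (b : F) → b ∈ 𝔪) ↔ W = W₁ ∨ W = W₂) ∧
      NodeBlock p ϖ Hor (locAt (Algebra.adjoin O ({t} : Set F)) 𝔪 h𝔪) W₁ W₂) ∨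
    (∃ W₁ : {W : Subring F // IsGen ϖ u W},
      (∀ W : {W : Subring F // IsGen ϖ u W},
        (∀ b : integralClosure (Algebra.adjoin O ({t} : Set F)) F,
          MemPi (W : Subring F) ϖ (b : F) → b ∈ 𝔪) ↔ W = W₁) ∧
      SmoothBlock p ϖ Hor (locAt (Algebra.adjoin O ({t} : Set F)) 𝔪 h𝔪) W₁) := by
  rcases block_facts p ϖ hu Hor ht 𝔪 h𝔪 hB with
    ⟨V₁, V₂, g₁, g₂, hN, hpin, hc₁, hc₂, -⟩ | ⟨V₁, g₁, hS, hpin, hc₁, -⟩
  · refine Or.inl ⟨⟨V₁, g₁⟩, ⟨V₂, g₂⟩, fun W => ⟨fun hcen => ?_, ?_⟩, hN⟩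
    · rcases hpin W.1 W.2 hcen with h | h
      · exact Or.inl (Subtype.ext h)
      · exact Or.inr (Subtype.ext h)
    · rintro (rfl | rfl)
      · exact hc₁
      · exact hc₂
  · refine Or.inr ⟨⟨V₁, g₁⟩, fun W => ⟨fun hcen => Subtype.ext (hpin W.1 W.2 hcen), ?_⟩, hS⟩
    rintro rfl
    exact hc₁

/-- The fibre is reduced at a point of a chart carrying a block: an element of the local ring
lying in `ϖ W` for every component `W` lies in `ϖ` times the local ring. -/
theorem memPi_locAt_of_block (p : ℕ) (ϖ : O) {u : F} (hu : u ≠ 0) (Hor : F → Prop) {t : F}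
    (ht : t = u ∨ t = u⁻¹)
    (𝔪 : Ideal (integralClosure (Algebra.adjoin O ({t} : Set F)) F)) (h𝔪 : 𝔪.IsPrime)
    (hB : BlockU p ϖ u Hor (locAt (Algebra.adjoin O ({t} : Set F)) 𝔪 h𝔪)) (x : F)
    (hx : x ∈ locAt (Algebra.adjoin O ({t} : Set F)) 𝔪 h𝔪)
    (hW : ∀ W : {W : Subring F // IsGen ϖ u W}, MemPi (W : Subring F) ϖ x) :
    MemPi (locAt (Algebra.adjoin O ({t} : Set F)) 𝔪 h𝔪) ϖ x := by
  rcases block_facts p ϖ hu Hor ht 𝔪 h𝔪 hB with
    ⟨V₁, V₂, g₁, g₂, -, -, -, -, hred⟩ | ⟨V₁, g₁, -, -, -, hred⟩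
  · exact hred x hx (hW ⟨V₁, g₁⟩) (hW ⟨V₂, g₂⟩)
  · exact hred x hx (hW ⟨V₁, g₁⟩)

/-- **The binder `hred0` of `ChartGlobal.conn_of_charts`** for the component type
`{W // IsGen ϖ u W}`: the fibre of the chart `u` is reduced, from the blocks at its closed
points. -/
theorem hred0 (p : ℕ) (ϖ : O) (hϖ0 : algebraMap O F ϖ ≠ 0) {u : F} (hu : u ≠ 0)
    (Hor : F → Prop)
    (hblk0 : ∀ (𝔪 : Ideal (integralClosure (Algebra.adjoin O ({u} : Set F)) F))
      (h𝔪 : 𝔪.IsMaximal),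
      algebraMap O (integralClosure (Algebra.adjoin O ({u} : Set F)) F) ϖ ∈ 𝔪 →
      BlockU p ϖ u Hor (locAt (Algebra.adjoin O ({u} : Set F)) 𝔪 h𝔪.isPrime))
    (x : F) (hx : IsIntegral (Algebra.adjoin O ({u} : Set F)) x)
    (hW : ∀ W : {W : Subring F // IsGen ϖ u W}, MemPi (W : Subring F) ϖ x) :
    ∃ w : F, IsIntegral (Algebra.adjoin O ({u} : Set F)) w ∧ x = algebraMap O F ϖ * w := by
  refine red_of_points ϖ hϖ0 _ x hx (fun 𝔪 h𝔪 hϖ => ?_)
  exact memPi_locAt_of_block p ϖ hu Hor (Or.inl rfl) 𝔪 h𝔪.isPrime (hblk0 𝔪 h𝔪 hϖ) x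
    (coe_mem_locAt _ 𝔪 h𝔪.isPrime
      (⟨x, hx⟩ : integralClosure (Algebra.adjoin O ({u} : Set F)) F)) hW

/-- **The binder `hred1` of `ChartGlobal.conn_of_charts`** for the component type
`{W // IsGen ϖ u W}`: the fibre of the chart `u⁻¹` is reduced, from the blocks at the closed
points of the chart `u` and at the closed points over `u = ∞` of the chart `u⁻¹`. -/
theorem hred1 (p : ℕ) (ϖ : O) (hϖ0 : algebraMap O F ϖ ≠ 0) {u : F} (hu : u ≠ 0)
    (Hor : F → Prop)
    (hblk0 : ∀ (𝔪 : Ideal (integralClosure (Algebra.adjoin O ({u} : Set F)) F))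
      (h𝔪 : 𝔪.IsMaximal),
      algebraMap O (integralClosure (Algebra.adjoin O ({u} : Set F)) F) ϖ ∈ 𝔪 →
      BlockU p ϖ u Hor (locAt (Algebra.adjoin O ({u} : Set F)) 𝔪 h𝔪.isPrime))
    (hblk1 : ∀ (𝔪 : Ideal (integralClosure (Algebra.adjoin O ({u⁻¹} : Set F)) F))
      (h𝔪 : 𝔪.IsMaximal),
      algebraMap O (integralClosure (Algebra.adjoin O ({u⁻¹} : Set F)) F) ϖ ∈ 𝔪 →
      (∀ s : integralClosure (Algebra.adjoin O ({u⁻¹} : Set F)) F, (s : F) = u⁻¹ → s ∈ 𝔪) →
      BlockU p ϖ u Hor (locAt (Algebra.adjoin O ({u⁻¹} : Set F)) 𝔪 h𝔪.isPrime))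
    (x : F) (hx : IsIntegral (Algebra.adjoin O ({u⁻¹} : Set F)) x)
    (hW : ∀ W : {W : Subring F // IsGen ϖ u W}, MemPi (W : Subring F) ϖ x) :
    ∃ w : F, IsIntegral (Algebra.adjoin O ({u⁻¹} : Set F)) w ∧ x = algebraMap O F ϖ * w := by
  refine red_of_points ϖ hϖ0 _ x hx (fun 𝔪 h𝔪 hϖ => ?_)
  by_cases hinf : ∀ s : integralClosure (Algebra.adjoin O ({u⁻¹} : Set F)) F,
      (s : F) = u⁻¹ → s ∈ 𝔪
  · exact memPi_locAt_of_block p ϖ hu Hor (Or.inr rfl) 𝔪 h𝔪.isPrime (hblk1 𝔪 h𝔪 hϖ hinf) x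
      (coe_mem_locAt _ 𝔪 h𝔪.isPrime
        (⟨x, hx⟩ : integralClosure (Algebra.adjoin O ({u⁻¹} : Set F)) F)) hW
  · push Not at hinf
    obtain ⟨s, hs, hs𝔪⟩ := hinf
    obtain ⟨n, hn⟩ := CechP1.exists_pow_mul_isIntegral u hu x
      (CechP1.isIntegral_mono (Algebra.adjoin_mono (by simp)) hx)
    have hy : ∀ W : {W : Subring F // IsGen ϖ u W}, MemPi (W : Subring F) ϖ (u ^ n * x) :=
      fun W => memPi_mul_left (hW W) (W.1.pow_mem W.2.mem n)
    obtain ⟨w, hw, hyw⟩ := hred0 p ϖ hϖ0 hu Hor hblk0 (u ^ n * x) hn hy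
    obtain ⟨m, hm⟩ := chart_change u hu w hw
    have hx' : x = algebraMap O F ϖ * (u⁻¹ ^ n * w) := by
      have h1 : u⁻¹ ^ n * (u ^ n * x) = x := by
        rw [← mul_assoc, ← mul_pow, inv_mul_cancel₀ hu, one_pow, one_mul]
      rw [← h1, hyw]
      ring
    have hinvint : IsIntegral (Algebra.adjoin O ({u⁻¹} : Set F)) u⁻¹ :=
      CechP1.isIntegral_adjoin_of_mem (Algebra.subset_adjoin rfl)
    refine ⟨u⁻¹ ^ n * w, ⟨s ^ m, fun h => hs𝔪 (h𝔪.isPrime.mem_of_pow_mem m h), ?_⟩, hx'⟩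
    have e : ((s ^ m : integralClosure (Algebra.adjoin O ({u⁻¹} : Set F)) F) : F) *
        (u⁻¹ ^ n * w) = u⁻¹ ^ n * (u⁻¹ ^ m * w) := by
      push_cast
      rw [hs]
      ring
    rw [e]
    exact (hinvint.pow n).mul hm

end Blocks

/-! ### The chart is noetherian -/

section Noeth

variable {O : Type*} [CommRing O] [IsNoetherianRing O] {F : Type v} [Field F] [Algebra O F]

/-- `O[u]` is noetherian. -/
theorem isNoetherianRing_adjoin (u : F) :
    IsNoetherianRing (Algebra.adjoin O ({u} : Set F)) := by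
  rw [Algebra.adjoin_singleton_eq_range_aeval]
  exact isNoetherianRing_of_surjective O[X] _ (aeval u : O[X] →ₐ[O] F).rangeRestrict.toRingHom
    (AlgHom.rangeRestrict_surjective _)

/-- The chart `integralClosure O[u] F` is noetherian when it is a finite `O[u]`-module (the
binder of `CechP1.hfin_of_finite`). -/
theorem isNoetherianRing_chart (u : F)
    [Module.Finite (Algebra.adjoin O ({u} : Set F))
      (integralClosure (Algebra.adjoin O ({u} : Set F)) F)] :
    IsNoetherianRing (integralClosure (Algebra.adjoin O ({u} : Set F)) F) :=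
  haveI := isNoetherianRing_adjoin (O := O) u
  IsNoetherianRing.of_finite (Algebra.adjoin O ({u} : Set F)) _

end Noeth

end Fermat.Agent.S33.Geo.ChartBranch
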