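import Mathlib
import Fermat.Agent.S33.Geo.Model

/-!
# S33 / GEO / Stage B hub, form of record: blocks with the horizontal clause in PRIME-IDEAL form

Level-free (Mathlib + `S33/Geo/Model`).  Amendment of helper134 to `Geo/Model.lean`
(fix-forward; `Model.lean` is untouched and all its theorems apply through
`IsModelI.isModel`).

* `HorIdeal p ϖ A f` : at every prime ideal `Q` of `A` not containing `ϖ`, `f` is a `p`-th
  power times a unit of `A_Q`.  This is the shape of `S36/HorizAdapter.Horiz` (chart rings) and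
  it is stable under `Ideal.comap`, so it passes to the local rings of a chart and to the local
  rings of a finite cover without any dimension theory.  `HorIdeal.horAt` gives the element
  form `TopLocal.HorAt` used by the closed-point lemmas.
* `NodeBlockI`, `SmoothBlockI` : the blocks of `Geo/Model.lean` with `HorIdeal` in place of
  `HorAt`; `IsModelI` : the model package on these blocks; `IsModelI.isModel`.
* `CoversCusp ϖ u R` : the points of the model are the closed points of the fibre of the chart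
  of `u` and the closed points OVER `u = ∞` of the fibre of the chart of `u⁻¹` (the remaining
  points of the second chart are points of the first: `S44/L/NZ/ChartChange.hinf_of_h0`).
  `Covers.coversCusp`.
-/

set_option autoImplicit false
set_option linter.unusedSectionVars false
set_option linter.unusedVariables false

namespace Fermat.Agent.S33.Geo.Model

open IsLocalRing
open Fermat.Agent.S33.Geo.Top Fermat.Agent.S33.Geo.TopLocal

universe u

section HorIdeal

variable {O : Type*} [CommRing O]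

/-- **Horizontal `p`-divisibility at `A`, prime-ideal form**: at every prime ideal `Q` of `A`
not containing `ϖ`, `f` is a `p`-th power times a unit of `A_Q`. -/
def HorIdeal (p : ℕ) (ϖ : O) (A : Type*) [CommRing A] [Algebra O A] {F : Type*} [Field F]
    [Algebra A F] (f : F) : Prop :=
  ∀ Q : Ideal A, Q.IsPrime → algebraMap O A ϖ ∉ Q →
    ∃ (a b : A) (h : F), a ∉ Q ∧ b ∉ Q ∧ algebraMap A F b * f = algebraMap A F a * h ^ p

/-- The prime-ideal form gives the element form of `TopLocal`. -/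
theorem HorIdeal.horAt [IsDomain O] [IsDiscreteValuationRing O] {p : ℕ} {ϖ : O} {A : Type*}
    [CommRing A] [IsDomain A] [Algebra O A] {F : Type*} [Field F] [Algebra A F] {f : F}
    (h : HorIdeal p ϖ A f) : HorAt p ϖ A f := by
  intro q hq hqϖ
  have hQ : (Ideal.span {q} : Ideal A).IsPrime :=
    (Ideal.span_singleton_prime hq.ne_zero).mpr hq
  obtain ⟨a, b, g, ha, hb, hfe⟩ := h (Ideal.span {q}) hQ
    (fun hmem => hqϖ (Ideal.mem_span_singleton.mp hmem))
  exact ⟨a, b, g, fun hd => ha (Ideal.mem_span_singleton.mpr hd),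
    fun hd => hb (Ideal.mem_span_singleton.mpr hd), hfe⟩

/-- **Transport of the prime-ideal form along a ring map** `ψ : A → A'` over `O`, compatible
with a field map `ι : F → F'`. -/
theorem HorIdeal.map {p : ℕ} {ϖ : O} {A A' : Type*} [CommRing A] [CommRing A'] [Algebra O A]
    [Algebra O A'] {F F' : Type*} [Field F] [Field F'] [Algebra A F] [Algebra A' F']
    (ψ : A →+* A') (hψ : ψ (algebraMap O A ϖ) = algebraMap O A' ϖ) (ι : F →+* F')
    (hι : ∀ a : A, ι (algebraMap A F a) = algebraMap A' F' (ψ a)) {f : F}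
    (h : HorIdeal p ϖ A f) : HorIdeal p ϖ A' (ι f) := by
  intro Q' hQ' hϖ
  have := hQ'
  obtain ⟨a, b, g, ha, hb, hfe⟩ := h (Q'.comap ψ) inferInstance
    (fun hmem => hϖ (by rw [← hψ]; exact hmem))
  refine ⟨ψ a, ψ b, ι g, ha, hb, ?_⟩
  rw [← hι, ← hι, ← map_pow, ← map_mul, ← map_mul, hfe]

end HorIdeal

section Blocks

variable {O : Type*} [CommRing O] [IsDomain O] [IsDiscreteValuationRing O]
  {F : Type u} [Field F] [Algebra O F]

/-- **A regular node of the model**, horizontal clause in prime-ideal form. -/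
def NodeBlockI (p : ℕ) (ϖ : O) (Hor : F → Prop) (Ry V₁ V₂ : Subring F) : Prop :=
  ∃ (A : Type u) (_ : CommRing A) (_ : IsDomain A) (_ : IsLocalRing A) (_ : IsNoetherianRing A)
    (_ : Algebra O A) (_ : Algebra A F) (_ : IsFractionRing A F) (_ : IsScalarTower O A F),
    (algebraMap A F).range = Ry ∧ (∀ f : F, Hor f → HorIdeal p ϖ A f) ∧
    ∃ s t : A, Prime s ∧ Prime t ∧ ¬ Associated s t ∧ maximalIdeal A = Ideal.span {s, t} ∧
      Associated (s * t) (algebraMap O A ϖ) ∧ IsBranch s V₁ ∧ IsBranch t V₂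

/-- **A smooth point of the special fibre of the model**, horizontal clause in prime-ideal
form. -/
def SmoothBlockI (p : ℕ) (ϖ : O) (Hor : F → Prop) (Ry V₁ : Subring F) : Prop :=
  ∃ (A : Type u) (_ : CommRing A) (_ : IsDomain A) (_ : IsLocalRing A) (_ : IsNoetherianRing A)
    (_ : Algebra O A) (_ : Algebra A F) (_ : IsFractionRing A F) (_ : IsScalarTower O A F),
    (algebraMap A F).range = Ry ∧ (∀ f : F, Hor f → HorIdeal p ϖ A f) ∧
    Prime (algebraMap O A ϖ) ∧ ∃ z : A, maximalIdeal A = Ideal.span {algebraMap O A ϖ, z} ∧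
      IsBranch (algebraMap O A ϖ) V₁

theorem NodeBlockI.nodeBlock {p : ℕ} {ϖ : O} {Hor : F → Prop} {Ry V₁ V₂ : Subring F}
    (h : NodeBlockI p ϖ Hor Ry V₁ V₂) : NodeBlock p ϖ Hor Ry V₁ V₂ := by
  obtain ⟨A, i1, i2, i3, i4, i5, i6, i7, i8, hrange, hHor, hrest⟩ := h
  exact ⟨A, i1, i2, i3, i4, i5, i6, i7, i8, hrange, fun f hf => (hHor f hf).horAt, hrest⟩

theorem SmoothBlockI.smoothBlock {p : ℕ} {ϖ : O} {Hor : F → Prop} {Ry V₁ : Subring F}
    (h : SmoothBlockI p ϖ Hor Ry V₁) : SmoothBlock p ϖ Hor Ry V₁ := by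
  obtain ⟨A, i1, i2, i3, i4, i5, i6, i7, i8, hrange, hHor, hrest⟩ := h
  exact ⟨A, i1, i2, i3, i4, i5, i6, i7, i8, hrange, fun f hf => (hHor f hf).horAt, hrest⟩

/-- **The level-free model package, form of record**: `Model.IsModel` with the blocks
`NodeBlockI` / `SmoothBlockI`. -/
structure IsModelI (p : ℕ) (ϖ : O) {ι Y : Type*} (V : ι → Subring F) (R : Y → Subring F)
    (On : Y → ι → Prop) (Hor : F → Prop) : Prop where
  /-- constants lie in the generic rings -/
  constV : ∀ W (a : O), algebraMap O F a ∈ V W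
  /-- the local block at every closed point -/
  block : ∀ y,
    (∃ W₁ W₂, (∀ W, On y W ↔ W = W₁ ∨ W = W₂) ∧ NodeBlockI p ϖ Hor (R y) (V W₁) (V W₂)) ∨
    (∃ W₁, (∀ W, On y W ↔ W = W₁) ∧ SmoothBlockI p ϖ Hor (R y) (V W₁))
  /-- (CONN): the dual graph is connected -/
  conn : ∀ W W' : ι, Relation.ReflTransGen (fun a b => ∃ y, On y a ∧ On y b) W W'
  /-- (CONST0): on ONE root component, regular at every closed point implies constant,
  modulo `ϖ` -/
  const0 : ∃ W₀ : ι, ∀ x : F, x ∈ V W₀ →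
    (∀ y, On y W₀ → ∃ a : F, a ∈ R y ∧ MemPi (V W₀) ϖ (x - a)) →
    ∃ κ : O, MemPi (V W₀) ϖ (x - algebraMap O F κ)
  /-- (VAN): regular at every closed point of `W` and, at ONE point `y`, equal to a local
  function vanishing identically on a branch through `y`, implies zero, modulo `ϖ` -/
  van : ∀ W (x : F), x ∈ V W → (∀ y, On y W → ∃ a : F, a ∈ R y ∧ MemPi (V W) ϖ (x - a)) →
    ∀ y, On y W → ∀ a : F, a ∈ R y → MemPi (V W) ϖ (x - a) →
      (∃ W', On y W' ∧ MemPi (V W') ϖ a) → MemPi (V W) ϖ x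

variable {p : ℕ} {ϖ : O} {ι Y : Type*} {V : ι → Subring F} {R : Y → Subring F}
  {On : Y → ι → Prop} {Hor : F → Prop}

/-- The form of record gives the model package of `Geo/Model.lean`. -/
theorem IsModelI.isModel (D : IsModelI p ϖ V R On Hor) : IsModel p ϖ V R On Hor where
  constV := D.constV
  block := by
    intro y
    rcases D.block y with ⟨W₁, W₂, hOn, hb⟩ | ⟨W₁, hOn, hb⟩
    · exact Or.inl ⟨W₁, W₂, hOn, hb.nodeBlock⟩
    · exact Or.inr ⟨W₁, hOn, hb.smoothBlock⟩
  conn := D.conn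
  const0 := D.const0
  van := D.van

/-- **`TOP` on a model (form of record).** -/
theorem IsModelI.top_core (hp : p.Prime) (hϖ : Irreducible ϖ)
    (hperf : ∀ a : O, ∃ b : O, ϖ ∣ a - b ^ p) {top : ℕ} (h2top : 2 ≤ top) (htopp : top ≤ p)
    (hpϖ : ϖ ^ (top - 1) ∣ (p : O)) (hinj : Function.Injective (algebraMap O F))
    (D : IsModelI p ϖ V R On Hor) (f : F) (hf : f ≠ 0) (hHor : Hor f)
    (h1 : ∀ W, ∃ c : O, c ≠ 0 ∧ DepthIn (V W) p ϖ 1 f c) :
    ∃ c : O, c ≠ 0 ∧ (∀ W, DepthIn (V W) p ϖ top f c) ∧ ∀ y, DepthIn (R y) p ϖ top f c :=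
  D.isModel.top_core hp hϖ hperf h2top htopp hpϖ hinj f hf hHor h1

/-- **The points of the model cover the fibre of the two charts of `u`, cusp form**: every
maximal ideal containing `ϖ` of the chart of `u`, and every maximal ideal containing `ϖ` and
`u⁻¹` of the chart of `u⁻¹`, is a point `y` of the model with `R y` the local ring of the
chart. -/
def CoversCusp (ϖ : O) (u : F) {Y : Type*} (R : Y → Subring F) : Prop :=
  (∀ (𝔪 : Ideal (integralClosure (Algebra.adjoin O ({u} : Set F)) F)) (h𝔪 : 𝔪.IsMaximal),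
      algebraMap O (integralClosure (Algebra.adjoin O ({u} : Set F)) F) ϖ ∈ 𝔪 →
      ∃ y, R y = Fermat.Agent.S44.L.DepthHenselExit.locAt
        (Algebra.adjoin O ({u} : Set F)) 𝔪 h𝔪.isPrime) ∧
  (∀ (𝔪 : Ideal (integralClosure (Algebra.adjoin O ({u⁻¹} : Set F)) F)) (h𝔪 : 𝔪.IsMaximal),
      algebraMap O (integralClosure (Algebra.adjoin O ({u⁻¹} : Set F)) F) ϖ ∈ 𝔪 →
      (∃ t : integralClosure (Algebra.adjoin O ({u⁻¹} : Set F)) F, (t : F) = u⁻¹ ∧ t ∈ 𝔪) →
      ∃ y, R y = Fermat.Agent.S44.L.DepthHenselExit.locAt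
        (Algebra.adjoin O ({u⁻¹} : Set F)) 𝔪 h𝔪.isPrime)

theorem Covers.coversCusp {u : F} (h : Covers ϖ u R) : CoversCusp ϖ u R :=
  ⟨fun 𝔪 h𝔪 hϖ => h u (Or.inl rfl) 𝔪 h𝔪 hϖ,
    fun 𝔪 h𝔪 hϖ _ => h u⁻¹ (Or.inr rfl) 𝔪 h𝔪 hϖ⟩

end Blocks

end Fermat.Agent.S33.Geo.Model
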