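/-
S33 (helper19), GEO, level-free: THE CONCRETE POINT SET OF A TWO-CHART MODEL.

`O` a commutative ring with an element `π`, `F` a field over `O`, `u : F` nonzero; the charts are
`integralClosure O[u] F` and `integralClosure O[u⁻¹] F`.

* `Pt π u` : the closed points of the fibre `π = 0` = the maximal ideals `∋ π` of the chart `u`,
  and the maximal ideals `∋ π, u⁻¹` of the chart `u⁻¹` (the points over `u = ∞`).
* `ptR π u y` : the local ring of the chart at `y` (`DepthHenselExit.locAt`).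
* `ptOn π u V y W` : the centre of the component `W` (generic ring `V W`) on the chart of `y`
  lies in `y`.

Results:

* `exists_maximal_locAt_le` : change of chart.  For a prime `𝔪` of the chart `v` not containing
  `v` (`u * v = 1`) there is a maximal ideal `𝔫` of the chart `u` whose local ring lies in the
  local ring at `𝔪`.  (The contraction of `𝔪` need not be shown maximal.)
* `covers_le` : every maximal ideal `∋ π` of either chart has a point `y : Pt π u` with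
  `ptR π u y ≤ locAt`  (the form in which the exit consumes the covering property).
* `range_eq_locAt` : the range of any model of the localisation at `𝔪` is `locAt`.
* `cen_iff_locAt_le`, `ptOn_iff_le` : `ptOn π u V y W ↔ ptR π u y ≤ V W` when `V W` is local with
  maximal ideal `π V W` and contains the charts.
* `conn_pt`, `van_pt`, `constAt_pt` : the three global fields of the model datum for
  `(Pt, ptR, ptOn)`, from `ChartGlobal`.
* `coversCusp_pt` : `Model.CoversCusp π u (ptR π u)`.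
* `isModelI_of_blocks`, `isModel_of_blocks` : `Model.IsModelI` (blocks in prime-ideal form) and
  `Model.IsModel` (element form) from the local blocks at the points of `Pt π u`, the chart
  hypotheses and (CONST0) on one root component (`constAt_pt` is one supplier of the latter).
-/
import Mathlib
import Fermat.Agent.S33.Geo.ChartGlobal
import Fermat.Agent.S33.Geo.ModelI
import Fermat.Agent.S44.L.NZ.ChartChange

set_option autoImplicit false

namespace Fermat.Agent.S33.Geo.ChartPoints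

open Polynomial Fermat.Agent.S30.Model Fermat.Agent.S33.Geo.Top
open Fermat.Agent.S44.L.DepthHenselExit Fermat.Agent.S44.L.NZ

universe u

section Loc

variable {O F : Type*} [CommRing O] [Field F] [Algebra O F]

/-- Elements of the local ring of a chart are fractions of chart elements. -/
theorem exists_frac_of_mem_locAt (S : Subalgebra O F) (𝔪 : Ideal (integralClosure S F))
    (h𝔪 : 𝔪.IsPrime) {a : F} (ha : a ∈ locAt S 𝔪 h𝔪) :
    ∃ b c : integralClosure S F, b ∉ 𝔪 ∧ a * (b : F) = (c : F) := by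
  obtain ⟨s, hs, hsa⟩ := ha
  exact ⟨s, ⟨(s : F) * a, hsa⟩, hs, mul_comm _ _⟩

/-- **The range of any model of the localisation of the chart at `𝔪` is `locAt`.** -/
theorem range_eq_locAt (S : Subalgebra O F) (𝔪 : Ideal (integralClosure S F)) (h𝔪 : 𝔪.IsPrime)
    (A : Type*) [CommRing A] [Algebra (integralClosure S F) A] [IsLocalization.AtPrime A 𝔪]
    [Algebra A F] [IsScalarTower (integralClosure S F) A F] :
    (algebraMap A F).range = locAt S 𝔪 h𝔪 := by
  ext x
  constructor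
  · rintro ⟨a, rfl⟩
    obtain ⟨c, s, rfl⟩ := IsLocalization.exists_mk'_eq 𝔪.primeCompl a
    refine ⟨s.1, s.2, ?_⟩
    have h1 := IsLocalization.mk'_spec A c s
    have h2 := congrArg (algebraMap A F) h1
    rw [map_mul, ← IsScalarTower.algebraMap_apply, ← IsScalarTower.algebraMap_apply] at h2
    have h3 : ((s : integralClosure S F) : F) * algebraMap A F (IsLocalization.mk' A c s)
        = (c : F) := by
      rw [mul_comm]; exact h2
    rw [h3]; exact c.2
  · rintro ⟨s, hs, hsx⟩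
    have hs0 : (s : F) ≠ 0 := fun h => hs (by
      have e : s = 0 := Subtype.ext h
      rw [e]; exact 𝔪.zero_mem)
    refine ⟨IsLocalization.mk' A (⟨(s : F) * x, hsx⟩ : integralClosure S F)
      (⟨s, hs⟩ : 𝔪.primeCompl), ?_⟩
    have h1 := IsLocalization.mk'_spec A (⟨(s : F) * x, hsx⟩ : integralClosure S F)
      (⟨s, hs⟩ : 𝔪.primeCompl)
    have h2 := congrArg (algebraMap A F) h1
    rw [map_mul, ← IsScalarTower.algebraMap_apply, ← IsScalarTower.algebraMap_apply] at h2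
    have h3 : algebraMap A F (IsLocalization.mk' A (⟨(s : F) * x, hsx⟩ : integralClosure S F)
        (⟨s, hs⟩ : 𝔪.primeCompl)) * (s : F) = x * (s : F) := by
      rw [mul_comm x]; exact h2
    exact mul_right_cancel₀ hs0 h3

/-- **Change of chart for local rings.**  For a prime `𝔪` of the chart `v` not containing `v`
(`u * v = 1`) there is a maximal ideal `𝔫` of the chart `u` which contains every chart element
`x` with `x * v ^ n ∈ 𝔪` and whose local ring lies in the local ring at `𝔪`. -/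
theorem exists_maximal_locAt_le (u v : F) (huv : u * v = 1)
    (𝔪 : Ideal (integralClosure (Algebra.adjoin O ({v} : Set F)) F)) (h𝔪 : 𝔪.IsPrime)
    (hv𝔪 : ∀ t : integralClosure (Algebra.adjoin O ({v} : Set F)) F, (t : F) = v → t ∉ 𝔪) :
    ∃ (𝔫 : Ideal (integralClosure (Algebra.adjoin O ({u} : Set F)) F)) (h𝔫 : 𝔫.IsMaximal),
      (∀ (x : integralClosure (Algebra.adjoin O ({u} : Set F)) F) (n : ℕ)
          (a : integralClosure (Algebra.adjoin O ({v} : Set F)) F),
          a ∈ 𝔪 → (a : F) = (x : F) * v ^ n → x ∈ 𝔫) ∧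
      locAt (Algebra.adjoin O ({u} : Set F)) 𝔫 h𝔫.isPrime ≤
        locAt (Algebra.adjoin O ({v} : Set F)) 𝔪 h𝔪 := by
  classical
  have hvint : IsIntegral (Algebra.adjoin O ({v} : Set F)) v := ChartChange.isIntegral_self v
  have hvn : ∀ n : ℕ,
      (⟨v, hvint⟩ : integralClosure (Algebra.adjoin O ({v} : Set F)) F) ^ n ∉ 𝔪 :=
    fun n hn => hv𝔪 ⟨v, hvint⟩ rfl (h𝔪.mem_of_pow_mem n hn)
  have hmemF : ∀ (a b : integralClosure (Algebra.adjoin O ({v} : Set F)) F),
      (a : F) = (b : F) → a ∈ 𝔪 → b ∈ 𝔪 := fun a b hab ha => by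
    have : a = b := Subtype.ext hab
    rw [← this]; exact ha
  -- the contraction
  let I : Ideal (integralClosure (Algebra.adjoin O ({u} : Set F)) F) :=
    { carrier := {x | ∃ (n : ℕ) (a : integralClosure (Algebra.adjoin O ({v} : Set F)) F),
        a ∈ 𝔪 ∧ (a : F) = (x : F) * v ^ n}
      add_mem' := by
        rintro x y ⟨n, a, ha, hax⟩ ⟨k, b, hb, hby⟩
        refine ⟨n + k, a * ⟨v, hvint⟩ ^ k + b * ⟨v, hvint⟩ ^ n,
          𝔪.add_mem (𝔪.mul_mem_right _ ha) (𝔪.mul_mem_right _ hb), ?_⟩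
        push_cast
        rw [hax, hby]
        ring
      zero_mem' := ⟨0, 0, 𝔪.zero_mem, by push_cast; ring⟩
      smul_mem' := by
        rintro c x ⟨n, a, ha, hax⟩
        obtain ⟨N, hN⟩ := ChartChange.exists_isIntegral_mul_pow u v huv (c : F) c.2
        refine ⟨N + n, ⟨(c : F) * v ^ N, hN N le_rfl⟩ * a, 𝔪.mul_mem_left _ ha, ?_⟩
        rw [smul_eq_mul]
        push_cast
        rw [hax]
        ring }
  have hIdef : ∀ x : integralClosure (Algebra.adjoin O ({u} : Set F)) F, x ∈ I ↔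
      ∃ (n : ℕ) (a : integralClosure (Algebra.adjoin O ({v} : Set F)) F),
        a ∈ 𝔪 ∧ (a : F) = (x : F) * v ^ n := fun x => Iff.rfl
  have hI1 : I ≠ ⊤ := by
    intro htop
    have h1 : (1 : integralClosure (Algebra.adjoin O ({u} : Set F)) F) ∈ I := by
      rw [htop]; exact Submodule.mem_top
    obtain ⟨n, a, ha, ha1⟩ := (hIdef 1).mp h1
    refine hvn n (hmemF a _ ?_ ha)
    rw [ha1]
    push_cast
    ring
  obtain ⟨𝔫, h𝔫, hI𝔫⟩ := Ideal.exists_le_maximal I hI1
  refine ⟨𝔫, h𝔫, fun x n a ha hax => hI𝔫 ((hIdef x).mpr ⟨n, a, ha, hax⟩), ?_⟩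
  rintro x ⟨s, hs, hsx⟩
  obtain ⟨N₁, hN₁⟩ := ChartChange.exists_isIntegral_mul_pow u v huv (s : F) s.2
  obtain ⟨N₂, hN₂⟩ := ChartChange.exists_isIntegral_mul_pow u v huv ((s : F) * x) hsx
  have hsN : IsIntegral (Algebra.adjoin O ({v} : Set F)) ((s : F) * v ^ (N₁ + N₂)) :=
    hN₁ _ (Nat.le_add_right _ _)
  refine ⟨⟨(s : F) * v ^ (N₁ + N₂), hsN⟩, ?_, ?_⟩
  · intro hmem
    exact hs (hI𝔫 ((hIdef s).mpr ⟨N₁ + N₂, _, hmem, rfl⟩))
  · have h : ((⟨(s : F) * v ^ (N₁ + N₂), hsN⟩ :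
        integralClosure (Algebra.adjoin O ({v} : Set F)) F) : F) * x
        = (s : F) * x * v ^ (N₁ + N₂) := by
      show (s : F) * v ^ (N₁ + N₂) * x = (s : F) * x * v ^ (N₁ + N₂)
      ring
    rw [h]
    exact hN₂ _ (Nat.le_add_left _ _)

/-- The constants of the chart ring, read in `F`. -/
theorem coe_algebraMap_chart (S : Subalgebra O F) (a : O) :
    ((algebraMap O (integralClosure S F) a : integralClosure S F) : F) = algebraMap O F a :=
  rfl

/-- The constant `π` lies in every ideal of the chart containing the centre of a component. -/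
theorem algebraMap_mem_of_cen (π : O) (V : Subring F) (t : F)
    (𝔪 : Ideal (integralClosure (Algebra.adjoin O ({t} : Set F)) F))
    (hcen : ∀ b : integralClosure (Algebra.adjoin O ({t} : Set F)) F,
      MemPi V π (b : F) → b ∈ 𝔪) :
    algebraMap O (integralClosure (Algebra.adjoin O ({t} : Set F)) F) π ∈ 𝔪 :=
  hcen _ ⟨1, V.one_mem, by rw [mul_one, coe_algebraMap_chart]⟩

/-- The two spellings of "`𝔪` is a point over `v = 0` of the chart `v`". -/
theorem over_iff (v : F) (𝔪 : Ideal (integralClosure (Algebra.adjoin O ({v} : Set F)) F)) :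
    (∃ t : integralClosure (Algebra.adjoin O ({v} : Set F)) F, (t : F) = v ∧ t ∈ 𝔪) ↔
      ∀ s : integralClosure (Algebra.adjoin O ({v} : Set F)) F, (s : F) = v → s ∈ 𝔪 := by
  constructor
  · rintro ⟨t, ht, htm⟩ s hs
    have e : s = t := Subtype.ext (hs.trans ht.symm)
    rw [e]; exact htm
  · intro h
    exact ⟨⟨v, ChartChange.isIntegral_self v⟩, rfl, h _ rfl⟩

/-- **The centre of `V` on the chart lies in `𝔪` iff the local ring at `𝔪` lies in `V`**, for a
subring `V` containing the chart which is local with maximal ideal `π V`. -/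
theorem cen_iff_locAt_le (π : O) (V : Subring F) (S : Subalgebra O F)
    (hCV : ∀ b : integralClosure S F, (b : F) ∈ V)
    (hne : ¬ MemPi V π 1) (hunit : ∀ a : F, a ∈ V → ¬ MemPi V π a → a⁻¹ ∈ V)
    (𝔪 : Ideal (integralClosure S F)) (h𝔪 : 𝔪.IsPrime) :
    (∀ b : integralClosure S F, MemPi V π (b : F) → b ∈ 𝔪) ↔ locAt S 𝔪 h𝔪 ≤ V := by
  constructor
  · rintro hcen x ⟨s, hs, hsx⟩
    have hs0 : (s : F) ≠ 0 := fun h => hs (by
      have e : s = 0 := Subtype.ext h
      rw [e]; exact 𝔪.zero_mem)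
    have hsinv : (s : F)⁻¹ ∈ V := hunit _ (hCV s) (fun hmem => hs (hcen s hmem))
    have e : x = (s : F)⁻¹ * ((s : F) * x) := by
      rw [← mul_assoc, inv_mul_cancel₀ hs0, one_mul]
    rw [e]
    exact V.mul_mem hsinv (hCV ⟨(s : F) * x, hsx⟩)
  · intro hle b hb
    by_contra hb𝔪
    have hb0 : (b : F) ≠ 0 := fun h => hb𝔪 (by
      have e : b = 0 := Subtype.ext h
      rw [e]; exact 𝔪.zero_mem)
    have hbinv : (b : F)⁻¹ ∈ V := hle ⟨b, hb𝔪, by
      rw [mul_inv_cancel₀ hb0]; exact isIntegral_one⟩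
    obtain ⟨v, hv, hbv⟩ := hb
    exact hne ⟨v * (b : F)⁻¹, V.mul_mem hv hbinv, by
      rw [← mul_assoc, ← hbv, mul_inv_cancel₀ hb0]⟩

end Loc

/-! ### The concrete point set -/

section Points

variable {O : Type*} {F : Type u} [CommRing O] [Field F] [Algebra O F]

/-- **The closed points of the fibre `π = 0` of the two-chart model**: the maximal ideals
containing `π` of the chart `u`, and the maximal ideals containing `π` and `u⁻¹` of the chart
`u⁻¹`. -/
abbrev Pt (π : O) (u : F) : Type u :=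
  {𝔪 : Ideal (integralClosure (Algebra.adjoin O ({u} : Set F)) F) //
    𝔪.IsMaximal ∧ algebraMap O (integralClosure (Algebra.adjoin O ({u} : Set F)) F) π ∈ 𝔪} ⊕
  {𝔪 : Ideal (integralClosure (Algebra.adjoin O ({u⁻¹} : Set F)) F) //
    𝔪.IsMaximal ∧ algebraMap O (integralClosure (Algebra.adjoin O ({u⁻¹} : Set F)) F) π ∈ 𝔪 ∧
      ∀ s : integralClosure (Algebra.adjoin O ({u⁻¹} : Set F)) F, (s : F) = u⁻¹ → s ∈ 𝔪}

/-- The local ring of the chart at a closed point. -/
def ptR (π : O) (u : F) : Pt π u → Subring F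
  | Sum.inl 𝔪 => locAt (Algebra.adjoin O ({u} : Set F)) 𝔪.1 𝔪.2.1.isPrime
  | Sum.inr 𝔪 => locAt (Algebra.adjoin O ({u⁻¹} : Set F)) 𝔪.1 𝔪.2.1.isPrime

/-- The closed point `y` lies on the component with generic ring `V W`: the centre of `V W` on
the chart of `y` is contained in `y`. -/
def ptOn (π : O) (u : F) {ι : Type*} (V : ι → Subring F) : Pt π u → ι → Prop
  | Sum.inl 𝔪, W => ∀ b : integralClosure (Algebra.adjoin O ({u} : Set F)) F,
      MemPi (V W) π (b : F) → b ∈ 𝔪.1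
  | Sum.inr 𝔪, W => ∀ b : integralClosure (Algebra.adjoin O ({u⁻¹} : Set F)) F,
      MemPi (V W) π (b : F) → b ∈ 𝔪.1

theorem ptR_inl (π : O) (u : F)
    (𝔪 : {𝔪 : Ideal (integralClosure (Algebra.adjoin O ({u} : Set F)) F) //
      𝔪.IsMaximal ∧ algebraMap O (integralClosure (Algebra.adjoin O ({u} : Set F)) F) π ∈ 𝔪}) :
    ptR π u (Sum.inl 𝔪) = locAt (Algebra.adjoin O ({u} : Set F)) 𝔪.1 𝔪.2.1.isPrime := rfl

theorem ptR_inr (π : O) (u : F)
    (𝔪 : {𝔪 : Ideal (integralClosure (Algebra.adjoin O ({u⁻¹} : Set F)) F) //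
      𝔪.IsMaximal ∧ algebraMap O (integralClosure (Algebra.adjoin O ({u⁻¹} : Set F)) F) π ∈ 𝔪 ∧
        ∀ s : integralClosure (Algebra.adjoin O ({u⁻¹} : Set F)) F, (s : F) = u⁻¹ → s ∈ 𝔪}) :
    ptR π u (Sum.inr 𝔪) = locAt (Algebra.adjoin O ({u⁻¹} : Set F)) 𝔪.1 𝔪.2.1.isPrime := rfl

theorem ptOn_inl (π : O) (u : F) {ι : Type*} (V : ι → Subring F)
    (𝔪 : {𝔪 : Ideal (integralClosure (Algebra.adjoin O ({u} : Set F)) F) //
      𝔪.IsMaximal ∧ algebraMap O (integralClosure (Algebra.adjoin O ({u} : Set F)) F) π ∈ 𝔪})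
    (W : ι) :
    ptOn π u V (Sum.inl 𝔪) W ↔ ∀ b : integralClosure (Algebra.adjoin O ({u} : Set F)) F,
      MemPi (V W) π (b : F) → b ∈ 𝔪.1 := Iff.rfl

theorem ptOn_inr (π : O) (u : F) {ι : Type*} (V : ι → Subring F)
    (𝔪 : {𝔪 : Ideal (integralClosure (Algebra.adjoin O ({u⁻¹} : Set F)) F) //
      𝔪.IsMaximal ∧ algebraMap O (integralClosure (Algebra.adjoin O ({u⁻¹} : Set F)) F) π ∈ 𝔪 ∧
        ∀ s : integralClosure (Algebra.adjoin O ({u⁻¹} : Set F)) F, (s : F) = u⁻¹ → s ∈ 𝔪})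
    (W : ι) :
    ptOn π u V (Sum.inr 𝔪) W ↔ ∀ b : integralClosure (Algebra.adjoin O ({u⁻¹} : Set F)) F,
      MemPi (V W) π (b : F) → b ∈ 𝔪.1 := Iff.rfl

/-- **Pinning `ptOn` by a reduction map**: if on the chart `membership in π V` is the kernel of
a ring homomorphism `r`, then the centre of `V` lies in `𝔪` iff `ker r ≤ 𝔪`. -/
theorem cen_iff_ker_le (π : O) (V : Subring F) (t : F) {L : Type*} [Semiring L]
    (r : integralClosure (Algebra.adjoin O ({t} : Set F)) F →+* L)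
    (hr : ∀ b : integralClosure (Algebra.adjoin O ({t} : Set F)) F,
      MemPi V π (b : F) ↔ r b = 0)
    (𝔪 : Ideal (integralClosure (Algebra.adjoin O ({t} : Set F)) F)) :
    (∀ b : integralClosure (Algebra.adjoin O ({t} : Set F)) F, MemPi V π (b : F) → b ∈ 𝔪) ↔
      RingHom.ker r ≤ 𝔪 :=
  ⟨fun h b hb => h b ((hr b).mpr hb), fun h b hb => h ((hr b).mp hb)⟩

/-- **`ptOn` is `ptR y ≤ V W`** when every `V W` contains the overlap chart and is local with
maximal ideal `π V W`. -/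
theorem ptOn_iff_le (π : O) (u : F) {ι : Type*} (V : ι → Subring F)
    (hV : ∀ W (x : F), IsIntegral (Algebra.adjoin O ({u, u⁻¹} : Set F)) x → x ∈ V W)
    (hne : ∀ W, ¬ MemPi (V W) π 1)
    (hunit : ∀ W (a : F), a ∈ V W → ¬ MemPi (V W) π a → a⁻¹ ∈ V W)
    (y : Pt π u) (W : ι) : ptOn π u V y W ↔ ptR π u y ≤ V W := by
  rcases y with 𝔪 | 𝔪
  · exact cen_iff_locAt_le π (V W) (Algebra.adjoin O ({u} : Set F))
      (fun b => hV W _ (CechP1.isIntegral_mono (Algebra.adjoin_mono (by simp)) b.2))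
      (hne W) (hunit W) 𝔪.1 𝔪.2.1.isPrime
  · exact cen_iff_locAt_le π (V W) (Algebra.adjoin O ({u⁻¹} : Set F))
      (fun b => hV W _ (CechP1.isIntegral_mono (Algebra.adjoin_mono (by simp)) b.2))
      (hne W) (hunit W) 𝔪.1 𝔪.2.1.isPrime

/-- **The covering property in the form the exit consumes**: every maximal ideal containing `π`
of either chart has a point `y : Pt π u` whose local ring lies in the local ring of the chart
at that ideal (with equality except at the points of the chart `u⁻¹` off `u = ∞`). -/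
theorem covers_le (π : O) (u : F) (hu : u ≠ 0) :
    ∀ v : F, v = u ∨ v = u⁻¹ →
      ∀ (𝔪 : Ideal (integralClosure (Algebra.adjoin O ({v} : Set F)) F)) (h𝔪 : 𝔪.IsMaximal),
        algebraMap O (integralClosure (Algebra.adjoin O ({v} : Set F)) F) π ∈ 𝔪 →
        ∃ y : Pt π u, ptR π u y ≤ locAt (Algebra.adjoin O ({v} : Set F)) 𝔪 h𝔪.isPrime := by
  intro v hv 𝔪 h𝔪 hπ𝔪
  rcases hv with rfl | rfl
  · exact ⟨Sum.inl ⟨𝔪, h𝔪, hπ𝔪⟩, le_rfl⟩
  · by_cases hc : ∀ s : integralClosure (Algebra.adjoin O ({u⁻¹} : Set F)) F,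
        (s : F) = u⁻¹ → s ∈ 𝔪
    · exact ⟨Sum.inr ⟨𝔪, h𝔪, hπ𝔪, hc⟩, le_rfl⟩
    · have hv𝔪 : ∀ t : integralClosure (Algebra.adjoin O ({u⁻¹} : Set F)) F,
          (t : F) = u⁻¹ → t ∉ 𝔪 := by
        intro t ht htm
        apply hc
        intro s hs
        have e : s = t := Subtype.ext (hs.trans ht.symm)
        rw [e]; exact htm
      obtain ⟨𝔫, h𝔫, hI, hle⟩ :=
        exists_maximal_locAt_le u u⁻¹ (mul_inv_cancel₀ hu) 𝔪 h𝔪.isPrime hv𝔪
      have hπ𝔫 : algebraMap O (integralClosure (Algebra.adjoin O ({u} : Set F)) F) π ∈ 𝔫 :=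
        hI _ 0 _ hπ𝔪 (by rw [pow_zero, mul_one, coe_algebraMap_chart, coe_algebraMap_chart])
      exact ⟨Sum.inl ⟨𝔫, h𝔫, hπ𝔫⟩, hle⟩

/-- **(CONN) for the concrete point set.** -/
theorem conn_pt [IsNoetherianRing O] (π : O) (hπ : Prime π)
    (hinj : Function.Injective (algebraMap O F))
    (hOL : ∀ x : F, IsIntegral O x → ∃ a : O, algebraMap O F a = x)
    (u : F) (hu : u ≠ 0)
    (hfin : ∃ s : Finset F, (∀ β ∈ s, IsIntegral (Algebra.adjoin O ({u} : Set F)) β) ∧
      ∀ x : F, IsIntegral (Algebra.adjoin O ({u} : Set F)) x →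
        ∃ f : F → O[X], x = ∑ β ∈ s, aeval u (f β) * β)
    {ι : Type*} [Finite ι] (V : ι → Subring F)
    (hV : ∀ W (x : F), IsIntegral (Algebra.adjoin O ({u, u⁻¹} : Set F)) x → x ∈ V W)
    (hne : ∀ W, ¬ MemPi (V W) π 1)
    (hred0 : ∀ x : F, IsIntegral (Algebra.adjoin O ({u} : Set F)) x →
      (∀ W, MemPi (V W) π x) →
      ∃ w : F, IsIntegral (Algebra.adjoin O ({u} : Set F)) w ∧ x = algebraMap O F π * w)
    (hred1 : ∀ x : F, IsIntegral (Algebra.adjoin O ({u⁻¹} : Set F)) x →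
      (∀ W, MemPi (V W) π x) →
      ∃ w : F, IsIntegral (Algebra.adjoin O ({u⁻¹} : Set F)) w ∧ x = algebraMap O F π * w) :
    ∀ W W' : ι, Relation.ReflTransGen
      (fun a b => ∃ y : Pt π u, ptOn π u V y a ∧ ptOn π u V y b) W W' :=
  ChartGlobal.conn_of_charts π hπ hinj hOL u hu hfin V (ptOn π u V) hV hne hred0 hred1
    (fun 𝔪 h𝔪 W _ hW hW' =>
      ⟨Sum.inl ⟨𝔪, h𝔪, algebraMap_mem_of_cen π (V W) u 𝔪 hW⟩, hW, hW'⟩)
    (fun 𝔪 h𝔪 hs W _ hW hW' =>
      ⟨Sum.inr ⟨𝔪, h𝔪, algebraMap_mem_of_cen π (V W) u⁻¹ 𝔪 hW, hs⟩, hW, hW'⟩)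

/-- **(VAN) for the concrete point set.** -/
theorem van_pt (π : O) (u : F) {ι : Type*} (V : ι → Subring F)
    (hloc : ∀ a : O, ¬ π ∣ a → IsUnit a) (hu : u ≠ 0)
    (hV : ∀ W (x : F), IsIntegral (Algebra.adjoin O ({u, u⁻¹} : Set F)) x → x ∈ V W)
    (hne : ∀ W, ¬ MemPi (V W) π 1)
    (hunit : ∀ W (a : F), a ∈ V W → ¬ MemPi (V W) π a → a⁻¹ ∈ V W) :
    Van V (ptR π u) (ptOn π u V) π :=
  ChartGlobal.van_of_points π u V (ptR π u) (ptOn π u V) hloc hu hV hne hunit
    (fun W 𝔪 h𝔪 hcen =>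
      ⟨Sum.inl ⟨𝔪, h𝔪, algebraMap_mem_of_cen π (V W) u 𝔪 hcen⟩, hcen,
        fun _ ha => exists_frac_of_mem_locAt (Algebra.adjoin O ({u} : Set F)) 𝔪 h𝔪.isPrime ha⟩)
    (fun W 𝔪 h𝔪 hs hcen =>
      ⟨Sum.inr ⟨𝔪, h𝔪, algebraMap_mem_of_cen π (V W) u⁻¹ 𝔪 hcen, hs⟩, hcen,
        fun _ ha => exists_frac_of_mem_locAt (Algebra.adjoin O ({u⁻¹} : Set F)) 𝔪 h𝔪.isPrime ha⟩)
    (fun y => by
      rcases y with 𝔪 | 𝔪
      · exact ⟨u, Or.inl rfl, 𝔪.1, 𝔪.2.1.isPrime, fun _ hW => hW,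
          fun _ ha => exists_frac_of_mem_locAt (Algebra.adjoin O ({u} : Set F)) 𝔪.1
            𝔪.2.1.isPrime ha⟩
      · exact ⟨u⁻¹, Or.inr rfl, 𝔪.1, 𝔪.2.1.isPrime, fun _ hW => hW,
          fun _ ha => exists_frac_of_mem_locAt (Algebra.adjoin O ({u⁻¹} : Set F)) 𝔪.1
            𝔪.2.1.isPrime ha⟩)

/-- **(CONST0) for the concrete point set**, at a root component `W₀` whose centre lies in a
maximal ideal `𝔪` of residue degree one of one of the charts. -/
theorem constAt_pt (π : O) (u : F) {ι : Type*} (V : ι → Subring F)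
    (hloc : ∀ a : O, ¬ π ∣ a → IsUnit a) (hu : u ≠ 0)
    (hV : ∀ W (x : F), IsIntegral (Algebra.adjoin O ({u, u⁻¹} : Set F)) x → x ∈ V W)
    (hne : ∀ W, ¬ MemPi (V W) π 1)
    (hunit : ∀ W (a : F), a ∈ V W → ¬ MemPi (V W) π a → a⁻¹ ∈ V W)
    (W₀ : ι) {t : F} (ht : t = u ∨ t = u⁻¹)
    (𝔪 : Ideal (integralClosure (Algebra.adjoin O ({t} : Set F)) F)) (h𝔪 : 𝔪.IsMaximal)
    (hcen : ∀ b : integralClosure (Algebra.adjoin O ({t} : Set F)) F,
      MemPi (V W₀) π (b : F) → b ∈ 𝔪)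
    (hdeg : ∀ a : integralClosure (Algebra.adjoin O ({t} : Set F)) F, ∃ κ : O,
      ∃ m : integralClosure (Algebra.adjoin O ({t} : Set F)) F,
        m ∈ 𝔪 ∧ (a : F) - algebraMap O F κ = (m : F)) :
    ConstAt V (ptR π u) (ptOn π u V) π W₀ :=
  ChartGlobal.constAt_of_points π u V (ptR π u) (ptOn π u V) hloc hu hV hne hunit
    (fun W 𝔪 h𝔪 hcen =>
      ⟨Sum.inl ⟨𝔪, h𝔪, algebraMap_mem_of_cen π (V W) u 𝔪 hcen⟩, hcen,
        fun _ ha => exists_frac_of_mem_locAt (Algebra.adjoin O ({u} : Set F)) 𝔪 h𝔪.isPrime ha⟩)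
    (fun W 𝔪 h𝔪 hs hcen =>
      ⟨Sum.inr ⟨𝔪, h𝔪, algebraMap_mem_of_cen π (V W) u⁻¹ 𝔪 hcen, hs⟩, hcen,
        fun _ ha => exists_frac_of_mem_locAt (Algebra.adjoin O ({u⁻¹} : Set F)) 𝔪 h𝔪.isPrime ha⟩)
    W₀ ht 𝔪 h𝔪 hcen hdeg

end Points

/-! ### The model package from the local blocks -/

section Model

open Fermat.Agent.S33.Geo.Model

variable {O : Type*} [CommRing O] [IsDomain O] [IsDiscreteValuationRing O]
  {F : Type u} [Field F] [Algebra O F]

omit [IsDomain O] [IsDiscreteValuationRing O] in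
/-- **The points `Pt π u` cover the fibre of the two charts, cusp form** (by definition). -/
theorem coversCusp_pt (π : O) (u : F) : CoversCusp π u (ptR π u) :=
  ⟨fun 𝔪 h𝔪 hπ => ⟨Sum.inl ⟨𝔪, h𝔪, hπ⟩, rfl⟩,
    fun 𝔪 h𝔪 hπ hc => ⟨Sum.inr ⟨𝔪, h𝔪, hπ, (over_iff u⁻¹ 𝔪).mp hc⟩, rfl⟩⟩

/-- In a discrete valuation ring with uniformiser `π`, an element not divisible by `π` is a
unit. -/
theorem isUnit_of_not_dvd (π : O) (hπ : Irreducible π) (a : O) (ha : ¬ π ∣ a) : IsUnit a := by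
  by_contra hau
  apply ha
  have hmem : a ∈ IsLocalRing.maximalIdeal O := (IsLocalRing.mem_maximalIdeal a).mpr hau
  rw [hπ.maximalIdeal_eq] at hmem
  exact Ideal.mem_span_singleton.mp hmem

/-- **The four global fields of the model package for `(Pt, ptR, ptOn)`**: `constV`, `conn`,
`const0`, `van`, from the chart hypotheses and (CONST0) on one root component. -/
theorem fields_pt (π : O) (hπ : Irreducible π)
    (hinj : Function.Injective (algebraMap O F))
    (hOL : ∀ x : F, IsIntegral O x → ∃ a : O, algebraMap O F a = x)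
    (u : F) (hu : u ≠ 0)
    (hfin : ∃ s : Finset F, (∀ β ∈ s, IsIntegral (Algebra.adjoin O ({u} : Set F)) β) ∧
      ∀ x : F, IsIntegral (Algebra.adjoin O ({u} : Set F)) x →
        ∃ f : F → O[X], x = ∑ β ∈ s, aeval u (f β) * β)
    {ι : Type*} [Finite ι] (V : ι → Subring F)
    (hV : ∀ W (x : F), IsIntegral (Algebra.adjoin O ({u, u⁻¹} : Set F)) x → x ∈ V W)
    (hne : ∀ W, ¬ MemPi (V W) π 1)
    (hunit : ∀ W (a : F), a ∈ V W → ¬ MemPi (V W) π a → a⁻¹ ∈ V W)
    (hred0 : ∀ x : F, IsIntegral (Algebra.adjoin O ({u} : Set F)) x →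
      (∀ W, MemPi (V W) π x) →
      ∃ w : F, IsIntegral (Algebra.adjoin O ({u} : Set F)) w ∧ x = algebraMap O F π * w)
    (hred1 : ∀ x : F, IsIntegral (Algebra.adjoin O ({u⁻¹} : Set F)) x →
      (∀ W, MemPi (V W) π x) →
      ∃ w : F, IsIntegral (Algebra.adjoin O ({u⁻¹} : Set F)) w ∧ x = algebraMap O F π * w)
    (W₀ : ι) (hconst : ConstAt V (ptR π u) (ptOn π u V) π W₀) :
    (∀ W (a : O), algebraMap O F a ∈ V W) ∧
    (∀ W W' : ι, Relation.ReflTransGen
      (fun a b => ∃ y : Pt π u, ptOn π u V y a ∧ ptOn π u V y b) W W') ∧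
    (∃ W₀ : ι, ∀ x : F, x ∈ V W₀ →
      (∀ y, ptOn π u V y W₀ → ∃ a : F, a ∈ ptR π u y ∧ MemPi (V W₀) π (x - a)) →
      ∃ κ : O, MemPi (V W₀) π (x - algebraMap O F κ)) ∧
    (∀ W (x : F), x ∈ V W →
      (∀ y, ptOn π u V y W → ∃ a : F, a ∈ ptR π u y ∧ MemPi (V W) π (x - a)) →
      ∀ y, ptOn π u V y W → ∀ a : F, a ∈ ptR π u y → MemPi (V W) π (x - a) →
        (∃ W', ptOn π u V y W' ∧ MemPi (V W') π a) → MemPi (V W) π x) := by
  have hvan := van_pt π u V (isUnit_of_not_dvd π hπ) hu hV hne hunit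
  refine ⟨fun W a => hV W _ (CechP1.isIntegral_adjoin_of_mem (Subalgebra.algebraMap_mem _ a)),
    conn_pt π hπ.prime hinj hOL u hu hfin V hV hne hred0 hred1, ⟨W₀, hconst⟩, ?_⟩
  rintro W x hx hreg y hy a ha hxa ⟨W', hW', ha'⟩
  exact hvan W x hx hreg y W' hy hW' a ha ha' hxa

/-- **The model package (form of record, blocks in prime-ideal form) of the two-chart model
from its local blocks.**  `O` a discrete valuation ring with uniformiser `π`; the charts of `u`
have reduced fibre (`hred0`, `hred1`), the chart `u` is finite over `O[u]` (`hfin`), `O` is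
integrally closed in `F` (`hOL`); the generic rings `V W` of the finitely many components are
local with maximal ideal `π V W` (`hne`, `hunit`) and contain the overlap chart (`hV`); (CONST0)
holds on the root component `W₀`; every closed point of `Pt π u` carries a block. -/
theorem isModelI_of_blocks (p : ℕ) (π : O) (hπ : Irreducible π)
    (hinj : Function.Injective (algebraMap O F))
    (hOL : ∀ x : F, IsIntegral O x → ∃ a : O, algebraMap O F a = x)
    (u : F) (hu : u ≠ 0)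
    (hfin : ∃ s : Finset F, (∀ β ∈ s, IsIntegral (Algebra.adjoin O ({u} : Set F)) β) ∧
      ∀ x : F, IsIntegral (Algebra.adjoin O ({u} : Set F)) x →
        ∃ f : F → O[X], x = ∑ β ∈ s, aeval u (f β) * β)
    {ι : Type*} [Finite ι] (V : ι → Subring F) (Hor : F → Prop)
    (hV : ∀ W (x : F), IsIntegral (Algebra.adjoin O ({u, u⁻¹} : Set F)) x → x ∈ V W)
    (hne : ∀ W, ¬ MemPi (V W) π 1)
    (hunit : ∀ W (a : F), a ∈ V W → ¬ MemPi (V W) π a → a⁻¹ ∈ V W)
    (hred0 : ∀ x : F, IsIntegral (Algebra.adjoin O ({u} : Set F)) x →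
      (∀ W, MemPi (V W) π x) →
      ∃ w : F, IsIntegral (Algebra.adjoin O ({u} : Set F)) w ∧ x = algebraMap O F π * w)
    (hred1 : ∀ x : F, IsIntegral (Algebra.adjoin O ({u⁻¹} : Set F)) x →
      (∀ W, MemPi (V W) π x) →
      ∃ w : F, IsIntegral (Algebra.adjoin O ({u⁻¹} : Set F)) w ∧ x = algebraMap O F π * w)
    (W₀ : ι) (hconst : ConstAt V (ptR π u) (ptOn π u V) π W₀)
    (hblock : ∀ y : Pt π u,
      (∃ W₁ W₂, (∀ W, ptOn π u V y W ↔ W = W₁ ∨ W = W₂) ∧
        NodeBlockI p π Hor (ptR π u y) (V W₁) (V W₂)) ∨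
      (∃ W₁, (∀ W, ptOn π u V y W ↔ W = W₁) ∧ SmoothBlockI p π Hor (ptR π u y) (V W₁))) :
    IsModelI p π V (ptR π u) (ptOn π u V) Hor := by
  obtain ⟨h1, h2, h3, h4⟩ := fields_pt π hπ hinj hOL u hu hfin V hV hne hunit hred0 hred1 W₀
    hconst
  exact { constV := h1, block := hblock, conn := h2, const0 := h3, van := h4 }

/-- **The model package (element form of the horizontal clause) of the two-chart model from
its local blocks**: the same as `isModelI_of_blocks` with the blocks of `Geo/Model.lean`. -/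
theorem isModel_of_blocks (p : ℕ) (π : O) (hπ : Irreducible π)
    (hinj : Function.Injective (algebraMap O F))
    (hOL : ∀ x : F, IsIntegral O x → ∃ a : O, algebraMap O F a = x)
    (u : F) (hu : u ≠ 0)
    (hfin : ∃ s : Finset F, (∀ β ∈ s, IsIntegral (Algebra.adjoin O ({u} : Set F)) β) ∧
      ∀ x : F, IsIntegral (Algebra.adjoin O ({u} : Set F)) x →
        ∃ f : F → O[X], x = ∑ β ∈ s, aeval u (f β) * β)
    {ι : Type*} [Finite ι] (V : ι → Subring F) (Hor : F → Prop)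
    (hV : ∀ W (x : F), IsIntegral (Algebra.adjoin O ({u, u⁻¹} : Set F)) x → x ∈ V W)
    (hne : ∀ W, ¬ MemPi (V W) π 1)
    (hunit : ∀ W (a : F), a ∈ V W → ¬ MemPi (V W) π a → a⁻¹ ∈ V W)
    (hred0 : ∀ x : F, IsIntegral (Algebra.adjoin O ({u} : Set F)) x →
      (∀ W, MemPi (V W) π x) →
      ∃ w : F, IsIntegral (Algebra.adjoin O ({u} : Set F)) w ∧ x = algebraMap O F π * w)
    (hred1 : ∀ x : F, IsIntegral (Algebra.adjoin O ({u⁻¹} : Set F)) x →
      (∀ W, MemPi (V W) π x) →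
      ∃ w : F, IsIntegral (Algebra.adjoin O ({u⁻¹} : Set F)) w ∧ x = algebraMap O F π * w)
    (W₀ : ι) (hconst : ConstAt V (ptR π u) (ptOn π u V) π W₀)
    (hblock : ∀ y : Pt π u,
      (∃ W₁ W₂, (∀ W, ptOn π u V y W ↔ W = W₁ ∨ W = W₂) ∧
        NodeBlock p π Hor (ptR π u y) (V W₁) (V W₂)) ∨
      (∃ W₁, (∀ W, ptOn π u V y W ↔ W = W₁) ∧ SmoothBlock p π Hor (ptR π u y) (V W₁))) :
    IsModel p π V (ptR π u) (ptOn π u V) Hor := by
  obtain ⟨h1, h2, h3, h4⟩ := fields_pt π hπ hinj hOL u hu hfin V hV hne hunit hred0 hred1 W₀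
    hconst
  exact { constV := h1, block := hblock, conn := h2, const0 := h3, van := h4 }

end Model

end Fermat.Agent.S33.Geo.ChartPoints
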