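import Mathlib
import Fermat.Agent.S33.Geo.ChartBranch
import Fermat.Agent.S33.Geo.ChartPoints

/-!
# S33 / GEO / C3 (T1 exit): the model of the two charts from the blocks at its closed points

Level-free (Mathlib + `S33/Geo/{ChartBranch, ChartPoints}`).  helper76.

`O` a discrete valuation ring with uniformiser `π`, `F` a field over `O`, `u : F`.  The model of
the two charts `integralClosure O[u] F`, `integralClosure O[u⁻¹] F` is described by

* the canonical component type `{W : Subring F // ChartBranch.IsGen π u W}`, `V := Subtype.val`;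
* the canonical point type `ChartPoints.Pt π u`, `R := ptR π u`, `On := ptOn π u Subtype.val`.

Results:

* `isModel_of_blockU` : a `ChartBranch.BlockU` at every point of `Pt π u` (+ the chart
  hypotheses `hOL`, finiteness of the chart `u`, and (CONST0) at one root component) gives
  `Model.IsModel` for the canonical datum;
* `exists_constAt` : (CONST0) holds at a component through a closed point of residue degree
  one;
* `alpha`, `hred0_pow`, `hred1_pow`, `hred0_natCast`, `hred1_natCast` : the generic rings are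
  discrete valuation rings in the binder form of `Orth.depthIn_form`, and the fibres of the
  charts are reduced in the binder form of `ModelExit.model_exit`;
* `DegOne`, `exists_constAt_pt` : the same for a point of `Pt π u` of residue degree one;
* `BlockOver`, `BlockOver.blockU`, `blockU_of_above`, `lies_over`, `cover_model`,
  `cover_model_of_deg` : the same for a field `L` over
  `F` whose blocks lie over the generic rings `V W` of a family of subrings of `F` containing
  `u`, `u⁻¹` (the exit shape of `Geo/CoverBlocks`): the model of the two charts of `L`, the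
  cover of its fibre by the points, and "every component of `L` lies over a component of `F`".
-/

set_option autoImplicit false
set_option linter.unusedSectionVars false
set_option linter.unusedVariables false

namespace Fermat.Agent.S33.Geo.ChartBranchModel

open Polynomial Fermat.Agent.S30.Model Fermat.Agent.S33.Geo.Top Fermat.Agent.S33.Geo.TopLocal
  Fermat.Agent.S33.Geo.Model Fermat.Agent.S33.Geo.ChartGlobal Fermat.Agent.S33.Geo.BranchDvr
  Fermat.Agent.S33.Geo.BranchPin Fermat.Agent.S33.Geo.ChartBranch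
  Fermat.Agent.S33.Geo.ChartPoints Fermat.Agent.S44.L.DepthHenselExit

universe v w

/-! ### The model of the two charts -/

section One

variable {O : Type*} [CommRing O] [IsDomain O] [IsDiscreteValuationRing O]
  {F : Type v} [Field F] [Algebra O F]

/-- The blocks at the closed points of the chart `u`, from the blocks at the points `Pt π u`. -/
theorem hblk0_of_pt (p : ℕ) (π : O) (u : F) (Hor : F → Prop)
    (hblk : ∀ y : Pt π u, BlockU p π u Hor (ptR π u y))
    (𝔪 : Ideal (integralClosure (Algebra.adjoin O ({u} : Set F)) F)) (h𝔪 : 𝔪.IsMaximal)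
    (hπ𝔪 : algebraMap O (integralClosure (Algebra.adjoin O ({u} : Set F)) F) π ∈ 𝔪) :
    BlockU p π u Hor (locAt (Algebra.adjoin O ({u} : Set F)) 𝔪 h𝔪.isPrime) :=
  hblk (Sum.inl ⟨𝔪, h𝔪, hπ𝔪⟩)

/-- The blocks at the closed points over `u = ∞` of the chart `u⁻¹`, from the blocks at the
points `Pt π u`. -/
theorem hblk1_of_pt (p : ℕ) (π : O) (u : F) (Hor : F → Prop)
    (hblk : ∀ y : Pt π u, BlockU p π u Hor (ptR π u y))
    (𝔪 : Ideal (integralClosure (Algebra.adjoin O ({u⁻¹} : Set F)) F)) (h𝔪 : 𝔪.IsMaximal)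
    (hπ𝔪 : algebraMap O (integralClosure (Algebra.adjoin O ({u⁻¹} : Set F)) F) π ∈ 𝔪)
    (hinf : ∀ s : integralClosure (Algebra.adjoin O ({u⁻¹} : Set F)) F, (s : F) = u⁻¹ → s ∈ 𝔪) :
    BlockU p π u Hor (locAt (Algebra.adjoin O ({u⁻¹} : Set F)) 𝔪 h𝔪.isPrime) :=
  hblk (Sum.inr ⟨𝔪, h𝔪, hπ𝔪, hinf⟩)

/-- **The model of the two charts from the blocks at its closed points.**  Components: the
generic rings of the two charts (`ChartBranch.IsGen`); points: `ChartPoints.Pt`. -/
theorem isModel_of_blockU (p : ℕ) (π : O) (hπ : Irreducible π)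
    (hinj : Function.Injective (algebraMap O F))
    (hOL : ∀ x : F, IsIntegral O x → ∃ a : O, algebraMap O F a = x)
    (u : F) (hu : u ≠ 0)
    [Module.Finite (Algebra.adjoin O ({u} : Set F))
      (integralClosure (Algebra.adjoin O ({u} : Set F)) F)]
    (Hor : F → Prop)
    (hblk : ∀ y : Pt π u, BlockU p π u Hor (ptR π u y))
    (W₀ : {W : Subring F // IsGen π u W})
    (hconst : ConstAt (Subtype.val : {W : Subring F // IsGen π u W} → Subring F) (ptR π u)
      (ptOn π u (Subtype.val : {W : Subring F // IsGen π u W} → Subring F)) π W₀) :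
    IsModel p π (Subtype.val : {W : Subring F // IsGen π u W} → Subring F) (ptR π u)
      (ptOn π u (Subtype.val : {W : Subring F // IsGen π u W} → Subring F)) Hor := by
  have hπ0 : algebraMap O F π ≠ 0 := fun h => hπ.ne_zero (hinj (by rw [h, map_zero]))
  have : IsNoetherianRing (integralClosure (Algebra.adjoin O ({u} : Set F)) F) :=
    isNoetherianRing_chart u
  have : Finite {W : Subring F // IsGen π u W} := finite_comp π u
  refine isModel_of_blocks p π hπ hinj hOL u hu (CechP1.hfin_of_finite u)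
    (Subtype.val : {W : Subring F // IsGen π u W} → Subring F) Hor
    (fun W => W.2.hV) (fun W => W.2.hne) (fun W => W.2.hunit)
    (fun x hx hW => hred0 p π hπ0 hu Hor (hblk0_of_pt p π u Hor hblk) x hx hW)
    (fun x hx hW => hred1 p π hπ0 hu Hor (hblk0_of_pt p π u Hor hblk)
      (hblk1_of_pt p π u Hor hblk) x hx hW) W₀ hconst ?_
  rintro (⟨𝔪, h𝔪, hπ𝔪⟩ | ⟨𝔪, h𝔪, hπ𝔪, hinf⟩)
  · exact pinned_block p π hu Hor (Or.inl rfl) 𝔪 h𝔪.isPrime (hblk (Sum.inl ⟨𝔪, h𝔪, hπ𝔪⟩))
  · exact pinned_block p π hu Hor (Or.inr rfl) 𝔪 h𝔪.isPrime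
      (hblk (Sum.inr ⟨𝔪, h𝔪, hπ𝔪, hinf⟩))

/-- **(CONST0) at a component through a closed point of residue degree one**: a maximal ideal
`𝔪` of one of the two charts carrying a block, all of whose residues are constants. -/
theorem exists_constAt (p : ℕ) (π : O) (hπ : Irreducible π) (u : F) (hu : u ≠ 0)
    (Hor : F → Prop) {t : F} (ht : t = u ∨ t = u⁻¹)
    (𝔪 : Ideal (integralClosure (Algebra.adjoin O ({t} : Set F)) F)) (h𝔪 : 𝔪.IsMaximal)
    (hB : BlockU p π u Hor (locAt (Algebra.adjoin O ({t} : Set F)) 𝔪 h𝔪.isPrime))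
    (hdeg : ∀ a : integralClosure (Algebra.adjoin O ({t} : Set F)) F, ∃ κ : O,
      ∃ m : integralClosure (Algebra.adjoin O ({t} : Set F)) F,
        m ∈ 𝔪 ∧ (a : F) - algebraMap O F κ = (m : F)) :
    ∃ W₀ : {W : Subring F // IsGen π u W},
      ConstAt (Subtype.val : {W : Subring F // IsGen π u W} → Subring F) (ptR π u)
        (ptOn π u (Subtype.val : {W : Subring F // IsGen π u W} → Subring F)) π W₀ := by
  have key : ∃ W₀ : {W : Subring F // IsGen π u W},
      ∀ b : integralClosure (Algebra.adjoin O ({t} : Set F)) F,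
        MemPi (W₀ : Subring F) π (b : F) → b ∈ 𝔪 := by
    rcases block_facts p π hu Hor ht 𝔪 h𝔪.isPrime hB with
      ⟨V₁, V₂, g₁, g₂, -, -, hc₁, -, -⟩ | ⟨V₁, g₁, -, -, hc₁, -⟩
    · exact ⟨⟨V₁, g₁⟩, hc₁⟩
    · exact ⟨⟨V₁, g₁⟩, hc₁⟩
  obtain ⟨W₀, hcen⟩ := key
  exact ⟨W₀, constAt_pt π u (Subtype.val : {W : Subring F // IsGen π u W} → Subring F)
    (isUnit_of_not_dvd π hπ) hu (fun W => W.2.hV) (fun W => W.2.hne) (fun W => W.2.hunit)
    W₀ ht 𝔪 h𝔪 hcen hdeg⟩

omit [IsDomain O] [IsDiscreteValuationRing O] in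
/-- **A closed point of residue degree one**: every element of the chart of the point is a
constant modulo the point. -/
def DegOne (π : O) (u : F) : Pt π u → Prop
  | Sum.inl 𝔪 => ∀ a : integralClosure (Algebra.adjoin O ({u} : Set F)) F, ∃ κ : O,
      ∃ m : integralClosure (Algebra.adjoin O ({u} : Set F)) F,
        m ∈ 𝔪.1 ∧ (a : F) - algebraMap O F κ = (m : F)
  | Sum.inr 𝔪 => ∀ a : integralClosure (Algebra.adjoin O ({u⁻¹} : Set F)) F, ∃ κ : O,
      ∃ m : integralClosure (Algebra.adjoin O ({u⁻¹} : Set F)) F,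
        m ∈ 𝔪.1 ∧ (a : F) - algebraMap O F κ = (m : F)

/-- **(CONST0) at a component through a point of `Pt π u` of residue degree one.** -/
theorem exists_constAt_pt (p : ℕ) (π : O) (hπ : Irreducible π) (u : F) (hu : u ≠ 0)
    (Hor : F → Prop) (hblk : ∀ y : Pt π u, BlockU p π u Hor (ptR π u y))
    (y₀ : Pt π u) (hdeg : DegOne π u y₀) :
    ∃ W₀ : {W : Subring F // IsGen π u W},
      ConstAt (Subtype.val : {W : Subring F // IsGen π u W} → Subring F) (ptR π u)
        (ptOn π u (Subtype.val : {W : Subring F // IsGen π u W} → Subring F)) π W₀ := by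
  rcases y₀ with ⟨𝔪, h𝔪, hπ𝔪⟩ | ⟨𝔪, h𝔪, hπ𝔪, hinf⟩
  · exact exists_constAt p π hπ u hu Hor (Or.inl rfl) 𝔪 h𝔪 (hblk (Sum.inl ⟨𝔪, h𝔪, hπ𝔪⟩)) hdeg
  · exact exists_constAt p π hπ u hu Hor (Or.inr rfl) 𝔪 h𝔪
      (hblk (Sum.inr ⟨𝔪, h𝔪, hπ𝔪, hinf⟩)) hdeg

omit [IsDomain O] [IsDiscreteValuationRing O] in
/-- **(α)**: a generic ring of the two charts is a discrete valuation ring of `F` with
uniformiser `π`, in the binder form of `Orth.depthIn_form`. -/
theorem alpha {π : O} {u : F} {W : Subring F} (h : IsGen π u W) :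
    (∀ x : F, x ∈ W ∨ x⁻¹ ∈ W) ∧ algebraMap O F π ∈ W ∧ (algebraMap O F π)⁻¹ ∉ W ∧
      ∀ a : F, a ≠ 0 → ∃ (n : ℤ) (w : F), w ∈ W ∧ w⁻¹ ∈ W ∧ a = algebraMap O F π ^ n * w :=
  ⟨h.dvr.val, h.dvr.pi_mem, h.dvr.inv_pi_notMem, h.unif⟩

/-- **(γ), chart `u`**: `x ^ n / π` integral over `O[u]` implies `x / π` integral over `O[u]`
(the binder `hred0` of `ModelExit.model_exit`, for any `n`). -/
theorem hred0_pow (p : ℕ) (π : O) (hπ0 : algebraMap O F π ≠ 0) {u : F} (hu : u ≠ 0)
    (Hor : F → Prop)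
    (hblk0 : ∀ (𝔪 : Ideal (integralClosure (Algebra.adjoin O ({u} : Set F)) F))
      (h𝔪 : 𝔪.IsMaximal),
      algebraMap O (integralClosure (Algebra.adjoin O ({u} : Set F)) F) π ∈ 𝔪 →
      BlockU p π u Hor (locAt (Algebra.adjoin O ({u} : Set F)) 𝔪 h𝔪.isPrime))
    (n : ℕ) (x : F) (hx : IsIntegral (Algebra.adjoin O ({u} : Set F)) x)
    (hxn : IsIntegral (Algebra.adjoin O ({u} : Set F)) (x ^ n / algebraMap O F π)) :
    IsIntegral (Algebra.adjoin O ({u} : Set F)) (x / algebraMap O F π) :=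
  hred_pow π hπ0 (Subtype.val : {W : Subring F // IsGen π u W} → Subring F)
    (fun W => W.2.dvr) (Algebra.adjoin O ({u} : Set F))
    (fun W x hx => W.2.hV x (CechP1.isIntegral_mono (Algebra.adjoin_mono (by simp)) hx))
    (fun x hx hW => hred0 p π hπ0 hu Hor hblk0 x hx hW) n x hx hxn

/-- **(γ), chart `u⁻¹`**: `x ^ n / π` integral over `O[u⁻¹]` implies `x / π` integral over
`O[u⁻¹]` (the binder `hredinf` of `ModelExit.model_exit`, for any `n`). -/
theorem hred1_pow (p : ℕ) (π : O) (hπ0 : algebraMap O F π ≠ 0) {u : F} (hu : u ≠ 0)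
    (Hor : F → Prop)
    (hblk0 : ∀ (𝔪 : Ideal (integralClosure (Algebra.adjoin O ({u} : Set F)) F))
      (h𝔪 : 𝔪.IsMaximal),
      algebraMap O (integralClosure (Algebra.adjoin O ({u} : Set F)) F) π ∈ 𝔪 →
      BlockU p π u Hor (locAt (Algebra.adjoin O ({u} : Set F)) 𝔪 h𝔪.isPrime))
    (hblk1 : ∀ (𝔪 : Ideal (integralClosure (Algebra.adjoin O ({u⁻¹} : Set F)) F))
      (h𝔪 : 𝔪.IsMaximal),
      algebraMap O (integralClosure (Algebra.adjoin O ({u⁻¹} : Set F)) F) π ∈ 𝔪 →
      (∀ s : integralClosure (Algebra.adjoin O ({u⁻¹} : Set F)) F, (s : F) = u⁻¹ → s ∈ 𝔪) →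
      BlockU p π u Hor (locAt (Algebra.adjoin O ({u⁻¹} : Set F)) 𝔪 h𝔪.isPrime))
    (n : ℕ) (x : F) (hx : IsIntegral (Algebra.adjoin O ({u⁻¹} : Set F)) x)
    (hxn : IsIntegral (Algebra.adjoin O ({u⁻¹} : Set F)) (x ^ n / algebraMap O F π)) :
    IsIntegral (Algebra.adjoin O ({u⁻¹} : Set F)) (x / algebraMap O F π) :=
  hred_pow π hπ0 (Subtype.val : {W : Subring F // IsGen π u W} → Subring F)
    (fun W => W.2.dvr) (Algebra.adjoin O ({u⁻¹} : Set F))
    (fun W x hx => W.2.hV x (CechP1.isIntegral_mono (Algebra.adjoin_mono (by simp)) hx))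
    (fun x hx hW => hred1 p π hπ0 hu Hor hblk0 hblk1 x hx hW) n x hx hxn

/-- `hred0_pow` at `π = p`, `n = p`, in the literal binder of `ModelExit.model_exit`. -/
theorem hred0_natCast (p : ℕ) (hp0 : (p : F) ≠ 0) {u : F} (hu : u ≠ 0) (Hor : F → Prop)
    (hblk : ∀ y : Pt (p : O) u, BlockU p (p : O) u Hor (ptR (p : O) u y)) :
    ∀ x : F, IsIntegral (Algebra.adjoin O ({u} : Set F)) x →
      IsIntegral (Algebra.adjoin O ({u} : Set F)) (x ^ p / (p : F)) →
      IsIntegral (Algebra.adjoin O ({u} : Set F)) (x / (p : F)) := by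
  intro x hx hxp
  have e : algebraMap O F (p : O) = (p : F) := map_natCast _ p
  have h := hred0_pow p (p : O) (by rw [e]; exact hp0) hu Hor
    (hblk0_of_pt p (p : O) u Hor hblk) p x hx (by rw [e]; exact hxp)
  rwa [e] at h

/-- `hred1_pow` at `π = p`, `n = p`, in the literal binder of `ModelExit.model_exit`. -/
theorem hred1_natCast (p : ℕ) (hp0 : (p : F) ≠ 0) {u : F} (hu : u ≠ 0) (Hor : F → Prop)
    (hblk : ∀ y : Pt (p : O) u, BlockU p (p : O) u Hor (ptR (p : O) u y)) :
    ∀ x : F, IsIntegral (Algebra.adjoin O ({u⁻¹} : Set F)) x →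
      IsIntegral (Algebra.adjoin O ({u⁻¹} : Set F)) (x ^ p / (p : F)) →
      IsIntegral (Algebra.adjoin O ({u⁻¹} : Set F)) (x / (p : F)) := by
  intro x hx hxp
  have e : algebraMap O F (p : O) = (p : F) := map_natCast _ p
  have h := hred1_pow p (p : O) (by rw [e]; exact hp0) hu Hor
    (hblk0_of_pt p (p : O) u Hor hblk) (hblk1_of_pt p (p : O) u Hor hblk) p x hx
    (by rw [e]; exact hxp)
  rwa [e] at h

end One

/-! ### Blocks lying over a family of subrings of a subfield -/

section Over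

variable {O : Type*} [CommRing O] [IsDomain O] [IsDiscreteValuationRing O]
  {F : Type v} [Field F] [Algebra O F] {L : Type w} [Field L] [Algebra F L] [Algebra O L]

/-- **A local block of `L` lying over generic rings of `F`** (the exit shape of
`Geo/CoverBlocks`): a `Model.NodeBlock` / `Model.SmoothBlock` at `Ry'` each branch ring of which
restricts on `F` to one of the rings `V W`. -/
def BlockOver (p : ℕ) (ϖ : O) {ι : Type*} (V : ι → Subring F) (Hor' : L → Prop)
    (Ry' : Subring L) : Prop :=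
  (∃ (W₁ W₂ : ι) (V₁' V₂' : Subring L), NodeBlock p ϖ Hor' Ry' V₁' V₂' ∧
      (∀ f : F, algebraMap F L f ∈ V₁' ↔ f ∈ V W₁) ∧
      (∀ f : F, algebraMap F L f ∈ V₂' ↔ f ∈ V W₂)) ∨
  (∃ (W₁ : ι) (V₁' : Subring L), SmoothBlock p ϖ Hor' Ry' V₁' ∧
      ∀ f : F, algebraMap F L f ∈ V₁' ↔ f ∈ V W₁)

variable {p : ℕ} {ϖ : O} {ι : Type*} {V : ι → Subring F} {Hor' : L → Prop} {Ry' : Subring L}

/-- A block lying over rings containing `u`, `u⁻¹` is not contracted: its branch rings contain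
the images of `u`, `u⁻¹`. -/
theorem BlockOver.blockU {u : F} (hVu : ∀ W, u ∈ V W ∧ u⁻¹ ∈ V W)
    (h : BlockOver p ϖ V Hor' Ry') : BlockU p ϖ (algebraMap F L u) Hor' Ry' := by
  rcases h with ⟨W₁, W₂, V₁', V₂', hN, h₁, h₂⟩ | ⟨W₁, V₁', hS, h₁⟩
  · refine Or.inl ⟨V₁', V₂', hN, ⟨(h₁ u).mpr (hVu W₁).1, ?_⟩, ⟨(h₂ u).mpr (hVu W₂).1, ?_⟩⟩
    · rw [← map_inv₀]
      exact (h₁ u⁻¹).mpr (hVu W₁).2
    · rw [← map_inv₀]
      exact (h₂ u⁻¹).mpr (hVu W₂).2
  · refine Or.inr ⟨V₁', hS, (h₁ u).mpr (hVu W₁).1, ?_⟩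
    rw [← map_inv₀]
    exact (h₁ u⁻¹).mpr (hVu W₁).2

/-- **(β)**: every generic ring of the two charts of `L` lies over one of the rings `V W`, as
soon as the blocks at the closed points of the chart of `u` do. -/
theorem lies_over (p : ℕ) (ϖ : O) {ι : Type*} (V : ι → Subring F) {u : F} (hu : u ≠ 0)
    (hVu : ∀ W, u ∈ V W ∧ u⁻¹ ∈ V W) (Hor' : L → Prop)
    (hblk0 : ∀ (𝔪 : Ideal (integralClosure (Algebra.adjoin O ({algebraMap F L u} : Set L)) L))
      (h𝔪 : 𝔪.IsMaximal),
      algebraMap O (integralClosure (Algebra.adjoin O ({algebraMap F L u} : Set L)) L) ϖ ∈ 𝔪 →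
      BlockOver p ϖ V Hor' (locAt (Algebra.adjoin O ({algebraMap F L u} : Set L)) 𝔪 h𝔪.isPrime))
    (W' : Subring L) (hW' : IsGen ϖ (algebraMap F L u) W') :
    ∃ W : ι, ∀ f : F, algebraMap F L f ∈ W' ↔ f ∈ V W := by
  have hu' : algebraMap F L u ≠ 0 := (map_ne_zero (algebraMap F L)).mpr hu
  refine forall_isGen p ϖ hu' Hor' (fun W' => ∃ W : ι, ∀ f : F, algebraMap F L f ∈ W' ↔ f ∈ V W)
    (fun 𝔪 h𝔪 hϖ => ?_) W' hW'
  rcases hblk0 𝔪 h𝔪 hϖ with ⟨W₁, W₂, V₁', V₂', hN, h₁, h₂⟩ | ⟨W₁, V₁', hS, h₁⟩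
  · refine Or.inl ⟨V₁', V₂', hN, ⟨(h₁ u).mpr (hVu W₁).1, ?_⟩, ⟨(h₂ u).mpr (hVu W₂).1, ?_⟩,
      ⟨W₁, h₁⟩, ⟨W₂, h₂⟩⟩
    · rw [← map_inv₀]
      exact (h₁ u⁻¹).mpr (hVu W₁).2
    · rw [← map_inv₀]
      exact (h₂ u⁻¹).mpr (hVu W₂).2
  · refine Or.inr ⟨V₁', hS, ⟨(h₁ u).mpr (hVu W₁).1, ?_⟩, ⟨W₁, h₁⟩⟩
    rw [← map_inv₀]
    exact (h₁ u⁻¹).mpr (hVu W₁).2

/-- The blocks lying over the rings `V W ∋ u, u⁻¹` at the closed points of the fibre of the two
charts of `L` (`hab`: the literal exit of `CoverBlocks.blocks_above`) are blocks `BlockU` at the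
points `Pt π u'`, `u'` the image of `u`. -/
theorem blockU_of_above (p : ℕ) (π : O) {ι : Type*} (V : ι → Subring F) (u : F)
    (hVu : ∀ W, u ∈ V W ∧ u⁻¹ ∈ V W) (Hor' : L → Prop)
    (hab :
      (∀ (𝔪 : Ideal (integralClosure (Algebra.adjoin O ({algebraMap F L u} : Set L)) L))
        (h𝔪 : 𝔪.IsMaximal),
        algebraMap O (integralClosure (Algebra.adjoin O ({algebraMap F L u} : Set L)) L) π ∈ 𝔪 →
        BlockOver p π V Hor'
          (locAt (Algebra.adjoin O ({algebraMap F L u} : Set L)) 𝔪 h𝔪.isPrime)) ∧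
      (∀ (𝔪 : Ideal (integralClosure (Algebra.adjoin O ({(algebraMap F L u)⁻¹} : Set L)) L))
        (h𝔪 : 𝔪.IsMaximal),
        algebraMap O (integralClosure (Algebra.adjoin O ({(algebraMap F L u)⁻¹} : Set L)) L) π
          ∈ 𝔪 →
        (∃ t : integralClosure (Algebra.adjoin O ({(algebraMap F L u)⁻¹} : Set L)) L,
          (t : L) = (algebraMap F L u)⁻¹ ∧ t ∈ 𝔪) →
        BlockOver p π V Hor'
          (locAt (Algebra.adjoin O ({(algebraMap F L u)⁻¹} : Set L)) 𝔪 h𝔪.isPrime))) :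
    ∀ y : Pt π (algebraMap F L u),
      BlockU p π (algebraMap F L u) Hor' (ptR π (algebraMap F L u) y) := by
  rintro (⟨𝔪, h𝔪, hπ𝔪⟩ | ⟨𝔪, h𝔪, hπ𝔪, hinf⟩)
  · exact (hab.1 𝔪 h𝔪 hπ𝔪).blockU hVu
  · exact (hab.2 𝔪 h𝔪 hπ𝔪 ((over_iff _ 𝔪).mpr hinf)).blockU hVu

/-- **The model of the two charts of `L` over a family of generic rings of `F`** (the core of
row C3): blocks lying over the rings `V W ∋ u, u⁻¹` at the closed points of the fibre of the
two charts of `L` (`hab`: the literal exit of `CoverBlocks.blocks_above`) give the model of the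
two charts of `L`, the cover of the fibre by its points, and "every component of `L` lies over
a component of `F`". -/
theorem cover_model (p : ℕ) (π : O) (hπ : Irreducible π) {ι : Type*} (V : ι → Subring F)
    (u : F) (hu : u ≠ 0) (hVu : ∀ W, u ∈ V W ∧ u⁻¹ ∈ V W)
    (hinj : Function.Injective (algebraMap O L))
    (hOL : ∀ x : L, IsIntegral O x → ∃ a : O, algebraMap O L a = x)
    [Module.Finite (Algebra.adjoin O ({algebraMap F L u} : Set L))
      (integralClosure (Algebra.adjoin O ({algebraMap F L u} : Set L)) L)]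
    (Hor' : L → Prop)
    (hab :
      (∀ (𝔪 : Ideal (integralClosure (Algebra.adjoin O ({algebraMap F L u} : Set L)) L))
        (h𝔪 : 𝔪.IsMaximal),
        algebraMap O (integralClosure (Algebra.adjoin O ({algebraMap F L u} : Set L)) L) π ∈ 𝔪 →
        BlockOver p π V Hor'
          (locAt (Algebra.adjoin O ({algebraMap F L u} : Set L)) 𝔪 h𝔪.isPrime)) ∧
      (∀ (𝔪 : Ideal (integralClosure (Algebra.adjoin O ({(algebraMap F L u)⁻¹} : Set L)) L))
        (h𝔪 : 𝔪.IsMaximal),
        algebraMap O (integralClosure (Algebra.adjoin O ({(algebraMap F L u)⁻¹} : Set L)) L) π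
          ∈ 𝔪 →
        (∃ t : integralClosure (Algebra.adjoin O ({(algebraMap F L u)⁻¹} : Set L)) L,
          (t : L) = (algebraMap F L u)⁻¹ ∧ t ∈ 𝔪) →
        BlockOver p π V Hor'
          (locAt (Algebra.adjoin O ({(algebraMap F L u)⁻¹} : Set L)) 𝔪 h𝔪.isPrime)))
    (W₀ : {W' : Subring L // IsGen π (algebraMap F L u) W'})
    (hconst : ConstAt
      (Subtype.val : {W' : Subring L // IsGen π (algebraMap F L u) W'} → Subring L)
      (ptR π (algebraMap F L u))
      (ptOn π (algebraMap F L u)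
        (Subtype.val : {W' : Subring L // IsGen π (algebraMap F L u) W'} → Subring L)) π W₀) :
    IsModel p π (Subtype.val : {W' : Subring L // IsGen π (algebraMap F L u) W'} → Subring L)
        (ptR π (algebraMap F L u))
        (ptOn π (algebraMap F L u)
          (Subtype.val : {W' : Subring L // IsGen π (algebraMap F L u) W'} → Subring L)) Hor' ∧
      CoversCusp π (algebraMap F L u) (ptR π (algebraMap F L u)) ∧
      ∀ W' : {W' : Subring L // IsGen π (algebraMap F L u) W'},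
        ∃ W : ι, ∀ f : F, algebraMap F L f ∈ (W' : Subring L) ↔ f ∈ V W := by
  have hu' : algebraMap F L u ≠ 0 := (map_ne_zero (algebraMap F L)).mpr hu
  exact ⟨isModel_of_blockU p π hπ hinj hOL (algebraMap F L u) hu' Hor'
      (blockU_of_above p π V u hVu Hor' hab) W₀ hconst,
    coversCusp_pt π (algebraMap F L u),
    fun W' => lies_over p π V hu hVu Hor' hab.1 W'.1 W'.2⟩

/-- `cover_model` with (CONST0) supplied by a closed point of residue degree one of the fibre of
the two charts of `L`. -/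
theorem cover_model_of_deg (p : ℕ) (π : O) (hπ : Irreducible π) {ι : Type*}
    (V : ι → Subring F) (u : F) (hu : u ≠ 0) (hVu : ∀ W, u ∈ V W ∧ u⁻¹ ∈ V W)
    (hinj : Function.Injective (algebraMap O L))
    (hOL : ∀ x : L, IsIntegral O x → ∃ a : O, algebraMap O L a = x)
    [Module.Finite (Algebra.adjoin O ({algebraMap F L u} : Set L))
      (integralClosure (Algebra.adjoin O ({algebraMap F L u} : Set L)) L)]
    (Hor' : L → Prop)
    (hab :
      (∀ (𝔪 : Ideal (integralClosure (Algebra.adjoin O ({algebraMap F L u} : Set L)) L))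
        (h𝔪 : 𝔪.IsMaximal),
        algebraMap O (integralClosure (Algebra.adjoin O ({algebraMap F L u} : Set L)) L) π ∈ 𝔪 →
        BlockOver p π V Hor'
          (locAt (Algebra.adjoin O ({algebraMap F L u} : Set L)) 𝔪 h𝔪.isPrime)) ∧
      (∀ (𝔪 : Ideal (integralClosure (Algebra.adjoin O ({(algebraMap F L u)⁻¹} : Set L)) L))
        (h𝔪 : 𝔪.IsMaximal),
        algebraMap O (integralClosure (Algebra.adjoin O ({(algebraMap F L u)⁻¹} : Set L)) L) π
          ∈ 𝔪 →
        (∃ t : integralClosure (Algebra.adjoin O ({(algebraMap F L u)⁻¹} : Set L)) L,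
          (t : L) = (algebraMap F L u)⁻¹ ∧ t ∈ 𝔪) →
        BlockOver p π V Hor'
          (locAt (Algebra.adjoin O ({(algebraMap F L u)⁻¹} : Set L)) 𝔪 h𝔪.isPrime)))
    (y₀ : Pt π (algebraMap F L u)) (hdeg : DegOne π (algebraMap F L u) y₀) :
    IsModel p π (Subtype.val : {W' : Subring L // IsGen π (algebraMap F L u) W'} → Subring L)
        (ptR π (algebraMap F L u))
        (ptOn π (algebraMap F L u)
          (Subtype.val : {W' : Subring L // IsGen π (algebraMap F L u) W'} → Subring L)) Hor' ∧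
      CoversCusp π (algebraMap F L u) (ptR π (algebraMap F L u)) ∧
      ∀ W' : {W' : Subring L // IsGen π (algebraMap F L u) W'},
        ∃ W : ι, ∀ f : F, algebraMap F L f ∈ (W' : Subring L) ↔ f ∈ V W := by
  have hu' : algebraMap F L u ≠ 0 := (map_ne_zero (algebraMap F L)).mpr hu
  obtain ⟨W₀, hconst⟩ := exists_constAt_pt p π hπ (algebraMap F L u) hu' Hor'
    (blockU_of_above p π V u hVu Hor' hab) y₀ hdeg
  exact cover_model p π hπ V u hu hVu hinj hOL Hor' hab W₀ hconst

end Over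

end Fermat.Agent.S33.Geo.ChartBranchModel
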