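import Mathlib
import Fermat.Agent.S33.Geo.TopLocal
import Fermat.Agent.S44.L.NodeLoc

/-!
# S33 / GEO / TOP: the fields `reg` and `topc` of the pointwise datum, chart level

`S33/Geo/TopLocal` without any local ring in the statements.  `C` a chart ring (a noetherian
domain over the discrete valuation ring `O`), `F = Frac C` the function field.  For a prime `P`
of `C`

* `locSubring P : Subring F` is the localisation of `C` at `P` inside `F`, elementwise
  (`x * b = a`, `b ∉ P`): the generic ring of a component (`P` a vertical prime) and the local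
  ring of a closed point (`P = y` maximal).

The chart-level data at a closed point `y` are those of `S44/L/NodeLoc` / `S44/L/NodeC1`
("`P = (t)` locally at `y`": `t ∈ P ∧ ∀ x ∈ P, ∃ s ∉ y, s * x ∈ (t)`; "`y = (t₁, t₂)` locally at
`y`"), and the horizontal hypothesis is the `S36.HorizAdapter.Horiz` form (`HorChart`).

* `isBranch_locSubring` : `locSubring P` is a branch ring (`TopLocal.IsBranch`) of any model of
  the local ring at `y` when `P = (t)` locally at `y`.
* `reg_of_chart_node`, `topc_of_chart_node`, `reg_of_chart_smooth`, `topc_of_chart_smooth` :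
  the fields `reg`, `topc` of `Top.IsPointDatum` at `y` with `R y := locSubring y` and
  `V W := locSubring P_W`.
* `depthIn_of_memPow` : the `S44/L/Depth.MemPow` form of a generic depth is `Top.DepthIn`.
* `powAt_of_depthIn_loc` : the exit into `PthPoint.PowAt` from `R y = locSubring y`.
-/

set_option autoImplicit false
set_option linter.unusedSectionVars false
set_option linter.unusedVariables false
set_option linter.style.haveILetI false

namespace Fermat.Agent.S33.Geo.TopChart

open IsLocalRing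
open Fermat.Agent.S33.Geo.Top Fermat.Agent.S33.Geo.TopLocal

/-! ### The localisation at a prime, inside the function field -/

section Loc

variable {C : Type*} [CommRing C] {F : Type*} [Field F] [Algebra C F]

theorem one_notMem_of_isPrime (P : Ideal C) [hP : P.IsPrime] : (1 : C) ∉ P :=
  fun h => hP.ne_top (P.eq_top_of_isUnit_mem h isUnit_one)

/-- The localisation of `C` at the prime `P` inside `F`, elementwise. -/
def locSubring (P : Ideal C) [hP : P.IsPrime] : Subring F where
  carrier := {x | ∃ a b : C, b ∉ P ∧ x * algebraMap C F b = algebraMap C F a}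
  mul_mem' := by
    rintro x x' ⟨a, b, hb, e⟩ ⟨a', b', hb', e'⟩
    refine ⟨a * a', b * b', fun h => (hP.mem_or_mem h).elim hb hb', ?_⟩
    rw [map_mul, map_mul, ← e, ← e']
    ring
  one_mem' := ⟨1, 1, one_notMem_of_isPrime P, by rw [one_mul]⟩
  add_mem' := by
    rintro x x' ⟨a, b, hb, e⟩ ⟨a', b', hb', e'⟩
    refine ⟨a * b' + a' * b, b * b', fun h => (hP.mem_or_mem h).elim hb hb', ?_⟩
    rw [map_add, map_mul, map_mul, map_mul, ← e, ← e']
    ring
  zero_mem' := ⟨0, 1, one_notMem_of_isPrime P, by rw [zero_mul, map_zero]⟩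
  neg_mem' := by
    rintro x ⟨a, b, hb, e⟩
    exact ⟨-a, b, hb, by rw [map_neg, ← e]; ring⟩

theorem mem_locSubring {P : Ideal C} [P.IsPrime] {x : F} :
    x ∈ locSubring (F := F) P ↔ ∃ a b : C, b ∉ P ∧ x * algebraMap C F b = algebraMap C F a :=
  Iff.rfl

theorem algebraMap_mem_locSubring (P : Ideal C) [P.IsPrime] (c : C) :
    algebraMap C F c ∈ locSubring (F := F) P :=
  ⟨c, 1, one_notMem_of_isPrime P, by rw [map_one, mul_one]⟩

/-- The constants of the base lie in every `locSubring` (the fields `constV`, `constR`). -/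
theorem algebraMap_base_mem_locSubring {O : Type*} [CommRing O] [Algebra O C] [Algebra O F]
    [IsScalarTower O C F] (P : Ideal C) [P.IsPrime] (a : O) :
    algebraMap O F a ∈ locSubring (F := F) P := by
  rw [IsScalarTower.algebraMap_apply O C F]
  exact algebraMap_mem_locSubring P _

/-- A closed point on a component: the local ring lies in the generic ring. -/
theorem locSubring_anti {P Q : Ideal C} [P.IsPrime] [Q.IsPrime] (h : P ≤ Q) :
    locSubring (F := F) Q ≤ locSubring (F := F) P := by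
  rintro x ⟨a, b, hb, e⟩
  exact ⟨a, b, fun hbP => hb (h hbP), e⟩

/-- The `S44/L/Depth.MemPow` form (`y ∈ ϖ ^ d C_P`) of a generic depth is `Top.DepthIn`. -/
theorem depthIn_of_memPow {O : Type*} [CommRing O] [Algebra O C] [Algebra O F]
    [IsScalarTower O C F] (hinjC : Function.Injective (algebraMap C F)) (P : Ideal C)
    [P.IsPrime] {p : ℕ} {ϖ : O} {d : ℕ} {f : F} {c : O} {g y : F}
    (hf : f = algebraMap O F c * g ^ p * (1 + y))
    (hy : ∃ t e : C, t ∉ P ∧ algebraMap C F t * y = algebraMap C F (algebraMap O C ϖ ^ d * e)) :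
    DepthIn (locSubring (F := F) P) p ϖ d f c := by
  obtain ⟨t, e, ht, hte⟩ := hy
  have ht0 : algebraMap C F t ≠ 0 :=
    (map_ne_zero_iff _ hinjC).mpr (fun h0 => ht (h0 ▸ P.zero_mem))
  refine ⟨g, algebraMap C F e / algebraMap C F t, ⟨e, t, ht, div_mul_cancel₀ _ ht0⟩, ?_⟩
  have hy' : y = algebraMap O F ϖ ^ d * (algebraMap C F e / algebraMap C F t) := by
    rw [map_mul, map_pow, ← IsScalarTower.algebraMap_apply O C F] at hte
    field_simp
    linear_combination hte
  rw [hf, hy']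

end Loc

/-! ### Any model of the local ring at `y` -/

section AtPrime

variable {C : Type*} [CommRing C] {F : Type*} [Field F] [Algebra C F]
  (y : Ideal C) [y.IsPrime] {A : Type*} [CommRing A] [Algebra C A] [IsLocalization.AtPrime A y]
  [Algebra A F] [IsScalarTower C A F]

/-- The image of (any model of) the local ring at `y` lies in `locSubring y`. -/
theorem algebraMap_loc_mem (x : A) : algebraMap A F x ∈ locSubring (F := F) y := by
  obtain ⟨a, s, rfl⟩ := IsLocalization.exists_mk'_eq y.primeCompl x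
  refine ⟨a, s, s.2, ?_⟩
  have h2 := congrArg (algebraMap A F) (IsLocalization.mk'_spec A a s)
  rw [map_mul, ← IsScalarTower.algebraMap_apply, ← IsScalarTower.algebraMap_apply] at h2
  exact h2

/-- "`P = (t)` locally at `y`": the local equation `a t` divides `a b` exactly when `b ∈ P`. -/
theorem dvd_algebraMap_iff (P : Ideal C) [hP : P.IsPrime] (hPy : P ≤ y) (t : C) (ht : t ∈ P)
    (hgen : ∀ x ∈ P, ∃ s, s ∉ y ∧ s * x ∈ Ideal.span {t}) (b : C) :
    algebraMap C A t ∣ algebraMap C A b ↔ b ∈ P := by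
  constructor
  · rintro ⟨z, hz⟩
    obtain ⟨c, s, rfl⟩ := IsLocalization.exists_mk'_eq y.primeCompl z
    have h1 : algebraMap C A (b * s) = algebraMap C A (t * c) := by
      rw [map_mul, map_mul, hz, mul_assoc, IsLocalization.mk'_spec]
    obtain ⟨s', hs'⟩ := (IsLocalization.eq_iff_exists y.primeCompl A).mp h1
    have h2 : (s' : C) * (b * s) ∈ P := by
      rw [hs']
      exact P.mul_mem_left _ (P.mul_mem_right _ ht)
    rcases hP.mem_or_mem h2 with h | h
    · exact absurd (hPy h) s'.2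
    · rcases hP.mem_or_mem h with h | h
      · exact h
      · exact absurd (hPy h) s.2
  · intro hb
    obtain ⟨s, hs, hsb⟩ := hgen b hb
    obtain ⟨c, hc⟩ := Ideal.mem_span_singleton'.mp hsb
    have hu : IsUnit (algebraMap C A s) :=
      IsLocalization.map_units A (⟨s, hs⟩ : y.primeCompl)
    have h1 : algebraMap C A s * algebraMap C A b = algebraMap C A t * algebraMap C A c := by
      rw [← map_mul, ← map_mul, ← hc, mul_comm]
    exact hu.dvd_mul_left.mp ⟨algebraMap C A c, h1⟩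

/-- **`locSubring P` is a branch ring** of the local ring at `y` when `P = (t)` locally
at `y`. -/
theorem isBranch_locSubring (P : Ideal C) [hP : P.IsPrime] (hPy : P ≤ y) (t : C) (ht : t ∈ P)
    (hgen : ∀ x ∈ P, ∃ s, s ∉ y ∧ s * x ∈ Ideal.span {t}) :
    IsBranch (algebraMap C A t) (locSubring (F := F) P) := by
  intro x
  constructor
  · rintro ⟨a, b, hb, e⟩
    refine ⟨algebraMap C A a, algebraMap C A b,
      fun h => hb ((dvd_algebraMap_iff y P hPy t ht hgen b).mp h), ?_⟩
    rw [← IsScalarTower.algebraMap_apply, ← IsScalarTower.algebraMap_apply]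
    exact e
  · rintro ⟨a', b', hb', e⟩
    obtain ⟨a, s₁, rfl⟩ := IsLocalization.exists_mk'_eq y.primeCompl a'
    obtain ⟨b, s₂, rfl⟩ := IsLocalization.exists_mk'_eq y.primeCompl b'
    have hb : b ∉ P := by
      intro hbP
      apply hb'
      have h1 := (dvd_algebraMap_iff (A := A) y P hPy t ht hgen b).mpr hbP
      rw [← IsLocalization.mk'_spec A b s₂] at h1
      exact (IsLocalization.map_units A s₂).dvd_mul_right.mp h1
    refine ⟨a * s₂, b * s₁, fun h => ?_, ?_⟩
    · rcases hP.mem_or_mem h with h | h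
      · exact hb h
      · exact s₁.2 (hPy h)
    · have h1 := congrArg (algebraMap A F) (IsLocalization.mk'_spec A a s₁)
      have h2 := congrArg (algebraMap A F) (IsLocalization.mk'_spec A b s₂)
      rw [map_mul, ← IsScalarTower.algebraMap_apply, ← IsScalarTower.algebraMap_apply] at h1 h2
      simp only [map_mul]
      linear_combination (algebraMap C F s₁ * algebraMap C F s₂) * e
        + algebraMap C F s₂ * h1 - x * algebraMap C F s₁ * h2

end AtPrime

/-! ### The local ring `Localization.AtPrime y` inside the fraction field -/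

section Alg

variable {C : Type*} [CommRing C] [IsDomain C] (F : Type*) [Field F] [Algebra C F]
  [IsFractionRing C F] (y : Ideal C) [y.IsPrime]

theorem isUnit_algebraMap_primeCompl (s : y.primeCompl) : IsUnit (algebraMap C F (s : C)) := by
  have hs0 : (s : C) ≠ 0 := fun h => s.2 (h ▸ y.zero_mem)
  exact (IsFractionRing.to_map_ne_zero_of_mem_nonZeroDivisors
    (mem_nonZeroDivisors_of_ne_zero hs0)).isUnit

/-- The local ring `C_y` as a subring of the fraction field `F` of `C`. -/
@[reducible] noncomputable def algLoc : Algebra (Localization.AtPrime y) F :=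
  (IsLocalization.lift (M := y.primeCompl) (g := algebraMap C F)
    (isUnit_algebraMap_primeCompl F y)).toAlgebra

theorem isScalarTower_algLoc :
    letI := algLoc F y
    IsScalarTower C (Localization.AtPrime y) F := by
  letI := algLoc F y
  exact IsScalarTower.of_algebraMap_eq fun x =>
    (IsLocalization.lift_eq (isUnit_algebraMap_primeCompl F y) x).symm

theorem isFractionRing_algLoc :
    letI := algLoc F y
    IsFractionRing (Localization.AtPrime y) F := by
  letI := algLoc F y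
  haveI := isScalarTower_algLoc F y
  exact IsFractionRing.isFractionRing_of_isDomain_of_isLocalization y.primeCompl
    (Localization.AtPrime y) F

end Alg

/-! ### The fields `reg` and `topc` at a closed point of a chart -/

section Chart

variable {O : Type*} [CommRing O] [IsDomain O] [IsDiscreteValuationRing O]
  {C : Type*} [CommRing C] [IsDomain C] [IsNoetherianRing C] [Algebra O C]
  {F : Type*} [Field F] [Algebra C F] [IsFractionRing C F] [Algebra O F] [IsScalarTower O C F]

/-- The horizontal hypothesis on the chart (`S36.HorizAdapter.Horiz` unfolded): at every prime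
`Q` of the chart not containing the uniformiser, `f` is a `p`-th power times a unit. -/
def HorChart (p : ℕ) (ϖC : C) (f : F) : Prop :=
  ∀ Q : Ideal C, Q.IsPrime → ϖC ∉ Q →
    ∃ (τ : F) (s b : C), τ ≠ 0 ∧ s ∉ Q ∧ b ∉ Q ∧
      f * algebraMap C F s = τ ^ p * algebraMap C F b

/-- The horizontal hypothesis of the chart gives `TopLocal.HorAt` at every model of a local
ring of the chart. -/
theorem horAt_of_horChart {A : Type*} [CommRing A] [Algebra C A] [Algebra O A]
    [IsScalarTower O C A] [Algebra A F] [IsScalarTower C A F] {p : ℕ} {ϖ : O} {f : F}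
    (h : HorChart p (algebraMap O C ϖ) f) : HorAt p ϖ A f := by
  intro q hq hqϖ
  have hprime : (Ideal.span {q} : Ideal A).IsPrime :=
    (Ideal.span_singleton_prime hq.ne_zero).mpr hq
  have hQ : (Ideal.comap (algebraMap C A) (Ideal.span {q})).IsPrime :=
    Ideal.comap_isPrime (algebraMap C A) _
  have hmem : ∀ x : C, x ∈ Ideal.comap (algebraMap C A) (Ideal.span {q}) ↔
      q ∣ algebraMap C A x := fun x => by
    rw [Ideal.mem_comap, Ideal.mem_span_singleton]
  obtain ⟨τ, s, b, -, hs, hb, e⟩ := h _ hQ (fun h' => hqϖ (by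
    rw [IsScalarTower.algebraMap_apply O C A]
    exact (hmem _).mp h'))
  refine ⟨algebraMap C A b, algebraMap C A s, τ, fun h' => hb ((hmem b).mpr h'),
    fun h' => hs ((hmem s).mpr h'), ?_⟩
  rw [← IsScalarTower.algebraMap_apply C A F, ← IsScalarTower.algebraMap_apply C A F]
  linear_combination e

variable {ι : Type*} {V : ι → Subring F} {On : ι → Prop}

/-- **The field `reg` at a crossing point of a chart**: `y` lies on exactly the components
`W₁`, `W₂`, with vertical primes `P₁ = (t₁)`, `P₂ = (t₂)` locally at `y`, `t₁ t₂ = ϖ g`,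
`g ∉ y`, `y = (t₁, t₂)` locally at `y`. -/
theorem reg_of_chart_node (hinj : Function.Injective (algebraMap O F))
    (p : ℕ) (hp : p.Prime) (ϖ : O) (hϖ : Irreducible ϖ)
    (hperf : ∀ a : O, ∃ b : O, ϖ ∣ a - b ^ p) (top : ℕ) (htopp : top ≤ p)
    (hpϖ : ϖ ^ (top - 1) ∣ (p : O))
    (y : Ideal C) [y.IsPrime] (P₁ P₂ : Ideal C) [P₁.IsPrime] [P₂.IsPrime]
    (hP₁ : P₁ ≤ y) (hP₂ : P₂ ≤ y) (t₁ t₂ g : C) (hg : g ∉ y)
    (hmul : t₁ * t₂ = algebraMap O C ϖ * g)
    (ht₁ : t₁ ∈ P₁ ∧ ∀ x ∈ P₁, ∃ s, s ∉ y ∧ s * x ∈ Ideal.span {t₁})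
    (ht₂ : t₂ ∈ P₂ ∧ ∀ x ∈ P₂, ∃ s, s ∉ y ∧ s * x ∈ Ideal.span {t₂})
    (hne : t₁ ∉ P₂) (hm : ∀ m ∈ y, ∃ s, s ∉ y ∧ s * m ∈ Ideal.span {t₁, t₂})
    (W₁ W₂ : ι) (hOn : ∀ W, On W → W = W₁ ∨ W = W₂) (hOn₁ : On W₁) (hOn₂ : On W₂)
    (hV₁ : V W₁ = locSubring P₁) (hV₂ : V W₂ = locSubring P₂)
    (f : F) (j : ℕ) (hf : f ≠ 0) (hj1 : 1 ≤ j) (hjt : j < top)
    (hhor : HorChart p (algebraMap O C ϖ) f)
    (hD : ∀ W, On W → ∃ c : O, c ≠ 0 ∧ DepthIn (V W) p ϖ j f c) :
    ∃ ry : F, ry ∈ locSubring (F := F) y ∧ ∀ W, On W → ∀ (c : O) (g r : F), c ≠ 0 → r ∈ V W →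
      f = algebraMap O F c * g ^ p * (1 + algebraMap O F ϖ ^ j * r) →
      ∃ κ : O, MemPi (V W) ϖ (r - ry + algebraMap O F κ) := by
  letI := algLoc F y
  haveI := isScalarTower_algLoc F y
  haveI := isFractionRing_algLoc F y
  haveI : IsNoetherianRing (Localization.AtPrime y) :=
    Fermat.Agent.S44.L.NodeLoc.isNoetherianRing_localization y
  haveI : IsScalarTower O (Localization.AtPrime y) F := IsScalarTower.of_algebraMap_eq fun x => by
    rw [IsScalarTower.algebraMap_apply O C F,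
      IsScalarTower.algebraMap_apply C (Localization.AtPrime y) F,
      ← IsScalarTower.algebraMap_apply O C (Localization.AtPrime y)]
  have hϖC : algebraMap O C ϖ ≠ 0 := fun h0 => hϖ.ne_zero (hinj (by
    rw [IsScalarTower.algebraMap_apply O C F, h0, map_zero, map_zero]))
  obtain ⟨hs, ht, hna, hmax, hass⟩ := Fermat.Agent.S44.L.NodeLoc.node_localization y P₁ P₂ hP₁
    hP₂ (algebraMap O C ϖ) t₁ t₂ g hϖC hg hmul ht₁.1 ht₁.2 ht₂.1 ht₂.2 hne hm
  rw [← IsScalarTower.algebraMap_apply O C (Localization.AtPrime y)] at hass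
  have hB₁ : IsBranch (algebraMap C (Localization.AtPrime y) t₁) (V W₁) :=
    hV₁ ▸ isBranch_locSubring y P₁ hP₁ t₁ ht₁.1 ht₁.2
  have hB₂ : IsBranch (algebraMap C (Localization.AtPrime y) t₂) (V W₂) :=
    hV₂ ▸ isBranch_locSubring y P₂ hP₂ t₂ ht₂.1 ht₂.2
  exact reg_of_node (Ry := locSubring y) (algebraMap_loc_mem y) p hp ϖ hϖ hperf top htopp hpϖ
    _ _ hs ht hna hmax hass W₁ W₂ hOn hOn₁ hOn₂ hB₁ hB₂ f j hf hj1 hjt
    (horAt_of_horChart hhor) hD

/-- **The field `topc` at a crossing point of a chart.** -/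
theorem topc_of_chart_node (hinj : Function.Injective (algebraMap O F))
    (p : ℕ) (hp : p.Prime) (ϖ : O) (hϖ : Irreducible ϖ)
    (hperf : ∀ a : O, ∃ b : O, ϖ ∣ a - b ^ p) (top : ℕ) (h2top : 2 ≤ top) (htopp : top ≤ p)
    (hpϖ : ϖ ^ (top - 1) ∣ (p : O))
    (y : Ideal C) [y.IsPrime] (P₁ P₂ : Ideal C) [P₁.IsPrime] [P₂.IsPrime]
    (hP₁ : P₁ ≤ y) (hP₂ : P₂ ≤ y) (t₁ t₂ g : C) (hg : g ∉ y)
    (hmul : t₁ * t₂ = algebraMap O C ϖ * g)
    (ht₁ : t₁ ∈ P₁ ∧ ∀ x ∈ P₁, ∃ s, s ∉ y ∧ s * x ∈ Ideal.span {t₁})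
    (ht₂ : t₂ ∈ P₂ ∧ ∀ x ∈ P₂, ∃ s, s ∉ y ∧ s * x ∈ Ideal.span {t₂})
    (hne : t₁ ∉ P₂) (hm : ∀ m ∈ y, ∃ s, s ∉ y ∧ s * m ∈ Ideal.span {t₁, t₂})
    (W₁ W₂ : ι) (hOn : ∀ W, On W → W = W₁ ∨ W = W₂) (hOn₁ : On W₁) (hOn₂ : On W₂)
    (hV₁ : V W₁ = locSubring P₁) (hV₂ : V W₂ = locSubring P₂)
    (f : F) (hf : f ≠ 0) (hhor : HorChart p (algebraMap O C ϖ) f)
    (hD : ∀ W, On W → ∃ c : O, c ≠ 0 ∧ DepthIn (V W) p ϖ top f c) :
    ∃ cy : O, cy ≠ 0 ∧ DepthIn (locSubring (F := F) y) p ϖ top f cy ∧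
      ∀ W, On W → ∀ c : O, c ≠ 0 → DepthIn (V W) p ϖ top f c → ConstRel p ϖ top cy c := by
  letI := algLoc F y
  haveI := isScalarTower_algLoc F y
  haveI := isFractionRing_algLoc F y
  haveI : IsNoetherianRing (Localization.AtPrime y) :=
    Fermat.Agent.S44.L.NodeLoc.isNoetherianRing_localization y
  haveI : IsScalarTower O (Localization.AtPrime y) F := IsScalarTower.of_algebraMap_eq fun x => by
    rw [IsScalarTower.algebraMap_apply O C F,
      IsScalarTower.algebraMap_apply C (Localization.AtPrime y) F,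
      ← IsScalarTower.algebraMap_apply O C (Localization.AtPrime y)]
  have hϖC : algebraMap O C ϖ ≠ 0 := fun h0 => hϖ.ne_zero (hinj (by
    rw [IsScalarTower.algebraMap_apply O C F, h0, map_zero, map_zero]))
  obtain ⟨hs, ht, hna, hmax, hass⟩ := Fermat.Agent.S44.L.NodeLoc.node_localization y P₁ P₂ hP₁
    hP₂ (algebraMap O C ϖ) t₁ t₂ g hϖC hg hmul ht₁.1 ht₁.2 ht₂.1 ht₂.2 hne hm
  rw [← IsScalarTower.algebraMap_apply O C (Localization.AtPrime y)] at hass
  have hB₁ : IsBranch (algebraMap C (Localization.AtPrime y) t₁) (V W₁) :=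
    hV₁ ▸ isBranch_locSubring y P₁ hP₁ t₁ ht₁.1 ht₁.2
  have hB₂ : IsBranch (algebraMap C (Localization.AtPrime y) t₂) (V W₂) :=
    hV₂ ▸ isBranch_locSubring y P₂ hP₂ t₂ ht₂.1 ht₂.2
  exact topc_of_node (Ry := locSubring y) (algebraMap_loc_mem y) p hp ϖ hϖ hperf top h2top htopp
    hpϖ _ _ hs ht hna hmax hass W₁ W₂ hOn hOn₁ hOn₂ hB₁ hB₂ f hf (horAt_of_horChart hhor) hD

/-- **The field `reg` at a point of a chart on one component only**: `y` lies on exactly the
component `W₁`, with vertical prime `P = (ϖ)` locally at `y`, and `y = (ϖ, z)` locally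
at `y`. -/
theorem reg_of_chart_smooth (hinj : Function.Injective (algebraMap O F))
    (p : ℕ) (hp : p.Prime) (ϖ : O) (hϖ : Irreducible ϖ)
    (hperf : ∀ a : O, ∃ b : O, ϖ ∣ a - b ^ p) (top : ℕ) (htopp : top ≤ p)
    (hpϖ : ϖ ^ (top - 1) ∣ (p : O))
    (y : Ideal C) [y.IsPrime] (P : Ideal C) [P.IsPrime] (hP : P ≤ y)
    (hprin : algebraMap O C ϖ ∈ P ∧
      ∀ x ∈ P, ∃ s, s ∉ y ∧ s * x ∈ Ideal.span {algebraMap O C ϖ})
    (z : C) (hz : z ∈ y) (hm : ∀ m ∈ y, ∃ s, s ∉ y ∧ s * m ∈ Ideal.span {algebraMap O C ϖ, z})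
    (W₁ : ι) (hOn : ∀ W, On W → W = W₁) (hOn₁ : On W₁) (hV₁ : V W₁ = locSubring P)
    (f : F) (j : ℕ) (hf : f ≠ 0) (hj1 : 1 ≤ j) (hjt : j < top)
    (hhor : HorChart p (algebraMap O C ϖ) f)
    (hD : ∀ W, On W → ∃ c : O, c ≠ 0 ∧ DepthIn (V W) p ϖ j f c) :
    ∃ ry : F, ry ∈ locSubring (F := F) y ∧ ∀ W, On W → ∀ (c : O) (g r : F), c ≠ 0 → r ∈ V W →
      f = algebraMap O F c * g ^ p * (1 + algebraMap O F ϖ ^ j * r) →
      ∃ κ : O, MemPi (V W) ϖ (r - ry + algebraMap O F κ) := by
  letI := algLoc F y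
  haveI := isScalarTower_algLoc F y
  haveI := isFractionRing_algLoc F y
  haveI : IsNoetherianRing (Localization.AtPrime y) :=
    Fermat.Agent.S44.L.NodeLoc.isNoetherianRing_localization y
  haveI : IsScalarTower O (Localization.AtPrime y) F := IsScalarTower.of_algebraMap_eq fun x => by
    rw [IsScalarTower.algebraMap_apply O C F,
      IsScalarTower.algebraMap_apply C (Localization.AtPrime y) F,
      ← IsScalarTower.algebraMap_apply O C (Localization.AtPrime y)]
  have hϖC : algebraMap O C ϖ ≠ 0 := fun h0 => hϖ.ne_zero (hinj (by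
    rw [IsScalarTower.algebraMap_apply O C F, h0, map_zero, map_zero]))
  obtain ⟨hprime, hmax⟩ := Fermat.Agent.S44.L.NodeLoc.smooth_localization y P hP
    (algebraMap O C ϖ) hϖC hprin.1 hprin.2 z hz hm
  have hB : IsBranch (algebraMap C (Localization.AtPrime y) (algebraMap O C ϖ)) (V W₁) :=
    hV₁ ▸ isBranch_locSubring y P hP _ hprin.1 hprin.2
  rw [← IsScalarTower.algebraMap_apply O C (Localization.AtPrime y)] at hprime hmax hB
  exact reg_of_smooth (Ry := locSubring y) (algebraMap_loc_mem y) p hp ϖ hϖ hperf top htopp hpϖ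
    _ hprime hmax W₁ hOn hOn₁ hB f j hf hj1 hjt (horAt_of_horChart hhor) hD

/-- **The field `topc` at a point of a chart on one component only.** -/
theorem topc_of_chart_smooth (hinj : Function.Injective (algebraMap O F))
    (p : ℕ) (hp : p.Prime) (ϖ : O) (hϖ : Irreducible ϖ)
    (hperf : ∀ a : O, ∃ b : O, ϖ ∣ a - b ^ p) (top : ℕ) (h2top : 2 ≤ top) (htopp : top ≤ p)
    (hpϖ : ϖ ^ (top - 1) ∣ (p : O))
    (y : Ideal C) [y.IsPrime] (P : Ideal C) [P.IsPrime] (hP : P ≤ y)
    (hprin : algebraMap O C ϖ ∈ P ∧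
      ∀ x ∈ P, ∃ s, s ∉ y ∧ s * x ∈ Ideal.span {algebraMap O C ϖ})
    (z : C) (hz : z ∈ y) (hm : ∀ m ∈ y, ∃ s, s ∉ y ∧ s * m ∈ Ideal.span {algebraMap O C ϖ, z})
    (W₁ : ι) (hOn : ∀ W, On W → W = W₁) (hOn₁ : On W₁) (hV₁ : V W₁ = locSubring P)
    (f : F) (hf : f ≠ 0) (hhor : HorChart p (algebraMap O C ϖ) f)
    (hD : ∀ W, On W → ∃ c : O, c ≠ 0 ∧ DepthIn (V W) p ϖ top f c) :
    ∃ cy : O, cy ≠ 0 ∧ DepthIn (locSubring (F := F) y) p ϖ top f cy ∧
      ∀ W, On W → ∀ c : O, c ≠ 0 → DepthIn (V W) p ϖ top f c → ConstRel p ϖ top cy c := by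
  letI := algLoc F y
  haveI := isScalarTower_algLoc F y
  haveI := isFractionRing_algLoc F y
  haveI : IsNoetherianRing (Localization.AtPrime y) :=
    Fermat.Agent.S44.L.NodeLoc.isNoetherianRing_localization y
  haveI : IsScalarTower O (Localization.AtPrime y) F := IsScalarTower.of_algebraMap_eq fun x => by
    rw [IsScalarTower.algebraMap_apply O C F,
      IsScalarTower.algebraMap_apply C (Localization.AtPrime y) F,
      ← IsScalarTower.algebraMap_apply O C (Localization.AtPrime y)]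
  have hϖC : algebraMap O C ϖ ≠ 0 := fun h0 => hϖ.ne_zero (hinj (by
    rw [IsScalarTower.algebraMap_apply O C F, h0, map_zero, map_zero]))
  obtain ⟨hprime, hmax⟩ := Fermat.Agent.S44.L.NodeLoc.smooth_localization y P hP
    (algebraMap O C ϖ) hϖC hprin.1 hprin.2 z hz hm
  have hB : IsBranch (algebraMap C (Localization.AtPrime y) (algebraMap O C ϖ)) (V W₁) :=
    hV₁ ▸ isBranch_locSubring y P hP _ hprin.1 hprin.2
  rw [← IsScalarTower.algebraMap_apply O C (Localization.AtPrime y)] at hprime hmax hB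
  exact topc_of_smooth (Ry := locSubring y) (algebraMap_loc_mem y) p hp ϖ hϖ hperf top h2top
    htopp hpϖ _ hprime hmax W₁ hOn hOn₁ hB f hf (horAt_of_horChart hhor) hD

end Chart

/-! ### The exit into `PthPoint.PowAt` -/

section Exit

open Fermat.Agent.S44.L

variable {O F : Type*} [CommRing O] [Field F] [Algebra O F]

/-- **Exit of `TOP` at `ϖ = p`, `top = 2`** with `R y = locSubring 𝔪`: the point form is the
datum `PthPoint.PowAt` for `f / c` at the point `𝔪` of the chart `integralClosure S F`. -/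
theorem powAt_of_depthIn_loc (S : Subalgebra O F) (p : ℕ) (𝔪 : Ideal (integralClosure S F))
    [𝔪.IsPrime] {f : F} {c : O} (hc : algebraMap O F c ≠ 0)
    (h : DepthIn (locSubring (F := F) 𝔪) p (p : O) 2 f c) :
    PthPoint.PowAt S p (f / algebraMap O F c) 𝔪 := by
  obtain ⟨g, r, ⟨a, b, hb, e⟩, hf⟩ := h
  refine ⟨b, g, r, hb, ?_, ?_⟩
  · have h1 : (b : F) * r = (a : F) := by
      rw [mul_comm]
      exact e
    rw [h1]
    exact a.2
  · rw [hf, map_natCast, mul_assoc, mul_div_cancel_left₀ _ hc]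

end Exit

end Fermat.Agent.S33.Geo.TopChart
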