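import Mathlib
import Fermat.Agent.S33.Geo.ModelI
import Fermat.Agent.S33.Geo.TopChart
import Fermat.Agent.S44.L.UnrPur

/-!
# S33 / GEO / C3, part T2: the local blocks of a model on a finite cover

Level-free (Mathlib + `S33/Geo/{ModelI, TopChart}` + `S44/L/UnrPur`).

`O` a discrete valuation ring, `F` a field over `O` (the function field downstairs), `L / F` a
finite separable field extension (the cover).

* `DiscrAt A L` : the discriminant hypothesis of the cover at a presentation `A` of a local ring
  of the model (no prime element of `A` divides the discriminant of a basis of the integral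
  closure of `A` in `L`); it is the hypothesis `h` of `S44/L/UnrPur` verbatim.
* `nodeBlock_above`, `smoothBlock_above` : a node (smooth) presentation `A` downstairs and
  `DiscrAt A L` give a node (smooth) block of `L` at EVERY maximal ideal `P` of the integral
  closure of `A` in `L`, with local ring `TopChart.locSubring P`, and the branch rings upstairs
  restrict to the branch rings downstairs (`mem_branch_iff_of_map`).
* `contract`, `contract_isMaximal`, `exists_maximal_locSubring_eq` : the chart level.  For a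
  maximal ideal `𝔪'` of the chart `integralClosure O[v'] L` (`v'` the image of `v ∈ F`), its
  contraction `𝔪` to `integralClosure O[v] F` is maximal, and for every presentation `A` of the
  local ring `locAt O[v] 𝔪` there is a maximal ideal `P` of the integral closure of `A` in `L`
  with `TopChart.locSubring P = locAt O[v'] 𝔪'`.
* `BlockAbove`, `blockAbove_of_chart`, `blocks_above` : the package.  From a model downstairs
  (`Model.IsModel`, only the field `block` is used), `Model.CoversCusp` and the discriminant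
  hypothesis at the block presentations: a block at every closed point of the fibre of the
  chart of `u' = u` and at every closed point over `u' = ∞` of the fibre of the chart of
  `u'⁻¹`, upstairs.
-/

set_option autoImplicit false
set_option linter.unusedSectionVars false
set_option linter.unusedVariables false
set_option linter.style.haveILetI false

namespace Fermat.Agent.S33.Geo.CoverBlocks

open IsLocalRing
open Fermat.Agent.S33.Geo.Top Fermat.Agent.S33.Geo.TopLocal Fermat.Agent.S33.Geo.Model
open Fermat.Agent.S44.L Fermat.Agent.S44.L.DepthHenselExit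

universe u w

/-- **The discriminant hypothesis of the cover at the presentation `A`**: no prime element of
`A` divides the discriminant of a basis of the integral closure of `A` in `L`. -/
def DiscrAt (A : Type u) [CommRing A] (L : Type w) [Field L] [Algebra A L] : Prop :=
  ∀ (ι : Type w) [Fintype ι] [DecidableEq ι] (b : Module.Basis ι A (integralClosure A L))
    (g : A), Prime g → ¬ g ∣ Algebra.discr A b

/-! ### Generic lemmas -/

section Generic

/-- **Divisibility does not appear in a localisation of a free algebra.**  `C` a domain which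
is a free `R`-module, `P` a prime of `C` containing the prime element `π` of `R`: if `π ∤ a` in
`R` then `π ∤ a` in `C_P`. -/
theorem not_dvd_atPrime_of_basis {R : Type*} [CommRing R] [IsDomain R] {C : Type*} [CommRing C]
    [IsDomain C] [Algebra R C] {ι : Type*} (b : Module.Basis ι R C) (P : Ideal C) [P.IsPrime]
    (A' : Type*) [CommRing A'] [Algebra C A'] [IsLocalization.AtPrime A' P]
    {π : R} (hπ : Prime π) (hπP : algebraMap R C π ∈ P) {a : R} (ha : ¬ π ∣ a) :
    ¬ algebraMap C A' (algebraMap R C π) ∣ algebraMap C A' (algebraMap R C a) := by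
  rintro ⟨c', hc'⟩
  obtain ⟨c, d, rfl⟩ := IsLocalization.exists_mk'_eq P.primeCompl c'
  have h1 : algebraMap C A' (algebraMap R C a * d) = algebraMap C A' (algebraMap R C π * c) := by
    rw [map_mul, map_mul, hc', mul_assoc, IsLocalization.mk'_spec]
  obtain ⟨e, he⟩ := (IsLocalization.eq_iff_exists P.primeCompl A').mp h1
  have he0 : (e : C) ≠ 0 := fun h => e.2 (h ▸ P.zero_mem)
  have h2 : algebraMap R C a * d = algebraMap R C π * c := mul_left_cancel₀ he0 he
  have h3 : ∀ i, a * b.repr (d : C) i = π * b.repr c i := by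
    intro i
    have h := congrArg (fun x => b.repr x i) h2
    simp only [← Algebra.smul_def, map_smul, Finsupp.smul_apply, smul_eq_mul] at h
    exact h
  have h4 : ∀ i, π ∣ b.repr (d : C) i := fun i =>
    (hπ.dvd_or_dvd ⟨_, h3 i⟩).resolve_left ha
  have h5 : (d : C) ∈ P := by
    rw [← b.linearCombination_repr (d : C), Finsupp.linearCombination_apply, Finsupp.sum]
    refine P.sum_mem fun i _ => ?_
    obtain ⟨q, hq⟩ := h4 i
    rw [hq, mul_smul, Algebra.smul_def]
    exact P.mul_mem_right _ hπP
  exact d.2 h5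

/-- Every nonzero element of `Frac A` is `q ^ k * a / b` with `q ∤ a`, `q ∤ b` (`q` prime, `A` a
noetherian domain). -/
theorem exists_zpow_mul_div {A : Type*} [CommRing A] [IsDomain A] [IsNoetherianRing A]
    {F : Type*} [Field F] [Algebra A F] [IsFractionRing A F] {q : A} (hq : Prime q) {x : F}
    (hx : x ≠ 0) :
    ∃ (k : ℤ) (a b : A), ¬ q ∣ a ∧ ¬ q ∣ b ∧
      x * algebraMap A F b = algebraMap A F q ^ k * algebraMap A F a := by
  have hinj := IsFractionRing.injective A F
  obtain ⟨a₀, b₀, hb₀, rfl⟩ := IsFractionRing.div_surjective (A := A) x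
  have hb₀' : b₀ ≠ 0 := nonZeroDivisors.ne_zero hb₀
  have ha₀' : a₀ ≠ 0 := by
    rintro rfl
    exact hx (by simp)
  obtain ⟨n, a, hqa, rfl⟩ := WfDvdMonoid.max_power_factor ha₀' hq.irreducible
  obtain ⟨m, b, hqb, rfl⟩ := WfDvdMonoid.max_power_factor hb₀' hq.irreducible
  have hqF : algebraMap A F q ≠ 0 := (map_ne_zero_iff _ hinj).mpr hq.ne_zero
  have hbF : algebraMap A F b ≠ 0 :=
    (map_ne_zero_iff _ hinj).mpr (fun h0 => hqb (h0 ▸ dvd_zero q))
  refine ⟨(n : ℤ) - m, a, b, hqa, hqb, ?_⟩
  rw [zpow_sub₀ hqF, zpow_natCast, zpow_natCast]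
  simp only [map_mul, map_pow]
  field_simp

/-- The localisation of `A` at the prime element `q`, as a subring of `F`. -/
def branchRing {A : Type*} [CommRing A] {F : Type*} [Field F] [Algebra A F] (q : A)
    (hq : Prime q) : Subring F where
  carrier := {x | ∃ a b : A, ¬ q ∣ b ∧ x * algebraMap A F b = algebraMap A F a}
  mul_mem' := by
    rintro x y ⟨a, b, hb, hab⟩ ⟨c, d, hd, hcd⟩
    refine ⟨a * c, b * d, fun h => (hq.dvd_or_dvd h).elim hb hd, ?_⟩
    rw [map_mul, map_mul, ← hab, ← hcd]
    ring
  one_mem' := ⟨1, 1, fun h => hq.not_isUnit (isUnit_of_dvd_one h), by simp⟩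
  add_mem' := by
    rintro x y ⟨a, b, hb, hab⟩ ⟨c, d, hd, hcd⟩
    refine ⟨a * d + c * b, b * d, fun h => (hq.dvd_or_dvd h).elim hb hd, ?_⟩
    rw [map_add, map_mul, map_mul, map_mul, ← hab, ← hcd]
    ring
  zero_mem' := ⟨0, 1, fun h => hq.not_isUnit (isUnit_of_dvd_one h), by simp⟩
  neg_mem' := by
    rintro x ⟨a, b, hb, hab⟩
    refine ⟨-a, b, hb, ?_⟩
    rw [map_neg, ← hab]
    ring

theorem mem_branchRing {A : Type*} [CommRing A] {F : Type*} [Field F] [Algebra A F] {q : A}
    {hq : Prime q} {x : F} : x ∈ branchRing (F := F) q hq ↔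
      ∃ a b : A, ¬ q ∣ b ∧ x * algebraMap A F b = algebraMap A F a := Iff.rfl

/-- **Branch rings restrict to branch rings.**  `ψ : A → A'` a ring map compatible with a field
extension `L / F` (`F = Frac A`, `A' ⊆ L`), `s` a prime element of `A` whose image is prime in
`A'`, and `s ∤ a` in `A` implies `ψ s ∤ ψ a` in `A'`: the localisation of `A'` at `ψ s` meets
`F` in the localisation of `A` at `s`. -/
theorem mem_branch_iff_of_map {A : Type*} [CommRing A] [IsDomain A] [IsNoetherianRing A]
    {F : Type*} [Field F] [Algebra A F] [IsFractionRing A F]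
    {A' : Type*} [CommRing A'] {L : Type*} [Field L] [Algebra A' L] [Algebra F L]
    (hinj : Function.Injective (algebraMap A' L)) (ψ : A →+* A')
    (hψ : ∀ a : A, algebraMap A' L (ψ a) = algebraMap F L (algebraMap A F a))
    {s : A} (hs : Prime s) (hs' : Prime (ψ s)) (hnd : ∀ a : A, ¬ s ∣ a → ¬ ψ s ∣ ψ a)
    {V : Subring F} (hV : ∀ x : F, x ∈ V ↔
      ∃ a b : A, ¬ s ∣ b ∧ x * algebraMap A F b = algebraMap A F a)
    {V' : Subring L} (hV' : ∀ x : L, x ∈ V' ↔
      ∃ a b : A', ¬ ψ s ∣ b ∧ x * algebraMap A' L b = algebraMap A' L a) (f : F) :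
    algebraMap F L f ∈ V' ↔ f ∈ V := by
  constructor
  · intro h
    obtain ⟨a', b', hb', hab'⟩ := (hV' _).mp h
    by_cases hf : f = 0
    · rw [hf]; exact V.zero_mem
    obtain ⟨k, a, b, ha, hb, hab⟩ := exists_zpow_mul_div (F := F) hs hf
    obtain ⟨n, rfl | rfl⟩ := Int.eq_nat_or_neg k
    · rw [hV]
      refine ⟨s ^ n * a, b, hb, ?_⟩
      rw [hab, zpow_natCast, map_mul, map_pow]
    · by_cases hn : n = 0
      · subst hn
        rw [hV]
        refine ⟨a, b, hb, ?_⟩
        rw [hab]
        simp
      exfalso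
      have hsF : algebraMap A F s ≠ 0 :=
        (map_ne_zero_iff _ (IsFractionRing.injective A F)).mpr hs.ne_zero
      have h1 : f * algebraMap A F (b * s ^ n) = algebraMap A F a := by
        rw [map_mul, map_pow, ← mul_assoc, hab, zpow_neg, zpow_natCast]
        field_simp
      have h2 := congrArg (algebraMap F L) h1
      rw [map_mul, ← hψ, ← hψ] at h2
      have h3 : algebraMap A' L (a' * ψ (b * s ^ n)) = algebraMap A' L (b' * ψ a) := by
        rw [map_mul (algebraMap A' L) a', map_mul (algebraMap A' L) b', ← hab', ← h2]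
        ring
      have h4 : a' * ψ (b * s ^ n) = b' * ψ a := hinj h3
      have h5 : ψ s ∣ b' * ψ a := by
        rw [← h4, map_mul, map_pow]
        exact Dvd.dvd.mul_left (Dvd.dvd.mul_left (dvd_pow_self _ hn) _) _
      rcases hs'.dvd_or_dvd h5 with h | h
      · exact hb' h
      · exact hnd a ha h
  · intro h
    obtain ⟨a, b, hb, hab⟩ := (hV f).mp h
    rw [hV']
    refine ⟨ψ a, ψ b, hnd b hb, ?_⟩
    rw [hψ, hψ, ← map_mul, hab]

end Generic


/-! ### The local statements -/

section Local

variable {O : Type*} [CommRing O] [IsDomain O] [IsDiscreteValuationRing O]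
  {A : Type u} [CommRing A] [IsDomain A] [IsLocalRing A] [IsNoetherianRing A] [Algebra O A]
  {F : Type u} [Field F] [Algebra A F] [IsFractionRing A F] [Algebra O F] [IsScalarTower O A F]
  {L : Type w} [Field L] [Algebra F L] [Algebra A L] [IsScalarTower A F L]
  [Algebra O L] [IsScalarTower O F L] [FiniteDimensional F L] [Algebra.IsSeparable F L]

/-- The local ring `C_P` of the integral closure `C` of `A` in `L`, inside `L`: its image is
`TopChart.locSubring P`. -/
theorem range_algLoc (P : Ideal (integralClosure A L)) [hP : P.IsPrime] :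
    haveI : IsFractionRing (integralClosure A L) L :=
      integralClosure.isFractionRing_of_finite_extension F L
    letI := TopChart.algLoc L P
    (algebraMap (Localization.AtPrime P) L).range = TopChart.locSubring (F := L) P := by
  haveI : IsFractionRing (integralClosure A L) L :=
    integralClosure.isFractionRing_of_finite_extension F L
  letI := TopChart.algLoc L P
  haveI := TopChart.isScalarTower_algLoc L P
  ext x
  constructor
  · rintro ⟨x', rfl⟩
    exact TopChart.algebraMap_loc_mem P x'
  · rintro ⟨a, b, hb, e⟩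
    refine ⟨IsLocalization.mk' (Localization.AtPrime P) a (⟨b, hb⟩ : P.primeCompl), ?_⟩
    have h1 := congrArg (algebraMap (Localization.AtPrime P) L)
      (IsLocalization.mk'_spec (Localization.AtPrime P) a (⟨b, hb⟩ : P.primeCompl))
    rw [map_mul, ← IsScalarTower.algebraMap_apply, ← IsScalarTower.algebraMap_apply] at h1
    have hb0 : algebraMap (integralClosure A L) L b ≠ 0 := by
      intro h0
      apply hb
      have : b = 0 := Subtype.ext h0
      rw [this]
      exact P.zero_mem
    exact mul_right_cancel₀ hb0 (h1.trans e.symm)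

/-- **A node block on the cover.** -/
theorem nodeBlock_above (p : ℕ) (ϖ : O) (Hor' : L → Prop)
    (hHor : ∀ (A' : Type w) [CommRing A'] [IsDomain A'] [IsNoetherianRing A'] [Algebra O A']
      [Algebra A' L] [IsFractionRing A' L] [IsScalarTower O A' L] (f : L),
      Hor' f → HorAt p ϖ A' f)
    {s t : A} (hs : Prime s) (ht : Prime t) (hne : ¬ Associated s t)
    (hm : maximalIdeal A = Ideal.span {s, t}) (hst : Associated (s * t) (algebraMap O A ϖ))
    {V₁ V₂ : Subring F} (hV₁ : IsBranch s V₁) (hV₂ : IsBranch t V₂)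
    (hdisc : DiscrAt A L) (P : Ideal (integralClosure A L)) [hP : P.IsMaximal] :
    ∃ V₁' V₂' : Subring L,
      NodeBlock p ϖ Hor' (TopChart.locSubring (F := L) P) V₁' V₂' ∧
      (∀ f : F, algebraMap F L f ∈ V₁' ↔ f ∈ V₁) ∧
      (∀ f : F, algebraMap F L f ∈ V₂' ↔ f ∈ V₂) := by
  classical
  haveI : IsDomain (A ⧸ Ideal.span {s}) := Node.isDomain_quot hs
  haveI : IsPrincipalIdealRing (A ⧸ Ideal.span {s}) := Node.isPrincipalIdealRing_quot hs hm
  haveI : UniqueFactorizationMonoid A := LocalPrincipal.quot_ufm hs.ne_zero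
  haveI : FaithfulSMul A (integralClosure A L) := UnrLoc.faithfulSMul_integralClosure F L
  haveI : Module.Finite A (integralClosure A L) :=
    Fermat.Agent.Lib.NormalFree.finite_integralClosure F L
  have hsm : s ∈ maximalIdeal A := by
    rw [hm]
    exact Ideal.subset_span (by simp)
  have htm : t ∈ maximalIdeal A := by
    rw [hm]
    exact Ideal.subset_span (by simp)
  haveI : Module.Free A (integralClosure A L) :=
    Fermat.Agent.Lib.NormalFree.free_integralClosure F L hs hsm
  haveI : IsFractionRing (integralClosure A L) L :=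
    integralClosure.isFractionRing_of_finite_extension F L
  obtain ⟨hdom, hloc, hnoeth, hs', ht', hne', hm'⟩ :=
    UnrPur.node_integralClosure_of_basis F L hs ht hne hm hdisc P (Localization.AtPrime P)
  letI : Algebra (Localization.AtPrime P) L := TopChart.algLoc L P
  haveI : IsScalarTower (integralClosure A L) (Localization.AtPrime P) L :=
    TopChart.isScalarTower_algLoc L P
  haveI : IsFractionRing (Localization.AtPrime P) L := TopChart.isFractionRing_algLoc L P
  -- the map `A → C_P`
  set ψ : A →+* Localization.AtPrime P :=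
    (algebraMap (integralClosure A L) (Localization.AtPrime P)).comp
      (algebraMap A (integralClosure A L)) with hψdef
  letI : Algebra O (Localization.AtPrime P) := (ψ.comp (algebraMap O A)).toAlgebra
  have hψL : ∀ a : A, algebraMap (Localization.AtPrime P) L (ψ a) =
      algebraMap F L (algebraMap A F a) := by
    intro a
    rw [hψdef, RingHom.comp_apply, ← IsScalarTower.algebraMap_apply (integralClosure A L)
      (Localization.AtPrime P) L, ← IsScalarTower.algebraMap_apply A F L]
    rfl
  haveI : IsScalarTower O (Localization.AtPrime P) L := IsScalarTower.of_algebraMap_eq (by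
    intro o
    have h1 : algebraMap O (Localization.AtPrime P) o = ψ (algebraMap O A o) := rfl
    rw [h1, hψL, ← IsScalarTower.algebraMap_apply O A F, ← IsScalarTower.algebraMap_apply O F L])
  have hinj : Function.Injective (algebraMap (Localization.AtPrime P) L) :=
    IsFractionRing.injective _ _
  have hsP : algebraMap A (integralClosure A L) s ∈ P :=
    Unr.map_maximalIdeal_le P (Ideal.mem_map_of_mem _ hsm)
  have htP : algebraMap A (integralClosure A L) t ∈ P :=
    Unr.map_maximalIdeal_le P (Ideal.mem_map_of_mem _ htm)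
  have hnds : ∀ a : A, ¬ s ∣ a → ¬ ψ s ∣ ψ a := fun a ha =>
    not_dvd_atPrime_of_basis (Module.Free.chooseBasis A (integralClosure A L)) P
      (Localization.AtPrime P) hs hsP ha
  have hndt : ∀ a : A, ¬ t ∣ a → ¬ ψ t ∣ ψ a := fun a ha =>
    not_dvd_atPrime_of_basis (Module.Free.chooseBasis A (integralClosure A L)) P
      (Localization.AtPrime P) ht htP ha
  have hs'' : Prime (ψ s) := hs'
  have ht'' : Prime (ψ t) := ht'
  have hst' : Associated (ψ s * ψ t) (algebraMap O (Localization.AtPrime P) ϖ) := by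
    have h1 := hst.map ψ
    rw [map_mul] at h1
    exact h1
  refine ⟨branchRing (F := L) (ψ s) hs'', branchRing (F := L) (ψ t) ht'', ?_, ?_, ?_⟩
  · exact ⟨Localization.AtPrime P, inferInstance, hdom, hloc, hnoeth, inferInstance, inferInstance,
      inferInstance, inferInstance, range_algLoc (F := F) P, fun f hf => hHor _ f hf,
      ψ s, ψ t, hs'', ht'', hne', hm', hst', fun x => Iff.rfl, fun x => Iff.rfl⟩
  · exact mem_branch_iff_of_map hinj ψ hψL hs hs'' hnds hV₁ (fun x => Iff.rfl)
  · exact mem_branch_iff_of_map hinj ψ hψL ht ht'' hndt hV₂ (fun x => Iff.rfl)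

/-- **A smooth block on the cover.** -/
theorem smoothBlock_above (p : ℕ) (ϖ : O) (Hor' : L → Prop)
    (hHor : ∀ (A' : Type w) [CommRing A'] [IsDomain A'] [IsNoetherianRing A'] [Algebra O A']
      [Algebra A' L] [IsFractionRing A' L] [IsScalarTower O A' L] (f : L),
      Hor' f → HorAt p ϖ A' f)
    (hϖA : Prime (algebraMap O A ϖ)) {z : A}
    (hm : maximalIdeal A = Ideal.span {algebraMap O A ϖ, z})
    {V₁ : Subring F} (hV₁ : IsBranch (algebraMap O A ϖ) V₁)
    (hdisc : DiscrAt A L) (P : Ideal (integralClosure A L)) [hP : P.IsMaximal] :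
    ∃ V₁' : Subring L,
      SmoothBlock p ϖ Hor' (TopChart.locSubring (F := L) P) V₁' ∧
      (∀ f : F, algebraMap F L f ∈ V₁' ↔ f ∈ V₁) := by
  classical
  haveI : IsDomain (A ⧸ Ideal.span {algebraMap O A ϖ}) := Node.isDomain_quot hϖA
  haveI : IsPrincipalIdealRing (A ⧸ Ideal.span {algebraMap O A ϖ}) :=
    Node.isPrincipalIdealRing_quot hϖA hm
  haveI : UniqueFactorizationMonoid A := LocalPrincipal.quot_ufm hϖA.ne_zero
  haveI : FaithfulSMul A (integralClosure A L) := UnrLoc.faithfulSMul_integralClosure F L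
  haveI : Module.Finite A (integralClosure A L) :=
    Fermat.Agent.Lib.NormalFree.finite_integralClosure F L
  have hϖm : algebraMap O A ϖ ∈ maximalIdeal A := by
    rw [hm]
    exact Ideal.subset_span (by simp)
  haveI : Module.Free A (integralClosure A L) :=
    Fermat.Agent.Lib.NormalFree.free_integralClosure F L hϖA hϖm
  haveI : IsFractionRing (integralClosure A L) L :=
    integralClosure.isFractionRing_of_finite_extension F L
  obtain ⟨hdom, hloc, hnoeth, hπ0', hdomq, hpidq⟩ :=
    UnrPur.smooth_integralClosure_of_basis F L hϖA.ne_zero hdisc P (Localization.AtPrime P)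
  letI : Algebra (Localization.AtPrime P) L := TopChart.algLoc L P
  haveI : IsScalarTower (integralClosure A L) (Localization.AtPrime P) L :=
    TopChart.isScalarTower_algLoc L P
  haveI : IsFractionRing (Localization.AtPrime P) L := TopChart.isFractionRing_algLoc L P
  set ψ : A →+* Localization.AtPrime P :=
    (algebraMap (integralClosure A L) (Localization.AtPrime P)).comp
      (algebraMap A (integralClosure A L)) with hψdef
  letI : Algebra O (Localization.AtPrime P) := (ψ.comp (algebraMap O A)).toAlgebra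
  have hψL : ∀ a : A, algebraMap (Localization.AtPrime P) L (ψ a) =
      algebraMap F L (algebraMap A F a) := by
    intro a
    rw [hψdef, RingHom.comp_apply, ← IsScalarTower.algebraMap_apply (integralClosure A L)
      (Localization.AtPrime P) L, ← IsScalarTower.algebraMap_apply A F L]
    rfl
  haveI : IsScalarTower O (Localization.AtPrime P) L := IsScalarTower.of_algebraMap_eq (by
    intro o
    have h1 : algebraMap O (Localization.AtPrime P) o = ψ (algebraMap O A o) := rfl
    rw [h1, hψL, ← IsScalarTower.algebraMap_apply O A F, ← IsScalarTower.algebraMap_apply O F L])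
  have hinj : Function.Injective (algebraMap (Localization.AtPrime P) L) :=
    IsFractionRing.injective _ _
  have hϖP : algebraMap A (integralClosure A L) (algebraMap O A ϖ) ∈ P :=
    Unr.map_maximalIdeal_le P (Ideal.mem_map_of_mem _ hϖm)
  have hnd : ∀ a : A, ¬ algebraMap O A ϖ ∣ a → ¬ ψ (algebraMap O A ϖ) ∣ ψ a := fun a ha =>
    not_dvd_atPrime_of_basis (Module.Free.chooseBasis A (integralClosure A L)) P
      (Localization.AtPrime P) hϖA hϖP ha
  have hπ0'' : ψ (algebraMap O A ϖ) ≠ 0 := hπ0'
  haveI hdomq' : IsDomain (Localization.AtPrime P ⧸ Ideal.span {ψ (algebraMap O A ϖ)}) := hdomq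
  haveI hpidq' : IsPrincipalIdealRing
      (Localization.AtPrime P ⧸ Ideal.span {ψ (algebraMap O A ϖ)}) := hpidq
  have hπ' : Prime (ψ (algebraMap O A ϖ)) :=
    (Ideal.span_singleton_prime hπ0'').mp ((Ideal.Quotient.isDomain_iff_prime _).mp hdomq')
  obtain ⟨z', hz'⟩ := UnrLoc.exists_maximalIdeal_eq_span_pair (ψ (algebraMap O A ϖ))
  have hπ'' : Prime (algebraMap O (Localization.AtPrime P) ϖ) := hπ'
  refine ⟨branchRing (F := L) (ψ (algebraMap O A ϖ)) hπ', ?_, ?_⟩
  · exact ⟨Localization.AtPrime P, inferInstance, hdom, hloc, hnoeth, inferInstance, inferInstance,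
      inferInstance, inferInstance, range_algLoc (F := F) P, fun f hf => hHor _ f hf,
      hπ'', z', hz', fun x => Iff.rfl⟩
  · exact mem_branch_iff_of_map hinj ψ hψL hϖA hπ' hnd hV₁ (fun x => Iff.rfl)

end Local

/-! ### Integrality: generic lemmas -/

section Integral

open Polynomial in
/-- A root of a monic polynomial over `R₀` whose coefficients map into the range of `f : R → S`
is integral over `R` (along `f`). -/
theorem isIntegralElem_of_coeff_mem {R₀ R S : Type*} [CommRing R₀] [CommRing R] [CommRing S]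
    (g : R₀ →+* S) (f : R →+* S) {x : S} (q : R₀[X]) (hq : q.Monic) (hqx : q.eval₂ g x = 0)
    (h : ∀ n, g (q.coeff n) ∈ f.range) : f.IsIntegralElem x := by
  have h1 : q.map g ∈ Polynomial.lifts f := by
    rw [Polynomial.lifts_iff_coeff_lifts]
    intro n
    rw [Polynomial.coeff_map]
    exact h n
  obtain ⟨q', hq', -, hq'm⟩ := Polynomial.lifts_and_natDegree_eq_and_monic h1 (hq.map _)
  refine ⟨q', hq'm, ?_⟩
  rw [← Polynomial.eval_map, hq', Polynomial.eval_map]
  exact hqx

/-- Integrality passes to a base with a larger image. -/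
theorem isIntegral_of_range_subset {R₁ R₂ T : Type*} [CommRing R₁] [CommRing R₂] [CommRing T]
    [Algebra R₁ T] [Algebra R₂ T] (h : ∀ r : R₁, algebraMap R₁ T r ∈ (algebraMap R₂ T).range)
    {x : T} (hx : IsIntegral R₁ x) : IsIntegral R₂ x := by
  obtain ⟨q, hq, hqx⟩ := hx
  exact isIntegralElem_of_coeff_mem (algebraMap R₁ T) (algebraMap R₂ T) q hq hqx (fun n => h _)

end Integral

/-! ### The chart level -/

section Chart

variable {O : Type*} [CommRing O] {F : Type u} [Field F] [Algebra O F]
  {L : Type w} [Field L] [Algebra F L] [Algebra O L] [IsScalarTower O F L]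

/-- `O[v']` is the image of `O[v]`. -/
theorem mem_adjoin_map_iff (v : F) (r : L) :
    r ∈ Algebra.adjoin O ({algebraMap F L v} : Set L) ↔
      ∃ a ∈ Algebra.adjoin O ({v} : Set F), algebraMap F L a = r := by
  have h : Algebra.adjoin O ({algebraMap F L v} : Set L) =
      (Algebra.adjoin O ({v} : Set F)).map (IsScalarTower.toAlgHom O F L) := by
    rw [AlgHom.map_adjoin, Set.image_singleton]
    rfl
  rw [h, Subalgebra.mem_map]
  rfl

/-- Integrality over `O[v]` passes to the cover. -/
theorem isIntegral_map_adjoin (v : F) {x : F}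
    (hx : IsIntegral (Algebra.adjoin O ({v} : Set F)) x) :
    IsIntegral (Algebra.adjoin O ({algebraMap F L v} : Set L)) (algebraMap F L x) := by
  have hmem : ∀ a : Algebra.adjoin O ({v} : Set F),
      ((algebraMap F L).comp (algebraMap (Algebra.adjoin O ({v} : Set F)) F)) a ∈
        Algebra.adjoin O ({algebraMap F L v} : Set L) := fun a =>
    (mem_adjoin_map_iff v _).mpr ⟨a, a.2, rfl⟩
  exact IsIntegral.map_of_comp_eq
    (RingHom.codRestrict ((algebraMap F L).comp (algebraMap (Algebra.adjoin O ({v} : Set F)) F))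
      (Algebra.adjoin O ({algebraMap F L v} : Set L)) hmem)
    (algebraMap F L) (RingHom.ext fun a => rfl) hx

/-- The map of chart rings `integralClosure O[v] F → integralClosure O[v'] L`. -/
def chartMap (v : F) : integralClosure (Algebra.adjoin O ({v} : Set F)) F →+*
    integralClosure (Algebra.adjoin O ({algebraMap F L v} : Set L)) L where
  toFun x := ⟨algebraMap F L (x : F), isIntegral_map_adjoin v x.2⟩
  map_one' := Subtype.ext (map_one _)
  map_mul' _ _ := Subtype.ext (map_mul _ _ _)
  map_zero' := Subtype.ext (map_zero _)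
  map_add' _ _ := Subtype.ext (map_add _ _ _)

@[simp] theorem coe_chartMap (v : F) (x : integralClosure (Algebra.adjoin O ({v} : Set F)) F) :
    ((chartMap (L := L) v x : integralClosure (Algebra.adjoin O ({algebraMap F L v} : Set L)) L)
      : L) = algebraMap F L (x : F) := rfl

/-- The contraction of an ideal of the chart of the cover to the chart downstairs. -/
def contract (v : F)
    (𝔪' : Ideal (integralClosure (Algebra.adjoin O ({algebraMap F L v} : Set L)) L)) :
    Ideal (integralClosure (Algebra.adjoin O ({v} : Set F)) F) :=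
  𝔪'.comap (chartMap v)

theorem mem_contract {v : F}
    {𝔪' : Ideal (integralClosure (Algebra.adjoin O ({algebraMap F L v} : Set L)) L)}
    {x : integralClosure (Algebra.adjoin O ({v} : Set F)) F} :
    x ∈ contract v 𝔪' ↔ chartMap (O := O) (L := L) v x ∈ 𝔪' := Iff.rfl

/-- The map of chart rings is integral. -/
theorem chartMap_isIntegral (v : F) : (chartMap (O := O) (L := L) v).IsIntegral := by
  intro c'
  obtain ⟨q, hq, hqx⟩ := integralClosure.isIntegral c'
  refine isIntegralElem_of_coeff_mem
    (algebraMap (Algebra.adjoin O ({algebraMap F L v} : Set L))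
      (integralClosure (Algebra.adjoin O ({algebraMap F L v} : Set L)) L)) (chartMap v) q hq hqx ?_
  intro n
  obtain ⟨a, ha, hae⟩ := (mem_adjoin_map_iff (O := O) v _).mp (q.coeff n).2
  refine ⟨⟨a, isIntegral_algebraMap (x := (⟨a, ha⟩ : Algebra.adjoin O ({v} : Set F)))⟩, ?_⟩
  exact Subtype.ext hae

/-- The contraction of a maximal ideal is maximal. -/
theorem contract_isMaximal (v : F)
    (𝔪' : Ideal (integralClosure (Algebra.adjoin O ({algebraMap F L v} : Set L)) L))
    (h𝔪' : 𝔪'.IsMaximal) : (contract v 𝔪').IsMaximal := by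
  haveI := h𝔪'
  exact Ideal.isMaximal_comap_of_isIntegral_of_isMaximal' (chartMap v) (chartMap_isIntegral v) 𝔪'

/-- **Integral closure commutes with localisation, chart form.**  For every presentation `A` of
the local ring of the chart downstairs at the contraction of `𝔪'` there is a maximal ideal `P`
of the integral closure of `A` in `L` whose local ring is the local ring of the chart of the
cover at `𝔪'`. -/
theorem exists_maximal_locSubring_eq (v : F)
    (𝔪' : Ideal (integralClosure (Algebra.adjoin O ({algebraMap F L v} : Set L)) L))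
    (h𝔪' : 𝔪'.IsMaximal) (h𝔪 : (contract v 𝔪').IsPrime)
    {A : Type u} [CommRing A] [IsDomain A] [Algebra A F] [Algebra A L] [IsScalarTower A F L]
    (hrange : (algebraMap A F).range = locAt (Algebra.adjoin O ({v} : Set F)) (contract v 𝔪') h𝔪) :
    ∃ (P : Ideal (integralClosure A L)) (hP : P.IsMaximal),
      @TopChart.locSubring _ _ L _ _ P hP.isPrime =
        locAt (Algebra.adjoin O ({algebraMap F L v} : Set L)) 𝔪' h𝔪'.isPrime := by
  classical
  have h𝔪'p : 𝔪'.IsPrime := h𝔪'.isPrime
  have h1𝔪 : (1 : integralClosure (Algebra.adjoin O ({v} : Set F)) F) ∉ contract v 𝔪' :=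
    (Ideal.ne_top_iff_one _).mp h𝔪.ne_top
  -- the image of `A` in `F` is the local ring downstairs
  have hAmem : ∀ x : F, x ∈ locAt (Algebra.adjoin O ({v} : Set F)) (contract v 𝔪') h𝔪 →
      ∃ a : A, algebraMap A F a = x := by
    intro x hx
    rw [← hrange] at hx
    exact hx
  have hAloc : ∀ a : A, algebraMap A F a ∈
      locAt (Algebra.adjoin O ({v} : Set F)) (contract v 𝔪') h𝔪 := by
    intro a
    rw [← hrange]
    exact ⟨a, rfl⟩
  -- (K1) the chart upstairs lies in the integral closure of `A`
  have K1 : ∀ x : L, IsIntegral (Algebra.adjoin O ({algebraMap F L v} : Set L)) x →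
      IsIntegral A x := by
    intro x hx
    refine isIntegral_of_range_subset ?_ hx
    intro r
    obtain ⟨a, ha, hae⟩ := (mem_adjoin_map_iff (O := O) v _).mp r.2
    obtain ⟨a', ha'⟩ := hAmem a (coe_mem_locAt _ _ h𝔪
      ⟨a, isIntegral_algebraMap (x := (⟨a, ha⟩ : Algebra.adjoin O ({v} : Set F)))⟩)
    refine ⟨a', ?_⟩
    rw [IsScalarTower.algebraMap_apply A F L, ha', hae]
    rfl
  -- (K2) clearing denominators
  have K2 : ∀ x : L, IsIntegral A x →
      ∃ s : integralClosure (Algebra.adjoin O ({v} : Set F)) F, s ∉ contract v 𝔪' ∧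
        IsIntegral (Algebra.adjoin O ({algebraMap F L v} : Set L))
          (algebraMap F L (s : F) * x) := by
    rintro x ⟨q, hq, hqx⟩
    have hden : ∀ i : ℕ, ∃ s : integralClosure (Algebra.adjoin O ({v} : Set F)) F,
        s ∉ contract v 𝔪' ∧
        IsIntegral (Algebra.adjoin O ({v} : Set F)) ((s : F) * algebraMap A F (q.coeff i)) :=
      fun i => hAloc (q.coeff i)
    choose d hd𝔪 hdint using hden
    obtain ⟨s, hsdef⟩ : ∃ s : integralClosure (Algebra.adjoin O ({v} : Set F)) F,
        s = ∏ i ∈ Finset.range q.natDegree, d i := ⟨_, rfl⟩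
    have hs𝔪 : s ∉ contract v 𝔪' := by
      intro h
      rw [hsdef] at h
      obtain ⟨i, -, hi⟩ := (Ideal.IsPrime.prod_mem_iff (hp := h𝔪)).mp h
      exact hd𝔪 i hi
    have hsint : ∀ i ∈ Finset.range q.natDegree,
        IsIntegral (Algebra.adjoin O ({v} : Set F)) ((s : F) * algebraMap A F (q.coeff i)) := by
      intro i hi
      have e : (s : F) * algebraMap A F (q.coeff i) =
          ((d i : F) * algebraMap A F (q.coeff i)) *
            ((∏ j ∈ (Finset.range q.natDegree).erase i, d j :
              integralClosure (Algebra.adjoin O ({v} : Set F)) F) : F) := by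
        rw [hsdef, ← Finset.mul_prod_erase _ _ hi]
        push_cast
        ring
      rw [e]
      exact (hdint i).mul (Subtype.prop _)
    obtain ⟨sA, hsA⟩ := hAmem (s : F) (coe_mem_locAt _ _ h𝔪 s)
    refine ⟨s, hs𝔪, ?_⟩
    have hroot : (q.scaleRoots sA).eval₂ (algebraMap A L) (algebraMap A L sA * x) = 0 := by
      rw [Polynomial.scaleRoots_eval₂_mul, hqx, mul_zero]
    have hcoef : ∀ n, IsIntegral (Algebra.adjoin O ({algebraMap F L v} : Set L))
        (algebraMap A L ((q.scaleRoots sA).coeff n)) := by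
      intro n
      rw [Polynomial.coeff_scaleRoots]
      rcases lt_trichotomy n q.natDegree with hn | hn | hn
      · obtain ⟨k, hk⟩ : ∃ k, q.natDegree - n = k + 1 := ⟨q.natDegree - n - 1, by omega⟩
        have e0 : algebraMap A L (q.coeff n * sA ^ (k + 1)) =
            algebraMap F L (algebraMap A F (q.coeff n) * ((s : F) ^ k * (s : F))) := by
          rw [IsScalarTower.algebraMap_apply A F L, map_mul (algebraMap A F), map_pow, hsA,
            pow_succ]
        rw [hk, e0]
        have h3 : IsIntegral (Algebra.adjoin O ({v} : Set F))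
            (algebraMap A F (q.coeff n) * ((s : F) ^ k * (s : F))) := by
          have e : algebraMap A F (q.coeff n) * ((s : F) ^ k * (s : F)) =
              (s : F) ^ k * ((s : F) * algebraMap A F (q.coeff n)) := by ring
          rw [e]
          exact (IsIntegral.pow s.2 k).mul (hsint n (Finset.mem_range.mpr hn))
        exact isIntegral_map_adjoin v h3
      · rw [hn, hq.coeff_natDegree, one_mul, Nat.sub_self, pow_zero, map_one]
        exact isIntegral_one
      · rw [Polynomial.coeff_eq_zero_of_natDegree_lt hn, zero_mul, map_zero]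
        exact isIntegral_zero
    have h4 : IsIntegral (integralClosure (Algebra.adjoin O ({algebraMap F L v} : Set L)) L)
        (algebraMap A L sA * x) :=
      isIntegralElem_of_coeff_mem (algebraMap A L)
        (algebraMap (integralClosure (Algebra.adjoin O ({algebraMap F L v} : Set L)) L) L)
        (q.scaleRoots sA) ((Polynomial.monic_scaleRoots_iff sA).mpr hq) hroot
        (fun n => ⟨⟨_, hcoef n⟩, rfl⟩)
    have h5 : IsIntegral (Algebra.adjoin O ({algebraMap F L v} : Set L))
        (algebraMap A L sA * x) := isIntegral_trans _ h4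
    rwa [IsScalarTower.algebraMap_apply A F L, hsA] at h5
  -- the ideal `P`
  obtain ⟨P, hPmem⟩ : ∃ P : Ideal (integralClosure A L), ∀ b : integralClosure A L, b ∈ P ↔
      ∃ s : integralClosure (Algebra.adjoin O ({v} : Set F)) F, s ∉ contract v 𝔪' ∧
        ∃ m : integralClosure (Algebra.adjoin O ({algebraMap F L v} : Set L)) L, m ∈ 𝔪' ∧
          (m : L) = algebraMap F L (s : F) * (b : L) := by
    refine ⟨{ carrier := {b | ∃ s : integralClosure (Algebra.adjoin O ({v} : Set F)) F,
                s ∉ contract v 𝔪' ∧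
                ∃ m : integralClosure (Algebra.adjoin O ({algebraMap F L v} : Set L)) L, m ∈ 𝔪' ∧
                  (m : L) = algebraMap F L (s : F) * (b : L)}
              add_mem' := ?_
              zero_mem' := ?_
              smul_mem' := ?_ }, fun b => Iff.rfl⟩
    · rintro b₁ b₂ ⟨s₁, hs₁, m₁, hm₁, e₁⟩ ⟨s₂, hs₂, m₂, hm₂, e₂⟩
      refine ⟨s₁ * s₂, fun h => (h𝔪.mem_or_mem h).elim hs₁ hs₂,
        chartMap (O := O) (L := L) v s₂ * m₁ + chartMap (O := O) (L := L) v s₁ * m₂,
        𝔪'.add_mem (𝔪'.mul_mem_left _ hm₁) (𝔪'.mul_mem_left _ hm₂), ?_⟩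
      show algebraMap F L (s₂ : F) * (m₁ : L) + algebraMap F L (s₁ : F) * (m₂ : L) =
        algebraMap F L ((s₁ : F) * (s₂ : F)) * ((b₁ : L) + (b₂ : L))
      rw [e₁, e₂, map_mul]
      ring
    · exact ⟨1, h1𝔪, 0, 𝔪'.zero_mem, by simp⟩
    · rintro c b ⟨s, hs, m, hm, e⟩
      obtain ⟨s', hs', hint⟩ := K2 (c : L) c.2
      refine ⟨s * s', fun h => (h𝔪.mem_or_mem h).elim hs hs',
        m * ⟨algebraMap F L (s' : F) * (c : L), hint⟩, 𝔪'.mul_mem_right _ hm, ?_⟩
      show (m : L) * (algebraMap F L (s' : F) * (c : L)) =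
        algebraMap F L ((s : F) * (s' : F)) * ((c : L) * (b : L))
      rw [e, map_mul]
      ring
  have h1P : (1 : integralClosure A L) ∉ P := by
    rw [hPmem]
    rintro ⟨s, hs, m, hm, e⟩
    apply hs
    rw [mem_contract]
    have : chartMap (O := O) (L := L) v s = m := Subtype.ext (by
      show algebraMap F L (s : F) = (m : L)
      rw [e, OneMemClass.coe_one, mul_one])
    rw [this]
    exact hm
  have hPmax : P.IsMaximal := by
    rw [Ideal.isMaximal_iff]
    refine ⟨h1P, ?_⟩
    intro J x hPJ hxP hxJ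
    obtain ⟨s, hs, hint⟩ := K2 (x : L) x.2
    have hc' : (⟨algebraMap F L (s : F) * (x : L), hint⟩ :
        integralClosure (Algebra.adjoin O ({algebraMap F L v} : Set L)) L) ∉ 𝔪' := by
      intro h
      exact hxP ((hPmem x).mpr ⟨s, hs, _, h, rfl⟩)
    obtain ⟨d', i, hi, hdi⟩ := h𝔪'.exists_inv hc'
    -- transport to `B`
    have hiP : (⟨(i : L), K1 _ i.2⟩ : integralClosure A L) ∈ P :=
      (hPmem _).mpr ⟨1, h1𝔪, i, hi, by simp⟩
    have e1 : (1 : integralClosure A L) =
        (⟨(d' : L), K1 _ d'.2⟩ * ⟨algebraMap F L (s : F), K1 _ (chartMap (O := O) (L := L) v s).2⟩) * x +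
          ⟨(i : L), K1 _ i.2⟩ := by
      apply Subtype.ext
      have h : (d' : L) * (algebraMap F L (s : F) * (x : L)) + (i : L) = 1 :=
        congrArg Subtype.val hdi
      show (1 : L) = ((d' : L) * algebraMap F L (s : F)) * (x : L) + (i : L)
      rw [← h]
      ring
    rw [e1]
    exact J.add_mem (J.mul_mem_left _ hxJ) (hPJ hiP)
  refine ⟨P, hPmax, ?_⟩
  ext x
  rw [TopChart.mem_locSubring, mem_locAt]
  constructor
  · rintro ⟨a, b, hb, e⟩
    obtain ⟨sb, hsb, hintb⟩ := K2 (b : L) b.2
    obtain ⟨sa, hsa, hinta⟩ := K2 (a : L) a.2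
    have hb' : (⟨algebraMap F L (sb : F) * (b : L), hintb⟩ :
        integralClosure (Algebra.adjoin O ({algebraMap F L v} : Set L)) L) ∉ 𝔪' := by
      intro h
      exact hb ((hPmem b).mpr ⟨sb, hsb, _, h, rfl⟩)
    refine ⟨chartMap (O := O) (L := L) v sa * ⟨algebraMap F L (sb : F) * (b : L), hintb⟩,
      fun h => (h𝔪'p.mem_or_mem h).elim hsa hb', ?_⟩
    have e2 : ((chartMap (O := O) (L := L) v sa * ⟨algebraMap F L (sb : F) * (b : L), hintb⟩ :
        integralClosure (Algebra.adjoin O ({algebraMap F L v} : Set L)) L) : L) * x =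
        algebraMap F L (sb : F) * (algebraMap F L (sa : F) * (a : L)) := by
      have e' : x * (b : L) = (a : L) := e
      show (algebraMap F L (sa : F) * (algebraMap F L (sb : F) * (b : L))) * x =
        algebraMap F L (sb : F) * (algebraMap F L (sa : F) * (a : L))
      rw [← e']
      ring
    rw [e2]
    exact (chartMap (O := O) (L := L) v sb).2.mul hinta
  · rintro ⟨s', hs', hint⟩
    refine ⟨⟨(s' : L) * x, K1 _ hint⟩, ⟨(s' : L), K1 _ s'.2⟩, ?_, ?_⟩
    · rw [hPmem]
      rintro ⟨s, hs, m, hm, e⟩
      have : m = chartMap (O := O) (L := L) v s * s' := Subtype.ext e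
      rw [this] at hm
      exact (h𝔪'p.mem_or_mem hm).elim hs hs'
    · exact mul_comm _ _

end Chart

/-! ### The package -/

section Package

variable {O : Type*} [CommRing O] [IsDomain O] [IsDiscreteValuationRing O]
  {F : Type u} [Field F] [Algebra O F]
  {L : Type w} [Field L] [Algebra F L] [Algebra O L] [IsScalarTower O F L]
  [FiniteDimensional F L] [Algebra.IsSeparable F L]

/-- **A block of the cover at the local ring `Ry'`**, lying over the components `V W` of the
model downstairs: a node block whose two branch rings restrict to two generic rings `V W₁`,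
`V W₂`, or a smooth block whose branch ring restricts to a generic ring `V W₁`. -/
def BlockAbove (p : ℕ) (ϖ : O) {ι : Type*} (V : ι → Subring F) (Hor' : L → Prop)
    (Ry' : Subring L) : Prop :=
  (∃ (W₁ W₂ : ι) (V₁' V₂' : Subring L), NodeBlock p ϖ Hor' Ry' V₁' V₂' ∧
      (∀ f : F, algebraMap F L f ∈ V₁' ↔ f ∈ V W₁) ∧
      (∀ f : F, algebraMap F L f ∈ V₂' ↔ f ∈ V W₂)) ∨
  (∃ (W₁ : ι) (V₁' : Subring L), SmoothBlock p ϖ Hor' Ry' V₁' ∧
      (∀ f : F, algebraMap F L f ∈ V₁' ↔ f ∈ V W₁))

variable {p : ℕ} {ϖ : O} {ι Y : Type*} {V : ι → Subring F} {R : Y → Subring F}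
  {On : Y → ι → Prop} {Hor : F → Prop}

/-- **The blocks of the cover, one chart.**  `v ∈ F` a chart coordinate downstairs, `v'` its
image in `L`.  If every maximal ideal `𝔪 ∋ ϖ` of the chart of `v` satisfying `Cond 𝔪` is a point
of the model, and the discriminant hypothesis holds at every block presentation, then every
maximal ideal `𝔪' ∋ ϖ` of the chart of `v'` whose contraction satisfies `Cond` carries a block
of the cover. -/
theorem blockAbove_of_chart (D : IsModel p ϖ V R On Hor) (Hor' : L → Prop)
    (hHor : ∀ (A' : Type w) [CommRing A'] [IsDomain A'] [IsNoetherianRing A'] [Algebra O A']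
      [Algebra A' L] [IsFractionRing A' L] [IsScalarTower O A' L] (f : L),
      Hor' f → HorAt p ϖ A' f)
    (hN : ∀ (A : Type u) [CommRing A] [IsDomain A] [IsLocalRing A] [IsNoetherianRing A]
      [Algebra O A] [Algebra A F] [IsFractionRing A F] [IsScalarTower O A F] [Algebra A L]
      [IsScalarTower A F L] (y : Y) (W₁ W₂ : ι) (s t : A), (algebraMap A F).range = R y →
      Prime s → Prime t → ¬ Associated s t → maximalIdeal A = Ideal.span {s, t} →
      Associated (s * t) (algebraMap O A ϖ) → IsBranch s (V W₁) → IsBranch t (V W₂) →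
      DiscrAt A L)
    (hS : ∀ (A : Type u) [CommRing A] [IsDomain A] [IsLocalRing A] [IsNoetherianRing A]
      [Algebra O A] [Algebra A F] [IsFractionRing A F] [IsScalarTower O A F] [Algebra A L]
      [IsScalarTower A F L] (y : Y) (W₁ : ι) (z : A), (algebraMap A F).range = R y →
      Prime (algebraMap O A ϖ) → maximalIdeal A = Ideal.span {algebraMap O A ϖ, z} →
      IsBranch (algebraMap O A ϖ) (V W₁) → DiscrAt A L)
    (v : F) (v' : L) (hv' : algebraMap F L v = v')
    (𝔪' : Ideal (integralClosure (Algebra.adjoin O ({v'} : Set L)) L)) (h𝔪' : 𝔪'.IsMaximal)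
    (hy : ∀ (𝔪 : Ideal (integralClosure (Algebra.adjoin O ({v} : Set F)) F))
      (h𝔪 : 𝔪.IsMaximal), (∀ x : integralClosure (Algebra.adjoin O ({v} : Set F)) F,
        x ∈ 𝔪 ↔ ∃ x' : integralClosure (Algebra.adjoin O ({v'} : Set L)) L,
          (x' : L) = algebraMap F L (x : F) ∧ x' ∈ 𝔪') →
      ∃ y, R y = locAt (Algebra.adjoin O ({v} : Set F)) 𝔪 h𝔪.isPrime) :
    BlockAbove p ϖ V Hor' (locAt (Algebra.adjoin O ({v'} : Set L)) 𝔪' h𝔪'.isPrime) := by
  subst hv'
  have h𝔪 : (contract v 𝔪').IsMaximal := contract_isMaximal v 𝔪' h𝔪'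
  obtain ⟨y, hRy⟩ := hy (contract v 𝔪') h𝔪 (fun x =>
    ⟨fun hx => ⟨chartMap (O := O) (L := L) v x, rfl, hx⟩, fun ⟨x', hx', hx'm⟩ => by
      have e : x' = chartMap (O := O) (L := L) v x := Subtype.ext hx'
      rw [mem_contract, ← e]
      exact hx'm⟩)
  rcases D.block y with ⟨W₁, W₂, hOn, hb⟩ | ⟨W₁, hOn, hb⟩
  · obtain ⟨A, i1, i2, i3, i4, i5, i6, i7, i8, hrange, hHorA, s, t, hs, ht, hne, hm, hst,
      hV₁, hV₂⟩ := hb
    letI : Algebra A L := ((algebraMap F L).comp (algebraMap A F)).toAlgebra
    haveI : IsScalarTower A F L := IsScalarTower.of_algebraMap_eq (fun _ => rfl)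
    have hdisc : DiscrAt A L := hN A y W₁ W₂ s t hrange hs ht hne hm hst hV₁ hV₂
    obtain ⟨P, hP, hPeq⟩ := exists_maximal_locSubring_eq v 𝔪' h𝔪' h𝔪.isPrime (A := A)
      (hrange.trans hRy)
    haveI := hP
    obtain ⟨V₁', V₂', hblock, h1, h2⟩ :=
      nodeBlock_above p ϖ Hor' hHor hs ht hne hm hst hV₁ hV₂ hdisc P
    refine Or.inl ⟨W₁, W₂, V₁', V₂', ?_, h1, h2⟩
    rw [← hPeq]
    exact hblock
  · obtain ⟨A, i1, i2, i3, i4, i5, i6, i7, i8, hrange, hHorA, hϖA, z, hm, hV₁⟩ := hb
    letI : Algebra A L := ((algebraMap F L).comp (algebraMap A F)).toAlgebra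
    haveI : IsScalarTower A F L := IsScalarTower.of_algebraMap_eq (fun _ => rfl)
    have hdisc : DiscrAt A L := hS A y W₁ z hrange hϖA hm hV₁
    obtain ⟨P, hP, hPeq⟩ := exists_maximal_locSubring_eq v 𝔪' h𝔪' h𝔪.isPrime (A := A)
      (hrange.trans hRy)
    haveI := hP
    obtain ⟨V₁', hblock, h1⟩ :=
      smoothBlock_above p ϖ Hor' hHor hϖA hm hV₁ hdisc P
    refine Or.inr ⟨W₁, V₁', ?_, h1⟩
    rw [← hPeq]
    exact hblock

/-- **C3 / T2: the blocks of the cover.**  A model downstairs whose points cover the fibre of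
the two charts of `u` (cusp form) and the discriminant hypothesis at every block presentation
give a block at every closed point of the fibre of the chart of `u' = u` and at every closed
point over `u' = ∞` of the fibre of the chart of `u'⁻¹`, upstairs. -/
theorem blocks_above (D : IsModel p ϖ V R On Hor) (u : F) (hcov : CoversCusp ϖ u R)
    (Hor' : L → Prop)
    (hHor : ∀ (A' : Type w) [CommRing A'] [IsDomain A'] [IsNoetherianRing A'] [Algebra O A']
      [Algebra A' L] [IsFractionRing A' L] [IsScalarTower O A' L] (f : L),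
      Hor' f → HorAt p ϖ A' f)
    (hN : ∀ (A : Type u) [CommRing A] [IsDomain A] [IsLocalRing A] [IsNoetherianRing A]
      [Algebra O A] [Algebra A F] [IsFractionRing A F] [IsScalarTower O A F] [Algebra A L]
      [IsScalarTower A F L] (y : Y) (W₁ W₂ : ι) (s t : A), (algebraMap A F).range = R y →
      Prime s → Prime t → ¬ Associated s t → maximalIdeal A = Ideal.span {s, t} →
      Associated (s * t) (algebraMap O A ϖ) → IsBranch s (V W₁) → IsBranch t (V W₂) →
      DiscrAt A L)
    (hS : ∀ (A : Type u) [CommRing A] [IsDomain A] [IsLocalRing A] [IsNoetherianRing A]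
      [Algebra O A] [Algebra A F] [IsFractionRing A F] [IsScalarTower O A F] [Algebra A L]
      [IsScalarTower A F L] (y : Y) (W₁ : ι) (z : A), (algebraMap A F).range = R y →
      Prime (algebraMap O A ϖ) → maximalIdeal A = Ideal.span {algebraMap O A ϖ, z} →
      IsBranch (algebraMap O A ϖ) (V W₁) → DiscrAt A L) :
    (∀ (𝔪' : Ideal (integralClosure (Algebra.adjoin O ({algebraMap F L u} : Set L)) L))
        (h𝔪' : 𝔪'.IsMaximal),
        algebraMap O (integralClosure (Algebra.adjoin O ({algebraMap F L u} : Set L)) L) ϖ ∈ 𝔪' →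
        BlockAbove p ϖ V Hor'
          (locAt (Algebra.adjoin O ({algebraMap F L u} : Set L)) 𝔪' h𝔪'.isPrime)) ∧
    (∀ (𝔪' : Ideal (integralClosure (Algebra.adjoin O ({(algebraMap F L u)⁻¹} : Set L)) L))
        (h𝔪' : 𝔪'.IsMaximal),
        algebraMap O (integralClosure (Algebra.adjoin O ({(algebraMap F L u)⁻¹} : Set L)) L) ϖ
          ∈ 𝔪' →
        (∃ t : integralClosure (Algebra.adjoin O ({(algebraMap F L u)⁻¹} : Set L)) L,
          (t : L) = (algebraMap F L u)⁻¹ ∧ t ∈ 𝔪') →
        BlockAbove p ϖ V Hor'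
          (locAt (Algebra.adjoin O ({(algebraMap F L u)⁻¹} : Set L)) 𝔪' h𝔪'.isPrime)) := by
  refine ⟨fun 𝔪' h𝔪' hϖ => ?_, fun 𝔪' h𝔪' hϖ ht => ?_⟩
  · refine blockAbove_of_chart D Hor' hHor hN hS u (algebraMap F L u) rfl 𝔪' h𝔪' ?_
    intro 𝔪 h𝔪 hchar
    refine hcov.1 𝔪 h𝔪 ?_
    rw [hchar]
    exact ⟨_, (IsScalarTower.algebraMap_apply O F L ϖ), hϖ⟩
  · refine blockAbove_of_chart D Hor' hHor hN hS u⁻¹ (algebraMap F L u)⁻¹ (map_inv₀ _ _) 𝔪' h𝔪' ?_
    intro 𝔪 h𝔪 hchar
    refine hcov.2 𝔪 h𝔪 ?_ ?_
    · rw [hchar]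
      exact ⟨_, (IsScalarTower.algebraMap_apply O F L ϖ), hϖ⟩
    · obtain ⟨t', ht', ht'm⟩ := ht
      refine ⟨⟨u⁻¹, isIntegral_algebraMap (x := (⟨u⁻¹, Algebra.subset_adjoin
        (Set.mem_singleton _)⟩ : Algebra.adjoin O ({u⁻¹} : Set F)))⟩, rfl, ?_⟩
      rw [hchar]
      exact ⟨t', by rw [ht', map_inv₀], ht'm⟩

end Package

end Fermat.Agent.S33.Geo.CoverBlocks
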