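import Mathlib
import Fermat.Agent.S33.Geo.Top

/-!
# S33 / GEO / Z3c: the cusp clause "constant ONE" (level-free)

`O` a commutative ring, `K` a field over `O` (in the application `O` is a discrete valuation ring
and `K` its fraction field), `F` a field over `O` with a "`q`-expansion" `σ : F →+* K((q))`.

* `cuspRing O σ` : the elements of `F` which are regular at the cusp of `σ` with value in `O`
  (`σ a ∈ K[[q]]`, constant coefficient in the image of `O`); `mem_cuspRing_iff` is the
  coefficient form.  `psHom`, `evHom` : the expansion `cuspRing →+* K[[q]]` and the value at the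
  cusp `cuspRing →+* O`.
* `mem_of_isIntegral` : an element of `F` integral over `O[s]`, `s ∈ cuspRing`, lies in
  `cuspRing` (`K[[q]]` is integrally closed in `K((q))`, `O` in `K`).
* `chartEv`, `cuspIdeal` : the value at the cusp on the chart `integralClosure O[s] F` and the
  CUSP POINT `y∞` of the chart (a maximal ideal); `unif_mem_cuspIdeal`, `coord_mem_cuspIdeal`;
  `mem_cuspRing_of_frac` : the local ring of the chart at `y∞` lies in `cuspRing`.
* `aeval_mem`, `map_mem` : stability under polynomial expressions and under base change.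
* `const_of_lc` : **a depth-`p` form at the cusp point of a function with leading coefficient
  `1` has constant `c` with `c * d ^ p * (1 + lam ^ p * e) = 1`**, `d ∈ Kˣ`, `e ∈ O`.
* `depthIn_one_of_cusp` : hence the generic form on the component of the cusp has constant `1`
  (in the vocabulary of `Top`: `DepthIn V p lam p f 1`).
-/

set_option autoImplicit false
set_option linter.unusedSectionVars false

noncomputable section

namespace Fermat.Agent.S33.Geo.ZCusp

open Polynomial Fermat.Agent.S33.Geo.Top

variable {O K F : Type*} [CommRing O] [Field K] [Algebra O K] [Field F] [Algebra O F]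
  (σ : F →+* LaurentSeries K)

/-! ### The cusp ring -/

variable (O) in
/-- The elements of `F` regular at the cusp of the expansion `σ`, with value in `O`. -/
def cuspRing : Subring F :=
  (((algebraMap O K).range.comap (PowerSeries.constantCoeff (R := K))).map
    (HahnSeries.ofPowerSeries ℤ K)).comap σ

theorem mem_cuspRing {a : F} : a ∈ cuspRing O σ ↔
    ∃ Q : PowerSeries K, PowerSeries.constantCoeff Q ∈ (algebraMap O K).range ∧
      HahnSeries.ofPowerSeries ℤ K Q = σ a := Iff.rfl

/-- A Laurent series without negative coefficients is a power series. -/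
theorem exists_ofPowerSeries_eq (x : LaurentSeries K) (h : ∀ n : ℤ, n < 0 → x.coeff n = 0) :
    ∃ Q : PowerSeries K, HahnSeries.ofPowerSeries ℤ K Q = x ∧
      PowerSeries.constantCoeff Q = x.coeff 0 := by
  refine ⟨PowerSeries.mk fun n => x.coeff n, ?_, ?_⟩
  · ext i
    rw [PowerSeries.coeff_coe]
    split_ifs with hi
    · exact (h i hi).symm
    · rw [PowerSeries.coeff_mk]
      congr 1
      omega
  · rw [← PowerSeries.coeff_zero_eq_constantCoeff_apply, PowerSeries.coeff_mk]
    rfl

/-- **Coefficient form of the cusp ring.** -/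
theorem mem_cuspRing_iff {a : F} : a ∈ cuspRing O σ ↔
    (∀ n : ℤ, n < 0 → (σ a).coeff n = 0) ∧ (σ a).coeff 0 ∈ (algebraMap O K).range := by
  constructor
  · rintro ⟨Q, hQ, hQa⟩
    rw [← hQa]
    refine ⟨fun n hn => ?_, ?_⟩
    · rw [PowerSeries.coeff_coe, if_pos hn]
    · rw [PowerSeries.coeff_coe, if_neg (lt_irrefl 0)]
      simpa [PowerSeries.coeff_zero_eq_constantCoeff_apply] using hQ
  · rintro ⟨hneg, h0⟩
    obtain ⟨Q, hQ, hQ0⟩ := exists_ofPowerSeries_eq (σ a) hneg
    exact ⟨Q, by
      show PowerSeries.constantCoeff Q ∈ (algebraMap O K).range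
      rw [hQ0]; exact h0, hQ⟩

/-- The power series of an element of the cusp ring. -/
def psFun (a : cuspRing O σ) : PowerSeries K := Classical.choose ((mem_cuspRing σ).mp a.2)

theorem psFun_spec (a : cuspRing O σ) : HahnSeries.ofPowerSeries ℤ K (psFun σ a) = σ (a : F) :=
  (Classical.choose_spec ((mem_cuspRing σ).mp a.2)).2

theorem psFun_const (a : cuspRing O σ) :
    PowerSeries.constantCoeff (psFun σ a) ∈ (algebraMap O K).range :=
  (Classical.choose_spec ((mem_cuspRing σ).mp a.2)).1

/-- The expansion `cuspRing →+* K[[q]]`. -/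
def psHom : cuspRing O σ →+* PowerSeries K where
  toFun := psFun σ
  map_one' := HahnSeries.ofPowerSeries_injective (by
    rw [psFun_spec, map_one]; exact map_one σ)
  map_mul' a b := HahnSeries.ofPowerSeries_injective (by
    rw [psFun_spec, map_mul, psFun_spec, psFun_spec]; exact map_mul σ _ _)
  map_zero' := HahnSeries.ofPowerSeries_injective (by
    rw [psFun_spec, map_zero]; exact map_zero σ)
  map_add' a b := HahnSeries.ofPowerSeries_injective (by
    rw [psFun_spec, map_add, psFun_spec, psFun_spec]; exact map_add σ _ _)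

theorem coe_psHom (a : cuspRing O σ) :
    HahnSeries.ofPowerSeries ℤ K (psHom σ a) = σ (a : F) := psFun_spec σ a

theorem constantCoeff_psHom (a : cuspRing O σ) :
    PowerSeries.constantCoeff (psHom σ a) = (σ (a : F)).coeff 0 := by
  rw [← coe_psHom, PowerSeries.coeff_coe, if_neg (lt_irrefl 0)]
  simp [PowerSeries.coeff_zero_eq_constantCoeff_apply]

/-- The value at the cusp, as a function. -/
def evFun (a : cuspRing O σ) : O := Classical.choose (psFun_const σ a)

theorem evFun_spec (a : cuspRing O σ) :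
    algebraMap O K (evFun σ a) = PowerSeries.constantCoeff (psHom σ a) :=
  Classical.choose_spec (psFun_const σ a)

/-- **The value at the cusp** `cuspRing →+* O`. -/
def evHom (hinj : Function.Injective (algebraMap O K)) : cuspRing O σ →+* O where
  toFun := evFun σ
  map_one' := hinj (by rw [evFun_spec, map_one, map_one, map_one])
  map_mul' a b := hinj (by rw [evFun_spec, map_mul, map_mul, map_mul, evFun_spec, evFun_spec])
  map_zero' := hinj (by rw [evFun_spec, map_zero, map_zero, map_zero])
  map_add' a b := hinj (by rw [evFun_spec, map_add, map_add, map_add, evFun_spec, evFun_spec])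

theorem algebraMap_evHom (hinj : Function.Injective (algebraMap O K)) (a : cuspRing O σ) :
    algebraMap O K (evHom σ hinj a) = (σ (a : F)).coeff 0 := by
  rw [← constantCoeff_psHom]
  exact evFun_spec σ a

section Const

variable (hσO : ∀ a : O, σ (algebraMap O F a) = HahnSeries.C (algebraMap O K a))

include hσO in
/-- Constants of `O` lie in the cusp ring. -/
theorem algebraMap_mem (a : O) : algebraMap O F a ∈ cuspRing O σ :=
  ⟨PowerSeries.C (algebraMap O K a), by
    show PowerSeries.constantCoeff (PowerSeries.C (algebraMap O K a)) ∈ (algebraMap O K).range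
    rw [PowerSeries.constantCoeff_C]; exact ⟨a, rfl⟩, by
    rw [hσO]; exact PowerSeries.coe_C _⟩

include hσO in
theorem evHom_algebraMap (hinj : Function.Injective (algebraMap O K)) (a : O) :
    evHom σ hinj ⟨algebraMap O F a, algebraMap_mem σ hσO a⟩ = a := by
  apply hinj
  rw [algebraMap_evHom]
  show (σ (algebraMap O F a)).coeff 0 = _
  rw [hσO]
  simp

/-- The cusp ring as an `O`-subalgebra. -/
def cuspAlg : Subalgebra O F :=
  { (cuspRing O σ).toSubsemiring with
    algebraMap_mem' := fun a => algebraMap_mem σ hσO a }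

theorem mem_cuspAlg {a : F} : a ∈ cuspAlg σ hσO ↔ a ∈ cuspRing O σ := Iff.rfl

include hσO in
/-- Polynomial expressions with coefficients in the cusp ring, evaluated in the cusp ring. -/
theorem aeval_mem {B : Type*} [CommRing B] [Algebra B F]
    (hB : ∀ b : B, algebraMap B F b ∈ cuspRing O σ) (L : F) (hL : L ∈ cuspRing O σ) (q : B[X]) :
    Polynomial.aeval L q ∈ cuspRing O σ := by
  rw [Polynomial.aeval_def, Polynomial.eval₂_eq_sum_range]
  exact Subring.sum_mem _ fun i _ => Subring.mul_mem _ (hB _) (Subring.pow_mem _ hL i)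

/-! ### Integrality -/

include hσO in
/-- **An element integral over `O[s]`, `s` in the cusp ring, lies in the cusp ring.** -/
theorem mem_of_isIntegral (hinj : Function.Injective (algebraMap O K))
    (hint : ∀ x : K, IsIntegral O x → x ∈ (algebraMap O K).range)
    (s : F) (hs : s ∈ cuspRing O σ) (b : F)
    (hb : IsIntegral (Algebra.adjoin O ({s} : Set F)) b) : b ∈ cuspRing O σ := by
  have hT : Algebra.adjoin O ({s} : Set F) ≤ cuspAlg σ hσO :=
    Algebra.adjoin_le (Set.singleton_subset_iff.mpr hs)
  -- the chart coordinate ring maps to the cusp ring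
  let τ : Algebra.adjoin O ({s} : Set F) →+* cuspRing O σ :=
    (algebraMap (Algebra.adjoin O ({s} : Set F)) F).codRestrict (cuspRing O σ) fun t => hT t.2
  have hτ : ∀ t, ((τ t : cuspRing O σ) : F) = algebraMap (Algebra.adjoin O ({s} : Set F)) F t :=
    fun _ => rfl
  let ψ : Algebra.adjoin O ({s} : Set F) →+* PowerSeries K := (psHom σ).comp τ
  have hAM : algebraMap (PowerSeries K) (LaurentSeries K) = HahnSeries.ofPowerSeries ℤ K :=
    RingHom.ext fun x => by rw [LaurentSeries.coe_algebraMap]
  have hcomp : (algebraMap (PowerSeries K) (LaurentSeries K)).comp ψ =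
      σ.comp (algebraMap (Algebra.adjoin O ({s} : Set F)) F) := by
    rw [hAM]
    ext1 t
    exact coe_psHom σ (τ t)
  have hI : IsIntegral (PowerSeries K) (σ b) := IsIntegral.map_of_comp_eq ψ σ hcomp hb
  obtain ⟨Q, hQ⟩ := IsIntegrallyClosed.isIntegral_iff.mp hI
  rw [hAM] at hQ
  -- the constant coefficient is integral over `O`
  obtain ⟨P, hPm, hP0⟩ := hb
  have h1 : P.eval₂ ψ Q = 0 := by
    apply HahnSeries.ofPowerSeries_injective (Γ := ℤ)
    rw [map_zero, Polynomial.hom_eval₂, hQ]
    have h2 : (HahnSeries.ofPowerSeries ℤ K).comp ψ =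
        σ.comp (algebraMap (Algebra.adjoin O ({s} : Set F)) F) := by
      rw [← hcomp, hAM]
    rw [h2, ← Polynomial.hom_eval₂, hP0, map_zero]
  have h3 : P.eval₂ ((PowerSeries.constantCoeff (R := K)).comp ψ)
      (PowerSeries.constantCoeff Q) = 0 := by
    rw [← Polynomial.hom_eval₂, h1, map_zero]
  let χ : Algebra.adjoin O ({s} : Set F) →+* O := (evHom σ hinj).comp τ
  have hχ : (algebraMap O K).comp χ = (PowerSeries.constantCoeff (R := K)).comp ψ := by
    ext1 t
    exact evFun_spec σ (τ t)
  have h4 : IsIntegral O (PowerSeries.constantCoeff Q) :=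
    ⟨P.map χ, hPm.map χ, by rw [Polynomial.eval₂_map, hχ]; exact h3⟩
  exact ⟨Q, hint _ h4, hQ⟩

end Const

/-- The inverse of an element of the cusp ring with unit value lies in the cusp ring. -/
theorem inv_mem_of_isUnit (hinj : Function.Injective (algebraMap O K)) (a : cuspRing O σ)
    (ha : IsUnit (evHom σ hinj a)) :
    ((a : F))⁻¹ ∈ cuspRing O σ := by
  obtain ⟨u, hu⟩ := ha
  have h0 : PowerSeries.constantCoeff (psHom σ a) = algebraMap O K (u : O) := by
    rw [hu]; exact (evFun_spec σ a).symm
  have hu0 : algebraMap O K (u : O) ≠ 0 := (u.isUnit.map (algebraMap O K)).ne_zero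
  have h1 : psHom σ a * (psHom σ a)⁻¹ = 1 :=
    PowerSeries.mul_inv_cancel _ (by rw [h0]; exact hu0)
  refine ⟨(psHom σ a)⁻¹, ?_, ?_⟩
  · show PowerSeries.constantCoeff (psHom σ a)⁻¹ ∈ (algebraMap O K).range
    rw [PowerSeries.constantCoeff_inv, h0]
    refine ⟨((u⁻¹ : Oˣ) : O), ?_⟩
    apply eq_inv_of_mul_eq_one_left
    rw [← map_mul, Units.inv_mul, map_one]
  · rw [map_inv₀]
    apply eq_inv_of_mul_eq_one_right
    rw [← coe_psHom, ← map_mul, h1, map_one]

/-! ### The cusp point of a chart -/

section Point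

variable (hσO : ∀ a : O, σ (algebraMap O F a) = HahnSeries.C (algebraMap O K a))
  (hinj : Function.Injective (algebraMap O K))
  (hint : ∀ x : K, IsIntegral O x → x ∈ (algebraMap O K).range)
  (s : F) (hs : s ∈ cuspRing O σ)

include hσO hinj hint hs

/-- **The value at the cusp on the chart** `integralClosure O[s] F`. -/
def chartEv : integralClosure (Algebra.adjoin O ({s} : Set F)) F →+* O :=
  (evHom σ hinj).comp
    ((algebraMap (integralClosure (Algebra.adjoin O ({s} : Set F)) F) F).codRestrict
      (cuspRing O σ) fun b => mem_of_isIntegral σ hσO hinj hint s hs (b : F) b.2)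

theorem algebraMap_chartEv (b : integralClosure (Algebra.adjoin O ({s} : Set F)) F) :
    algebraMap O K (chartEv σ hσO hinj hint s hs b) = (σ (b : F)).coeff 0 :=
  algebraMap_evHom σ hinj _

/-- Chart elements are regular at the cusp. -/
theorem chart_mem (b : integralClosure (Algebra.adjoin O ({s} : Set F)) F) :
    (b : F) ∈ cuspRing O σ :=
  mem_of_isIntegral σ hσO hinj hint s hs (b : F) b.2

theorem chartEv_of_eq (b : integralClosure (Algebra.adjoin O ({s} : Set F)) F) (a : O)
    (h : (b : F) = algebraMap O F a) : chartEv σ hσO hinj hint s hs b = a := by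
  apply hinj
  rw [algebraMap_chartEv, h, hσO]
  simp

theorem chartEv_surjective : Function.Surjective (chartEv σ hσO hinj hint s hs) := by
  intro a
  have h1 : IsIntegral (Algebra.adjoin O ({s} : Set F)) (algebraMap O F a) := by
    have h2 : algebraMap O F a = algebraMap (Algebra.adjoin O ({s} : Set F)) F
        (algebraMap O (Algebra.adjoin O ({s} : Set F)) a) := rfl
    rw [h2]
    exact isIntegral_algebraMap
  exact ⟨⟨algebraMap O F a, h1⟩, chartEv_of_eq σ hσO hinj hint s hs _ a rfl⟩

variable [IsLocalRing O]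

/-- **The cusp point** of the chart `integralClosure O[s] F`: the chart elements whose value at
the cusp is a non-unit of `O`. -/
def cuspIdeal : Ideal (integralClosure (Algebra.adjoin O ({s} : Set F)) F) :=
  (IsLocalRing.maximalIdeal O).comap (chartEv σ hσO hinj hint s hs)

theorem mem_cuspIdeal {b : integralClosure (Algebra.adjoin O ({s} : Set F)) F} :
    b ∈ cuspIdeal σ hσO hinj hint s hs ↔ ¬ IsUnit (chartEv σ hσO hinj hint s hs b) := by
  rw [cuspIdeal, Ideal.mem_comap, IsLocalRing.mem_maximalIdeal, mem_nonunits_iff]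

theorem cuspIdeal_isMaximal : (cuspIdeal σ hσO hinj hint s hs).IsMaximal :=
  Ideal.comap_isMaximal_of_surjective _ (chartEv_surjective σ hσO hinj hint s hs)

/-- A non-unit constant lies in the cusp point. -/
theorem unif_mem_cuspIdeal (π : O) (hπ : ¬ IsUnit π)
    (t : integralClosure (Algebra.adjoin O ({s} : Set F)) F) (ht : (t : F) = algebraMap O F π) :
    t ∈ cuspIdeal σ hσO hinj hint s hs := by
  rw [mem_cuspIdeal, chartEv_of_eq σ hσO hinj hint s hs t π ht]
  exact hπ

/-- A chart element vanishing at the cusp lies in the cusp point. -/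
theorem mem_cuspIdeal_of_coeff_zero (t : integralClosure (Algebra.adjoin O ({s} : Set F)) F)
    (ht : (σ (t : F)).coeff 0 = 0) : t ∈ cuspIdeal σ hσO hinj hint s hs := by
  rw [mem_cuspIdeal]
  have h0 : chartEv σ hσO hinj hint s hs t = 0 := by
    apply hinj
    rw [algebraMap_chartEv, ht, map_zero]
  rw [h0]
  exact not_isUnit_zero

/-- The coordinate lies in the cusp point when it vanishes at the cusp. -/
theorem coord_mem_cuspIdeal (hs0 : (σ s).coeff 0 = 0)
    (t : integralClosure (Algebra.adjoin O ({s} : Set F)) F) (ht : (t : F) = s) :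
    t ∈ cuspIdeal σ hσO hinj hint s hs :=
  mem_cuspIdeal_of_coeff_zero σ hσO hinj hint s hs t (by rw [ht]; exact hs0)

/-- **The local ring of the chart at the cusp point lies in the cusp ring**
(`DepthHenselExit.locAt (Algebra.adjoin O {s}) (cuspIdeal ..) _ ≤ cuspRing O σ`, elementwise). -/
theorem mem_cuspRing_of_frac (a : F)
    (ha : ∃ t : integralClosure (Algebra.adjoin O ({s} : Set F)) F,
      t ∉ cuspIdeal σ hσO hinj hint s hs ∧
        IsIntegral (Algebra.adjoin O ({s} : Set F)) ((t : F) * a)) :
    a ∈ cuspRing O σ := by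
  obtain ⟨t, ht, hta⟩ := ha
  rw [mem_cuspIdeal, not_not] at ht
  have ht' : (t : F) ∈ cuspRing O σ := chart_mem σ hσO hinj hint s hs t
  have hinv : ((t : F))⁻¹ ∈ cuspRing O σ := inv_mem_of_isUnit σ hinj ⟨(t : F), ht'⟩ ht
  have ht0 : (t : F) ≠ 0 := by
    intro h0
    have h1 : chartEv σ hσO hinj hint s hs t = 0 := by
      apply hinj
      rw [algebraMap_chartEv, h0, map_zero, map_zero]
      rfl
    rw [h1] at ht
    exact not_isUnit_zero ht
  have h2 : a = ((t : F))⁻¹ * ((t : F) * a) := by
    rw [← mul_assoc, inv_mul_cancel₀ ht0, one_mul]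
  rw [h2]
  exact Subring.mul_mem _ hinv (mem_of_isIntegral σ hσO hinj hint s hs _ hta)

end Point

/-! ### Base change -/

/-- Base change of the cusp ring along `j : F →+* F₁` when the expansions are compatible. -/
theorem map_mem {O₁ K₁ F₁ : Type*} [CommRing O₁] [Field K₁] [Algebra O₁ K₁] [Field F₁]
    [Algebra O₁ F₁] (σ₁ : F₁ →+* LaurentSeries K₁) (j : F →+* F₁) (φ : K →+* K₁)
    (hcoeff : ∀ (x : F) (n : ℤ), (σ₁ (j x)).coeff n = φ ((σ x).coeff n))
    (hO : ∀ a : O, φ (algebraMap O K a) ∈ (algebraMap O₁ K₁).range)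
    {a : F} (ha : a ∈ cuspRing O σ) : j a ∈ cuspRing O₁ σ₁ := by
  rw [mem_cuspRing_iff] at ha ⊢
  obtain ⟨hneg, e, he⟩ := ha
  refine ⟨fun n hn => by rw [hcoeff, hneg n hn, map_zero], ?_⟩
  rw [hcoeff, ← he]
  exact hO e

/-! ### The constant of a depth-`p` form at the cusp point -/

/-- The leading coefficient of a Laurent series without negative coefficients and with nonzero
constant coefficient is its constant coefficient. -/
theorem leadingCoeff_eq_coeff_zero {x : LaurentSeries K}
    (hneg : ∀ n : ℤ, n < 0 → x.coeff n = 0) (h0 : x.coeff 0 ≠ 0) :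
    x.leadingCoeff = x.coeff 0 := by
  have hx : x ≠ 0 := by
    rintro rfl
    exact h0 rfl
  have h1 : x.order = 0 :=
    le_antisymm (HahnSeries.order_le_of_coeff_ne_zero h0)
      ((HahnSeries.le_order_iff_forall hx).mpr hneg)
  rw [HahnSeries.leadingCoeff_eq, h1]

theorem leadingCoeff_pow_eq (x : LaurentSeries K) (n : ℕ) :
    (x ^ n).leadingCoeff = x.leadingCoeff ^ n := by
  induction n with
  | zero => rw [pow_zero, pow_zero, HahnSeries.leadingCoeff_one]
  | succ n ih => rw [pow_succ, HahnSeries.leadingCoeff_mul, ih, pow_succ]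

section Lc

variable (hσO : ∀ a : O, σ (algebraMap O F a) = HahnSeries.C (algebraMap O K a))

include hσO in
/-- **The constant of a depth-`p` form at the cusp.**  If `f = c * h ^ p * (1 + lam ^ p * r)`
with `r` regular at the cusp with value in `O`, and the `q`-expansion of `f` has leading
coefficient `1`, then `c * d ^ p * (1 + lam ^ p * e) = 1` with `d ∈ Kˣ` (the leading coefficient
of `h`) and `e ∈ O` (the value of `r` at the cusp). -/
theorem const_of_lc (lam : O) (p : ℕ) (hp : p ≠ 0)
    (hunit : ∀ e : O, algebraMap O K (1 + lam ^ p * e) ≠ 0)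
    (f h r : F) (c : O)
    (hf : f = algebraMap O F c * h ^ p * (1 + algebraMap O F lam ^ p * r))
    (hr : r ∈ cuspRing O σ) (hlc : (σ f).leadingCoeff = 1) :
    ∃ (d : K) (e : O), d ≠ 0 ∧
      algebraMap O K c * d ^ p * algebraMap O K (1 + lam ^ p * e) = 1 := by
  obtain ⟨hneg, e, he⟩ := (mem_cuspRing_iff σ).mp hr
  -- the one-unit factor
  have hx : σ (1 + algebraMap O F lam ^ p * r) =
      1 + HahnSeries.C (algebraMap O K (lam ^ p)) * σ r := by
    rw [map_add, map_one, map_mul, ← map_pow, hσO]
  have hxc : ∀ n : ℤ, (1 + HahnSeries.C (algebraMap O K (lam ^ p)) * σ r).coeff n =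
      (1 : LaurentSeries K).coeff n + algebraMap O K (lam ^ p) * (σ r).coeff n := by
    intro n
    rw [HahnSeries.coeff_add, HahnSeries.C_mul_eq_smul, HahnSeries.coeff_smul, smul_eq_mul]
  have h1c : ∀ n : ℤ, (1 : LaurentSeries K).coeff n = if n = 0 then 1 else 0 := by
    intro n
    rw [HahnSeries.coeff_one]
    split_ifs <;> rfl
  have hxneg : ∀ n : ℤ, n < 0 →
      (1 + HahnSeries.C (algebraMap O K (lam ^ p)) * σ r).coeff n = 0 := by
    intro n hn
    rw [hxc, h1c, if_neg hn.ne, hneg n hn, mul_zero, add_zero]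
  have hx0 : (1 + HahnSeries.C (algebraMap O K (lam ^ p)) * σ r).coeff 0 =
      algebraMap O K (1 + lam ^ p * e) := by
    rw [hxc, h1c, if_pos rfl, ← he, map_add, map_one, map_mul]
  have hxl : (1 + HahnSeries.C (algebraMap O K (lam ^ p)) * σ r).leadingCoeff =
      algebraMap O K (1 + lam ^ p * e) := by
    rw [leadingCoeff_eq_coeff_zero hxneg (by rw [hx0]; exact hunit e), hx0]
  have h2 : (σ f).leadingCoeff =
      algebraMap O K c * (σ h).leadingCoeff ^ p * algebraMap O K (1 + lam ^ p * e) := by
    rw [hf, map_mul, map_mul, map_pow, hx, hσO, HahnSeries.leadingCoeff_mul,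
      HahnSeries.leadingCoeff_mul, leadingCoeff_pow_eq, hxl]
    congr 2
    exact HahnSeries.leadingCoeff_of_single
  rw [hlc] at h2
  refine ⟨(σ h).leadingCoeff, e, ?_, h2.symm⟩
  intro h0
  rw [h0, zero_pow hp, mul_zero, zero_mul] at h2
  exact one_ne_zero h2

end Lc

/-! ### Constant ONE on the component of the cusp -/

section Depth

variable [Algebra K F] [IsScalarTower O K F] [IsLocalRing O]
  (hσO : ∀ a : O, σ (algebraMap O F a) = HahnSeries.C (algebraMap O K a))

include hσO in
/-- **Constant ONE on the component of the cusp.**  `f` has leading coefficient `1`, a depth-`p`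
form `f = cy * h ^ p * (1 + lam ^ p * r)` with `r` regular at the cusp with value in `O` (the
point form at the cusp point), and a depth-`p` form with constant `c` along `V` (the component
of the cusp), where `c` and `cy` agree modulo `p`-th powers of `K` and `1 + lam ^ p O`.  Then `f`
has depth `p` along `V` with constant `1`. -/
theorem depthIn_one_of_cusp (lam : O) (hlam : ¬ IsUnit lam) (p : ℕ) (hp : p ≠ 0)
    (V : Subring F) (hV : ∀ a : O, algebraMap O F a ∈ V)
    (f h r : F) (cy c : O)
    (hf : f = algebraMap O F cy * h ^ p * (1 + algebraMap O F lam ^ p * r))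
    (hr : r ∈ cuspRing O σ)
    (hrel : ∃ (κ : O) (d d' : K), d ≠ 0 ∧ d' ≠ 0 ∧
      algebraMap O K c * d ^ p =
        algebraMap O K cy * d' ^ p * algebraMap O K (1 + lam ^ p * κ))
    (hc : DepthIn V p lam p f c) (hlc : (σ f).leadingCoeff = 1) :
    DepthIn V p lam p f 1 := by
  have hunitO : ∀ e : O, IsUnit (1 + lam ^ p * e) := fun e =>
    Top.isUnit_one_add_pow_mul hlam (Nat.one_le_iff_ne_zero.mpr hp) e
  have hunit : ∀ e : O, algebraMap O K (1 + lam ^ p * e) ≠ 0 := by
    intro e h0
    obtain ⟨w, hw⟩ := hunitO e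
    have h1 : algebraMap O K (1 + lam ^ p * e) * algebraMap O K ((w⁻¹ : Oˣ) : O) = 1 := by
      rw [← map_mul, ← hw, Units.mul_inv, map_one]
    rw [h0, zero_mul] at h1
    exact zero_ne_one h1
  obtain ⟨D, e, hD, hDe⟩ := const_of_lc σ hσO lam p hp hunit f h r cy hf hr hlc
  obtain ⟨κ, d, d', hd, hd', hdd⟩ := hrel
  obtain ⟨g, r₁, hr₁, hfg⟩ := hc
  obtain ⟨w, hw⟩ := hunitO e
  have hww : (1 + lam ^ p * e) * ((w⁻¹ : Oˣ) : O) = 1 := by rw [← hw]; exact Units.mul_inv w
  have hk : (1 + lam ^ p * κ) * ((w⁻¹ : Oˣ) : O) =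
      1 + lam ^ p * (κ * ((w⁻¹ : Oˣ) : O) - e * ((w⁻¹ : Oˣ) : O)) := by
    linear_combination hww
  have hwwK : algebraMap O K (1 + lam ^ p * e) * algebraMap O K ((w⁻¹ : Oˣ) : O) = 1 := by
    rw [← map_mul, hww, map_one]
  have hdp : d ^ p ≠ 0 := pow_ne_zero p hd
  have hDp : D ^ p ≠ 0 := pow_ne_zero p hD
  have key : algebraMap O K c * (d ^ p * D ^ p) =
      d' ^ p * (algebraMap O K (1 + lam ^ p * κ) * algebraMap O K ((w⁻¹ : Oˣ) : O)) := by
    linear_combination D ^ p * hdd + d' ^ p * algebraMap O K (1 + lam ^ p * κ) *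
      (algebraMap O K ((w⁻¹ : Oˣ) : O) * hDe - algebraMap O K cy * D ^ p * hwwK)
  have hcK : algebraMap O K c = (d' / (d * D)) ^ p *
      algebraMap O K (1 + lam ^ p * (κ * ((w⁻¹ : Oˣ) : O) - e * ((w⁻¹ : Oˣ) : O))) := by
    rw [← hk, map_mul, div_pow, mul_pow, div_mul_eq_mul_div, eq_div_iff (mul_ne_zero hdp hDp)]
    exact key
  have hcF : algebraMap O F c = algebraMap K F (d' / (d * D)) ^ p *
      algebraMap O F (1 + lam ^ p * (κ * ((w⁻¹ : Oˣ) : O) - e * ((w⁻¹ : Oˣ) : O))) := by
    rw [IsScalarTower.algebraMap_apply O K F c, hcK, map_mul, map_pow,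
      ← IsScalarTower.algebraMap_apply]
  refine ⟨algebraMap K F (d' / (d * D)) * g,
    algebraMap O F (κ * ((w⁻¹ : Oˣ) : O) - e * ((w⁻¹ : Oˣ) : O)) + r₁ +
      algebraMap O F lam ^ p *
        algebraMap O F (κ * ((w⁻¹ : Oˣ) : O) - e * ((w⁻¹ : Oˣ) : O)) * r₁, ?_, ?_⟩
  · exact V.add_mem (V.add_mem (hV _) hr₁)
      (V.mul_mem (V.mul_mem (V.pow_mem (hV _) _) (hV _)) hr₁)
  · rw [hfg, hcF, map_one, one_mul, map_add, map_one, map_mul, map_pow]
    ring

include hσO in
/-- The same with the point form and the comparison of constants in the vocabulary of `Top`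
(the output of `IsPointDatum.topc` at the cusp point, whose local ring `R` lies in the cusp
ring). -/
theorem depthIn_one_of_topc (hinj : Function.Injective (algebraMap O K)) (lam : O)
    (hlam : ¬ IsUnit lam) (p : ℕ) (hp : p ≠ 0)
    (V : Subring F) (hV : ∀ a : O, algebraMap O F a ∈ V)
    (R : Subring F) (hR : ∀ a : F, a ∈ R → a ∈ cuspRing O σ)
    (f : F) (cy c : O) (hpt : DepthIn R p lam p f cy) (hrel : ConstRel p lam p cy c)
    (hc : DepthIn V p lam p f c) (hlc : (σ f).leadingCoeff = 1) :
    DepthIn V p lam p f 1 := by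
  obtain ⟨h, r, hr, hf⟩ := hpt
  obtain ⟨κ, d, d', hd, hd', hdd⟩ := hrel
  refine depthIn_one_of_cusp σ hσO lam hlam p hp V hV f h r cy c hf (hR r hr)
    ⟨κ, algebraMap O K d, algebraMap O K d', ?_, ?_, ?_⟩ hc hlc
  · exact fun h0 => hd (hinj (by rw [h0, map_zero]))
  · exact fun h0 => hd' (hinj (by rw [h0, map_zero]))
  · rw [← map_pow, ← map_pow, ← map_mul, ← map_mul, ← map_mul, hdd]

end Depth

end Fermat.Agent.S33.Geo.ZCusp
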