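import Mathlib
import Fermat.Agent.S33.Geo.ZCusp
import Fermat.Agent.S33.Geo.ChartBranchModel

/-!
# S33 / GEO / C3: the degree-one point of a two-chart model at the cusp of an expansion

Level-free (Mathlib + `S33/Geo/ZCusp` + `S33/Geo/ChartBranchModel`).  helper256.

`O` a local ring, `K` a field over `O`, `F` a field over `O` with a "`q`-expansion"
`σ : F →+* K((q))`, `π : O` a non-unit, `u : F` the chart coordinate.  The hypothesis
`ChartBranchModel.DegOne π u y₀` of `ChartBranchModel.cover_model_of_deg` (a closed point of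
residue degree one, which gives (CONST0) on a root component) is supplied by the cusp of the
expansion:

* `hdeg_cuspIdeal` : the cusp point `ZCusp.cuspIdeal` of a chart has residue degree one: a
  chart element minus its value at the cusp (`ZCusp.chartEv`) lies in the cusp point (the
  binder `hdeg` of `ChartPoints.constAt_pt`, verbatim);
* `cuspPtInf`, `degOne_cuspPtInf` : when `u⁻¹` is regular at the cusp and vanishes there, the
  cusp point of the chart `u⁻¹` is a point of `ChartPoints.Pt π u` (over `u = ∞`) of residue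
  degree one;
* `cuspPtFin`, `degOne_cuspPtFin` : when `u` is regular at the cusp with value in `O`, the cusp
  point of the chart `u` is a point of `Pt π u` of residue degree one;
* `exists_degOne` : the existence form of the two.
-/

set_option autoImplicit false
set_option linter.unusedSectionVars false
set_option linter.unusedVariables false

namespace Fermat.Agent.S33.Geo.CuspDeg

open Fermat.Agent.S33.Geo.Top Fermat.Agent.S33.Geo.ZCusp Fermat.Agent.S33.Geo.ChartPoints
  Fermat.Agent.S33.Geo.ChartBranchModel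

universe u

variable {O K : Type*} {F : Type u} [CommRing O] [IsLocalRing O] [Field K] [Algebra O K]
  [Field F] [Algebra O F] (σ : F →+* LaurentSeries K)
  (hσO : ∀ a : O, σ (algebraMap O F a) = HahnSeries.C (algebraMap O K a))
  (hinj : Function.Injective (algebraMap O K))
  (hint : ∀ x : K, IsIntegral O x → x ∈ (algebraMap O K).range)

/-- **The cusp point of a chart has residue degree one**: a chart element minus its value at
the cusp lies in the cusp point. -/
theorem hdeg_cuspIdeal (s : F) (hs : s ∈ cuspRing O σ)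
    (a : integralClosure (Algebra.adjoin O ({s} : Set F)) F) :
    ∃ κ : O, ∃ m : integralClosure (Algebra.adjoin O ({s} : Set F)) F,
      m ∈ cuspIdeal σ hσO hinj hint s hs ∧ (a : F) - algebraMap O F κ = (m : F) := by
  refine ⟨chartEv σ hσO hinj hint s hs a,
    a - algebraMap O (integralClosure (Algebra.adjoin O ({s} : Set F)) F)
      (chartEv σ hσO hinj hint s hs a), ?_, rfl⟩
  rw [mem_cuspIdeal, map_sub,
    chartEv_of_eq σ hσO hinj hint s hs
      (algebraMap O (integralClosure (Algebra.adjoin O ({s} : Set F)) F)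
        (chartEv σ hσO hinj hint s hs a)) _ rfl, sub_self]
  exact not_isUnit_zero

/-- **The cusp point over `u = ∞`**, as a point of `ChartPoints.Pt π u`: `u⁻¹` is regular at the
cusp and vanishes there. -/
noncomputable def cuspPtInf (π : O) (hπ : ¬ IsUnit π) (u : F) (hs : u⁻¹ ∈ cuspRing O σ)
    (hs0 : (σ u⁻¹).coeff 0 = 0) : Pt π u :=
  Sum.inr ⟨cuspIdeal σ hσO hinj hint u⁻¹ hs, cuspIdeal_isMaximal σ hσO hinj hint u⁻¹ hs,
    unif_mem_cuspIdeal σ hσO hinj hint u⁻¹ hs π hπ _ rfl,
    fun t ht => coord_mem_cuspIdeal σ hσO hinj hint u⁻¹ hs hs0 t ht⟩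

theorem degOne_cuspPtInf (π : O) (hπ : ¬ IsUnit π) (u : F) (hs : u⁻¹ ∈ cuspRing O σ)
    (hs0 : (σ u⁻¹).coeff 0 = 0) :
    DegOne π u (cuspPtInf σ hσO hinj hint π hπ u hs hs0) :=
  fun a => hdeg_cuspIdeal σ hσO hinj hint u⁻¹ hs a

/-- **The cusp point of the chart `u`**, as a point of `ChartPoints.Pt π u`: `u` is regular at
the cusp with value in `O`. -/
noncomputable def cuspPtFin (π : O) (hπ : ¬ IsUnit π) (u : F) (hs : u ∈ cuspRing O σ) : Pt π u :=
  Sum.inl ⟨cuspIdeal σ hσO hinj hint u hs, cuspIdeal_isMaximal σ hσO hinj hint u hs,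
    unif_mem_cuspIdeal σ hσO hinj hint u hs π hπ _ rfl⟩

theorem degOne_cuspPtFin (π : O) (hπ : ¬ IsUnit π) (u : F) (hs : u ∈ cuspRing O σ) :
    DegOne π u (cuspPtFin σ hσO hinj hint π hπ u hs) :=
  fun a => hdeg_cuspIdeal σ hσO hinj hint u hs a

include hσO hinj hint in
/-- **Existence form**: a point of `Pt π u` of residue degree one, from the cusp of the
expansion, when `u⁻¹` vanishes at the cusp or `u` is regular there with value in `O`. -/
theorem exists_degOne (π : O) (hπ : ¬ IsUnit π) (u : F)
    (h : (u⁻¹ ∈ cuspRing O σ ∧ (σ u⁻¹).coeff 0 = 0) ∨ u ∈ cuspRing O σ) :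
    ∃ y : Pt π u, DegOne π u y := by
  rcases h with ⟨hs, hs0⟩ | hs
  · exact ⟨_, degOne_cuspPtInf σ hσO hinj hint π hπ u hs hs0⟩
  · exact ⟨_, degOne_cuspPtFin σ hσO hinj hint π hπ u hs⟩

end Fermat.Agent.S33.Geo.CuspDeg
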