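import Mathlib
import Fermat.Agent.S33.Geo.CoverBlocks
import Fermat.Agent.S33.Geo.ChartBranchModel
import Fermat.Agent.S33.Geo.CuspDeg

/-!
# S33 / GEO / C3: the model of a finite cover unramified in codimension one

Level-free (Mathlib + `S33/Geo/{CoverBlocks, ChartBranchModel, CuspDeg}`).  The statement of
record of row C3 (assembly: helper256; `cover_model` is the one call typed by helper76 on his
`ChartBranchModel.cover_model_of_deg` and helper134's `CoverBlocks.blocks_above`).

`O` a discrete valuation ring with uniformiser `ϖ`, `F` a field over `O` carrying a model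
(`Model.IsModel`) whose points cover the fibre of the two charts of `u` (cusp form) and whose
generic rings contain `u`, `u⁻¹`; `L / F` a finite separable extension satisfying the
discriminant hypothesis at every block presentation (`CoverBlocks.DiscrAt`), with no new
constants (`hOL`), finite chart (`Module.Finite`) and one closed point of residue degree one.
Then the two charts of `L` (coordinate `u' :=` the image of `u`) carry a model:

* components: the generic rings of the two charts of `L` (`ChartBranch.IsGen ϖ u'`),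
  `V' := Subtype.val`;
* points: `ChartPoints.Pt ϖ u'`, local rings `ptR`, incidence `ptOn`;

its points cover the fibre (cusp form), and every component of `L` lies over a component of `F`.

* `cover_model` : the statement with the point of residue degree one as a hypothesis
  (`ChartBranchModel.DegOne`);
* `cover_model_cusp` : the same with the point supplied by the cusp of an expansion
  `σ : L →+* K((q))` (`CuspDeg.exists_degOne`);
* `cover_model_exit` : at `ϖ = p`, in the binder form of the exit
  `ModelExitC.model_exit_cusp`: the model, the cover, (β) "every component of `L` lies over a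
  component of `F`", and (γ) the two reducedness binders `hred0`, `hredinf` of the exit;
* `alpha` : (α) every component of `L` is a discrete valuation ring with uniformiser `ϖ`
  (`BranchDvr.IsPiDvr`, `BranchPin.IsDisc`, and the four binders of `Orth.depthIn_form`).
-/

set_option autoImplicit false
set_option linter.unusedSectionVars false
set_option linter.unusedVariables false

namespace Fermat.Agent.S33.Geo.CoverModel

open IsLocalRing
open Fermat.Agent.S33.Geo.Top Fermat.Agent.S33.Geo.TopLocal Fermat.Agent.S33.Geo.Model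
  Fermat.Agent.S33.Geo.ChartBranch Fermat.Agent.S33.Geo.ChartPoints
  Fermat.Agent.S33.Geo.ChartBranchModel Fermat.Agent.S33.Geo.CoverBlocks
  Fermat.Agent.S33.Geo.BranchDvr Fermat.Agent.S33.Geo.BranchPin

universe u w

variable {O : Type*} [CommRing O] [IsDomain O] [IsDiscreteValuationRing O]
  {F : Type u} [Field F] [Algebra O F]
  {L : Type w} [Field L] [Algebra F L] [Algebra O L] [IsScalarTower O F L]
  [FiniteDimensional F L] [Algebra.IsSeparable F L]
  {p : ℕ} {ϖ : O} {ι Y : Type*} {V : ι → Subring F} {R : Y → Subring F}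
  {On : Y → ι → Prop} {Hor : F → Prop}

/-- **C3: the model of the cover.** -/
theorem cover_model (D : IsModel p ϖ V R On Hor) (hϖ : Irreducible ϖ) (u : F) (hu : u ≠ 0)
    (hcov : CoversCusp ϖ u R) (hVu : ∀ W, u ∈ V W ∧ u⁻¹ ∈ V W)
    (hinj : Function.Injective (algebraMap O L))
    (hOL : ∀ x : L, IsIntegral O x → ∃ a : O, algebraMap O L a = x)
    [Module.Finite (Algebra.adjoin O ({algebraMap F L u} : Set L))
      (integralClosure (Algebra.adjoin O ({algebraMap F L u} : Set L)) L)]
    (Hor' : L → Prop)
    (hHor : ∀ (A' : Type w) [CommRing A'] [IsDomain A'] [IsNoetherianRing A'] [Algebra O A']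
      [Algebra A' L] [IsFractionRing A' L] [IsScalarTower O A' L] (f : L),
      Hor' f → HorAt p ϖ A' f)
    (hN : ∀ (A : Type u) [CommRing A] [IsDomain A] [IsLocalRing A] [IsNoetherianRing A]
      [Algebra O A] [Algebra A F] [IsFractionRing A F] [IsScalarTower O A F] [Algebra A L]
      [IsScalarTower A F L] (y : Y) (W₁ W₂ : ι) (s t : A), (algebraMap A F).range = R y →
      Prime s → Prime t → ¬ Associated s t → maximalIdeal A = Ideal.span {s, t} →
      Associated (s * t) (algebraMap O A ϖ) → IsBranch s (V W₁) → IsBranch t (V W₂) →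
      DiscrAt A L)
    (hS : ∀ (A : Type u) [CommRing A] [IsDomain A] [IsLocalRing A] [IsNoetherianRing A]
      [Algebra O A] [Algebra A F] [IsFractionRing A F] [IsScalarTower O A F] [Algebra A L]
      [IsScalarTower A F L] (y : Y) (W₁ : ι) (z : A), (algebraMap A F).range = R y →
      Prime (algebraMap O A ϖ) → maximalIdeal A = Ideal.span {algebraMap O A ϖ, z} →
      IsBranch (algebraMap O A ϖ) (V W₁) → DiscrAt A L)
    (y₀ : Pt ϖ (algebraMap F L u)) (hdeg : DegOne ϖ (algebraMap F L u) y₀) :
    IsModel p ϖ (Subtype.val : {W' : Subring L // IsGen ϖ (algebraMap F L u) W'} → Subring L)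
        (ptR ϖ (algebraMap F L u))
        (ptOn ϖ (algebraMap F L u)
          (Subtype.val : {W' : Subring L // IsGen ϖ (algebraMap F L u) W'} → Subring L)) Hor' ∧
      CoversCusp ϖ (algebraMap F L u) (ptR ϖ (algebraMap F L u)) ∧
      ∀ W' : {W' : Subring L // IsGen ϖ (algebraMap F L u) W'},
        ∃ W : ι, ∀ f : F, algebraMap F L f ∈ (W' : Subring L) ↔ f ∈ V W :=
  cover_model_of_deg p ϖ hϖ V u hu hVu hinj hOL Hor'
    (blocks_above D u hcov Hor' hHor hN hS) y₀ hdeg

/-- **C3 with the point of residue degree one at the cusp of an expansion** `σ : L →+* K((q))`: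
`u'⁻¹` vanishes at the cusp, or `u'` is regular there with value in `O`. -/
theorem cover_model_cusp (D : IsModel p ϖ V R On Hor) (hϖ : Irreducible ϖ) (u : F) (hu : u ≠ 0)
    (hcov : CoversCusp ϖ u R) (hVu : ∀ W, u ∈ V W ∧ u⁻¹ ∈ V W)
    (hinj : Function.Injective (algebraMap O L))
    (hOL : ∀ x : L, IsIntegral O x → ∃ a : O, algebraMap O L a = x)
    [Module.Finite (Algebra.adjoin O ({algebraMap F L u} : Set L))
      (integralClosure (Algebra.adjoin O ({algebraMap F L u} : Set L)) L)]
    (Hor' : L → Prop)
    (hHor : ∀ (A' : Type w) [CommRing A'] [IsDomain A'] [IsNoetherianRing A'] [Algebra O A']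
      [Algebra A' L] [IsFractionRing A' L] [IsScalarTower O A' L] (f : L),
      Hor' f → HorAt p ϖ A' f)
    (hN : ∀ (A : Type u) [CommRing A] [IsDomain A] [IsLocalRing A] [IsNoetherianRing A]
      [Algebra O A] [Algebra A F] [IsFractionRing A F] [IsScalarTower O A F] [Algebra A L]
      [IsScalarTower A F L] (y : Y) (W₁ W₂ : ι) (s t : A), (algebraMap A F).range = R y →
      Prime s → Prime t → ¬ Associated s t → maximalIdeal A = Ideal.span {s, t} →
      Associated (s * t) (algebraMap O A ϖ) → IsBranch s (V W₁) → IsBranch t (V W₂) →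
      DiscrAt A L)
    (hS : ∀ (A : Type u) [CommRing A] [IsDomain A] [IsLocalRing A] [IsNoetherianRing A]
      [Algebra O A] [Algebra A F] [IsFractionRing A F] [IsScalarTower O A F] [Algebra A L]
      [IsScalarTower A F L] (y : Y) (W₁ : ι) (z : A), (algebraMap A F).range = R y →
      Prime (algebraMap O A ϖ) → maximalIdeal A = Ideal.span {algebraMap O A ϖ, z} →
      IsBranch (algebraMap O A ϖ) (V W₁) → DiscrAt A L)
    {K : Type*} [Field K] [Algebra O K] (σ : L →+* LaurentSeries K)
    (hσO : ∀ a : O, σ (algebraMap O L a) = HahnSeries.C (algebraMap O K a))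
    (hinjK : Function.Injective (algebraMap O K))
    (hint : ∀ x : K, IsIntegral O x → x ∈ (algebraMap O K).range)
    (hcusp : ((algebraMap F L u)⁻¹ ∈ ZCusp.cuspRing O σ ∧
        (σ (algebraMap F L u)⁻¹).coeff 0 = 0) ∨ algebraMap F L u ∈ ZCusp.cuspRing O σ) :
    IsModel p ϖ (Subtype.val : {W' : Subring L // IsGen ϖ (algebraMap F L u) W'} → Subring L)
        (ptR ϖ (algebraMap F L u))
        (ptOn ϖ (algebraMap F L u)
          (Subtype.val : {W' : Subring L // IsGen ϖ (algebraMap F L u) W'} → Subring L)) Hor' ∧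
      CoversCusp ϖ (algebraMap F L u) (ptR ϖ (algebraMap F L u)) ∧
      ∀ W' : {W' : Subring L // IsGen ϖ (algebraMap F L u) W'},
        ∃ W : ι, ∀ f : F, algebraMap F L f ∈ (W' : Subring L) ↔ f ∈ V W := by
  obtain ⟨y₀, hdeg⟩ := CuspDeg.exists_degOne σ hσO hinjK hint ϖ hϖ.not_isUnit
    (algebraMap F L u) hcusp
  exact cover_model D hϖ u hu hcov hVu hinj hOL Hor' hHor hN hS y₀ hdeg

/-- **C3 at `ϖ = p`, in the binder form of the exit `ModelExitC.model_exit_cusp`**: the model
of the cover, the cover of its fibre (cusp form), (β) every component of `L` lies over a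
component of `F`, and (γ) the reducedness binders `hred0`, `hredinf` of the exit. -/
theorem cover_model_exit (D : IsModel p (p : O) V R On Hor) (hϖ : Irreducible (p : O)) (u : F)
    (hu : u ≠ 0) (hcov : CoversCusp (p : O) u R) (hVu : ∀ W, u ∈ V W ∧ u⁻¹ ∈ V W)
    (hinj : Function.Injective (algebraMap O L))
    (hOL : ∀ x : L, IsIntegral O x → ∃ a : O, algebraMap O L a = x)
    [Module.Finite (Algebra.adjoin O ({algebraMap F L u} : Set L))
      (integralClosure (Algebra.adjoin O ({algebraMap F L u} : Set L)) L)]
    (Hor' : L → Prop)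
    (hHor : ∀ (A' : Type w) [CommRing A'] [IsDomain A'] [IsNoetherianRing A'] [Algebra O A']
      [Algebra A' L] [IsFractionRing A' L] [IsScalarTower O A' L] (f : L),
      Hor' f → HorAt p (p : O) A' f)
    (hN : ∀ (A : Type u) [CommRing A] [IsDomain A] [IsLocalRing A] [IsNoetherianRing A]
      [Algebra O A] [Algebra A F] [IsFractionRing A F] [IsScalarTower O A F] [Algebra A L]
      [IsScalarTower A F L] (y : Y) (W₁ W₂ : ι) (s t : A), (algebraMap A F).range = R y →
      Prime s → Prime t → ¬ Associated s t → maximalIdeal A = Ideal.span {s, t} →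
      Associated (s * t) (algebraMap O A (p : O)) → IsBranch s (V W₁) → IsBranch t (V W₂) →
      DiscrAt A L)
    (hS : ∀ (A : Type u) [CommRing A] [IsDomain A] [IsLocalRing A] [IsNoetherianRing A]
      [Algebra O A] [Algebra A F] [IsFractionRing A F] [IsScalarTower O A F] [Algebra A L]
      [IsScalarTower A F L] (y : Y) (W₁ : ι) (z : A), (algebraMap A F).range = R y →
      Prime (algebraMap O A (p : O)) →
      maximalIdeal A = Ideal.span {algebraMap O A (p : O), z} →
      IsBranch (algebraMap O A (p : O)) (V W₁) → DiscrAt A L)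
    (y₀ : Pt (p : O) (algebraMap F L u)) (hdeg : DegOne (p : O) (algebraMap F L u) y₀) :
    IsModel p (p : O)
        (Subtype.val : {W' : Subring L // IsGen (p : O) (algebraMap F L u) W'} → Subring L)
        (ptR (p : O) (algebraMap F L u))
        (ptOn (p : O) (algebraMap F L u)
          (Subtype.val : {W' : Subring L // IsGen (p : O) (algebraMap F L u) W'} → Subring L))
        Hor' ∧
      CoversCusp (p : O) (algebraMap F L u) (ptR (p : O) (algebraMap F L u)) ∧
      (∀ W' : {W' : Subring L // IsGen (p : O) (algebraMap F L u) W'},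
        ∃ W : ι, ∀ f : F, algebraMap F L f ∈ (W' : Subring L) ↔ f ∈ V W) ∧
      (∀ x : L, IsIntegral (Algebra.adjoin O ({algebraMap F L u} : Set L)) x →
        IsIntegral (Algebra.adjoin O ({algebraMap F L u} : Set L)) (x ^ p / (p : L)) →
        IsIntegral (Algebra.adjoin O ({algebraMap F L u} : Set L)) (x / (p : L))) ∧
      (∀ x : L, IsIntegral (Algebra.adjoin O ({(algebraMap F L u)⁻¹} : Set L)) x →
        IsIntegral (Algebra.adjoin O ({(algebraMap F L u)⁻¹} : Set L)) (x ^ p / (p : L)) →
        IsIntegral (Algebra.adjoin O ({(algebraMap F L u)⁻¹} : Set L)) (x / (p : L))) := by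
  have hu' : algebraMap F L u ≠ 0 := (map_ne_zero (algebraMap F L)).mpr hu
  have hp0 : (p : L) ≠ 0 := by
    intro h
    apply hϖ.ne_zero
    apply hinj
    rw [map_natCast, map_zero]
    exact h
  have hblk := blockU_of_above p (p : O) V u hVu Hor' (blocks_above D u hcov Hor' hHor hN hS)
  obtain ⟨h1, h2, h3⟩ := cover_model D hϖ u hu hcov hVu hinj hOL Hor' hHor hN hS y₀ hdeg
  exact ⟨h1, h2, h3, hred0_natCast p hp0 hu' Hor' hblk, hred1_natCast p hp0 hu' Hor' hblk⟩

omit [IsDomain O] [IsDiscreteValuationRing O] [FiniteDimensional F L]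
  [Algebra.IsSeparable F L] [IsScalarTower O F L] in
/-- **(α)**: every component of the model of the cover is a discrete valuation ring of `L` with
uniformiser `ϖ`: `BranchDvr.IsPiDvr`, `BranchPin.IsDisc` and the four binders of
`Orth.depthIn_form`. -/
theorem alpha {u' : L} (W' : {W' : Subring L // IsGen ϖ u' W'}) :
    IsPiDvr ϖ (W' : Subring L) ∧ IsDisc ϖ (W' : Subring L) ∧
      (∀ x : L, x ∈ (W' : Subring L) ∨ x⁻¹ ∈ (W' : Subring L)) ∧
      algebraMap O L ϖ ∈ (W' : Subring L) ∧ (algebraMap O L ϖ)⁻¹ ∉ (W' : Subring L) ∧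
      ∀ a : L, a ≠ 0 → ∃ (n : ℤ) (w : L), w ∈ (W' : Subring L) ∧ w⁻¹ ∈ (W' : Subring L) ∧
        a = algebraMap O L ϖ ^ n * w :=
  ⟨W'.2.dvr, W'.2.unif, (ChartBranchModel.alpha W'.2).1, (ChartBranchModel.alpha W'.2).2.1,
    (ChartBranchModel.alpha W'.2).2.2.1, (ChartBranchModel.alpha W'.2).2.2.2⟩

end Fermat.Agent.S33.Geo.CoverModel
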