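import Mathlib
import Fermat.Agent.S30.Model.ChartProv

/-!
# S33 / GEO / Stage B: the finiteness binder `hfin` of the level-free exits, generic form

Level-free (Mathlib + `S30/Model/ChartProv`).

The exits `TopExit.pow_or_const_of_powAt`, `ModelExit.model_exit`, `ModelExitI.modelI_exit`,
`ModelExitC.model_exit_cusp` take, for an extension `Ω` of the function field `F`, the binder

  `hfin : ∀ L : IntermediateField F Ω, FiniteDimensional F L →
      Module.Finite (Algebra.adjoin O {algebraMap F L u})
        (integralClosure (Algebra.adjoin O {algebraMap F L u}) L)`.

It holds for every function field `F` finite over `k(u)` (`k = Frac O` of characteristic zero,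
`O` a discrete valuation ring, `u` transcendental over `k`): this is the landed
`S30/Model/ChartProv.chart_finite` at the finite subextensions of `Ω / F`.

* `finiteDimensional_adjoin_map` : `F / k(u)` finite and `L / F` finite ⟹ `L / k(u)` finite
  (with `u` read in `L`).
* `hfin_of_finite` : the binder `hfin`, for every `Ω`.
* `finiteDimensional_adjoin_of_tower` : the hypothesis `FiniteDimensional k(u) F` passes to a
  finite extension `F'` of `F` (the cover).
-/

set_option autoImplicit false

namespace Fermat.Agent.S33.Geo.ChartFin

open Fermat.Agent.S30.Model

section Tower

variable {k F L : Type*} [Field k] [Field F] [Algebra k F] [Field L] [Algebra F L] [Algebra k L]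
  [IsScalarTower k F L]

/-- `F / k(u)` finite and `L / F` finite ⟹ `L / k(u)` finite, `u` read in `L`. -/
theorem finiteDimensional_adjoin_map (u : F)
    [FiniteDimensional (IntermediateField.adjoin k ({u} : Set F)) F] [FiniteDimensional F L] :
    FiniteDimensional (IntermediateField.adjoin k ({algebraMap F L u} : Set L)) L := by
  set K : IntermediateField k F := IntermediateField.adjoin k {u} with hK
  set φ : F →ₐ[k] L := IsScalarTower.toAlgHom k F L with hφ
  have hKmap : IntermediateField.adjoin k ({algebraMap F L u} : Set L) = K.map φ := by
    rw [hK, IntermediateField.adjoin_map, Set.image_singleton]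
    rfl
  have : Module.Finite K L := Module.Finite.trans F L
  have hfd : FiniteDimensional (K.map φ) L :=
    Module.Finite.of_equiv_equiv (K.equivMap φ).toRingEquiv (RingEquiv.refl L)
      (RingHom.ext fun _ => rfl)
  rw [hKmap]
  exact hfd

end Tower

section Hfin

variable {O k F Ω : Type*} [CommRing O] [IsDomain O] [IsDiscreteValuationRing O]
  [Field k] [Algebra O k] [IsFractionRing O k] [CharZero k]
  [Field F] [Algebra O F] [Algebra k F]
  [Field Ω] [Algebra F Ω] [Algebra O Ω] [IsScalarTower O F Ω] [Algebra k Ω]
  [IsScalarTower k F Ω] [IsScalarTower O k Ω]

/-- **The binder `hfin` of the level-free exits.**  `O` a discrete valuation ring, `k = Frac O`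
of characteristic zero, `F / k(u)` finite with `u` transcendental over `k`: for every extension
`Ω` of `F` and every finite subextension `L` of `Ω / F`, the integral closure of `O[u]` in `L`
is a finite `O[u]`-module. -/
theorem hfin_of_finite (u : F) (hu : Transcendental k u)
    [FiniteDimensional (IntermediateField.adjoin k ({u} : Set F)) F] :
    ∀ L : IntermediateField F Ω, FiniteDimensional F L →
      Module.Finite (Algebra.adjoin O ({algebraMap F L u} : Set L))
        (integralClosure (Algebra.adjoin O ({algebraMap F L u} : Set L)) L) := by
  intro L hL
  have : IsScalarTower O k L := IsScalarTower.of_algebraMap_eq (fun a => by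
    apply Subtype.ext
    exact IsScalarTower.algebraMap_apply O k Ω a)
  have hU' : Transcendental k (algebraMap F L u) :=
    (transcendental_algebraMap_iff (algebraMap F L).injective).mpr hu
  have : FiniteDimensional (IntermediateField.adjoin k ({algebraMap F L u} : Set L)) L :=
    finiteDimensional_adjoin_map (k := k) (F := F) (L := L) u
  exact ChartProv.chart_finite (O := O) (E := k) (algebraMap F L u) hU'

end Hfin

section Cover

variable {k F F' : Type*} [Field k] [Field F] [Algebra k F] [Field F'] [Algebra F F']
  [Algebra k F'] [IsScalarTower k F F']

/-- The hypothesis `FiniteDimensional k(u) F` of `hfin_of_finite` passes to a finite extension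
`F'` of `F`, and so does transcendence of `u`. -/
theorem finiteDimensional_adjoin_of_tower (u : F)
    [FiniteDimensional (IntermediateField.adjoin k ({u} : Set F)) F] [FiniteDimensional F F'] :
    FiniteDimensional (IntermediateField.adjoin k ({algebraMap F F' u} : Set F')) F' :=
  finiteDimensional_adjoin_map (k := k) (F := F) (L := F') u

theorem transcendental_of_tower (u : F) (hu : Transcendental k u) :
    Transcendental k (algebraMap F F' u) :=
  (transcendental_algebraMap_iff (algebraMap F F').injective).mpr hu

end Cover

end Fermat.Agent.S33.Geo.ChartFin
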