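/-
S33 (ordinary at `p ∥ N`), strand GEO, Stage B, row C1-E, second hand (helper257): the exits
(c) `hconst` and (d) `hgen` of the cover field.

Objects: `S33/Geo/CoverFieldDefs` (`K ⊆ ℚ̄`, `K₁ = cyclo K ζ`, `F = LE N K`, `F₁ = LE N K₁`,
`L1 = F₁(T_i) ⊆ K₁((q))`, `L0 = L1 ∩ K((q))`).

* `hconst` (c) : `K` is algebraically closed in the cover field `L0` (no hypothesis: `L0` lies
  in `K((q))`, `S37/ConstLemma.laurent_eq_C_of_isIntegral`).  `hconst_sub` is the level-free
  form, for any subfield of `k((q))` (any field `k`).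
* `sup_eq_adjoin` : the join `L0 · F₁` of the subfields of `K₁((q))` is the field `F₁(L0)`.
* `hgen_of_adjoin_image` (d) : if `F₁(L0) = L1` (exit (b), image form), every generator `T i`
  lies in `L0 · F₁` - the binder `hgen` of `S33/Geo/CoverDescent.mem_sup_of_coeff_mem`, verbatim.
* `hgen_of_adjoin_emb` (d) : the same from exit (b) in the form `F₁(range emb) = ⊤`.
* `adjoin_image_eq_L1_iff_hgen`, `adjoin_range_emb_eq_top_iff` : the three spellings of
  `L0 · F₁ = L1` are equivalent.
-/
import Mathlib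
import Fermat.Agent.S33.Geo.CoverFieldDefs
import Fermat.Agent.S37.ConstLemma

set_option autoImplicit false
set_option linter.unusedSectionVars false

open ModularCurve

noncomputable section

namespace Fermat.Agent.S33.Geo.CoverFieldExits

open Fermat.Agent.S18.K1Defs Fermat.Agent.S18.K1Top Fermat.Agent.S36.CycloBase
open Fermat.Agent.S33.Geo.CoverFieldDefs

local notation "Qb" => AlgebraicClosure ℚ

/-! ### (c) No new constants -/

section Const

variable {k : Type*} [Field k]

/-- **No new constants, level-free.**  `F ⊆ L ⊆ k((q))` fields containing the constants: an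
element of `L` algebraic over `k` is a constant. -/
theorem hconst_sub (F : IntermediateField k (LaurentSeries k))
    (L : IntermediateField F (LaurentSeries k)) (x : L) (hx : IsAlgebraic k x) :
    x ∈ (algebraMap k L).range := by
  have : @IsScalarTower k L (LaurentSeries k) Algebra.toSMul Algebra.toSMul Algebra.toSMul :=
    IsScalarTower.of_algebraMap_eq (R := k) (S := L) (A := LaurentSeries k) (fun _ => rfl)
  have hx' : IsAlgebraic k (x : LaurentSeries k) := hx.algebraMap (A := LaurentSeries k)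
  obtain ⟨c, hc⟩ := Fermat.Agent.S37.ConstLemma.laurent_eq_C_of_isIntegral
    (x : LaurentSeries k) hx'.isIntegral
  refine ⟨c, Subtype.ext ?_⟩
  rw [← hc, ← LaurentSeries.algebraMap_apply]
  rfl

/-- An element of `k((q))` algebraic over `k` is a constant (`algebraMap` form). -/
theorem exists_algebraMap_eq_of_isAlgebraic (x : LaurentSeries k) (hx : IsAlgebraic k x) :
    ∃ c : k, algebraMap k (LaurentSeries k) c = x := by
  obtain ⟨c, hc⟩ := Fermat.Agent.S37.ConstLemma.laurent_eq_C_of_isIntegral x hx.isIntegral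
  exact ⟨c, by rw [← hc, LaurentSeries.algebraMap_apply]⟩

end Const

section Cover

variable (N : ℕ) (K : IntermediateField ℚ Qb) (ζ : Qb) {ι : Type*}
  (T : ι → LaurentSeries (cyclo K ζ))

/-- **(c) `hconst`**: `K` is algebraically closed in the cover field `L0 = F₁(T_i) ∩ K((q))`. -/
theorem hconst (x : L0 N K ζ T) (hx : IsAlgebraic K x) :
    x ∈ (algebraMap K (L0 N K ζ T)).range :=
  hconst_sub (LE N K) (L0 N K ζ T) x hx

/-! ### (d) The generators lie in `L0 · F₁` -/

/-- The join `L0 · F₁` of the subfields of `K₁((q))` is the field `F₁(L0)`. -/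
theorem sup_eq_adjoin :
    (L0 N K ζ T).toSubfield.map (inclLS K ζ) ⊔ (LE N (cyclo K ζ)).toSubfield
      = (IntermediateField.adjoin (LE N (cyclo K ζ))
          (⇑(inclLS K ζ) '' (L0 N K ζ T : Set (LaurentSeries K)))).toSubfield := by
  apply le_antisymm
  · refine sup_le (fun t ht => ?_) (fun t ht => ?_)
    · obtain ⟨y, hy, rfl⟩ := Subfield.mem_map.mp ht
      exact IntermediateField.subset_adjoin _ _ ⟨y, hy, rfl⟩
    · exact IntermediateField.algebraMap_mem _ (⟨t, ht⟩ : LE N (cyclo K ζ))
  · let R : IntermediateField (LE N (cyclo K ζ)) (LaurentSeries (cyclo K ζ)) :=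
      ((L0 N K ζ T).toSubfield.map (inclLS K ζ) ⊔
        (LE N (cyclo K ζ)).toSubfield).toIntermediateField
        (fun y => (le_sup_right : (LE N (cyclo K ζ)).toSubfield ≤ _) y.2)
    have hle : IntermediateField.adjoin (LE N (cyclo K ζ))
        (⇑(inclLS K ζ) '' (L0 N K ζ T : Set (LaurentSeries K))) ≤ R := by
      refine IntermediateField.adjoin_le_iff.mpr ?_
      rintro _ ⟨y, hy, rfl⟩
      exact (le_sup_left : (L0 N K ζ T).toSubfield.map (inclLS K ζ) ≤ _)
        (Subfield.mem_map.mpr ⟨y, hy, rfl⟩)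
    exact fun t ht => hle ht

/-- `F₁(L0) ⊆ L1`, always. -/
theorem adjoin_image_le :
    IntermediateField.adjoin (LE N (cyclo K ζ))
      (⇑(inclLS K ζ) '' (L0 N K ζ T : Set (LaurentSeries K))) ≤ L1 N K ζ T := by
  refine IntermediateField.adjoin_le_iff.mpr ?_
  rintro _ ⟨y, hy, rfl⟩
  exact hy

/-- **(d) `hgen`, from exit (b) in image form**: if `F₁(L0) = L1`, every generator `T i` of the
top field lies in `L0 · F₁`. -/
theorem hgen_of_adjoin_image
    (hb : IntermediateField.adjoin (LE N (cyclo K ζ))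
      (⇑(inclLS K ζ) '' (L0 N K ζ T : Set (LaurentSeries K))) = L1 N K ζ T) (i : ι) :
    T i ∈ (L0 N K ζ T).toSubfield.map (inclLS K ζ) ⊔ (LE N (cyclo K ζ)).toSubfield := by
  rw [sup_eq_adjoin, hb]
  exact T_mem_L1 N K ζ T i

/-- `L0 · F₁ = L1` in the image form follows from `hgen`. -/
theorem adjoin_image_eq_L1_of_hgen
    (hgen : ∀ i, T i ∈ (L0 N K ζ T).toSubfield.map (inclLS K ζ) ⊔
      (LE N (cyclo K ζ)).toSubfield) :
    IntermediateField.adjoin (LE N (cyclo K ζ))
      (⇑(inclLS K ζ) '' (L0 N K ζ T : Set (LaurentSeries K))) = L1 N K ζ T := by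
  refine le_antisymm (adjoin_image_le N K ζ T) ?_
  refine IntermediateField.adjoin_le_iff.mpr ?_
  rintro _ ⟨i, rfl⟩
  have h := hgen i
  rw [sup_eq_adjoin] at h
  exact h

/-- The image form of `L0 · F₁ = L1` is equivalent to `hgen`. -/
theorem adjoin_image_eq_L1_iff_hgen :
    IntermediateField.adjoin (LE N (cyclo K ζ))
      (⇑(inclLS K ζ) '' (L0 N K ζ T : Set (LaurentSeries K))) = L1 N K ζ T ↔
    ∀ i, T i ∈ (L0 N K ζ T).toSubfield.map (inclLS K ζ) ⊔ (LE N (cyclo K ζ)).toSubfield :=
  ⟨fun hb i => hgen_of_adjoin_image N K ζ T hb i, adjoin_image_eq_L1_of_hgen N K ζ T⟩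

/-- The two spellings of exit (b): `F₁(range emb) = ⊤` inside `L1` and `F₁(L0) = L1` inside
`K₁((q))`. -/
theorem adjoin_range_emb_eq_top_iff :
    IntermediateField.adjoin (LE N (cyclo K ζ)) (Set.range (emb N K ζ T)) = ⊤ ↔
    IntermediateField.adjoin (LE N (cyclo K ζ))
      (⇑(inclLS K ζ) '' (L0 N K ζ T : Set (LaurentSeries K))) = L1 N K ζ T := by
  have himg : (Subtype.val : L1 N K ζ T → LaurentSeries (cyclo K ζ)) '' Set.range (emb N K ζ T)
      = ⇑(inclLS K ζ) '' (L0 N K ζ T : Set (LaurentSeries K)) := by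
    ext x
    constructor
    · rintro ⟨_, ⟨y, rfl⟩, rfl⟩
      exact ⟨(y : LaurentSeries K), y.2, rfl⟩
    · rintro ⟨y, hy, rfl⟩
      exact ⟨emb N K ζ T ⟨y, hy⟩, ⟨⟨y, hy⟩, rfl⟩, rfl⟩
  have hlift : IntermediateField.lift
      (IntermediateField.adjoin (LE N (cyclo K ζ)) (Set.range (emb N K ζ T)))
      = IntermediateField.adjoin (LE N (cyclo K ζ))
          (⇑(inclLS K ζ) '' (L0 N K ζ T : Set (LaurentSeries K))) := by
    rw [IntermediateField.lift_adjoin]
    exact congrArg _ himg
  constructor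
  · intro h
    rw [← hlift, h, IntermediateField.lift_top]
  · intro h
    apply IntermediateField.lift_injective (L1 N K ζ T)
    rw [hlift, h, IntermediateField.lift_top]

/-- **(d) `hgen`, from exit (b) in the `emb` form**: if the image of `emb : L0 → L1` generates
`L1` over `F₁`, every generator `T i` of the top field lies in `L0 · F₁`. -/
theorem hgen_of_adjoin_emb
    (hb : IntermediateField.adjoin (LE N (cyclo K ζ)) (Set.range (emb N K ζ T)) = ⊤) (i : ι) :
    T i ∈ (L0 N K ζ T).toSubfield.map (inclLS K ζ) ⊔ (LE N (cyclo K ζ)).toSubfield :=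
  hgen_of_adjoin_image N K ζ T ((adjoin_range_emb_eq_top_iff N K ζ T).mp hb) i

end Cover

end Fermat.Agent.S33.Geo.CoverFieldExits
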