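import Mathlib
import Fermat.Prelude.Def_AlgebraicCurve_DivisorClassGroup
import Fermat.Agent.Lib.PlaceRes
import Fermat.Agent.S33.Geo.TopLocal

/-!
# S33 / GEO / C3h: the horizontal clause of a model block from divisibility at the places

Level-free.  `O` a discrete valuation ring, `E = Frac O`, `A` a noetherian domain over `O` with
fraction field `F` (a local ring of a model, downstairs or on a cover), `F` a field over `E`.

A prime element `q` of `A` which does not divide the image of a non-unit `ϖ` of `O` (a horizontal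
prime) defines a place of `F / E`: the localisation of `A` at `(q)` inside `F` is a discrete
valuation ring with uniformiser `q`, and it contains `E` because every nonzero element of `O`
divides a power of `ϖ` up to a unit.

* `exists_zpow_mul_div` : every nonzero `x ∈ F` is `q ^ k * a / b` with `q ∤ a`, `q ∤ b`;
* `branchSubring q hq` : the localisation of `A` at `(q)` as a valuation subring of `F`;
* `placeOfPrime` : the same as a `Place E F`, and `ord_placeOfPrime` (orders of `q ^ k * a / b`);
* `horAt_of_places` : **the intrinsic horizontal hypothesis**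
  `∀ P : Place E F, (p : ℤ) ∣ P.ord f` implies `TopLocal.HorAt p ϖ A f` (the element form of the
  horizontal clause of `Node.node_lemma` / `HDCore.hd_node` / the model blocks);
* `horAt_of_places'` : the same in the shape of the block clause `∀ f, Hor f → HorAt p ϖ A f` for
  `Hor f := ∀ P : Place E F, (p : ℤ) ∣ P.ord f`.
-/

set_option autoImplicit false

namespace Fermat.Agent.S33.Geo.HorPlace

open AlgebraicCurve

section Branch

variable {A : Type*} [CommRing A] [IsDomain A] [IsNoetherianRing A]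
  {F : Type*} [Field F] [Algebra A F] [IsFractionRing A F]

omit [IsDomain A] [IsNoetherianRing A] in
/-- A prime element does not divide `1`. -/
theorem not_dvd_one {q : A} (hq : Prime q) : ¬ q ∣ 1 :=
  fun h => hq.not_isUnit (isUnit_of_dvd_one h)

/-- Every nonzero element of `Frac A` is `q ^ k * a / b` with `q ∤ a`, `q ∤ b` (`q` prime, `A` a
noetherian domain). -/
theorem exists_zpow_mul_div {q : A} (hq : Prime q) {x : F} (hx : x ≠ 0) :
    ∃ (k : ℤ) (a b : A), ¬ q ∣ a ∧ ¬ q ∣ b ∧
      x * algebraMap A F b = algebraMap A F q ^ k * algebraMap A F a := by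
  have hinj := IsFractionRing.injective A F
  obtain ⟨a₀, b₀, hb₀, rfl⟩ := IsFractionRing.div_surjective (A := A) x
  have hb₀' : b₀ ≠ 0 := nonZeroDivisors.ne_zero hb₀
  have ha₀' : a₀ ≠ 0 := by
    rintro rfl
    exact hx (by simp)
  obtain ⟨n, a, hqa, rfl⟩ := WfDvdMonoid.max_power_factor ha₀' hq.irreducible
  obtain ⟨m, b, hqb, rfl⟩ := WfDvdMonoid.max_power_factor hb₀' hq.irreducible
  have hqF : algebraMap A F q ≠ 0 := (map_ne_zero_iff _ hinj).mpr hq.ne_zero
  have hbF : algebraMap A F b ≠ 0 :=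
    (map_ne_zero_iff _ hinj).mpr (fun h0 => hqb (h0 ▸ dvd_zero q))
  refine ⟨(n : ℤ) - m, a, b, hqa, hqb, ?_⟩
  rw [zpow_sub₀ hqF, zpow_natCast, zpow_natCast]
  simp only [map_mul, map_pow]
  field_simp

/-- The localisation of `A` at the prime element `q`, as a subring of `F`. -/
def branchRing (q : A) (hq : Prime q) : Subring F where
  carrier := {x | ∃ a b : A, ¬ q ∣ b ∧ x * algebraMap A F b = algebraMap A F a}
  mul_mem' := by
    rintro x y ⟨a, b, hb, hab⟩ ⟨c, d, hd, hcd⟩
    refine ⟨a * c, b * d, fun h => (hq.dvd_or_dvd h).elim hb hd, ?_⟩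
    rw [map_mul, map_mul, ← hab, ← hcd]
    ring
  one_mem' := ⟨1, 1, not_dvd_one hq, by simp⟩
  add_mem' := by
    rintro x y ⟨a, b, hb, hab⟩ ⟨c, d, hd, hcd⟩
    refine ⟨a * d + c * b, b * d, fun h => (hq.dvd_or_dvd h).elim hb hd, ?_⟩
    rw [map_add, map_mul, map_mul, map_mul, ← hab, ← hcd]
    ring
  zero_mem' := ⟨0, 1, not_dvd_one hq, by simp⟩
  neg_mem' := by
    rintro x ⟨a, b, hb, hab⟩
    refine ⟨-a, b, hb, ?_⟩
    rw [map_neg, ← hab]
    ring

/-- The localisation of `A` at the prime element `q`, as a valuation subring of `F`. -/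
def branchSubring (q : A) (hq : Prime q) : ValuationSubring F where
  toSubring := branchRing (F := F) q hq
  mem_or_inv_mem' := by
    intro x
    by_cases hx : x = 0
    · left
      rw [hx]
      exact (branchRing (F := F) q hq).zero_mem
    have hinj := IsFractionRing.injective A F
    have hqF : algebraMap A F q ≠ 0 := (map_ne_zero_iff _ hinj).mpr hq.ne_zero
    obtain ⟨k, a, b, ha, hb, hab⟩ := exists_zpow_mul_div (F := F) hq hx
    obtain ⟨n, rfl | rfl⟩ := Int.eq_nat_or_neg k
    · left
      refine ⟨q ^ n * a, b, hb, ?_⟩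
      rw [hab, zpow_natCast, map_mul, map_pow]
    · right
      refine ⟨q ^ n * b, a, ha, ?_⟩
      rw [zpow_neg, zpow_natCast] at hab
      rw [map_mul, map_pow]
      have h1 : x * algebraMap A F b * algebraMap A F q ^ n = algebraMap A F a := by
        rw [hab]
        field_simp
      rw [← h1]
      field_simp

theorem mem_branchSubring {q : A} {hq : Prime q} {x : F} :
    x ∈ branchSubring (F := F) q hq ↔
      ∃ a b : A, ¬ q ∣ b ∧ x * algebraMap A F b = algebraMap A F a :=
  Iff.rfl

theorem algebraMap_mem_branchSubring (q : A) (hq : Prime q) (a : A) :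
    algebraMap A F a ∈ branchSubring (F := F) q hq :=
  ⟨a, 1, not_dvd_one hq, by simp⟩

/-- `q⁻¹` does not lie in the localisation at `q`. -/
theorem inv_notMem_branchSubring (q : A) (hq : Prime q) :
    (algebraMap A F q)⁻¹ ∉ branchSubring (F := F) q hq := by
  rintro ⟨a, b, hb, hab⟩
  have hinj := IsFractionRing.injective A F
  have hqF : algebraMap A F q ≠ 0 := (map_ne_zero_iff _ hinj).mpr hq.ne_zero
  have h1 : algebraMap A F b = algebraMap A F (q * a) := by
    rw [map_mul, ← hab]
    field_simp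
  exact hb ⟨a, hinj h1⟩

/-- A unit of the localisation at `q` is `a / b` with `q ∤ a`, `q ∤ b`. -/
theorem exists_div_of_isUnit (q : A) (hq : Prime q) {x : F}
    (hx : x ∈ branchSubring (F := F) q hq) (hx' : x⁻¹ ∈ branchSubring (F := F) q hq)
    (hx0 : x ≠ 0) :
    ∃ a b : A, ¬ q ∣ a ∧ ¬ q ∣ b ∧ x * algebraMap A F b = algebraMap A F a := by
  have hinj := IsFractionRing.injective A F
  obtain ⟨a, b, hb, hab⟩ := hx
  obtain ⟨a', b', hb', hab'⟩ := hx'
  refine ⟨a, b, ?_, hb, hab⟩
  intro hqa
  have h1 : algebraMap A F (b' * b) = algebraMap A F (a * a') := by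
    rw [map_mul, map_mul, ← hab, ← hab']
    field_simp
  have h2 : b' * b = a * a' := hinj h1
  have h3 : q ∣ b' * b := h2 ▸ Dvd.dvd.mul_right hqa a'
  exact (hq.dvd_or_dvd h3).elim hb' hb

/-- The localisation at `q` is a discrete valuation ring with uniformiser `q`. -/
theorem isDVR_branchSubring (q : A) (hq : Prime q) :
    Irreducible (⟨algebraMap A F q, algebraMap_mem_branchSubring q hq q⟩ :
      branchSubring (F := F) q hq) ∧
      IsDiscreteValuationRing (branchSubring (F := F) q hq) := by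
  have hinj := IsFractionRing.injective A F
  have hqF : algebraMap A F q ≠ 0 := (map_ne_zero_iff _ hinj).mpr hq.ne_zero
  refine Fermat.Agent.Lib.PlaceRes.isDVR_of_zpow_unit (branchSubring (F := F) q hq)
    (algebraMap A F q) (algebraMap_mem_branchSubring q hq q) hqF
    (inv_notMem_branchSubring q hq) ?_
  intro x hx
  obtain ⟨k, a, b, ha, hb, hab⟩ := exists_zpow_mul_div (F := F) hq hx
  have haF : algebraMap A F a ≠ 0 :=
    (map_ne_zero_iff _ hinj).mpr (fun h0 => ha (h0 ▸ dvd_zero q))
  have hbF : algebraMap A F b ≠ 0 :=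
    (map_ne_zero_iff _ hinj).mpr (fun h0 => hb (h0 ▸ dvd_zero q))
  have hk : algebraMap A F q ^ k ≠ 0 := zpow_ne_zero k hqF
  refine ⟨k, ⟨a, b, hb, ?_⟩, ⟨b, a, ha, ?_⟩⟩
  · rw [div_mul_eq_mul_div, hab]
    field_simp
  · rw [div_mul_eq_mul_div, ← hab]
    field_simp

end Branch

section Place

variable {O : Type*} [CommRing O] [IsDomain O] [IsDiscreteValuationRing O]
  {E : Type*} [Field E] [Algebra O E] [IsFractionRing O E]
  {A : Type*} [CommRing A] [IsDomain A] [IsNoetherianRing A] [Algebra O A]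
  {F : Type*} [Field F] [Algebra A F] [IsFractionRing A F] [Algebra O F] [IsScalarTower O A F]
  [Algebra E F] [IsScalarTower O E F]

omit [IsDomain A] [IsNoetherianRing A] in
/-- A prime element of `A` which does not divide the image of the non-unit `ϖ` divides the image
of no nonzero element of the discrete valuation ring `O`. -/
theorem not_dvd_algebraMap {q : A} (hq : Prime q) {ϖ : O} (hϖ : ¬ IsUnit ϖ)
    (hqϖ : ¬ q ∣ algebraMap O A ϖ) {o : O} (ho : o ≠ 0) : ¬ q ∣ algebraMap O A o := by
  obtain ⟨π, hπ⟩ := IsDiscreteValuationRing.exists_irreducible O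
  have hϖ0 : ϖ ≠ 0 := by
    rintro rfl
    exact hqϖ (by simp)
  obtain ⟨m, u, hu⟩ := IsDiscreteValuationRing.eq_unit_mul_pow_irreducible hϖ0 hπ
  have hm : m ≠ 0 := by
    rintro rfl
    exact hϖ (by rw [hu, pow_zero, mul_one]; exact u.isUnit)
  have hπϖ : π ∣ ϖ := by
    rw [hu]
    exact Dvd.dvd.mul_left (dvd_pow_self π hm) _
  have hqπ : ¬ q ∣ algebraMap O A π := fun h => hqϖ (h.trans (map_dvd (algebraMap O A) hπϖ))
  obtain ⟨n, v, hv⟩ := IsDiscreteValuationRing.eq_unit_mul_pow_irreducible ho hπ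
  intro hdvd
  rw [hv, map_mul, map_pow] at hdvd
  rcases hq.dvd_or_dvd hdvd with h | h
  · exact hq.not_isUnit (isUnit_of_dvd_unit h (v.isUnit.map (algebraMap O A)))
  · exact hqπ (hq.dvd_of_dvd_pow h)

/-- The constants `E = Frac O` lie in the localisation of `A` at a horizontal prime element. -/
theorem algebraMap_field_mem_branchSubring {q : A} (hq : Prime q) {ϖ : O} (hϖ : ¬ IsUnit ϖ)
    (hqϖ : ¬ q ∣ algebraMap O A ϖ) (e : E) :
    algebraMap E F e ∈ branchSubring (F := F) q hq := by
  obtain ⟨o₁, o₂, ho₂, rfl⟩ := IsFractionRing.div_surjective (A := O) e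
  have ho₂' : o₂ ≠ 0 := nonZeroDivisors.ne_zero ho₂
  have hE : algebraMap O E o₂ ≠ 0 :=
    (map_ne_zero_iff _ (IsFractionRing.injective O E)).mpr ho₂'
  have hF : algebraMap E F (algebraMap O E o₂) ≠ 0 := (map_ne_zero _).mpr hE
  refine ⟨algebraMap O A o₁, algebraMap O A o₂, not_dvd_algebraMap hq hϖ hqϖ ho₂', ?_⟩
  rw [← IsScalarTower.algebraMap_apply O A F, ← IsScalarTower.algebraMap_apply O A F,
    IsScalarTower.algebraMap_apply O E F o₁, IsScalarTower.algebraMap_apply O E F o₂, map_div₀]
  field_simp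

/-- **The place of a horizontal prime element**: the localisation of `A` at `(q)`. -/
def placeOfPrime (q : A) (hq : Prime q) (ϖ : O) (hϖ : ¬ IsUnit ϖ)
    (hqϖ : ¬ q ∣ algebraMap O A ϖ) : Place E F where
  toValuationSubring := branchSubring (F := F) q hq
  algebraMap_mem' := algebraMap_field_mem_branchSubring (E := E) hq hϖ hqϖ
  ne_top' := fun h =>
    inv_notMem_branchSubring (F := F) q hq (h ▸ ValuationSubring.mem_top _)
  isPrincipalIdealRing' := by
    have := (isDVR_branchSubring (F := F) q hq).2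
    infer_instance

@[simp]
theorem placeOfPrime_toValuationSubring (q : A) (hq : Prime q) (ϖ : O) (hϖ : ¬ IsUnit ϖ)
    (hqϖ : ¬ q ∣ algebraMap O A ϖ) :
    (placeOfPrime (E := E) (F := F) q hq ϖ hϖ hqϖ).toValuationSubring =
      branchSubring (F := F) q hq :=
  rfl

/-- At the place of `q`, a nonzero `x` is `q ^ (ord x) * a / b` with `q ∤ a`, `q ∤ b`. -/
theorem exists_eq_zpow_ord (q : A) (hq : Prime q) (ϖ : O) (hϖ : ¬ IsUnit ϖ)
    (hqϖ : ¬ q ∣ algebraMap O A ϖ) {x : F} (hx : x ≠ 0) :
    ∃ a b : A, ¬ q ∣ a ∧ ¬ q ∣ b ∧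
      x * algebraMap A F b =
        algebraMap A F q ^ ((placeOfPrime (E := E) (F := F) q hq ϖ hϖ hqϖ).ord x) *
          algebraMap A F a := by
  set P : Place E F := placeOfPrime (E := E) (F := F) q hq ϖ hϖ hqϖ with hP
  have hirr : Irreducible (⟨algebraMap A F q, algebraMap_mem_branchSubring q hq q⟩ :
      P.toValuationSubring) := (isDVR_branchSubring (F := F) q hq).1
  obtain ⟨u, hu⟩ := P.exists_unit_mul_zpow hx hirr
  have hu0 : ((u : P.toValuationSubring) : F) ≠ 0 := by
    intro h0
    exact u.ne_zero (Subtype.ext h0)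
  have huinv : (((u : P.toValuationSubring) : F))⁻¹ ∈ branchSubring (F := F) q hq := by
    have h1 : ((u : P.toValuationSubring) : F) * (((u⁻¹ : P.toValuationSubringˣ) :
        P.toValuationSubring) : F) = 1 := by
      have h2 : (u : P.toValuationSubring) * ((u⁻¹ : P.toValuationSubringˣ) :
          P.toValuationSubring) = 1 := by simp
      exact_mod_cast congrArg Subtype.val h2
    rw [← eq_inv_of_mul_eq_one_right h1]
    exact ((u⁻¹ : P.toValuationSubringˣ) : P.toValuationSubring).2
  obtain ⟨a, b, ha, hb, hab⟩ := exists_div_of_isUnit (F := F) q hq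
    (u : P.toValuationSubring).2 huinv hu0
  refine ⟨a, b, ha, hb, ?_⟩
  calc x * algebraMap A F b
      = ((u : P.toValuationSubring) : F) * algebraMap A F b * algebraMap A F q ^ (P.ord x) := by
        conv_lhs => rw [hu]
        ring
    _ = algebraMap A F q ^ (P.ord x) * algebraMap A F a := by
        rw [hab]
        ring

/-- **C3h: the intrinsic horizontal hypothesis gives the element-form horizontal clause.**
If the order of `f` at every place of `F / E` (`E = Frac O`) is divisible by `p`, then at every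
prime element `q` of `A` not dividing `ϖ`, `f = (a / b) * h ^ p` with `q ∤ a`, `q ∤ b`. -/
theorem horAt_of_places (p : ℕ) (hp : p ≠ 0) (ϖ : O) (hϖ : ¬ IsUnit ϖ) (f : F)
    (h : ∀ P : Place E F, (p : ℤ) ∣ P.ord f) : TopLocal.HorAt p ϖ A f := by
  intro q hq hqϖ
  by_cases hf : f = 0
  · refine ⟨1, 1, 0, not_dvd_one hq, not_dvd_one hq, ?_⟩
    rw [hf, zero_pow hp, mul_zero]
  obtain ⟨m, hm⟩ := h (placeOfPrime (E := E) (F := F) q hq ϖ hϖ hqϖ)
  obtain ⟨a, b, ha, hb, hab⟩ := exists_eq_zpow_ord (E := E) (F := F) q hq ϖ hϖ hqϖ hf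
  refine ⟨a, b, algebraMap A F q ^ m, ha, hb, ?_⟩
  rw [mul_comm (algebraMap A F b) f, hab, hm, mul_comm (p : ℤ) m, zpow_mul, zpow_natCast]
  ring

/-- The same in the shape of the block clause `∀ f, Hor f → HorAt p ϖ A f`. -/
theorem horAt_of_places' (p : ℕ) (hp : p ≠ 0) (ϖ : O) (hϖ : ¬ IsUnit ϖ) :
    ∀ f : F, (∀ P : Place E F, (p : ℤ) ∣ P.ord f) → TopLocal.HorAt p ϖ A f :=
  fun f h => horAt_of_places (E := E) p hp ϖ hϖ f h

end Place

end Fermat.Agent.S33.Geo.HorPlace
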