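import Mathlib
import Fermat.Agent.S33.Geo.ZCusp
import Fermat.Agent.S33.Geo.ChartPoints

/-!
# S33 / GEO / Z3c: the cusp point in the vocabulary of `ChartPoints` (level-free)

Fix-forward of `S33/Geo/ZCusp` (nothing landed is touched).  `O` a local ring, `K` a field over
`O`, `F` a field over `O` with a `q`-expansion `σ : F →+* K((q))`, `u : F` a coordinate whose
inverse vanishes at the cusp of `σ` (`u⁻¹ ∈ cuspRing O σ`, `(σ u⁻¹).coeff 0 = 0`).

* `cuspPt` : **the cusp point** `y∞ : ChartPoints.Pt π u` (a closed point of the chart of `u⁻¹`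
  over `u = ∞`), `ptR_cuspPt_le` : its local ring `ChartPoints.ptR π u y∞` lies in
  `ZCusp.cuspRing O σ`.
* `closure_le_cuspRing` : base change - for a ring `R ⊆ cuspRing O σ`, the ring
  `R[lam] = Subring.closure (algebraMap F F₁ '' R ∪ {lam})` (`= TameModel.adj lam R` by `rfl`)
  lies in `cuspRing O₁ σ₁` when the expansions are compatible.
* `constRel_one_of_cusp`, `constRel_one_of_topc` : the constant of the cusp clause in the form
  `Top.ConstRel p lam p 1 c` (the hypothesis of `TameConst.depthIn_of_constRel_one`).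
-/

set_option autoImplicit false
set_option linter.unusedSectionVars false

noncomputable section

namespace Fermat.Agent.S33.Geo.ZCuspPt

open Polynomial Fermat.Agent.S33.Geo.Top Fermat.Agent.S33.Geo.ZCusp
open Fermat.Agent.S33.Geo.ChartPoints Fermat.Agent.S44.L.DepthHenselExit

universe u

/-! ### The cusp point -/

section Point

variable {O K : Type*} {F : Type u} [CommRing O] [IsLocalRing O] [Field K] [Algebra O K]
  [Field F] [Algebra O F] (σ : F →+* LaurentSeries K)
  (hσO : ∀ a : O, σ (algebraMap O F a) = HahnSeries.C (algebraMap O K a))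
  (hinj : Function.Injective (algebraMap O K))
  (hint : ∀ x : K, IsIntegral O x → x ∈ (algebraMap O K).range)
  (π : O) (hπ : ¬ IsUnit π) (u : F) (hs : u⁻¹ ∈ cuspRing O σ) (hs0 : (σ u⁻¹).coeff 0 = 0)

include hπ hs0 in
/-- **The cusp point** of the two-chart model with coordinate `u`: the chart elements of the
chart of `u⁻¹` whose value at the cusp of `σ` is a non-unit of `O`. -/
def cuspPt : Pt π u :=
  Sum.inr ⟨cuspIdeal σ hσO hinj hint u⁻¹ hs, cuspIdeal_isMaximal σ hσO hinj hint u⁻¹ hs,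
    unif_mem_cuspIdeal σ hσO hinj hint u⁻¹ hs π hπ _ rfl,
    fun t ht => coord_mem_cuspIdeal σ hσO hinj hint u⁻¹ hs hs0 t ht⟩

/-- **The local ring at the cusp point lies in the cusp ring**: its elements are regular at the
cusp of `σ`, with value in `O`. -/
theorem ptR_cuspPt_le (a : F) (ha : a ∈ ptR π u (cuspPt σ hσO hinj hint π hπ u hs hs0)) :
    a ∈ cuspRing O σ :=
  mem_cuspRing_of_frac σ hσO hinj hint u⁻¹ hs a ha

/-- The ideal of the cusp point. -/
theorem cuspPt_eq :
    cuspPt σ hσO hinj hint π hπ u hs hs0 =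
      Sum.inr ⟨cuspIdeal σ hσO hinj hint u⁻¹ hs, cuspIdeal_isMaximal σ hσO hinj hint u⁻¹ hs,
        unif_mem_cuspIdeal σ hσO hinj hint u⁻¹ hs π hπ _ rfl,
        fun t ht => coord_mem_cuspIdeal σ hσO hinj hint u⁻¹ hs hs0 t ht⟩ := rfl

end Point

/-! ### Base change -/

section BC

variable {O K F : Type*} [CommRing O] [Field K] [Algebra O K] [Field F] [Algebra O F]
  (σ : F →+* LaurentSeries K)
  {O₁ K₁ F₁ : Type*} [CommRing O₁] [Field K₁] [Algebra O₁ K₁] [Field F₁] [Algebra O₁ F₁]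
  [Algebra F F₁] (σ₁ : F₁ →+* LaurentSeries K₁)
  (hσO₁ : ∀ a : O₁, σ₁ (algebraMap O₁ F₁ a) = HahnSeries.C (algebraMap O₁ K₁ a))
  (φ : K →+* K₁)
  (hcoeff : ∀ (x : F) (n : ℤ), (σ₁ (algebraMap F F₁ x)).coeff n = φ ((σ x).coeff n))
  (hO : ∀ a : O, φ (algebraMap O K a) ∈ (algebraMap O₁ K₁).range)

include hσO₁ hcoeff hO in
/-- **`R[lam] ⊆ cuspRing O₁ σ₁`** for a ring `R ⊆ cuspRing O σ` and a constant `lam` of `O₁`
(`Subring.closure (algebraMap F F₁ '' R ∪ {lam}) = TameModel.adj lam R` by `rfl`). -/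
theorem closure_le_cuspRing (lam : O₁) (R : Subring F) (hR : ∀ a : F, a ∈ R → a ∈ cuspRing O σ)
    (a : F₁)
    (ha : a ∈ Subring.closure (algebraMap F F₁ '' (R : Set F) ∪ {algebraMap O₁ F₁ lam})) :
    a ∈ cuspRing O₁ σ₁ := by
  have h : Subring.closure (algebraMap F F₁ '' (R : Set F) ∪ {algebraMap O₁ F₁ lam}) ≤
      cuspRing O₁ σ₁ := by
    rw [Subring.closure_le]
    rintro x (⟨v, hv, rfl⟩ | rfl)
    · exact map_mem σ σ₁ (algebraMap F F₁) φ hcoeff hO (hR v hv)
    · exact algebraMap_mem σ₁ hσO₁ lam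
  exact h ha

end BC

/-! ### The constant in the form `ConstRel p lam p 1 c` -/

section Rel

variable {O K F : Type*} [CommRing O] [IsDomain O] [IsLocalRing O] [Field K] [Algebra O K]
  [IsFractionRing O K] [Field F] [Algebra O F] (σ : F →+* LaurentSeries K)
  (hσO : ∀ a : O, σ (algebraMap O F a) = HahnSeries.C (algebraMap O K a))

include hσO in
/-- **The constant of the cusp clause is related to `1`.**  A point form
`f = cy * h ^ p * (1 + lam ^ p * r)` at the cusp point (`r` regular at the cusp with value in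
`O`) of a function `f` with leading coefficient `1`, and `ConstRel p lam p cy c`, give
`ConstRel p lam p 1 c`. -/
theorem constRel_one_of_cusp (lam : O) (hlam : ¬ IsUnit lam) (p : ℕ) (hp : p ≠ 0)
    (f h r : F) (cy c : O)
    (hf : f = algebraMap O F cy * h ^ p * (1 + algebraMap O F lam ^ p * r))
    (hr : r ∈ cuspRing O σ) (hrel : ConstRel p lam p cy c)
    (hlc : (σ f).leadingCoeff = 1) : ConstRel p lam p 1 c := by
  have hinj : Function.Injective (algebraMap O K) := IsFractionRing.injective O K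
  have hunitO : ∀ e : O, IsUnit (1 + lam ^ p * e) := fun e =>
    Top.isUnit_one_add_pow_mul hlam (Nat.one_le_iff_ne_zero.mpr hp) e
  have hunit : ∀ e : O, algebraMap O K (1 + lam ^ p * e) ≠ 0 := fun e h0 =>
    (hunitO e).ne_zero (hinj (by rw [h0, map_zero]))
  obtain ⟨D, e, hD, hDe⟩ := const_of_lc σ hσO lam p hp hunit f h r cy hf hr hlc
  obtain ⟨κ, d, d', hd, hd', hdd⟩ := hrel
  obtain ⟨w, hw⟩ := hunitO e
  have hww : (1 + lam ^ p * e) * ((w⁻¹ : Oˣ) : O) = 1 := by rw [← hw]; exact Units.mul_inv w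
  -- `D = n / m`
  obtain ⟨n, m, hm, hnm⟩ := IsFractionRing.div_surjective (A := O) D
  have hm0 : m ≠ 0 := nonZeroDivisors.ne_zero hm
  have hmK : algebraMap O K m ≠ 0 := fun h0 => hm0 (hinj (by rw [h0, map_zero]))
  have hn0 : n ≠ 0 := by
    rintro rfl
    rw [map_zero, zero_div] at hnm
    exact hD hnm.symm
  -- `cy * n ^ p * (1 + lam ^ p * e) = m ^ p` in `O`
  have h1 : cy * n ^ p * (1 + lam ^ p * e) = m ^ p := by
    apply hinj
    rw [map_mul, map_mul, map_pow, map_pow]
    have h2 : algebraMap O K n = D * algebraMap O K m := by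
      rw [← hnm, div_mul_cancel₀ _ hmK]
    rw [h2, mul_pow]
    linear_combination algebraMap O K m ^ p * hDe
  refine ⟨κ * ((w⁻¹ : Oˣ) : O) - e * ((w⁻¹ : Oˣ) : O), d * n, d' * m,
    mul_ne_zero hd hn0, mul_ne_zero hd' hm0, ?_⟩
  linear_combination n ^ p * hdd +
    d' ^ p * (1 + lam ^ p * (κ * ((w⁻¹ : Oˣ) : O) - e * ((w⁻¹ : Oˣ) : O))) * h1 +
    d' ^ p * cy * n ^ p * (lam ^ p * e - lam ^ p * κ) * hww

include hσO in
/-- The same from the output of `IsPointDatum.topc` at the cusp point (local ring `R` inside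
the cusp ring). -/
theorem constRel_one_of_topc (lam : O) (hlam : ¬ IsUnit lam) (p : ℕ) (hp : p ≠ 0)
    (R : Subring F) (hR : ∀ a : F, a ∈ R → a ∈ cuspRing O σ)
    (f : F) (cy c : O) (hpt : DepthIn R p lam p f cy) (hrel : ConstRel p lam p cy c)
    (hlc : (σ f).leadingCoeff = 1) : ConstRel p lam p 1 c := by
  obtain ⟨h, r, hr, hf⟩ := hpt
  exact constRel_one_of_cusp σ hσO lam hlam p hp f h r cy c hf (hR r hr) hrel hlc

end Rel

end Fermat.Agent.S33.Geo.ZCuspPt
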