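import Mathlib
import Fermat.Agent.S36.SqChart.Coord4
import Fermat.Agent.S33.Geo.ZCuspPt

/-!
# S33 / GEO / Z3c: the cusp point of the level-`M q` model at `u₄`, E-level instance

`S33/Geo/ZCusp` + `S33/Geo/ZCuspPt` at the objects of the model of record (binders of
`S33/Geo/ModelInstGlob`): levels `(M, M q)`, `4 ∣ M`, base a discrete valuation ring `O` with
fraction field `E ⊆ ℚ̄`, `F = LE (M q) E`, `σ = sigmaHom (M q) E` the `q`-expansion,
`U = α u₄` the coordinate of the two charts.

* `s4_mem_cuspRing`, `coeff_zero_s4` : `U⁻¹` is regular at the cusp `∞` with value `0`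
  (`σ U⁻¹ = q + …`, `Coord4.hσ1u_s4`);
* `hinj_dvr`, `hint_dvr` : the two ring-theoretic binders of `ZCusp` for a discrete valuation
  ring with fraction field `E`;
* `yInf` : **the cusp point** `y∞ : ChartPoints.Pt π U` (a closed point of the chart of `U⁻¹`
  over `U = ∞`), `ptR_yInf_le` : **every element of its local ring is regular at the cusp `∞`
  with value in `O`** (`ZCusp.cuspRing O σ`: no negative coefficients, constant coefficient in
  `O`), `coeff_of_mem_ptR_yInf` the coefficient form;
* `exists_cusp_pt` : the existential form, and `exists_cusp_pt_OE` over `O = OE A K`,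
  `π = p` (binder block of `ModelInstGlob.isModelI_u4_of_blocks`).
-/

set_option autoImplicit false
set_option linter.unusedSectionVars false
set_option linter.unusedVariables false
set_option linter.style.haveILetI false
set_option synthInstance.maxHeartbeats 400000
set_option maxHeartbeats 1000000

open ModularCurve Polynomial IntermediateField

noncomputable section

namespace Fermat.Agent.S33.Geo.ZCuspInst

open Fermat.Agent.S30 Fermat.Agent.S34 Fermat.Agent.S34.TwoPrimesGauss
open Fermat.Agent.S18.K1Defs Fermat.Agent.S18.K1Main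
open Fermat.Agent.S34.TwoPrimesRank Fermat.Agent.S34.HauptU.Plug
open Fermat.Agent.S36.Haupt4
open Fermat.Agent.S33.Geo.Top Fermat.Agent.S33.Geo.ChartPoints Fermat.Agent.S33.Geo.ZCusp
open Fermat.Agent.S33.Geo.ZCuspPt

local notation "Qb" => AlgebraicClosure ℚ

/-! ### Generic base -/

section Generic

variable (M q : ℕ) [NeZero M] [NeZero q] (E : IntermediateField ℚ Qb)
  {O : Type} [CommRing O] [IsDomain O] [IsDiscreteValuationRing O]
  [Algebra O E] [IsFractionRing O E]

/-- `hinj` of `ZCusp` for a domain with fraction field `E`. -/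
theorem hinj_dvr : Function.Injective (algebraMap O E) := IsFractionRing.injective O E

/-- `hint` of `ZCusp` for an integrally closed domain with fraction field `E`. -/
theorem hint_dvr (x : E) (hx : IsIntegral O x) : x ∈ (algebraMap O E).range :=
  IsIntegrallyClosed.isIntegral_iff.mp hx

/-- The `q`-expansion of `U⁻¹` is the integral power series `s4Z = q + …`. -/
theorem sigma_s4 (h4 : 4 ∣ M) :
    sigmaHom (M * q) E (alphaHom M q E (u4E M E h4))⁻¹ =
      HahnSeries.ofPowerSeries ℤ E
        ((Fermat.Agent.S36.SqChart.Coord4.s4Z).map (Int.castRingHom E)) := by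
  rw [← map_inv₀, Fermat.Agent.S34.Sat.sigma_alpha, Fermat.Agent.S34.Sat.coe_inv_LE, coe_u4E,
    ← Fermat.Agent.S30.AuxLevel.em_apply]
  exact inv_eq_of_mul_eq_one_right (Fermat.Agent.S36.SqChart.Coord4.u4_mul_em_s4Z E)

/-- **`U⁻¹` is regular at the cusp `∞`, with value in `O`.** -/
theorem s4_mem_cuspRing (h4 : 4 ∣ M) :
    letI := algebraOL O E (LE (M * q) E)
    (alphaHom M q E (u4E M E h4))⁻¹ ∈ cuspRing O (sigmaHom (M * q) E) := by
  letI := algebraOL O E (LE (M * q) E)
  refine ⟨(Fermat.Agent.S36.SqChart.Coord4.s4Z).map (Int.castRingHom E), ?_, ?_⟩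
  · show PowerSeries.constantCoeff
        ((Fermat.Agent.S36.SqChart.Coord4.s4Z).map (Int.castRingHom E)) ∈ (algebraMap O E).range
    rw [← PowerSeries.coeff_zero_eq_constantCoeff_apply, PowerSeries.coeff_map,
      Fermat.Agent.S36.SqChart.Coord4.coeff_zero_s4Z, map_zero]
    exact ⟨0, map_zero _⟩
  · exact (sigma_s4 M q E h4).symm

/-- **`U⁻¹` vanishes at the cusp `∞`.** -/
theorem coeff_zero_s4 (h4 : 4 ∣ M) :
    (sigmaHom (M * q) E (alphaHom M q E (u4E M E h4))⁻¹).coeff 0 = 0 := by
  rw [sigma_s4 M q E h4, PowerSeries.coeff_coe, if_neg (lt_irrefl 0)]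
  show PowerSeries.coeff 0 ((Fermat.Agent.S36.SqChart.Coord4.s4Z).map (Int.castRingHom E)) = 0
  rw [PowerSeries.coeff_map, Fermat.Agent.S36.SqChart.Coord4.coeff_zero_s4Z, map_zero]

/-- **The cusp point** `y∞` of the level-`M q` model at `u₄`: the closed point of the chart of
`U⁻¹` at which the chart elements have non-unit value at the cusp `∞`. -/
def yInf (h4 : 4 ∣ M) (π : O) (hπ : ¬ IsUnit π) :
    letI := algebraOL O E (LE (M * q) E)
    Pt π (alphaHom M q E (u4E M E h4)) :=
  letI := algebraOL O E (LE (M * q) E)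
  haveI := isScalarTower_OL O E (LE (M * q) E)
  cuspPt (sigmaHom (M * q) E) (sigmaHom_algebraMap (M * q) E) (hinj_dvr E) (hint_dvr E) π hπ
    (alphaHom M q E (u4E M E h4)) (s4_mem_cuspRing M q E h4) (coeff_zero_s4 M q E h4)

/-- **The local ring at the cusp point lies in the cusp ring**: every element of
`ptR π U y∞` has a `q`-expansion without negative coefficients and with constant coefficient
in `O`. -/
theorem ptR_yInf_le (h4 : 4 ∣ M) (π : O) (hπ : ¬ IsUnit π) :
    letI := algebraOL O E (LE (M * q) E)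
    ∀ a : LE (M * q) E, a ∈ ptR π (alphaHom M q E (u4E M E h4)) (yInf M q E h4 π hπ) →
      a ∈ cuspRing O (sigmaHom (M * q) E) := by
  letI := algebraOL O E (LE (M * q) E)
  haveI := isScalarTower_OL O E (LE (M * q) E)
  intro a ha
  exact ptR_cuspPt_le (sigmaHom (M * q) E) (sigmaHom_algebraMap (M * q) E) (hinj_dvr E)
    (hint_dvr E) π hπ (alphaHom M q E (u4E M E h4)) (s4_mem_cuspRing M q E h4)
    (coeff_zero_s4 M q E h4) a ha

/-- The coefficient form of `ptR_yInf_le`. -/
theorem coeff_of_mem_ptR_yInf (h4 : 4 ∣ M) (π : O) (hπ : ¬ IsUnit π) :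
    letI := algebraOL O E (LE (M * q) E)
    ∀ a : LE (M * q) E, a ∈ ptR π (alphaHom M q E (u4E M E h4)) (yInf M q E h4 π hπ) →
      (∀ n : ℤ, n < 0 → (sigmaHom (M * q) E a).coeff n = 0) ∧
        (sigmaHom (M * q) E a).coeff 0 ∈ (algebraMap O E).range := by
  letI := algebraOL O E (LE (M * q) E)
  intro a ha
  exact (mem_cuspRing_iff (sigmaHom (M * q) E)).mp (ptR_yInf_le M q E h4 π hπ a ha)

/-- **Existential form**: the model of record has a closed point over `U = ∞` whose local ring
consists of functions regular at the cusp `∞` with value in `O`. -/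
theorem exists_cusp_pt (h4 : 4 ∣ M) (π : O) (hπ : ¬ IsUnit π) :
    letI := algebraOL O E (LE (M * q) E)
    ∃ y : Pt π (alphaHom M q E (u4E M E h4)),
      ∀ a : LE (M * q) E, a ∈ ptR π (alphaHom M q E (u4E M E h4)) y →
        a ∈ cuspRing O (sigmaHom (M * q) E) :=
  ⟨yInf M q E h4 π hπ, ptR_yInf_le M q E h4 π hπ⟩

end Generic

/-! ### `O = OE A K`, `π = p` -/

section Arithmetic

/-- **The cusp point over `O = OE A K`, `ϖ = p`** (binder block of
`ModelInstGlob.isModelI_u4_of_blocks`). -/
theorem exists_cusp_pt_OE (A : ValuationSubring Qb) (M p : ℕ) [NeZero M] [NeZero p]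
    (h4 : 4 ∣ M) (K : IntermediateField ℚ Qb) [IsDiscreteValuationRing (OE A K)]
    (hπ : Irreducible ((p : ℕ) : OE A K)) :
    letI := algebraOL (OE A K) K (LE (M * p) K)
    ∃ y : Pt ((p : ℕ) : OE A K) (alphaHom M p K (u4E M K h4)),
      ∀ a : LE (M * p) K, a ∈ ptR ((p : ℕ) : OE A K) (alphaHom M p K (u4E M K h4)) y →
        a ∈ cuspRing (OE A K) (sigmaHom (M * p) K) :=
  exists_cusp_pt M p K h4 ((p : ℕ) : OE A K) hπ.not_isUnit

end Arithmetic

end Fermat.Agent.S33.Geo.ZCuspInst
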