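import Mathlib
import Fermat.Agent.S33.Geo.CoverFieldExits
import Fermat.Agent.S33.Geo.ChartFin
import Fermat.Agent.S33.Geo.HorPlace
import Fermat.Agent.S33.Geo.CuspDeg
import Fermat.Agent.S33.Geo.ZCuspInst

/-!
# S33 / GEO / C3-E: the suppliers of the cover model at the cover field

helper279.  `K ⊆ ℚ̄`, `ζ ∈ ℚ̄`, `T : ι → K(ζ)((q))`, `L0 = CoverFieldDefs.L0 N K ζ T` the cover
field inside `K((q))`, `F = LE N K` the function field downstairs.  `O` is a discrete valuation
ring with fraction field `K` (in the application `O = OE A K`), acting on `L0` through `K`: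
every statement is made for an ARBITRARY instance `[Algebra O ↥L0] [IsScalarTower O K ↥L0]`
(and `[Algebra O (LE N K)] [IsScalarTower O K (LE N K)]` downstairs), so that it fits whichever
instance the consumer fixes; `algOL0` is the canonical one.

The binders of `CoverModel.cover_model_exit` / `cover_model_cusp` at `F := LE N K`, `L := ↥L0`
which do not come from the rows B3 / C4:

* `algOL0`, `isScalarTower_OL0` : the canonical `O`-algebra structure on `↥L0`;
* `isScalarTower_O_LE_L0` : `IsScalarTower O (LE N K) ↥L0`;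
* `hinj` : `O → L0` is injective;
* `hOL` : `O` is integrally closed in `L0` (no new constants);
* `transcendental_up`, `finiteDimensional_adjoin_up`, `finite_chart` : the coordinate upstairs
  is transcendental over `K`, `L0` is finite over `K(u')`, and the chart of `L0` is a finite
  module (`Module.Finite`);
* `hHor` : the horizontal clause for `Hor' f := ∀ P : Place K L0, p ∣ P.ord f`;
* `sigmaL0`, `sigmaL0_algebraMap`, `hcusp_u4`, `exists_degOne_u4` : the `q`-expansion of the
  cover field, and the closed point of residue degree one of the two charts of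
  `u' = α u₄` over `u' = ∞` (the cusp `∞`).
-/

set_option autoImplicit false
set_option linter.unusedSectionVars false
set_option linter.unusedVariables false
set_option linter.style.haveILetI false
set_option synthInstance.maxHeartbeats 400000
set_option maxHeartbeats 1000000

open ModularCurve

noncomputable section

namespace Fermat.Agent.S33.Geo.CoverSupply

open Fermat.Agent.S18.K1Defs Fermat.Agent.S18.K1Main Fermat.Agent.S36.CycloBase
open Fermat.Agent.S34.TwoPrimesRank Fermat.Agent.S34.HauptU.Plug Fermat.Agent.S36.Haupt4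
open Fermat.Agent.S33.Geo.CoverFieldDefs

local notation "Qb" => AlgebraicClosure ℚ

/-! ### The `O`-algebra structure of the cover field -/

section Alg

variable (N : ℕ) (K : IntermediateField ℚ Qb) (ζ : Qb) {ι : Type*}
  (T : ι → LaurentSeries (cyclo K ζ)) (O : Type*) [CommRing O] [Algebra O K]

/-- THE canonical `O`-algebra structure on the cover field: through `K`. -/
@[reducible] def algOL0 : Algebra O ↥(L0 N K ζ T) :=
  ((algebraMap K ↥(L0 N K ζ T)).comp (algebraMap O K)).toAlgebra

theorem isScalarTower_OL0 :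
    letI := algOL0 N K ζ T O
    IsScalarTower O K ↥(L0 N K ζ T) :=
  letI := algOL0 N K ζ T O
  IsScalarTower.of_algebraMap_eq (fun _ => rfl)

end Alg

/-! ### Generic suppliers -/

section Generic

variable (N : ℕ) (K : IntermediateField ℚ Qb) (ζ : Qb) {ι : Type*}
  (T : ι → LaurentSeries (cyclo K ζ))
  {O : Type*} [CommRing O] [Algebra O K]
  [Algebra O ↥(L0 N K ζ T)] [IsScalarTower O K ↥(L0 N K ζ T)]

/-- The constants of the cover field: `K → LE N K → L0` is `K → L0`. -/
theorem algebraMap_K_L0 (c : K) :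
    algebraMap (LE N K) ↥(L0 N K ζ T) (algebraMap K (LE N K) c)
      = algebraMap K ↥(L0 N K ζ T) c := rfl

/-- `IsScalarTower O (LE N K) ↥L0`, for any `O`-structures through `K`. -/
theorem isScalarTower_O_LE_L0 [Algebra O (LE N K)] [IsScalarTower O K (LE N K)] :
    IsScalarTower O (LE N K) ↥(L0 N K ζ T) :=
  IsScalarTower.of_algebraMap_eq (fun x => by
    rw [IsScalarTower.algebraMap_apply O K ↥(L0 N K ζ T),
      IsScalarTower.algebraMap_apply O K (LE N K), algebraMap_K_L0])

/-- **`hinj`**: `O → L0` is injective. -/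
theorem hinj (hO : Function.Injective (algebraMap O K)) :
    Function.Injective (algebraMap O ↥(L0 N K ζ T)) := by
  rw [IsScalarTower.algebraMap_eq O K ↥(L0 N K ζ T)]
  exact (algebraMap K ↥(L0 N K ζ T)).injective.comp hO

/-- **`hOL`**: `O` is integrally closed in the cover field (no new constants). -/
theorem hOL [IsDomain O] [IsIntegrallyClosed O] [IsFractionRing O K] :
    ∀ x : ↥(L0 N K ζ T), IsIntegral O x → ∃ a : O, algebraMap O ↥(L0 N K ζ T) a = x := by
  intro x hx
  have hxK : IsAlgebraic K x := (hx.tower_top (A := K)).isAlgebraic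
  obtain ⟨c, rfl⟩ := Fermat.Agent.S33.Geo.CoverFieldExits.hconst N K ζ T x hxK
  have hc : IsIntegral O c :=
    (isIntegral_algebraMap_iff (algebraMap K ↥(L0 N K ζ T)).injective).mp hx
  obtain ⟨a, ha⟩ := IsIntegrallyClosed.isIntegral_iff.mp hc
  exact ⟨a, by rw [IsScalarTower.algebraMap_apply O K ↥(L0 N K ζ T), ha]⟩

/-- The coordinate upstairs is transcendental over `K`. -/
theorem transcendental_up (u : LE N K) (hu : Transcendental K u) :
    Transcendental K (algebraMap (LE N K) ↥(L0 N K ζ T) u) :=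
  Fermat.Agent.S33.Geo.ChartFin.transcendental_of_tower (k := K) (F := LE N K)
    (F' := ↥(L0 N K ζ T)) u hu

/-- The cover field is finite over `K(u')`. -/
theorem finiteDimensional_adjoin_up (u : LE N K)
    [FiniteDimensional (IntermediateField.adjoin K ({u} : Set (LE N K))) (LE N K)]
    [FiniteDimensional (LE N K) ↥(L0 N K ζ T)] :
    FiniteDimensional (IntermediateField.adjoin K
      ({algebraMap (LE N K) ↥(L0 N K ζ T) u} : Set ↥(L0 N K ζ T))) ↥(L0 N K ζ T) :=
  Fermat.Agent.S33.Geo.ChartFin.finiteDimensional_adjoin_of_tower (k := K) (F := LE N K)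
    (F' := ↥(L0 N K ζ T)) u

/-- **The chart of the cover field is a finite module** (the `Module.Finite` binder of
`CoverModel.cover_model`). -/
theorem finite_chart [IsDomain O] [IsDiscreteValuationRing O] [IsFractionRing O K]
    (u : LE N K) (hu : Transcendental K u)
    [FiniteDimensional (IntermediateField.adjoin K ({u} : Set (LE N K))) (LE N K)]
    [FiniteDimensional (LE N K) ↥(L0 N K ζ T)] :
    Module.Finite
      (Algebra.adjoin O ({algebraMap (LE N K) ↥(L0 N K ζ T) u} : Set ↥(L0 N K ζ T)))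
      (integralClosure
        (Algebra.adjoin O ({algebraMap (LE N K) ↥(L0 N K ζ T) u} : Set ↥(L0 N K ζ T)))
        ↥(L0 N K ζ T)) := by
  haveI := finiteDimensional_adjoin_up N K ζ T u
  exact Fermat.Agent.S30.Model.ChartProv.chart_finite (O := O) (E := K)
    (algebraMap (LE N K) ↥(L0 N K ζ T) u) (transcendental_up N K ζ T u hu)

/-- **`hHor`**: the horizontal clause of the blocks of the cover for the place form
`Hor' f := ∀ P : Place K L0, p ∣ P.ord f` (the binder `hHor` of `CoverModel.cover_model`). -/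
theorem hHor [IsDomain O] [IsDiscreteValuationRing O] [IsFractionRing O K]
    (p : ℕ) (hp : p ≠ 0) (ϖ : O) (hϖ : ¬ IsUnit ϖ) :
    ∀ (A' : Type) [CommRing A'] [IsDomain A'] [IsNoetherianRing A'] [Algebra O A']
      [Algebra A' ↥(L0 N K ζ T)] [IsFractionRing A' ↥(L0 N K ζ T)]
      [IsScalarTower O A' ↥(L0 N K ζ T)] (f : ↥(L0 N K ζ T)),
      (∀ P : AlgebraicCurve.Place K ↥(L0 N K ζ T), (p : ℤ) ∣ P.ord f) →
      Fermat.Agent.S33.Geo.TopLocal.HorAt p ϖ A' f := by
  intro A' _ _ _ _ _ _ _ f h
  exact Fermat.Agent.S33.Geo.HorPlace.horAt_of_places (E := K) p hp ϖ hϖ f h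

/-! ### The `q`-expansion of the cover field -/

/-- The `q`-expansion of the cover field: the inclusion `L0 ⊆ K((q))`. -/
abbrev sigmaL0 : ↥(L0 N K ζ T) →+* LaurentSeries K :=
  algebraMap ↥(L0 N K ζ T) (LaurentSeries K)

theorem sigmaL0_apply (x : ↥(L0 N K ζ T)) : sigmaL0 N K ζ T x = (x : LaurentSeries K) := rfl

/-- The expansion upstairs of a function of `LE N K` is its expansion. -/
theorem sigmaL0_up (f : LE N K) :
    sigmaL0 N K ζ T (algebraMap (LE N K) ↥(L0 N K ζ T) f) = sigmaHom N K f := rfl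

/-- `hσO` upstairs: constants of `O` expand to constants. -/
theorem sigmaL0_algebraMap (r : O) :
    sigmaL0 N K ζ T (algebraMap O ↥(L0 N K ζ T) r) = HahnSeries.C (algebraMap O K r) := by
  rw [IsScalarTower.algebraMap_apply O K ↥(L0 N K ζ T), Fermat.Agent.S18.Wiring.C_eq_algebraMap]
  rfl

end Generic

/-! ### The cusp `∞` of the cover of the level-`M p` model at `u₄` -/

section Cusp

variable (M p : ℕ) [NeZero M] [NeZero p] (K : IntermediateField ℚ Qb) (ζ : Qb) {ι : Type*}
  (T : ι → LaurentSeries (cyclo K ζ))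
  {O : Type*} [CommRing O] [Algebra O K]
  [Algebra O ↥(L0 (M * p) K ζ T)] [IsScalarTower O K ↥(L0 (M * p) K ζ T)]

/-- The expansion of `u'⁻¹` upstairs is the integral power series `s4Z = q + …`. -/
theorem sigmaL0_s4 (h4 : 4 ∣ M) :
    sigmaL0 (M * p) K ζ T
        (algebraMap (LE (M * p) K) ↥(L0 (M * p) K ζ T) (alphaHom M p K (u4E M K h4)))⁻¹ =
      HahnSeries.ofPowerSeries ℤ K
        ((Fermat.Agent.S36.SqChart.Coord4.s4Z).map (Int.castRingHom K)) := by
  rw [← map_inv₀, sigmaL0_up]
  exact Fermat.Agent.S33.Geo.ZCuspInst.sigma_s4 M p K h4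

/-- **The cusp hypothesis of `CoverModel.cover_model_cusp` / `CuspDeg.exists_degOne`**: `u'⁻¹`
is regular at the cusp `∞` of the cover field and vanishes there. -/
theorem hcusp_u4 (h4 : 4 ∣ M) :
    (algebraMap (LE (M * p) K) ↥(L0 (M * p) K ζ T) (alphaHom M p K (u4E M K h4)))⁻¹ ∈
        Fermat.Agent.S33.Geo.ZCusp.cuspRing O (sigmaL0 (M * p) K ζ T) ∧
      ((sigmaL0 (M * p) K ζ T)
        (algebraMap (LE (M * p) K) ↥(L0 (M * p) K ζ T)
          (alphaHom M p K (u4E M K h4)))⁻¹).coeff 0 = 0 := by
  constructor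
  · refine ⟨(Fermat.Agent.S36.SqChart.Coord4.s4Z).map (Int.castRingHom K), ?_, ?_⟩
    · show PowerSeries.constantCoeff
        ((Fermat.Agent.S36.SqChart.Coord4.s4Z).map (Int.castRingHom K)) ∈ (algebraMap O K).range
      rw [← PowerSeries.coeff_zero_eq_constantCoeff_apply, PowerSeries.coeff_map,
        Fermat.Agent.S36.SqChart.Coord4.coeff_zero_s4Z, map_zero]
      exact ⟨0, map_zero _⟩
    · exact (sigmaL0_s4 M p K ζ T h4).symm
  · rw [sigmaL0_s4 M p K ζ T h4, PowerSeries.coeff_coe, if_neg (lt_irrefl 0)]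
    show PowerSeries.coeff 0 ((Fermat.Agent.S36.SqChart.Coord4.s4Z).map (Int.castRingHom K)) = 0
    rw [PowerSeries.coeff_map, Fermat.Agent.S36.SqChart.Coord4.coeff_zero_s4Z, map_zero]

/-- **The closed point of residue degree one of the cover** (the cusp `∞`): the hypotheses
`y₀`, `hdeg` of `CoverModel.cover_model` / `cover_model_exit` at `u' = α u₄`. -/
theorem exists_degOne_u4 [IsDomain O] [IsDiscreteValuationRing O] [IsFractionRing O K]
    (h4 : 4 ∣ M) (ϖ : O) (hϖ : ¬ IsUnit ϖ) :
    ∃ y : Fermat.Agent.S33.Geo.ChartPoints.Pt ϖ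
        (algebraMap (LE (M * p) K) ↥(L0 (M * p) K ζ T) (alphaHom M p K (u4E M K h4))),
      Fermat.Agent.S33.Geo.ChartBranchModel.DegOne ϖ
        (algebraMap (LE (M * p) K) ↥(L0 (M * p) K ζ T) (alphaHom M p K (u4E M K h4))) y :=
  Fermat.Agent.S33.Geo.CuspDeg.exists_degOne (sigmaL0 (M * p) K ζ T)
    (sigmaL0_algebraMap (M * p) K ζ T) (IsFractionRing.injective O K)
    (fun x hx => IsIntegrallyClosed.isIntegral_iff.mp hx) ϖ hϖ
    (algebraMap (LE (M * p) K) ↥(L0 (M * p) K ζ T) (alphaHom M p K (u4E M K h4)))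
    (Or.inl (hcusp_u4 M p K ζ T h4))

end Cusp

end Fermat.Agent.S33.Geo.CoverSupply
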