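import Fermat.Agent.S33.Geo.AsDvrKummer

/-!
# S33 / GEO, row DVR (field form): the exit over a discrete valuation ring of the base field

Level-free (helper78).  `AsDvrKummer.unr_sep_of_depth_aklb` with every ring built inside: the
only data are the discrete valuation ring `A` of `K`, the fields `K ⊆ K1`, `K ⊆ L0 ⊆ L1 ⊇ K1`
and the Kummer generators of `L1 / K1` in depth-`p` form.  The conclusion is stated for
`integralClosure A L0`, in the literal shape of the hypothesis `H` of
`DiscrSeam.not_dvd_discr_of_forall_dvr` / the binders of `DiscrSeam.not_dvd_discr_of_local`.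
-/

set_option autoImplicit false
set_option linter.style.haveILetI false

namespace Fermat.Agent.S33.Geo.AsDvrField

open Polynomial IsLocalRing Fermat.Agent.S33.Geo.AsDvr Fermat.Agent.S33.Geo.AsDvrKummer

/-! ### Generators of an adjoined field inside a big ambient field -/

section Adjoin

/-- The generators of `M = K1(g_i)` generate `M` as a `K1`-algebra, when the `g_i` are algebraic
over `K1` (the ambient field `Ω` may be transcendental): turns `L1 := K1(T_i) ⊆ Ω` into the
hypothesis `hgen` of the exits. -/
theorem adjoin_range_eq_top_of_isAlgebraic {K1 Ω : Type*} [Field K1] [Field Ω] [Algebra K1 Ω]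
    {ι : Type*} (g : ι → Ω) (halg : ∀ i, IsAlgebraic K1 (g i))
    (g' : ι → IntermediateField.adjoin K1 (Set.range g)) (hg : ∀ i, (g' i : Ω) = g i) :
    Algebra.adjoin K1 (Set.range g') = ⊤ := by
  apply Subalgebra.map_injective (f := (IntermediateField.adjoin K1 (Set.range g)).val)
    Subtype.val_injective
  rw [Algebra.map_top, AlgHom.map_adjoin, ← Set.range_comp]
  have h1 : (⇑(IntermediateField.adjoin K1 (Set.range g)).val ∘ g') = g := funext hg
  rw [h1, IntermediateField.range_val]
  exact (IntermediateField.adjoin_toSubalgebra_of_isAlgebraic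
    (by rintro _ ⟨i, rfl⟩; exact halg i)).symm

end Adjoin

section Field

variable {A K L0 K1 L1 : Type*} [CommRing A] [IsDomain A] [IsDiscreteValuationRing A]
  [Field K] [Algebra A K] [IsFractionRing A K] [CharZero K]
  [Field L0] [Algebra K L0] [FiniteDimensional K L0] [IsGalois K L0] [Algebra A L0]
  [IsScalarTower A K L0]
  [Field K1] [Algebra K K1] [FiniteDimensional K K1]
  [Field L1] [Algebra K1 L1] [FiniteDimensional K1 L1] [Algebra L0 L1] [Algebra K L1]
  [IsScalarTower K K1 L1] [IsScalarTower K L0 L1]

/-- **The DVR exit, vertical case, field form** (the producer of the hypothesis `H` of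
`DiscrSeam.not_dvd_discr_of_forall_dvr`).  `A` a discrete valuation ring with fraction field `K`
of characteristic `0` and `p ∈ 𝔪_A`; `L0 / K` finite Galois of degree `p ^ s`; `K1 / K` finite of
degree `< p` with a primitive `p`-th root of unity `ζ`; `L0 → L1 ← K1` over `K`,
`L1 = K1(T_1, …, T_n)` with `T_i ^ p = G_i ^ p (1 + (ζ - 1) ^ p r_i)`, `G_i ≠ 0`, `r_i ∈ K1`
integral over `A`.  Then `hunr` and `hsep` hold at every maximal ideal of
`integralClosure A L0`. -/
theorem unr_sep_of_depth_field {p s n : ℕ} (hp : p.Prime) (hL0 : Module.finrank K L0 = p ^ s)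
    (hdeg : Module.finrank K K1 < p) (hpA : (p : A) ∈ maximalIdeal A) (ζ : K1)
    (hζ : IsPrimitiveRoot ζ p) (T : Fin n → L1) (G : Fin n → K1) (r : Fin n → K1)
    (hG : ∀ i, G i ≠ 0)
    (hr : ∀ i, ((algebraMap K K1).comp (algebraMap A K)).IsIntegralElem (r i))
    (hT : ∀ i, T i ^ p = algebraMap K1 L1 (G i ^ p * (1 + (ζ - 1) ^ p * r i)))
    (hgen : Algebra.adjoin K1 (Set.range T) = ⊤) :
    (∀ P : Ideal (integralClosure A L0), P.IsMaximal → ∀ x ∈ P,
        ∃ s : integralClosure A L0, s ∉ P ∧
          s * x ∈ (maximalIdeal A).map (algebraMap A (integralClosure A L0))) ∧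
    (∀ P : Ideal (integralClosure A L0), P.IsMaximal → ∀ c : integralClosure A L0,
        ∃ f : A[X], aeval c f ∈ P ∧ aeval c (derivative f) ∉ P) := by
  letI : Algebra A K1 := ((algebraMap K K1).comp (algebraMap A K)).toAlgebra
  haveI : IsScalarTower A K K1 := IsScalarTower.of_algebraMap_eq (fun _ => rfl)
  letI : Algebra A L1 := ((algebraMap K L1).comp (algebraMap A K)).toAlgebra
  haveI : IsScalarTower A K L1 := IsScalarTower.of_algebraMap_eq (fun _ => rfl)
  haveI : IsScalarTower A K1 L1 := IsScalarTower.of_algebraMap_eq (fun a => by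
    show algebraMap K L1 (algebraMap A K a) = algebraMap K1 L1 (algebraMap K K1 (algebraMap A K a))
    rw [← IsScalarTower.algebraMap_apply K K1 L1])
  haveI : IsScalarTower A L0 L1 := IsScalarTower.of_algebraMap_eq (fun a => by
    show algebraMap K L1 (algebraMap A K a) = algebraMap L0 L1 (algebraMap A L0 a)
    rw [IsScalarTower.algebraMap_apply A K L0, ← IsScalarTower.algebraMap_apply K L0 L1])
  let A1 : Subalgebra A K1 := integralClosure A K1
  let C0 : Subalgebra A L0 := integralClosure A L0
  haveI : Algebra.IsSeparable K K1 := inferInstance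
  haveI : IsDedekindDomain A1 := integralClosure.isDedekindDomain A K K1
  haveI : Module.Finite A A1 := IsIntegralClosure.finite A K K1 A1
  haveI : IsFractionRing A1 K1 := IsIntegralClosure.isFractionRing_of_finite_extension A K K1 A1
  haveI : CharZero K1 := charZero_of_injective_algebraMap (algebraMap K K1).injective
  have hAK1 : Function.Injective (algebraMap A K1) :=
    (algebraMap K K1).injective.comp (IsFractionRing.injective A K)
  haveI : FaithfulSMul A K1 := (faithfulSMul_iff_algebraMap_injective A K1).mpr hAK1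
  haveI : FaithfulSMul A A1 := (faithfulSMul_iff_algebraMap_injective A A1).mpr
    (fun a b h => hAK1 (congrArg (fun z : A1 => (z : K1)) h))
  haveI : IsScalarTower A1 K1 L1 := inferInstance
  let C1 : Subalgebra A1 L1 := integralClosure A1 L1
  haveI : IsIntegralClosure C1 A1 L1 := inferInstance
  haveI : IsScalarTower A1 C1 L1 := IsScalarTower.of_algebraMap_eq (fun _ => rfl)
  letI : Algebra A C1 := ((algebraMap A1 C1).comp (algebraMap A A1)).toAlgebra
  haveI : IsScalarTower A A1 C1 := IsScalarTower.of_algebraMap_eq (fun _ => rfl)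
  haveI : IsScalarTower A A1 L1 := IsScalarTower.of_algebraMap_eq (fun a => by
    rw [IsScalarTower.algebraMap_apply A K1 L1]
    rfl)
  -- the inclusion `C0 → C1`
  let φ : C0 →+* C1 := ((algebraMap L0 L1).comp (algebraMap C0 L0)).codRestrict C1 (fun c => by
    have h1 : IsIntegral A (c : L0) := c.2
    have h2 : IsIntegral A (algebraMap L0 L1 (c : L0)) :=
      h1.map (IsScalarTower.toAlgHom A L0 L1)
    exact h2.tower_top)
  letI : Algebra C0 C1 := φ.toAlgebra
  haveI : IsScalarTower A C0 C1 := IsScalarTower.of_algebraMap_eq (fun a => by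
    apply Subtype.ext
    show algebraMap A1 L1 (algebraMap A A1 a) = algebraMap L0 L1 (algebraMap A L0 a)
    rw [← IsScalarTower.algebraMap_apply A A1 L1, ← IsScalarTower.algebraMap_apply A L0 L1])
  haveI : FaithfulSMul C0 C1 := by
    rw [faithfulSMul_iff_algebraMap_injective]
    intro c c' h
    apply Subtype.ext
    apply (algebraMap L0 L1).injective
    exact congrArg (fun z : C1 => (z : L1)) h
  -- the data in `A1`
  have hζint : IsIntegral A ζ :=
    IsIntegral.of_pow hp.pos (by rw [hζ.pow_eq_one]; exact isIntegral_one)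
  let ζ' : A1 := ⟨ζ, hζint⟩
  have hζ' : IsPrimitiveRoot ζ' p :=
    IsPrimitiveRoot.of_map_of_injective (f := A1.val) hζ Subtype.val_injective
  let r' : Fin n → A1 := fun i => ⟨r i, hr i⟩
  have hdeg' : Module.finrank A A1 < p := by
    rw [IsIntegralClosure.rank A K K1 A1]
    exact hdeg
  have hT' : ∀ i, T i ^ p =
      algebraMap K1 L1 (G i ^ p * (1 + algebraMap A1 K1 ((ζ' - 1) ^ p * r' i))) := by
    intro i
    rw [hT i]
    rfl
  exact unr_sep_of_depth_aklb (C0 := C0) C1 hp hL0 hdeg' hpA ζ' hζ' T G r' hG hT' hgen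

end Field

end Fermat.Agent.S33.Geo.AsDvrField
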