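import Fermat.Agent.S33.Geo.DiscrSeam
import Fermat.Agent.S33.Geo.AsDvrField

/-!
# S33 / GEO, row DVR (C2 exit): no vertical prime divides the discriminant of the cover

Level-free (helper78): `DiscrSeam` (helper31) ∘ `AsDvrField.unr_sep_of_depth_field`.  For a
noetherian domain `R` (a local ring of the model), a prime element `g ∣ p` of `R`, and the
`p`-power Galois extension `L0` of `K = Frac R` sitting inside `L1 = K1(T_1, …, T_n)`,
`T_i ^ p = G_i ^ p (1 + (ζ_p - 1) ^ p r_i)` with `r_i` integral over `R_(g)`: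
`¬ g ∣ Algebra.discr R b` for every `R`-basis `b` of `integralClosure R L0` - the hypothesis of
`S44/L/UnrPur.node_integralClosure_of_basis` / `smooth_integralClosure_of_basis` at `g`.
-/

set_option autoImplicit false
set_option linter.style.haveILetI false

namespace Fermat.Agent.S33.Geo.AsDvrSeam

open Polynomial IsLocalRing

section Seam

universe u v w

variable {R : Type u} [CommRing R] [IsDomain R] [IsNoetherianRing R]
  (K : Type v) [Field K] [Algebra R K] [IsFractionRing R K] [CharZero K]
  {L0 : Type w} [Field L0] [Algebra K L0] [Algebra R L0] [IsScalarTower R K L0]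
  [FiniteDimensional K L0] [IsGalois K L0]
  {K1 L1 : Type*} [Field K1] [Algebra K K1] [FiniteDimensional K K1]
  [Field L1] [Algebra K1 L1] [FiniteDimensional K1 L1] [Algebra L0 L1] [Algebra K L1]
  [IsScalarTower K K1 L1] [IsScalarTower K L0 L1]
  {ι : Type*} [Fintype ι] [DecidableEq ι]

/-- **The DVR exit in the form purity eats (vertical prime elements).**  `R` a noetherian domain
with fraction field `K` of characteristic `0`, `g` a prime element of `R` dividing `p`;
`L0 / K` finite Galois of degree `p ^ s`; `K1 / K` finite of degree `< p` with a primitive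
`p`-th root of unity `ζ`; `L0 → L1 ← K1` over `K`, `L1 = K1(T_1, …, T_n)` with
`T_i ^ p = G_i ^ p (1 + (ζ - 1) ^ p r_i)`, `G_i ≠ 0`, and `r_i ∈ K1` integral over `R_(g)`
(`d_i r_i` integral over `R` for some `d_i ∉ (g)`).  Then `g` does not divide the discriminant
of any `R`-basis of the integral closure of `R` in `L0`. -/
theorem not_dvd_discr_of_depth (b : Module.Basis ι R (integralClosure R L0)) {g : R}
    (hg : Prime g) {p s n : ℕ} (hp : p.Prime) (hgp : g ∣ (p : R))
    (hL0 : Module.finrank K L0 = p ^ s) (hdeg : Module.finrank K K1 < p) (ζ : K1)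
    (hζ : IsPrimitiveRoot ζ p) (T : Fin n → L1) (G : Fin n → K1) (r : Fin n → K1)
    (hG : ∀ i, G i ≠ 0)
    (hr : ∀ i, ∃ d : R, ¬ g ∣ d ∧ ((algebraMap K K1).comp (algebraMap R K)).IsIntegralElem
      (algebraMap K K1 (algebraMap R K d) * r i))
    (hT : ∀ i, T i ^ p = algebraMap K1 L1 (G i ^ p * (1 + (ζ - 1) ^ p * r i)))
    (hgen : Algebra.adjoin K1 (Set.range T) = ⊤) :
    ¬ g ∣ Algebra.discr R b := by
  haveI : FaithfulSMul R L0 := by
    rw [faithfulSMul_iff_algebraMap_injective, IsScalarTower.algebraMap_eq R K L0]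
    exact (algebraMap K L0).injective.comp (IsFractionRing.injective R K)
  refine DiscrSeam.exists_dvr_data (L := L0) K hg
    (fun A _ _ _ _ _ _ _ _ _ _ => (∀ d : R, ¬ g ∣ d → IsUnit (algebraMap R A d)) →
      (∀ P : Ideal (integralClosure A L0), P.IsMaximal → ∀ x ∈ P,
        ∃ s : integralClosure A L0, s ∉ P ∧
          s * x ∈ (maximalIdeal A).map (algebraMap A (integralClosure A L0))) ∧
      (∀ P : Ideal (integralClosure A L0), P.IsMaximal → ∀ c : integralClosure A L0,
        ∃ f : A[X], aeval c f ∈ P ∧ aeval c (derivative f) ∉ P)) _ ?_ ?_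
  · intro A _ _ _ _ _ _ _ _ _ _ hq _ hmax h
    have hunits : ∀ d : R, ¬ g ∣ d → IsUnit (algebraMap R A d) := fun d hd =>
      IsLocalization.map_units A
        (⟨d, fun hmem => hd (Ideal.mem_span_singleton.mp hmem)⟩ : (Ideal.span {g}).primeCompl)
    obtain ⟨h1, h2⟩ := h hunits
    exact DiscrSeam.not_dvd_discr_of_local A b hg h1 h2
  · intro A _ _ _ _ _ _ _ _ _ _ hmax hunits
    have hpA : (p : A) ∈ maximalIdeal A := by
      obtain ⟨c, hc⟩ := hgp
      rw [hmax, Ideal.mem_span_singleton]
      refine ⟨algebraMap R A c, ?_⟩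
      rw [← map_mul, ← hc, map_natCast]
    refine AsDvrField.unr_sep_of_depth_field hp hL0 hdeg hpA ζ hζ T G r hG (fun i => ?_) hT hgen
    obtain ⟨d, hd, hint⟩ := hr i
    obtain ⟨u, hu⟩ := hunits d hd
    have hcomp : (algebraMap K K1).comp (algebraMap R K) =
        ((algebraMap K K1).comp (algebraMap A K)).comp (algebraMap R A) := by
      rw [RingHom.comp_assoc, ← IsScalarTower.algebraMap_eq R A K]
    rw [hcomp] at hint
    have h1 := RingHom.isIntegralElem.of_comp _ _ hint
    have h2 : ((algebraMap K K1).comp (algebraMap A K)).IsIntegralElem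
        (((algebraMap K K1).comp (algebraMap A K)) ((u⁻¹ : Aˣ) : A)) :=
      RingHom.isIntegralElem_map _
    have h3 := RingHom.IsIntegralElem.mul _ h2 h1
    have h4 : ((algebraMap K K1).comp (algebraMap A K)) ((u⁻¹ : Aˣ) : A) *
        (algebraMap K K1 (algebraMap R K d) * r i) = r i := by
      rw [IsScalarTower.algebraMap_apply R A K d, ← hu, ← mul_assoc, RingHom.comp_apply,
        ← map_mul, ← map_mul, Units.inv_mul, map_one, map_one, one_mul]
    rwa [h4] at h3

end Seam

end Fermat.Agent.S33.Geo.AsDvrSeam
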