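/-
S33 (ordinary at `p ∥ N`), strand GEO, Stage B, row C4 (CoverUnr): the two hypotheses of the
level-free C4 statement, as definitions (helper78).  Mathlib only.

Fields `F → F1 → L1` (`F` the function field downstairs, `F1 = F(ζ_p)`, `L1 = F1(T_i)` the top
field of the cover), `T : Fin n → L1` the Kummer generators.

* `DepData p ζ T V` : along the branch ring `V ⊆ F`, every `T i ^ p` is
  `G ^ p * (1 + (ζ - 1) ^ p * r)` with `G ∈ F1` nonzero and `r ∈ F1` integral over `V`
  (the vertical input of `AsDvrSeam.not_dvd_discr_of_depth`; it does not mention the block ring);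
* `HorData F F1 p ϖ T` : in every valuation subring of `F1` containing `O` in which `ϖ` is
  invertible, every `T i ^ p` is a unit times a `p`-th power (the horizontal input of
  `CoverUnrHor.not_dvd_discr_hor`; it does not mention the block ring nor the prime).
-/
import Mathlib

set_option autoImplicit false

namespace Fermat.Agent.S33.Geo.CoverUnrDefs

/-- **The depth-`p` data of the Kummer generators along a branch ring `V ⊆ F`**: every `T i ^ p`
is `G ^ p * (1 + (ζ - 1) ^ p * r)` with `G ∈ F1` nonzero and `r ∈ F1` integral over `V`. -/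
def DepData {F : Type*} [Field F] {F1 L1 : Type*} [Field F1] [Algebra F F1] [Field L1]
    [Algebra F1 L1] (p : ℕ) (ζ : F1) {n : ℕ} (T : Fin n → L1) (V : Subring F) : Prop :=
  ∀ i, ∃ G r : F1, G ≠ 0 ∧ ((algebraMap F F1).comp V.subtype).IsIntegralElem r ∧
    T i ^ p = algebraMap F1 L1 (G ^ p * (1 + (ζ - 1) ^ p * r))

/-- **The horizontal data of the Kummer generators**: in every valuation subring of `F1`
containing `O` in which `ϖ` is invertible, every `T i ^ p` is a unit times a `p`-th power. -/
def HorData {O : Type*} [CommRing O] (F : Type*) [Field F] [Algebra O F] (F1 : Type*)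
    {L1 : Type*} [Field F1] [Algebra F F1] [Field L1] [Algebra F1 L1] (p : ℕ) (ϖ : O) {n : ℕ}
    (T : Fin n → L1) : Prop :=
  ∀ i, ∀ 𝒱 : ValuationSubring F1, (∀ a : O, algebraMap F F1 (algebraMap O F a) ∈ 𝒱) →
    (algebraMap F F1 (algebraMap O F ϖ))⁻¹ ∈ 𝒱 →
    ∃ e h : F1, e ∈ 𝒱 ∧ e⁻¹ ∈ 𝒱 ∧ T i ^ p = algebraMap F1 L1 (e * h ^ p)

end Fermat.Agent.S33.Geo.CoverUnrDefs
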