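/-
S33 (ordinary at `p ∥ N`), strand GEO, Stage B, row C4 (CoverUnr): the degree of `F1 = F[ζ_p]`
over `F` (helper78).  Mathlib only.

* `adjoin_eq_top_of_sub_one` : `F[ζ - 1] = F1` gives `F[ζ] = F1`;
* `finite_of_adjoin_root`    : `F1 = F[ζ]`, `ζ ^ p = 1`: `F1 / F` is finite;
* `finrank_lt_of_adjoin_primitiveRoot` : `F1 = F[ζ]`, `ζ` a primitive `p`-th root of unity,
  `p` prime: `[F1 : F] < p` (the binder `hdeg` of `AsDvrSeam.not_dvd_discr_of_depth`).
-/
import Mathlib

set_option autoImplicit false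
set_option linter.unusedSectionVars false
set_option linter.style.haveILetI false

namespace Fermat.Agent.S33.Geo.CoverUnrDeg

open Polynomial IntermediateField

variable {F F1 : Type*} [Field F] [Field F1] [Algebra F F1]

/-- `F[ζ - 1] = F1` gives `F[ζ] = F1`. -/
theorem adjoin_eq_top_of_sub_one {ζ : F1} (h : Algebra.adjoin F ({ζ - 1} : Set F1) = ⊤) :
    Algebra.adjoin F ({ζ} : Set F1) = ⊤ := by
  rw [eq_top_iff, ← h]
  refine Algebra.adjoin_le ?_
  intro x hx
  rw [Set.mem_singleton_iff] at hx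
  rw [hx]
  exact sub_mem (Algebra.subset_adjoin (Set.mem_singleton ζ)) (one_mem _)

/-- `F1 = F[ζ]`, `ζ ^ p = 1`: `F1 / F` is finite. -/
theorem finite_of_adjoin_root {p : ℕ} (hp0 : p ≠ 0) {ζ : F1} (hζ : ζ ^ p = 1)
    (hF1 : Algebra.adjoin F ({ζ} : Set F1) = ⊤) : FiniteDimensional F F1 := by
  have hint : IsIntegral F ζ := by
    refine ⟨X ^ p - C 1, monic_X_pow_sub_C 1 hp0, ?_⟩
    rw [eval₂_sub, eval₂_pow, eval₂_X, eval₂_C, map_one, hζ, sub_self]
  have h1 := hint.fg_adjoin_singleton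
  rw [hF1, Algebra.top_toSubmodule] at h1
  exact Module.finite_def.mpr h1

/-- `F1 = F[ζ]`, `ζ` a primitive `p`-th root of unity, `p` prime: `[F1 : F] < p`. -/
theorem finrank_lt_of_adjoin_primitiveRoot [CharZero F] {p : ℕ} (hp : p.Prime) {ζ : F1}
    (hζ : IsPrimitiveRoot ζ p) (hF1 : Algebra.adjoin F ({ζ} : Set F1) = ⊤) :
    Module.finrank F F1 < p := by
  haveI : NeZero (p : F1) := by
    haveI : CharZero F1 := charZero_of_injective_algebraMap (algebraMap F F1).injective
    exact ⟨Nat.cast_ne_zero.mpr hp.ne_zero⟩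
  have hint : IsIntegral F ζ := by
    refine ⟨X ^ p - C 1, monic_X_pow_sub_C 1 hp.ne_zero, ?_⟩
    rw [eval₂_sub, eval₂_pow, eval₂_X, eval₂_C, map_one, hζ.pow_eq_one, sub_self]
  have htop : F⟮ζ⟯ = ⊤ := by
    apply IntermediateField.toSubalgebra_injective
    rw [IntermediateField.adjoin_simple_toSubalgebra_of_isAlgebraic hint.isAlgebraic, hF1,
      IntermediateField.top_toSubalgebra]
  have h1 : Module.finrank F F1 = (minpoly F ζ).natDegree := by
    rw [← IntermediateField.adjoin.finrank hint, htop, IntermediateField.finrank_top']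
  have hroot : aeval ζ (cyclotomic p F) = 0 := by
    rw [aeval_def, eval₂_eq_eval_map, map_cyclotomic]
    exact hζ.isRoot_cyclotomic hp.pos
  have hdvd : minpoly F ζ ∣ cyclotomic p F := minpoly.dvd F ζ hroot
  have h2 : (minpoly F ζ).natDegree ≤ (cyclotomic p F).natDegree :=
    natDegree_le_of_dvd hdvd (cyclotomic_ne_zero p F)
  rw [natDegree_cyclotomic, Nat.totient_prime hp] at h2
  have hp1 : 1 ≤ p := hp.pos
  omega

end Fermat.Agent.S33.Geo.CoverUnrDeg
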