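/-
S33 (ordinary at `p ∥ N`), strand GEO, Stage B, row C4 (horizontal half), level-free (helper117).

Multi-Kummer purity at a horizontal prime, in the AMBIENT form: all fields are intermediate
fields of one ambient field `Ω / K`, and ramification is measured by ONE valuation subring `W`
of `Ω`.

`w` a discrete valuation subring of `K` (characteristic zero), `W` a valuation subring of `Ω`
over `w`; `UnrIn w W M` says that every element of the intermediate field `M` of value `< 1` is
dominated by an element of `K` of value `< 1` (`e = 1` for `W ∩ M` over `w`).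

* `unrIn_adjoin_simple_of_subfield` : `UnrIn` for `K(θ)`, `θ` algebraic over a subfield of
  constants `k₀ ⊆ w` (`S44/L/SepUnr.unramified_of_subfield`);
* `UnrIn.adjoin_kummer` : the Kummer step `M ↦ M(z)`, `z ^ p = u * h ^ p`, `u, h ∈ M`, `u` a
  unit of `W`, `p` a unit of `w` (`S44/L/SepUnr.unramified_kummer` over the DVR `W ∩ M`);
* `unrIn_adjoin_kummer_family` : hence `UnrIn` for `K(θ, T_i : i ∈ ι)`, `ι` finite,
  `T_i ^ p = u_i * h_i ^ p` with `u_i, h_i ∈ K(θ)`, `u_i` a unit of `W`;
* `not_dvd_discr_of_kummer_family` : **the horizontal exit**: `R` factorial, `K = Frac R`,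
  `g` a prime element with `R ⧸ (g)` of characteristic zero, `L ≤ K(θ, T_i)` an intermediate
  field algebraic over `K`: `g` does not divide the discriminant of any basis of the integral
  closure of `R` in `L` (`S44/L/ValUnr.not_dvd_discr_of_valuation_charZero`).  This is the
  hypothesis of `S44/L/UnrPur.node_integralClosure_of_basis` / `smooth_integralClosure_of_basis`
  at the prime elements `g` not dividing `p`.
-/
import Mathlib
import Fermat.Agent.S44.L.SepUnrBridge
import Fermat.Agent.S44.L.ValUnr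

set_option autoImplicit false
set_option linter.unusedSectionVars false
set_option linter.style.haveILetI false

namespace Fermat.Agent.S33.Geo.KummerUnr

open IntermediateField
open Fermat.Agent.S44.L Fermat.Agent.S44.L.SepUnr

section Ambient

variable {K Ω : Type*} [Field K] [Field Ω] [Algebra K Ω]
  (w : ValuationSubring K) (W : ValuationSubring Ω)

/-- `e = 1` on the intermediate field `M`, measured by the valuation subring `W` of the ambient
field: an element of `M` of value `< 1` is dominated by an element of `K` of value `< 1`. -/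
def UnrIn (M : IntermediateField K Ω) : Prop :=
  ∀ x ∈ M, W.valuation x < 1 →
    ∃ y : K, w.valuation y < 1 ∧ W.valuation x ≤ W.valuation (algebraMap K Ω y)

variable {w W}

theorem UnrIn.mono {M N : IntermediateField K Ω} (h : UnrIn w W N) (hMN : M ≤ N) :
    UnrIn w W M :=
  fun x hx => h x (hMN hx)

variable (W) in
/-- The valuation subring induced by `W` on an intermediate field. -/
abbrev resV (M : IntermediateField K Ω) : ValuationSubring M := W.comap (algebraMap M Ω)

theorem resV_comap (hW : W.comap (algebraMap K Ω) = w) (M : IntermediateField K Ω) :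
    (resV W M).comap (algebraMap K M) = w := by
  rw [← hW]
  ext y
  rfl

/-- `UnrIn` in the form of `S44/L/SepUnr` for the field `↥M`. -/
theorem UnrIn.subtype {M : IntermediateField K Ω} (h : UnrIn w W M) :
    ∀ x : M, (resV W M).valuation x < 1 →
      ∃ y : K, w.valuation y < 1 ∧
        (resV W M).valuation x ≤ (resV W M).valuation (algebraMap K M y) := by
  intro x hx
  have hx' : W.valuation (algebraMap M Ω x) < 1 :=
    (valuation_map_lt_one_iff (resV W M) W rfl x).mpr hx
  obtain ⟨y, hy, hxy⟩ := h (x : Ω) x.2 hx'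
  refine ⟨y, hy, ?_⟩
  exact (valuation_map_le_iff (resV W M) W rfl x (algebraMap K M y)).mp hxy

/-- `UnrIn` from the form of `S44/L/SepUnr` for the field `↥M`. -/
theorem UnrIn.of_subtype {M : IntermediateField K Ω}
    (h : ∀ x : M, (resV W M).valuation x < 1 →
      ∃ y : K, w.valuation y < 1 ∧
        (resV W M).valuation x ≤ (resV W M).valuation (algebraMap K M y)) :
    UnrIn w W M := by
  intro x hxM hx
  have hx' : (resV W M).valuation (⟨x, hxM⟩ : M) < 1 :=
    (valuation_map_lt_one_iff (resV W M) W rfl (⟨x, hxM⟩ : M)).mp hx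
  obtain ⟨y, hy, hxy⟩ := h ⟨x, hxM⟩ hx'
  refine ⟨y, hy, ?_⟩
  exact (valuation_map_le_iff (resV W M) W rfl (⟨x, hxM⟩ : M) (algebraMap K M y)).mpr hxy

/-- The generator of a simple extension generates it (subtype form). -/
theorem adjoin_gen_eq_top (z : Ω) :
    IntermediateField.adjoin K {(⟨z, mem_adjoin_simple_self K z⟩ : K⟮z⟯)} = ⊤ := by
  apply IntermediateField.lift_injective K⟮z⟯
  rw [IntermediateField.lift_adjoin_simple, IntermediateField.lift_top]

/-- **Constants.**  `UnrIn` for `K(θ)`, `θ` a root of a nonzero polynomial over a subfield `k₀`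
of `K` contained in the DVR `w`. -/
theorem unrIn_adjoin_simple_of_subfield [CharZero K] [IsDiscreteValuationRing w]
    (hW : W.comap (algebraMap K Ω) = w)
    (k₀ : Subfield K) (hk₀ : ∀ a ∈ k₀, a ∈ w) (θ : Ω) (q : Polynomial k₀) (hq : q ≠ 0)
    (hθ : Polynomial.aeval θ (q.map k₀.subtype) = 0) : UnrIn w W K⟮θ⟯ := by
  apply UnrIn.of_subtype
  refine unramified_of_subfield w (resV W K⟮θ⟯) (resV_comap hW _) k₀ hk₀
    (⟨θ, mem_adjoin_simple_self K θ⟩ : K⟮θ⟯) q hq ?_ (adjoin_gen_eq_top θ)
  apply Subtype.ext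
  rw [← IntermediateField.aeval_coe]
  exact hθ

/-- **The Kummer step.**  `M` algebraic over `K` with `UnrIn`, `z ^ p = u * h ^ p` with
`u, h ∈ M`, `u` a unit of `W` and `p` a unit of `w`: `UnrIn` for `M(z)`. -/
theorem UnrIn.adjoin_kummer [IsDiscreteValuationRing w] (hW : W.comap (algebraMap K Ω) = w)
    {M : IntermediateField K Ω} (hMalg : ∀ x ∈ M, IsAlgebraic K x) (hM : UnrIn w W M)
    (p : ℕ) (hp0 : p ≠ 0) (hp : (p : K)⁻¹ ∈ w) (hpK : (p : K) ≠ 0)
    (z u h : Ω) (huM : u ∈ M) (hhM : h ∈ M) (hu : u ∈ W) (hu' : u⁻¹ ∈ W) (hu0 : u ≠ 0)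
    (hh0 : h ≠ 0) (hz : z ^ p = u * h ^ p) :
    UnrIn w W ((IntermediateField.adjoin M {z}).restrictScalars K) := by
  haveI hMalg' : Algebra.IsAlgebraic K M :=
    ⟨fun x => IntermediateField.isAlgebraic_iff.mpr (hMalg x x.2)⟩
  have hwM : (resV W M).comap (algebraMap K M) = w := resV_comap hW M
  haveI hDVR : IsDiscreteValuationRing (resV W M) :=
    isDiscreteValuationRing_of_unramified w (resV W M) hwM hM.subtype
  have hWN : (resV W (IntermediateField.adjoin M {z})).comap
      (algebraMap M (IntermediateField.adjoin M {z})) = resV W M := by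
    ext y
    rfl
  have hpM : ((p : ℕ) : M)⁻¹ ∈ resV W M := by
    show algebraMap M Ω (((p : ℕ) : M)⁻¹) ∈ W
    have h1 : algebraMap K Ω ((p : K)⁻¹) ∈ W := by
      rw [← hW] at hp
      exact hp
    rw [map_inv₀, map_natCast] at h1 ⊢
    exact h1
  have hpM0 : ((p : ℕ) : M) ≠ 0 := by
    intro h0
    apply hpK
    have h1 : algebraMap K M ((p : ℕ) : K) = 0 := by rw [map_natCast]; exact h0
    exact (map_eq_zero _).mp h1
  have hzN : (⟨z, mem_adjoin_simple_self M z⟩ : IntermediateField.adjoin M {z}) ^ p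
      = algebraMap M (IntermediateField.adjoin M {z}) ((⟨u, huM⟩ : M) * (⟨h, hhM⟩ : M) ^ p) := by
    apply Subtype.ext
    exact hz
  have key := unramified_kummer (resV W M) (resV W (IntermediateField.adjoin M {z})) hWN p hp0
    (⟨u, huM⟩ : M) (⟨h, hhM⟩ : M) hu hu'
    (fun h0 => hu0 (congrArg Subtype.val h0)) (fun h0 => hh0 (congrArg Subtype.val h0))
    hpM hpM0 (⟨z, mem_adjoin_simple_self M z⟩ : IntermediateField.adjoin M {z}) hzN
    (adjoin_gen_eq_top z)
  intro x hx hxv
  have hxN : x ∈ IntermediateField.adjoin M {z} := hx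
  have hxv' : (resV W (IntermediateField.adjoin M {z})).valuation
      (⟨x, hxN⟩ : IntermediateField.adjoin M {z}) < 1 :=
    (valuation_map_lt_one_iff (resV W (IntermediateField.adjoin M {z})) W rfl
      (⟨x, hxN⟩ : IntermediateField.adjoin M {z})).mp hxv
  obtain ⟨y₁, hy₁, hxy₁⟩ := key ⟨x, hxN⟩ hxv'
  have hy₁' : W.valuation (algebraMap M Ω y₁) < 1 :=
    (valuation_map_lt_one_iff (resV W M) W rfl y₁).mpr hy₁
  obtain ⟨y, hy, hy₁y⟩ := hM (y₁ : Ω) y₁.2 hy₁'
  refine ⟨y, hy, le_trans ?_ hy₁y⟩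
  exact (valuation_map_le_iff (resV W (IntermediateField.adjoin M {z})) W rfl
    (⟨x, hxN⟩ : IntermediateField.adjoin M {z})
    (algebraMap M (IntermediateField.adjoin M {z}) y₁)).mpr hxy₁

/-- Elements of `M(z)` are algebraic over `K` if those of `M` are and `z ^ p ∈ M`, `p ≠ 0`. -/
theorem isAlgebraic_of_mem_adjoin_pow {M : IntermediateField K Ω}
    (hMalg : ∀ x ∈ M, IsAlgebraic K x) {p : ℕ} (hp0 : p ≠ 0) {z : Ω} (hz : z ^ p ∈ M) :
    ∀ x ∈ (IntermediateField.adjoin M {z}).restrictScalars K, IsAlgebraic K x := by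
  have hzalg : IsAlgebraic K z := IsAlgebraic.of_pow (Nat.pos_of_ne_zero hp0) (hMalg _ hz)
  have hle : (IntermediateField.adjoin M {z}).restrictScalars K ≤
      (IntermediateField.adjoin K ((M : Set Ω) ∪ {z})) := by
    rw [IntermediateField.restrictScalars_adjoin]
  have halg : Algebra.IsAlgebraic K (IntermediateField.adjoin K ((M : Set Ω) ∪ {z})) := by
    apply IntermediateField.isAlgebraic_adjoin
    rintro x (hx | hx)
    · exact (hMalg x hx).isIntegral
    · rw [Set.mem_singleton_iff] at hx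
      rw [hx]
      exact hzalg.isIntegral
  intro x hx
  exact IntermediateField.isAlgebraic_iff.mp (halg.isAlgebraic (⟨x, hle hx⟩ :
    IntermediateField.adjoin K ((M : Set Ω) ∪ {z})))

/-- **Constants, then a finite Kummer family.**  `UnrIn` for `K(θ, T_i : i ∈ ι)`: `θ` algebraic
over a subfield of constants `k₀ ⊆ w`, `p` a unit of `w`, `T_i ^ p = u_i * h_i ^ p` with
`u_i, h_i ∈ K(θ)` and `u_i` a unit of `W`. -/
theorem unrIn_adjoin_kummer_family [CharZero K] [IsDiscreteValuationRing w]
    (hW : W.comap (algebraMap K Ω) = w)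
    (k₀ : Subfield K) (hk₀ : ∀ a ∈ k₀, a ∈ w) (θ : Ω) (q : Polynomial k₀) (hq : q ≠ 0)
    (hθ : Polynomial.aeval θ (q.map k₀.subtype) = 0)
    (p : ℕ) (hp0 : p ≠ 0) (hp : (p : K)⁻¹ ∈ w)
    {ι : Type*} [Finite ι] (T : ι → Ω) (hT0 : ∀ i, T i ≠ 0)
    (hdiv : ∀ i, ∃ u h : Ω, u ∈ K⟮θ⟯ ∧ h ∈ K⟮θ⟯ ∧ T i ^ p = u * h ^ p ∧ u ∈ W ∧ u⁻¹ ∈ W) :
    UnrIn w W (IntermediateField.adjoin K (insert θ (Set.range T))) := by
  classical
  have hpK : (p : K) ≠ 0 := Nat.cast_ne_zero.mpr hp0
  have hθalg : IsAlgebraic K θ := by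
    refine ⟨q.map k₀.subtype, (Polynomial.map_ne_zero_iff k₀.subtype.injective).mpr hq, hθ⟩
  have hbase_alg : ∀ x ∈ K⟮θ⟯, IsAlgebraic K x := by
    haveI : Algebra.IsAlgebraic K K⟮θ⟯ :=
      IntermediateField.isAlgebraic_adjoin_simple hθalg.isIntegral
    intro x hx
    exact IntermediateField.isAlgebraic_iff.mp
      (Algebra.IsAlgebraic.isAlgebraic (⟨x, hx⟩ : K⟮θ⟯))
  have hbase : UnrIn w W K⟮θ⟯ := unrIn_adjoin_simple_of_subfield hW k₀ hk₀ θ q hq hθ
  -- induction on a finite set of indices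
  have key : ∀ S : Finset ι, ∃ N : IntermediateField K Ω, K⟮θ⟯ ≤ N ∧ (∀ i ∈ S, T i ∈ N) ∧
      (∀ x ∈ N, IsAlgebraic K x) ∧ UnrIn w W N := by
    intro S
    induction S using Finset.induction_on with
    | empty => exact ⟨K⟮θ⟯, le_rfl, fun i hi => absurd hi (Finset.notMem_empty i), hbase_alg, hbase⟩
    | insert i S _ ih =>
      obtain ⟨N, hN, hS, hNalg, hNunr⟩ := ih
      obtain ⟨u, h, huθ, hhθ, hT, hu, hu'⟩ := hdiv i
      have hTp0 : T i ^ p ≠ 0 := pow_ne_zero p (hT0 i)
      have hu0 : u ≠ 0 := by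
        rintro rfl
        exact hTp0 (by rw [hT, zero_mul])
      have hh0 : h ≠ 0 := by
        rintro rfl
        exact hTp0 (by rw [hT, zero_pow hp0, mul_zero])
      have hTpN : T i ^ p ∈ N := by
        rw [hT]
        exact N.mul_mem (hN huθ) (pow_mem (hN hhθ) p)
      refine ⟨(IntermediateField.adjoin N {T i}).restrictScalars K, ?_, ?_,
        isAlgebraic_of_mem_adjoin_pow hNalg hp0 hTpN,
        UnrIn.adjoin_kummer hW hNalg hNunr p hp0 hp hpK (T i) u h (hN huθ) (hN hhθ) hu hu'
          hu0 hh0 hT⟩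
      · intro x hx
        show x ∈ IntermediateField.adjoin N {T i}
        exact (IntermediateField.adjoin N {T i}).algebraMap_mem (⟨x, hN hx⟩ : N)
      · intro j hj
        show T j ∈ IntermediateField.adjoin N {T i}
        rcases Finset.mem_insert.mp hj with rfl | hj
        · exact mem_adjoin_simple_self N (T j)
        · exact (IntermediateField.adjoin N {T i}).algebraMap_mem (⟨T j, hS j hj⟩ : N)
  haveI := Fintype.ofFinite ι
  obtain ⟨N, hN, hS, -, hNunr⟩ := key Finset.univ
  refine hNunr.mono (IntermediateField.adjoin_le_iff.mpr ?_)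
  rintro x (rfl | ⟨i, rfl⟩)
  · exact hN (mem_adjoin_simple_self K x)
  · exact hS i (Finset.mem_univ i)

end Ambient

section Discr

open Fermat.Agent.S44.L.LocalPrincipal

variable {R : Type*} [CommRing R] [IsDomain R] [UniqueFactorizationMonoid R]
  {K : Type*} [Field K] [CharZero K] [Algebra R K] [IsFractionRing R K]
  {Ω : Type*} [Field Ω] [Algebra K Ω]

/-- **The horizontal exit (multi-Kummer purity).**  `R` factorial with fraction field `K` of
characteristic zero, `g` a prime element of `R` with `R ⧸ (g)` of characteristic zero (so `p` is a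
unit at `g`), `k₀ ⊆ K` a subfield of constants (units at `g`), `θ ∈ Ω` algebraic over `k₀`,
`T_i ∈ Ω` (`i` in a finite type) with `T_i ^ p = u * h ^ p`, `u, h ∈ K(θ)`, `u` a unit of every
valuation subring of `Ω` over `R_(g)`.  Then for every intermediate field `L ≤ K(θ, T_i)`
algebraic over `K`, the prime `g` does not divide the discriminant of a basis of the integral
closure of `R` in `L`. -/
theorem not_dvd_discr_of_kummer_family (L : IntermediateField K Ω) [Algebra R L]
    [IsScalarTower R K L] [Algebra.IsAlgebraic K L]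
    {g : R} (hg : Prime g) [CharZero (R ⧸ Ideal.span {g})]
    (k₀ : Subfield K) (hk₀ : ∀ a ∈ k₀, a ∈ primeValuationSubring K g hg)
    (θ : Ω) (q : Polynomial k₀) (hq : q ≠ 0)
    (hθ : Polynomial.aeval θ (q.map k₀.subtype) = 0)
    (p : ℕ) (hp0 : p ≠ 0) (hp : (p : K)⁻¹ ∈ primeValuationSubring K g hg)
    {ι : Type*} [Finite ι] (T : ι → Ω) (hT0 : ∀ i, T i ≠ 0)
    (hdiv : ∀ i, ∀ W : ValuationSubring Ω,
      W.comap (algebraMap K Ω) = primeValuationSubring K g hg →
      ∃ u h : Ω, u ∈ K⟮θ⟯ ∧ h ∈ K⟮θ⟯ ∧ T i ^ p = u * h ^ p ∧ u ∈ W ∧ u⁻¹ ∈ W)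
    (hL : L ≤ IntermediateField.adjoin K (insert θ (Set.range T)))
    {κ : Type*} [Fintype κ] [DecidableEq κ] (b : Module.Basis κ R (integralClosure R L)) :
    ¬ g ∣ Algebra.discr R b := by
  haveI hDVR : IsDiscreteValuationRing (primeValuationSubring K g hg) :=
    SepUnrBridge.isDiscreteValuationRing_primeValuationSubring g hg
  refine ValUnr.not_dvd_discr_of_valuation_charZero hg (primeValuationSubring K g hg)
    (ValUnr.hw_primeValuationSubring hg) (fun W₀ hW₀ => ?_) b
  obtain ⟨W, hWW₀⟩ := SepUnrBridge.exists_comap_eq (L' := Ω) W₀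
  have hW : W.comap (algebraMap K Ω) = primeValuationSubring K g hg := by
    rw [← hW₀, ← hWW₀]
    ext y
    rfl
  have h1 : UnrIn (primeValuationSubring K g hg) W L :=
    (unrIn_adjoin_kummer_family hW k₀ hk₀ θ q hq hθ p hp0 hp T hT0
      (fun i => hdiv i W hW)).mono hL
  have h2 := h1.subtype
  rw [show resV W L = W₀ from hWW₀] at h2
  exact h2

end Discr

end Fermat.Agent.S33.Geo.KummerUnr
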