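/-
S33 (ordinary at `p ∥ N`), strand GEO, Stage B, row C4 (horizontal half, two-tower form),
level-free (helper78).

The horizontal exit `KummerUnr.not_dvd_discr_of_kummer_family` (helper117, ambient form) for a
cover field given as a TYPE: fields `K → K1 → L1` and `K → L0 → L1` (the binder block of
`AsDvrSeam.not_dvd_discr_of_depth`), `K1 = K(ζ)` with `ζ ^ p = 1`, `L1 = K1(T_i)`,
`T_i ^ p = e * h ^ p` with `e, h ∈ K1` and `e` a unit of every valuation subring of `K1` over
`R_(g)`.

* `not_dvd_discr_hor` : `R` factorial, `K = Frac R` of characteristic zero, `g` a prime element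
  with `R ⧸ (g)` of characteristic zero: `g` does not divide the discriminant of a basis of the
  integral closure of `R` in `L0`.
-/
import Mathlib
import Fermat.Agent.S33.Geo.KummerUnr

set_option autoImplicit false
set_option linter.unusedSectionVars false
set_option linter.style.haveILetI false

namespace Fermat.Agent.S33.Geo.CoverUnrHor

open IntermediateField
open Fermat.Agent.S44.L Fermat.Agent.S44.L.SepUnr Fermat.Agent.S44.L.LocalPrincipal
open Fermat.Agent.S33.Geo.KummerUnr

variable {R : Type*} [CommRing R] [IsDomain R] [UniqueFactorizationMonoid R]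
  {K : Type*} [Field K] [CharZero K] [Algebra R K] [IsFractionRing R K]

/-- A nonzero natural number is not divisible by a prime element `g` with `R ⧸ (g)` of
characteristic zero. -/
theorem not_dvd_natCast {g : R} [CharZero (R ⧸ Ideal.span {g})] {m : ℕ} (hm : m ≠ 0) :
    ¬ g ∣ (m : R) := by
  intro h
  apply hm
  have h1 : ((m : R ⧸ Ideal.span {g})) = 0 := by
    rw [← map_natCast (Ideal.Quotient.mk (Ideal.span {g}))]
    exact Ideal.Quotient.eq_zero_iff_mem.mpr (Ideal.mem_span_singleton.mpr h)
  exact Nat.cast_eq_zero.mp h1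

/-- The prime field lies in the valuation subring of a prime element with residue
characteristic zero. -/
theorem bot_le_primeValuationSubring {g : R} (hg : Prime g) [CharZero (R ⧸ Ideal.span {g})] :
    ∀ a ∈ (⊥ : Subfield K), a ∈ primeValuationSubring K g hg := by
  intro a ha
  rw [Subfield.bot_eq_of_charZero] at ha
  obtain ⟨q, rfl⟩ := ha
  have h1 : algebraMap ℚ K q = (q.num : K) * ((q.den : ℕ) : K)⁻¹ := by
    rw [eq_ratCast, Rat.cast_def, div_eq_mul_inv]
  rw [h1]
  refine (primeValuationSubring K g hg).mul_mem _ _ ?_ ?_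
  · rw [← map_intCast (algebraMap R K)]
    exact algebraMap_mem_primeValuationSubring g hg _
  · rw [← map_natCast (algebraMap R K)]
    exact inv_algebraMap_mem_primeValuationSubring g hg (not_dvd_natCast q.den_ne_zero)

variable {L0 : Type*} [Field L0] [Algebra K L0] [Algebra R L0] [IsScalarTower R K L0]
  [Algebra.IsAlgebraic K L0]
  {K1 L1 : Type*} [Field K1] [Algebra K K1] [Field L1] [Algebra K1 L1] [Algebra L0 L1]
  [Algebra K L1] [IsScalarTower K K1 L1] [IsScalarTower K L0 L1]

/-- **C4, horizontal primes, two-tower form.**  `R` factorial with fraction field `K` of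
characteristic zero, `g` a prime element of `R` with `R ⧸ (g)` of characteristic zero; fields
`K → K1 → L1`, `K → L0 → L1` with `L0 / K` algebraic, `K1 = K[ζ]`, `ζ ^ p = 1`, `L1 = K1[T_i]`,
and `T_i ^ p = e * h ^ p` with `e, h ∈ K1`, `e` a unit of each valuation subring of `K1` over
`R_(g)`.  Then `g` does not divide the discriminant of a basis of the integral closure of `R`
in `L0`. -/
theorem not_dvd_discr_hor {g : R} (hg : Prime g) [CharZero (R ⧸ Ideal.span {g})]
    {p n : ℕ} (hp0 : p ≠ 0) (ζ : K1) (hζ : ζ ^ p = 1) (hK1 : Algebra.adjoin K {ζ} = ⊤)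
    (T : Fin n → L1) (hT0 : ∀ i, T i ≠ 0) (hgen : Algebra.adjoin K1 (Set.range T) = ⊤)
    (hhor : ∀ i, ∀ 𝒱 : ValuationSubring K1,
      𝒱.comap (algebraMap K K1) = primeValuationSubring K g hg →
      ∃ e h : K1, e ∈ 𝒱 ∧ e⁻¹ ∈ 𝒱 ∧ T i ^ p = algebraMap K1 L1 (e * h ^ p))
    {κ : Type*} [Fintype κ] [DecidableEq κ] (b : Module.Basis κ R (integralClosure R L0)) :
    ¬ g ∣ Algebra.discr R b := by
  classical
  haveI hDVR : IsDiscreteValuationRing (primeValuationSubring K g hg) :=
    SepUnrBridge.isDiscreteValuationRing_primeValuationSubring g hg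
  obtain ⟨θ, hθdef⟩ : ∃ θ : L1, θ = algebraMap K1 L1 ζ := ⟨_, rfl⟩
  -- the image of `K1` lies in `K(θ)`
  have hK1θ : ∀ x : K1, algebraMap K1 L1 x ∈ K⟮θ⟯ := by
    intro x
    have hx : x ∈ Algebra.adjoin K ({ζ} : Set K1) := hK1 ▸ Algebra.mem_top
    induction hx using Algebra.adjoin_induction with
    | mem y hy =>
      rw [Set.mem_singleton_iff] at hy
      rw [hy, ← hθdef]
      exact mem_adjoin_simple_self K θ
    | algebraMap r =>
      rw [← IsScalarTower.algebraMap_apply K K1 L1]
      exact K⟮θ⟯.algebraMap_mem r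
    | add x y _ _ hx hy =>
      rw [map_add]
      exact add_mem hx hy
    | mul x y _ _ hx hy =>
      rw [map_mul]
      exact mul_mem hx hy
  -- `L1 = K(θ, T_i)`
  have htop : ∀ x : L1, x ∈ IntermediateField.adjoin K (insert θ (Set.range T)) := by
    intro x
    have hx : x ∈ Algebra.adjoin K1 (Set.range T) := hgen ▸ Algebra.mem_top
    induction hx using Algebra.adjoin_induction with
    | mem y hy => exact IntermediateField.subset_adjoin _ _ (Set.mem_insert_of_mem _ hy)
    | algebraMap r =>
      exact IntermediateField.adjoin.mono K _ _ (Set.singleton_subset_iff.mpr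
        (Set.mem_insert θ _)) (hK1θ r)
    | add x y _ _ hx hy => exact add_mem hx hy
    | mul x y _ _ hx hy => exact mul_mem hx hy
  -- the constants
  have hθp : θ ^ p = 1 := by rw [hθdef, ← map_pow, hζ, map_one]
  have hq : (Polynomial.X ^ p - 1 : Polynomial (⊥ : Subfield K)) ≠ 0 := by
    have := Polynomial.X_pow_sub_C_ne_zero (Nat.pos_of_ne_zero hp0) (1 : (⊥ : Subfield K))
    rwa [map_one] at this
  have hθ : Polynomial.aeval θ
      ((Polynomial.X ^ p - 1 : Polynomial (⊥ : Subfield K)).map (⊥ : Subfield K).subtype) = 0 := by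
    rw [Polynomial.map_sub, Polynomial.map_pow, Polynomial.map_X, Polynomial.map_one, map_sub,
      map_pow, Polynomial.aeval_X, map_one, hθp, sub_self]
  have hp : (p : K)⁻¹ ∈ primeValuationSubring K g hg := by
    rw [← map_natCast (algebraMap R K)]
    exact inv_algebraMap_mem_primeValuationSubring g hg (not_dvd_natCast hp0)
  refine ValUnr.not_dvd_discr_of_valuation_charZero hg (primeValuationSubring K g hg)
    (ValUnr.hw_primeValuationSubring hg) (fun W₀ hW₀ => ?_) b
  obtain ⟨W, hWW₀⟩ := SepUnrBridge.exists_comap_eq (L' := L1) W₀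
  have hW : W.comap (algebraMap K L1) = primeValuationSubring K g hg := by
    rw [← hW₀, ← hWW₀]
    ext y
    rw [ValuationSubring.mem_comap, ValuationSubring.mem_comap, ValuationSubring.mem_comap,
      ← IsScalarTower.algebraMap_apply K L0 L1]
  have h1 : UnrIn (primeValuationSubring K g hg) W
      (IntermediateField.adjoin K (insert θ (Set.range T))) := by
    refine unrIn_adjoin_kummer_family hW ⊥ (bot_le_primeValuationSubring hg) θ _ hq hθ p hp0 hp
      T hT0 (fun i => ?_)
    have h𝒱 : (W.comap (algebraMap K1 L1)).comap (algebraMap K K1)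
        = primeValuationSubring K g hg := by
      rw [← hW]
      ext y
      rw [ValuationSubring.mem_comap, ValuationSubring.mem_comap, ValuationSubring.mem_comap,
        ← IsScalarTower.algebraMap_apply K K1 L1]
    obtain ⟨e, h, he, he', hT⟩ := hhor i (W.comap (algebraMap K1 L1)) h𝒱
    refine ⟨algebraMap K1 L1 e, algebraMap K1 L1 h, hK1θ e, hK1θ h, ?_, he, ?_⟩
    · rw [hT, map_mul, map_pow]
    · rw [← map_inv₀]
      exact he'
  intro x hx
  have hx' : W.valuation (algebraMap L0 L1 x) < 1 :=
    (valuation_map_lt_one_iff W₀ W hWW₀ x).mpr hx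
  obtain ⟨y, hy, hxy⟩ := h1 (algebraMap L0 L1 x) (htop _) hx'
  refine ⟨y, hy, ?_⟩
  rw [IsScalarTower.algebraMap_apply K L0 L1] at hxy
  exact (valuation_map_le_iff W₀ W hWW₀ x (algebraMap K L0 y)).mp hxy

end Fermat.Agent.S33.Geo.CoverUnrHor
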