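/-
S33 (ordinary at `p ∥ N`), strand GEO, Stage B, row C4 (CoverUnr), level-free assembly
(helper154; statement of record by helper78, C4 owner).

The discriminant hypothesis of the cover at a block ring (`CoverBlocks.DiscrAt A L0`, the binder
`h` of `S44/L/UnrPur.{node,smooth}_integralClosure_of_basis`) is a statement about every prime
ELEMENT `g` of the block ring `A`.  This file proves it from the two field-level data
`CoverUnrDefs.DepData` (vertical) and `CoverUnrDefs.HorData` (horizontal), in the two-tower type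
block of `AsDvrSeam.not_dvd_discr_of_depth` (`F = Frac A`, the cover field `L0`, `F1 = F[ζ_p]`,
`L1 = F1[T_1, …, T_n]`, `L0 → L1 ← F1` over `F`):

* `isUnit_natCast_of_not_dvd`, `not_dvd_natCast`, `charZero_quot` : `A` a local ring with
  `p ∈ 𝔪_A`, `g` a prime element with `g ∤ p`: no nonzero natural number lies in `(g)` and
  `A ⧸ (g)` has characteristic zero;
* `exists_common_denominator`, `exists_mul_isIntegralElem` : an element integral over a branch
  ring `V = A_(s)` becomes integral over `A` after multiplication by some `d ∉ (s)`;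
* `not_dvd_discr_of_vertical` : the VERTICAL half (`AsDvrSeam.not_dvd_discr_of_depth`) at a
  prime element `x ∣ p` with branch ring `V = A_(x)`, from `DepData p ζ T V`;
* `not_dvd_discr_of_horData` : the HORIZONTAL half (`CoverUnrHor.not_dvd_discr_hor`) at a prime
  element `g ∤ ϖ`, `g ∤ p`, from `HorData F F1 p ϖ T`;
* `discrAt_node`, `discrAt_smooth` : **the level-free exit of C4**: at a node block
  (`𝔪_A = (s, t)`, `s t ~ ϖ`) / smooth block (`𝔪_A = (ϖ, z)`), `ϖ ~ p`, no prime element of `A`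
  divides the discriminant of a basis of the integral closure of `A` in `L0`.  The conclusion is
  `CoverBlocks.DiscrAt A L0` unfolded; the hypotheses on `A` are binders of the `hN` / `hS` of
  `CoverBlocks.blocks_above`.
-/
import Mathlib
import Fermat.Agent.S33.Geo.TopLocal
import Fermat.Agent.S33.Geo.AsDvrSeam
import Fermat.Agent.S33.Geo.CoverUnrHor
import Fermat.Agent.S33.Geo.CoverUnrDefs
import Fermat.Agent.S33.Geo.CoverUnrDeg

set_option autoImplicit false
set_option linter.unusedSectionVars false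
set_option linter.style.haveILetI false

namespace Fermat.Agent.S33.Geo.CoverUnr

open IsLocalRing Polynomial
open Fermat.Agent.S44.L Fermat.Agent.S44.L.LocalPrincipal
open Fermat.Agent.S33.Geo.TopLocal Fermat.Agent.S33.Geo.CoverUnrDefs

/-! ### Natural numbers at a prime element not dividing `p` -/

section Arith

variable {A : Type*} [CommRing A] [IsLocalRing A]

/-- In a local ring with `p ∈ 𝔪`, a natural number prime to `p` is a unit. -/
theorem isUnit_natCast_of_not_dvd {p : ℕ} (hp : p.Prime) (hpA : (p : A) ∈ maximalIdeal A)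
    {m : ℕ} (hm : ¬ p ∣ m) : IsUnit (m : A) := by
  have hcop : IsCoprime (m : A) (p : A) :=
    Nat.Coprime.cast ((Nat.Prime.coprime_iff_not_dvd hp).mpr hm).symm
  obtain ⟨a, b, hab⟩ := hcop
  by_contra hu
  have hmm : (m : A) ∈ maximalIdeal A := (IsLocalRing.mem_maximalIdeal _).mpr hu
  have h1 : (1 : A) ∈ maximalIdeal A := by
    rw [← hab]
    exact Ideal.add_mem _ (Ideal.mul_mem_left _ a hmm) (Ideal.mul_mem_left _ b hpA)
  exact (Ideal.ne_top_iff_one _).mp (IsLocalRing.maximalIdeal.isMaximal A).ne_top h1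

/-- In a local ring with `p ∈ 𝔪`, a prime element not dividing `p` divides no nonzero natural
number. -/
theorem not_dvd_natCast {p : ℕ} (hp : p.Prime) (hpA : (p : A) ∈ maximalIdeal A) {g : A}
    (hg : Prime g) (hgp : ¬ g ∣ (p : A)) {d : ℕ} (hd : d ≠ 0) : ¬ g ∣ (d : A) := by
  obtain ⟨k, m, hm, rfl⟩ := Nat.exists_eq_pow_mul_and_not_dvd hd p hp.ne_one
  intro h
  rw [Nat.cast_mul, Nat.cast_pow] at h
  rcases hg.dvd_or_dvd h with h1 | h1
  · exact hgp (hg.dvd_of_dvd_pow h1)
  · exact hg.not_isUnit (isUnit_of_dvd_unit h1 (isUnit_natCast_of_not_dvd hp hpA hm))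

/-- In a local ring with `p ∈ 𝔪`, the quotient by a prime element not dividing `p` has
characteristic zero. -/
theorem charZero_quot {p : ℕ} (hp : p.Prime) (hpA : (p : A) ∈ maximalIdeal A) {g : A}
    (hg : Prime g) (hgp : ¬ g ∣ (p : A)) : CharZero (A ⧸ Ideal.span {g}) := by
  refine charZero_of_inj_zero fun d hd => ?_
  by_contra hd0
  apply not_dvd_natCast hp hpA hg hgp hd0
  rw [← map_natCast (Ideal.Quotient.mk (Ideal.span {g})), Ideal.Quotient.eq_zero_iff_mem,
    Ideal.mem_span_singleton] at hd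
  exact hd

end Arith

/-! ### From a branch ring to the block ring: clearing denominators -/

section Denominators

variable {A : Type*} [CommRing A] [IsDomain A] {F : Type*} [Field F] [Algebra A F]
  [IsFractionRing A F]

/-- A common denominator prime to `s` for finitely many elements of a subring of `A_(s)`. -/
theorem exists_common_denominator {s : A} (hs : Prime s) (V : Subring F)
    (hV : ∀ f : F, f ∈ V → ∃ a b : A, ¬ s ∣ b ∧ f * algebraMap A F b = algebraMap A F a)
    (c : ℕ → V) (S : Finset ℕ) :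
    ∃ d : A, ¬ s ∣ d ∧ ∀ i ∈ S, ∃ a : A, (c i : F) * algebraMap A F d = algebraMap A F a := by
  classical
  induction S using Finset.induction_on with
  | empty => exact ⟨1, hs.not_dvd_one, by simp⟩
  | insert j S _ ih =>
    obtain ⟨d, hd, hS⟩ := ih
    obtain ⟨a, b, hb, hab⟩ := hV (c j) (c j).2
    refine ⟨b * d, fun h => (hs.dvd_or_dvd h).elim hb hd, fun i hi => ?_⟩
    rcases Finset.mem_insert.mp hi with rfl | hi
    · exact ⟨a * d, by rw [map_mul, map_mul, ← hab]; ring⟩
    · obtain ⟨a', ha'⟩ := hS i hi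
      exact ⟨b * a', by rw [map_mul, map_mul, ← ha']; ring⟩

variable {F1 : Type*} [CommRing F1] [Algebra F F1]

/-- **Clearing denominators.**  `V` the localisation of `A` at the prime element `s`
(elementwise, the shape of `TopLocal.IsBranch s V`).  An element `r` integral over `V` (through
`F → F1`) becomes integral over `A` after multiplication by some `d ∉ (s)`: the hypothesis `hr`
of `AsDvrSeam.not_dvd_discr_of_depth`. -/
theorem exists_mul_isIntegralElem {s : A} (hs : Prime s) (V : Subring F)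
    (hV : ∀ f : F, f ∈ V ↔ ∃ a b : A, ¬ s ∣ b ∧ f * algebraMap A F b = algebraMap A F a)
    {r : F1} (hr : ((algebraMap F F1).comp V.subtype).IsIntegralElem r) :
    ∃ d : A, ¬ s ∣ d ∧ ((algebraMap F F1).comp (algebraMap A F)).IsIntegralElem
      (algebraMap F F1 (algebraMap A F d) * r) := by
  obtain ⟨f, hfm, hf0⟩ := hr
  obtain ⟨d, hd, hcoef⟩ := exists_common_denominator hs V (fun x hx => (hV x).mp hx) f.coeff
    (Finset.range f.natDegree)
  have hdV : algebraMap A F d ∈ V := (hV _).mpr ⟨d, 1, hs.not_dvd_one, by simp⟩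
  have hroot : eval₂ ((algebraMap F F1).comp V.subtype)
      (((algebraMap F F1).comp V.subtype) ⟨algebraMap A F d, hdV⟩ * r)
      (scaleRoots f ⟨algebraMap A F d, hdV⟩) = 0 := scaleRoots_eval₂_eq_zero _ hf0
  have hmonic : (scaleRoots f (⟨algebraMap A F d, hdV⟩ : V)).Monic :=
    (monic_scaleRoots_iff _).mpr hfm
  have hlift : (scaleRoots f (⟨algebraMap A F d, hdV⟩ : V)).map V.subtype ∈
      Polynomial.lifts (algebraMap A F) := by
    rw [Polynomial.lifts_iff_coeff_lifts]
    intro i
    rw [Polynomial.coeff_map, coeff_scaleRoots]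
    by_cases hi : i < f.natDegree
    · obtain ⟨a, ha⟩ := hcoef i (Finset.mem_range.mpr hi)
      obtain ⟨k, hk⟩ : ∃ k, f.natDegree - i = k + 1 := ⟨f.natDegree - i - 1, by omega⟩
      refine ⟨a * d ^ k, ?_⟩
      rw [hk, map_mul, map_pow, ← ha, map_mul, map_pow, pow_succ]
      simp only [Subring.coe_subtype]
      ring
    · rw [Nat.sub_eq_zero_of_le (not_lt.mp hi), pow_zero, mul_one]
      rcases (not_lt.mp hi).eq_or_lt with h | h
      · rw [← h, hfm.coeff_natDegree, map_one]
        exact ⟨1, map_one _⟩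
      · rw [coeff_eq_zero_of_natDegree_lt h, map_zero]
        exact ⟨0, map_zero _⟩
  obtain ⟨q, hqmap, -, hqmonic⟩ :=
    Polynomial.lifts_and_natDegree_eq_and_monic hlift (hmonic.map _)
  refine ⟨d, hd, q, hqmonic, ?_⟩
  rw [← Polynomial.eval_map, ← Polynomial.map_map, hqmap, Polynomial.map_map,
    Polynomial.eval_map]
  exact hroot

end Denominators

/-! ### The two halves at a prime element of the block ring -/

section Halves

variable {O : Type*} [CommRing O]
  {A : Type*} [CommRing A] [IsDomain A] [Algebra O A]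
  {F : Type*} [Field F] [CharZero F] [Algebra A F] [IsFractionRing A F] [Algebra O F]
  [IsScalarTower O A F]
  {L0 : Type*} [Field L0] [Algebra F L0] [Algebra A L0] [IsScalarTower A F L0]
  {F1 L1 : Type*} [Field F1] [Algebra F F1] [Field L1] [Algebra F1 L1]
  [Algebra L0 L1] [Algebra F L1] [IsScalarTower F F1 L1] [IsScalarTower F L0 L1]

/-- **The vertical half of C4** at a prime element `x ∣ p` of the block ring, with branch ring
`V = A_(x)` (elementwise: the shape of `TopLocal.IsBranch x V`), from the depth-`p` data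
`DepData p ζ T V`. -/
theorem not_dvd_discr_of_vertical [IsNoetherianRing A] [FiniteDimensional F L0] [IsGalois F L0]
    [FiniteDimensional F1 L1] {p k n : ℕ} (hp : p.Prime) {x : A} (hx : Prime x)
    (hxp : x ∣ (p : A)) {V : Subring F}
    (hV : ∀ f : F, f ∈ V ↔ ∃ a b : A, ¬ x ∣ b ∧ f * algebraMap A F b = algebraMap A F a)
    (hL0 : Module.finrank F L0 = p ^ k) (ζ : F1) (hζ : IsPrimitiveRoot ζ p)
    (hF1 : Algebra.adjoin F {ζ} = ⊤) (T : Fin n → L1)
    (hgen : Algebra.adjoin F1 (Set.range T) = ⊤) (hd : DepData p ζ T V)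
    {κ : Type*} [Fintype κ] [DecidableEq κ] (b : Module.Basis κ A (integralClosure A L0)) :
    ¬ x ∣ Algebra.discr A b := by
  haveI : FiniteDimensional F F1 :=
    CoverUnrDeg.finite_of_adjoin_root hp.ne_zero hζ.pow_eq_one hF1
  choose G r hG hr hT using hd
  exact AsDvrSeam.not_dvd_discr_of_depth F b hx hp hxp hL0
    (CoverUnrDeg.finrank_lt_of_adjoin_primitiveRoot hp hζ hF1) ζ hζ T G r hG
    (fun i => exists_mul_isIntegralElem hx V hV (hr i)) hT hgen

/-- **The horizontal half of C4** at a prime element `g` of the (factorial, local) block ring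
with `g ∤ ϖ` and `g ∤ p`, from the horizontal data `HorData F F1 p ϖ T`. -/
theorem not_dvd_discr_of_horData [IsLocalRing A] [UniqueFactorizationMonoid A]
    [Algebra.IsAlgebraic F L0] {p n : ℕ} (hp : p.Prime) (hpA : (p : A) ∈ maximalIdeal A)
    {ϖ : O} {g : A} (hg : Prime g) (hgϖ : ¬ g ∣ algebraMap O A ϖ) (hgp : ¬ g ∣ (p : A))
    (ζ : F1) (hζ : ζ ^ p = 1) (hF1 : Algebra.adjoin F {ζ} = ⊤) (T : Fin n → L1)
    (hT0 : ∀ i, T i ≠ 0) (hgen : Algebra.adjoin F1 (Set.range T) = ⊤)
    (hhor : HorData F F1 p ϖ T)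
    {κ : Type*} [Fintype κ] [DecidableEq κ] (b : Module.Basis κ A (integralClosure A L0)) :
    ¬ g ∣ Algebra.discr A b := by
  haveI : CharZero (A ⧸ Ideal.span {g}) := charZero_quot hp hpA hg hgp
  refine CoverUnrHor.not_dvd_discr_hor hg hp.ne_zero ζ hζ hF1 T hT0 hgen
    (fun i 𝒱 h𝒱 => hhor i 𝒱 (fun a => ?_) ?_) b
  · have h1 : algebraMap O F a ∈ 𝒱.comap (algebraMap F F1) := by
      rw [h𝒱, IsScalarTower.algebraMap_apply O A F]
      exact algebraMap_mem_primeValuationSubring g hg _
    exact h1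
  · have h1 : (algebraMap O F ϖ)⁻¹ ∈ 𝒱.comap (algebraMap F F1) := by
      rw [h𝒱, IsScalarTower.algebraMap_apply O A F]
      exact inv_algebraMap_mem_primeValuationSubring g hg hgϖ
    have h2 : algebraMap F F1 ((algebraMap O F ϖ)⁻¹) ∈ 𝒱 := h1
    rwa [map_inv₀] at h2

end Halves

/-! ### The level-free exit of C4 -/

section Final

universe u w

variable {O : Type*} [CommRing O] [IsDomain O] [IsDiscreteValuationRing O]
  {A : Type u} [CommRing A] [IsDomain A] [IsLocalRing A] [IsNoetherianRing A] [Algebra O A]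
  {F : Type u} [Field F] [CharZero F] [Algebra A F] [IsFractionRing A F] [Algebra O F]
  [IsScalarTower O A F]
  {L0 : Type w} [Field L0] [Algebra F L0] [Algebra A L0] [IsScalarTower A F L0]
  [FiniteDimensional F L0] [IsGalois F L0]
  {F1 L1 : Type*} [Field F1] [Algebra F F1] [Field L1] [Algebra F1 L1] [FiniteDimensional F1 L1]
  [Algebra L0 L1] [Algebra F L1] [IsScalarTower F F1 L1] [IsScalarTower F L0 L1]

/-- **C4 at a node block.**  `O` a discrete valuation ring, `ϖ ~ p`; `A` a noetherian local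
domain over `O` with `𝔪_A = (s, t)`, `s`, `t` prime, `s t ~ ϖ`, branch rings `V₁ = A_(s)`,
`V₂ = A_(t)` (the binders of the `hN` of `CoverBlocks.blocks_above`); `F = Frac A` of
characteristic zero, `L0 / F` Galois of degree `p ^ k`, `F1 = F[ζ]`, `L1 = F1[T_1, …, T_n]`,
`T_i ≠ 0`, `L0 → L1 ← F1` over `F`.  From the depth-`p` data on the two branches and the
horizontal data: no prime element of `A` divides the discriminant of a basis of the integral
closure of `A` in `L0` (`CoverBlocks.DiscrAt A L0`). -/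
theorem discrAt_node {p k n : ℕ} (hp : p.Prime) {ϖ : O} (hϖp : Associated ϖ (p : O))
    (hL0 : Module.finrank F L0 = p ^ k)
    (ζ : F1) (hζ : IsPrimitiveRoot ζ p) (hF1 : Algebra.adjoin F {ζ} = ⊤)
    (T : Fin n → L1) (hT0 : ∀ i, T i ≠ 0) (hgen : Algebra.adjoin F1 (Set.range T) = ⊤)
    (hhor : HorData F F1 p ϖ T)
    {s t : A} (hs : Prime s) (ht : Prime t) (hm : maximalIdeal A = Ideal.span {s, t})
    (hst : Associated (s * t) (algebraMap O A ϖ))
    {V₁ V₂ : Subring F} (hV₁ : IsBranch s V₁) (hV₂ : IsBranch t V₂)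
    (hd₁ : DepData p ζ T V₁) (hd₂ : DepData p ζ T V₂) :
    ∀ (ι : Type w) [Fintype ι] [DecidableEq ι] (b : Module.Basis ι A (integralClosure A L0))
      (g : A), Prime g → ¬ g ∣ Algebra.discr A b := by
  intro ι _ _ b g hg
  have hϖA : Associated (algebraMap O A ϖ) (p : A) := by
    have h := hϖp.map (algebraMap O A)
    rwa [map_natCast] at h
  have hsp : s ∣ (p : A) := (Dvd.intro _ rfl).trans (hst.dvd.trans hϖA.dvd)
  have htp : t ∣ (p : A) := (Dvd.intro_left _ rfl).trans (hst.dvd.trans hϖA.dvd)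
  by_cases hgϖ : g ∣ algebraMap O A ϖ
  · rcases hg.dvd_or_dvd (hgϖ.trans hst.symm.dvd) with h | h
    · exact fun hd => not_dvd_discr_of_vertical hp hs hsp hV₁ hL0 ζ hζ hF1 T hgen hd₁ b
        ((hg.associated_of_dvd hs h).dvd_iff_dvd_left.mp hd)
    · exact fun hd => not_dvd_discr_of_vertical hp ht htp hV₂ hL0 ζ hζ hF1 T hgen hd₂ b
        ((hg.associated_of_dvd ht h).dvd_iff_dvd_left.mp hd)
  · haveI : IsDomain (A ⧸ Ideal.span {s}) := Node.isDomain_quot hs
    haveI : IsPrincipalIdealRing (A ⧸ Ideal.span {s}) := Node.isPrincipalIdealRing_quot hs hm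
    haveI : UniqueFactorizationMonoid A := LocalPrincipal.quot_ufm hs.ne_zero
    have hsm : s ∈ maximalIdeal A := by
      rw [hm]
      exact Ideal.subset_span (by simp)
    have hpA : (p : A) ∈ maximalIdeal A := by
      obtain ⟨c, hc⟩ := hsp
      rw [hc]
      exact Ideal.mul_mem_right _ _ hsm
    exact not_dvd_discr_of_horData hp hpA hg hgϖ (fun h => hgϖ (h.trans hϖA.symm.dvd)) ζ
      hζ.pow_eq_one hF1 T hT0 hgen hhor b

/-- **C4 at a smooth block.**  As `discrAt_node`, at a block ring with `ϖ` prime and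
`𝔪_A = (ϖ, z)`, branch ring `V₁ = A_(ϖ)` (the binders of the `hS` of
`CoverBlocks.blocks_above`). -/
theorem discrAt_smooth {p k n : ℕ} (hp : p.Prime) {ϖ : O} (hϖp : Associated ϖ (p : O))
    (hL0 : Module.finrank F L0 = p ^ k)
    (ζ : F1) (hζ : IsPrimitiveRoot ζ p) (hF1 : Algebra.adjoin F {ζ} = ⊤)
    (T : Fin n → L1) (hT0 : ∀ i, T i ≠ 0) (hgen : Algebra.adjoin F1 (Set.range T) = ⊤)
    (hhor : HorData F F1 p ϖ T)
    (hϖA : Prime (algebraMap O A ϖ)) {z : A}
    (hm : maximalIdeal A = Ideal.span {algebraMap O A ϖ, z})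
    {V₁ : Subring F} (hV₁ : IsBranch (algebraMap O A ϖ) V₁)
    (hd₁ : DepData p ζ T V₁) :
    ∀ (ι : Type w) [Fintype ι] [DecidableEq ι] (b : Module.Basis ι A (integralClosure A L0))
      (g : A), Prime g → ¬ g ∣ Algebra.discr A b := by
  intro ι _ _ b g hg
  have hϖp' : Associated (algebraMap O A ϖ) (p : A) := by
    have h := hϖp.map (algebraMap O A)
    rwa [map_natCast] at h
  by_cases hgϖ : g ∣ algebraMap O A ϖ
  · exact fun hd => not_dvd_discr_of_vertical hp hϖA hϖp'.dvd hV₁ hL0 ζ hζ hF1 T hgen hd₁ b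
      ((hg.associated_of_dvd hϖA hgϖ).dvd_iff_dvd_left.mp hd)
  · haveI : IsDomain (A ⧸ Ideal.span {algebraMap O A ϖ}) := Node.isDomain_quot hϖA
    haveI : IsPrincipalIdealRing (A ⧸ Ideal.span {algebraMap O A ϖ}) :=
      Node.isPrincipalIdealRing_quot hϖA hm
    haveI : UniqueFactorizationMonoid A := LocalPrincipal.quot_ufm hϖA.ne_zero
    have hπm : algebraMap O A ϖ ∈ maximalIdeal A := by
      rw [hm]
      exact Ideal.subset_span (by simp)
    have hpA : (p : A) ∈ maximalIdeal A := by
      obtain ⟨c, hc⟩ := hϖp'.dvd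
      rw [hc]
      exact Ideal.mul_mem_right _ _ hπm
    exact not_dvd_discr_of_horData hp hpA hg hgϖ (fun h => hgϖ (h.trans hϖp'.symm.dvd)) ζ
      hζ.pow_eq_one hF1 T hT0 hgen hhor b

end Final

end Fermat.Agent.S33.Geo.CoverUnr
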