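/-
S33 (ordinary at `p ∥ N`), strand GEO, Stage B, row C4 (CoverUnr), E-level exit (helper78).

The discriminant hypotheses `hN`, `hS` of `CoverBlocks.blocks_above` for the cover field of
record: `F = LE N K`, `F₁ = LE N K(ζ)` (an `F`-algebra through `CoverFieldDefs.bcLE`),
`L = CoverFieldDefs.L0 N K ζ T` (the cover field), `L1 = CoverFieldDefs.L1 N K ζ T = F₁(T_i)`
(an `L`-algebra through `CoverFieldDefs.emb`), Kummer generators `gen N K ζ T i = T i`.

* `zetaF`, `algF1`, `algL0L1`, `algFL1` : the constant `ζ` of `F₁` and the three base-change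
  algebra structures (reducible defs; local instances of this file);
* `discrAt_node`, `discrAt_smooth` : `CoverBlocks.DiscrAt A (L0 N K ζ T)` at a node / smooth
  block presentation `A` of the model of `F`, from `CoverUnr.discrAt_node/smooth` (helper154);
* `hN`, `hS` : the two hypotheses of `CoverBlocks.blocks_above`, VERBATIM, for every family of
  generic rings `V : ι → Subring (LE N K)` and every `R : Y → Subring (LE N K)`.

Inputs (all E-level rows): finite Galois of degree `p ^ k` for `L0 / F` and finiteness of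
`L1 / F₁` (C1-E), `F₁ = F[ζ]` (CycloLE), the depth data `CoverUnrDefs.DepData` along every
generic ring (Z3 exit through `CoverUnrFeed.depData_of_depthIn`) and the horizontal data
`CoverUnrDefs.HorData` (Z3h through `CoverUnrFeed.horData_of_horVal`).
-/
import Mathlib
import Fermat.Agent.S33.Geo.CoverFieldDefs
import Fermat.Agent.S33.Geo.CoverBlocks
import Fermat.Agent.S33.Geo.CoverUnrDefs
import Fermat.Agent.S33.Geo.CoverUnr

set_option autoImplicit false
set_option linter.unusedSectionVars false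
set_option linter.unusedVariables false
set_option linter.style.haveILetI false
set_option synthInstance.maxHeartbeats 400000
set_option maxHeartbeats 1000000

open ModularCurve

noncomputable section

namespace Fermat.Agent.S33.Geo.CoverUnrE

open IsLocalRing
open Fermat.Agent.S18.K1Defs Fermat.Agent.S18.K1Top Fermat.Agent.S36.CycloBase
open Fermat.Agent.S33.Geo.CoverFieldDefs Fermat.Agent.S33.Geo.CoverUnrDefs
open Fermat.Agent.S33.Geo.TopLocal

local notation "Qb" => AlgebraicClosure ℚ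

variable (N : ℕ) (K : IntermediateField ℚ Qb) (ζ : Qb)

/-- The constant `ζ` of the function field `F₁ = LE N K(ζ)`. -/
def zetaF : LE N (cyclo K ζ) :=
  algebraMap (cyclo K ζ) (LE N (cyclo K ζ)) ⟨ζ, zeta_mem_cyclo K ζ⟩

/-- `F₁ = LE N K(ζ)` as an algebra over `F = LE N K` (base change of constants). -/
@[reducible] def algF1 : Algebra (LE N K) (LE N (cyclo K ζ)) := (bcLE N K ζ).toAlgebra

variable {n : ℕ} (T : Fin n → LaurentSeries (cyclo K ζ))

/-- The top field `L1 = F₁(T_i)` as an algebra over the cover field `L0`. -/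
@[reducible] def algL0L1 : Algebra (L0 N K ζ T) (L1 N K ζ T) := (emb N K ζ T).toAlgebra

/-- The top field `L1 = F₁(T_i)` as an algebra over `F = LE N K`. -/
@[reducible] def algFL1 : Algebra (LE N K) (L1 N K ζ T) :=
  ((algebraMap (LE N (cyclo K ζ)) (L1 N K ζ T)).comp (bcLE N K ζ)).toAlgebra

attribute [local instance] algF1 algL0L1 algFL1

theorem isPrimitiveRoot_zetaF {p : ℕ} (hζ : IsPrimitiveRoot ζ p) :
    IsPrimitiveRoot (zetaF N K ζ) p := by
  have h1 : IsPrimitiveRoot (⟨ζ, zeta_mem_cyclo K ζ⟩ : cyclo K ζ) p :=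
    IsPrimitiveRoot.of_map_of_injective (f := algebraMap (cyclo K ζ) Qb) hζ
      (algebraMap (cyclo K ζ) Qb).injective
  exact h1.map_of_injective (algebraMap (cyclo K ζ) (LE N (cyclo K ζ))).injective

/-- The generators generate the top field as an `F₁`-algebra. -/
theorem adjoin_gen_eq_top [FiniteDimensional (LE N (cyclo K ζ)) (L1 N K ζ T)] :
    Algebra.adjoin (LE N (cyclo K ζ)) (Set.range (gen N K ζ T)) = ⊤ := by
  have h1 := adjoin_gen N K ζ T
  have h2 := congrArg IntermediateField.toSubalgebra h1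
  rw [IntermediateField.adjoin_toSubalgebra, IntermediateField.top_toSubalgebra] at h2
  exact h2

theorem gen_ne_zero (hT0 : ∀ i, T i ≠ 0) (i : Fin n) : gen N K ζ T i ≠ 0 := fun h =>
  hT0 i (congrArg Subtype.val h)

section Block

variable {O : Type*} [CommRing O] [IsDomain O] [IsDiscreteValuationRing O] [Algebra O (LE N K)]
  {p k : ℕ} [FiniteDimensional (LE N K) (L0 N K ζ T)] [IsGalois (LE N K) (L0 N K ζ T)]
  [FiniteDimensional (LE N (cyclo K ζ)) (L1 N K ζ T)]
  {A : Type} [CommRing A] [IsDomain A] [IsLocalRing A] [IsNoetherianRing A] [Algebra O A]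
  [Algebra A (LE N K)] [IsFractionRing A (LE N K)] [IsScalarTower O A (LE N K)]
  [Algebra A (L0 N K ζ T)] [IsScalarTower A (LE N K) (L0 N K ζ T)]

/-- **C4 at a node block of the model of `LE N K`.** -/
theorem discrAt_node (hp : p.Prime) (hζ : IsPrimitiveRoot ζ p) {ϖ : O}
    (hϖp : Associated ϖ (p : O)) (hL0 : Module.finrank (LE N K) (L0 N K ζ T) = p ^ k)
    (hF1 : Algebra.adjoin (LE N K) ({zetaF N K ζ} : Set (LE N (cyclo K ζ))) = ⊤)
    (hT0 : ∀ i, T i ≠ 0)
    (hhor : HorData (LE N K) (LE N (cyclo K ζ)) p ϖ (gen N K ζ T))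
    {s t : A} (hs : Prime s) (ht : Prime t) (hm : maximalIdeal A = Ideal.span {s, t})
    (hst : Associated (s * t) (algebraMap O A ϖ))
    {V₁ V₂ : Subring (LE N K)} (hV₁ : IsBranch s V₁) (hV₂ : IsBranch t V₂)
    (hd₁ : DepData p (zetaF N K ζ) (gen N K ζ T) V₁)
    (hd₂ : DepData p (zetaF N K ζ) (gen N K ζ T) V₂) :
    CoverBlocks.DiscrAt A (L0 N K ζ T) := by
  haveI : IsScalarTower (LE N K) (LE N (cyclo K ζ)) (L1 N K ζ T) :=
    IsScalarTower.of_algebraMap_eq (fun _ => rfl)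
  haveI : IsScalarTower (LE N K) (L0 N K ζ T) (L1 N K ζ T) :=
    IsScalarTower.of_algebraMap_eq (fun _ => rfl)
  haveI : CharZero (LE N K) := inferInstance
  exact CoverUnr.discrAt_node (F := LE N K) (L0 := L0 N K ζ T) (F1 := LE N (cyclo K ζ))
    (L1 := L1 N K ζ T) hp hϖp hL0 (zetaF N K ζ) (isPrimitiveRoot_zetaF N K ζ hζ) hF1
    (gen N K ζ T) (gen_ne_zero N K ζ T hT0) (adjoin_gen_eq_top N K ζ T) hhor hs ht hm hst
    hV₁ hV₂ hd₁ hd₂

/-- **C4 at a smooth block of the model of `LE N K`.** -/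
theorem discrAt_smooth (hp : p.Prime) (hζ : IsPrimitiveRoot ζ p) {ϖ : O}
    (hϖp : Associated ϖ (p : O)) (hL0 : Module.finrank (LE N K) (L0 N K ζ T) = p ^ k)
    (hF1 : Algebra.adjoin (LE N K) ({zetaF N K ζ} : Set (LE N (cyclo K ζ))) = ⊤)
    (hT0 : ∀ i, T i ≠ 0)
    (hhor : HorData (LE N K) (LE N (cyclo K ζ)) p ϖ (gen N K ζ T))
    (hϖA : Prime (algebraMap O A ϖ)) {z : A}
    (hm : maximalIdeal A = Ideal.span {algebraMap O A ϖ, z})
    {V₁ : Subring (LE N K)} (hV₁ : IsBranch (algebraMap O A ϖ) V₁)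
    (hd₁ : DepData p (zetaF N K ζ) (gen N K ζ T) V₁) :
    CoverBlocks.DiscrAt A (L0 N K ζ T) := by
  haveI : IsScalarTower (LE N K) (LE N (cyclo K ζ)) (L1 N K ζ T) :=
    IsScalarTower.of_algebraMap_eq (fun _ => rfl)
  haveI : IsScalarTower (LE N K) (L0 N K ζ T) (L1 N K ζ T) :=
    IsScalarTower.of_algebraMap_eq (fun _ => rfl)
  haveI : CharZero (LE N K) := inferInstance
  exact CoverUnr.discrAt_smooth (F := LE N K) (L0 := L0 N K ζ T) (F1 := LE N (cyclo K ζ))
    (L1 := L1 N K ζ T) hp hϖp hL0 (zetaF N K ζ) (isPrimitiveRoot_zetaF N K ζ hζ) hF1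
    (gen N K ζ T) (gen_ne_zero N K ζ T hT0) (adjoin_gen_eq_top N K ζ T) hhor hϖA hm hV₁ hd₁

end Block

section Exit

variable {O : Type*} [CommRing O] [IsDomain O] [IsDiscreteValuationRing O] [Algebra O (LE N K)]
  {p k : ℕ} [FiniteDimensional (LE N K) (L0 N K ζ T)] [IsGalois (LE N K) (L0 N K ζ T)]
  [FiniteDimensional (LE N (cyclo K ζ)) (L1 N K ζ T)]
  {ι Y : Type*} (V : ι → Subring (LE N K)) (R : Y → Subring (LE N K))

/-- **Row C4, node blocks: the hypothesis `hN` of `CoverBlocks.blocks_above`, verbatim.** -/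
theorem hN (hp : p.Prime) (hζ : IsPrimitiveRoot ζ p) {ϖ : O}
    (hϖp : Associated ϖ (p : O)) (hL0 : Module.finrank (LE N K) (L0 N K ζ T) = p ^ k)
    (hF1 : Algebra.adjoin (LE N K) ({zetaF N K ζ} : Set (LE N (cyclo K ζ))) = ⊤)
    (hT0 : ∀ i, T i ≠ 0)
    (hhor : HorData (LE N K) (LE N (cyclo K ζ)) p ϖ (gen N K ζ T))
    (hdep : ∀ W, DepData p (zetaF N K ζ) (gen N K ζ T) (V W)) :
    ∀ (A : Type) [CommRing A] [IsDomain A] [IsLocalRing A] [IsNoetherianRing A]
      [Algebra O A] [Algebra A (LE N K)] [IsFractionRing A (LE N K)]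
      [IsScalarTower O A (LE N K)] [Algebra A (L0 N K ζ T)]
      [IsScalarTower A (LE N K) (L0 N K ζ T)] (y : Y) (W₁ W₂ : ι) (s t : A),
      (algebraMap A (LE N K)).range = R y →
      Prime s → Prime t → ¬ Associated s t → maximalIdeal A = Ideal.span {s, t} →
      Associated (s * t) (algebraMap O A ϖ) → IsBranch s (V W₁) → IsBranch t (V W₂) →
      CoverBlocks.DiscrAt A (L0 N K ζ T) := by
  intro A _ _ _ _ _ _ _ _ _ _ y W₁ W₂ s t _ hs ht _ hm hst hV₁ hV₂
  exact discrAt_node N K ζ T hp hζ hϖp hL0 hF1 hT0 hhor hs ht hm hst hV₁ hV₂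
    (hdep W₁) (hdep W₂)

/-- **Row C4, smooth blocks: the hypothesis `hS` of `CoverBlocks.blocks_above`, verbatim.** -/
theorem hS (hp : p.Prime) (hζ : IsPrimitiveRoot ζ p) {ϖ : O}
    (hϖp : Associated ϖ (p : O)) (hL0 : Module.finrank (LE N K) (L0 N K ζ T) = p ^ k)
    (hF1 : Algebra.adjoin (LE N K) ({zetaF N K ζ} : Set (LE N (cyclo K ζ))) = ⊤)
    (hT0 : ∀ i, T i ≠ 0)
    (hhor : HorData (LE N K) (LE N (cyclo K ζ)) p ϖ (gen N K ζ T))
    (hdep : ∀ W, DepData p (zetaF N K ζ) (gen N K ζ T) (V W)) :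
    ∀ (A : Type) [CommRing A] [IsDomain A] [IsLocalRing A] [IsNoetherianRing A]
      [Algebra O A] [Algebra A (LE N K)] [IsFractionRing A (LE N K)]
      [IsScalarTower O A (LE N K)] [Algebra A (L0 N K ζ T)]
      [IsScalarTower A (LE N K) (L0 N K ζ T)] (y : Y) (W₁ : ι) (z : A),
      (algebraMap A (LE N K)).range = R y →
      Prime (algebraMap O A ϖ) → maximalIdeal A = Ideal.span {algebraMap O A ϖ, z} →
      IsBranch (algebraMap O A ϖ) (V W₁) → CoverBlocks.DiscrAt A (L0 N K ζ T) := by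
  intro A _ _ _ _ _ _ _ _ _ _ y W₁ z _ hϖA hm hV₁
  exact discrAt_smooth N K ζ T hp hζ hϖp hL0 hF1 hT0 hhor hϖA hm hV₁ (hdep W₁)

end Exit

end Fermat.Agent.S33.Geo.CoverUnrE
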