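import Mathlib
import Fermat.Agent.S33.Geo.HDCore
import Fermat.Agent.S33.Geo.HDCmp

/-!
# S33, strand GEO, brick (HD): HD-local in the literals of record

Thin adapters (helper198, S33 RULING #4b) over `S33/Geo/HDCore` in the literals of record of
helper133 (`DepthAt` of `S33/Geo/HDCmp`, common binders `(hϖp : ϖ ∣ p)`, `(hjp : j ≤ p)`,
`(hpϖ : ϖ ^ (j - 1) ∣ p)`), as consumed by `S33/Geo/TopLocal`:

* `hd_node` : at a regular node (`m_R = (s, t)`, `s t = ϖ * unit`), a function with `p`-divisible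
  horizontal orders and depth `≥ j` on both branches is `c h ^ p (1 + ϖ ^ j r)` with `r ∈ R`;
* `hd_smooth` : the same at a smooth point (`ϖ` prime in `R`, `m_R = (ϖ, z)`).

The comparison lemmas (CMP-lead), (CMP-top) of record are `HDCmp.branch_cmp`,
`HDCmp.branch_cmp_top`.
-/

set_option autoImplicit false
set_option linter.unusedSectionVars false
set_option linter.unusedVariables false

namespace Fermat.Agent.S33.Geo.HDLocal

open IsLocalRing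
open Fermat.Agent.S33.Geo.HDCmp (DepthAt)

variable {O : Type*} [CommRing O] [IsDomain O] [IsDiscreteValuationRing O]
  {R : Type*} [CommRing R] [IsDomain R] [IsLocalRing R] [IsNoetherianRing R] [Algebra O R]
  {F : Type*} [Field F] [Algebra R F] [IsFractionRing R F]

/-- `ϖ ^ (max j 2 - 1) ∣ p` from `ϖ ∣ p` and `ϖ ^ (j - 1) ∣ p`. -/
theorem pow_max_sub_one_dvd {p : ℕ} {ϖ : O} (hϖp : ϖ ∣ (p : O)) {j : ℕ}
    (hpϖ : ϖ ^ (j - 1) ∣ (p : O)) : ϖ ^ (max j 2 - 1) ∣ (p : O) := by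
  rcases Nat.lt_or_ge j 2 with h | h
  · rw [max_eq_right (by omega : j ≤ 2)]
    simpa using hϖp
  · rw [max_eq_left h]
    exact hpϖ

/-- **HD-local at a regular node.**  `O` a discrete valuation ring with uniformiser `ϖ ∣ p`,
perfect residue field; `R` a noetherian local domain over `O` with maximal ideal `(s, t)`,
`s`, `t` non-associated primes, `s t = ϖ * unit`; `1 ≤ j ≤ p`, `ϖ ^ (j - 1) ∣ p`.  If `f ∈ Fˣ`
has all horizontal orders divisible by `p` and depth `≥ j` along `s` and along `t`, then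
`f = c h ^ p (1 + ϖ ^ j r)` with `c ∈ O`, `h ∈ Fˣ` and `r ∈ R`. -/
theorem hd_node (p : ℕ) (hp : p.Prime) (ϖ : O) (hϖ : Irreducible ϖ) (hϖp : ϖ ∣ (p : O))
    (hperf : ∀ a : O, ∃ b : O, ϖ ∣ a - b ^ p) (j : ℕ) (hj1 : 1 ≤ j) (hjp : j ≤ p)
    (hpϖ : ϖ ^ (j - 1) ∣ (p : O)) (f : F) (hf : f ≠ 0)
    (hhor : ∀ q : R, Prime q → ¬ q ∣ algebraMap O R ϖ →
      ∃ (a b : R) (h : F), ¬ q ∣ a ∧ ¬ q ∣ b ∧ algebraMap R F b * f = algebraMap R F a * h ^ p)
    (s t : R) (hs : Prime s) (ht : Prime t) (hne : ¬ Associated s t)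
    (hm : maximalIdeal R = Ideal.span {s, t}) (hst : Associated (s * t) (algebraMap O R ϖ))
    (c₁ c₂ : O) (hc₁ : c₁ ≠ 0) (hc₂ : c₂ ≠ 0)
    (hbr₁ : DepthAt p ϖ j s f c₁) (hbr₂ : DepthAt p ϖ j t f c₂) :
    ∃ (c : O) (h : F) (r : R), c ≠ 0 ∧ h ≠ 0 ∧
      f = algebraMap R F (algebraMap O R c) * h ^ p *
        algebraMap R F (1 + algebraMap O R ϖ ^ j * r) := by
  obtain ⟨c, h, r, hc, hfe⟩ := HDCore.hd_node p hp (max j 2) (le_max_right _ _) ϖ hϖ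
    (pow_max_sub_one_dvd hϖp hpϖ) (max_le hjp hp.two_le) hperf s t hs ht hne hm hst f hf hhor
    j hj1 (le_max_left _ _) c₁ c₂ hc₁ hc₂ hbr₁ hbr₂
  refine ⟨c, h, r, hc, ?_, hfe⟩
  rintro rfl
  rw [zero_pow hp.ne_zero, mul_zero, zero_mul] at hfe
  exact hf hfe

/-- **HD-local at a smooth point.**  `ϖ` is a prime element of the noetherian local domain `R`
and `m_R = (ϖ, z)`.  If `f ∈ Fˣ` has all horizontal orders divisible by `p` and depth `≥ j`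
along `ϖ`, then `f = c h ^ p (1 + ϖ ^ j r)` with `c ∈ O`, `h ∈ Fˣ` and `r ∈ R`. -/
theorem hd_smooth (p : ℕ) (hp : p.Prime) (ϖ : O) (hϖ : Irreducible ϖ) (hϖp : ϖ ∣ (p : O))
    (hperf : ∀ a : O, ∃ b : O, ϖ ∣ a - b ^ p) (j : ℕ) (hj1 : 1 ≤ j) (hjp : j ≤ p)
    (hpϖ : ϖ ^ (j - 1) ∣ (p : O)) (f : F) (hf : f ≠ 0)
    (hhor : ∀ q : R, Prime q → ¬ q ∣ algebraMap O R ϖ →
      ∃ (a b : R) (h : F), ¬ q ∣ a ∧ ¬ q ∣ b ∧ algebraMap R F b * f = algebraMap R F a * h ^ p)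
    (z : R) (hϖR : Prime (algebraMap O R ϖ))
    (hm : maximalIdeal R = Ideal.span {algebraMap O R ϖ, z})
    (c₁ : O) (hc₁ : c₁ ≠ 0) (hbr : DepthAt p ϖ j (algebraMap O R ϖ) f c₁) :
    ∃ (c : O) (h : F) (r : R), c ≠ 0 ∧ h ≠ 0 ∧
      f = algebraMap R F (algebraMap O R c) * h ^ p *
        algebraMap R F (1 + algebraMap O R ϖ ^ j * r) := by
  obtain ⟨c, h, r, hc, hfe⟩ := HDCore.hd_smooth p hp (max j 2) (le_max_right _ _) ϖ hϖ
    (pow_max_sub_one_dvd hϖp hpϖ) (max_le hjp hp.two_le) hperf z hϖR hm f hf hhor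
    j hj1 (le_max_left _ _) c₁ hc₁ hbr
  refine ⟨c, h, r, hc, ?_, hfe⟩
  rintro rfl
  rw [zero_pow hp.ne_zero, mul_zero, zero_mul] at hfe
  exact hf hfe

end Fermat.Agent.S33.Geo.HDLocal
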