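import Mathlib
import Fermat.Agent.S33.Geo.Top
import Fermat.Agent.S33.Geo.TopLocal
import Fermat.Agent.S33.Geo.HDLocal
import Fermat.Agent.S33.Geo.Model
import Fermat.Agent.S44.L.NodeCover

/-!
# S33 / GEO / Stage B, row Z1: the tame depth step `1 → 2` over `O₁ = O[ζ_p]`

Level-free (Mathlib + `S33/Geo/{Top, TopLocal, HDLocal, Model}` + `S44/L/NodeCover`).

`O` a discrete valuation ring with uniformiser `ϖ ∼ p` and perfect residue field, `F` a field
over `O` with a model `D : Model.IsModel p ϖ V R On Hor`.  `O₁ = O[lam]` a discrete valuation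
ring with uniformiser `lam`, `(1 + lam) ^ p = 1` (so `lam = ζ_p - 1`), and `F₁ = F(lam)`, the
element `lam` having minimal polynomial `Ψ_p = ((X + 1) ^ p - 1) / X` over `F` (`psi`).  The
generic ring of the component `W` over `O₁` is `V W[lam]` (`adj`).

* `tame_depth_two` : if `f ∈ F₁ˣ` has horizontal divisor divisible by `p` (`HorVal`: in every
  valuation ring of `F₁` containing `O₁` in which `lam` is a unit, `f` is a unit times a `p`-th
  power) and `p`-th-power depth `≥ 1` with respect to `lam` along every `V W[lam]`, then it has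
  depth `≥ 2` along every `V W[lam]`.

Over `O₁` a node `s t ∼ p` of the model is a THICK node (`s t ∼ lam ^ (p - 1)`), where
`HDLocal` does not apply.  The local half goes through a regular cover:

* `reg_node_tame` : the ring `R` of `NodeCover.exists_node_cover` (`𝔪_R = (s', t')`,
  `s' t' = lam`) receives `O₁` and `F₁` (`exists_embed`); `HDLocal.hd_node` in `R` over `O₁`
  gives a local leading term `rR ∈ R`; `TopLocal.reg_branch` compares it with the generic
  leading terms; and `rR` DESCENDS to an element `a₀` of the local ring `A` of the model,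
  congruent to `rR` modulo `s'` and modulo `t'`, because `A / (x)` is a discrete valuation
  ring with uniformiser `t` (`dich`, `exists_not_mem`, `exists_approx`) — no group action, no
  trace, no normality of `A[lam]`;
* `reg_smooth_tame` : the same at a smooth point through the Eisenstein extension
  `A[X] / (X ^ (p - 1) + p θ(X))` (`NodeCover.eis_*`) and `HDLocal.hd_smooth`.

The global half ((CONST0), (VAN) over `O₁` from those of `D`) rests on
`lam V[lam] ∩ V = p V` (`exists_eq_p_mul_of_lam_mul`: division by the monic `Ψ_p` in `V[X]`),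
and the step is `Model.depth_step_of_reg` + `Model.glob_of_root`.

Suppliers of `hmin`: `hmin_of_irreducible`, `hmin_of_linearIndependent`.
-/

set_option autoImplicit false
set_option linter.unusedSectionVars false
set_option linter.unusedVariables false
set_option linter.style.haveILetI false

namespace Fermat.Agent.S33.Geo.TameModel

open Polynomial IsLocalRing
open Fermat.Agent.S33.Geo.Top Fermat.Agent.S33.Geo.TopLocal Fermat.Agent.S33.Geo.Model

universe u

/-! ### The polynomial `Ψ_p` -/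

/-- `Ψ_p(X) = ((X + 1) ^ p - 1) / X`, the minimal polynomial of `ζ_p - 1`. -/
noncomputable def psi (p : ℕ) : ℤ[X] := (cyclotomic p ℤ).comp (X + 1)

section Psi

variable (p : ℕ) [hp : Fact p.Prime]

theorem psi_monic : (psi p).Monic := by
  have h := (cyclotomic.monic p ℤ).comp_X_add_C (1 : ℤ)
  rwa [map_one] at h

theorem X_mul_psi : (X : ℤ[X]) * psi p = (X + 1) ^ p - 1 := by
  have h := congrArg (fun P : ℤ[X] => P.comp (X + 1)) (cyclotomic_prime_mul_X_sub_one ℤ p)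
  simp only [mul_comp, sub_comp, X_comp, one_comp, pow_comp] at h
  rw [psi]
  linear_combination h

theorem psi_eval_zero : (psi p).eval 0 = (p : ℤ) := by
  rw [psi, eval_comp, eval_add, eval_X, eval_one, zero_add, eval_one_cyclotomic_prime]

theorem psi_coeff_zero : (psi p).coeff 0 = (p : ℤ) := by
  rw [coeff_zero_eq_eval_zero, psi_eval_zero]

/-- A nonzero `y` with `(1 + y) ^ p = 1` in a domain is a root of `Ψ_p`. -/
theorem psi_root {D : Type*} [CommRing D] [IsDomain D] {y : D} (hy : y ≠ 0)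
    (h : (1 + y) ^ p = 1) : (psi p).eval₂ (Int.castRingHom D) y = 0 := by
  have h1 := congrArg (eval₂ (Int.castRingHom D) y) (X_mul_psi p)
  simp only [eval₂_mul, eval₂_X, eval₂_sub, eval₂_pow, eval₂_add, eval₂_one] at h1
  rw [add_comm, h, sub_self] at h1
  exact (mul_eq_zero.mp h1).resolve_left hy

/-- `y ∣ p` as soon as `(1 + y) ^ p = 1`, `y ≠ 0`, in a domain. -/
theorem dvd_p_of_root {D : Type*} [CommRing D] [IsDomain D] {y : D} (hy : y ≠ 0)
    (h : (1 + y) ^ p = 1) : y ∣ (p : D) := by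
  have h1 := psi_root p hy h
  rw [← X_mul_divX_add (psi p), eval₂_add, eval₂_mul, eval₂_X, eval₂_C, psi_coeff_zero] at h1
  refine ⟨-(eval₂ (Int.castRingHom D) y (psi p).divX), ?_⟩
  have h2 : (Int.castRingHom D) (p : ℤ) = (p : D) := by simp
  rw [h2] at h1
  linear_combination h1

end Psi

/-! ### The ring `S[lam]` -/

/-- `S[lam]` inside `F₁`: the subring generated by the image of `S ⊆ F` and `lam`. -/
def adj {F F₁ : Type*} [Field F] [Field F₁] [Algebra F F₁] (lam : F₁) (S : Subring F) :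
    Subring F₁ :=
  Subring.closure (algebraMap F F₁ '' (S : Set F) ∪ {lam})

section Adj

variable {F F₁ : Type*} [Field F] [Field F₁] [Algebra F F₁] (lam : F₁) (S : Subring F)

theorem algebraMap_mem_adj {v : F} (hv : v ∈ S) : algebraMap F F₁ v ∈ adj lam S :=
  Subring.subset_closure (Or.inl ⟨v, hv, rfl⟩)

theorem lam_mem_adj : lam ∈ adj lam S := Subring.subset_closure (Or.inr rfl)

theorem adj_mono {S T : Subring F} (h : S ≤ T) : adj lam S ≤ adj lam T :=
  Subring.closure_mono (Set.union_subset_union_left _ (Set.image_mono h))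

/-- The elements of `S[lam]` are the values at `lam` of the polynomials over `S`. -/
theorem mem_adj_iff {x : F₁} : x ∈ adj lam S ↔
    ∃ P : Polynomial S, x = P.eval₂ ((algebraMap F F₁).comp S.subtype) lam := by
  constructor
  · intro hx
    induction hx using Subring.closure_induction with
    | mem y hy =>
      rcases hy with ⟨v, hv, rfl⟩ | rfl
      · exact ⟨C ⟨v, hv⟩, by rw [eval₂_C]; rfl⟩
      · exact ⟨X, by rw [eval₂_X]⟩
    | zero => exact ⟨0, by rw [eval₂_zero]⟩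
    | one => exact ⟨1, by rw [eval₂_one]⟩
    | add y z _ _ hy hz =>
      obtain ⟨P, rfl⟩ := hy
      obtain ⟨Q, rfl⟩ := hz
      exact ⟨P + Q, by rw [eval₂_add]⟩
    | neg y _ hy =>
      obtain ⟨P, rfl⟩ := hy
      exact ⟨-P, by rw [eval₂_neg]⟩
    | mul y z _ _ hy hz =>
      obtain ⟨P, rfl⟩ := hy
      obtain ⟨Q, rfl⟩ := hz
      exact ⟨P * Q, by rw [eval₂_mul]⟩
  · rintro ⟨P, rfl⟩
    rw [eval₂_eq_sum_range]
    refine Subring.sum_mem _ fun i _ => Subring.mul_mem _ ?_ (Subring.pow_mem _ (lam_mem_adj lam S) i)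
    exact algebraMap_mem_adj lam S (P.coeff i).2

/-- `S[lam] = S + lam S[lam]`. -/
theorem adj_decomp {x : F₁} (hx : x ∈ adj lam S) :
    ∃ v : F, v ∈ S ∧ ∃ x' : F₁, x' ∈ adj lam S ∧ x = algebraMap F F₁ v + lam * x' := by
  obtain ⟨P, rfl⟩ := (mem_adj_iff lam S).mp hx
  refine ⟨(P.coeff 0 : F), (P.coeff 0).2, P.divX.eval₂ ((algebraMap F F₁).comp S.subtype) lam,
    (mem_adj_iff lam S).mpr ⟨_, rfl⟩, ?_⟩
  conv_lhs => rw [← X_mul_divX_add P]
  rw [eval₂_add, eval₂_mul, eval₂_X, eval₂_C]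
  rw [add_comm]
  rfl

/-- `lam S[lam] ∩ S ⊆ p S` when `lam` has minimal polynomial `Ψ_p` over `F`. -/
theorem exists_eq_p_mul_of_lam_mul (p : ℕ) [Fact p.Prime]
    (hmin : ∀ G : F[X], aeval lam G = 0 → (psi p).map (algebraMap ℤ F) ∣ G)
    {v : F} (hv : v ∈ S) {x' : F₁} (hx' : x' ∈ adj lam S) (h : algebraMap F F₁ v = lam * x') :
    ∃ w : F, w ∈ S ∧ v = (p : F) * w := by
  obtain ⟨P, rfl⟩ := (mem_adj_iff lam S).mp hx'
  obtain ⟨G, hG⟩ : ∃ G : Polynomial S, G = X * P - C ⟨v, hv⟩ := ⟨_, rfl⟩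
  have hmapG : aeval lam (G.map S.subtype) = 0 := by
    rw [aeval_def, eval₂_map, hG, eval₂_sub, eval₂_mul, eval₂_X, eval₂_C, ← h]
    exact sub_self _
  have hdvd := hmin _ hmapG
  have hmon : ((psi p).map (algebraMap ℤ S)).Monic := (psi_monic p).map _
  have hmapΨ : ((psi p).map (algebraMap ℤ S)).map S.subtype = (psi p).map (algebraMap ℤ F) := by
    rw [Polynomial.map_map]
    congr 1
  have hr : G %ₘ ((psi p).map (algebraMap ℤ S)) = 0 := by
    apply Polynomial.map_injective S.subtype Subtype.val_injective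
    rw [Polynomial.map_modByMonic _ hmon, hmapΨ, Polynomial.map_zero]
    exact (modByMonic_eq_zero_iff_dvd ((psi_monic p).map _)).mpr hdvd
  obtain ⟨Q, hQ⟩ := (modByMonic_eq_zero_iff_dvd hmon).mp hr
  have h0 := congrArg (eval 0) hQ
  rw [hG, eval_sub, eval_mul, eval_X, zero_mul, zero_sub, eval_C, eval_mul, eval_zero_map,
    psi_eval_zero] at h0
  refine ⟨((-(Q.eval 0) : S) : F), SetLike.coe_mem _, ?_⟩
  have h1 := congrArg (Subtype.val : S → F) h0
  simp only [NegMemClass.coe_neg, Subring.coe_mul, eq_intCast, Int.cast_natCast,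
    Subring.coe_natCast] at h1
  rw [NegMemClass.coe_neg]
  linear_combination -h1

end Adj

/-! ### Suppliers of the hypothesis `hmin` -/

section Hmin

variable {F F₁ : Type*} [Field F] [Field F₁] [Algebra F F₁] (p : ℕ) [Fact p.Prime]

theorem psi_natDegree : (psi p).natDegree = p - 1 := by
  have h1 : (X + 1 : ℤ[X]) = X + C 1 := by rw [map_one]
  rw [psi, natDegree_comp, natDegree_cyclotomic, Nat.totient_prime Fact.out, h1,
    natDegree_X_add_C, mul_one]

/-- `lam₁` is a root of `Ψ_p` as soon as `(1 + lam₁) ^ p = 1`, `lam₁ ≠ 0`. -/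
theorem aeval_psi_eq_zero {lam₁ : F₁} (h0 : lam₁ ≠ 0) (h : (1 + lam₁) ^ p = 1) :
    aeval lam₁ ((psi p).map (algebraMap ℤ F)) = 0 := by
  rw [aeval_def, eval₂_map]
  have h1 : (algebraMap F F₁).comp (algebraMap ℤ F) = Int.castRingHom F₁ := RingHom.ext_int _ _
  rw [h1]
  exact psi_root p h0 h

/-- `hmin` from the irreducibility of `Ψ_p` over `F`. -/
theorem hmin_of_irreducible {lam₁ : F₁}
    (hroot : aeval lam₁ ((psi p).map (algebraMap ℤ F)) = 0)
    (hirr : Irreducible ((psi p).map (algebraMap ℤ F))) :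
    ∀ G : F[X], aeval lam₁ G = 0 → (psi p).map (algebraMap ℤ F) ∣ G := by
  intro G hG
  have h1 : (psi p).map (algebraMap ℤ F) = minpoly F lam₁ :=
    minpoly.eq_of_irreducible_of_monic hirr hroot ((psi_monic p).map _)
  rw [h1]
  exact minpoly.dvd F lam₁ hG

/-- `hmin` from the linear independence of `1, lam₁, …, lam₁ ^ (p - 2)` over `F`. -/
theorem hmin_of_linearIndependent {lam₁ : F₁}
    (hroot : aeval lam₁ ((psi p).map (algebraMap ℤ F)) = 0)
    (hli : LinearIndependent F (fun i : Fin (p - 1) => lam₁ ^ (i : ℕ))) :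
    ∀ G : F[X], aeval lam₁ G = 0 → (psi p).map (algebraMap ℤ F) ∣ G := by
  intro G hG
  have hmon : ((psi p).map (algebraMap ℤ F)).Monic := (psi_monic p).map _
  have hdeg : ((psi p).map (algebraMap ℤ F)).natDegree = p - 1 := by
    rw [(psi_monic p).natDegree_map, psi_natDegree]
  rw [← modByMonic_eq_zero_iff_dvd hmon]
  have hr : aeval lam₁ (G %ₘ (psi p).map (algebraMap ℤ F)) = 0 := by
    have h1 := congrArg (aeval lam₁) (modByMonic_add_div G ((psi p).map (algebraMap ℤ F)))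
    rw [map_add, map_mul, hroot, zero_mul, add_zero, hG] at h1
    exact h1
  have hlt : (G %ₘ (psi p).map (algebraMap ℤ F)).natDegree < p - 1 ∨
      G %ₘ (psi p).map (algebraMap ℤ F) = 0 := by
    by_cases h0 : G %ₘ (psi p).map (algebraMap ℤ F) = 0
    · exact Or.inr h0
    · refine Or.inl ?_
      have h2 := natDegree_lt_natDegree h0 (degree_modByMonic_lt G hmon)
      rwa [hdeg] at h2
  rcases hlt with hlt | h0
  · have hsum : ∑ i : Fin (p - 1), (G %ₘ (psi p).map (algebraMap ℤ F)).coeff (i : ℕ)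
        • lam₁ ^ (i : ℕ) = 0 := by
      rw [Fin.sum_univ_eq_sum_range
        (fun i => (G %ₘ (psi p).map (algebraMap ℤ F)).coeff i • lam₁ ^ i) (p - 1)]
      rw [aeval_eq_sum_range' hlt] at hr
      exact hr
    have hcoeff := Fintype.linearIndependent_iff.mp hli _ hsum
    ext i
    rw [coeff_zero]
    by_cases hi : i < p - 1
    · exact hcoeff ⟨i, hi⟩
    · exact coeff_eq_zero_of_natDegree_lt (lt_of_lt_of_le hlt (not_lt.mp hi))
  · exact h0

end Hmin

/-! ### The localisation at a prime element, inside the fraction field -/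

section Branch

variable {R E : Type*} [CommRing R] [IsDomain R] [Field E] [Algebra R E] [IsFractionRing R E]

/-- The localisation `R_(q)` inside `E = Frac R`, for a prime element `q`. -/
def branchRing (q : R) (hq : Prime q) : Subring E where
  carrier := {x | ∃ a b : R, ¬ q ∣ b ∧ x * algebraMap R E b = algebraMap R E a}
  mul_mem' := by
    rintro x y ⟨a, b, hb, hab⟩ ⟨c, d, hd, hcd⟩
    refine ⟨a * c, b * d, fun h => (hq.dvd_or_dvd h).elim hb hd, ?_⟩
    rw [map_mul, map_mul, ← hab, ← hcd]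
    ring
  one_mem' := ⟨1, 1, hq.not_dvd_one, by simp⟩
  add_mem' := by
    rintro x y ⟨a, b, hb, hab⟩ ⟨c, d, hd, hcd⟩
    refine ⟨a * d + c * b, b * d, fun h => (hq.dvd_or_dvd h).elim hb hd, ?_⟩
    simp only [map_mul, map_add]
    rw [← hab, ← hcd]
    ring
  zero_mem' := ⟨0, 1, hq.not_dvd_one, by simp⟩
  neg_mem' := by
    rintro x ⟨a, b, hb, hab⟩
    exact ⟨-a, b, hb, by rw [map_neg, ← hab]; ring⟩

theorem mem_branchRing {q : R} {hq : Prime q} {x : E} :
    x ∈ branchRing (E := E) q hq ↔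
      ∃ a b : R, ¬ q ∣ b ∧ x * algebraMap R E b = algebraMap R E a := Iff.rfl

theorem algebraMap_mem_branchRing (q : R) (hq : Prime q) (a : R) :
    algebraMap R E a ∈ branchRing (E := E) q hq :=
  ⟨a, 1, hq.not_dvd_one, by simp⟩

theorem inv_mem_branchRing (q : R) (hq : Prime q) {b : R} (hb : ¬ q ∣ b) :
    (algebraMap R E b)⁻¹ ∈ branchRing (E := E) q hq := by
  have hb0 : algebraMap R E b ≠ 0 :=
    (map_ne_zero_iff _ (IsFractionRing.injective R E)).mpr (fun h0 => hb (h0 ▸ dvd_zero q))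
  exact ⟨1, b, hb, by rw [inv_mul_cancel₀ hb0, map_one]⟩

/-- `q R_(q) ∩ R = q R`. -/
theorem dvd_of_eq_mul_mem {q : R} {hq : Prime q} {a : R} {v : E}
    (hv : v ∈ branchRing (E := E) q hq) (h : algebraMap R E a = algebraMap R E q * v) :
    q ∣ a := by
  obtain ⟨α, β, hβ, hαβ⟩ := hv
  have h1 : algebraMap R E (a * β) = algebraMap R E (q * α) := by
    rw [map_mul, map_mul, h, ← hαβ]
    ring
  have h2 : a * β = q * α := IsFractionRing.injective R E h1
  exact (hq.dvd_or_dvd ⟨α, h2⟩).resolve_right hβ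

end Branch

/-! ### The branch `A / (x)` of a regular node is a discrete valuation ring -/

section NodeA

variable {A : Type*} [CommRing A] [IsDomain A] [IsLocalRing A] [IsNoetherianRing A]

/-- Modulo `x`, an element is divisible by `t ^ m` or is `t ^ i * unit` with `i < m`. -/
theorem dich {x t : A} (hm : maximalIdeal A = Ideal.span {x, t}) (u : A) (m : ℕ) :
    (∃ c d : A, u = x * c + t ^ m * d) ∨
      ∃ i, i < m ∧ ∃ e c : A, IsUnit e ∧ u = x * c + t ^ i * e := by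
  induction m with
  | zero => exact Or.inl ⟨0, u, by ring⟩
  | succ m ih =>
    rcases ih with ⟨c, d, hu⟩ | ⟨i, hi, e, c, he, hu⟩
    · by_cases hd : IsUnit d
      · exact Or.inr ⟨m, Nat.lt_succ_self m, d, c, hd, hu⟩
      · have hdm : d ∈ maximalIdeal A := (mem_maximalIdeal d).mpr hd
        rw [hm, Ideal.mem_span_pair] at hdm
        obtain ⟨α, β, hαβ⟩ := hdm
        exact Or.inl ⟨c + t ^ m * α, β, by rw [hu, ← hαβ]; ring⟩
    · exact Or.inr ⟨i, by omega, e, c, he, hu⟩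

/-- Krull: an element not divisible by `x` is not in `(x, t ^ m)` for some `m`. -/
theorem exists_not_mem {x t : A} (hm : maximalIdeal A = Ideal.span {x, t}) {b : A}
    (hb : ¬ x ∣ b) : ∃ m : ℕ, ¬ ∃ c d : A, b = x * c + t ^ m * d := by
  by_contra h0
  have h : ∀ m : ℕ, ∃ c d : A, b = x * c + t ^ m * d := fun m => by
    by_contra hm'
    exact h0 ⟨m, hm'⟩
  apply hb
  have ht : t ∈ maximalIdeal A := by
    rw [hm]
    exact Ideal.subset_span (by simp)
  have hmem : (Ideal.Quotient.mk (Ideal.span {x}) b : A ⧸ Ideal.span {x}) ∈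
      (⨅ i : ℕ, (maximalIdeal A) ^ i • ⊤ : Submodule A (A ⧸ Ideal.span {x})) := by
    rw [Submodule.mem_iInf]
    intro m
    obtain ⟨c, d, hcd⟩ := h m
    have h1 : (Ideal.Quotient.mk (Ideal.span {x}) b : A ⧸ Ideal.span {x})
        = (t ^ m) • (Ideal.Quotient.mk (Ideal.span {x}) d) := by
      have h0 : Ideal.Quotient.mk (Ideal.span {x}) x = 0 :=
        Ideal.Quotient.eq_zero_iff_mem.mpr (Ideal.subset_span rfl)
      rw [hcd, map_add, map_mul, h0, zero_mul, zero_add]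
      rfl
    rw [h1]
    exact Submodule.smul_mem_smul (Ideal.pow_mem_pow ht m) Submodule.mem_top
  rw [Ideal.iInf_pow_smul_eq_bot_of_isLocalRing _ (maximalIdeal.isMaximal A).ne_top,
    Submodule.mem_bot, Ideal.Quotient.eq_zero_iff_mem, Ideal.mem_span_singleton] at hmem
  exact hmem

/-- **Regularity on the branch**: if `u / b` (`x ∤ b`) is congruent modulo the branch prime
`s'` of a local ring `R ⊇ A` to an element of `R`, it is congruent modulo `x` to an element
of `A`. -/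
theorem exists_approx {R : Type*} [CommRing R] [IsDomain R] [IsLocalRing R] [Algebra A R]
    {x t : A} (hm : maximalIdeal A = Ideal.span {x, t})
    {s' : R} (hs' : Prime s') (hsx : s' ∣ algebraMap A R x) (hst : ¬ s' ∣ algebraMap A R t)
    (htm : algebraMap A R t ∈ maximalIdeal R)
    {u b : A} (hb : ¬ x ∣ b) {ρ : R} (h : s' ∣ algebraMap A R u - algebraMap A R b * ρ) :
    ∃ a₁ : A, x ∣ u - b * a₁ := by
  obtain ⟨m, hm'⟩ := exists_not_mem hm hb
  rcases dich hm b m with hl | ⟨i, hi, e, c, he, hbe⟩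
  · exact absurd hl hm'
  rcases dich hm u i with ⟨c₁, d, hu⟩ | ⟨j, hj, e', c', he', hu⟩
  · obtain ⟨e, rfl⟩ := he
    refine ⟨d * ↑e⁻¹, ⟨c₁ - c * d * ↑e⁻¹, ?_⟩⟩
    have h1 := e.mul_inv
    rw [hu, hbe]
    linear_combination (-(t ^ i * d)) * h1
  · exfalso
    have hij : algebraMap A R t ^ i = algebraMap A R t ^ j * algebraMap A R t ^ (i - j) := by
      rw [← pow_add]
      congr 1
      omega
    have h1 : s' ∣ algebraMap A R t ^ j * (algebraMap A R e'
        - algebraMap A R t ^ (i - j) * algebraMap A R e * ρ) := by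
      obtain ⟨k, hk⟩ := hsx
      obtain ⟨l, hl⟩ := h
      refine ⟨l - k * algebraMap A R c' + k * algebraMap A R c * ρ, ?_⟩
      have hu' := congrArg (algebraMap A R) hu
      have hb' := congrArg (algebraMap A R) hbe
      simp only [map_add, map_mul, map_pow] at hu' hb'
      linear_combination hl - hu' + ρ * hb' + (ρ * algebraMap A R e) * hij
        + (algebraMap A R c * ρ - algebraMap A R c') * hk
    rcases hs'.dvd_or_dvd h1 with h2 | h2
    · exact hst (hs'.dvd_of_dvd_pow h2)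
    · have h3 : algebraMap A R t ^ (i - j) * algebraMap A R e * ρ ∈ maximalIdeal R :=
        Ideal.mul_mem_right _ _ (Ideal.mul_mem_right _ _
          (Ideal.pow_mem_of_mem _ htm _ (by omega)))
      have h4 : IsUnit (algebraMap A R e') := he'.map (algebraMap A R)
      have hunit : IsUnit (algebraMap A R e'
          - algebraMap A R t ^ (i - j) * algebraMap A R e * ρ) := by
        by_contra hnu
        have h5 := (mem_maximalIdeal _).mpr hnu
        have h6 : algebraMap A R e' ∈ maximalIdeal R := by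
          have := Ideal.add_mem _ h5 h3
          rwa [sub_add_cancel] at this
        exact (mem_maximalIdeal _).mp h6 h4
      exact hs'.not_isUnit (isUnit_of_dvd_unit h2 hunit)

end NodeA

/-! ### Horizontality, in valuation form -/

/-- Horizontal divisor divisible by `p`, in valuation form: in every valuation ring of `F₁`
containing `O₁` in which `lam` is a unit, `f` is a unit times a `p`-th power. -/
def HorVal {O₁ F₁ : Type*} [CommRing O₁] [Field F₁] [Algebra O₁ F₁] (p : ℕ) (lam : O₁)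
    (f : F₁) : Prop :=
  ∀ 𝒱 : ValuationSubring F₁, (∀ a : O₁, algebraMap O₁ F₁ a ∈ 𝒱) →
    (algebraMap O₁ F₁ lam)⁻¹ ∈ 𝒱 → ∃ h e : F₁, e ∈ 𝒱 ∧ e⁻¹ ∈ 𝒱 ∧ f = e * h ^ p

/-! ### The abstract cover: a regular local ring `R` over `O₁` receiving `F₁` -/

section Cover

variable {O₁ : Type*} [CommRing O₁] [IsDomain O₁] [IsDiscreteValuationRing O₁]
  {R : Type*} [CommRing R] [IsDomain R] [IsLocalRing R] [IsNoetherianRing R] [Algebra O₁ R]
  {E : Type*} [Field E] [Algebra R E] [IsFractionRing R E] [Algebra O₁ E] [IsScalarTower O₁ R E]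
  {F₁ : Type*} [Field F₁] [Algebra O₁ F₁]
  (φ : F₁ →+* E) (hφO : ∀ a : O₁, φ (algebraMap O₁ F₁ a) = algebraMap O₁ E a)

theorem isBranch_branchRing (q : R) (hq : Prime q) :
    IsBranch q (branchRing (E := E) q hq) := fun _ => Iff.rfl

include hφO in
/-- The horizontal hypothesis of `HDLocal` in the cover, from `HorVal`. -/
theorem hhor_of_horVal {p : ℕ} {lam : O₁} {f : F₁} (hf : f ≠ 0) (hHor : HorVal p lam f)
    (q : R) (hq : Prime q) (hql : ¬ q ∣ algebraMap O₁ R lam) :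
    ∃ (a b : R) (h : E), ¬ q ∣ a ∧ ¬ q ∣ b ∧
      algebraMap R E b * φ f = algebraMap R E a * h ^ p := by
  classical
  have hinj := IsFractionRing.injective R E
  have hq𝒜 : algebraMap R E q ∈ branchRing (E := E) q hq := algebraMap_mem_branchRing q hq q
  have hI : Ideal.span {(⟨algebraMap R E q, hq𝒜⟩ : branchRing (E := E) q hq)} ≠ ⊤ := by
    intro htop
    have h1 : (1 : branchRing (E := E) q hq) ∈
        Ideal.span {(⟨algebraMap R E q, hq𝒜⟩ : branchRing (E := E) q hq)} :=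
      htop ▸ Submodule.mem_top
    obtain ⟨v, hv⟩ := Ideal.mem_span_singleton'.mp h1
    have h2 : algebraMap R E 1 = algebraMap R E q * (v : E) := by
      have h3 := congrArg (Subtype.val : branchRing (E := E) q hq → E) hv
      rw [Subring.coe_mul, Subring.coe_one] at h3
      rw [map_one, ← h3]
      ring
    exact hq.not_dvd_one (dvd_of_eq_mul_mem v.2 h2)
  obtain ⟨𝒲, h𝒜𝒲, hI𝒲⟩ := Ideal.image_subset_nonunits_valuationSubring _ hI
  have hqnu : algebraMap R E q ∈ 𝒲.nonunits :=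
    hI𝒲 ⟨⟨_, hq𝒜⟩, Ideal.subset_span rfl, rfl⟩
  have hvq : 𝒲.valuation (algebraMap R E q) < 1 := (ValuationSubring.mem_nonunits_iff 𝒲).mp hqnu
  have hqE : algebraMap R E q ≠ 0 := (map_ne_zero_iff _ hinj).mpr hq.ne_zero
  have hvq0 : 𝒲.valuation (algebraMap R E q) ≠ 0 := by
    rw [Ne, map_eq_zero]
    exact hqE
  have hunit : ∀ a : R, ¬ q ∣ a → 𝒲.valuation (algebraMap R E a) = 1 := by
    intro a ha
    have h1 : 𝒲.valuation (algebraMap R E a) ≤ 1 :=
      (𝒲.valuation_le_one_iff _).mpr (h𝒜𝒲 (algebraMap_mem_branchRing q hq a))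
    have h2 : 𝒲.valuation (algebraMap R E a)⁻¹ ≤ 1 :=
      (𝒲.valuation_le_one_iff _).mpr (h𝒜𝒲 (inv_mem_branchRing q hq ha))
    rw [map_inv₀] at h2
    have ha0 : 𝒲.valuation (algebraMap R E a) ≠ 0 := by
      rw [Ne, map_eq_zero]
      exact (map_ne_zero_iff _ hinj).mpr (fun h0 => ha (h0 ▸ dvd_zero q))
    exact le_antisymm h1 ((inv_le_one₀ (zero_lt_iff.mpr ha0)).mp h2)
  have hO𝒱 : ∀ a : O₁, algebraMap O₁ F₁ a ∈ 𝒲.comap φ := by
    intro a
    rw [ValuationSubring.mem_comap, hφO, IsScalarTower.algebraMap_apply O₁ R E]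
    exact h𝒜𝒲 (algebraMap_mem_branchRing q hq _)
  have hlam𝒱 : (algebraMap O₁ F₁ lam)⁻¹ ∈ 𝒲.comap φ := by
    rw [ValuationSubring.mem_comap, map_inv₀, hφO, IsScalarTower.algebraMap_apply O₁ R E]
    exact h𝒜𝒲 (inv_mem_branchRing q hq hql)
  obtain ⟨h, e, he, he', hfe⟩ := hHor (𝒲.comap φ) hO𝒱 hlam𝒱
  have he0 : e ≠ 0 := by
    rintro rfl
    exact hf (by rw [hfe, zero_mul])
  have hφe0 : φ e ≠ 0 := (map_ne_zero φ).mpr he0
  have hve : 𝒲.valuation (φ e) = 1 := by
    have h1 : 𝒲.valuation (φ e) ≤ 1 :=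
      (𝒲.valuation_le_one_iff _).mpr (ValuationSubring.mem_comap.mp he)
    have h2 : 𝒲.valuation (φ e)⁻¹ ≤ 1 := by
      rw [← map_inv₀ φ]
      exact (𝒲.valuation_le_one_iff _).mpr (ValuationSubring.mem_comap.mp he')
    rw [map_inv₀] at h2
    have h0 : 𝒲.valuation (φ e) ≠ 0 := by
      rw [Ne, map_eq_zero]
      exact hφe0
    exact le_antisymm h1 ((inv_le_one₀ (zero_lt_iff.mpr h0)).mp h2)
  obtain ⟨a, b, hb, hab⟩ := IsFractionRing.div_surjective (A := R) (φ e)
  have hb0 : b ≠ 0 := nonZeroDivisors.ne_zero hb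
  have ha0 : a ≠ 0 := by
    rintro rfl
    rw [map_zero, zero_div] at hab
    exact hφe0 hab.symm
  obtain ⟨m, a', ha', rfl⟩ := WfDvdMonoid.max_power_factor ha0 hq.irreducible
  obtain ⟨n, b', hb', rfl⟩ := WfDvdMonoid.max_power_factor hb0 hq.irreducible
  have hb'0 : algebraMap R E b' ≠ 0 :=
    (map_ne_zero_iff _ hinj).mpr (fun h0 => hb' (h0 ▸ dvd_zero q))
  have hrel : φ e * (algebraMap R E q ^ n * algebraMap R E b')
      = algebraMap R E q ^ m * algebraMap R E a' := by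
    rw [← hab]
    simp only [map_mul, map_pow]
    field_simp
  have hval := congrArg 𝒲.valuation hrel
  rw [map_mul, map_mul, map_mul, map_pow, map_pow, hve, hunit a' ha', hunit b' hb', one_mul,
    mul_one, mul_one] at hval
  have hnm : n = m := (pow_right_strictAnti₀ (zero_lt_iff.mpr hvq0) hvq).injective hval
  subst hnm
  refine ⟨a', b', φ h, ha', hb', ?_⟩
  have h3 : φ e * algebraMap R E b' = algebraMap R E a' := by
    apply mul_left_cancel₀ (pow_ne_zero n hqE)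
    linear_combination hrel
  rw [hfe, map_mul, map_pow, ← h3]
  ring

include hφO in
/-- A generic form along a ring mapping into `R_(s')` is a branch form in the cover. -/
theorem depthAt_of_depthIn_cover {p : ℕ} {lam : O₁} {j : ℕ} {V' : Subring F₁} {s' : R}
    (hs' : Prime s') (hV' : ∀ y ∈ V', φ y ∈ branchRing (E := E) s' hs') {f : F₁} {c : O₁}
    (h : DepthIn V' p lam j f c) : HDCmp.DepthAt p lam j s' (φ f) c := by
  obtain ⟨g, r, hr, hf⟩ := h
  refine depthAt_of_depthIn (isBranch_branchRing s' hs') ⟨φ g, φ r, hV' r hr, ?_⟩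
  rw [hf]
  simp only [map_mul, map_pow, map_add, map_one, hφO]

variable {A : Type*} [CommRing A] [IsDomain A] [Algebra A R]
  {F : Type*} [Field F] [Algebra A F] [IsFractionRing A F] [Algebra F F₁]
  (hφA : ∀ a : A, φ (algebraMap F F₁ (algebraMap A F a)) = algebraMap R E (algebraMap A R a))

include hφO hφA in
/-- `V[lam]` maps into `R_(s')`. -/
theorem map_adj_mem {lam : O₁} {x : A} {V : Subring F} (hV : IsBranch x V)
    {s' : R} (hs' : Prime s') (hx' : ∀ b : A, s' ∣ algebraMap A R b → x ∣ b)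
    {y : F₁} (hy : y ∈ adj (algebraMap O₁ F₁ lam) V) : φ y ∈ branchRing (E := E) s' hs' := by
  have hle : adj (algebraMap O₁ F₁ lam) V ≤ (branchRing (E := E) s' hs').comap φ := by
    refine Subring.closure_le.mpr ?_
    rintro z (⟨v, hv, rfl⟩ | rfl)
    · obtain ⟨u, b, hb, hub⟩ := (hV v).mp hv
      refine ⟨algebraMap A R u, algebraMap A R b, fun h => hb (hx' b h), ?_⟩
      rw [← hφA, ← hφA, ← map_mul, ← map_mul, hub]
    · show φ (algebraMap O₁ F₁ lam) ∈ branchRing (E := E) s' hs'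
      rw [hφO, IsScalarTower.algebraMap_apply O₁ R E]
      exact algebraMap_mem_branchRing s' hs' _
  exact hle hy

include hφO hφA in
/-- An element of `V[lam]` whose image is divisible by `s'` in `R_(s')` lies in `lam V[lam]`. -/
theorem memPi_of_image {p : ℕ} {lam : O₁} (hlp : lam ∣ (p : O₁))
    {x : A} (hxP : Prime x) {V : Subring F} (hV : IsBranch x V) {w₀ : A}
    (hxw : (p : A) = x * w₀) (hw₀ : ¬ x ∣ w₀)
    {s' w : R} (hs' : Prime s') (hsw : algebraMap O₁ R lam = s' * w)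
    (hx' : ∀ b : A, s' ∣ algebraMap A R b → x ∣ b)
    (hO₁V : ∀ a : O₁, algebraMap O₁ F₁ a ∈ adj (algebraMap O₁ F₁ lam) V)
    {z : F₁} (hz : z ∈ adj (algebraMap O₁ F₁ lam) V)
    (hφz : ∃ v : E, v ∈ branchRing (E := E) s' hs' ∧ φ z = algebraMap R E s' * v) :
    MemPi (adj (algebraMap O₁ F₁ lam) V) lam z := by
  have hinjA := IsFractionRing.injective A F
  obtain ⟨v₀, hv₀, z', hz', rfl⟩ := adj_decomp _ _ hz
  obtain ⟨v, hv, hφz⟩ := hφz
  have hφz' := map_adj_mem φ hφO hφA hV hs' hx' hz'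
  obtain ⟨u, b, hb, hub⟩ := (hV v₀).mp hv₀
  have hlamE : φ (algebraMap O₁ F₁ lam) = algebraMap R E s' * algebraMap R E w := by
    rw [hφO, IsScalarTower.algebraMap_apply O₁ R E, hsw, map_mul]
  have hsu : s' ∣ algebraMap A R u := by
    refine dvd_of_eq_mul_mem (q := s') (hq := hs')
      (v := (v - algebraMap R E w * φ z') * algebraMap R E (algebraMap A R b)) ?_ ?_
    · exact Subring.mul_mem _ (Subring.sub_mem _ hv
        (Subring.mul_mem _ (algebraMap_mem_branchRing s' hs' w) hφz'))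
        (algebraMap_mem_branchRing s' hs' _)
    · rw [← hφA, ← hub, map_mul, map_mul, hφA b]
      rw [map_add, map_mul, hlamE] at hφz
      linear_combination (algebraMap R E (algebraMap A R b)) * hφz
  obtain ⟨u', rfl⟩ := hx' u hsu
  have hb0 : algebraMap A F b ≠ 0 :=
    (map_ne_zero_iff _ hinjA).mpr (fun h0 => hb (h0 ▸ dvd_zero x))
  have hw0 : algebraMap A F w₀ ≠ 0 :=
    (map_ne_zero_iff _ hinjA).mpr (fun h0 => hw₀ (h0 ▸ dvd_zero x))
  have hv₁ : algebraMap A F u' / (algebraMap A F b * algebraMap A F w₀) ∈ V := by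
    rw [hV]
    exact ⟨u', b * w₀, fun h => (hxP.dvd_or_dvd h).elim hb hw₀,
      by rw [map_mul, div_mul_cancel₀ _ (mul_ne_zero hb0 hw0)]⟩
  have hv₀eq : v₀ = (p : F) * (algebraMap A F u' / (algebraMap A F b * algebraMap A F w₀)) := by
    have hpF : (p : F) = algebraMap A F x * algebraMap A F w₀ := by
      rw [← map_mul, ← hxw, map_natCast]
    rw [hpF]
    rw [map_mul] at hub
    field_simp
    linear_combination hub
  obtain ⟨π, hπ⟩ := hlp
  refine ⟨algebraMap O₁ F₁ π * algebraMap F F₁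
    (algebraMap A F u' / (algebraMap A F b * algebraMap A F w₀)) + z', ?_, ?_⟩
  · exact Subring.add_mem _ (Subring.mul_mem _ (hO₁V π) (algebraMap_mem_adj _ _ hv₁)) hz'
  · have hpF₁ : (p : F₁) = algebraMap O₁ F₁ lam * algebraMap O₁ F₁ π := by
      rw [← map_mul, ← hπ, map_natCast]
    rw [hv₀eq, map_mul, map_natCast, hpF₁]
    ring

include hφO hφA in
/-- **`reg` on one branch through the cover**: the leading term of any generic form along
`V[lam]` is the descended local leading term `a₀ ∈ A` up to a constant, modulo `lam V[lam]`. -/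
theorem reg_branch_cover {p : ℕ} (hp : p.Prime) {lam : O₁} (hlam : Irreducible lam)
    (hlp : lam ∣ (p : O₁)) (hperf₁ : ∀ a : O₁, ∃ b : O₁, lam ∣ a - b ^ p)
    {x : A} (hxP : Prime x) {V : Subring F} (hV : IsBranch x V) {w₀ : A}
    (hxw : (p : A) = x * w₀) (hw₀ : ¬ x ∣ w₀)
    {s' w : R} (hs' : Prime s') (hsw : algebraMap O₁ R lam = s' * w) (hw : ¬ s' ∣ w)
    (hx' : ∀ b : A, s' ∣ algebraMap A R b → x ∣ b)
    (hO₁V : ∀ a : O₁, algebraMap O₁ F₁ a ∈ adj (algebraMap O₁ F₁ lam) V)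
    {f : F₁} (hf : f ≠ 0) (cy : O₁) (hcy : cy ≠ 0) (h : E) (rR : R)
    (hpt : φ f = algebraMap R E (algebraMap O₁ R cy) * h ^ p *
      algebraMap R E (1 + algebraMap O₁ R lam ^ 1 * rR))
    (a₀ : A) (ha₀ : s' ∣ algebraMap A R a₀ - rR)
    (c : O₁) (g r : F₁) (hc : c ≠ 0) (hr : r ∈ adj (algebraMap O₁ F₁ lam) V)
    (hgen : f = algebraMap O₁ F₁ c * g ^ p * (1 + algebraMap O₁ F₁ lam ^ 1 * r)) :
    ∃ κ : O₁, MemPi (adj (algebraMap O₁ F₁ lam) V) lam
      (r - algebraMap F F₁ (algebraMap A F a₀) + algebraMap O₁ F₁ κ) := by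
  have hφr := map_adj_mem φ hφO hφA hV hs' hx' hr
  have hgen' : φ f = algebraMap O₁ E c * (φ g) ^ p * (1 + algebraMap O₁ E lam ^ 1 * φ r) := by
    rw [hgen]
    simp only [map_mul, map_pow, map_add, map_one, hφO]
  have hφf : φ f ≠ 0 := (map_ne_zero φ).mpr hf
  obtain ⟨κ, v, hv, hκ⟩ := reg_branch p hp lam hlam hperf₁ (φ f) hφf s' w hs' hsw hw
    (isBranch_branchRing s' hs') 1 le_rfl hp.two_le (by simpa using hlp) cy hcy h rR hpt c
    (φ g) (φ r) hc hφr hgen'
  have ha₀V : algebraMap A F a₀ ∈ V := (hV _).mpr ⟨a₀, 1, hxP.not_dvd_one, by simp⟩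
  refine ⟨κ, memPi_of_image φ hφO hφA hlp hxP hV hxw hw₀ hs' hsw hx' hO₁V ?_ ?_⟩
  · exact Subring.add_mem _ (Subring.sub_mem _ hr (algebraMap_mem_adj _ _ ha₀V)) (hO₁V κ)
  · obtain ⟨k, hk⟩ := ha₀
    refine ⟨algebraMap R E w * v - algebraMap R E k, ?_, ?_⟩
    · exact Subring.sub_mem _ (Subring.mul_mem _ (algebraMap_mem_branchRing s' hs' w) hv)
        (algebraMap_mem_branchRing s' hs' k)
    · have hlamE : algebraMap O₁ E lam = algebraMap R E s' * algebraMap R E w := by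
        rw [IsScalarTower.algebraMap_apply O₁ R E, hsw, map_mul]
      have hk' := congrArg (algebraMap R E) hk
      rw [map_sub, map_mul] at hk'
      rw [hlamE] at hκ
      rw [map_add, map_sub, hφA, hφO]
      linear_combination hκ - hk'

include hφO hφA in
/-- **The local leading term descends on one branch**: there is `a₁ ∈ A` congruent to the local
leading term `rR` of the cover modulo the branch prime `s'`. -/
theorem exists_approx_branch [IsLocalRing A] [IsNoetherianRing A] {p : ℕ} (hp : p.Prime)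
    {lam : O₁} (hlam : Irreducible lam) (hlp : lam ∣ (p : O₁))
    (hperf₁ : ∀ a : O₁, ∃ b : O₁, lam ∣ a - b ^ p)
    {x t : A} (hmA : maximalIdeal A = Ideal.span {x, t}) {V : Subring F} (hV : IsBranch x V)
    {s' w : R} (hs' : Prime s') (hsw : algebraMap O₁ R lam = s' * w) (hw : ¬ s' ∣ w)
    (hsx : s' ∣ algebraMap A R x) (hst : ¬ s' ∣ algebraMap A R t)
    (htm : algebraMap A R t ∈ maximalIdeal R)
    (hx' : ∀ b : A, s' ∣ algebraMap A R b → x ∣ b)
    (hO₁V : ∀ a : O₁, algebraMap O₁ F₁ a ∈ adj (algebraMap O₁ F₁ lam) V)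
    {f : F₁} (hf : f ≠ 0) (cy : O₁) (hcy : cy ≠ 0) (h : E) (rR : R)
    (hpt : φ f = algebraMap R E (algebraMap O₁ R cy) * h ^ p *
      algebraMap R E (1 + algebraMap O₁ R lam ^ 1 * rR))
    (hD : ∃ c : O₁, c ≠ 0 ∧ DepthIn (adj (algebraMap O₁ F₁ lam) V) p lam 1 f c) :
    ∃ a₁ : A, s' ∣ algebraMap A R a₁ - rR := by
  obtain ⟨c, hc, g, r, hr, hgen⟩ := hD
  have hφr := map_adj_mem φ hφO hφA hV hs' hx' hr
  have hgen' : φ f = algebraMap O₁ E c * (φ g) ^ p * (1 + algebraMap O₁ E lam ^ 1 * φ r) := by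
    rw [hgen]
    simp only [map_mul, map_pow, map_add, map_one, hφO]
  have hφf : φ f ≠ 0 := (map_ne_zero φ).mpr hf
  obtain ⟨κ, v, hv, hκ⟩ := reg_branch p hp lam hlam hperf₁ (φ f) hφf s' w hs' hsw hw
    (isBranch_branchRing s' hs') 1 le_rfl hp.two_le (by simpa using hlp) cy hcy h rR hpt c
    (φ g) (φ r) hc hφr hgen'
  have hz₁ : r + algebraMap O₁ F₁ κ ∈ adj (algebraMap O₁ F₁ lam) V :=
    Subring.add_mem _ hr (hO₁V κ)
  obtain ⟨v₁, hv₁, z', hz', hzeq⟩ := adj_decomp _ _ hz₁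
  have hφz' := map_adj_mem φ hφO hφA hV hs' hx' hz'
  obtain ⟨u, b, hb, hub⟩ := (hV v₁).mp hv₁
  have hlamE : algebraMap O₁ E lam = algebraMap R E s' * algebraMap R E w := by
    rw [IsScalarTower.algebraMap_apply O₁ R E, hsw, map_mul]
  have hdiv : s' ∣ algebraMap A R u - algebraMap A R b * rR := by
    refine dvd_of_eq_mul_mem (q := s') (hq := hs')
      (v := algebraMap R E (algebraMap A R b) * (algebraMap R E w * v - algebraMap R E w * φ z'))
      ?_ ?_
    · exact Subring.mul_mem _ (algebraMap_mem_branchRing s' hs' _)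
        (Subring.sub_mem _ (Subring.mul_mem _ (algebraMap_mem_branchRing s' hs' w) hv)
          (Subring.mul_mem _ (algebraMap_mem_branchRing s' hs' w) hφz'))
    · have h1 := congrArg φ hzeq
      rw [map_add, map_add, map_mul, hφO, hφO, hlamE] at h1
      have h2 : φ (algebraMap F F₁ v₁) * algebraMap R E (algebraMap A R b)
          = algebraMap R E (algebraMap A R u) := by
        rw [← hφA, ← hφA, ← map_mul, ← map_mul, hub]
      rw [hlamE] at hκ
      rw [map_sub, map_mul]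
      linear_combination (algebraMap R E (algebraMap A R b)) * hκ
        - (algebraMap R E (algebraMap A R b)) * h1 - h2
  obtain ⟨a₁, ha₁⟩ := exists_approx hmA hs' hsx hst htm hb hdiv
  refine ⟨a₁, ?_⟩
  have h3 : s' ∣ algebraMap A R b * (algebraMap A R a₁ - rR) := by
    have h4 : s' ∣ algebraMap A R (u - b * a₁) := hsx.trans (map_dvd (algebraMap A R) ha₁)
    have h5 := dvd_sub hdiv h4
    have h6 : algebraMap A R b * (algebraMap A R a₁ - rR)
        = algebraMap A R u - algebraMap A R b * rR - algebraMap A R (u - b * a₁) := by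
      rw [map_sub, map_mul]
      ring
    rw [h6]
    exact h5
  exact (hs'.dvd_or_dvd h3).resolve_left (fun h => hb (hx' b h))

include hφO hφA in
/-- **`reg` at depth `1` over `O₁` at a thick node**, through a regular cover `R` of the node:
ONE local leading term `a₀ ∈ A` for both branches. -/
theorem reg_node_cover [IsLocalRing A] [IsNoetherianRing A] {p : ℕ} (hp : p.Prime)
    {lam : O₁} (hlam : Irreducible lam) (hlp : lam ∣ (p : O₁))
    (hperf₁ : ∀ a : O₁, ∃ b : O₁, lam ∣ a - b ^ p)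
    {x t : A} (hx : Prime x) (ht : Prime t) (hmA : maximalIdeal A = Ideal.span {x, t})
    (hxt : x * t = (p : A)) (hnxt : ¬ x ∣ t) (hntx : ¬ t ∣ x)
    {V₁ V₂ : Subring F} (hV₁ : IsBranch x V₁) (hV₂ : IsBranch t V₂)
    {s' t' : R} (hs' : Prime s') (ht' : Prime t') (hne' : ¬ Associated s' t')
    (hmR : maximalIdeal R = Ideal.span {s', t'}) (hlamR : algebraMap O₁ R lam = s' * t')
    (hsx : s' ∣ algebraMap A R x) (htt : t' ∣ algebraMap A R t)
    (hdx : ∀ b : A, s' ∣ algebraMap A R b → x ∣ b)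
    (hdt : ∀ b : A, t' ∣ algebraMap A R b → t ∣ b)
    (hO₁V₁ : ∀ a : O₁, algebraMap O₁ F₁ a ∈ adj (algebraMap O₁ F₁ lam) V₁)
    (hO₁V₂ : ∀ a : O₁, algebraMap O₁ F₁ a ∈ adj (algebraMap O₁ F₁ lam) V₂)
    {f : F₁} (hf : f ≠ 0) (hHor : HorVal p lam f)
    (hD₁ : ∃ c : O₁, c ≠ 0 ∧ DepthIn (adj (algebraMap O₁ F₁ lam) V₁) p lam 1 f c)
    (hD₂ : ∃ c : O₁, c ≠ 0 ∧ DepthIn (adj (algebraMap O₁ F₁ lam) V₂) p lam 1 f c) :
    ∃ a₀ : A,
      (∀ (c : O₁) (g r : F₁), c ≠ 0 → r ∈ adj (algebraMap O₁ F₁ lam) V₁ →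
        f = algebraMap O₁ F₁ c * g ^ p * (1 + algebraMap O₁ F₁ lam ^ 1 * r) →
        ∃ κ : O₁, MemPi (adj (algebraMap O₁ F₁ lam) V₁) lam
          (r - algebraMap F F₁ (algebraMap A F a₀) + algebraMap O₁ F₁ κ)) ∧
      (∀ (c : O₁) (g r : F₁), c ≠ 0 → r ∈ adj (algebraMap O₁ F₁ lam) V₂ →
        f = algebraMap O₁ F₁ c * g ^ p * (1 + algebraMap O₁ F₁ lam ^ 1 * r) →
        ∃ κ : O₁, MemPi (adj (algebraMap O₁ F₁ lam) V₂) lam
          (r - algebraMap F F₁ (algebraMap A F a₀) + algebraMap O₁ F₁ κ)) := by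
  have hφf : φ f ≠ 0 := (map_ne_zero φ).mpr hf
  have hst' : ¬ s' ∣ t' := fun hd => hne' (hs'.associated_of_dvd ht' hd)
  have hts' : ¬ t' ∣ s' := fun hd => hne' (ht'.associated_of_dvd hs' hd).symm
  obtain ⟨c₁, hc₁, hDc₁⟩ := hD₁
  obtain ⟨c₂, hc₂, hDc₂⟩ := hD₂
  have hbr₁ : HDCmp.DepthAt p lam 1 s' (φ f) c₁ :=
    depthAt_of_depthIn_cover φ hφO hs' (fun y hy => map_adj_mem φ hφO hφA hV₁ hs' hdx hy) hDc₁
  have hbr₂ : HDCmp.DepthAt p lam 1 t' (φ f) c₂ :=
    depthAt_of_depthIn_cover φ hφO ht' (fun y hy => map_adj_mem φ hφO hφA hV₂ ht' hdt hy) hDc₂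
  obtain ⟨cy, h, rR, hcy, -, hpt⟩ := HDLocal.hd_node p hp lam hlam hlp hperf₁ 1 le_rfl
    hp.one_le (by simp) (φ f) hφf (fun q hq hql => hhor_of_horVal φ hφO hf hHor q hq hql)
    s' t' hs' ht' hne' hmR (by rw [hlamR]) c₁ c₂ hc₁ hc₂ hbr₁ hbr₂
  have hlamR' : algebraMap O₁ R lam = t' * s' := by rw [hlamR, mul_comm]
  have hs'm : s' ∈ maximalIdeal R := by
    rw [hmR]
    exact Ideal.subset_span (by simp)
  have ht'm : t' ∈ maximalIdeal R := by
    rw [hmR]
    exact Ideal.subset_span (by simp)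
  have htm : algebraMap A R t ∈ maximalIdeal R := by
    obtain ⟨k, hk⟩ := htt
    rw [hk]
    exact Ideal.mul_mem_right _ _ ht'm
  have hxm : algebraMap A R x ∈ maximalIdeal R := by
    obtain ⟨k, hk⟩ := hsx
    rw [hk]
    exact Ideal.mul_mem_right _ _ hs'm
  obtain ⟨a₁, ha₁⟩ := exists_approx_branch φ hφO hφA hp hlam hlp hperf₁ hmA hV₁ hs' hlamR hst'
    hsx (fun h => hnxt (hdx t h)) htm hdx hO₁V₁ hf cy hcy h rR hpt ⟨c₁, hc₁, hDc₁⟩
  have hmA' : maximalIdeal A = Ideal.span {t, x} := by rw [hmA, Set.pair_comm]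
  obtain ⟨a₂, ha₂⟩ := exists_approx_branch φ hφO hφA hp hlam hlp hperf₁ hmA' hV₂ ht' hlamR' hts'
    htt (fun h => hntx (hdt x h)) hxm hdt hO₁V₂ hf cy hcy h rR hpt ⟨c₂, hc₂, hDc₂⟩
  have hmem : a₁ - a₂ ∈ maximalIdeal A := by
    rw [mem_maximalIdeal, mem_nonunits_iff]
    intro hu
    have hu' : IsUnit (algebraMap A R (a₁ - a₂)) := hu.map _
    have h12 : algebraMap A R (a₁ - a₂) = (algebraMap A R a₁ - rR) - (algebraMap A R a₂ - rR) := by
      rw [map_sub]
      ring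
    have h13 : algebraMap A R (a₁ - a₂) ∈ maximalIdeal R := by
      rw [h12]
      obtain ⟨k₁, hk₁⟩ := ha₁
      obtain ⟨k₂, hk₂⟩ := ha₂
      rw [hk₁, hk₂]
      exact Ideal.sub_mem _ (Ideal.mul_mem_right _ _ hs'm) (Ideal.mul_mem_right _ _ ht'm)
    exact (mem_maximalIdeal _).mp h13 hu'
  rw [hmA, Ideal.mem_span_pair] at hmem
  obtain ⟨α, β, hαβ⟩ := hmem
  have ha₀s : s' ∣ algebraMap A R (a₁ - α * x) - rR := by
    have h7 : algebraMap A R (a₁ - α * x) - rR
        = (algebraMap A R a₁ - rR) - algebraMap A R α * algebraMap A R x := by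
      rw [map_sub, map_mul]
      ring
    rw [h7]
    exact dvd_sub ha₁ (Dvd.dvd.mul_left hsx _)
  have ha₀t : t' ∣ algebraMap A R (a₁ - α * x) - rR := by
    have h7 : algebraMap A R (a₁ - α * x) - rR
        = (algebraMap A R a₂ - rR) + algebraMap A R β * algebraMap A R t := by
      have h8 := congrArg (algebraMap A R) hαβ
      simp only [map_add, map_mul, map_sub] at h8 ⊢
      linear_combination -h8
    rw [h7]
    exact dvd_add ha₂ (Dvd.dvd.mul_left htt _)
  refine ⟨a₁ - α * x, fun c g r hc hr hgen => ?_, fun c g r hc hr hgen => ?_⟩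
  · exact reg_branch_cover φ hφO hφA hp hlam hlp hperf₁ hx hV₁ hxt.symm hnxt hs' hlamR hst' hdx
      hO₁V₁ hf cy hcy h rR hpt _ ha₀s c g r hc hr hgen
  · exact reg_branch_cover φ hφO hφA hp hlam hlp hperf₁ ht hV₂ (by rw [← hxt, mul_comm]) hntx ht'
      hlamR' hts' hdt hO₁V₂ hf cy hcy h rR hpt _ ha₀t c g r hc hr hgen

include hφO hφA in
/-- **`reg` at depth `1` over `O₁` at a smooth point**, through the Eisenstein extension `R`
of the local ring `A`. -/
theorem reg_smooth_cover {p : ℕ} (hp : p.Prime)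
    {lam : O₁} (hlam : Irreducible lam) (hlp : lam ∣ (p : O₁))
    (hperf₁ : ∀ a : O₁, ∃ b : O₁, lam ∣ a - b ^ p)
    {x w₀ : A} (hx : Prime x) (hxw : (p : A) = x * w₀) (hw₀ : ¬ x ∣ w₀)
    {V₁ : Subring F} (hV₁ : IsBranch x V₁)
    (z' : R) (hlamP : Prime (algebraMap O₁ R lam))
    (hmR : maximalIdeal R = Ideal.span {algebraMap O₁ R lam, z'})
    (hdx : ∀ b : A, algebraMap O₁ R lam ∣ algebraMap A R b → x ∣ b)
    (happ : ∀ c : R, ∃ b : A, algebraMap O₁ R lam ∣ c - algebraMap A R b)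
    (hO₁V₁ : ∀ a : O₁, algebraMap O₁ F₁ a ∈ adj (algebraMap O₁ F₁ lam) V₁)
    {f : F₁} (hf : f ≠ 0) (hHor : HorVal p lam f)
    (hD₁ : ∃ c : O₁, c ≠ 0 ∧ DepthIn (adj (algebraMap O₁ F₁ lam) V₁) p lam 1 f c) :
    ∃ a₀ : A, ∀ (c : O₁) (g r : F₁), c ≠ 0 → r ∈ adj (algebraMap O₁ F₁ lam) V₁ →
      f = algebraMap O₁ F₁ c * g ^ p * (1 + algebraMap O₁ F₁ lam ^ 1 * r) →
      ∃ κ : O₁, MemPi (adj (algebraMap O₁ F₁ lam) V₁) lam
        (r - algebraMap F F₁ (algebraMap A F a₀) + algebraMap O₁ F₁ κ) := by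
  have hφf : φ f ≠ 0 := (map_ne_zero φ).mpr hf
  obtain ⟨c₁, hc₁, hDc₁⟩ := hD₁
  have hbr₁ : HDCmp.DepthAt p lam 1 (algebraMap O₁ R lam) (φ f) c₁ :=
    depthAt_of_depthIn_cover φ hφO hlamP
      (fun y hy => map_adj_mem φ hφO hφA hV₁ hlamP hdx hy) hDc₁
  obtain ⟨cy, h, rR, hcy, -, hpt⟩ := HDLocal.hd_smooth p hp lam hlam hlp hperf₁ 1 le_rfl
    hp.one_le (by simp) (φ f) hφf (fun q hq hql => hhor_of_horVal φ hφO hf hHor q hq hql)
    z' hlamP hmR c₁ hc₁ hbr₁
  obtain ⟨a₀, ha₀⟩ := happ rR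
  have ha₀' : algebraMap O₁ R lam ∣ algebraMap A R a₀ - rR := by
    rw [← neg_sub]
    exact (dvd_neg).mpr ha₀
  exact ⟨a₀, fun c g r hc hr hgen => reg_branch_cover φ hφO hφA hp hlam hlp hperf₁ hx hV₁ hxw
    hw₀ hlamP (mul_one _).symm hlamP.not_dvd_one hdx hO₁V₁ hf cy hcy h rR hpt a₀ ha₀' c g r hc
    hr hgen⟩

end Cover

/-! ### The embedding of `F₁ = F(lam)` into the fraction field of a cover -/

section Embed

variable {O : Type*} [CommRing O] {A : Type*} [CommRing A] [IsDomain A] [Algebra O A]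
  {F : Type*} [Field F] [Algebra A F] [IsFractionRing A F] [Algebra O F] [IsScalarTower O A F]
  {O₁ : Type*} [CommRing O₁] [Algebra O O₁]
  {F₁ : Type*} [Field F₁] [Algebra F F₁] [Algebra O₁ F₁]
  {R : Type*} [CommRing R] [IsDomain R] [Algebra A R]

/-- A domain `R ⊇ A` containing a `y ≠ 0` with `(1 + y) ^ p = 1` receives `F₁ = F(lam)`
(`lam ↦ y`) in its fraction field, and `O₁ = O[lam]` in `R` itself. -/
theorem exists_embed (p : ℕ) [Fact p.Prime] {lam : O₁} (hlam0 : lam ≠ 0)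
    (hζ : (1 + lam) ^ p = 1)
    (hO₁ : ∀ a : O₁, ∃ P : O[X], a = P.eval₂ (algebraMap O O₁) lam)
    (hcomm : ∀ c : O, algebraMap F F₁ (algebraMap O F c) = algebraMap O₁ F₁ (algebraMap O O₁ c))
    (hinj₁ : Function.Injective (algebraMap O₁ F₁))
    (hgen : Algebra.adjoin F {algebraMap O₁ F₁ lam} = ⊤)
    (hmin : ∀ G : F[X], aeval (algebraMap O₁ F₁ lam) G = 0 →
      (psi p).map (algebraMap ℤ F) ∣ G)
    (hinjAR : Function.Injective (algebraMap A R)) {y : R} (hy0 : y ≠ 0)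
    (hy : (1 + y) ^ p = 1) :
    ∃ (φ : F₁ →+* FractionRing R) (ψ : O₁ →+* R),
      (∀ a : A, φ (algebraMap F F₁ (algebraMap A F a))
        = algebraMap R (FractionRing R) (algebraMap A R a)) ∧
      (∀ a : O₁, φ (algebraMap O₁ F₁ a) = algebraMap R (FractionRing R) (ψ a)) ∧
      ψ lam = y := by
  have hinjRE := IsFractionRing.injective R (FractionRing R)
  have hg : Function.Injective ((algebraMap R (FractionRing R)).comp (algebraMap A R)) :=
    hinjRE.comp hinjAR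
  have hι : ∀ a : A, IsFractionRing.lift hg (algebraMap A F a)
      = algebraMap R (FractionRing R) (algebraMap A R a) :=
    fun a => IsFractionRing.lift_algebraMap hg a
  letI : Algebra F (FractionRing R) := (IsFractionRing.lift hg : F →+* FractionRing R).toAlgebra
  have halg : ∀ v : F, algebraMap F (FractionRing R) v = IsFractionRing.lift hg v := fun _ => rfl
  -- `lam₁` is a root of `Ψ_p`
  have hlam₁0 : algebraMap O₁ F₁ lam ≠ 0 := (map_ne_zero_iff _ hinj₁).mpr hlam0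
  have hζ₁ : (1 + algebraMap O₁ F₁ lam) ^ p = 1 := by
    rw [← map_one (algebraMap O₁ F₁), ← map_add, ← map_pow, hζ]
  have hΨF : aeval (algebraMap O₁ F₁ lam) ((psi p).map (algebraMap ℤ F)) = 0 := by
    rw [aeval_def, eval₂_map]
    have h1 : (algebraMap F F₁).comp (algebraMap ℤ F) = Int.castRingHom F₁ := RingHom.ext_int _ _
    rw [h1]
    exact psi_root p hlam₁0 hζ₁
  have hint : IsIntegral F (algebraMap O₁ F₁ lam) :=
    ⟨(psi p).map (algebraMap ℤ F), (psi_monic p).map _, hΨF⟩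
  have hyE0 : algebraMap R (FractionRing R) y ≠ 0 := (map_ne_zero_iff _ hinjRE).mpr hy0
  have hyE1 : (1 + algebraMap R (FractionRing R) y) ^ p = 1 := by
    rw [← map_one (algebraMap R (FractionRing R)), ← map_add, ← map_pow, hy]
  have hΨE : aeval (algebraMap R (FractionRing R) y) ((psi p).map (algebraMap ℤ F)) = 0 := by
    rw [aeval_def, eval₂_map]
    have h1 : (algebraMap F (FractionRing R)).comp (algebraMap ℤ F)
        = Int.castRingHom (FractionRing R) := RingHom.ext_int _ _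
    rw [h1]
    exact psi_root p hyE0 hyE1
  have hpbgen : (PowerBasis.ofAdjoinEqTop' hint hgen).gen = algebraMap O₁ F₁ lam :=
    PowerBasis.ofAdjoinEqTop'_gen hint hgen
  have hyE : aeval (algebraMap R (FractionRing R) y)
      (minpoly F (PowerBasis.ofAdjoinEqTop' hint hgen).gen) = 0 := by
    rw [hpbgen]
    obtain ⟨c, hc⟩ := hmin _ (minpoly.aeval F (algebraMap O₁ F₁ lam))
    rw [hc, map_mul, hΨE, zero_mul]
  obtain ⟨φA, hφA⟩ : ∃ φA : F₁ →ₐ[F] FractionRing R,
      φA (algebraMap O₁ F₁ lam) = algebraMap R (FractionRing R) y := by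
    refine ⟨(PowerBasis.ofAdjoinEqTop' hint hgen).lift _ hyE, ?_⟩
    exact (congrArg ((PowerBasis.ofAdjoinEqTop' hint hgen).lift _ hyE) hpbgen.symm).trans
      (PowerBasis.lift_gen _ _ hyE)
  have hφF : ∀ v : F, (φA : F₁ →+* FractionRing R) (algebraMap F F₁ v)
      = IsFractionRing.lift hg v := fun v => φA.commutes v
  have hmem : ∀ a : O₁, (φA : F₁ →+* FractionRing R) (algebraMap O₁ F₁ a)
      ∈ (algebraMap R (FractionRing R)).range := by
    intro a
    obtain ⟨P, rfl⟩ := hO₁ a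
    rw [Polynomial.hom_eval₂, Polynomial.hom_eval₂, eval₂_eq_sum_range]
    refine Subring.sum_mem _ fun i _ => Subring.mul_mem _ ?_ (Subring.pow_mem _ ?_ i)
    · refine ⟨algebraMap A R (algebraMap O A (P.coeff i)), ?_⟩
      rw [RingHom.comp_apply, RingHom.comp_apply, ← hcomm, hφF,
        IsScalarTower.algebraMap_apply O A F, hι]
    · exact ⟨y, hφA.symm⟩
  refine ⟨(φA : F₁ →+* FractionRing R),
    ((RingEquiv.ofLeftInverse (Function.leftInverse_invFun hinjRE)).symm :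
        (algebraMap R (FractionRing R)).range →+* R).comp
      (((φA : F₁ →+* FractionRing R).comp (algebraMap O₁ F₁)).codRestrict
        (algebraMap R (FractionRing R)).range hmem), ?_, ?_, ?_⟩
  · intro a
    rw [hφF, hι]
  · intro a
    obtain ⟨b, hb⟩ := hmem a
    simp only [RingHom.comp_apply, RingHom.coe_coe, RingEquiv.ofLeftInverse_symm_apply]
    exact (Function.invFun_eq ⟨b, hb⟩).symm
  · apply hinjRE
    obtain ⟨b, hb⟩ := hmem lam
    simp only [RingHom.comp_apply, RingHom.coe_coe, RingEquiv.ofLeftInverse_symm_apply]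
    rw [← hφA]
    exact Function.invFun_eq ⟨b, hb⟩

end Embed

/-! ### `reg` at depth `1` over `O₁` at the two kinds of blocks -/

section Blocks

variable {O : Type*} [CommRing O] [IsDomain O] [IsDiscreteValuationRing O]
  {A : Type u} [CommRing A] [IsDomain A] [IsLocalRing A] [IsNoetherianRing A] [Algebra O A]
  {F : Type*} [Field F] [Algebra A F] [IsFractionRing A F] [Algebra O F] [IsScalarTower O A F]
  {O₁ : Type*} [CommRing O₁] [IsDomain O₁] [IsDiscreteValuationRing O₁] [Algebra O O₁]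
  {F₁ : Type*} [Field F₁] [Algebra F F₁] [Algebra O₁ F₁]

/-- **`reg` at depth `1` over `O₁ = O[ζ_p]` at a regular node of the model over `O`** (a thick
node over `O₁`): ONE element `a₀` of the local ring `A` for both branches. -/
theorem reg_node_tame {p : ℕ} (hp : p.Prime) {ϖ : O} (hϖp : Associated ϖ (p : O))
    {lam : O₁} (hlam : Irreducible lam) (hζ : (1 + lam) ^ p = 1)
    (hperf₁ : ∀ a : O₁, ∃ b : O₁, lam ∣ a - b ^ p)
    (hO₁ : ∀ a : O₁, ∃ P : O[X], a = P.eval₂ (algebraMap O O₁) lam)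
    (hcomm : ∀ c : O, algebraMap F F₁ (algebraMap O F c) = algebraMap O₁ F₁ (algebraMap O O₁ c))
    (hinj₁ : Function.Injective (algebraMap O₁ F₁))
    (hgen : Algebra.adjoin F {algebraMap O₁ F₁ lam} = ⊤)
    (hmin : ∀ G : F[X], aeval (algebraMap O₁ F₁ lam) G = 0 →
      (psi p).map (algebraMap ℤ F) ∣ G)
    {s t : A} (hs : Prime s) (ht : Prime t) (hne : ¬ Associated s t)
    (hm : maximalIdeal A = Ideal.span {s, t}) (hst : Associated (s * t) (algebraMap O A ϖ))
    {V₁ V₂ : Subring F} (hV₁ : IsBranch s V₁) (hV₂ : IsBranch t V₂)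
    (hO₁V₁ : ∀ a : O₁, algebraMap O₁ F₁ a ∈ adj (algebraMap O₁ F₁ lam) V₁)
    (hO₁V₂ : ∀ a : O₁, algebraMap O₁ F₁ a ∈ adj (algebraMap O₁ F₁ lam) V₂)
    {f : F₁} (hf : f ≠ 0) (hHor : HorVal p lam f)
    (hD₁ : ∃ c : O₁, c ≠ 0 ∧ DepthIn (adj (algebraMap O₁ F₁ lam) V₁) p lam 1 f c)
    (hD₂ : ∃ c : O₁, c ≠ 0 ∧ DepthIn (adj (algebraMap O₁ F₁ lam) V₂) p lam 1 f c) :
    ∃ a₀ : A,
      (∀ (c : O₁) (g r : F₁), c ≠ 0 → r ∈ adj (algebraMap O₁ F₁ lam) V₁ →
        f = algebraMap O₁ F₁ c * g ^ p * (1 + algebraMap O₁ F₁ lam ^ 1 * r) →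
        ∃ κ : O₁, MemPi (adj (algebraMap O₁ F₁ lam) V₁) lam
          (r - algebraMap F F₁ (algebraMap A F a₀) + algebraMap O₁ F₁ κ)) ∧
      (∀ (c : O₁) (g r : F₁), c ≠ 0 → r ∈ adj (algebraMap O₁ F₁ lam) V₂ →
        f = algebraMap O₁ F₁ c * g ^ p * (1 + algebraMap O₁ F₁ lam ^ 1 * r) →
        ∃ κ : O₁, MemPi (adj (algebraMap O₁ F₁ lam) V₂) lam
          (r - algebraMap F F₁ (algebraMap A F a₀) + algebraMap O₁ F₁ κ)) := by
  haveI : Fact p.Prime := ⟨hp⟩
  have hlp : lam ∣ (p : O₁) := dvd_p_of_root p hlam.ne_zero hζ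
  -- normalise the node to `x * t = p`
  obtain ⟨u, hu⟩ := hst
  obtain ⟨u₂, hu₂⟩ := hϖp
  have hunit : IsUnit ((u : A) * algebraMap O A (u₂ : O)) := u.isUnit.mul (u₂.isUnit.map _)
  obtain ⟨x, hxdef⟩ : ∃ x : A, x = s * ((u : A) * algebraMap O A (u₂ : O)) := ⟨_, rfl⟩
  have hsx_assoc : Associated s x := ⟨hunit.unit, by rw [hxdef, IsUnit.unit_spec]⟩
  have hx : Prime x := hsx_assoc.prime hs
  have hxt : x * t = (p : A) := by
    have h1 := congrArg (algebraMap O A) hu₂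
    rw [map_mul, map_natCast, ← hu] at h1
    rw [← h1, hxdef]
    ring
  have hnst : ¬ s ∣ t := fun hd => hne (hs.associated_of_dvd ht hd)
  have hnts : ¬ t ∣ s := fun hd => hne (ht.associated_of_dvd hs hd).symm
  have hnxt : ¬ x ∣ t := fun hd => hnst (hsx_assoc.dvd_iff_dvd_left.mpr hd)
  have hntx : ¬ t ∣ x := fun hd => hnts (hsx_assoc.dvd_iff_dvd_right.mpr hd)
  have hnext : ¬ Associated x t := fun h => hnxt h.dvd
  have hmA : maximalIdeal A = Ideal.span {x, t} := by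
    rw [hm]
    apply le_antisymm
    · refine Ideal.span_le.mpr ?_
      rintro z (rfl | rfl)
      · obtain ⟨w, hw⟩ := hunit.exists_left_inv
        exact Ideal.mem_span_pair.mpr ⟨w, 0, by rw [hxdef]; linear_combination z * hw⟩
      · exact Ideal.subset_span (by simp)
    · refine Ideal.span_le.mpr ?_
      rintro z (rfl | rfl)
      · exact Ideal.mem_span_pair.mpr ⟨(u : A) * algebraMap O A (u₂ : O), 0, by
          rw [hxdef]; ring⟩
      · exact Ideal.subset_span (by simp)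
  have hV₁' : IsBranch x V₁ := by
    intro z
    rw [hV₁ z]
    constructor
    · rintro ⟨a, b, hb, e⟩
      exact ⟨a, b, fun h => hb (hsx_assoc.dvd_iff_dvd_left.mpr h), e⟩
    · rintro ⟨a, b, hb, e⟩
      exact ⟨a, b, fun h => hb (hsx_assoc.dvd_iff_dvd_left.mp h), e⟩
  obtain ⟨R, _, _, _, _, _, s', t', hinjAR, -, hs', ht', hne', hmR, hζR, hs'x, ht't, hdx, hdt⟩ :=
    Fermat.Agent.S44.L.NodeCover.exists_node_cover p hp x t hx ht hnext hmA hxt
  have hy0 : s' * t' ≠ 0 := mul_ne_zero hs'.ne_zero ht'.ne_zero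
  obtain ⟨φ, ψ, hφA, hφψ, hψlam⟩ := exists_embed (A := A) (F := F) (R := R) p hlam.ne_zero hζ
    hO₁ hcomm hinj₁ hgen hmin hinjAR hy0 hζR
  letI : Algebra O₁ R := ψ.toAlgebra
  have hφO : ∀ a : O₁, φ (algebraMap O₁ F₁ a) = algebraMap O₁ (FractionRing R) a :=
    fun a => (hφψ a).trans (IsScalarTower.algebraMap_apply O₁ R (FractionRing R) a).symm
  have hq0 : p - 1 ≠ 0 := by have := hp.one_lt; omega
  have hsx : s' ∣ algebraMap A R x := (dvd_pow_self s' hq0).trans hs'x.dvd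
  have htt : t' ∣ algebraMap A R t := by
    rw [← ht't]
    exact dvd_pow_self t' hq0
  exact reg_node_cover φ hφO hφA hp hlam hlp hperf₁ hx ht hmA hxt hnxt hntx hV₁' hV₂ hs' ht' hne'
    hmR hψlam hsx htt hdx hdt hO₁V₁ hO₁V₂ hf hHor hD₁ hD₂

/-- **`reg` at depth `1` over `O₁ = O[ζ_p]` at a smooth point of the fibre of the model over
`O`**. -/
theorem reg_smooth_tame {p : ℕ} (hp : p.Prime) {ϖ : O} (hϖp : Associated ϖ (p : O))
    {lam : O₁} (hlam : Irreducible lam) (hζ : (1 + lam) ^ p = 1)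
    (hperf₁ : ∀ a : O₁, ∃ b : O₁, lam ∣ a - b ^ p)
    (hO₁ : ∀ a : O₁, ∃ P : O[X], a = P.eval₂ (algebraMap O O₁) lam)
    (hcomm : ∀ c : O, algebraMap F F₁ (algebraMap O F c) = algebraMap O₁ F₁ (algebraMap O O₁ c))
    (hinj₁ : Function.Injective (algebraMap O₁ F₁))
    (hgen : Algebra.adjoin F {algebraMap O₁ F₁ lam} = ⊤)
    (hmin : ∀ G : F[X], aeval (algebraMap O₁ F₁ lam) G = 0 →
      (psi p).map (algebraMap ℤ F) ∣ G)
    (hϖA : Prime (algebraMap O A ϖ)) {z : A}
    (hm : maximalIdeal A = Ideal.span {algebraMap O A ϖ, z})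
    {V₁ : Subring F} (hV₁ : IsBranch (algebraMap O A ϖ) V₁)
    (hO₁V₁ : ∀ a : O₁, algebraMap O₁ F₁ a ∈ adj (algebraMap O₁ F₁ lam) V₁)
    {f : F₁} (hf : f ≠ 0) (hHor : HorVal p lam f)
    (hD₁ : ∃ c : O₁, c ≠ 0 ∧ DepthIn (adj (algebraMap O₁ F₁ lam) V₁) p lam 1 f c) :
    ∃ a₀ : A, ∀ (c : O₁) (g r : F₁), c ≠ 0 → r ∈ adj (algebraMap O₁ F₁ lam) V₁ →
      f = algebraMap O₁ F₁ c * g ^ p * (1 + algebraMap O₁ F₁ lam ^ 1 * r) →
      ∃ κ : O₁, MemPi (adj (algebraMap O₁ F₁ lam) V₁) lam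
        (r - algebraMap F F₁ (algebraMap A F a₀) + algebraMap O₁ F₁ κ) := by
  haveI : Fact p.Prime := ⟨hp⟩
  have hlp : lam ∣ (p : O₁) := dvd_p_of_root p hlam.ne_zero hζ
  obtain ⟨q, rfl⟩ : ∃ q, p = q + 1 := Nat.exists_eq_add_one_of_ne_zero hp.ne_zero
  have hq : q ≠ 0 := by
    rintro rfl
    exact Nat.not_prime_one hp
  obtain ⟨u₂, hu₂⟩ := hϖp
  have hpA : ((q + 1 : ℕ) : A) = algebraMap O A ϖ * algebraMap O A (u₂ : O) := by
    rw [← map_mul, hu₂, map_natCast]
  have hu₂A : IsUnit (algebraMap O A (u₂ : O)) := u₂.isUnit.map _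
  have hπ : Prime ((q + 1 : ℕ) : A) := by
    rw [hpA]
    exact (associated_mul_unit_right _ _ hu₂A).prime hϖA
  obtain ⟨h, hh⟩ : ∃ h : A[X], h = X ^ q + C ((q + 1 : ℕ) : A)
      * Fermat.Agent.S44.L.NodeCover.thetaPoly q (1 : A) := ⟨_, rfl⟩
  have hk := Fermat.Agent.S44.L.NodeCover.thetaPoly_natDegree_lt hq (1 : A)
  have hk0 : IsUnit ((Fermat.Agent.S44.L.NodeCover.thetaPoly q (1 : A)).eval 0) := by
    rw [Fermat.Agent.S44.L.NodeCover.thetaPoly_eval_zero hq]
    exact isUnit_one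
  haveI hdom : IsDomain (AdjoinRoot h) :=
    Fermat.Agent.S44.L.NodeCover.eis_isDomain hh hk hq hπ hk0
  haveI hloc : IsLocalRing (AdjoinRoot h) :=
    Fermat.Agent.S44.L.NodeCover.eis_isLocalRing hh hk hq hπ
  have hinjAR : Function.Injective (algebraMap A (AdjoinRoot h)) :=
    Fermat.Agent.S44.L.NodeCover.eis_of_injective hh hk hq
  have hroot : Prime (AdjoinRoot.root h) :=
    Fermat.Agent.S44.L.NodeCover.eis_root_prime hh hk hq hπ hk0
  have hrootdvd : AdjoinRoot.root h ∣ AdjoinRoot.of h ((q + 1 : ℕ) : A) :=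
    Fermat.Agent.S44.L.NodeCover.eis_root_dvd_of hh hk hq hπ hk0
  have hdvd : ∀ b : A, AdjoinRoot.root h ∣ AdjoinRoot.of h b → ((q + 1 : ℕ) : A) ∣ b :=
    fun b hb => Fermat.Agent.S44.L.NodeCover.eis_dvd_of_root_dvd hh hq hb
  have happ : ∀ c : AdjoinRoot h, ∃ b : A, AdjoinRoot.root h ∣ c - algebraMap A (AdjoinRoot h) b := by
    intro c
    obtain ⟨b, c', rfl⟩ := Fermat.Agent.S44.L.NodeCover.eis_exists_eq c
    exact ⟨b, c', by rw [AdjoinRoot.algebraMap_eq]; ring⟩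
  have hmax := Fermat.Agent.S44.L.NodeCover.eis_maximalIdeal hh hk hq hπ
  have hζR : (1 + AdjoinRoot.root h) ^ (q + 1) = 1 := by
    refine Fermat.Agent.S44.L.NodeCover.one_add_pow_eq_one q hp _ ?_
    have hpow := Fermat.Agent.S44.L.NodeCover.eis_root_pow hh
    rw [pow_succ, hpow, Fermat.Agent.S44.L.NodeCover.mk_thetaPoly, map_natCast]
    simp only [map_one, mul_one]
    ring
  obtain ⟨φ, ψ, hφA, hφψ, hψlam⟩ := exists_embed (A := A) (F := F) (R := AdjoinRoot h) (q + 1)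
    hlam.ne_zero hζ hO₁ hcomm hinj₁ hgen hmin hinjAR hroot.ne_zero hζR
  letI : Algebra O₁ (AdjoinRoot h) := ψ.toAlgebra
  have hφO : ∀ a : O₁, φ (algebraMap O₁ F₁ a)
      = algebraMap O₁ (FractionRing (AdjoinRoot h)) a :=
    fun a => (hφψ a).trans
      (IsScalarTower.algebraMap_apply O₁ (AdjoinRoot h) (FractionRing (AdjoinRoot h)) a).symm
  have hlamR : algebraMap O₁ (AdjoinRoot h) lam = AdjoinRoot.root h := hψlam
  have hϖroot : AdjoinRoot.root h ∣ AdjoinRoot.of h (algebraMap O A ϖ) := by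
    rw [hpA, map_mul] at hrootdvd
    exact (IsUnit.dvd_mul_right (hu₂A.map (AdjoinRoot.of h))).mp hrootdvd
  have hmR : maximalIdeal (AdjoinRoot h)
      = Ideal.span {algebraMap O₁ (AdjoinRoot h) lam, AdjoinRoot.of h z} := by
    rw [hmax, hm, Ideal.map_span, Set.image_pair, hlamR]
    apply le_antisymm
    · refine sup_le (Ideal.span_le.mpr ?_) (Ideal.span_mono (by simp))
      rintro w (rfl | rfl)
      · exact Ideal.span_mono (by simp) (Ideal.mem_span_singleton.mpr hϖroot)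
      · exact Ideal.subset_span (by simp)
    · refine Ideal.span_le.mpr ?_
      rintro w (rfl | rfl)
      · exact Ideal.mem_sup_right (Ideal.subset_span rfl)
      · exact Ideal.mem_sup_left (Ideal.subset_span (by simp))
  have hdx : ∀ b : A, algebraMap O₁ (AdjoinRoot h) lam ∣ algebraMap A (AdjoinRoot h) b →
      algebraMap O A ϖ ∣ b := by
    intro b hb
    rw [hlamR, AdjoinRoot.algebraMap_eq] at hb
    exact (Dvd.intro _ hpA.symm).trans (hdvd b hb)
  have happ' : ∀ c : AdjoinRoot h, ∃ b : A,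
      algebraMap O₁ (AdjoinRoot h) lam ∣ c - algebraMap A (AdjoinRoot h) b := by
    intro c
    rw [hlamR]
    exact happ c
  have hw₀ : ¬ algebraMap O A ϖ ∣ algebraMap O A (u₂ : O) :=
    fun hd => hϖA.not_isUnit (isUnit_of_dvd_unit hd hu₂A)
  exact reg_smooth_cover φ hφO hφA hp hlam hlp hperf₁ hϖA hpA hw₀ hV₁ (AdjoinRoot.of h z)
    (hlamR ▸ hroot) hmR hdx happ' hO₁V₁ hf hHor hD₁

end Blocks

/-! ### The tame depth step on a model -/

/-- **Row Z1: depth `1 → 2` over `O₁ = O[ζ_p]`, `lam = ζ_p - 1`, on a model over `O`.**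
`D` a model of `F` over `O` (`ϖ ∼ p`), `F₁ = F(lam)` with `lam` of minimal polynomial `Ψ_p` over
`F`, `V₁ W := V W[lam]`.  If `f ∈ F₁ˣ` has horizontal divisor divisible by `p` (`HorVal`) and
`p`-th-power depth `≥ 1` with respect to `lam` along every `V W[lam]`, it has depth `≥ 2` along
every `V W[lam]`. -/
theorem tame_depth_two
    {O : Type*} [CommRing O] [IsDomain O] [IsDiscreteValuationRing O]
    {F : Type u} [Field F] [Algebra O F]
    {O₁ : Type*} [CommRing O₁] [IsDomain O₁] [IsDiscreteValuationRing O₁] [Algebra O O₁]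
    {F₁ : Type*} [Field F₁] [Algebra F F₁] [Algebra O₁ F₁]
    {p : ℕ} (hp : p.Prime) {ϖ : O} (hϖp : Associated ϖ (p : O))
    (hperf : ∀ a : O, ∃ b : O, ϖ ∣ a - b ^ p)
    {lam : O₁} (hlam : Irreducible lam) (hζ : (1 + lam) ^ p = 1)
    (hO₁ : ∀ a : O₁, ∃ P : O[X], a = P.eval₂ (algebraMap O O₁) lam)
    (hcomm : ∀ c : O, algebraMap F F₁ (algebraMap O F c) = algebraMap O₁ F₁ (algebraMap O O₁ c))
    (hinj₁ : Function.Injective (algebraMap O₁ F₁))
    (hgen : Algebra.adjoin F {algebraMap O₁ F₁ lam} = ⊤)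
    (hmin : ∀ G : F[X], aeval (algebraMap O₁ F₁ lam) G = 0 →
      (psi p).map (algebraMap ℤ F) ∣ G)
    {ι Y : Type*} {V : ι → Subring F} {R : Y → Subring F} {On : Y → ι → Prop} {Hor : F → Prop}
    (D : IsModel p ϖ V R On Hor)
    (f : F₁) (hf : f ≠ 0) (hHor : HorVal p lam f)
    (h1 : ∀ W, ∃ c : O₁, c ≠ 0 ∧ DepthIn (adj (algebraMap O₁ F₁ lam) (V W)) p lam 1 f c) :
    ∀ W, ∃ c : O₁, c ≠ 0 ∧ DepthIn (adj (algebraMap O₁ F₁ lam) (V W)) p lam 2 f c := by
  haveI : Fact p.Prime := ⟨hp⟩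
  have hlp : lam ∣ (p : O₁) := dvd_p_of_root p hlam.ne_zero hζ
  have hϖp' := hϖp
  obtain ⟨u₂, hu₂⟩ := hϖp
  have hϖlam : lam ∣ algebraMap O O₁ ϖ := by
    have h1 : (p : O₁) = algebraMap O O₁ ϖ * algebraMap O O₁ (u₂ : O) := by
      rw [← map_mul, hu₂, map_natCast]
    have h2 : IsUnit (algebraMap O O₁ (u₂ : O)) := u₂.isUnit.map _
    rw [h1] at hlp
    exact (IsUnit.dvd_mul_right h2).mp hlp
  have hperf₁ : ∀ a : O₁, ∃ b : O₁, lam ∣ a - b ^ p := by
    intro a
    obtain ⟨P, rfl⟩ := hO₁ a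
    obtain ⟨b, hb⟩ := hperf (P.coeff 0)
    refine ⟨algebraMap O O₁ b, ?_⟩
    have h1 : P.eval₂ (algebraMap O O₁) lam = algebraMap O O₁ (P.coeff 0)
        + lam * P.divX.eval₂ (algebraMap O O₁) lam := by
      conv_lhs => rw [← X_mul_divX_add P]
      rw [eval₂_add, eval₂_mul, eval₂_X, eval₂_C, add_comm]
    have h2 : lam ∣ algebraMap O O₁ (P.coeff 0 - b ^ p) := hϖlam.trans (map_dvd _ hb)
    rw [map_sub, map_pow] at h2
    have h3 : P.eval₂ (algebraMap O O₁) lam - algebraMap O O₁ b ^ p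
        = (algebraMap O O₁ (P.coeff 0) - algebraMap O O₁ b ^ p)
          + lam * P.divX.eval₂ (algebraMap O O₁) lam := by
      rw [h1]
      ring
    rw [h3]
    exact dvd_add h2 (dvd_mul_right _ _)
  -- constants
  have hOadj : ∀ (S : Subring F), (∀ a : O, algebraMap O F a ∈ S) →
      ∀ a : O₁, algebraMap O₁ F₁ a ∈ adj (algebraMap O₁ F₁ lam) S := by
    intro S hS a
    obtain ⟨P, rfl⟩ := hO₁ a
    rw [Polynomial.hom_eval₂, eval₂_eq_sum_range]
    refine Subring.sum_mem _ fun i _ => Subring.mul_mem _ ?_ (Subring.pow_mem _ (lam_mem_adj _ _) i)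
    rw [RingHom.comp_apply, ← hcomm]
    exact algebraMap_mem_adj _ _ (hS _)
  have hO₁V : ∀ W (a : O₁), algebraMap O₁ F₁ a ∈ adj (algebraMap O₁ F₁ lam) (V W) :=
    fun W => hOadj (V W) (D.constV W)
  have hO₁R : ∀ y (a : O₁), algebraMap O₁ F₁ a ∈ adj (algebraMap O₁ F₁ lam) (R y) :=
    fun y => hOadj (R y) (D.constR y)
  -- local rings lie in the generic rings of their branches
  have hRV : ∀ y W, On y W → R y ≤ V W := by
    intro y W hW
    rcases D.block y with ⟨W₁, W₂, hOn, A, _, _, _, _, _, _, _, _, hrange, -, s, t, hs, ht, -, -,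
      -, hV₁, hV₂⟩ | ⟨W₁, hOn, A, _, _, _, _, _, _, _, _, hrange, -, hϖA, z, -, hV₁⟩
    · rw [← hrange]
      rintro _ ⟨a, rfl⟩
      rcases (hOn W).mp hW with rfl | rfl
      · exact (hV₁ _).mpr ⟨a, 1, hs.not_dvd_one, by simp⟩
      · exact (hV₂ _).mpr ⟨a, 1, ht.not_dvd_one, by simp⟩
    · rw [← hrange]
      rintro _ ⟨a, rfl⟩
      obtain rfl := (hOn W).mp hW
      exact (hV₁ _).mpr ⟨a, 1, hϖA.not_dvd_one, by simp⟩
  -- `lam V[lam] ∩ V ⊆ ϖ V` and `ϖ V ⊆ lam V[lam]`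
  have hdesc : ∀ W (v : F), v ∈ V W →
      MemPi (adj (algebraMap O₁ F₁ lam) (V W)) lam (algebraMap F F₁ v) → MemPi (V W) ϖ v := by
    rintro W v hv ⟨x', hx', hvx⟩
    obtain ⟨w, hw, rfl⟩ := exists_eq_p_mul_of_lam_mul (algebraMap O₁ F₁ lam) (V W) p hmin hv hx' hvx
    refine ⟨algebraMap O F (u₂ : O) * w, Subring.mul_mem _ (D.constV W _) hw, ?_⟩
    rw [← mul_assoc, ← map_mul, hu₂, map_natCast]
  have hasc : ∀ W (v : F), MemPi (V W) ϖ v →
      MemPi (adj (algebraMap O₁ F₁ lam) (V W)) lam (algebraMap F F₁ v) := by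
    rintro W v ⟨w, hw, rfl⟩
    obtain ⟨π, hπ⟩ := hϖlam
    refine ⟨algebraMap O₁ F₁ π * algebraMap F F₁ w,
      Subring.mul_mem _ (hO₁V W π) (algebraMap_mem_adj _ _ hw), ?_⟩
    rw [map_mul, hcomm, hπ, map_mul]
    ring
  -- the local statement `reg` at depth 1 over `O₁`
  have hreg : ∀ y, (∀ W, On y W →
        ∃ c : O₁, c ≠ 0 ∧ DepthIn (adj (algebraMap O₁ F₁ lam) (V W)) p lam 1 f c) →
      ∃ ry : F₁, ry ∈ adj (algebraMap O₁ F₁ lam) (R y) ∧ ∀ W, On y W → ∀ (c : O₁) (g r : F₁),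
        c ≠ 0 → r ∈ adj (algebraMap O₁ F₁ lam) (V W) →
        f = algebraMap O₁ F₁ c * g ^ p * (1 + algebraMap O₁ F₁ lam ^ 1 * r) →
        ∃ κ : O₁, MemPi (adj (algebraMap O₁ F₁ lam) (V W)) lam
          (r - ry + algebraMap O₁ F₁ κ) := by
    intro y hD
    rcases D.block y with ⟨W₁, W₂, hOn, A, _, _, _, _, _, _, _, _, hrange, -, s, t, hs, ht, hne,
      hm, hst, hV₁, hV₂⟩ | ⟨W₁, hOn, A, _, _, _, _, _, _, _, _, hrange, -, hϖA, z, hm, hV₁⟩
    · obtain ⟨a₀, h1', h2'⟩ := reg_node_tame hp hϖp' hlam hζ hperf₁ hO₁ hcomm hinj₁ hgen hmin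
        hs ht hne hm hst hV₁ hV₂ (hO₁V W₁) (hO₁V W₂) hf hHor
        (hD W₁ ((hOn W₁).mpr (Or.inl rfl))) (hD W₂ ((hOn W₂).mpr (Or.inr rfl)))
      refine ⟨algebraMap F F₁ (algebraMap A F a₀),
        algebraMap_mem_adj _ _ (hrange ▸ ⟨a₀, rfl⟩), fun W hW => ?_⟩
      rcases (hOn W).mp hW with rfl | rfl
      · exact h1'
      · exact h2'
    · obtain ⟨a₀, h1'⟩ := reg_smooth_tame hp hϖp' hlam hζ hperf₁ hO₁ hcomm hinj₁ hgen hmin
        hϖA hm hV₁ (hO₁V W₁) hf hHor (hD W₁ ((hOn W₁).mpr rfl))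
      refine ⟨algebraMap F F₁ (algebraMap A F a₀),
        algebraMap_mem_adj _ _ (hrange ▸ ⟨a₀, rfl⟩), fun W hW => ?_⟩
      obtain rfl := (hOn W).mp hW
      exact h1'
  -- regularity of the constant coefficient
  have hreg0 : ∀ W (x₀ : F) (xp : F₁), x₀ ∈ V W → xp ∈ adj (algebraMap O₁ F₁ lam) (V W) →
      (∀ y, On y W → ∃ a : F₁, a ∈ adj (algebraMap O₁ F₁ lam) (R y) ∧
        MemPi (adj (algebraMap O₁ F₁ lam) (V W)) lam
          (algebraMap F F₁ x₀ + algebraMap O₁ F₁ lam * xp - a)) →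
      ∀ y, On y W → ∃ a₀ : F, a₀ ∈ R y ∧ MemPi (V W) ϖ (x₀ - a₀) := by
    intro W x₀ xp hx₀ hxp hreg' y hy
    obtain ⟨a, ha, v, hv, hxv⟩ := hreg' y hy
    obtain ⟨a₀, ha₀, ap, hap, rfl⟩ := adj_decomp _ _ ha
    refine ⟨a₀, ha₀, hdesc W (x₀ - a₀) (Subring.sub_mem _ hx₀ (hRV y W hy ha₀)) ?_⟩
    refine ⟨v - xp + ap, Subring.add_mem _ (Subring.sub_mem _ hv hxp)
      (adj_mono _ (hRV y W hy) hap), ?_⟩
    rw [map_sub]
    linear_combination hxv
  obtain ⟨W₀, hconst0⟩ := D.const0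
  have hconst : ConstAt (fun W => adj (algebraMap O₁ F₁ lam) (V W))
      (fun y => adj (algebraMap O₁ F₁ lam) (R y)) On lam W₀ := by
    intro x hx hreg'
    obtain ⟨x₀, hx₀, xp, hxp, rfl⟩ := adj_decomp _ _ hx
    obtain ⟨κ, hκ⟩ := hconst0 x₀ hx₀ (hreg0 W₀ x₀ xp hx₀ hxp hreg')
    obtain ⟨v, hv, hxv⟩ := hasc W₀ _ hκ
    refine ⟨algebraMap O O₁ κ, v + xp, Subring.add_mem _ hv hxp, ?_⟩
    rw [map_sub, hcomm] at hxv
    linear_combination hxv
  have hvan : Van (fun W => adj (algebraMap O₁ F₁ lam) (V W))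
      (fun y => adj (algebraMap O₁ F₁ lam) (R y)) On lam := by
    intro W x hx hreg' y W' hy hy' a ha hma hxa
    obtain ⟨x₀, hx₀, xp, hxp, rfl⟩ := adj_decomp _ _ hx
    obtain ⟨a₀, ha₀, ap, hap, rfl⟩ := adj_decomp _ _ ha
    have hma₀ : MemPi (V W') ϖ a₀ := by
      obtain ⟨v, hv, hav⟩ := hma
      refine hdesc W' a₀ (hRV y W' hy' ha₀) ⟨v - ap, Subring.sub_mem _ hv
        (adj_mono _ (hRV y W' hy') hap), ?_⟩
      linear_combination hav
    have hxa₀ : MemPi (V W) ϖ (x₀ - a₀) := by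
      obtain ⟨v, hv, hxv⟩ := hxa
      refine hdesc W (x₀ - a₀) (Subring.sub_mem _ hx₀ (hRV y W hy ha₀))
        ⟨v - xp + ap, Subring.add_mem _ (Subring.sub_mem _ hv hxp)
          (adj_mono _ (hRV y W hy) hap), ?_⟩
      rw [map_sub]
      linear_combination hxv
    have hx₀π := D.van W x₀ hx₀ (hreg0 W x₀ xp hx₀ hxp hreg') y hy a₀ ha₀ hxa₀ ⟨W', hy', hma₀⟩
    obtain ⟨v, hv, hxv⟩ := hasc W _ hx₀π
    exact ⟨v + xp, Subring.add_mem _ hv hxp, by linear_combination hxv⟩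
  have hglob := glob_of_root (ϖ := lam) (V := fun W => adj (algebraMap O₁ F₁ lam) (V W))
    (R := fun y => adj (algebraMap O₁ F₁ lam) (R y)) (On := On) hO₁V hO₁R D.conn W₀ hconst hvan
  exact depth_step_of_reg (p := p) (ϖ := lam)
    (V := fun W => adj (algebraMap O₁ F₁ lam) (V W))
    (R := fun y => adj (algebraMap O₁ F₁ lam) (R y)) (On := On) hlam.not_isUnit hO₁V f 1 le_rfl
    hreg hglob h1

end Fermat.Agent.S33.Geo.TameModel
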