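/-
S33 (ordinary at `p ∥ N`), strand GEO, Stage B, row C4 (CoverUnr): the feeds of the level-free
C4 statement from the exits of the Z rows (helper78).  Level-free: Mathlib +
`S33/Geo/{Top, TameModel, CoverUnrDefs}`.

Fields `F → F1 → L1`, `F1 = F[ζ]` with `ζ ^ p = 1`, `lam = ζ - 1`, Kummer generators
`T i ∈ L1` with `T i ^ p = f i ∈ F1`.

* `isIntegralElem_of_mem_adj`   : the elements of `V[lam]` (`TameModel.adj`) are integral over `V`;
* `depData_of_depthIn`          : `Top.DepthIn (adj lam V) p lam p (f i) 1` for every `i` gives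
                                  `CoverUnrDefs.DepData p ζ T V`;
* `horData_of_horVal`           : `TameModel.HorVal p lam (f i)` for every `i` gives
                                  `CoverUnrDefs.HorData F F1 p ϖ T` (`O₁ = O[lam]`, `lam ∣ ϖ`).

(The degree facts about `F1 = F[ζ]` are in `S33/Geo/CoverUnrDeg.lean`.)
-/
import Mathlib
import Fermat.Agent.S33.Geo.TameModel
import Fermat.Agent.S33.Geo.CoverUnrDefs

set_option autoImplicit false
set_option linter.unusedSectionVars false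
set_option linter.unusedVariables false
set_option linter.style.haveILetI false

namespace Fermat.Agent.S33.Geo.CoverUnrFeed

open Polynomial IntermediateField
open Fermat.Agent.S33.Geo.Top Fermat.Agent.S33.Geo.TameModel
open Fermat.Agent.S33.Geo.CoverUnrDefs

variable {F F1 : Type*} [Field F] [Field F1] [Algebra F F1]

/-! ### Integrality of `V[lam]` over `V` -/

/-- A root of unity is integral over every subring. -/
theorem isIntegralElem_of_pow_eq_one (V : Subring F) {p : ℕ} (hp0 : p ≠ 0) {ζ : F1}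
    (hζ : ζ ^ p = 1) : ((algebraMap F F1).comp V.subtype).IsIntegralElem ζ := by
  refine ⟨X ^ p - C 1, monic_X_pow_sub_C 1 hp0, ?_⟩
  rw [eval₂_sub, eval₂_pow, eval₂_X, eval₂_C, map_one, hζ, sub_self]

/-- The elements of `V[lam]` are integral over `V` if `lam` is. -/
theorem isIntegralElem_of_mem_adj (V : Subring F) {lam : F1}
    (hlam : ((algebraMap F F1).comp V.subtype).IsIntegralElem lam) {x : F1}
    (hx : x ∈ adj lam V) : ((algebraMap F F1).comp V.subtype).IsIntegralElem x := by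
  induction hx using Subring.closure_induction with
  | mem y hy =>
    rcases hy with ⟨v, hv, rfl⟩ | rfl
    · exact RingHom.isIntegralElem_map ((algebraMap F F1).comp V.subtype) (x := ⟨v, hv⟩)
    · exact hlam
  | zero => exact RingHom.isIntegralElem_zero _
  | one => exact RingHom.isIntegralElem_one _
  | add x y _ _ hx hy => exact RingHom.IsIntegralElem.add _ hx hy
  | neg x _ hx => exact RingHom.IsIntegralElem.neg _ hx
  | mul x y _ _ hx hy => exact RingHom.IsIntegralElem.mul _ hx hy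

/-! ### The vertical feed -/

/-- **The vertical feed.**  Depth `p` with constant `1` along `V[lam]`, `lam = ζ - 1`, for the
`p`-th powers `f i` of the Kummer generators gives the depth data of C4 along `V`. -/
theorem depData_of_depthIn {O₁ : Type*} [CommRing O₁] [Algebra O₁ F1] {L1 : Type*} [Field L1]
    [Algebra F1 L1] {p n : ℕ} (hp0 : p ≠ 0) (ζ : F1) (hζ : ζ ^ p = 1) (lam : O₁)
    (hlam : algebraMap O₁ F1 lam = ζ - 1) (T : Fin n → L1) (hT0 : ∀ i, T i ≠ 0)
    (f : Fin n → F1) (hT : ∀ i, T i ^ p = algebraMap F1 L1 (f i)) (V : Subring F)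
    (h : ∀ i, DepthIn (adj (algebraMap O₁ F1 lam) V) p lam p (f i) 1) :
    DepData p ζ T V := by
  intro i
  obtain ⟨g, r, hr, hf⟩ := h i
  rw [map_one, one_mul, hlam] at hf
  have hlamint : ((algebraMap F F1).comp V.subtype).IsIntegralElem (ζ - 1) :=
    RingHom.IsIntegralElem.sub _ (isIntegralElem_of_pow_eq_one V hp0 hζ)
      (RingHom.isIntegralElem_one _)
  refine ⟨g, r, ?_, isIntegralElem_of_mem_adj V hlamint (hlam ▸ hr), by rw [hT i, hf]⟩
  rintro rfl
  apply hT0 i
  have h0 : T i ^ p = 0 := by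
    rw [hT i, hf, zero_pow hp0, zero_mul, map_zero]
  exact pow_eq_zero_iff hp0 |>.mp h0

/-! ### The horizontal feed -/

/-- An element of finite multiplicative order lies in every valuation subring. -/
theorem mem_of_pow_eq_one (𝒱 : ValuationSubring F1) {p : ℕ} (hp0 : p ≠ 0) {x : F1}
    (hx : x ^ p = 1) : x ∈ 𝒱 := by
  rcases 𝒱.mem_or_inv_mem x with h | h
  · exact h
  · have h1 : x = x⁻¹ ^ (p - 1) := by
      have hx0 : x ≠ 0 := by
        rintro rfl
        rw [zero_pow hp0] at hx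
        exact zero_ne_one hx
      have h2 : x ^ (p - 1) * x = 1 := by
        rw [← pow_succ, Nat.sub_add_cancel (Nat.pos_of_ne_zero hp0), hx]
      rw [inv_pow]
      exact eq_inv_of_mul_eq_one_right h2
    rw [h1]
    exact pow_mem h (p - 1)

/-- **The horizontal feed.**  `O₁ = O[lam]` with `(1 + lam) ^ p = 1` and `lam ∣ ϖ`: the
valuation form `TameModel.HorVal p lam` for the `p`-th powers `f i` of the Kummer generators
gives the horizontal data of C4. -/
theorem horData_of_horVal {O : Type*} [CommRing O] [Algebra O F] {O₁ : Type*} [CommRing O₁]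
    [Algebra O O₁] [Algebra O₁ F1] {L1 : Type*} [Field L1] [Algebra F1 L1]
    (hcomm : ∀ c : O, algebraMap F F1 (algebraMap O F c) = algebraMap O₁ F1 (algebraMap O O₁ c))
    {p n : ℕ} (hp0 : p ≠ 0) {ϖ : O} {lam : O₁} (hζ : (1 + lam) ^ p = 1)
    (hO₁ : ∀ a : O₁, ∃ P : O[X], a = P.eval₂ (algebraMap O O₁) lam)
    (hlamϖ : lam ∣ algebraMap O O₁ ϖ)
    (hϖ0 : algebraMap F F1 (algebraMap O F ϖ) ≠ 0)
    (T : Fin n → L1) (f : Fin n → F1) (hT : ∀ i, T i ^ p = algebraMap F1 L1 (f i))
    (hHor : ∀ i, HorVal p lam (f i)) : HorData F F1 p ϖ T := by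
  intro i 𝒱 hO hϖ
  have hz : (1 + algebraMap O₁ F1 lam) ^ p = 1 := by
    rw [← map_one (algebraMap O₁ F1), ← map_add, ← map_pow, hζ]
  have hl : algebraMap O₁ F1 lam ∈ 𝒱 := by
    have h1 := sub_mem (mem_of_pow_eq_one 𝒱 hp0 hz) 𝒱.one_mem
    rwa [add_sub_cancel_left] at h1
  have hO₁𝒱 : ∀ a : O₁, algebraMap O₁ F1 a ∈ 𝒱 := by
    intro a
    obtain ⟨P, rfl⟩ := hO₁ a
    rw [Polynomial.hom_eval₂, eval₂_eq_sum_range]
    refine 𝒱.toSubring.sum_mem fun j _ => 𝒱.mul_mem _ _ ?_ (pow_mem hl j)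
    rw [RingHom.comp_apply, ← hcomm]
    exact hO _
  have hlinv : (algebraMap O₁ F1 lam)⁻¹ ∈ 𝒱 := by
    obtain ⟨c, hc⟩ := hlamϖ
    have h2 : algebraMap F F1 (algebraMap O F ϖ)
        = algebraMap O₁ F1 lam * algebraMap O₁ F1 c := by
      rw [hcomm, hc, map_mul]
    have hl0 : algebraMap O₁ F1 lam ≠ 0 := by
      intro h0
      rw [h0, zero_mul] at h2
      exact hϖ0 h2
    have hc0 : algebraMap O₁ F1 c ≠ 0 := by
      intro h0
      rw [h0, mul_zero] at h2
      exact hϖ0 h2
    have h3 : (algebraMap O₁ F1 lam)⁻¹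
        = algebraMap O₁ F1 c * (algebraMap F F1 (algebraMap O F ϖ))⁻¹ := by
      rw [h2, mul_inv, mul_comm (algebraMap O₁ F1 lam)⁻¹, ← mul_assoc,
        mul_inv_cancel₀ hc0, one_mul]
    rw [h3]
    exact 𝒱.mul_mem _ _ (hO₁𝒱 c) hϖ
  obtain ⟨h, e, he, he', hf⟩ := hHor i 𝒱 hO₁𝒱 hlinv
  exact ⟨e, h, he, he', by rw [hT i, hf]⟩

end Fermat.Agent.S33.Geo.CoverUnrFeed
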