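import Mathlib
import Fermat.Agent.S30.GaussDVR
import Fermat.Agent.S34.HauptU.Plug

/-!
# S33 / GEO / Stage B: the two generic rings of the level-`M ℓ` model (definitions only)

Shared vocabulary of the rows B3 (model instance), B4 (unit instance) and B5 (`FunI`).
`E ⊆ ℚ̄`, `O` a discrete valuation ring with fraction field `E` (e.g. `O = OE A K`), level
`M * ℓ`, `σ = sigmaHom (M * ℓ) E` the `q`-expansion embedding of `LE (M * ℓ) E`,
`w = wHom M ℓ E hℓ hℓM` the `E`-level Atkin–Lehner swap.

* `VInf N E O`             : `V∞ = {x | σ x ∈ GaussDVR.V O E}`, the generic ring of the component `∞`;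
* `VZero M ℓ E O hℓ hℓM`   : `V0 = {x | σ (w x) ∈ GaussDVR.V O E}`, the generic ring of the
  component `0`;
* `VB M ℓ E O hℓ hℓM : Bool → Subring (LE (M * ℓ) E)` : `true ↦ V∞`, `false ↦ V0`.
-/

set_option autoImplicit false

open ModularCurve

noncomputable section

namespace Fermat.Agent.S33.Geo.GaussRings

open Fermat.Agent.S30 Fermat.Agent.S18.K1Defs Fermat.Agent.S34.HauptU.Plug

local notation "Qb" => AlgebraicClosure ℚ

section Inf

variable (N : ℕ) (E : IntermediateField ℚ Qb) (O : Type*) [CommRing O] [IsDomain O]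
  [IsDiscreteValuationRing O] [Algebra O E] [FaithfulSMul O E]

/-- **The generic ring of the component `∞`**: the elements of `LE N E` whose `q`-expansion
lies in the Gauss ring of `O`. -/
def VInf : Subring (LE N E) := (GaussDVR.V O E).comap (sigmaHom N E)

theorem mem_VInf {x : LE N E} :
    x ∈ VInf N E O ↔ sigmaHom N E x ∈ GaussDVR.V O E := Iff.rfl

end Inf

section Zero

variable (M ℓ : ℕ) [NeZero M] [NeZero ℓ] (E : IntermediateField ℚ Qb) (O : Type*) [CommRing O]
  [IsDomain O] [IsDiscreteValuationRing O] [Algebra O E] [FaithfulSMul O E]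
  (hℓ : ℓ.Prime) (hℓM : ¬ ℓ ∣ M)

/-- **The generic ring of the component `0`**: the elements of `LE (M ℓ) E` whose image under
the Atkin–Lehner swap has its `q`-expansion in the Gauss ring of `O`. -/
def VZero : Subring (LE (M * ℓ) E) :=
  (GaussDVR.V O E).comap
    ((sigmaHom (M * ℓ) E).comp (wHom M ℓ E hℓ hℓM : LE (M * ℓ) E →+* LE (M * ℓ) E))

theorem mem_VZero {x : LE (M * ℓ) E} :
    x ∈ VZero M ℓ E O hℓ hℓM ↔
      sigmaHom (M * ℓ) E (wHom M ℓ E hℓ hℓM x) ∈ GaussDVR.V O E := Iff.rfl

/-- **The two generic rings of the level-`M ℓ` model**: `true ↦ V∞`, `false ↦ V0`. -/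
def VB : Bool → Subring (LE (M * ℓ) E)
  | true => VInf (M * ℓ) E O
  | false => VZero M ℓ E O hℓ hℓM

theorem VB_true : VB M ℓ E O hℓ hℓM true = VInf (M * ℓ) E O := rfl

theorem VB_false : VB M ℓ E O hℓ hℓM false = VZero M ℓ E O hℓ hℓM := rfl

end Zero

end Fermat.Agent.S33.Geo.GaussRings
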