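import Mathlib
import Fermat.Agent.S19.Cech.LaurentBC
import Fermat.Agent.S44.L.CycloHom
import Fermat.Agent.S44.L.GaussBC
import Fermat.Agent.S34.HauptU.Plug
import Fermat.Agent.S36.InvFun
import Fermat.Agent.S33.Geo.CoverFieldDefs
import Fermat.Agent.S33.Geo.GaussRings
import Fermat.Agent.S33.Geo.TameModel

/-!
# S33, Stage B, Z3 leaf (Z3b + Z3g): base change of the function field along `K ⊆ K(ζ_q)`

`A` a valuation subring of `Qb = AlgebraicClosure ℚ` over the prime `q`, `K ⊆ Qb` a number field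
inside the inertia field of `A`, `ζ` a primitive `q`-th root of unity, `K₁ = cyclo K ζ = K(ζ)`,
`λ = ζ - 1`, `O = OE A K`, `O₁ = OE A K₁`, `F = LE N K`, `F₁ = LE N K₁`, base change
`CoverFieldDefs.bcLE N K ζ : F →+* F₁`.

These are the binders of `TameDepth.tame_depth` at `(O, O₁, F, F₁, lam)` as FACTS, and the
comparison of the Gauss rings of `F₁` with those of `F`:

* `lamE`, `hspan_field`, `hind_field` : `1, λ, …, λ^(q-2)` is a `K`-basis of `K₁`;
* `upF_bcLE`, `bcLE_algebraMap`, `bcLE_algebraMap_OE` (the square with `O → O₁`), `wHom_bcLE`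
  (base change commutes with the swap);
* `lamF`, `exists_coords`, `coords_unique` : **`F₁ = ⊕_{i < q-1} F λ^i`**;
* `algebraBC` : the `F`-algebra structure of `F₁` (through `bcLE`);
* `adjoin_lamF_eq_top` (`hgen`), `psi_dvd_of_aeval_eq_zero` (`hmin`) : `F₁ = F[λ]` and
  `Ψ = Φ_q(X + 1)` is the minimal polynomial of `λ` over `F`;
* `exists_eval₂_eq_OE` (`hO₁`) : `O₁ = O[λ]`;  `one_add_lam_pow` : `(1 + λ)^q = 1`;
* `coords_mem_V` : **if `∑ λ^i c_i` is Gauss-integral over `O₁`, every `c_i` is Gauss-integral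
  over `O`**;
* `adj_VInf`, `adj_VZero`, `adj_VB` : **the Gauss rings of `F₁` at `∞` and at `0` are generated
  by the Gauss rings of `F` and `λ`** (`TameModel.adj`), in both directions.
-/

set_option autoImplicit false
set_option linter.unusedSectionVars false
set_option linter.unusedVariables false
set_option linter.style.haveILetI false
set_option synthInstance.maxHeartbeats 400000
set_option maxHeartbeats 1000000

open ModularCurve Polynomial

noncomputable section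

namespace Fermat.Agent.S33.Geo.CycloLE

open Fermat.Agent.S18.K1Defs Fermat.Agent.S18.K1Top Fermat.Agent.S30
open Fermat.Agent.S36.CycloBase Fermat.Agent.S36.UnramBase Fermat.Agent.S36.InvFun
open Fermat.Agent.S34.HauptU.Plug
open Fermat.Agent.S33.Geo.CoverFieldDefs Fermat.Agent.S33.Geo.GaussRings

local notation "Qb" => AlgebraicClosure ℚ

/-! ### The power basis of `K(ζ)` over `K` -/

/-- `λ = ζ - 1` as an element of `K(ζ)`. -/
def lamE (K : IntermediateField ℚ Qb) (ζ : Qb) : cyclo K ζ :=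
  ⟨ζ - 1, zeta_sub_one_mem_cyclo K ζ⟩

section Base

variable (A : ValuationSubring Qb) {q : ℕ} (hq : q.Prime) (hA : A.LiesOverPrime q)
  (K : IntermediateField ℚ Qb) [FiniteDimensional ℚ K]
  (hK : A.inertiaSubgroupIn ℚ ≤ K.fixingSubgroup) {ζ : Qb} (hζ : IsPrimitiveRoot ζ q)

include hq hζ in
/-- `1, λ, …, λ^(q-2)` span `K(ζ)` over `K`. -/
theorem hspan_field (x : cyclo K ζ) :
    ∃ c : Fin (q - 1) → K,
      x = ∑ j : Fin (q - 1),
        lamE K ζ ^ (j : ℕ) * IntermediateField.inclusion (le_cyclo K ζ) (c j) := by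
  obtain ⟨c, hc⟩ := exists_expansion K hq hζ (x : Qb) x.2
  refine ⟨fun j => c j, ?_⟩
  apply (algebraMap (cyclo K ζ) Qb).injective
  rw [map_sum]
  refine Eq.trans (hc.trans (Finset.sum_range _)) ?_
  refine Finset.sum_congr rfl fun j _ => ?_
  rw [map_mul, map_pow, mul_comm]
  rfl

include hq hA hK hζ in
/-- `1, λ, …, λ^(q-2)` are linearly independent over `K`. -/
theorem hind_field (c : Fin (q - 1) → K)
    (h : ∑ j : Fin (q - 1),
      lamE K ζ ^ (j : ℕ) * IntermediateField.inclusion (le_cyclo K ζ) (c j) = 0) :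
    ∀ j, c j = 0 := by
  classical
  let c' : ℕ → K := fun i => if hi : i < q - 1 then c ⟨i, hi⟩ else 0
  have hc' : ∀ j : Fin (q - 1), c' j = c j := fun j => by
    simp only [c', dif_pos j.2, Fin.eta]
  have h' : ∑ i ∈ Finset.range (q - 1), ((c' i : K) : Qb) * (ζ - 1) ^ i = 0 := by
    have h1 := congrArg (algebraMap (cyclo K ζ) Qb) h
    rw [map_sum, map_zero] at h1
    rw [Finset.sum_range, ← h1]
    refine Finset.sum_congr rfl fun j _ => ?_
    rw [hc' j, map_mul, map_pow, mul_comm]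
    rfl
  have hdist := val_sum_of_distinct A.valuation (Finset.range (q - 1))
    (fun i => ((c' i : K) : Qb) * (ζ - 1) ^ i) (fun i hi j hj h0 h =>
      term_index_eq A hq hA K hK hζ (c' i) (c' j) i j (Finset.mem_range.mp hi)
        (Finset.mem_range.mp hj) h0 h)
  rw [h', map_zero] at hdist
  intro j
  have h1 := hdist.1 j (Finset.mem_range.mpr j.2)
  rw [le_zero_iff, map_eq_zero] at h1
  rcases mul_eq_zero.mp h1 with h2 | h2
  · rw [← hc' j]
    exact Subtype.ext h2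
  · exact absurd h2 (pow_ne_zero _ (zeta_sub_one_ne_zero hq hζ))

end Base

/-! ### Base change of the function field -/

section Fun

variable (K : IntermediateField ℚ Qb) (ζ : Qb) (N : ℕ)

/-- Base change does not change the image in `Qb((q))`. -/
theorem upF_bcLE [NeZero N] (x : LE N K) :
    upF N (cyclo K ζ) (bcLE N K ζ x) = upF N K x := by
  apply Subtype.ext
  rw [coe_upF, coe_upF, coe_bcLE, inclLS_apply, coeffMap_coeffMap]
  exact coeffMap_congr (RingHom.ext fun _ => rfl) _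

/-- Base change of a constant. -/
theorem bcLE_algebraMap (a : K) :
    bcLE N K ζ (algebraMap K (LE N K) a) =
      algebraMap (cyclo K ζ) (LE N (cyclo K ζ)) (inclE (le_cyclo K ζ) a) := by
  apply Subtype.ext
  rw [coe_bcLE, inclLS_apply]
  exact Fermat.Agent.S19.Cech.LaurentBC.coeffMap_algebraMap_field _ a

/-- `λ` as a constant of `LE N K(ζ)`. -/
def lamF : LE N (cyclo K ζ) := algebraMap (cyclo K ζ) (LE N (cyclo K ζ)) (lamE K ζ)

theorem coe_lamF :
    ((lamF K ζ N : LE N (cyclo K ζ)) : LaurentSeries (cyclo K ζ)) =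
      algebraMap (cyclo K ζ) (LaurentSeries (cyclo K ζ)) (lamE K ζ) := rfl

/-- The `LE N K`-algebra structure of `LE N K(ζ)`: base change of constants. -/
@[reducible] def algebraBC : Algebra (LE N K) (LE N (cyclo K ζ)) := (bcLE N K ζ).toAlgebra

end Fun

section Coords

variable (A : ValuationSubring Qb) {q : ℕ} (hq : q.Prime) (hA : A.LiesOverPrime q)
  (K : IntermediateField ℚ Qb) [FiniteDimensional ℚ K]
  (hK : A.inertiaSubgroupIn ℚ ≤ K.fixingSubgroup) {ζ : Qb} (hζ : IsPrimitiveRoot ζ q) (N : ℕ)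

/-- The `q`-expansion of a combination `∑ λ^j c_j`. -/
theorem sigma_sum (n : ℕ) (c : Fin n → LE N K) :
    sigmaHom N (cyclo K ζ) (∑ j : Fin n, lamF K ζ N ^ (j : ℕ) * bcLE N K ζ (c j)) =
      ∑ j : Fin n, algebraMap (cyclo K ζ) (LaurentSeries (cyclo K ζ)) (lamE K ζ ^ (j : ℕ)) *
        coeffMap (IntermediateField.inclusion (le_cyclo K ζ) : K →+* cyclo K ζ)
          ((c j : LE N K) : LaurentSeries K) := by
  rw [map_sum]
  refine Finset.sum_congr rfl fun j _ => ?_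
  rw [map_mul, map_pow, map_pow]
  rfl

include hq hζ in
/-- **`F₁ = ∑_{i < q-1} F λ^i`.** -/
theorem exists_coords (x : LE N (cyclo K ζ)) :
    ∃ c : Fin (q - 1) → LE N K,
      x = ∑ j : Fin (q - 1), lamF K ζ N ^ (j : ℕ) * bcLE N K ζ (c j) := by
  obtain ⟨c, hc, hx⟩ := Fermat.Agent.S19.Cech.LaurentBC.exists_coords N (le_cyclo K ζ)
    (fun j : Fin (q - 1) => lamE K ζ ^ (j : ℕ)) (hspan_field hq K hζ)
    (x : LaurentSeries (cyclo K ζ)) x.2
  refine ⟨fun j => ⟨c j, hc j⟩, ?_⟩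
  apply sigmaHom_injective N (cyclo K ζ)
  exact hx.trans (sigma_sum K (ζ := ζ) N (q - 1) (fun j => ⟨c j, hc j⟩)).symm

include hq hA hK hζ in
/-- **The coordinates are unique.** -/
theorem coords_unique (c : Fin (q - 1) → LE N K)
    (h : ∑ j : Fin (q - 1), lamF K ζ N ^ (j : ℕ) * bcLE N K ζ (c j) = 0) : ∀ j, c j = 0 := by
  have h1 := congrArg (sigmaHom N (cyclo K ζ)) h
  rw [sigma_sum, map_zero] at h1
  intro j
  exact Subtype.ext (Fermat.Agent.S19.Cech.LaurentBC.coords_unique (le_cyclo K ζ)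
    (fun j : Fin (q - 1) => lamE K ζ ^ (j : ℕ)) (hind_field A hq hA K hK hζ)
    (fun j => ((c j : LE N K) : LaurentSeries K)) h1 j)

include hq hζ in
/-- **`F₁ = F[λ]`.** -/
theorem exists_eval₂_eq (x : LE N (cyclo K ζ)) :
    ∃ P : (LE N K)[X], x = P.eval₂ (bcLE N K ζ) (lamF K ζ N) := by
  obtain ⟨c, hc⟩ := exists_coords hq K hζ N x
  refine ⟨∑ j : Fin (q - 1), C (c j) * X ^ (j : ℕ), ?_⟩
  rw [hc, eval₂_finsetSum]
  refine Finset.sum_congr rfl fun j _ => ?_
  rw [eval₂_mul, eval₂_C, eval₂_pow, eval₂_X, mul_comm]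

include hq hζ in
/-- `λ ≠ 0` in `F₁`. -/
theorem lamF_ne_zero : lamF K ζ N ≠ 0 := by
  intro h0
  have h1 : lamE K ζ = 0 :=
    (algebraMap (cyclo K ζ) (LE N (cyclo K ζ))).injective (h0.trans (map_zero _).symm)
  exact zeta_sub_one_ne_zero hq hζ (congrArg (fun x : cyclo K ζ => (x : Qb)) h1)

include hζ in
/-- `(1 + λ)^q = 1` in `F₁`. -/
theorem one_add_lamF_pow : (1 + lamF K ζ N) ^ q = 1 := by
  have h1 : (1 + lamE K ζ) ^ q = 1 := by
    apply Subtype.ext
    show ((1 : Qb) + (ζ - 1)) ^ q = 1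
    rw [add_sub_cancel]
    exact hζ.pow_eq_one
  have h2 := congrArg (algebraMap (cyclo K ζ) (LE N (cyclo K ζ))) h1
  rw [map_pow, map_add, map_one] at h2
  exact h2

include hq hζ in
/-- **`hgen` : `F₁ = F[λ]`** in the form of `TameDepth.tame_depth`. -/
theorem adjoin_lamF_eq_top :
    letI := algebraBC K ζ N
    Algebra.adjoin (LE N K) ({lamF K ζ N} : Set (LE N (cyclo K ζ))) = ⊤ := by
  letI := algebraBC K ζ N
  rw [eq_top_iff]
  intro x _
  obtain ⟨P, hP⟩ := exists_eval₂_eq hq K hζ N x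
  rw [Algebra.adjoin_singleton_eq_range_aeval]
  exact (AlgHom.mem_range _).mpr ⟨P, hP.symm⟩

include hq hA hK hζ in
/-- **`hmin` : `Ψ_q` is the minimal polynomial of `λ` over `F`** in the form of
`TameDepth.tame_depth`. -/
theorem psi_dvd_of_aeval_eq_zero :
    letI := algebraBC K ζ N
    ∀ G : (LE N K)[X], aeval (lamF K ζ N) G = 0 →
      (TameModel.psi q).map (algebraMap ℤ (LE N K)) ∣ G := by
  letI := algebraBC K ζ N
  haveI : Fact q.Prime := ⟨hq⟩
  refine TameModel.hmin_of_linearIndependent q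
    (TameModel.aeval_psi_eq_zero q (lamF_ne_zero hq K hζ N) (one_add_lamF_pow K hζ N)) ?_
  rw [Fintype.linearIndependent_iff]
  intro g hg
  refine coords_unique A hq hA K hK hζ N g ?_
  rw [← hg]
  refine Finset.sum_congr rfl fun j _ => ?_
  rw [Algebra.smul_def, mul_comm]
  rfl

include hq hA hK hζ in
/-- **`hO₁` : `O₁ = O[λ]`.** -/
theorem exists_eval₂_eq_OE (a : OE A (cyclo K ζ)) :
    ∃ P : (OE A K)[X], a = P.eval₂ (inclOE A (le_cyclo K ζ)) (lam A hq K hζ) := by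
  obtain ⟨c, hc⟩ := Fermat.Agent.S44.L.CycloHom.exists_expansion_OE A hq hA K hK hζ a
  refine ⟨∑ i ∈ Finset.range (q - 1), C (c i) * X ^ i, ?_⟩
  rw [hc, eval₂_finsetSum]
  refine Finset.sum_congr rfl fun i _ => ?_
  rw [eval₂_mul, eval₂_C, eval₂_pow, eval₂_X]

/-- `hζ` : `(1 + λ)^q = 1` in `O₁`. -/
theorem one_add_lam_pow : (1 + lam A hq K hζ) ^ q = 1 := by
  rw [← zetaO_eq A hq K hζ]
  exact (isPrimitiveRoot_zetaO A hq K hζ).pow_eq_one

/-- `hcomm` : the square `O → O₁`, `F → F₁` commutes. -/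
theorem bcLE_algebraMap_OE (c : OE A K) :
    bcLE N K ζ (algebraMap K (LE N K) ((c : OE A K) : K)) =
      algebraMap (cyclo K ζ) (LE N (cyclo K ζ))
        ((inclOE A (le_cyclo K ζ) c : OE A (cyclo K ζ)) : cyclo K ζ) :=
  bcLE_algebraMap K ζ N _

/-- `λ` of `F₁` is the image of `λ` of `O₁`. -/
theorem lamF_eq : lamF K ζ N =
    algebraMap (cyclo K ζ) (LE N (cyclo K ζ)) ((lam A hq K hζ : OE A (cyclo K ζ)) : cyclo K ζ) :=
  rfl

end Coords

/-! ### The Gauss rings -/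

section Gauss

variable (A : ValuationSubring Qb) {q : ℕ} (hq : q.Prime) (hA : A.LiesOverPrime q)
  (K : IntermediateField ℚ Qb) [FiniteDimensional ℚ K]
  (hK : A.inertiaSubgroupIn ℚ ≤ K.fixingSubgroup) {ζ : Qb} (hζ : IsPrimitiveRoot ζ q)
  (N : ℕ) [NeZero N]
  [IsDiscreteValuationRing (OE A K)] [IsDiscreteValuationRing (OE A (cyclo K ζ))]

/-- The `q`-expansion of `λ`. -/
theorem sigmaHom_lamF :
    sigmaHom N (cyclo K ζ) (lamF K ζ N) =
      HahnSeries.C (algebraMap (OE A (cyclo K ζ)) (cyclo K ζ) (lam A hq K hζ)) := by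
  rw [Fermat.Agent.S18.Wiring.C_eq_algebraMap]
  rfl

include hq hA hK hζ in
/-- **Coordinatewise integrality**: if `∑ λ^j c_j` is Gauss-integral over `O₁`, every `c_j` is
Gauss-integral over `O`. -/
theorem coords_mem_V (c : Fin (q - 1) → LE N K)
    (h : sigmaHom N (cyclo K ζ)
      (∑ j : Fin (q - 1), lamF K ζ N ^ (j : ℕ) * bcLE N K ζ (c j)) ∈
        GaussDVR.V (OE A (cyclo K ζ)) (cyclo K ζ)) :
    ∀ j, sigmaHom N K (c j) ∈ GaussDVR.V (OE A K) K := by
  obtain ⟨w, hw, -⟩ := exists_unit_mul_lam_pow A hq hA K hK hζ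
  have hdvd : lam A hq K hζ ^ (q - 1) ∣ inclOE A (le_cyclo K ζ) ((q : ℕ) : OE A K) := by
    rw [map_natCast, hw]
    exact Dvd.intro_left _ rfl
  refine Fermat.Agent.S44.L.GaussBC.mem_V_of_sum_mem_V (inclOE A (le_cyclo K ζ))
    (inclE (le_cyclo K ζ)) (fun r => rfl) ((q : ℕ) : OE A K)
    (irreducible_natCast_OE A K hq hA hK) (lam A hq K hζ) (irreducible_lam A hq hA K hK hζ)
    (q - 1) hdvd (fun j => sigmaHom N K (c j)) (fun j => sigmaHom_mem_fracField N K A (c j)) ?_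
  have h2 : sigmaHom N (cyclo K ζ)
      (∑ j : Fin (q - 1), lamF K ζ N ^ (j : ℕ) * bcLE N K ζ (c j)) =
      ∑ i : Fin (q - 1),
        HahnSeries.C (algebraMap (OE A (cyclo K ζ)) (cyclo K ζ) (lam A hq K hζ)) ^ (i : ℕ) *
          coeffMap (inclE (le_cyclo K ζ)) (sigmaHom N K (c i)) := by
    rw [map_sum]
    refine Finset.sum_congr rfl fun j _ => ?_
    rw [map_mul, map_pow, sigmaHom_lamF A hq K hζ N]
    rfl
  rw [← h2]
  exact h

/-- Base change preserves Gauss-integrality at `∞`. -/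
theorem bcLE_mem_VInf {x : LE N K} (hx : x ∈ VInf N K (OE A K)) :
    bcLE N K ζ x ∈ VInf N (cyclo K ζ) (OE A (cyclo K ζ)) :=
  Fermat.Agent.S44.L.GaussBC.coeffMap_mem_V (inclOE A (le_cyclo K ζ)) (inclE (le_cyclo K ζ))
    (fun r => rfl) hx

include hq hζ in
/-- `λ` is Gauss-integral at `∞`. -/
theorem lamF_mem_VInf : lamF K ζ N ∈ VInf N (cyclo K ζ) (OE A (cyclo K ζ)) := by
  show sigmaHom N (cyclo K ζ) (lamF K ζ N) ∈ GaussDVR.V (OE A (cyclo K ζ)) (cyclo K ζ)
  rw [sigmaHom_lamF A hq K hζ N]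
  exact Fermat.Agent.S44.L.GaussBC.C_mem_V _

include hq hA hK hζ in
/-- **The Gauss ring of `F₁` at `∞` is generated by the Gauss ring of `F` and `λ`.** -/
theorem adj_VInf :
    letI := algebraBC K ζ N
    TameModel.adj (lamF K ζ N) (VInf N K (OE A K)) =
      VInf N (cyclo K ζ) (OE A (cyclo K ζ)) := by
  letI := algebraBC K ζ N
  apply le_antisymm
  · show Subring.closure (algebraMap (LE N K) (LE N (cyclo K ζ)) ''
        (VInf N K (OE A K) : Set (LE N K)) ∪ {lamF K ζ N}) ≤ _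
    refine Subring.closure_le.mpr ?_
    rintro y (⟨x, hx, rfl⟩ | rfl)
    · exact bcLE_mem_VInf A K N hx
    · exact lamF_mem_VInf A hq K hζ N
  · intro x hx
    obtain ⟨c, hc⟩ := exists_coords hq K hζ N x
    have hx' : sigmaHom N (cyclo K ζ)
        (∑ j : Fin (q - 1), lamF K ζ N ^ (j : ℕ) * bcLE N K ζ (c j)) ∈
          GaussDVR.V (OE A (cyclo K ζ)) (cyclo K ζ) := by
      rw [← hc]
      exact hx
    have hV := coords_mem_V A hq hA K hK hζ N c hx'
    rw [hc]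
    exact sum_mem fun j _ => mul_mem (pow_mem (TameModel.lam_mem_adj _ _) _)
      (TameModel.algebraMap_mem_adj _ _ (hV j))

end Gauss

/-! ### The component `0`: through the swap -/

section Zero

variable (A : ValuationSubring Qb) {q : ℕ} (hq : q.Prime) (hA : A.LiesOverPrime q)
  (K : IntermediateField ℚ Qb) [FiniteDimensional ℚ K]
  (hK : A.inertiaSubgroupIn ℚ ≤ K.fixingSubgroup) {ζ : Qb} (hζ : IsPrimitiveRoot ζ q)
  (M ℓ : ℕ) [NeZero M] [NeZero ℓ] (hℓ : ℓ.Prime) (hℓM : ¬ ℓ ∣ M)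
  [IsDiscreteValuationRing (OE A K)] [IsDiscreteValuationRing (OE A (cyclo K ζ))]

/-- Base change commutes with the Atkin–Lehner swap. -/
theorem wHom_bcLE (x : LE (M * ℓ) K) :
    wHom M ℓ (cyclo K ζ) hℓ hℓM (bcLE (M * ℓ) K ζ x) =
      bcLE (M * ℓ) K ζ (wHom M ℓ K hℓ hℓM x) := by
  apply upF_injective (M * ℓ) (cyclo K ζ)
  have h1 : upF (M * ℓ) (cyclo K ζ) (wE M ℓ (cyclo K ζ) hℓ hℓM (bcLE (M * ℓ) K ζ x)) =
      Fermat.Agent.S34.ToricSwap.wAL M ℓ hℓ hℓM
        (upF (M * ℓ) (cyclo K ζ) (bcLE (M * ℓ) K ζ x)) :=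
    upE_wE M ℓ (cyclo K ζ) hℓ hℓM _
  have h2 : upF (M * ℓ) K (wE M ℓ K hℓ hℓM x) =
      Fermat.Agent.S34.ToricSwap.wAL M ℓ hℓ hℓM (upF (M * ℓ) K x) :=
    upE_wE M ℓ K hℓ hℓM x
  show upF (M * ℓ) (cyclo K ζ) (wE M ℓ (cyclo K ζ) hℓ hℓM (bcLE (M * ℓ) K ζ x)) =
    upF (M * ℓ) (cyclo K ζ) (bcLE (M * ℓ) K ζ (wE M ℓ K hℓ hℓM x))
  rw [h1, upF_bcLE, upF_bcLE, h2]

/-- The swap fixes `λ`. -/
theorem wHom_lamF :
    wHom M ℓ (cyclo K ζ) hℓ hℓM (lamF K ζ (M * ℓ)) = lamF K ζ (M * ℓ) :=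
  (wE M ℓ (cyclo K ζ) hℓ hℓM).commutes _

include hq hA hK hζ in
/-- **The Gauss ring of `F₁` at `0` is generated by the Gauss ring of `F` at `0` and `λ`.** -/
theorem adj_VZero :
    letI := algebraBC K ζ (M * ℓ)
    TameModel.adj (lamF K ζ (M * ℓ)) (VZero M ℓ K (OE A K) hℓ hℓM) =
      VZero M ℓ (cyclo K ζ) (OE A (cyclo K ζ)) hℓ hℓM := by
  letI := algebraBC K ζ (M * ℓ)
  apply le_antisymm
  · show Subring.closure (algebraMap (LE (M * ℓ) K) (LE (M * ℓ) (cyclo K ζ)) ''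
        (VZero M ℓ K (OE A K) hℓ hℓM : Set (LE (M * ℓ) K)) ∪ {lamF K ζ (M * ℓ)}) ≤ _
    refine Subring.closure_le.mpr ?_
    rintro y (⟨x, hx, rfl⟩ | rfl)
    · show sigmaHom (M * ℓ) (cyclo K ζ)
        (wHom M ℓ (cyclo K ζ) hℓ hℓM (bcLE (M * ℓ) K ζ x)) ∈
          GaussDVR.V (OE A (cyclo K ζ)) (cyclo K ζ)
      rw [wHom_bcLE]
      exact Fermat.Agent.S44.L.GaussBC.coeffMap_mem_V (inclOE A (le_cyclo K ζ))
        (inclE (le_cyclo K ζ)) (fun r => rfl) hx
    · show sigmaHom (M * ℓ) (cyclo K ζ)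
        (wHom M ℓ (cyclo K ζ) hℓ hℓM (lamF K ζ (M * ℓ))) ∈
          GaussDVR.V (OE A (cyclo K ζ)) (cyclo K ζ)
      rw [wHom_lamF, sigmaHom_lamF A hq K hζ (M * ℓ)]
      exact Fermat.Agent.S44.L.GaussBC.C_mem_V _
  · intro x hx
    obtain ⟨c, hc⟩ := exists_coords hq K hζ (M * ℓ) (wHom M ℓ (cyclo K ζ) hℓ hℓM x)
    have hx' : sigmaHom (M * ℓ) (cyclo K ζ)
        (∑ j : Fin (q - 1), lamF K ζ (M * ℓ) ^ (j : ℕ) * bcLE (M * ℓ) K ζ (c j)) ∈
          GaussDVR.V (OE A (cyclo K ζ)) (cyclo K ζ) := by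
      rw [← hc]
      exact hx
    have hV := coords_mem_V A hq hA K hK hζ (M * ℓ) c hx'
    have hxw : x = ∑ j : Fin (q - 1),
        lamF K ζ (M * ℓ) ^ (j : ℕ) * bcLE (M * ℓ) K ζ (wHom M ℓ K hℓ hℓM (c j)) := by
      have h1 := congrArg (wHom M ℓ (cyclo K ζ) hℓ hℓM) hc
      rw [wHom_wHom, map_sum] at h1
      refine h1.trans (Finset.sum_congr rfl fun j _ => ?_)
      rw [map_mul, map_pow, wHom_lamF, wHom_bcLE]
    rw [hxw]
    refine sum_mem fun j _ => mul_mem (pow_mem (TameModel.lam_mem_adj _ _) _)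
      (TameModel.algebraMap_mem_adj _ _ ?_)
    show sigmaHom (M * ℓ) K (wHom M ℓ K hℓ hℓM (wHom M ℓ K hℓ hℓM (c j))) ∈
      GaussDVR.V (OE A K) K
    rw [wHom_wHom]
    exact hV j

include hq hA hK hζ in
/-- **The two Gauss rings of `F₁`** (`GaussRings.VB` over `K(ζ)`) **are generated by those of
`F` and `λ`.** -/
theorem adj_VB (W : Bool) :
    letI := algebraBC K ζ (M * ℓ)
    TameModel.adj (lamF K ζ (M * ℓ)) (VB M ℓ K (OE A K) hℓ hℓM W) =
      VB M ℓ (cyclo K ζ) (OE A (cyclo K ζ)) hℓ hℓM W := by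
  cases W
  · exact adj_VZero A hq hA K hK hζ M ℓ hℓ hℓM
  · exact adj_VInf A hq hA K hK hζ (M * ℓ)

end Zero

end Fermat.Agent.S33.Geo.CycloLE
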