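/-
S33 (ordinary at `p ∥ N`), strand GEO, Stage B, row C4 (CoverUnr), E-level feed (helper78).

The hypotheses `hN`, `hS` of `CoverBlocks.blocks_above` for the cover field
`L0 N K ζ T` over `F = LE N K`, from the EXITS OF THE OTHER ROWS in their landed literals:

* Z3 (depth `p`, constant `1`, along `V W[λ]` for every generic ring `V W` of the base model):
  `Top.DepthIn (TameModel.adj (algebraMap O₁ F₁ λ) (V W)) p λ p (y i) 1`
  (the conclusion of `ZConst.tame_depth_one`);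
* Z3h (`ZHorInst.horVal_of_divBy`): `TameModel.HorVal p λ (y i)`;
* C1-E (`CoverFieldInst.cover_gal`): `L0 / F` finite Galois of degree `p ^ k`;
* CycloLE: `F₁ = F[λ]`, `O₁ = O[λ]`, the square `O → O₁`, `F → F₁`.

Here `O = OE A K`, `O₁ = OE A K(ζ)`, `λ = CycloBase.lam = ζ - 1`, `F₁ = LE N K(ζ)`,
`T i ^ p = y i ∈ F₁`, the uniformiser of `O` is `p`.

* `zetaF_sub_one`, `adjoin_zetaF_eq_top` : `F₁ = F[ζ]`;
* `finiteDimensional_L1` : `L1 = F₁(T_i)` is finite over `F₁`;
* `depData_of_exit`, `horData_of_exit` : the two data of `CoverUnrDefs`;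
* `hN_of_rows`, `hS_of_rows` : **the row C4 at the E-level**.
-/
import Mathlib
import Fermat.Agent.S33.Geo.CoverUnrE
import Fermat.Agent.S33.Geo.CoverUnrFeed
import Fermat.Agent.S33.Geo.CycloLE

set_option autoImplicit false
set_option linter.unusedSectionVars false
set_option linter.unusedVariables false
set_option linter.style.haveILetI false
set_option synthInstance.maxHeartbeats 400000
set_option maxHeartbeats 1000000

open ModularCurve Polynomial

noncomputable section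

namespace Fermat.Agent.S33.Geo.CoverUnrInst

open IsLocalRing
open Fermat.Agent.S18.K1Defs Fermat.Agent.S18.K1Top Fermat.Agent.S18.K1Main Fermat.Agent.S30
open Fermat.Agent.S36.CycloBase Fermat.Agent.S36.UnramBase
open Fermat.Agent.S33.Geo.CoverFieldDefs Fermat.Agent.S33.Geo.CoverUnrDefs
open Fermat.Agent.S33.Geo.TopLocal Fermat.Agent.S33.Geo.Top Fermat.Agent.S33.Geo.TameModel
open Fermat.Agent.S33.Geo.CoverUnrE Fermat.Agent.S33.Geo

local notation "Qb" => AlgebraicClosure ℚ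

/-! ### `F₁ = F[ζ]` and the finiteness of `L1 / F₁` -/

section Fun

variable (N : ℕ) (K : IntermediateField ℚ Qb) [FiniteDimensional ℚ K] (ζ : Qb)

/-- `ζ - 1 = λ` in `F₁`. -/
theorem zetaF_sub_one : zetaF N K ζ - 1 = CycloLE.lamF K ζ N := by
  show algebraMap (cyclo K ζ) (LE N (cyclo K ζ)) ⟨ζ, zeta_mem_cyclo K ζ⟩ - 1
    = algebraMap (cyclo K ζ) (LE N (cyclo K ζ)) (CycloLE.lamE K ζ)
  rw [← map_one (algebraMap (cyclo K ζ) (LE N (cyclo K ζ))), ← map_sub]
  rfl

/-- **`F₁ = F[ζ]`** (from `CycloLE.adjoin_lamF_eq_top`). -/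
theorem adjoin_zetaF_eq_top {p : ℕ} (hp : p.Prime) (hζ : IsPrimitiveRoot ζ p) :
    letI := algF1 N K ζ
    Algebra.adjoin (LE N K) ({zetaF N K ζ} : Set (LE N (cyclo K ζ))) = ⊤ := by
  letI := algF1 N K ζ
  apply CoverUnrDeg.adjoin_eq_top_of_sub_one
  rw [zetaF_sub_one]
  exact CycloLE.adjoin_lamF_eq_top hp K hζ N

variable {n : ℕ} (T : Fin n → LaurentSeries (cyclo K ζ))

/-- `L1 = F₁(T_i)` is finite over `F₁` when the `T_i ^ p` lie in `F₁`. -/
theorem finiteDimensional_L1 {p : ℕ} (hp0 : p ≠ 0) (y : Fin n → LE N (cyclo K ζ))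
    (hTy : ∀ i, T i ^ p = ((y i : LE N (cyclo K ζ)) : LaurentSeries (cyclo K ζ))) :
    FiniteDimensional (LE N (cyclo K ζ)) (L1 N K ζ T) := by
  haveI : Finite (Set.range T) := Set.finite_range T
  show FiniteDimensional (LE N (cyclo K ζ))
    (IntermediateField.adjoin (LE N (cyclo K ζ)) (Set.range T))
  refine IntermediateField.finiteDimensional_adjoin ?_
  rintro _ ⟨i, rfl⟩
  refine ⟨X ^ p - C (y i), monic_X_pow_sub_C _ hp0, ?_⟩
  rw [eval₂_sub, eval₂_pow, eval₂_X, eval₂_C, hTy i]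
  exact sub_self _

/-- The Kummer generators are nonzero when their `p`-th powers are. -/
theorem T_ne_zero {p : ℕ} (hp0 : p ≠ 0) (y : Fin n → LE N (cyclo K ζ)) (hy : ∀ i, y i ≠ 0)
    (hTy : ∀ i, T i ^ p = ((y i : LE N (cyclo K ζ)) : LaurentSeries (cyclo K ζ))) (i : Fin n) :
    T i ≠ 0 := by
  intro h0
  apply hy i
  apply Subtype.ext
  rw [← hTy i, h0, zero_pow hp0]
  rfl

end Fun

/-! ### The two data of C4 from the exits of Z3 -/

section Val

variable (A : ValuationSubring Qb) {p : ℕ} (hp : p.Prime) (hA : A.LiesOverPrime p)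
  (K : IntermediateField ℚ Qb) [FiniteDimensional ℚ K]
  (hK : A.inertiaSubgroupIn ℚ ≤ K.fixingSubgroup) {ζ : Qb} (hζ : IsPrimitiveRoot ζ p) (N : ℕ)
  {n : ℕ} (T : Fin n → LaurentSeries (cyclo K ζ)) (y : Fin n → LE N (cyclo K ζ))

include hζ in
/-- **The vertical data from the Z3 exit** (depth `p`, constant `1`, along `V[λ]`). -/
theorem depData_of_exit (hy : ∀ i, y i ≠ 0)
    (hTy : ∀ i, T i ^ p = ((y i : LE N (cyclo K ζ)) : LaurentSeries (cyclo K ζ)))
    (V : Subring (LE N K))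
    (hZ : letI := algebraOL (OE A (cyclo K ζ)) (cyclo K ζ) (LE N (cyclo K ζ))
      letI := algF1 N K ζ
      ∀ i, DepthIn (adj (algebraMap (OE A (cyclo K ζ)) (LE N (cyclo K ζ)) (lam A hp K hζ)) V)
        p (lam A hp K hζ) p (y i) 1) :
    letI := algF1 N K ζ
    DepData p (zetaF N K ζ) (gen N K ζ T) V := by
  letI := algebraOL (OE A (cyclo K ζ)) (cyclo K ζ) (LE N (cyclo K ζ))
  letI := algF1 N K ζ
  refine CoverUnrFeed.depData_of_depthIn hp.ne_zero (zetaF N K ζ)
    (isPrimitiveRoot_zetaF N K ζ hζ).pow_eq_one (lam A hp K hζ) ?_ (gen N K ζ T)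
    (gen_ne_zero N K ζ T (T_ne_zero N K ζ T hp.ne_zero y hy hTy)) y
    (fun i => Subtype.ext (hTy i)) V hZ
  rw [zetaF_sub_one]
  rfl

include hA hK in
/-- **The horizontal data from the Z3h exit** (`TameModel.HorVal p λ (y i)`). -/
theorem horData_of_exit
    (hTy : ∀ i, T i ^ p = ((y i : LE N (cyclo K ζ)) : LaurentSeries (cyclo K ζ)))
    (hHor : letI := algebraOL (OE A (cyclo K ζ)) (cyclo K ζ) (LE N (cyclo K ζ))
      ∀ i, HorVal p (lam A hp K hζ) (y i)) :
    letI := algebraOL (OE A K) K (LE N K)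
    letI := algF1 N K ζ
    HorData (LE N K) (LE N (cyclo K ζ)) p ((p : ℕ) : OE A K) (gen N K ζ T) := by
  letI := algebraOL (OE A K) K (LE N K)
  letI := algebraOL (OE A (cyclo K ζ)) (cyclo K ζ) (LE N (cyclo K ζ))
  letI := algF1 N K ζ
  letI : Algebra (OE A K) (OE A (cyclo K ζ)) := (inclOE A (le_cyclo K ζ)).toAlgebra
  haveI : Fact p.Prime := ⟨hp⟩
  refine CoverUnrFeed.horData_of_horVal (O := OE A K) (O₁ := OE A (cyclo K ζ)) ?_ hp.ne_zero
    (CycloLE.one_add_lam_pow A hp K hζ) ?_ ?_ ?_ (gen N K ζ T) y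
    (fun i => Subtype.ext (hTy i)) hHor
  · intro c
    exact CycloLE.bcLE_algebraMap_OE A K N c
  · intro a
    exact CycloLE.exists_eval₂_eq_OE A hp hA K hK hζ a
  · rw [map_natCast]
    exact dvd_p_of_root p (irreducible_lam A hp hA K hK hζ).ne_zero
      (CycloLE.one_add_lam_pow A hp K hζ)
  · rw [map_natCast, map_natCast]
    exact Nat.cast_ne_zero.mpr hp.ne_zero

/-! ### The row C4 at the E-level -/

variable [IsDiscreteValuationRing (OE A K)] {k : ℕ}
  [FiniteDimensional (LE N K) (L0 N K ζ T)] [IsGalois (LE N K) (L0 N K ζ T)]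
  {ι Y : Type*} (V : ι → Subring (LE N K)) (R : Y → Subring (LE N K))

include hA hK in
/-- **Row C4 at the E-level, node blocks**: the hypothesis `hN` of `CoverBlocks.blocks_above`
at `O = OE A K`, `ϖ = p`, from the exits of Z3, Z3h, C1-E and CycloLE. -/
theorem hN_of_rows (hL0 : Module.finrank (LE N K) (L0 N K ζ T) = p ^ k)
    (hy : ∀ i, y i ≠ 0)
    (hTy : ∀ i, T i ^ p = ((y i : LE N (cyclo K ζ)) : LaurentSeries (cyclo K ζ)))
    (hHor : letI := algebraOL (OE A (cyclo K ζ)) (cyclo K ζ) (LE N (cyclo K ζ))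
      ∀ i, HorVal p (lam A hp K hζ) (y i))
    (hZ : letI := algebraOL (OE A (cyclo K ζ)) (cyclo K ζ) (LE N (cyclo K ζ))
      letI := algF1 N K ζ
      ∀ W i, DepthIn (adj (algebraMap (OE A (cyclo K ζ)) (LE N (cyclo K ζ)) (lam A hp K hζ))
        (V W)) p (lam A hp K hζ) p (y i) 1) :
    letI := algebraOL (OE A K) K (LE N K)
    ∀ (B : Type) [CommRing B] [IsDomain B] [IsLocalRing B] [IsNoetherianRing B]
      [Algebra (OE A K) B] [Algebra B (LE N K)] [IsFractionRing B (LE N K)]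
      [IsScalarTower (OE A K) B (LE N K)] [Algebra B (L0 N K ζ T)]
      [IsScalarTower B (LE N K) (L0 N K ζ T)] (y' : Y) (W₁ W₂ : ι) (s t : B),
      (algebraMap B (LE N K)).range = R y' →
      Prime s → Prime t → ¬ Associated s t → maximalIdeal B = Ideal.span {s, t} →
      Associated (s * t) (algebraMap (OE A K) B ((p : ℕ) : OE A K)) →
      IsBranch s (V W₁) → IsBranch t (V W₂) → CoverBlocks.DiscrAt B (L0 N K ζ T) := by
  letI := algebraOL (OE A K) K (LE N K)
  haveI := finiteDimensional_L1 N K ζ T hp.ne_zero y hTy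
  exact CoverUnrE.hN N K ζ T V R hp hζ (Associated.refl _) hL0
    (adjoin_zetaF_eq_top N K ζ hp hζ) (T_ne_zero N K ζ T hp.ne_zero y hy hTy)
    (horData_of_exit A hp hA K hK hζ N T y hTy hHor)
    (fun W => depData_of_exit A hp K hζ N T y hy hTy (V W) (hZ W))

include hA hK in
/-- **Row C4 at the E-level, smooth blocks**: the hypothesis `hS` of
`CoverBlocks.blocks_above` at `O = OE A K`, `ϖ = p`. -/
theorem hS_of_rows (hL0 : Module.finrank (LE N K) (L0 N K ζ T) = p ^ k)
    (hy : ∀ i, y i ≠ 0)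
    (hTy : ∀ i, T i ^ p = ((y i : LE N (cyclo K ζ)) : LaurentSeries (cyclo K ζ)))
    (hHor : letI := algebraOL (OE A (cyclo K ζ)) (cyclo K ζ) (LE N (cyclo K ζ))
      ∀ i, HorVal p (lam A hp K hζ) (y i))
    (hZ : letI := algebraOL (OE A (cyclo K ζ)) (cyclo K ζ) (LE N (cyclo K ζ))
      letI := algF1 N K ζ
      ∀ W i, DepthIn (adj (algebraMap (OE A (cyclo K ζ)) (LE N (cyclo K ζ)) (lam A hp K hζ))
        (V W)) p (lam A hp K hζ) p (y i) 1) :
    letI := algebraOL (OE A K) K (LE N K)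
    ∀ (B : Type) [CommRing B] [IsDomain B] [IsLocalRing B] [IsNoetherianRing B]
      [Algebra (OE A K) B] [Algebra B (LE N K)] [IsFractionRing B (LE N K)]
      [IsScalarTower (OE A K) B (LE N K)] [Algebra B (L0 N K ζ T)]
      [IsScalarTower B (LE N K) (L0 N K ζ T)] (y' : Y) (W₁ : ι) (z : B),
      (algebraMap B (LE N K)).range = R y' →
      Prime (algebraMap (OE A K) B ((p : ℕ) : OE A K)) →
      maximalIdeal B = Ideal.span {algebraMap (OE A K) B ((p : ℕ) : OE A K), z} →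
      IsBranch (algebraMap (OE A K) B ((p : ℕ) : OE A K)) (V W₁) →
      CoverBlocks.DiscrAt B (L0 N K ζ T) := by
  letI := algebraOL (OE A K) K (LE N K)
  haveI := finiteDimensional_L1 N K ζ T hp.ne_zero y hTy
  exact CoverUnrE.hS N K ζ T V R hp hζ (Associated.refl _) hL0
    (adjoin_zetaF_eq_top N K ζ hp hζ) (T_ne_zero N K ζ T hp.ne_zero y hy hTy)
    (horData_of_exit A hp hA K hK hζ N T y hTy hHor)
    (fun W => depData_of_exit A hp K hζ N T y hy hTy (V W) (hZ W))

end Val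

end Fermat.Agent.S33.Geo.CoverUnrInst
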