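import Mathlib
import Fermat.Agent.S33.Geo.Top

/-!
# S33 / GEO / Z1 : ONE constant on all components, comparisons at DISTINCT branches only

The variant of `TameConst.one_const_of_rel` in which the comparison of constants `hrel` is
asked only for two DISTINCT components `W ≠ W'` through a common closed point (at a node: the
node lemma at the top depth).  A step `W = W'` of the chain in the dual graph is skipped.
-/

set_option autoImplicit false
set_option linter.unusedSectionVars false
set_option linter.unusedVariables false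

namespace Fermat.Agent.S33.Geo.TameConstNe

open Fermat.Agent.S33.Geo.Top

variable {O F : Type*} [CommRing O] [IsDomain O] [IsLocalRing O] [Field F] [Algebra O F]
  {ι Y : Type*} {V : ι → Subring F} {On : Y → ι → Prop}

/-- **ONE constant from the comparisons at the nodes** (`W ≠ W'` only). -/
theorem one_const_of_rel_ne {p : ℕ} {ϖ : O} (hϖ : ¬ IsUnit ϖ)
    (hinj : Function.Injective (algebraMap O F))
    (constV : ∀ W (a : O), algebraMap O F a ∈ V W)
    (conn : ∀ W W' : ι, Relation.ReflTransGen (fun a b => ∃ y, On y a ∧ On y b) W W')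
    (f : F) (top : ℕ) (htop : 1 ≤ top)
    (hrel : ∀ y W W', W ≠ W' → On y W → On y W' → ∀ c c' : O, c ≠ 0 → c' ≠ 0 →
      DepthIn (V W) p ϖ top f c → DepthIn (V W') p ϖ top f c' → ConstRel p ϖ top c' c)
    (h : ∀ W, ∃ c : O, c ≠ 0 ∧ DepthIn (V W) p ϖ top f c) :
    ∃ c : O, c ≠ 0 ∧ ∀ W, DepthIn (V W) p ϖ top f c := by
  classical
  by_cases hne : Nonempty ι
  · obtain ⟨W₀⟩ := hne
    obtain ⟨c₀, hc₀, h₀⟩ := h W₀
    have key : ∀ W, Relation.ReflTransGen (fun a b => ∃ y, On y a ∧ On y b) W₀ W →
        DepthIn (V W) p ϖ top f c₀ := by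
      intro W hW
      induction hW with
      | refl => exact h₀
      | @tail a b _ hab ih =>
        obtain ⟨y, hya, hyb⟩ := hab
        by_cases hab' : a = b
        · exact hab' ▸ ih
        · obtain ⟨cb, hcb, hb⟩ := h b
          exact DepthIn.of_constRel (constV b) hinj hϖ htop hb
            (hrel y a b hab' hya hyb c₀ cb hc₀ hcb ih hb)
    exact ⟨c₀, hc₀, fun W => key W (conn W₀ W)⟩
  · exact ⟨1, one_ne_zero, fun W => (hne ⟨W⟩).elim⟩

end Fermat.Agent.S33.Geo.TameConstNe
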