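import Mathlib
import Fermat.Agent.S33.Geo.TameModel

/-!
# S33 / GEO / Stage B, row Z1: the tame depth chain `1 → p` over `O₁ = O[ζ_p]`

Level-free; fix-forward of `S33/Geo/TameModel` (whose exit `tame_depth_two` is the step
`1 → 2`): the same closed-point argument at EVERY depth `1 ≤ j < p`, and the induction.

Setting of `TameModel`: `O` a discrete valuation ring with uniformiser `ϖ ∼ p` and perfect
residue field, `D : Model.IsModel p ϖ V R On Hor` a model of `F` over `O`; `O₁ = O[lam]` a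
discrete valuation ring with uniformiser `lam`, `(1 + lam) ^ p = 1`, `F₁ = F(lam)` with `lam` of
minimal polynomial `Ψ_p` over `F`; `V W[lam] = TameModel.adj lam (V W)`.

* `psi_eq`, `pow_pred_dvd_p` : `Ψ_p = X ^ (p - 1) + p (1 + X T)`, hence `lam ^ (p - 1) ∣ p` in a
  local domain;
* `reg_node_tame_at`, `reg_smooth_tame_at` : the bare `reg` statement over `O₁` at a
  `NodeBlock` / `SmoothBlock` presentation `A` of the model over `O`, at every depth
  `1 ≤ j < p` (`HDLocal.hd_node` / `hd_smooth` in the regular cover need only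
  `lam ^ (j - 1) ∣ p`, `TopLocal.reg_branch` needs `j + 1 ≤ p`, `lam ^ j ∣ p`);
* `tame_depth_step` : depth `≥ j` on every `V W[lam]` gives depth `≥ j + 1` (`1 ≤ j < p`);
* `tame_depth` : **depth `≥ 1` on every `V W[lam]` gives depth `≥ p` on every `V W[lam]`**, for
  `f ∈ F₁ˣ` with `TameModel.HorVal p lam f`.
-/

set_option autoImplicit false
set_option linter.unusedSectionVars false
set_option linter.unusedVariables false
set_option linter.style.haveILetI false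

namespace Fermat.Agent.S33.Geo.TameDepth

open Polynomial IsLocalRing
open Fermat.Agent.S33.Geo.Top Fermat.Agent.S33.Geo.TopLocal Fermat.Agent.S33.Geo.Model
open Fermat.Agent.S33.Geo.TameModel

universe u

/-! ### `lam ^ (p - 1) ∣ p` -/

section Psi

variable (p : ℕ) [hp : Fact p.Prime]

/-- `Ψ_p = X ^ (p - 1) + p (1 + X T)`. -/
theorem psi_eq : ∃ T : ℤ[X], psi p = X ^ (p - 1) + C (p : ℤ) * (1 + X * T) := by
  have hp1 : p - 1 ≠ 0 := by have := hp.out.one_lt; omega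
  have hdvd : C (p : ℤ) ∣ psi p - X ^ (p - 1) := by
    rw [C_dvd_iff_dvd_coeff]
    intro i
    rw [coeff_sub, coeff_X_pow]
    rcases lt_trichotomy i (p - 1) with hi | hi | hi
    · rw [if_neg (by omega), sub_zero]
      have hE : (psi p).IsEisensteinAt (Submodule.span ℤ {(p : ℤ)}) :=
        cyclotomic_comp_X_add_one_isEisensteinAt p
      have hmem := hE.mem (by rw [psi_natDegree]; exact hi)
      exact Ideal.mem_span_singleton.mp hmem
    · have hlead : (psi p).coeff (p - 1) = 1 := by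
        have h1 := (psi_monic p).coeff_natDegree
        rwa [psi_natDegree] at h1
      rw [hi, hlead, if_pos rfl, sub_self]
      exact dvd_zero _
    · rw [if_neg (by omega), sub_zero,
        coeff_eq_zero_of_natDegree_lt (by rw [psi_natDegree]; exact hi)]
      exact dvd_zero _
  obtain ⟨U, hU⟩ := hdvd
  have hU0 : U.coeff 0 = 1 := by
    have h1 := congrArg (fun P : ℤ[X] => P.coeff 0) hU
    simp only [coeff_sub, coeff_X_pow, coeff_C_mul, psi_coeff_zero] at h1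
    rw [if_neg (Ne.symm hp1), sub_zero] at h1
    have hp0 : (p : ℤ) ≠ 0 := by exact_mod_cast hp.out.ne_zero
    exact (mul_left_cancel₀ hp0 (by rw [mul_one]; exact h1)).symm
  refine ⟨U.divX, ?_⟩
  have h2 : (1 : ℤ[X]) + X * U.divX = U := by
    conv_rhs => rw [← X_mul_divX_add U, hU0]
    rw [map_one, add_comm]
  rw [h2, ← hU]
  ring

/-- `y ^ (p - 1) ∣ p` for a nonzero non-unit `y` with `(1 + y) ^ p = 1` in a local domain. -/
theorem pow_pred_dvd_p {D : Type*} [CommRing D] [IsDomain D] [IsLocalRing D] {y : D}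
    (hy : ¬ IsUnit y) (hy0 : y ≠ 0) (h : (1 + y) ^ p = 1) : y ^ (p - 1) ∣ (p : D) := by
  obtain ⟨T, hT⟩ := psi_eq p
  have h1 := psi_root p hy0 h
  rw [hT, eval₂_add, eval₂_pow, eval₂_X, eval₂_mul, eval₂_C, eval₂_add, eval₂_one, eval₂_mul,
    eval₂_X] at h1
  have h2 : (Int.castRingHom D) (p : ℤ) = (p : D) := by simp
  rw [h2] at h1
  have hu : IsUnit (1 + y * eval₂ (Int.castRingHom D) y T) := by
    have h3 : y * eval₂ (Int.castRingHom D) y T ∈ maximalIdeal D :=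
      Ideal.mul_mem_right _ _ ((mem_maximalIdeal y).mpr hy)
    by_contra hnu
    have h4 := (mem_maximalIdeal _).mpr hnu
    have h5 : (1 : D) ∈ maximalIdeal D := by
      have := Ideal.sub_mem _ h4 h3
      rwa [add_sub_cancel_right] at this
    exact (mem_maximalIdeal (1 : D)).mp h5 isUnit_one
  obtain ⟨w, hw⟩ := hu.exists_right_inv
  refine ⟨-w, ?_⟩
  linear_combination w * h1 - (p : D) * hw

end Psi

/-! ### The abstract cover, at depth `j` -/

section Cover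

variable {O₁ : Type*} [CommRing O₁] [IsDomain O₁] [IsDiscreteValuationRing O₁]
  {R : Type*} [CommRing R] [IsDomain R] [IsLocalRing R] [IsNoetherianRing R] [Algebra O₁ R]
  {E : Type*} [Field E] [Algebra R E] [IsFractionRing R E] [Algebra O₁ E] [IsScalarTower O₁ R E]
  {F₁ : Type*} [Field F₁] [Algebra O₁ F₁]
  (φ : F₁ →+* E) (hφO : ∀ a : O₁, φ (algebraMap O₁ F₁ a) = algebraMap O₁ E a)

variable {A : Type*} [CommRing A] [IsDomain A] [Algebra A R]
  {F : Type*} [Field F] [Algebra A F] [IsFractionRing A F] [Algebra F F₁]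
  (hφA : ∀ a : A, φ (algebraMap F F₁ (algebraMap A F a)) = algebraMap R E (algebraMap A R a))

include hφO hφA in
/-- **`reg` on one branch through the cover**: the leading term of any generic form along
`V[lam]` is the descended local leading term `a₀ ∈ A` up to a constant, modulo `lam V[lam]`. -/
theorem reg_branch_at {p : ℕ} (hp : p.Prime) {lam : O₁} (hlam : Irreducible lam)
    (hlp : lam ∣ (p : O₁))
    {j : ℕ} (hj1 : 1 ≤ j) (hjp : j + 1 ≤ p) (hlj : lam ^ j ∣ (p : O₁))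
    (hperf₁ : ∀ a : O₁, ∃ b : O₁, lam ∣ a - b ^ p)
    {x : A} (hxP : Prime x) {V : Subring F} (hV : IsBranch x V) {w₀ : A}
    (hxw : (p : A) = x * w₀) (hw₀ : ¬ x ∣ w₀)
    {s' w : R} (hs' : Prime s') (hsw : algebraMap O₁ R lam = s' * w) (hw : ¬ s' ∣ w)
    (hx' : ∀ b : A, s' ∣ algebraMap A R b → x ∣ b)
    (hO₁V : ∀ a : O₁, algebraMap O₁ F₁ a ∈ adj (algebraMap O₁ F₁ lam) V)
    {f : F₁} (hf : f ≠ 0) (cy : O₁) (hcy : cy ≠ 0) (h : E) (rR : R)
    (hpt : φ f = algebraMap R E (algebraMap O₁ R cy) * h ^ p *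
      algebraMap R E (1 + algebraMap O₁ R lam ^ j * rR))
    (a₀ : A) (ha₀ : s' ∣ algebraMap A R a₀ - rR)
    (c : O₁) (g r : F₁) (hc : c ≠ 0) (hr : r ∈ adj (algebraMap O₁ F₁ lam) V)
    (hgen : f = algebraMap O₁ F₁ c * g ^ p * (1 + algebraMap O₁ F₁ lam ^ j * r)) :
    ∃ κ : O₁, MemPi (adj (algebraMap O₁ F₁ lam) V) lam
      (r - algebraMap F F₁ (algebraMap A F a₀) + algebraMap O₁ F₁ κ) := by
  have hφr := map_adj_mem φ hφO hφA hV hs' hx' hr
  have hgen' : φ f = algebraMap O₁ E c * (φ g) ^ p * (1 + algebraMap O₁ E lam ^ j * φ r) := by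
    rw [hgen]
    simp only [map_mul, map_pow, map_add, map_one, hφO]
  have hφf : φ f ≠ 0 := (map_ne_zero φ).mpr hf
  obtain ⟨κ, v, hv, hκ⟩ := reg_branch p hp lam hlam hperf₁ (φ f) hφf s' w hs' hsw hw
    (isBranch_branchRing s' hs') j hj1 hjp hlj cy hcy h rR hpt c
    (φ g) (φ r) hc hφr hgen'
  have ha₀V : algebraMap A F a₀ ∈ V := (hV _).mpr ⟨a₀, 1, hxP.not_dvd_one, by simp⟩
  refine ⟨κ, memPi_of_image φ hφO hφA hlp hxP hV hxw hw₀ hs' hsw hx' hO₁V ?_ ?_⟩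
  · exact Subring.add_mem _ (Subring.sub_mem _ hr (algebraMap_mem_adj _ _ ha₀V)) (hO₁V κ)
  · obtain ⟨k, hk⟩ := ha₀
    refine ⟨algebraMap R E w * v - algebraMap R E k, ?_, ?_⟩
    · exact Subring.sub_mem _ (Subring.mul_mem _ (algebraMap_mem_branchRing s' hs' w) hv)
        (algebraMap_mem_branchRing s' hs' k)
    · have hlamE : algebraMap O₁ E lam = algebraMap R E s' * algebraMap R E w := by
        rw [IsScalarTower.algebraMap_apply O₁ R E, hsw, map_mul]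
      have hk' := congrArg (algebraMap R E) hk
      rw [map_sub, map_mul] at hk'
      rw [hlamE] at hκ
      rw [map_add, map_sub, hφA, hφO]
      linear_combination hκ - hk'

include hφO hφA in
/-- **The local leading term descends on one branch**: there is `a₁ ∈ A` congruent to the local
leading term `rR` of the cover modulo the branch prime `s'`. -/
theorem exists_approx_at [IsLocalRing A] [IsNoetherianRing A] {p : ℕ} (hp : p.Prime)
    {lam : O₁} (hlam : Irreducible lam) (hlp : lam ∣ (p : O₁))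
    {j : ℕ} (hj1 : 1 ≤ j) (hjp : j + 1 ≤ p) (hlj : lam ^ j ∣ (p : O₁))
    (hperf₁ : ∀ a : O₁, ∃ b : O₁, lam ∣ a - b ^ p)
    {x t : A} (hmA : maximalIdeal A = Ideal.span {x, t}) {V : Subring F} (hV : IsBranch x V)
    {s' w : R} (hs' : Prime s') (hsw : algebraMap O₁ R lam = s' * w) (hw : ¬ s' ∣ w)
    (hsx : s' ∣ algebraMap A R x) (hst : ¬ s' ∣ algebraMap A R t)
    (htm : algebraMap A R t ∈ maximalIdeal R)
    (hx' : ∀ b : A, s' ∣ algebraMap A R b → x ∣ b)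
    (hO₁V : ∀ a : O₁, algebraMap O₁ F₁ a ∈ adj (algebraMap O₁ F₁ lam) V)
    {f : F₁} (hf : f ≠ 0) (cy : O₁) (hcy : cy ≠ 0) (h : E) (rR : R)
    (hpt : φ f = algebraMap R E (algebraMap O₁ R cy) * h ^ p *
      algebraMap R E (1 + algebraMap O₁ R lam ^ j * rR))
    (hD : ∃ c : O₁, c ≠ 0 ∧ DepthIn (adj (algebraMap O₁ F₁ lam) V) p lam j f c) :
    ∃ a₁ : A, s' ∣ algebraMap A R a₁ - rR := by
  obtain ⟨c, hc, g, r, hr, hgen⟩ := hD
  have hφr := map_adj_mem φ hφO hφA hV hs' hx' hr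
  have hgen' : φ f = algebraMap O₁ E c * (φ g) ^ p * (1 + algebraMap O₁ E lam ^ j * φ r) := by
    rw [hgen]
    simp only [map_mul, map_pow, map_add, map_one, hφO]
  have hφf : φ f ≠ 0 := (map_ne_zero φ).mpr hf
  obtain ⟨κ, v, hv, hκ⟩ := reg_branch p hp lam hlam hperf₁ (φ f) hφf s' w hs' hsw hw
    (isBranch_branchRing s' hs') j hj1 hjp hlj cy hcy h rR hpt c
    (φ g) (φ r) hc hφr hgen'
  have hz₁ : r + algebraMap O₁ F₁ κ ∈ adj (algebraMap O₁ F₁ lam) V :=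
    Subring.add_mem _ hr (hO₁V κ)
  obtain ⟨v₁, hv₁, z', hz', hzeq⟩ := adj_decomp _ _ hz₁
  have hφz' := map_adj_mem φ hφO hφA hV hs' hx' hz'
  obtain ⟨u, b, hb, hub⟩ := (hV v₁).mp hv₁
  have hlamE : algebraMap O₁ E lam = algebraMap R E s' * algebraMap R E w := by
    rw [IsScalarTower.algebraMap_apply O₁ R E, hsw, map_mul]
  have hdiv : s' ∣ algebraMap A R u - algebraMap A R b * rR := by
    refine dvd_of_eq_mul_mem (q := s') (hq := hs')
      (v := algebraMap R E (algebraMap A R b) * (algebraMap R E w * v - algebraMap R E w * φ z'))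
      ?_ ?_
    · exact Subring.mul_mem _ (algebraMap_mem_branchRing s' hs' _)
        (Subring.sub_mem _ (Subring.mul_mem _ (algebraMap_mem_branchRing s' hs' w) hv)
          (Subring.mul_mem _ (algebraMap_mem_branchRing s' hs' w) hφz'))
    · have h1 := congrArg φ hzeq
      rw [map_add, map_add, map_mul, hφO, hφO, hlamE] at h1
      have h2 : φ (algebraMap F F₁ v₁) * algebraMap R E (algebraMap A R b)
          = algebraMap R E (algebraMap A R u) := by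
        rw [← hφA, ← hφA, ← map_mul, ← map_mul, hub]
      rw [hlamE] at hκ
      rw [map_sub, map_mul]
      linear_combination (algebraMap R E (algebraMap A R b)) * hκ
        - (algebraMap R E (algebraMap A R b)) * h1 - h2
  obtain ⟨a₁, ha₁⟩ := exists_approx hmA hs' hsx hst htm hb hdiv
  refine ⟨a₁, ?_⟩
  have h3 : s' ∣ algebraMap A R b * (algebraMap A R a₁ - rR) := by
    have h4 : s' ∣ algebraMap A R (u - b * a₁) := hsx.trans (map_dvd (algebraMap A R) ha₁)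
    have h5 := dvd_sub hdiv h4
    have h6 : algebraMap A R b * (algebraMap A R a₁ - rR)
        = algebraMap A R u - algebraMap A R b * rR - algebraMap A R (u - b * a₁) := by
      rw [map_sub, map_mul]
      ring
    rw [h6]
    exact h5
  exact (hs'.dvd_or_dvd h3).resolve_left (fun h => hb (hx' b h))

include hφO hφA in
/-- **`reg` at depth `1` over `O₁` at a thick node**, through a regular cover `R` of the node:
ONE local leading term `a₀ ∈ A` for both branches. -/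
theorem reg_node_at [IsLocalRing A] [IsNoetherianRing A] {p : ℕ} (hp : p.Prime)
    {lam : O₁} (hlam : Irreducible lam) (hlp : lam ∣ (p : O₁))
    {j : ℕ} (hj1 : 1 ≤ j) (hjp : j + 1 ≤ p) (hlj : lam ^ j ∣ (p : O₁))
    (hperf₁ : ∀ a : O₁, ∃ b : O₁, lam ∣ a - b ^ p)
    {x t : A} (hx : Prime x) (ht : Prime t) (hmA : maximalIdeal A = Ideal.span {x, t})
    (hxt : x * t = (p : A)) (hnxt : ¬ x ∣ t) (hntx : ¬ t ∣ x)
    {V₁ V₂ : Subring F} (hV₁ : IsBranch x V₁) (hV₂ : IsBranch t V₂)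
    {s' t' : R} (hs' : Prime s') (ht' : Prime t') (hne' : ¬ Associated s' t')
    (hmR : maximalIdeal R = Ideal.span {s', t'}) (hlamR : algebraMap O₁ R lam = s' * t')
    (hsx : s' ∣ algebraMap A R x) (htt : t' ∣ algebraMap A R t)
    (hdx : ∀ b : A, s' ∣ algebraMap A R b → x ∣ b)
    (hdt : ∀ b : A, t' ∣ algebraMap A R b → t ∣ b)
    (hO₁V₁ : ∀ a : O₁, algebraMap O₁ F₁ a ∈ adj (algebraMap O₁ F₁ lam) V₁)
    (hO₁V₂ : ∀ a : O₁, algebraMap O₁ F₁ a ∈ adj (algebraMap O₁ F₁ lam) V₂)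
    {f : F₁} (hf : f ≠ 0) (hHor : HorVal p lam f)
    (hD₁ : ∃ c : O₁, c ≠ 0 ∧ DepthIn (adj (algebraMap O₁ F₁ lam) V₁) p lam j f c)
    (hD₂ : ∃ c : O₁, c ≠ 0 ∧ DepthIn (adj (algebraMap O₁ F₁ lam) V₂) p lam j f c) :
    ∃ a₀ : A,
      (∀ (c : O₁) (g r : F₁), c ≠ 0 → r ∈ adj (algebraMap O₁ F₁ lam) V₁ →
        f = algebraMap O₁ F₁ c * g ^ p * (1 + algebraMap O₁ F₁ lam ^ j * r) →
        ∃ κ : O₁, MemPi (adj (algebraMap O₁ F₁ lam) V₁) lam
          (r - algebraMap F F₁ (algebraMap A F a₀) + algebraMap O₁ F₁ κ)) ∧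
      (∀ (c : O₁) (g r : F₁), c ≠ 0 → r ∈ adj (algebraMap O₁ F₁ lam) V₂ →
        f = algebraMap O₁ F₁ c * g ^ p * (1 + algebraMap O₁ F₁ lam ^ j * r) →
        ∃ κ : O₁, MemPi (adj (algebraMap O₁ F₁ lam) V₂) lam
          (r - algebraMap F F₁ (algebraMap A F a₀) + algebraMap O₁ F₁ κ)) := by
  have hφf : φ f ≠ 0 := (map_ne_zero φ).mpr hf
  have hst' : ¬ s' ∣ t' := fun hd => hne' (hs'.associated_of_dvd ht' hd)
  have hts' : ¬ t' ∣ s' := fun hd => hne' (ht'.associated_of_dvd hs' hd).symm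
  obtain ⟨c₁, hc₁, hDc₁⟩ := hD₁
  obtain ⟨c₂, hc₂, hDc₂⟩ := hD₂
  have hbr₁ : HDCmp.DepthAt p lam j s' (φ f) c₁ :=
    depthAt_of_depthIn_cover φ hφO hs' (fun y hy => map_adj_mem φ hφO hφA hV₁ hs' hdx hy) hDc₁
  have hbr₂ : HDCmp.DepthAt p lam j t' (φ f) c₂ :=
    depthAt_of_depthIn_cover φ hφO ht' (fun y hy => map_adj_mem φ hφO hφA hV₂ ht' hdt hy) hDc₂
  obtain ⟨cy, h, rR, hcy, -, hpt⟩ := HDLocal.hd_node p hp lam hlam hlp hperf₁ j hj1
    (by omega) ((pow_dvd_pow lam (Nat.sub_le j 1)).trans hlj) (φ f) hφf (fun q hq hql => hhor_of_horVal φ hφO hf hHor q hq hql)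
    s' t' hs' ht' hne' hmR (by rw [hlamR]) c₁ c₂ hc₁ hc₂ hbr₁ hbr₂
  have hlamR' : algebraMap O₁ R lam = t' * s' := by rw [hlamR, mul_comm]
  have hs'm : s' ∈ maximalIdeal R := by
    rw [hmR]
    exact Ideal.subset_span (by simp)
  have ht'm : t' ∈ maximalIdeal R := by
    rw [hmR]
    exact Ideal.subset_span (by simp)
  have htm : algebraMap A R t ∈ maximalIdeal R := by
    obtain ⟨k, hk⟩ := htt
    rw [hk]
    exact Ideal.mul_mem_right _ _ ht'm
  have hxm : algebraMap A R x ∈ maximalIdeal R := by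
    obtain ⟨k, hk⟩ := hsx
    rw [hk]
    exact Ideal.mul_mem_right _ _ hs'm
  obtain ⟨a₁, ha₁⟩ := exists_approx_at φ hφO hφA hp hlam hlp hj1 hjp hlj hperf₁ hmA hV₁ hs' hlamR hst'
    hsx (fun h => hnxt (hdx t h)) htm hdx hO₁V₁ hf cy hcy h rR hpt ⟨c₁, hc₁, hDc₁⟩
  have hmA' : maximalIdeal A = Ideal.span {t, x} := by rw [hmA, Set.pair_comm]
  obtain ⟨a₂, ha₂⟩ := exists_approx_at φ hφO hφA hp hlam hlp hj1 hjp hlj hperf₁ hmA' hV₂ ht' hlamR' hts'
    htt (fun h => hntx (hdt x h)) hxm hdt hO₁V₂ hf cy hcy h rR hpt ⟨c₂, hc₂, hDc₂⟩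
  have hmem : a₁ - a₂ ∈ maximalIdeal A := by
    rw [mem_maximalIdeal, mem_nonunits_iff]
    intro hu
    have hu' : IsUnit (algebraMap A R (a₁ - a₂)) := hu.map _
    have h12 : algebraMap A R (a₁ - a₂) = (algebraMap A R a₁ - rR) - (algebraMap A R a₂ - rR) := by
      rw [map_sub]
      ring
    have h13 : algebraMap A R (a₁ - a₂) ∈ maximalIdeal R := by
      rw [h12]
      obtain ⟨k₁, hk₁⟩ := ha₁
      obtain ⟨k₂, hk₂⟩ := ha₂
      rw [hk₁, hk₂]
      exact Ideal.sub_mem _ (Ideal.mul_mem_right _ _ hs'm) (Ideal.mul_mem_right _ _ ht'm)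
    exact (mem_maximalIdeal _).mp h13 hu'
  rw [hmA, Ideal.mem_span_pair] at hmem
  obtain ⟨α, β, hαβ⟩ := hmem
  have ha₀s : s' ∣ algebraMap A R (a₁ - α * x) - rR := by
    have h7 : algebraMap A R (a₁ - α * x) - rR
        = (algebraMap A R a₁ - rR) - algebraMap A R α * algebraMap A R x := by
      rw [map_sub, map_mul]
      ring
    rw [h7]
    exact dvd_sub ha₁ (Dvd.dvd.mul_left hsx _)
  have ha₀t : t' ∣ algebraMap A R (a₁ - α * x) - rR := by
    have h7 : algebraMap A R (a₁ - α * x) - rR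
        = (algebraMap A R a₂ - rR) + algebraMap A R β * algebraMap A R t := by
      have h8 := congrArg (algebraMap A R) hαβ
      simp only [map_add, map_mul, map_sub] at h8 ⊢
      linear_combination -h8
    rw [h7]
    exact dvd_add ha₂ (Dvd.dvd.mul_left htt _)
  refine ⟨a₁ - α * x, fun c g r hc hr hgen => ?_, fun c g r hc hr hgen => ?_⟩
  · exact reg_branch_at φ hφO hφA hp hlam hlp hj1 hjp hlj hperf₁ hx hV₁ hxt.symm hnxt hs' hlamR hst' hdx
      hO₁V₁ hf cy hcy h rR hpt _ ha₀s c g r hc hr hgen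
  · exact reg_branch_at φ hφO hφA hp hlam hlp hj1 hjp hlj hperf₁ ht hV₂ (by rw [← hxt, mul_comm]) hntx ht'
      hlamR' hts' hdt hO₁V₂ hf cy hcy h rR hpt _ ha₀t c g r hc hr hgen

include hφO hφA in
/-- **`reg` at depth `1` over `O₁` at a smooth point**, through the Eisenstein extension `R`
of the local ring `A`. -/
theorem reg_smooth_at {p : ℕ} (hp : p.Prime)
    {lam : O₁} (hlam : Irreducible lam) (hlp : lam ∣ (p : O₁))
    {j : ℕ} (hj1 : 1 ≤ j) (hjp : j + 1 ≤ p) (hlj : lam ^ j ∣ (p : O₁))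
    (hperf₁ : ∀ a : O₁, ∃ b : O₁, lam ∣ a - b ^ p)
    {x w₀ : A} (hx : Prime x) (hxw : (p : A) = x * w₀) (hw₀ : ¬ x ∣ w₀)
    {V₁ : Subring F} (hV₁ : IsBranch x V₁)
    (z' : R) (hlamP : Prime (algebraMap O₁ R lam))
    (hmR : maximalIdeal R = Ideal.span {algebraMap O₁ R lam, z'})
    (hdx : ∀ b : A, algebraMap O₁ R lam ∣ algebraMap A R b → x ∣ b)
    (happ : ∀ c : R, ∃ b : A, algebraMap O₁ R lam ∣ c - algebraMap A R b)
    (hO₁V₁ : ∀ a : O₁, algebraMap O₁ F₁ a ∈ adj (algebraMap O₁ F₁ lam) V₁)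
    {f : F₁} (hf : f ≠ 0) (hHor : HorVal p lam f)
    (hD₁ : ∃ c : O₁, c ≠ 0 ∧ DepthIn (adj (algebraMap O₁ F₁ lam) V₁) p lam j f c) :
    ∃ a₀ : A, ∀ (c : O₁) (g r : F₁), c ≠ 0 → r ∈ adj (algebraMap O₁ F₁ lam) V₁ →
      f = algebraMap O₁ F₁ c * g ^ p * (1 + algebraMap O₁ F₁ lam ^ j * r) →
      ∃ κ : O₁, MemPi (adj (algebraMap O₁ F₁ lam) V₁) lam
        (r - algebraMap F F₁ (algebraMap A F a₀) + algebraMap O₁ F₁ κ) := by
  have hφf : φ f ≠ 0 := (map_ne_zero φ).mpr hf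
  obtain ⟨c₁, hc₁, hDc₁⟩ := hD₁
  have hbr₁ : HDCmp.DepthAt p lam j (algebraMap O₁ R lam) (φ f) c₁ :=
    depthAt_of_depthIn_cover φ hφO hlamP
      (fun y hy => map_adj_mem φ hφO hφA hV₁ hlamP hdx hy) hDc₁
  obtain ⟨cy, h, rR, hcy, -, hpt⟩ := HDLocal.hd_smooth p hp lam hlam hlp hperf₁ j hj1
    (by omega) ((pow_dvd_pow lam (Nat.sub_le j 1)).trans hlj) (φ f) hφf (fun q hq hql => hhor_of_horVal φ hφO hf hHor q hq hql)
    z' hlamP hmR c₁ hc₁ hbr₁
  obtain ⟨a₀, ha₀⟩ := happ rR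
  have ha₀' : algebraMap O₁ R lam ∣ algebraMap A R a₀ - rR := by
    rw [← neg_sub]
    exact (dvd_neg).mpr ha₀
  exact ⟨a₀, fun c g r hc hr hgen => reg_branch_at φ hφO hφA hp hlam hlp hj1 hjp hlj hperf₁ hx hV₁ hxw
    hw₀ hlamP (mul_one _).symm hlamP.not_dvd_one hdx hO₁V₁ hf cy hcy h rR hpt a₀ ha₀' c g r hc
    hr hgen⟩

end Cover

/-! ### `reg` at every depth `1 ≤ j < p` over `O₁` at the two kinds of blocks -/

section Blocks

variable {O : Type*} [CommRing O] [IsDomain O] [IsDiscreteValuationRing O]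
  {A : Type u} [CommRing A] [IsDomain A] [IsLocalRing A] [IsNoetherianRing A] [Algebra O A]
  {F : Type*} [Field F] [Algebra A F] [IsFractionRing A F] [Algebra O F] [IsScalarTower O A F]
  {O₁ : Type*} [CommRing O₁] [IsDomain O₁] [IsDiscreteValuationRing O₁] [Algebra O O₁]
  {F₁ : Type*} [Field F₁] [Algebra F F₁] [Algebra O₁ F₁]

/-- **`reg` at every depth `1 ≤ j < p` over `O₁ = O[ζ_p]` at a regular node of the model over `O`** (a thick
node over `O₁`): ONE element `a₀` of the local ring `A` for both branches. -/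
theorem reg_node_tame_at {p : ℕ} (hp : p.Prime) {ϖ : O} (hϖp : Associated ϖ (p : O))
    {lam : O₁} (hlam : Irreducible lam) (hζ : (1 + lam) ^ p = 1)
    {j : ℕ} (hj1 : 1 ≤ j) (hjp : j < p)
    (hperf₁ : ∀ a : O₁, ∃ b : O₁, lam ∣ a - b ^ p)
    (hO₁ : ∀ a : O₁, ∃ P : O[X], a = P.eval₂ (algebraMap O O₁) lam)
    (hcomm : ∀ c : O, algebraMap F F₁ (algebraMap O F c) = algebraMap O₁ F₁ (algebraMap O O₁ c))
    (hinj₁ : Function.Injective (algebraMap O₁ F₁))
    (hgen : Algebra.adjoin F {algebraMap O₁ F₁ lam} = ⊤)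
    (hmin : ∀ G : F[X], aeval (algebraMap O₁ F₁ lam) G = 0 →
      (psi p).map (algebraMap ℤ F) ∣ G)
    {s t : A} (hs : Prime s) (ht : Prime t) (hne : ¬ Associated s t)
    (hm : maximalIdeal A = Ideal.span {s, t}) (hst : Associated (s * t) (algebraMap O A ϖ))
    {V₁ V₂ : Subring F} (hV₁ : IsBranch s V₁) (hV₂ : IsBranch t V₂)
    (hO₁V₁ : ∀ a : O₁, algebraMap O₁ F₁ a ∈ adj (algebraMap O₁ F₁ lam) V₁)
    (hO₁V₂ : ∀ a : O₁, algebraMap O₁ F₁ a ∈ adj (algebraMap O₁ F₁ lam) V₂)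
    {f : F₁} (hf : f ≠ 0) (hHor : HorVal p lam f)
    (hD₁ : ∃ c : O₁, c ≠ 0 ∧ DepthIn (adj (algebraMap O₁ F₁ lam) V₁) p lam j f c)
    (hD₂ : ∃ c : O₁, c ≠ 0 ∧ DepthIn (adj (algebraMap O₁ F₁ lam) V₂) p lam j f c) :
    ∃ a₀ : A,
      (∀ (c : O₁) (g r : F₁), c ≠ 0 → r ∈ adj (algebraMap O₁ F₁ lam) V₁ →
        f = algebraMap O₁ F₁ c * g ^ p * (1 + algebraMap O₁ F₁ lam ^ j * r) →
        ∃ κ : O₁, MemPi (adj (algebraMap O₁ F₁ lam) V₁) lam
          (r - algebraMap F F₁ (algebraMap A F a₀) + algebraMap O₁ F₁ κ)) ∧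
      (∀ (c : O₁) (g r : F₁), c ≠ 0 → r ∈ adj (algebraMap O₁ F₁ lam) V₂ →
        f = algebraMap O₁ F₁ c * g ^ p * (1 + algebraMap O₁ F₁ lam ^ j * r) →
        ∃ κ : O₁, MemPi (adj (algebraMap O₁ F₁ lam) V₂) lam
          (r - algebraMap F F₁ (algebraMap A F a₀) + algebraMap O₁ F₁ κ)) := by
  haveI : Fact p.Prime := ⟨hp⟩
  have hlp : lam ∣ (p : O₁) := dvd_p_of_root p hlam.ne_zero hζ
  have hlj : lam ^ j ∣ (p : O₁) :=
    (pow_dvd_pow lam (by omega)).trans (pow_pred_dvd_p p hlam.not_isUnit hlam.ne_zero hζ)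
  -- normalise the node to `x * t = p`
  obtain ⟨u, hu⟩ := hst
  obtain ⟨u₂, hu₂⟩ := hϖp
  have hunit : IsUnit ((u : A) * algebraMap O A (u₂ : O)) := u.isUnit.mul (u₂.isUnit.map _)
  obtain ⟨x, hxdef⟩ : ∃ x : A, x = s * ((u : A) * algebraMap O A (u₂ : O)) := ⟨_, rfl⟩
  have hsx_assoc : Associated s x := ⟨hunit.unit, by rw [hxdef, IsUnit.unit_spec]⟩
  have hx : Prime x := hsx_assoc.prime hs
  have hxt : x * t = (p : A) := by
    have h1 := congrArg (algebraMap O A) hu₂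
    rw [map_mul, map_natCast, ← hu] at h1
    rw [← h1, hxdef]
    ring
  have hnst : ¬ s ∣ t := fun hd => hne (hs.associated_of_dvd ht hd)
  have hnts : ¬ t ∣ s := fun hd => hne (ht.associated_of_dvd hs hd).symm
  have hnxt : ¬ x ∣ t := fun hd => hnst (hsx_assoc.dvd_iff_dvd_left.mpr hd)
  have hntx : ¬ t ∣ x := fun hd => hnts (hsx_assoc.dvd_iff_dvd_right.mpr hd)
  have hnext : ¬ Associated x t := fun h => hnxt h.dvd
  have hmA : maximalIdeal A = Ideal.span {x, t} := by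
    rw [hm]
    apply le_antisymm
    · refine Ideal.span_le.mpr ?_
      rintro z (rfl | rfl)
      · obtain ⟨w, hw⟩ := hunit.exists_left_inv
        exact Ideal.mem_span_pair.mpr ⟨w, 0, by rw [hxdef]; linear_combination z * hw⟩
      · exact Ideal.subset_span (by simp)
    · refine Ideal.span_le.mpr ?_
      rintro z (rfl | rfl)
      · exact Ideal.mem_span_pair.mpr ⟨(u : A) * algebraMap O A (u₂ : O), 0, by
          rw [hxdef]; ring⟩
      · exact Ideal.subset_span (by simp)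
  have hV₁' : IsBranch x V₁ := by
    intro z
    rw [hV₁ z]
    constructor
    · rintro ⟨a, b, hb, e⟩
      exact ⟨a, b, fun h => hb (hsx_assoc.dvd_iff_dvd_left.mpr h), e⟩
    · rintro ⟨a, b, hb, e⟩
      exact ⟨a, b, fun h => hb (hsx_assoc.dvd_iff_dvd_left.mp h), e⟩
  obtain ⟨R, _, _, _, _, _, s', t', hinjAR, -, hs', ht', hne', hmR, hζR, hs'x, ht't, hdx, hdt⟩ :=
    Fermat.Agent.S44.L.NodeCover.exists_node_cover p hp x t hx ht hnext hmA hxt
  have hy0 : s' * t' ≠ 0 := mul_ne_zero hs'.ne_zero ht'.ne_zero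
  obtain ⟨φ, ψ, hφA, hφψ, hψlam⟩ := exists_embed (A := A) (F := F) (R := R) p hlam.ne_zero hζ
    hO₁ hcomm hinj₁ hgen hmin hinjAR hy0 hζR
  letI : Algebra O₁ R := ψ.toAlgebra
  have hφO : ∀ a : O₁, φ (algebraMap O₁ F₁ a) = algebraMap O₁ (FractionRing R) a :=
    fun a => (hφψ a).trans (IsScalarTower.algebraMap_apply O₁ R (FractionRing R) a).symm
  have hq0 : p - 1 ≠ 0 := by have := hp.one_lt; omega
  have hsx : s' ∣ algebraMap A R x := (dvd_pow_self s' hq0).trans hs'x.dvd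
  have htt : t' ∣ algebraMap A R t := by
    rw [← ht't]
    exact dvd_pow_self t' hq0
  exact reg_node_at φ hφO hφA hp hlam hlp hj1 (by omega) hlj hperf₁ hx ht hmA hxt hnxt hntx hV₁' hV₂ hs' ht' hne'
    hmR hψlam hsx htt hdx hdt hO₁V₁ hO₁V₂ hf hHor hD₁ hD₂

/-- **`reg` at every depth `1 ≤ j < p` over `O₁ = O[ζ_p]` at a smooth point of the fibre of the model over
`O`**. -/
theorem reg_smooth_tame_at {p : ℕ} (hp : p.Prime) {ϖ : O} (hϖp : Associated ϖ (p : O))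
    {lam : O₁} (hlam : Irreducible lam) (hζ : (1 + lam) ^ p = 1)
    {j : ℕ} (hj1 : 1 ≤ j) (hjp : j < p)
    (hperf₁ : ∀ a : O₁, ∃ b : O₁, lam ∣ a - b ^ p)
    (hO₁ : ∀ a : O₁, ∃ P : O[X], a = P.eval₂ (algebraMap O O₁) lam)
    (hcomm : ∀ c : O, algebraMap F F₁ (algebraMap O F c) = algebraMap O₁ F₁ (algebraMap O O₁ c))
    (hinj₁ : Function.Injective (algebraMap O₁ F₁))
    (hgen : Algebra.adjoin F {algebraMap O₁ F₁ lam} = ⊤)
    (hmin : ∀ G : F[X], aeval (algebraMap O₁ F₁ lam) G = 0 →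
      (psi p).map (algebraMap ℤ F) ∣ G)
    (hϖA : Prime (algebraMap O A ϖ)) {z : A}
    (hm : maximalIdeal A = Ideal.span {algebraMap O A ϖ, z})
    {V₁ : Subring F} (hV₁ : IsBranch (algebraMap O A ϖ) V₁)
    (hO₁V₁ : ∀ a : O₁, algebraMap O₁ F₁ a ∈ adj (algebraMap O₁ F₁ lam) V₁)
    {f : F₁} (hf : f ≠ 0) (hHor : HorVal p lam f)
    (hD₁ : ∃ c : O₁, c ≠ 0 ∧ DepthIn (adj (algebraMap O₁ F₁ lam) V₁) p lam j f c) :
    ∃ a₀ : A, ∀ (c : O₁) (g r : F₁), c ≠ 0 → r ∈ adj (algebraMap O₁ F₁ lam) V₁ →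
      f = algebraMap O₁ F₁ c * g ^ p * (1 + algebraMap O₁ F₁ lam ^ j * r) →
      ∃ κ : O₁, MemPi (adj (algebraMap O₁ F₁ lam) V₁) lam
        (r - algebraMap F F₁ (algebraMap A F a₀) + algebraMap O₁ F₁ κ) := by
  haveI : Fact p.Prime := ⟨hp⟩
  have hlp : lam ∣ (p : O₁) := dvd_p_of_root p hlam.ne_zero hζ
  have hlj : lam ^ j ∣ (p : O₁) :=
    (pow_dvd_pow lam (by omega)).trans (pow_pred_dvd_p p hlam.not_isUnit hlam.ne_zero hζ)
  obtain ⟨q, rfl⟩ : ∃ q, p = q + 1 := Nat.exists_eq_add_one_of_ne_zero hp.ne_zero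
  have hq : q ≠ 0 := by
    rintro rfl
    exact Nat.not_prime_one hp
  obtain ⟨u₂, hu₂⟩ := hϖp
  have hpA : ((q + 1 : ℕ) : A) = algebraMap O A ϖ * algebraMap O A (u₂ : O) := by
    rw [← map_mul, hu₂, map_natCast]
  have hu₂A : IsUnit (algebraMap O A (u₂ : O)) := u₂.isUnit.map _
  have hπ : Prime ((q + 1 : ℕ) : A) := by
    rw [hpA]
    exact (associated_mul_unit_right _ _ hu₂A).prime hϖA
  obtain ⟨h, hh⟩ : ∃ h : A[X], h = X ^ q + C ((q + 1 : ℕ) : A)
      * Fermat.Agent.S44.L.NodeCover.thetaPoly q (1 : A) := ⟨_, rfl⟩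
  have hk := Fermat.Agent.S44.L.NodeCover.thetaPoly_natDegree_lt hq (1 : A)
  have hk0 : IsUnit ((Fermat.Agent.S44.L.NodeCover.thetaPoly q (1 : A)).eval 0) := by
    rw [Fermat.Agent.S44.L.NodeCover.thetaPoly_eval_zero hq]
    exact isUnit_one
  haveI hdom : IsDomain (AdjoinRoot h) :=
    Fermat.Agent.S44.L.NodeCover.eis_isDomain hh hk hq hπ hk0
  haveI hloc : IsLocalRing (AdjoinRoot h) :=
    Fermat.Agent.S44.L.NodeCover.eis_isLocalRing hh hk hq hπ
  have hinjAR : Function.Injective (algebraMap A (AdjoinRoot h)) :=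
    Fermat.Agent.S44.L.NodeCover.eis_of_injective hh hk hq
  have hroot : Prime (AdjoinRoot.root h) :=
    Fermat.Agent.S44.L.NodeCover.eis_root_prime hh hk hq hπ hk0
  have hrootdvd : AdjoinRoot.root h ∣ AdjoinRoot.of h ((q + 1 : ℕ) : A) :=
    Fermat.Agent.S44.L.NodeCover.eis_root_dvd_of hh hk hq hπ hk0
  have hdvd : ∀ b : A, AdjoinRoot.root h ∣ AdjoinRoot.of h b → ((q + 1 : ℕ) : A) ∣ b :=
    fun b hb => Fermat.Agent.S44.L.NodeCover.eis_dvd_of_root_dvd hh hq hb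
  have happ : ∀ c : AdjoinRoot h, ∃ b : A, AdjoinRoot.root h ∣ c - algebraMap A (AdjoinRoot h) b := by
    intro c
    obtain ⟨b, c', rfl⟩ := Fermat.Agent.S44.L.NodeCover.eis_exists_eq c
    exact ⟨b, c', by rw [AdjoinRoot.algebraMap_eq]; ring⟩
  have hmax := Fermat.Agent.S44.L.NodeCover.eis_maximalIdeal hh hk hq hπ
  have hζR : (1 + AdjoinRoot.root h) ^ (q + 1) = 1 := by
    refine Fermat.Agent.S44.L.NodeCover.one_add_pow_eq_one q hp _ ?_
    have hpow := Fermat.Agent.S44.L.NodeCover.eis_root_pow hh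
    rw [pow_succ, hpow, Fermat.Agent.S44.L.NodeCover.mk_thetaPoly, map_natCast]
    simp only [map_one, mul_one]
    ring
  obtain ⟨φ, ψ, hφA, hφψ, hψlam⟩ := exists_embed (A := A) (F := F) (R := AdjoinRoot h) (q + 1)
    hlam.ne_zero hζ hO₁ hcomm hinj₁ hgen hmin hinjAR hroot.ne_zero hζR
  letI : Algebra O₁ (AdjoinRoot h) := ψ.toAlgebra
  have hφO : ∀ a : O₁, φ (algebraMap O₁ F₁ a)
      = algebraMap O₁ (FractionRing (AdjoinRoot h)) a :=
    fun a => (hφψ a).trans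
      (IsScalarTower.algebraMap_apply O₁ (AdjoinRoot h) (FractionRing (AdjoinRoot h)) a).symm
  have hlamR : algebraMap O₁ (AdjoinRoot h) lam = AdjoinRoot.root h := hψlam
  have hϖroot : AdjoinRoot.root h ∣ AdjoinRoot.of h (algebraMap O A ϖ) := by
    rw [hpA, map_mul] at hrootdvd
    exact (IsUnit.dvd_mul_right (hu₂A.map (AdjoinRoot.of h))).mp hrootdvd
  have hmR : maximalIdeal (AdjoinRoot h)
      = Ideal.span {algebraMap O₁ (AdjoinRoot h) lam, AdjoinRoot.of h z} := by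
    rw [hmax, hm, Ideal.map_span, Set.image_pair, hlamR]
    apply le_antisymm
    · refine sup_le (Ideal.span_le.mpr ?_) (Ideal.span_mono (by simp))
      rintro w (rfl | rfl)
      · exact Ideal.span_mono (by simp) (Ideal.mem_span_singleton.mpr hϖroot)
      · exact Ideal.subset_span (by simp)
    · refine Ideal.span_le.mpr ?_
      rintro w (rfl | rfl)
      · exact Ideal.mem_sup_right (Ideal.subset_span rfl)
      · exact Ideal.mem_sup_left (Ideal.subset_span (by simp))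
  have hdx : ∀ b : A, algebraMap O₁ (AdjoinRoot h) lam ∣ algebraMap A (AdjoinRoot h) b →
      algebraMap O A ϖ ∣ b := by
    intro b hb
    rw [hlamR, AdjoinRoot.algebraMap_eq] at hb
    exact (Dvd.intro _ hpA.symm).trans (hdvd b hb)
  have happ' : ∀ c : AdjoinRoot h, ∃ b : A,
      algebraMap O₁ (AdjoinRoot h) lam ∣ c - algebraMap A (AdjoinRoot h) b := by
    intro c
    rw [hlamR]
    exact happ c
  have hw₀ : ¬ algebraMap O A ϖ ∣ algebraMap O A (u₂ : O) :=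
    fun hd => hϖA.not_isUnit (isUnit_of_dvd_unit hd hu₂A)
  exact reg_smooth_at φ hφO hφA hp hlam hlp hj1 (by omega) hlj hperf₁ hϖA hpA hw₀ hV₁ (AdjoinRoot.of h z)
    (hlamR ▸ hroot) hmR hdx happ' hO₁V₁ hf hHor hD₁

end Blocks

/-! ### The depth chain on a model -/

/-- **One tame depth step `j → j + 1`, `1 ≤ j < p`, over `O₁ = O[ζ_p]` on a model over `O`.** -/
theorem tame_depth_step
    {O : Type*} [CommRing O] [IsDomain O] [IsDiscreteValuationRing O]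
    {F : Type u} [Field F] [Algebra O F]
    {O₁ : Type*} [CommRing O₁] [IsDomain O₁] [IsDiscreteValuationRing O₁] [Algebra O O₁]
    {F₁ : Type*} [Field F₁] [Algebra F F₁] [Algebra O₁ F₁]
    {p : ℕ} (hp : p.Prime) {ϖ : O} (hϖp : Associated ϖ (p : O))
    (hperf : ∀ a : O, ∃ b : O, ϖ ∣ a - b ^ p)
    {lam : O₁} (hlam : Irreducible lam) (hζ : (1 + lam) ^ p = 1)
    (hO₁ : ∀ a : O₁, ∃ P : O[X], a = P.eval₂ (algebraMap O O₁) lam)
    (hcomm : ∀ c : O, algebraMap F F₁ (algebraMap O F c) = algebraMap O₁ F₁ (algebraMap O O₁ c))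
    (hinj₁ : Function.Injective (algebraMap O₁ F₁))
    (hgen : Algebra.adjoin F {algebraMap O₁ F₁ lam} = ⊤)
    (hmin : ∀ G : F[X], aeval (algebraMap O₁ F₁ lam) G = 0 →
      (psi p).map (algebraMap ℤ F) ∣ G)
    {ι Y : Type*} {V : ι → Subring F} {R : Y → Subring F} {On : Y → ι → Prop} {Hor : F → Prop}
    (D : IsModel p ϖ V R On Hor)
    (f : F₁) (hf : f ≠ 0) (hHor : HorVal p lam f)
    (j : ℕ) (hj1 : 1 ≤ j) (hjp : j < p)
    (ih : ∀ W, ∃ c : O₁, c ≠ 0 ∧ DepthIn (adj (algebraMap O₁ F₁ lam) (V W)) p lam j f c) :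
    ∀ W, ∃ c : O₁, c ≠ 0 ∧
      DepthIn (adj (algebraMap O₁ F₁ lam) (V W)) p lam (j + 1) f c := by
  haveI : Fact p.Prime := ⟨hp⟩
  have hlp : lam ∣ (p : O₁) := dvd_p_of_root p hlam.ne_zero hζ
  have hϖp' := hϖp
  obtain ⟨u₂, hu₂⟩ := hϖp
  have hϖlam : lam ∣ algebraMap O O₁ ϖ := by
    have h1 : (p : O₁) = algebraMap O O₁ ϖ * algebraMap O O₁ (u₂ : O) := by
      rw [← map_mul, hu₂, map_natCast]
    have h2 : IsUnit (algebraMap O O₁ (u₂ : O)) := u₂.isUnit.map _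
    rw [h1] at hlp
    exact (IsUnit.dvd_mul_right h2).mp hlp
  have hperf₁ : ∀ a : O₁, ∃ b : O₁, lam ∣ a - b ^ p := by
    intro a
    obtain ⟨P, rfl⟩ := hO₁ a
    obtain ⟨b, hb⟩ := hperf (P.coeff 0)
    refine ⟨algebraMap O O₁ b, ?_⟩
    have h1 : P.eval₂ (algebraMap O O₁) lam = algebraMap O O₁ (P.coeff 0)
        + lam * P.divX.eval₂ (algebraMap O O₁) lam := by
      conv_lhs => rw [← X_mul_divX_add P]
      rw [eval₂_add, eval₂_mul, eval₂_X, eval₂_C, add_comm]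
    have h2 : lam ∣ algebraMap O O₁ (P.coeff 0 - b ^ p) := hϖlam.trans (map_dvd _ hb)
    rw [map_sub, map_pow] at h2
    have h3 : P.eval₂ (algebraMap O O₁) lam - algebraMap O O₁ b ^ p
        = (algebraMap O O₁ (P.coeff 0) - algebraMap O O₁ b ^ p)
          + lam * P.divX.eval₂ (algebraMap O O₁) lam := by
      rw [h1]
      ring
    rw [h3]
    exact dvd_add h2 (dvd_mul_right _ _)
  -- constants
  have hOadj : ∀ (S : Subring F), (∀ a : O, algebraMap O F a ∈ S) →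
      ∀ a : O₁, algebraMap O₁ F₁ a ∈ adj (algebraMap O₁ F₁ lam) S := by
    intro S hS a
    obtain ⟨P, rfl⟩ := hO₁ a
    rw [Polynomial.hom_eval₂, eval₂_eq_sum_range]
    refine Subring.sum_mem _ fun i _ => Subring.mul_mem _ ?_ (Subring.pow_mem _ (lam_mem_adj _ _) i)
    rw [RingHom.comp_apply, ← hcomm]
    exact algebraMap_mem_adj _ _ (hS _)
  have hO₁V : ∀ W (a : O₁), algebraMap O₁ F₁ a ∈ adj (algebraMap O₁ F₁ lam) (V W) :=
    fun W => hOadj (V W) (D.constV W)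
  have hO₁R : ∀ y (a : O₁), algebraMap O₁ F₁ a ∈ adj (algebraMap O₁ F₁ lam) (R y) :=
    fun y => hOadj (R y) (D.constR y)
  -- local rings lie in the generic rings of their branches
  have hRV : ∀ y W, On y W → R y ≤ V W := by
    intro y W hW
    rcases D.block y with ⟨W₁, W₂, hOn, A, _, _, _, _, _, _, _, _, hrange, -, s, t, hs, ht, -, -,
      -, hV₁, hV₂⟩ | ⟨W₁, hOn, A, _, _, _, _, _, _, _, _, hrange, -, hϖA, z, -, hV₁⟩
    · rw [← hrange]
      rintro _ ⟨a, rfl⟩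
      rcases (hOn W).mp hW with rfl | rfl
      · exact (hV₁ _).mpr ⟨a, 1, hs.not_dvd_one, by simp⟩
      · exact (hV₂ _).mpr ⟨a, 1, ht.not_dvd_one, by simp⟩
    · rw [← hrange]
      rintro _ ⟨a, rfl⟩
      obtain rfl := (hOn W).mp hW
      exact (hV₁ _).mpr ⟨a, 1, hϖA.not_dvd_one, by simp⟩
  -- `lam V[lam] ∩ V ⊆ ϖ V` and `ϖ V ⊆ lam V[lam]`
  have hdesc : ∀ W (v : F), v ∈ V W →
      MemPi (adj (algebraMap O₁ F₁ lam) (V W)) lam (algebraMap F F₁ v) → MemPi (V W) ϖ v := by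
    rintro W v hv ⟨x', hx', hvx⟩
    obtain ⟨w, hw, rfl⟩ := exists_eq_p_mul_of_lam_mul (algebraMap O₁ F₁ lam) (V W) p hmin hv hx' hvx
    refine ⟨algebraMap O F (u₂ : O) * w, Subring.mul_mem _ (D.constV W _) hw, ?_⟩
    rw [← mul_assoc, ← map_mul, hu₂, map_natCast]
  have hasc : ∀ W (v : F), MemPi (V W) ϖ v →
      MemPi (adj (algebraMap O₁ F₁ lam) (V W)) lam (algebraMap F F₁ v) := by
    rintro W v ⟨w, hw, rfl⟩
    obtain ⟨π, hπ⟩ := hϖlam
    refine ⟨algebraMap O₁ F₁ π * algebraMap F F₁ w,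
      Subring.mul_mem _ (hO₁V W π) (algebraMap_mem_adj _ _ hw), ?_⟩
    rw [map_mul, hcomm, hπ, map_mul]
    ring
  -- the local statement `reg` at depth 1 over `O₁`
  have hreg : ∀ y, (∀ W, On y W →
        ∃ c : O₁, c ≠ 0 ∧ DepthIn (adj (algebraMap O₁ F₁ lam) (V W)) p lam j f c) →
      ∃ ry : F₁, ry ∈ adj (algebraMap O₁ F₁ lam) (R y) ∧ ∀ W, On y W → ∀ (c : O₁) (g r : F₁),
        c ≠ 0 → r ∈ adj (algebraMap O₁ F₁ lam) (V W) →
        f = algebraMap O₁ F₁ c * g ^ p * (1 + algebraMap O₁ F₁ lam ^ j * r) →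
        ∃ κ : O₁, MemPi (adj (algebraMap O₁ F₁ lam) (V W)) lam
          (r - ry + algebraMap O₁ F₁ κ) := by
    intro y hD
    rcases D.block y with ⟨W₁, W₂, hOn, A, _, _, _, _, _, _, _, _, hrange, -, s, t, hs, ht, hne,
      hm, hst, hV₁, hV₂⟩ | ⟨W₁, hOn, A, _, _, _, _, _, _, _, _, hrange, -, hϖA, z, hm, hV₁⟩
    · obtain ⟨a₀, h1', h2'⟩ := reg_node_tame_at hp hϖp' hlam hζ hj1 hjp hperf₁ hO₁ hcomm hinj₁ hgen hmin
        hs ht hne hm hst hV₁ hV₂ (hO₁V W₁) (hO₁V W₂) hf hHor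
        (hD W₁ ((hOn W₁).mpr (Or.inl rfl))) (hD W₂ ((hOn W₂).mpr (Or.inr rfl)))
      refine ⟨algebraMap F F₁ (algebraMap A F a₀),
        algebraMap_mem_adj _ _ (hrange ▸ ⟨a₀, rfl⟩), fun W hW => ?_⟩
      rcases (hOn W).mp hW with rfl | rfl
      · exact h1'
      · exact h2'
    · obtain ⟨a₀, h1'⟩ := reg_smooth_tame_at hp hϖp' hlam hζ hj1 hjp hperf₁ hO₁ hcomm hinj₁ hgen hmin
        hϖA hm hV₁ (hO₁V W₁) hf hHor (hD W₁ ((hOn W₁).mpr rfl))
      refine ⟨algebraMap F F₁ (algebraMap A F a₀),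
        algebraMap_mem_adj _ _ (hrange ▸ ⟨a₀, rfl⟩), fun W hW => ?_⟩
      obtain rfl := (hOn W).mp hW
      exact h1'
  -- regularity of the constant coefficient
  have hreg0 : ∀ W (x₀ : F) (xp : F₁), x₀ ∈ V W → xp ∈ adj (algebraMap O₁ F₁ lam) (V W) →
      (∀ y, On y W → ∃ a : F₁, a ∈ adj (algebraMap O₁ F₁ lam) (R y) ∧
        MemPi (adj (algebraMap O₁ F₁ lam) (V W)) lam
          (algebraMap F F₁ x₀ + algebraMap O₁ F₁ lam * xp - a)) →
      ∀ y, On y W → ∃ a₀ : F, a₀ ∈ R y ∧ MemPi (V W) ϖ (x₀ - a₀) := by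
    intro W x₀ xp hx₀ hxp hreg' y hy
    obtain ⟨a, ha, v, hv, hxv⟩ := hreg' y hy
    obtain ⟨a₀, ha₀, ap, hap, rfl⟩ := adj_decomp _ _ ha
    refine ⟨a₀, ha₀, hdesc W (x₀ - a₀) (Subring.sub_mem _ hx₀ (hRV y W hy ha₀)) ?_⟩
    refine ⟨v - xp + ap, Subring.add_mem _ (Subring.sub_mem _ hv hxp)
      (adj_mono _ (hRV y W hy) hap), ?_⟩
    rw [map_sub]
    linear_combination hxv
  obtain ⟨W₀, hconst0⟩ := D.const0
  have hconst : ConstAt (fun W => adj (algebraMap O₁ F₁ lam) (V W))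
      (fun y => adj (algebraMap O₁ F₁ lam) (R y)) On lam W₀ := by
    intro x hx hreg'
    obtain ⟨x₀, hx₀, xp, hxp, rfl⟩ := adj_decomp _ _ hx
    obtain ⟨κ, hκ⟩ := hconst0 x₀ hx₀ (hreg0 W₀ x₀ xp hx₀ hxp hreg')
    obtain ⟨v, hv, hxv⟩ := hasc W₀ _ hκ
    refine ⟨algebraMap O O₁ κ, v + xp, Subring.add_mem _ hv hxp, ?_⟩
    rw [map_sub, hcomm] at hxv
    linear_combination hxv
  have hvan : Van (fun W => adj (algebraMap O₁ F₁ lam) (V W))
      (fun y => adj (algebraMap O₁ F₁ lam) (R y)) On lam := by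
    intro W x hx hreg' y W' hy hy' a ha hma hxa
    obtain ⟨x₀, hx₀, xp, hxp, rfl⟩ := adj_decomp _ _ hx
    obtain ⟨a₀, ha₀, ap, hap, rfl⟩ := adj_decomp _ _ ha
    have hma₀ : MemPi (V W') ϖ a₀ := by
      obtain ⟨v, hv, hav⟩ := hma
      refine hdesc W' a₀ (hRV y W' hy' ha₀) ⟨v - ap, Subring.sub_mem _ hv
        (adj_mono _ (hRV y W' hy') hap), ?_⟩
      linear_combination hav
    have hxa₀ : MemPi (V W) ϖ (x₀ - a₀) := by
      obtain ⟨v, hv, hxv⟩ := hxa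
      refine hdesc W (x₀ - a₀) (Subring.sub_mem _ hx₀ (hRV y W hy ha₀))
        ⟨v - xp + ap, Subring.add_mem _ (Subring.sub_mem _ hv hxp)
          (adj_mono _ (hRV y W hy) hap), ?_⟩
      rw [map_sub]
      linear_combination hxv
    have hx₀π := D.van W x₀ hx₀ (hreg0 W x₀ xp hx₀ hxp hreg') y hy a₀ ha₀ hxa₀ ⟨W', hy', hma₀⟩
    obtain ⟨v, hv, hxv⟩ := hasc W _ hx₀π
    exact ⟨v + xp, Subring.add_mem _ hv hxp, by linear_combination hxv⟩
  have hglob := glob_of_root (ϖ := lam) (V := fun W => adj (algebraMap O₁ F₁ lam) (V W))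
    (R := fun y => adj (algebraMap O₁ F₁ lam) (R y)) (On := On) hO₁V hO₁R D.conn W₀ hconst hvan
  exact depth_step_of_reg (p := p) (ϖ := lam)
    (V := fun W => adj (algebraMap O₁ F₁ lam) (V W))
    (R := fun y => adj (algebraMap O₁ F₁ lam) (R y)) (On := On) hlam.not_isUnit hO₁V f j hj1
    hreg hglob ih

/-- **Row Z1, exit: depth `1 → p` over `O₁ = O[ζ_p]`, `lam = ζ_p - 1`, on a model over `O`.**
If `f ∈ F₁ˣ` has horizontal divisor divisible by `p` (`TameModel.HorVal`) and `p`-th-power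
depth `≥ 1` with respect to `lam` along every `V W[lam]`, it has depth `≥ p` along every
`V W[lam]`. -/
theorem tame_depth
    {O : Type*} [CommRing O] [IsDomain O] [IsDiscreteValuationRing O]
    {F : Type u} [Field F] [Algebra O F]
    {O₁ : Type*} [CommRing O₁] [IsDomain O₁] [IsDiscreteValuationRing O₁] [Algebra O O₁]
    {F₁ : Type*} [Field F₁] [Algebra F F₁] [Algebra O₁ F₁]
    {p : ℕ} (hp : p.Prime) {ϖ : O} (hϖp : Associated ϖ (p : O))
    (hperf : ∀ a : O, ∃ b : O, ϖ ∣ a - b ^ p)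
    {lam : O₁} (hlam : Irreducible lam) (hζ : (1 + lam) ^ p = 1)
    (hO₁ : ∀ a : O₁, ∃ P : O[X], a = P.eval₂ (algebraMap O O₁) lam)
    (hcomm : ∀ c : O, algebraMap F F₁ (algebraMap O F c) = algebraMap O₁ F₁ (algebraMap O O₁ c))
    (hinj₁ : Function.Injective (algebraMap O₁ F₁))
    (hgen : Algebra.adjoin F {algebraMap O₁ F₁ lam} = ⊤)
    (hmin : ∀ G : F[X], aeval (algebraMap O₁ F₁ lam) G = 0 →
      (psi p).map (algebraMap ℤ F) ∣ G)
    {ι Y : Type*} {V : ι → Subring F} {R : Y → Subring F} {On : Y → ι → Prop} {Hor : F → Prop}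
    (D : IsModel p ϖ V R On Hor)
    (f : F₁) (hf : f ≠ 0) (hHor : HorVal p lam f)
    (h1 : ∀ W, ∃ c : O₁, c ≠ 0 ∧ DepthIn (adj (algebraMap O₁ F₁ lam) (V W)) p lam 1 f c) :
    ∀ W, ∃ c : O₁, c ≠ 0 ∧ DepthIn (adj (algebraMap O₁ F₁ lam) (V W)) p lam p f c := by
  have key : ∀ j, 1 ≤ j → j ≤ p → ∀ W, ∃ c : O₁, c ≠ 0 ∧
      DepthIn (adj (algebraMap O₁ F₁ lam) (V W)) p lam j f c := by
    intro j hj
    induction j, hj using Nat.le_induction with
    | base => exact fun _ => h1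
    | succ j hj ih =>
      intro hjp
      exact tame_depth_step hp hϖp hperf hlam hζ hO₁ hcomm hinj₁ hgen hmin D f hf hHor j hj
        (by omega) (ih (by omega))
  exact key p hp.one_le le_rfl

end Fermat.Agent.S33.Geo.TameDepth
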