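import Mathlib
import Fermat.Agent.S33.Geo.TameDepth
import Fermat.Agent.S33.Geo.TameConstNe

/-!
# S33 / GEO / Stage B, row Z1: ONE constant at the top depth `p` over `O₁ = O[ζ_p]`

Level-free; fix-forward of `S33/Geo/TameDepth` (exit `tame_depth`: depth `1 → p` along every
`V W[lam]`, with a constant depending on the component `W`).  Setting of `TameModel` /
`TameDepth`: `O` a discrete valuation ring with uniformiser `ϖ ∼ p` and perfect residue field,
`D : Model.IsModel p ϖ V R On Hor` a model of `F` over `O`; `O₁ = O[lam]` a discrete valuation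
ring with uniformiser `lam`, `(1 + lam) ^ p = 1`, `F₁ = F(lam)`.

* `depthIn_cover` : a generic form along `V[lam]` is a generic form along the branch ring
  `R_(s')` of the regular cover;
* `constRel_node_at`, `constRel_node_tame` : **the node lemma at the top depth** - at a
  `NodeBlock` presentation `A` of the model over `O` (a thick node over `O₁`), the constants
  `c₁`, `c₂` of two forms of depth `p` along the two branches `V₁[lam]`, `V₂[lam]` agree modulo
  `p`-th powers and `1 + lam ^ p O₁` (`HDLocal.hd_node` at `j = p` in the regular cover, then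
  `TopLocal.constRel_branch` on both branches of the cover);
* `tame_depth_const` : **depth `≥ 1` on every `V W[lam]` gives depth `≥ p` on every `V W[lam]`
  with ONE constant `c ∈ O₁`** (`TameDepth.tame_depth`, the node lemma at every closed point on
  two components, `TameConstNe.one_const_of_rel_ne`).
-/

set_option autoImplicit false
set_option linter.unusedSectionVars false
set_option linter.unusedVariables false
set_option linter.style.haveILetI false

namespace Fermat.Agent.S33.Geo.TameTop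

open Polynomial IsLocalRing
open Fermat.Agent.S33.Geo.Top Fermat.Agent.S33.Geo.TopLocal Fermat.Agent.S33.Geo.Model
open Fermat.Agent.S33.Geo.TameModel Fermat.Agent.S33.Geo.TameDepth

universe u

/-! ### The abstract cover, at the top depth -/

section Cover

variable {O₁ : Type*} [CommRing O₁] [IsDomain O₁] [IsDiscreteValuationRing O₁]
  {R : Type*} [CommRing R] [IsDomain R] [IsLocalRing R] [IsNoetherianRing R] [Algebra O₁ R]
  {E : Type*} [Field E] [Algebra R E] [IsFractionRing R E] [Algebra O₁ E] [IsScalarTower O₁ R E]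
  {F₁ : Type*} [Field F₁] [Algebra O₁ F₁]
  (φ : F₁ →+* E) (hφO : ∀ a : O₁, φ (algebraMap O₁ F₁ a) = algebraMap O₁ E a)

variable {A : Type*} [CommRing A] [IsDomain A] [Algebra A R]
  {F : Type*} [Field F] [Algebra A F] [IsFractionRing A F] [Algebra F F₁]
  (hφA : ∀ a : A, φ (algebraMap F F₁ (algebraMap A F a)) = algebraMap R E (algebraMap A R a))

include hφO hφA in
/-- A generic form along `V[lam]` is a generic form along the branch ring `R_(s')` of the
cover. -/
theorem depthIn_cover {p : ℕ} {lam : O₁} {j : ℕ} {x : A} {V : Subring F} (hV : IsBranch x V)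
    {s' : R} (hs' : Prime s') (hx' : ∀ b : A, s' ∣ algebraMap A R b → x ∣ b)
    {f : F₁} {c : O₁} (h : DepthIn (adj (algebraMap O₁ F₁ lam) V) p lam j f c) :
    DepthIn (branchRing (E := E) s' hs') p lam j (φ f) c := by
  obtain ⟨g, r, hr, hf⟩ := h
  refine ⟨φ g, φ r, map_adj_mem φ hφO hφA hV hs' hx' hr, ?_⟩
  rw [hf]
  simp only [map_mul, map_pow, map_add, map_one, hφO]

include hφO hφA in
/-- **The node lemma at the top depth, through a regular cover `R` of the node**: the constants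
of two forms of depth `p` along the two branches agree modulo `p`-th powers and
`1 + lam ^ p O₁`. -/
theorem constRel_node_at {p : ℕ} (hp : p.Prime)
    {lam : O₁} (hlam : Irreducible lam) (hlp : lam ∣ (p : O₁))
    (hlpp : lam ^ (p - 1) ∣ (p : O₁))
    (hperf₁ : ∀ a : O₁, ∃ b : O₁, lam ∣ a - b ^ p)
    {x t : A} {V₁ V₂ : Subring F} (hV₁ : IsBranch x V₁) (hV₂ : IsBranch t V₂)
    {s' t' : R} (hs' : Prime s') (ht' : Prime t') (hne' : ¬ Associated s' t')
    (hmR : maximalIdeal R = Ideal.span {s', t'}) (hlamR : algebraMap O₁ R lam = s' * t')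
    (hdx : ∀ b : A, s' ∣ algebraMap A R b → x ∣ b)
    (hdt : ∀ b : A, t' ∣ algebraMap A R b → t ∣ b)
    {f : F₁} (hf : f ≠ 0) (hHor : HorVal p lam f)
    (c₁ c₂ : O₁) (hc₁ : c₁ ≠ 0) (hc₂ : c₂ ≠ 0)
    (hD₁ : DepthIn (adj (algebraMap O₁ F₁ lam) V₁) p lam p f c₁)
    (hD₂ : DepthIn (adj (algebraMap O₁ F₁ lam) V₂) p lam p f c₂) :
    ConstRel p lam p c₂ c₁ := by
  have hφf : φ f ≠ 0 := (map_ne_zero φ).mpr hf
  have hst' : ¬ s' ∣ t' := fun hd => hne' (hs'.associated_of_dvd ht' hd)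
  have hts' : ¬ t' ∣ s' := fun hd => hne' (ht'.associated_of_dvd hs' hd).symm
  have hE₁ := depthIn_cover φ hφO hφA hV₁ hs' hdx hD₁
  have hE₂ := depthIn_cover φ hφO hφA hV₂ ht' hdt hD₂
  have hbr₁ : HDCmp.DepthAt p lam p s' (φ f) c₁ :=
    depthAt_of_depthIn (isBranch_branchRing s' hs') hE₁
  have hbr₂ : HDCmp.DepthAt p lam p t' (φ f) c₂ :=
    depthAt_of_depthIn (isBranch_branchRing t' ht') hE₂
  obtain ⟨cy, h, rR, hcy, -, hpt⟩ := HDLocal.hd_node p hp lam hlam hlp hperf₁ p hp.one_le le_rfl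
    hlpp (φ f) hφf (fun q hq hql => hhor_of_horVal φ hφO hf hHor q hq hql)
    s' t' hs' ht' hne' hmR (by rw [hlamR]) c₁ c₂ hc₁ hc₂ hbr₁ hbr₂
  have hlamR' : algebraMap O₁ R lam = t' * s' := by rw [hlamR, mul_comm]
  have h₁ : ConstRel p lam p cy c₁ :=
    constRel_branch p hp lam hlam hlp hperf₁ (φ f) hφf s' t' hs' hlamR hst'
      (isBranch_branchRing s' hs') p hp.one_le le_rfl hlpp cy hcy h rR hpt c₁ hc₁ hE₁
  have h₂ : ConstRel p lam p cy c₂ :=
    constRel_branch p hp lam hlam hlp hperf₁ (φ f) hφf t' s' ht' hlamR' hts'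
      (isBranch_branchRing t' ht') p hp.one_le le_rfl hlpp cy hcy h rR hpt c₂ hc₂ hE₂
  exact (ConstRel.symm hlam.not_isUnit hp.one_le h₂).trans h₁

end Cover

/-! ### The node lemma at the top depth at a `NodeBlock` presentation -/

section Blocks

variable {O : Type*} [CommRing O] [IsDomain O] [IsDiscreteValuationRing O]
  {A : Type u} [CommRing A] [IsDomain A] [IsLocalRing A] [IsNoetherianRing A] [Algebra O A]
  {F : Type*} [Field F] [Algebra A F] [IsFractionRing A F] [Algebra O F] [IsScalarTower O A F]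
  {O₁ : Type*} [CommRing O₁] [IsDomain O₁] [IsDiscreteValuationRing O₁] [Algebra O O₁]
  {F₁ : Type*} [Field F₁] [Algebra F F₁] [Algebra O₁ F₁]

/-- **The node lemma at the top depth `p` over `O₁ = O[ζ_p]` at a regular node of the model
over `O`** (a thick node over `O₁`): the constants of two forms of depth `p` along the two
branches `V₁[lam]`, `V₂[lam]` agree modulo `p`-th powers and `1 + lam ^ p O₁`. -/
theorem constRel_node_tame {p : ℕ} (hp : p.Prime) {ϖ : O} (hϖp : Associated ϖ (p : O))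
    {lam : O₁} (hlam : Irreducible lam) (hζ : (1 + lam) ^ p = 1)
    (hperf₁ : ∀ a : O₁, ∃ b : O₁, lam ∣ a - b ^ p)
    (hO₁ : ∀ a : O₁, ∃ P : O[X], a = P.eval₂ (algebraMap O O₁) lam)
    (hcomm : ∀ c : O, algebraMap F F₁ (algebraMap O F c) = algebraMap O₁ F₁ (algebraMap O O₁ c))
    (hinj₁ : Function.Injective (algebraMap O₁ F₁))
    (hgen : Algebra.adjoin F {algebraMap O₁ F₁ lam} = ⊤)
    (hmin : ∀ G : F[X], aeval (algebraMap O₁ F₁ lam) G = 0 →
      (psi p).map (algebraMap ℤ F) ∣ G)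
    {s t : A} (hs : Prime s) (ht : Prime t) (hne : ¬ Associated s t)
    (hm : maximalIdeal A = Ideal.span {s, t}) (hst : Associated (s * t) (algebraMap O A ϖ))
    {V₁ V₂ : Subring F} (hV₁ : IsBranch s V₁) (hV₂ : IsBranch t V₂)
    {f : F₁} (hf : f ≠ 0) (hHor : HorVal p lam f)
    (c₁ c₂ : O₁) (hc₁ : c₁ ≠ 0) (hc₂ : c₂ ≠ 0)
    (hD₁ : DepthIn (adj (algebraMap O₁ F₁ lam) V₁) p lam p f c₁)
    (hD₂ : DepthIn (adj (algebraMap O₁ F₁ lam) V₂) p lam p f c₂) :
    ConstRel p lam p c₂ c₁ := by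
  haveI : Fact p.Prime := ⟨hp⟩
  have hlp : lam ∣ (p : O₁) := dvd_p_of_root p hlam.ne_zero hζ
  have hlpp : lam ^ (p - 1) ∣ (p : O₁) :=
    pow_pred_dvd_p p hlam.not_isUnit hlam.ne_zero hζ
  -- normalise the node to `x * t = p`
  obtain ⟨u, hu⟩ := hst
  obtain ⟨u₂, hu₂⟩ := hϖp
  have hunit : IsUnit ((u : A) * algebraMap O A (u₂ : O)) := u.isUnit.mul (u₂.isUnit.map _)
  obtain ⟨x, hxdef⟩ : ∃ x : A, x = s * ((u : A) * algebraMap O A (u₂ : O)) := ⟨_, rfl⟩
  have hsx_assoc : Associated s x := ⟨hunit.unit, by rw [hxdef, IsUnit.unit_spec]⟩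
  have hx : Prime x := hsx_assoc.prime hs
  have hxt : x * t = (p : A) := by
    have h1 := congrArg (algebraMap O A) hu₂
    rw [map_mul, map_natCast, ← hu] at h1
    rw [← h1, hxdef]
    ring
  have hnst : ¬ s ∣ t := fun hd => hne (hs.associated_of_dvd ht hd)
  have hnts : ¬ t ∣ s := fun hd => hne (ht.associated_of_dvd hs hd).symm
  have hnxt : ¬ x ∣ t := fun hd => hnst (hsx_assoc.dvd_iff_dvd_left.mpr hd)
  have hnext : ¬ Associated x t := fun h => hnxt h.dvd
  have hmA : maximalIdeal A = Ideal.span {x, t} := by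
    rw [hm]
    apply le_antisymm
    · refine Ideal.span_le.mpr ?_
      rintro z (rfl | rfl)
      · obtain ⟨w, hw⟩ := hunit.exists_left_inv
        exact Ideal.mem_span_pair.mpr ⟨w, 0, by rw [hxdef]; linear_combination z * hw⟩
      · exact Ideal.subset_span (by simp)
    · refine Ideal.span_le.mpr ?_
      rintro z (rfl | rfl)
      · exact Ideal.mem_span_pair.mpr ⟨(u : A) * algebraMap O A (u₂ : O), 0, by
          rw [hxdef]; ring⟩
      · exact Ideal.subset_span (by simp)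
  have hV₁' : IsBranch x V₁ := by
    intro z
    rw [hV₁ z]
    constructor
    · rintro ⟨a, b, hb, e⟩
      exact ⟨a, b, fun h => hb (hsx_assoc.dvd_iff_dvd_left.mpr h), e⟩
    · rintro ⟨a, b, hb, e⟩
      exact ⟨a, b, fun h => hb (hsx_assoc.dvd_iff_dvd_left.mp h), e⟩
  obtain ⟨R, _, _, _, _, _, s', t', hinjAR, -, hs', ht', hne', hmR, hζR, hs'x, ht't, hdx, hdt⟩ :=
    Fermat.Agent.S44.L.NodeCover.exists_node_cover p hp x t hx ht hnext hmA hxt
  have hy0 : s' * t' ≠ 0 := mul_ne_zero hs'.ne_zero ht'.ne_zero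
  obtain ⟨φ, ψ, hφA, hφψ, hψlam⟩ := exists_embed (A := A) (F := F) (R := R) p hlam.ne_zero hζ
    hO₁ hcomm hinj₁ hgen hmin hinjAR hy0 hζR
  letI : Algebra O₁ R := ψ.toAlgebra
  have hφO : ∀ a : O₁, φ (algebraMap O₁ F₁ a) = algebraMap O₁ (FractionRing R) a :=
    fun a => (hφψ a).trans (IsScalarTower.algebraMap_apply O₁ R (FractionRing R) a).symm
  exact constRel_node_at φ hφO hφA hp hlam hlp hlpp hperf₁ hV₁' hV₂ hs' ht' hne' hmR hψlam
    hdx hdt hf hHor c₁ c₂ hc₁ hc₂ hD₁ hD₂

end Blocks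

/-! ### ONE constant on the model -/

/-- **Row Z1, exit with ONE constant: depth `1 → p` over `O₁ = O[ζ_p]`, `lam = ζ_p - 1`, on a
model over `O`.**  If `f ∈ F₁ˣ` has horizontal divisor divisible by `p` (`TameModel.HorVal`)
and `p`-th-power depth `≥ 1` with respect to `lam` along every `V W[lam]`, then there is ONE
constant `c ∈ O₁` such that `f` has depth `≥ p` with constant `c` along every `V W[lam]`. -/
theorem tame_depth_const
    {O : Type*} [CommRing O] [IsDomain O] [IsDiscreteValuationRing O]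
    {F : Type u} [Field F] [Algebra O F]
    {O₁ : Type*} [CommRing O₁] [IsDomain O₁] [IsDiscreteValuationRing O₁] [Algebra O O₁]
    {F₁ : Type*} [Field F₁] [Algebra F F₁] [Algebra O₁ F₁]
    {p : ℕ} (hp : p.Prime) {ϖ : O} (hϖp : Associated ϖ (p : O))
    (hperf : ∀ a : O, ∃ b : O, ϖ ∣ a - b ^ p)
    {lam : O₁} (hlam : Irreducible lam) (hζ : (1 + lam) ^ p = 1)
    (hO₁ : ∀ a : O₁, ∃ P : O[X], a = P.eval₂ (algebraMap O O₁) lam)
    (hcomm : ∀ c : O, algebraMap F F₁ (algebraMap O F c) = algebraMap O₁ F₁ (algebraMap O O₁ c))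
    (hinj₁ : Function.Injective (algebraMap O₁ F₁))
    (hgen : Algebra.adjoin F {algebraMap O₁ F₁ lam} = ⊤)
    (hmin : ∀ G : F[X], aeval (algebraMap O₁ F₁ lam) G = 0 →
      (psi p).map (algebraMap ℤ F) ∣ G)
    {ι Y : Type*} {V : ι → Subring F} {R : Y → Subring F} {On : Y → ι → Prop} {Hor : F → Prop}
    (D : IsModel p ϖ V R On Hor)
    (f : F₁) (hf : f ≠ 0) (hHor : HorVal p lam f)
    (h1 : ∀ W, ∃ c : O₁, c ≠ 0 ∧ DepthIn (adj (algebraMap O₁ F₁ lam) (V W)) p lam 1 f c) :
    ∃ c : O₁, c ≠ 0 ∧ ∀ W, DepthIn (adj (algebraMap O₁ F₁ lam) (V W)) p lam p f c := by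
  haveI : Fact p.Prime := ⟨hp⟩
  have hD := tame_depth hp hϖp hperf hlam hζ hO₁ hcomm hinj₁ hgen hmin D f hf hHor h1
  have hlp : lam ∣ (p : O₁) := dvd_p_of_root p hlam.ne_zero hζ
  have hϖp' := hϖp
  obtain ⟨u₂, hu₂⟩ := hϖp
  have hϖlam : lam ∣ algebraMap O O₁ ϖ := by
    have h1 : (p : O₁) = algebraMap O O₁ ϖ * algebraMap O O₁ (u₂ : O) := by
      rw [← map_mul, hu₂, map_natCast]
    have h2 : IsUnit (algebraMap O O₁ (u₂ : O)) := u₂.isUnit.map _
    rw [h1] at hlp
    exact (IsUnit.dvd_mul_right h2).mp hlp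
  have hperf₁ : ∀ a : O₁, ∃ b : O₁, lam ∣ a - b ^ p := by
    intro a
    obtain ⟨P, rfl⟩ := hO₁ a
    obtain ⟨b, hb⟩ := hperf (P.coeff 0)
    refine ⟨algebraMap O O₁ b, ?_⟩
    have h1 : P.eval₂ (algebraMap O O₁) lam = algebraMap O O₁ (P.coeff 0)
        + lam * P.divX.eval₂ (algebraMap O O₁) lam := by
      conv_lhs => rw [← X_mul_divX_add P]
      rw [eval₂_add, eval₂_mul, eval₂_X, eval₂_C, add_comm]
    have h2 : lam ∣ algebraMap O O₁ (P.coeff 0 - b ^ p) := hϖlam.trans (map_dvd _ hb)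
    rw [map_sub, map_pow] at h2
    have h3 : P.eval₂ (algebraMap O O₁) lam - algebraMap O O₁ b ^ p
        = (algebraMap O O₁ (P.coeff 0) - algebraMap O O₁ b ^ p)
          + lam * P.divX.eval₂ (algebraMap O O₁) lam := by
      rw [h1]
      ring
    rw [h3]
    exact dvd_add h2 (dvd_mul_right _ _)
  -- constants
  have hO₁V : ∀ W (a : O₁), algebraMap O₁ F₁ a ∈ adj (algebraMap O₁ F₁ lam) (V W) := by
    intro W a
    obtain ⟨P, rfl⟩ := hO₁ a
    rw [Polynomial.hom_eval₂, eval₂_eq_sum_range]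
    refine Subring.sum_mem _ fun i _ => Subring.mul_mem _ ?_ (Subring.pow_mem _ (lam_mem_adj _ _) i)
    rw [RingHom.comp_apply, ← hcomm]
    exact algebraMap_mem_adj _ _ (D.constV W _)
  -- the node lemma at every closed point on two components
  have hrel : ∀ y W W', W ≠ W' → On y W → On y W' → ∀ c c' : O₁, c ≠ 0 → c' ≠ 0 →
      DepthIn (adj (algebraMap O₁ F₁ lam) (V W)) p lam p f c →
      DepthIn (adj (algebraMap O₁ F₁ lam) (V W')) p lam p f c' → ConstRel p lam p c' c := by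
    intro y W W' hne hW hW' c c' hc hc' hDc hDc'
    rcases D.block y with ⟨W₁, W₂, hOn, A, _, _, _, _, _, _, _, _, hrange, -, s, t, hs, ht, hnst,
      hm, hst, hV₁, hV₂⟩ | ⟨W₁, hOn, -⟩
    · rcases (hOn W).mp hW with rfl | rfl <;> rcases (hOn W').mp hW' with rfl | rfl
      · exact absurd rfl hne
      · exact constRel_node_tame hp hϖp' hlam hζ hperf₁ hO₁ hcomm hinj₁ hgen hmin hs ht hnst hm
          hst hV₁ hV₂ hf hHor c c' hc hc' hDc hDc'
      · exact ConstRel.symm hlam.not_isUnit hp.one_le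
          (constRel_node_tame hp hϖp' hlam hζ hperf₁ hO₁ hcomm hinj₁ hgen hmin hs ht hnst hm
            hst hV₁ hV₂ hf hHor c' c hc' hc hDc' hDc)
      · exact absurd rfl hne
    · exact absurd (((hOn W).mp hW).trans ((hOn W').mp hW').symm) hne
  exact Fermat.Agent.S33.Geo.TameConstNe.one_const_of_rel_ne
    (V := fun W => adj (algebraMap O₁ F₁ lam) (V W)) (On := On) hlam.not_isUnit hinj₁ hO₁V
    D.conn f p hp.one_le hrel hD

end Fermat.Agent.S33.Geo.TameTop
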