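import Mathlib
import Fermat.Agent.S33.Geo.TameTop

/-!
# S33 / GEO / Stage B, row Z1: the point form at the top depth `p` at a smooth point

Level-free; fix-forward of `S33/Geo/TameTop` (exit `tame_depth_const`: depth `p` along every
`V W[lam]` with ONE constant `c ∈ O₁`).  Setting of `TameModel` / `TameDepth` / `TameTop`.

At a smooth point `y` of the fibre of the model over `O` the local ring over `O₁ = O[lam]` is
`R y[lam] = TameModel.adj lam (R y)` (the Eisenstein extension of the local ring `A`), and a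
function of depth `p` along the branch `V₁[lam]` through `y` has a POINT form
`f = c h ^ p (1 + lam ^ p r)` with `r ∈ R y[lam]`, whose constant agrees with the branch
constants.

* `topc_smooth_at`, `topc_smooth_tame` : the point form at depth `p` at a `SmoothBlock`
  presentation `A` (`HDLocal.hd_smooth` at `j = p` in the Eisenstein extension, pulled back to
  `F₁`), and `ConstRel` against every branch constant (`TopLocal.constRel_branch`);
* `tame_topc_smooth` : the same in terms of `Model.SmoothBlock`;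
* `not_nodeBlock_of_section` : a closed point through which a section passes (a ring
  homomorphism `Ry → O` which is the identity on constants) is not a node;
* `tame_depth_const_pt` : **ONE constant `c ∈ O₁` for depth `p` on every `V W[lam]` AND at
  every smooth point `y` (`r ∈ R y[lam]`)**;
* `tame_depth_const_section` : the same at every closed point carrying a section (the cusps).
-/

set_option autoImplicit false
set_option linter.unusedSectionVars false
set_option linter.unusedVariables false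
set_option linter.style.haveILetI false

namespace Fermat.Agent.S33.Geo.TameTopPt

open Polynomial IsLocalRing
open Fermat.Agent.S33.Geo.Top Fermat.Agent.S33.Geo.TopLocal Fermat.Agent.S33.Geo.Model
open Fermat.Agent.S33.Geo.TameModel Fermat.Agent.S33.Geo.TameDepth
open Fermat.Agent.S33.Geo.TameTop

universe u

/-! ### The abstract cover at a smooth point, at the top depth -/

section Cover

variable {O₁ : Type*} [CommRing O₁] [IsDomain O₁] [IsDiscreteValuationRing O₁]
  {R : Type*} [CommRing R] [IsDomain R] [IsLocalRing R] [IsNoetherianRing R] [Algebra O₁ R]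
  {E : Type*} [Field E] [Algebra R E] [IsFractionRing R E] [Algebra O₁ E] [IsScalarTower O₁ R E]
  {F₁ : Type*} [Field F₁] [Algebra O₁ F₁]
  (φ : F₁ →+* E) (hφO : ∀ a : O₁, φ (algebraMap O₁ F₁ a) = algebraMap O₁ E a)

variable {A : Type*} [CommRing A] [IsDomain A] [Algebra A R]
  {F : Type*} [Field F] [Algebra A F] [IsFractionRing A F] [Algebra F F₁]
  (hφA : ∀ a : A, φ (algebraMap F F₁ (algebraMap A F a)) = algebraMap R E (algebraMap A R a))

include hφO hφA in
/-- **The point form at the top depth at a smooth point**, through an extension `R` of the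
local ring `A` in which `lam` is prime, `𝔪_R = (lam, z')`, and which is the image of
`A[lam]` (`hsurj`). -/
theorem topc_smooth_at {p : ℕ} (hp : p.Prime)
    {lam : O₁} (hlam : Irreducible lam) (hlp : lam ∣ (p : O₁))
    (hlpp : lam ^ (p - 1) ∣ (p : O₁))
    (hperf₁ : ∀ a : O₁, ∃ b : O₁, lam ∣ a - b ^ p)
    {x : A} {V₁ : Subring F} (hV₁ : IsBranch x V₁)
    (z' : R) (hlamP : Prime (algebraMap O₁ R lam))
    (hmR : maximalIdeal R = Ideal.span {algebraMap O₁ R lam, z'})
    (hdx : ∀ b : A, algebraMap O₁ R lam ∣ algebraMap A R b → x ∣ b)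
    (hsurj : ∀ c : R, ∃ y : F₁, y ∈ adj (algebraMap O₁ F₁ lam) (algebraMap A F).range ∧
      φ y = algebraMap R E c)
    {f : F₁} (hf : f ≠ 0) (hHor : HorVal p lam f)
    (hD₁ : ∃ c : O₁, c ≠ 0 ∧ DepthIn (adj (algebraMap O₁ F₁ lam) V₁) p lam p f c) :
    ∃ cy : O₁, cy ≠ 0 ∧
      DepthIn (adj (algebraMap O₁ F₁ lam) (algebraMap A F).range) p lam p f cy ∧
      ∀ c : O₁, c ≠ 0 → DepthIn (adj (algebraMap O₁ F₁ lam) V₁) p lam p f c →
        ConstRel p lam p cy c := by
  have hφf : φ f ≠ 0 := (map_ne_zero φ).mpr hf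
  obtain ⟨c₁, hc₁, hDc₁⟩ := hD₁
  have hbr₁ : HDCmp.DepthAt p lam p (algebraMap O₁ R lam) (φ f) c₁ :=
    depthAt_of_depthIn_cover φ hφO hlamP
      (fun y hy => map_adj_mem φ hφO hφA hV₁ hlamP hdx hy) hDc₁
  obtain ⟨cy, h, rR, hcy, -, hpt⟩ := HDLocal.hd_smooth p hp lam hlam hlp hperf₁ p hp.one_le
    le_rfl hlpp (φ f) hφf (fun q hq hql => hhor_of_horVal φ hφO hf hHor q hq hql)
    z' hlamP hmR c₁ hc₁ hbr₁
  -- `φ` is onto `E`
  have hsurjE : ∀ e : E, ∃ y : F₁, φ y = e := by
    intro e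
    obtain ⟨a, b, hb, rfl⟩ := IsFractionRing.div_surjective (A := R) e
    obtain ⟨ya, -, hya⟩ := hsurj a
    obtain ⟨yb, -, hyb⟩ := hsurj b
    exact ⟨ya / yb, by rw [map_div₀, hya, hyb]⟩
  obtain ⟨h', rfl⟩ := hsurjE h
  obtain ⟨yr, hyr, hyrφ⟩ := hsurj rR
  refine ⟨cy, hcy, ⟨h', yr, hyr, ?_⟩, fun c hc hD => ?_⟩
  · apply φ.injective
    rw [hpt]
    simp only [map_mul, map_pow, map_add, map_one, hφO, hyrφ]
    rw [IsScalarTower.algebraMap_apply O₁ R E cy, IsScalarTower.algebraMap_apply O₁ R E lam]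
  · exact constRel_branch p hp lam hlam hlp hperf₁ (φ f) hφf (algebraMap O₁ R lam) 1 hlamP
      (mul_one _).symm hlamP.not_dvd_one (isBranch_branchRing _ hlamP) p hp.one_le le_rfl hlpp
      cy hcy (φ h') rR hpt c hc (depthIn_cover φ hφO hφA hV₁ hlamP hdx hD)

end Cover

/-! ### Constants and perfectness over `O₁` -/

section Consts

variable {O : Type*} [CommRing O] [IsDomain O] [IsDiscreteValuationRing O]
  {F : Type*} [Field F] [Algebra O F]
  {O₁ : Type*} [CommRing O₁] [IsDomain O₁] [IsDiscreteValuationRing O₁] [Algebra O O₁]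
  {F₁ : Type*} [Field F₁] [Algebra F F₁] [Algebra O₁ F₁]

/-- The residue field of `O₁ = O[lam]` is perfect when that of `O` is. -/
theorem perf_lam {p : ℕ} {ϖ : O} (hϖp : Associated ϖ (p : O))
    (hperf : ∀ a : O, ∃ b : O, ϖ ∣ a - b ^ p)
    {lam : O₁} (hlp : lam ∣ (p : O₁))
    (hO₁ : ∀ a : O₁, ∃ P : O[X], a = P.eval₂ (algebraMap O O₁) lam) :
    ∀ a : O₁, ∃ b : O₁, lam ∣ a - b ^ p := by
  obtain ⟨u₂, hu₂⟩ := hϖp
  have hϖlam : lam ∣ algebraMap O O₁ ϖ := by
    have h1 : (p : O₁) = algebraMap O O₁ ϖ * algebraMap O O₁ (u₂ : O) := by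
      rw [← map_mul, hu₂, map_natCast]
    have h2 : IsUnit (algebraMap O O₁ (u₂ : O)) := u₂.isUnit.map _
    rw [h1] at hlp
    exact (IsUnit.dvd_mul_right h2).mp hlp
  intro a
  obtain ⟨P, rfl⟩ := hO₁ a
  obtain ⟨b, hb⟩ := hperf (P.coeff 0)
  refine ⟨algebraMap O O₁ b, ?_⟩
  have h1 : P.eval₂ (algebraMap O O₁) lam = algebraMap O O₁ (P.coeff 0)
      + lam * P.divX.eval₂ (algebraMap O O₁) lam := by
    conv_lhs => rw [← X_mul_divX_add P]
    rw [eval₂_add, eval₂_mul, eval₂_X, eval₂_C, add_comm]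
  have h2 : lam ∣ algebraMap O O₁ (P.coeff 0 - b ^ p) := hϖlam.trans (map_dvd _ hb)
  rw [map_sub, map_pow] at h2
  have h3 : P.eval₂ (algebraMap O O₁) lam - algebraMap O O₁ b ^ p
      = (algebraMap O O₁ (P.coeff 0) - algebraMap O O₁ b ^ p)
        + lam * P.divX.eval₂ (algebraMap O O₁) lam := by
    rw [h1]
    ring
  rw [h3]
  exact dvd_add h2 (dvd_mul_right _ _)

/-- The constants of `O₁ = O[lam]` lie in `S[lam]` when those of `O` lie in `S`. -/
theorem const_mem_adj {lam : O₁}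
    (hO₁ : ∀ a : O₁, ∃ P : O[X], a = P.eval₂ (algebraMap O O₁) lam)
    (hcomm : ∀ c : O, algebraMap F F₁ (algebraMap O F c) = algebraMap O₁ F₁ (algebraMap O O₁ c))
    (S : Subring F) (hS : ∀ a : O, algebraMap O F a ∈ S) (a : O₁) :
    algebraMap O₁ F₁ a ∈ adj (algebraMap O₁ F₁ lam) S := by
  obtain ⟨P, rfl⟩ := hO₁ a
  rw [Polynomial.hom_eval₂, eval₂_eq_sum_range]
  refine Subring.sum_mem _ fun i _ => Subring.mul_mem _ ?_ (Subring.pow_mem _ (lam_mem_adj _ _) i)
  rw [RingHom.comp_apply, ← hcomm]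
  exact algebraMap_mem_adj _ _ (hS _)

end Consts

/-! ### The point form at the top depth at a `SmoothBlock` presentation -/

section Blocks

variable {O : Type*} [CommRing O] [IsDomain O] [IsDiscreteValuationRing O]
  {A : Type u} [CommRing A] [IsDomain A] [IsLocalRing A] [IsNoetherianRing A] [Algebra O A]
  {F : Type*} [Field F] [Algebra A F] [IsFractionRing A F] [Algebra O F] [IsScalarTower O A F]
  {O₁ : Type*} [CommRing O₁] [IsDomain O₁] [IsDiscreteValuationRing O₁] [Algebra O O₁]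
  {F₁ : Type*} [Field F₁] [Algebra F F₁] [Algebra O₁ F₁]

/-- **The point form at the top depth `p` over `O₁ = O[ζ_p]` at a smooth point of the fibre of
the model over `O`**: `f = cy h ^ p (1 + lam ^ p r)` with `r ∈ A[lam]`, and `cy` agrees with
the constant of every form of depth `p` along the branch `V₁[lam]`. -/
theorem topc_smooth_tame {p : ℕ} (hp : p.Prime) {ϖ : O} (hϖp : Associated ϖ (p : O))
    {lam : O₁} (hlam : Irreducible lam) (hζ : (1 + lam) ^ p = 1)
    (hperf₁ : ∀ a : O₁, ∃ b : O₁, lam ∣ a - b ^ p)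
    (hO₁ : ∀ a : O₁, ∃ P : O[X], a = P.eval₂ (algebraMap O O₁) lam)
    (hcomm : ∀ c : O, algebraMap F F₁ (algebraMap O F c) = algebraMap O₁ F₁ (algebraMap O O₁ c))
    (hinj₁ : Function.Injective (algebraMap O₁ F₁))
    (hgen : Algebra.adjoin F {algebraMap O₁ F₁ lam} = ⊤)
    (hmin : ∀ G : F[X], aeval (algebraMap O₁ F₁ lam) G = 0 →
      (psi p).map (algebraMap ℤ F) ∣ G)
    (hϖA : Prime (algebraMap O A ϖ)) {z : A}
    (hm : maximalIdeal A = Ideal.span {algebraMap O A ϖ, z})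
    {V₁ : Subring F} (hV₁ : IsBranch (algebraMap O A ϖ) V₁)
    {f : F₁} (hf : f ≠ 0) (hHor : HorVal p lam f)
    (hD₁ : ∃ c : O₁, c ≠ 0 ∧ DepthIn (adj (algebraMap O₁ F₁ lam) V₁) p lam p f c) :
    ∃ cy : O₁, cy ≠ 0 ∧
      DepthIn (adj (algebraMap O₁ F₁ lam) (algebraMap A F).range) p lam p f cy ∧
      ∀ c : O₁, c ≠ 0 → DepthIn (adj (algebraMap O₁ F₁ lam) V₁) p lam p f c →
        ConstRel p lam p cy c := by
  haveI : Fact p.Prime := ⟨hp⟩
  have hlp : lam ∣ (p : O₁) := dvd_p_of_root p hlam.ne_zero hζ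
  have hlpp : lam ^ (p - 1) ∣ (p : O₁) :=
    pow_pred_dvd_p p hlam.not_isUnit hlam.ne_zero hζ
  obtain ⟨q, rfl⟩ : ∃ q, p = q + 1 := Nat.exists_eq_add_one_of_ne_zero hp.ne_zero
  have hq : q ≠ 0 := by
    rintro rfl
    exact Nat.not_prime_one hp
  obtain ⟨u₂, hu₂⟩ := hϖp
  have hpA : ((q + 1 : ℕ) : A) = algebraMap O A ϖ * algebraMap O A (u₂ : O) := by
    rw [← map_mul, hu₂, map_natCast]
  have hu₂A : IsUnit (algebraMap O A (u₂ : O)) := u₂.isUnit.map _
  have hπ : Prime ((q + 1 : ℕ) : A) := by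
    rw [hpA]
    exact (associated_mul_unit_right _ _ hu₂A).prime hϖA
  obtain ⟨h, hh⟩ : ∃ h : A[X], h = X ^ q + C ((q + 1 : ℕ) : A)
      * Fermat.Agent.S44.L.NodeCover.thetaPoly q (1 : A) := ⟨_, rfl⟩
  have hk := Fermat.Agent.S44.L.NodeCover.thetaPoly_natDegree_lt hq (1 : A)
  have hk0 : IsUnit ((Fermat.Agent.S44.L.NodeCover.thetaPoly q (1 : A)).eval 0) := by
    rw [Fermat.Agent.S44.L.NodeCover.thetaPoly_eval_zero hq]
    exact isUnit_one
  haveI hdom : IsDomain (AdjoinRoot h) :=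
    Fermat.Agent.S44.L.NodeCover.eis_isDomain hh hk hq hπ hk0
  haveI hloc : IsLocalRing (AdjoinRoot h) :=
    Fermat.Agent.S44.L.NodeCover.eis_isLocalRing hh hk hq hπ
  have hinjAR : Function.Injective (algebraMap A (AdjoinRoot h)) :=
    Fermat.Agent.S44.L.NodeCover.eis_of_injective hh hk hq
  have hroot : Prime (AdjoinRoot.root h) :=
    Fermat.Agent.S44.L.NodeCover.eis_root_prime hh hk hq hπ hk0
  have hrootdvd : AdjoinRoot.root h ∣ AdjoinRoot.of h ((q + 1 : ℕ) : A) :=
    Fermat.Agent.S44.L.NodeCover.eis_root_dvd_of hh hk hq hπ hk0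
  have hdvd : ∀ b : A, AdjoinRoot.root h ∣ AdjoinRoot.of h b → ((q + 1 : ℕ) : A) ∣ b :=
    fun b hb => Fermat.Agent.S44.L.NodeCover.eis_dvd_of_root_dvd hh hq hb
  have hmax := Fermat.Agent.S44.L.NodeCover.eis_maximalIdeal hh hk hq hπ
  have hζR : (1 + AdjoinRoot.root h) ^ (q + 1) = 1 := by
    refine Fermat.Agent.S44.L.NodeCover.one_add_pow_eq_one q hp _ ?_
    have hpow := Fermat.Agent.S44.L.NodeCover.eis_root_pow hh
    rw [pow_succ, hpow, Fermat.Agent.S44.L.NodeCover.mk_thetaPoly, map_natCast]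
    simp only [map_one, mul_one]
    ring
  obtain ⟨φ, ψ, hφA, hφψ, hψlam⟩ := exists_embed (A := A) (F := F) (R := AdjoinRoot h) (q + 1)
    hlam.ne_zero hζ hO₁ hcomm hinj₁ hgen hmin hinjAR hroot.ne_zero hζR
  -- the cover is the image of `A[lam]`
  have hsurj : ∀ c : AdjoinRoot h, ∃ y : F₁,
      y ∈ adj (algebraMap O₁ F₁ lam) (algebraMap A F).range ∧
      φ y = algebraMap (AdjoinRoot h) (FractionRing (AdjoinRoot h)) c := by
    intro c
    obtain ⟨P, rfl⟩ := AdjoinRoot.mk_surjective c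
    refine ⟨P.eval₂ ((algebraMap F F₁).comp (algebraMap A F)) (algebraMap O₁ F₁ lam), ?_, ?_⟩
    · rw [eval₂_eq_sum_range]
      refine Subring.sum_mem _ fun i _ =>
        Subring.mul_mem _ ?_ (Subring.pow_mem _ (lam_mem_adj _ _) i)
      rw [RingHom.comp_apply]
      exact algebraMap_mem_adj _ _ (RingHom.mem_range_self _ _)
    · have h1 : AdjoinRoot.mk h P
          = P.eval₂ (algebraMap A (AdjoinRoot h)) (AdjoinRoot.root h) := by
        rw [← aeval_def, AdjoinRoot.aeval_eq]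
      rw [Polynomial.hom_eval₂, hφψ, hψlam, h1, Polynomial.hom_eval₂]
      congr 1
      ext a
      exact hφA a
  letI : Algebra O₁ (AdjoinRoot h) := ψ.toAlgebra
  have hφO : ∀ a : O₁, φ (algebraMap O₁ F₁ a)
      = algebraMap O₁ (FractionRing (AdjoinRoot h)) a :=
    fun a => (hφψ a).trans
      (IsScalarTower.algebraMap_apply O₁ (AdjoinRoot h) (FractionRing (AdjoinRoot h)) a).symm
  have hlamR : algebraMap O₁ (AdjoinRoot h) lam = AdjoinRoot.root h := hψlam
  have hϖroot : AdjoinRoot.root h ∣ AdjoinRoot.of h (algebraMap O A ϖ) := by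
    rw [hpA, map_mul] at hrootdvd
    exact (IsUnit.dvd_mul_right (hu₂A.map (AdjoinRoot.of h))).mp hrootdvd
  have hmR : maximalIdeal (AdjoinRoot h)
      = Ideal.span {algebraMap O₁ (AdjoinRoot h) lam, AdjoinRoot.of h z} := by
    rw [hmax, hm, Ideal.map_span, Set.image_pair, hlamR]
    apply le_antisymm
    · refine sup_le (Ideal.span_le.mpr ?_) (Ideal.span_mono (by simp))
      rintro w (rfl | rfl)
      · exact Ideal.span_mono (by simp) (Ideal.mem_span_singleton.mpr hϖroot)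
      · exact Ideal.subset_span (by simp)
    · refine Ideal.span_le.mpr ?_
      rintro w (rfl | rfl)
      · exact Ideal.mem_sup_right (Ideal.subset_span rfl)
      · exact Ideal.mem_sup_left (Ideal.subset_span (by simp))
  have hdx : ∀ b : A, algebraMap O₁ (AdjoinRoot h) lam ∣ algebraMap A (AdjoinRoot h) b →
      algebraMap O A ϖ ∣ b := by
    intro b hb
    rw [hlamR, AdjoinRoot.algebraMap_eq] at hb
    exact (Dvd.intro _ hpA.symm).trans (hdvd b hb)
  exact topc_smooth_at φ hφO hφA hp hlam hlp hlpp hperf₁ hV₁ (AdjoinRoot.of h z)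
    (hlamR ▸ hroot) hmR hdx hsurj hf hHor hD₁

end Blocks

/-! ### On the model -/

section OnModel

variable {O : Type*} [CommRing O] [IsDomain O] [IsDiscreteValuationRing O]
  {F : Type u} [Field F] [Algebra O F]
  {O₁ : Type*} [CommRing O₁] [IsDomain O₁] [IsDiscreteValuationRing O₁] [Algebra O O₁]
  {F₁ : Type*} [Field F₁] [Algebra F F₁] [Algebra O₁ F₁]

/-- **The point form at the top depth at a smooth point of the model** (`Model.SmoothBlock`):
`f = cy h ^ p (1 + lam ^ p r)` with `r ∈ Ry[lam]`, and `cy` agrees with the constant of every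
form of depth `p` along the branch `V₁[lam]`. -/
theorem tame_topc_smooth {p : ℕ} (hp : p.Prime) {ϖ : O} (hϖp : Associated ϖ (p : O))
    (hperf : ∀ a : O, ∃ b : O, ϖ ∣ a - b ^ p)
    {lam : O₁} (hlam : Irreducible lam) (hζ : (1 + lam) ^ p = 1)
    (hO₁ : ∀ a : O₁, ∃ P : O[X], a = P.eval₂ (algebraMap O O₁) lam)
    (hcomm : ∀ c : O, algebraMap F F₁ (algebraMap O F c) = algebraMap O₁ F₁ (algebraMap O O₁ c))
    (hinj₁ : Function.Injective (algebraMap O₁ F₁))
    (hgen : Algebra.adjoin F {algebraMap O₁ F₁ lam} = ⊤)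
    (hmin : ∀ G : F[X], aeval (algebraMap O₁ F₁ lam) G = 0 →
      (psi p).map (algebraMap ℤ F) ∣ G)
    {Hor : F → Prop} {Ry V₁ : Subring F} (hB : SmoothBlock p ϖ Hor Ry V₁)
    (f : F₁) (hf : f ≠ 0) (hHor : HorVal p lam f)
    (hD₁ : ∃ c : O₁, c ≠ 0 ∧ DepthIn (adj (algebraMap O₁ F₁ lam) V₁) p lam p f c) :
    ∃ cy : O₁, cy ≠ 0 ∧ DepthIn (adj (algebraMap O₁ F₁ lam) Ry) p lam p f cy ∧
      ∀ c : O₁, c ≠ 0 → DepthIn (adj (algebraMap O₁ F₁ lam) V₁) p lam p f c →
        ConstRel p lam p cy c := by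
  haveI : Fact p.Prime := ⟨hp⟩
  have hlp : lam ∣ (p : O₁) := dvd_p_of_root p hlam.ne_zero hζ
  have hperf₁ := perf_lam hϖp hperf hlp hO₁
  obtain ⟨A, _, _, _, _, _, _, _, _, hrange, -, hϖA, z, hm, hV₁⟩ := hB
  have h := topc_smooth_tame hp hϖp hlam hζ hperf₁ hO₁ hcomm hinj₁ hgen hmin hϖA hm hV₁ hf hHor
    hD₁
  rwa [hrange] at h

/-- **A section does not pass through a node**: if the local ring `Ry` of a closed point has a
ring homomorphism to `O` which is the identity on the constants, the point is not a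
`NodeBlock`. -/
theorem not_nodeBlock_of_section {p : ℕ} {ϖ : O} (hϖ : Irreducible ϖ) {Hor : F → Prop}
    {Ry V₁ V₂ : Subring F} (ev : Ry →+* O)
    (hev : ∀ (a : O) (ha : algebraMap O F a ∈ Ry), ev ⟨algebraMap O F a, ha⟩ = a) :
    ¬ NodeBlock p ϖ Hor Ry V₁ V₂ := by
  rintro ⟨A, _, _, _, _, _, _, _, _, hrange, -, s, t, hs, ht, -, hm, hst, -, -⟩
  have hmem : ∀ a : A, algebraMap A F a ∈ Ry := fun a => hrange ▸ ⟨a, rfl⟩
  obtain ⟨ev', hev'def⟩ : ∃ ev' : A →+* O, ∀ a : A, ev' a = ev ⟨algebraMap A F a, hmem a⟩ :=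
    ⟨ev.comp ((algebraMap A F).codRestrict Ry hmem), fun a => rfl⟩
  have hev' : ∀ a : O, ev' (algebraMap O A a) = a := by
    intro a
    have h1 : algebraMap O F a ∈ Ry := by
      rw [IsScalarTower.algebraMap_apply O A F]
      exact hmem _
    have h2 : (⟨algebraMap A F (algebraMap O A a), hmem _⟩ : Ry) = ⟨algebraMap O F a, h1⟩ :=
      Subtype.ext (IsScalarTower.algebraMap_apply O A F a).symm
    rw [hev'def, h2]
    exact hev a h1
  -- `ev'` sends the maximal ideal into the maximal ideal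
  have hnu : ∀ x : A, x ∈ maximalIdeal A → ϖ ∣ ev' x := by
    intro x hx
    have h1 : ¬ IsUnit (ev' x) := by
      intro hu
      have h2 : IsUnit (algebraMap O A (ev' x)) := hu.map _
      have h3 : IsUnit (x - algebraMap O A (ev' x)) := by
        by_contra hn
        have h4 : x - algebraMap O A (ev' x) ∈ maximalIdeal A := (mem_maximalIdeal _).mpr hn
        have h5 : algebraMap O A (ev' x) ∈ maximalIdeal A := by
          have := Ideal.sub_mem _ hx h4
          rwa [sub_sub_cancel] at this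
        exact (mem_maximalIdeal _).mp h5 h2
      have h6 : ev' (x - algebraMap O A (ev' x)) = 0 := by
        rw [map_sub, hev', sub_self]
      have h7 := h3.map ev'
      rw [h6] at h7
      exact not_isUnit_zero h7
    have h8 : ev' x ∈ maximalIdeal O := (mem_maximalIdeal _).mpr h1
    rw [hϖ.maximalIdeal_eq] at h8
    exact Ideal.mem_span_singleton.mp h8
  have hsm : s ∈ maximalIdeal A := by
    rw [hm]
    exact Ideal.subset_span (by simp)
  have htm : t ∈ maximalIdeal A := by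
    rw [hm]
    exact Ideal.subset_span (by simp)
  obtain ⟨a, ha⟩ := hnu s hsm
  obtain ⟨b, hb⟩ := hnu t htm
  obtain ⟨w, hw⟩ := hst
  have h9 := congrArg ev' hw
  rw [map_mul, map_mul, hev', ha, hb] at h9
  have h10 : ϖ * (ϖ * (a * b * ev' (w : A))) = ϖ * 1 := by
    rw [mul_one]
    linear_combination h9
  exact hϖ.not_isUnit (IsUnit.of_mul_eq_one _ (mul_left_cancel₀ hϖ.ne_zero h10))

variable {p : ℕ} {ϖ : O} {lam : O₁}
  {ι Y : Type*} {V : ι → Subring F} {R : Y → Subring F} {On : Y → ι → Prop} {Hor : F → Prop}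

/-- **Row Z1, exit with ONE constant, components and smooth points.**  The constant `c ∈ O₁`
of `TameTop.tame_depth_const` is also the constant of a point form of depth `p` at every
smooth point `y` of the model, with `r ∈ R y[lam]`. -/
theorem tame_depth_const_pt (hp : p.Prime) (hϖp : Associated ϖ (p : O))
    (hperf : ∀ a : O, ∃ b : O, ϖ ∣ a - b ^ p)
    (hlam : Irreducible lam) (hζ : (1 + lam) ^ p = 1)
    (hO₁ : ∀ a : O₁, ∃ P : O[X], a = P.eval₂ (algebraMap O O₁) lam)
    (hcomm : ∀ c : O, algebraMap F F₁ (algebraMap O F c) = algebraMap O₁ F₁ (algebraMap O O₁ c))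
    (hinj₁ : Function.Injective (algebraMap O₁ F₁))
    (hgen : Algebra.adjoin F {algebraMap O₁ F₁ lam} = ⊤)
    (hmin : ∀ G : F[X], aeval (algebraMap O₁ F₁ lam) G = 0 →
      (psi p).map (algebraMap ℤ F) ∣ G)
    (D : IsModel p ϖ V R On Hor)
    (f : F₁) (hf : f ≠ 0) (hHor : HorVal p lam f)
    (h1 : ∀ W, ∃ c : O₁, c ≠ 0 ∧ DepthIn (adj (algebraMap O₁ F₁ lam) (V W)) p lam 1 f c) :
    ∃ c : O₁, c ≠ 0 ∧ (∀ W, DepthIn (adj (algebraMap O₁ F₁ lam) (V W)) p lam p f c) ∧
      ∀ y W₁, SmoothBlock p ϖ Hor (R y) (V W₁) →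
        DepthIn (adj (algebraMap O₁ F₁ lam) (R y)) p lam p f c := by
  obtain ⟨c, hc, hall⟩ := tame_depth_const hp hϖp hperf hlam hζ hO₁ hcomm hinj₁ hgen hmin D f hf
    hHor h1
  refine ⟨c, hc, hall, fun y W₁ hB => ?_⟩
  obtain ⟨cy, hcy, hpt, hrel⟩ := tame_topc_smooth hp hϖp hperf hlam hζ hO₁ hcomm hinj₁ hgen hmin
    hB f hf hHor ⟨c, hc, hall W₁⟩
  exact DepthIn.of_constRel (const_mem_adj hO₁ hcomm (R y) (D.constR y)) hinj₁ hlam.not_isUnit
    hp.one_le hpt (hrel c hc (hall W₁))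

/-- **Row Z1, exit with ONE constant, components and points with a section (the cusps).**  The
constant `c ∈ O₁` of `TameTop.tame_depth_const` is also the constant of a point form of depth
`p`, with `r ∈ R y[lam]`, at every closed point `y` of the model whose local ring `R y` lies in
a ring `S` with a ring homomorphism `S → O` which is the identity on constants (such a point
is a smooth point of the fibre). -/
theorem tame_depth_const_section (hp : p.Prime) (hϖ : Irreducible ϖ)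
    (hϖp : Associated ϖ (p : O))
    (hperf : ∀ a : O, ∃ b : O, ϖ ∣ a - b ^ p)
    (hlam : Irreducible lam) (hζ : (1 + lam) ^ p = 1)
    (hO₁ : ∀ a : O₁, ∃ P : O[X], a = P.eval₂ (algebraMap O O₁) lam)
    (hcomm : ∀ c : O, algebraMap F F₁ (algebraMap O F c) = algebraMap O₁ F₁ (algebraMap O O₁ c))
    (hinj₁ : Function.Injective (algebraMap O₁ F₁))
    (hgen : Algebra.adjoin F {algebraMap O₁ F₁ lam} = ⊤)
    (hmin : ∀ G : F[X], aeval (algebraMap O₁ F₁ lam) G = 0 →
      (psi p).map (algebraMap ℤ F) ∣ G)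
    (D : IsModel p ϖ V R On Hor)
    (f : F₁) (hf : f ≠ 0) (hHor : HorVal p lam f)
    (h1 : ∀ W, ∃ c : O₁, c ≠ 0 ∧ DepthIn (adj (algebraMap O₁ F₁ lam) (V W)) p lam 1 f c) :
    ∃ c : O₁, c ≠ 0 ∧ (∀ W, DepthIn (adj (algebraMap O₁ F₁ lam) (V W)) p lam p f c) ∧
      ∀ y (S : Subring F) (hle : R y ≤ S) (ev : S →+* O),
        (∀ (a : O) (ha : algebraMap O F a ∈ S), ev ⟨algebraMap O F a, ha⟩ = a) →
        DepthIn (adj (algebraMap O₁ F₁ lam) (R y)) p lam p f c := by
  obtain ⟨c, hc, hall, hpt⟩ := tame_depth_const_pt hp hϖp hperf hlam hζ hO₁ hcomm hinj₁ hgen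
    hmin D f hf hHor h1
  refine ⟨c, hc, hall, fun y S hle ev hev => ?_⟩
  have hev' : ∀ (a : O) (ha : algebraMap O F a ∈ R y),
      (ev.comp (Subring.inclusion hle)) ⟨algebraMap O F a, ha⟩ = a :=
    fun a ha => hev a (hle ha)
  rcases D.block y with ⟨W₁, W₂, -, hN⟩ | ⟨W₁, -, hB⟩
  · exact absurd hN (not_nodeBlock_of_section hϖ _ hev')
  · exact hpt y W₁ hB

end OnModel

end Fermat.Agent.S33.Geo.TameTopPt
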