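import Mathlib
import Fermat.Agent.S33.Geo.Top

/-!
# S33 / GEO / Z1 : ONE constant on all components from the node comparisons

Level-free, abstract datum of `Geo/Top` (no field `topc`, no point forms).  If `f` has depth
`≥ top` on every component, and at every closed point `y` the constants of any two branches
through `y` are related modulo `p`-th powers and `1 + ϖ ^ top O` (`hrel`: at a node this is the
node lemma at the top depth; at a point on one component it is the comparison of two forms on
the same branch), then by the connectedness of the dual graph there is ONE constant `c` with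
depth `≥ top` and constant `c` on every component (`one_const_of_rel`).

`depthIn_of_constRel_one` : if moreover this constant is a `p`-th power times an element of
`1 + ϖ ^ top O` (e.g. from the leading coefficient at a cusp), the constant is `1` everywhere.
-/

set_option autoImplicit false
set_option linter.unusedSectionVars false
set_option linter.unusedVariables false

namespace Fermat.Agent.S33.Geo.TameConst

open Fermat.Agent.S33.Geo.Top

variable {O F : Type*} [CommRing O] [IsDomain O] [IsLocalRing O] [Field F] [Algebra O F]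
  {ι Y : Type*} {V : ι → Subring F} {On : Y → ι → Prop}

/-- **ONE constant from the pairwise comparisons at the closed points.** -/
theorem one_const_of_rel {p : ℕ} {ϖ : O} (hϖ : ¬ IsUnit ϖ)
    (hinj : Function.Injective (algebraMap O F))
    (constV : ∀ W (a : O), algebraMap O F a ∈ V W)
    (conn : ∀ W W' : ι, Relation.ReflTransGen (fun a b => ∃ y, On y a ∧ On y b) W W')
    (f : F) (top : ℕ) (htop : 1 ≤ top)
    (hrel : ∀ y W W', On y W → On y W' → ∀ c c' : O, c ≠ 0 → c' ≠ 0 →
      DepthIn (V W) p ϖ top f c → DepthIn (V W') p ϖ top f c' → ConstRel p ϖ top c' c)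
    (h : ∀ W, ∃ c : O, c ≠ 0 ∧ DepthIn (V W) p ϖ top f c) :
    ∃ c : O, c ≠ 0 ∧ ∀ W, DepthIn (V W) p ϖ top f c := by
  by_cases hne : Nonempty ι
  · obtain ⟨W₀⟩ := hne
    obtain ⟨c₀, hc₀, h₀⟩ := h W₀
    have key : ∀ W, Relation.ReflTransGen (fun a b => ∃ y, On y a ∧ On y b) W₀ W →
        DepthIn (V W) p ϖ top f c₀ := by
      intro W hW
      induction hW with
      | refl => exact h₀
      | @tail a b _ hab ih =>
        obtain ⟨y, hya, hyb⟩ := hab
        obtain ⟨cb, hcb, hb⟩ := h b
        exact DepthIn.of_constRel (constV b) hinj hϖ htop hb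
          (hrel y a b hya hyb c₀ cb hc₀ hcb ih hb)
    exact ⟨c₀, hc₀, fun W => key W (conn W₀ W)⟩
  · exact ⟨1, one_ne_zero, fun W => (hne ⟨W⟩).elim⟩

/-- A constant related to `1` (`ConstRel p ϖ top 1 c`, as produced by `constRel_one_of_eq` /
`constRel_one_of_mul_eq`) can be replaced by `1`. -/
theorem depthIn_of_constRel_one {p : ℕ} {ϖ : O} (hϖ : ¬ IsUnit ϖ)
    (hinj : Function.Injective (algebraMap O F))
    (constV : ∀ W (a : O), algebraMap O F a ∈ V W)
    (f : F) (top : ℕ) (htop : 1 ≤ top) (c : O) (hc1 : ConstRel p ϖ top 1 c)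
    (h : ∀ W, DepthIn (V W) p ϖ top f c) : ∀ W, DepthIn (V W) p ϖ top f 1 :=
  fun W => DepthIn.of_constRel (constV W) hinj hϖ htop (h W) (ConstRel.symm hϖ htop hc1)

/-- `c = d ^ p * (1 + ϖ ^ top * e)` gives the relation to `1` (integral `p`-th power). -/
theorem constRel_one_of_eq {p : ℕ} {ϖ : O} (top : ℕ) (c d e : O) (hd : d ≠ 0)
    (hc : c = d ^ p * (1 + ϖ ^ top * e)) : ConstRel p ϖ top 1 c :=
  ⟨e, 1, d, one_ne_zero, hd, by rw [hc]; ring⟩

/-- `c * d ^ p = 1 + ϖ ^ top * e` gives the relation to `1` (inverse `p`-th power). -/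
theorem constRel_one_of_mul_eq {p : ℕ} {ϖ : O} (top : ℕ) (c d e : O) (hd : d ≠ 0)
    (hc : c * d ^ p = 1 + ϖ ^ top * e) : ConstRel p ϖ top 1 c :=
  ⟨e, d, 1, hd, one_ne_zero, by rw [hc]; ring⟩

end Fermat.Agent.S33.Geo.TameConst
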