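import Mathlib
import Fermat.Agent.S33.Geo.TameDepth
import Fermat.Agent.S33.Geo.TameConst
import Fermat.Agent.S33.Geo.TameConstNe
import Fermat.Agent.S33.Geo.ZCusp

/-!
# S33 / GEO / row Z3c: the constant clause over `O₁ = O[ζ_p]` — constant ONE on every component

Level-free (Mathlib + `S33/Geo/{TameDepth, TameConst, TameConstNe, ZCusp}`), in the vocabulary
of `S33/Geo/TameModel`: `O` a discrete valuation ring with uniformiser `ϖ ∼ p`, `D` a model of
`F` over `O`; `O₁ = O[lam]`, `(1 + lam) ^ p = 1`, `F₁ = F(lam)`; the generic ring of the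
component `W` over `O₁` is `V W[lam] = TameModel.adj lam (V W)`, the local ring of the closed
point `y` is `R y[lam]`.

* `constRel_one_of_lc` : a point form of depth `p` at a point whose local ring is regular at the
  cusp of a `q`-expansion `σ₁` (`ZCusp.cuspRing`), of a function with leading coefficient `1`,
  has a constant related to `1` (`ZCusp.const_of_lc`, read in `O₁`).
* `depth_one_of_const` : ONE constant `c` on every component, a point form at the cusp point
  whose constant is related to `c`, leading coefficient `1`: constant `1` on every component.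
* `tame_depth_one` : **the exit of row Z3c.**  If `f ∈ F₁ˣ` is horizontal (`TameModel.HorVal`),
  has depth `≥ 1` along every `V W[lam]` and leading coefficient `1` at the cusp, then it has
  depth `≥ p` with the constant `1` along every `V W[lam]`: `TameDepth.tame_depth`, then
  `TameConstNe.one_const_of_rel_ne` with the comparison of the branch constants at the nodes
  (`hnode`), then the point form at the cusp point (`hpt`) and `constRel_one_of_lc`.

The two closed-point inputs `hnode` (a node: two distinct components through `y`) and `hpt`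
(the cusp point, a smooth point of the fibre) are hypotheses in model-level form.
-/

set_option autoImplicit false
set_option linter.unusedSectionVars false
set_option linter.unusedVariables false

open Polynomial IsLocalRing

namespace Fermat.Agent.S33.Geo.ZConst

open Fermat.Agent.S33.Geo.Top Fermat.Agent.S33.Geo.Model
open Fermat.Agent.S33.Geo.TameModel

universe u

section Cusp

variable {O₁ : Type*} [CommRing O₁] [IsDomain O₁] [IsLocalRing O₁]
  {K₁ : Type*} [Field K₁] [Algebra O₁ K₁] [IsFractionRing O₁ K₁]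
  {F₁ : Type*} [Field F₁] [Algebra O₁ F₁]

/-- **The constant of a point form at the cusp is related to `1`.**  `σ₁` a `q`-expansion of
`F₁` with coefficients in `K₁ = Frac O₁`; if `f` has leading coefficient `1` and a depth-`p`
form with the constant `cy` along a ring `Ry` contained in the cusp ring of `σ₁`, then `cy` is a
`p`-th power of `K₁` times an element of `1 + lam ^ p O₁`. -/
theorem constRel_one_of_lc (σ₁ : F₁ →+* LaurentSeries K₁)
    (hσO : ∀ a : O₁, σ₁ (algebraMap O₁ F₁ a) = HahnSeries.C (algebraMap O₁ K₁ a))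
    {lam : O₁} (hlam : ¬ IsUnit lam) {p : ℕ} (hp : p ≠ 0) {Ry : Subring F₁}
    (hcusp : ∀ a ∈ Ry, a ∈ ZCusp.cuspRing O₁ σ₁) {f : F₁} {cy : O₁}
    (hpt : DepthIn Ry p lam p f cy) (hlc : (σ₁ f).leadingCoeff = 1) :
    ConstRel p lam p 1 cy := by
  have hinj := IsFractionRing.injective O₁ K₁
  have hp1 : 1 ≤ p := Nat.one_le_iff_ne_zero.mpr hp
  have hunit : ∀ e : O₁, algebraMap O₁ K₁ (1 + lam ^ p * e) ≠ 0 := fun e =>
    (map_ne_zero_iff _ hinj).mpr (isUnit_one_add_pow_mul hlam hp1 e).ne_zero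
  obtain ⟨h, r, hr, hfe⟩ := hpt
  obtain ⟨d, e, hd, hde⟩ := ZCusp.const_of_lc σ₁ hσO lam p hp hunit f h r cy hfe (hcusp r hr) hlc
  obtain ⟨a, b, hb, rfl⟩ := IsFractionRing.div_surjective O₁ d
  have hb0 : b ≠ 0 := nonZeroDivisors.ne_zero hb
  have hbK : algebraMap O₁ K₁ b ≠ 0 := (map_ne_zero_iff _ hinj).mpr hb0
  have ha0 : a ≠ 0 := by
    rintro rfl
    exact hd (by simp)
  have hE : cy * a ^ p * (1 + lam ^ p * e) = b ^ p := by
    apply hinj
    rw [div_pow] at hde
    simp only [map_mul, map_pow]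
    field_simp at hde
    linear_combination hde
  obtain ⟨κ', hκ'⟩ := exists_inv_one_add hlam hp1 e
  exact ⟨κ', a, b, ha0, hb0, by linear_combination (1 + lam ^ p * κ') * hE - cy * a ^ p * hκ'⟩

variable {ι : Type*} {V₁ : ι → Subring F₁}

/-- **Constant ONE on every component.**  ONE constant `c` for the depth-`p` forms along all
the generic rings `V₁ W`; a point form at the cusp point (along `Ry` inside the cusp ring) with
a constant `cy` related to `c`; leading coefficient `1`: then the constant is `1` on every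
component. -/
theorem depth_one_of_const (σ₁ : F₁ →+* LaurentSeries K₁)
    (hσO : ∀ a : O₁, σ₁ (algebraMap O₁ F₁ a) = HahnSeries.C (algebraMap O₁ K₁ a))
    (hinj₁ : Function.Injective (algebraMap O₁ F₁))
    {lam : O₁} (hlam : ¬ IsUnit lam) {p : ℕ} (hp : p ≠ 0)
    (constV₁ : ∀ W (a : O₁), algebraMap O₁ F₁ a ∈ V₁ W) {Ry : Subring F₁}
    (hcusp : ∀ a ∈ Ry, a ∈ ZCusp.cuspRing O₁ σ₁) {f : F₁} {c cy : O₁}
    (h : ∀ W, DepthIn (V₁ W) p lam p f c) (hpt : DepthIn Ry p lam p f cy)
    (hrel : ConstRel p lam p cy c) (hlc : (σ₁ f).leadingCoeff = 1) :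
    ∀ W, DepthIn (V₁ W) p lam p f 1 :=
  TameConst.depthIn_of_constRel_one hlam hinj₁ constV₁ f p (Nat.one_le_iff_ne_zero.mpr hp) c
    ((constRel_one_of_lc σ₁ hσO hlam hp hcusp hpt hlc).trans hrel) h

end Cusp

/-! ### The exit of row Z3c -/

/-- **Row Z3c, exit: depth `p` with the constant `1` over `O₁ = O[ζ_p]` on a model over `O`.**
Binders of `TameDepth.tame_depth`; `σ₁` a `q`-expansion of `F₁` with coefficients in
`K₁ = Frac O₁`.  If `f ∈ F₁ˣ` is horizontal, has depth `≥ 1` along every `V W[lam]`, and leading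
coefficient `1`, then it has depth `≥ p` with the constant `1` along every `V W[lam]` — given
the comparison of the branch constants at the nodes (`hnode`) and the point form at ONE point
`yInf` of a component `Winf` whose local ring `R yInf[lam]` is regular at the cusp (`hcusp`,
`hpt`). -/
theorem tame_depth_one
    {O : Type*} [CommRing O] [IsDomain O] [IsDiscreteValuationRing O]
    {F : Type u} [Field F] [Algebra O F]
    {O₁ : Type*} [CommRing O₁] [IsDomain O₁] [IsDiscreteValuationRing O₁] [Algebra O O₁]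
    {F₁ : Type*} [Field F₁] [Algebra F F₁] [Algebra O₁ F₁]
    {p : ℕ} (hp : p.Prime) {ϖ : O} (hϖp : Associated ϖ (p : O))
    (hperf : ∀ a : O, ∃ b : O, ϖ ∣ a - b ^ p)
    {lam : O₁} (hlam : Irreducible lam) (hζ : (1 + lam) ^ p = 1)
    (hO₁ : ∀ a : O₁, ∃ P : O[X], a = P.eval₂ (algebraMap O O₁) lam)
    (hcomm : ∀ c : O, algebraMap F F₁ (algebraMap O F c) = algebraMap O₁ F₁ (algebraMap O O₁ c))
    (hinj₁ : Function.Injective (algebraMap O₁ F₁))
    (hgen : Algebra.adjoin F {algebraMap O₁ F₁ lam} = ⊤)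
    (hmin : ∀ G : F[X], aeval (algebraMap O₁ F₁ lam) G = 0 →
      (psi p).map (algebraMap ℤ F) ∣ G)
    {ι Y : Type*} {V : ι → Subring F} {R : Y → Subring F} {On : Y → ι → Prop} {Hor : F → Prop}
    (D : IsModel p ϖ V R On Hor)
    (f : F₁) (hf : f ≠ 0) (hHor : HorVal p lam f)
    (h1 : ∀ W, ∃ c : O₁, c ≠ 0 ∧ DepthIn (adj (algebraMap O₁ F₁ lam) (V W)) p lam 1 f c)
    {K₁ : Type*} [Field K₁] [Algebra O₁ K₁] [IsFractionRing O₁ K₁]
    (σ₁ : F₁ →+* LaurentSeries K₁)
    (hσO : ∀ a : O₁, σ₁ (algebraMap O₁ F₁ a) = HahnSeries.C (algebraMap O₁ K₁ a))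
    (hnode : ∀ y W W', W ≠ W' → On y W → On y W' → ∀ c c' : O₁, c ≠ 0 → c' ≠ 0 →
      DepthIn (adj (algebraMap O₁ F₁ lam) (V W)) p lam p f c →
      DepthIn (adj (algebraMap O₁ F₁ lam) (V W')) p lam p f c' → ConstRel p lam p c' c)
    (yInf : Y) (Winf : ι)
    (hcusp : ∀ a ∈ adj (algebraMap O₁ F₁ lam) (R yInf), a ∈ ZCusp.cuspRing O₁ σ₁)
    (hpt : ∀ c : O₁, c ≠ 0 → DepthIn (adj (algebraMap O₁ F₁ lam) (V Winf)) p lam p f c →
      ∃ cy : O₁, cy ≠ 0 ∧ DepthIn (adj (algebraMap O₁ F₁ lam) (R yInf)) p lam p f cy ∧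
        ConstRel p lam p cy c)
    (hlc : (σ₁ f).leadingCoeff = 1) :
    ∀ W, DepthIn (adj (algebraMap O₁ F₁ lam) (V W)) p lam p f 1 := by
  -- the constants of `O₁` lie in every `V W[lam]`
  have hO₁V : ∀ W (a : O₁), algebraMap O₁ F₁ a ∈ adj (algebraMap O₁ F₁ lam) (V W) := by
    intro W a
    obtain ⟨P, rfl⟩ := hO₁ a
    rw [Polynomial.hom_eval₂, eval₂_eq_sum_range]
    refine Subring.sum_mem _ fun i _ =>
      Subring.mul_mem _ ?_ (Subring.pow_mem _ (lam_mem_adj _ _) i)
    rw [RingHom.comp_apply, ← hcomm]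
    exact algebraMap_mem_adj _ _ (D.constV W _)
  -- depth `p` on every component
  have hD := TameDepth.tame_depth hp hϖp hperf hlam hζ hO₁ hcomm hinj₁ hgen hmin D f hf hHor h1
  -- ONE constant
  obtain ⟨c, hc, hDc⟩ := TameConstNe.one_const_of_rel_ne (p := p) (ϖ := lam)
    (V := fun W => adj (algebraMap O₁ F₁ lam) (V W)) (On := On) hlam.not_isUnit hinj₁ hO₁V
    D.conn f p hp.one_le hnode hD
  -- the cusp
  obtain ⟨cy, -, hDy, hrel⟩ := hpt c hc (hDc Winf)
  exact depth_one_of_const σ₁ hσO hinj₁ hlam.not_isUnit hp.ne_zero hO₁V hcusp hDc hDy hrel hlc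

end Fermat.Agent.S33.Geo.ZConst
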