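import Mathlib
import Fermat.Agent.S33.Geo.TameTopPt
import Fermat.Agent.S33.Geo.ZConst

/-!
# S33 / GEO / rows Z1 + Z3c: constant ONE on every component, the cusp read off the model

Level-free; fix-forward of `S33/Geo/TameTopPt` (exit `tame_depth_const_section`) and
`S33/Geo/ZConst` (`depth_one_of_const`).  Setting of `TameModel` / `TameDepth` / `TameTop`:
`D : Model.IsModel p ϖ V R On Hor` a model of `F` over `O`, `O₁ = O[lam]`, `F₁ = F(lam)`;
`σ₁` a `q`-expansion of `F₁` with coefficients in `K₁ = Frac O₁`.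

The exit `ZConstTop.tame_depth_one_top` takes the point form of depth `p` at the cusp point
`yInf` as a hypothesis `hpt` (a smooth block must be read off the construction of the model).
Here `hpt` is replaced by a property of the local ring `R yInf` of the ABSTRACT model: it
carries a section (a ring homomorphism to `O` which is the identity on constants) - then
`D.block yInf` cannot be a node (`TameTopPt.not_nodeBlock_of_section`), so it is a smooth
block, and the point form is `TameTopPt.tame_topc_smooth`.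

* `tame_depth_one_section` : **constant `1` at depth `p` on every `V W[lam]`**, for `f` with
  leading coefficient `1`, given a closed point `yInf` with `R yInf[lam]` in the cusp ring of
  `σ₁` and `R yInf` inside a ring `S` with a section `S →+* O`;
* `tame_depth_one_cusp` : the same with `S := ZCusp.cuspRing O σ` for a `q`-expansion `σ` of
  `F` over `O` (section `ZCusp.evHom`): the ONLY facts asked of the cusp point are
  `R yInf ⊆ cuspRing O σ` and `R yInf[lam] ⊆ cuspRing O₁ σ₁`.
-/

set_option autoImplicit false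
set_option linter.unusedSectionVars false
set_option linter.unusedVariables false

open Polynomial IsLocalRing

namespace Fermat.Agent.S33.Geo.TameTopCusp

open Fermat.Agent.S33.Geo.Top Fermat.Agent.S33.Geo.Model
open Fermat.Agent.S33.Geo.TameModel

universe u

variable {O : Type*} [CommRing O] [IsDomain O] [IsDiscreteValuationRing O]
  {F : Type u} [Field F] [Algebra O F]
  {O₁ : Type*} [CommRing O₁] [IsDomain O₁] [IsDiscreteValuationRing O₁] [Algebra O O₁]
  {F₁ : Type*} [Field F₁] [Algebra F F₁] [Algebra O₁ F₁]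
  {p : ℕ} {ϖ : O} {lam : O₁}
  {ι Y : Type*} {V : ι → Subring F} {R : Y → Subring F} {On : Y → ι → Prop} {Hor : F → Prop}
  {K₁ : Type*} [Field K₁] [Algebra O₁ K₁] [IsFractionRing O₁ K₁]

/-- **Rows Z1 + Z3c, exit: constant ONE, the cusp point given by a section.**  If `f ∈ F₁ˣ` is
horizontal (`TameModel.HorVal`), has depth `≥ 1` along every `V W[lam]` and leading coefficient
`1` in the expansion `σ₁`, then it has depth `≥ p` with the constant `1` along every `V W[lam]`
- given ONE closed point `yInf` of the model with `R yInf[lam]` in the cusp ring of `σ₁` and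
`R yInf` inside a ring `S` with a ring homomorphism `S → O` which is the identity on
constants. -/
theorem tame_depth_one_section (hp : p.Prime) (hϖ : Irreducible ϖ)
    (hϖp : Associated ϖ (p : O))
    (hperf : ∀ a : O, ∃ b : O, ϖ ∣ a - b ^ p)
    (hlam : Irreducible lam) (hζ : (1 + lam) ^ p = 1)
    (hO₁ : ∀ a : O₁, ∃ P : O[X], a = P.eval₂ (algebraMap O O₁) lam)
    (hcomm : ∀ c : O, algebraMap F F₁ (algebraMap O F c) = algebraMap O₁ F₁ (algebraMap O O₁ c))
    (hinj₁ : Function.Injective (algebraMap O₁ F₁))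
    (hgen : Algebra.adjoin F {algebraMap O₁ F₁ lam} = ⊤)
    (hmin : ∀ G : F[X], aeval (algebraMap O₁ F₁ lam) G = 0 →
      (psi p).map (algebraMap ℤ F) ∣ G)
    (D : IsModel p ϖ V R On Hor)
    (f : F₁) (hf : f ≠ 0) (hHor : HorVal p lam f)
    (h1 : ∀ W, ∃ c : O₁, c ≠ 0 ∧ DepthIn (adj (algebraMap O₁ F₁ lam) (V W)) p lam 1 f c)
    (σ₁ : F₁ →+* LaurentSeries K₁)
    (hσO : ∀ a : O₁, σ₁ (algebraMap O₁ F₁ a) = HahnSeries.C (algebraMap O₁ K₁ a))
    (yInf : Y)
    (hcusp : ∀ a ∈ adj (algebraMap O₁ F₁ lam) (R yInf), a ∈ ZCusp.cuspRing O₁ σ₁)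
    (S : Subring F) (hle : R yInf ≤ S) (ev : S →+* O)
    (hev : ∀ (a : O) (ha : algebraMap O F a ∈ S), ev ⟨algebraMap O F a, ha⟩ = a)
    (hlc : (σ₁ f).leadingCoeff = 1) :
    ∀ W, DepthIn (adj (algebraMap O₁ F₁ lam) (V W)) p lam p f 1 := by
  obtain ⟨c, hc, hall, hpt⟩ := TameTopPt.tame_depth_const_section hp hϖ hϖp hperf hlam hζ hO₁
    hcomm hinj₁ hgen hmin D f hf hHor h1
  exact ZConst.depth_one_of_const σ₁ hσO hinj₁ hlam.not_isUnit hp.ne_zero
    (fun W => TameTopPt.const_mem_adj hO₁ hcomm (V W) (D.constV W)) hcusp hall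
    (hpt yInf S hle ev hev) (ConstRel.refl p lam p c) hlc

/-- **Rows Z1 + Z3c, exit: constant ONE, the cusp point given by the cusp rings.**  As
`tame_depth_one_section`, with the section the value at the cusp of a `q`-expansion `σ` of `F`
over `O`: the closed point `yInf` of the model is only asked to have `R yInf` in the cusp ring
of `σ` and `R yInf[lam]` in the cusp ring of `σ₁`. -/
theorem tame_depth_one_cusp (hp : p.Prime) (hϖ : Irreducible ϖ)
    (hϖp : Associated ϖ (p : O))
    (hperf : ∀ a : O, ∃ b : O, ϖ ∣ a - b ^ p)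
    (hlam : Irreducible lam) (hζ : (1 + lam) ^ p = 1)
    (hO₁ : ∀ a : O₁, ∃ P : O[X], a = P.eval₂ (algebraMap O O₁) lam)
    (hcomm : ∀ c : O, algebraMap F F₁ (algebraMap O F c) = algebraMap O₁ F₁ (algebraMap O O₁ c))
    (hinj₁ : Function.Injective (algebraMap O₁ F₁))
    (hgen : Algebra.adjoin F {algebraMap O₁ F₁ lam} = ⊤)
    (hmin : ∀ G : F[X], aeval (algebraMap O₁ F₁ lam) G = 0 →
      (psi p).map (algebraMap ℤ F) ∣ G)
    (D : IsModel p ϖ V R On Hor)
    (f : F₁) (hf : f ≠ 0) (hHor : HorVal p lam f)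
    (h1 : ∀ W, ∃ c : O₁, c ≠ 0 ∧ DepthIn (adj (algebraMap O₁ F₁ lam) (V W)) p lam 1 f c)
    (σ₁ : F₁ →+* LaurentSeries K₁)
    (hσO : ∀ a : O₁, σ₁ (algebraMap O₁ F₁ a) = HahnSeries.C (algebraMap O₁ K₁ a))
    {K : Type*} [Field K] [Algebra O K] (σ : F →+* LaurentSeries K)
    (hσO₀ : ∀ a : O, σ (algebraMap O F a) = HahnSeries.C (algebraMap O K a))
    (hinjK : Function.Injective (algebraMap O K))
    (yInf : Y)
    (hR : ∀ a ∈ R yInf, a ∈ ZCusp.cuspRing O σ)
    (hcusp : ∀ a ∈ adj (algebraMap O₁ F₁ lam) (R yInf), a ∈ ZCusp.cuspRing O₁ σ₁)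
    (hlc : (σ₁ f).leadingCoeff = 1) :
    ∀ W, DepthIn (adj (algebraMap O₁ F₁ lam) (V W)) p lam p f 1 :=
  tame_depth_one_section hp hϖ hϖp hperf hlam hζ hO₁ hcomm hinj₁ hgen hmin D f hf hHor h1 σ₁ hσO
    yInf hcusp (ZCusp.cuspRing O σ) (fun a ha => hR a ha) (ZCusp.evHom σ hinjK)
    (fun a ha => ZCusp.evHom_algebraMap σ hσO₀ hinjK a) hlc

end Fermat.Agent.S33.Geo.TameTopCusp
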