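import Mathlib
import Fermat.Agent.S44.L.NZ.RootDesc
import Fermat.Agent.S34.HauptU.Plug
import Fermat.Agent.S36.InvFun
import Fermat.Agent.S33.Geo.Contract
import Fermat.Agent.S33.Geo.Top
import Fermat.Agent.S33.Geo.GaussRings

/-!
# S33, strand GEO, Stage B, the unit statement downstairs (row B4) from `NZ.RootDesc`

helper279.  `A` a valuation subring of `ℚ̄` over `p`, `E ⊆ ℚ̄` ANY intermediate field with
`O = OE A E` a discrete valuation ring, `ϖ` a uniformiser of `O`.

`S44/L/NZ/RootDesc.exists_gauss_pow_desc` transports a `ℚ̄`-level reduction which is a `p`-th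
power to the Gauss valuation of `LE N E` over EVERY such `E` (no finite set, no enlargement of
`E`).  Hence the unit statement of the geometric rows needs no auxiliary field:

* `redAt_one_of_oneUnit` : a one-unit reduces to `1`.
* `exists_redAt_mem_redSet` : every nonzero function of level `M` has a reduction in
  `redSet M A` (Gauss normal form).
* `exists_redAt_pow_of_trivAt` : a `1`-trivial function reduces to `g ^ p`, `g ∈ redSet M A`.
* `exists_gauss_pow_of_trivAt` : for `y : LE M E` with `upF y` `1`-trivial, `y = d · z` with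
  `d : E` a nonzero constant, `z` Gauss-integral, `red z = red g ^ p`, `g` a Gauss unit.
* `depth_inf_of_trivAt` : then `y = c · g ^ p · (1 + ϖ r)` with `c : O` nonzero and the
  `q`-expansion of `r` Gauss-integral (depth `≥ 1` on the component `∞`).
* `depth_zero_of_trivAt` : the same on the component `0` (through the swap `wE`).
* `hunit_VB` : **the exit** = the unit hypothesis of `FunI.funIE_of_model` at the two generic
  rings `GaussRings.VB`, for the chosen swap `ToricSwap.wAL`.
-/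

set_option autoImplicit false
set_option linter.unusedSectionVars false
set_option linter.unusedVariables false
set_option linter.style.haveILetI false
set_option synthInstance.maxHeartbeats 400000
set_option maxHeartbeats 1000000

open ModularCurve

noncomputable section

namespace Fermat.Agent.S33.Geo.UnitGauss

open Fermat.Agent.S18.K1Defs Fermat.Agent.S18.K1Main Fermat.Agent.S30 Fermat.Agent.S30.Producer
open Fermat.Agent.S34.HauptU.Plug Fermat.Agent.S34.Modular.SwapE
open Fermat.Agent.S44.Contract Fermat.Agent.S44.L.Top Fermat.Agent.S44.L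
open Fermat.Agent.S44.L.NZ
open Fermat.Agent.S33.Geo.Contract

local notation "Qb" => AlgebraicClosure ℚ

/-! ### Reductions of `1`-trivial functions -/

/-- A one-unit reduces to `1`. -/
theorem redAt_one_of_oneUnit {N : ℕ} {A : ValuationSubring Qb} {u : FN N}
    (hu : OneUnit N A u) : RedAt N A u 1 := by
  obtain ⟨U, V, hV, hUV, hu⟩ := hu
  refine ⟨1, U, V, one_ne_zero, ?_, hV, ?_, ?_⟩
  · rw [hUV]
    exact hV
  · rw [map_one, one_mul]
    exact hu
  · rw [one_mul]
    exact hUV.symm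

/-- **Every nonzero function of level `M` has a reduction in `redSet M A`** (the Gauss normal
form `k · Q = c · P` with `P`, `Q` integral series of level `M` of nonzero reduction). -/
theorem exists_redAt_mem_redSet (M p : ℕ) [Fact p.Prime] (A : ValuationSubring Qb)
    (hA : A.LiesOverPrime p) (k : FN M) (hk : k ≠ 0) :
    ∃ kb : LaurentSeries (IsLocalRing.ResidueField A), kb ∈ redSet M A ∧ RedAt M A k kb := by
  obtain ⟨d, P, Q, hPm, hQm, hd, hP, hQ, hgPQ⟩ := E4.hasGaussNorm M p A hA k hk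
  have hGQ : (k : LaurentSeries Qb) * Congr.incl A Q = HahnSeries.C d * Congr.incl A P := by
    have h1 : (k : LaurentSeries Qb) * Congr.incl A Q =
        algebraMap Qb (LaurentSeries Qb) d * Congr.incl A P := congrArg Subtype.val hgPQ
    rw [h1, algebraMap_laurentSeries_eq_single, HahnSeries.C_apply]
  exact ⟨Congr.red A P / Congr.red A Q, ⟨P, Q, hPm, hQm, hQ, div_mul_cancel₀ _ hQ⟩,
    d, P, Q, hd, hP, hQ, hGQ, div_mul_cancel₀ _ hQ⟩

/-- **A `1`-trivial function reduces to a `p`-th power** of an element of `redSet M A`. -/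
theorem exists_redAt_pow_of_trivAt (M p : ℕ) [Fact p.Prime] (A : ValuationSubring Qb)
    (hA : A.LiesOverPrime p) {x : FN M} (hx : TrivAt M A p 1 x) :
    ∃ g : LaurentSeries (IsLocalRing.ResidueField A), g ∈ redSet M A ∧ RedAt M A x (g ^ p) := by
  obtain ⟨c, G, u, hc, hG, hu, rfl⟩ := hx
  obtain ⟨gb, hgbS, hgb⟩ := exists_redAt_mem_redSet M p A hA G hG
  refine ⟨gb, hgbS, ?_⟩
  have h1 := TopLemmas.RedAt.mul (TopLemmas.RedAt.const_mul hc (TopLemmas.RedAt.pow hgb p))
    (redAt_one_of_oneUnit hu)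
  rw [mul_one] at h1
  rw [pow_one]
  exact h1

/-! ### The Gauss form over every base field -/

/-- **The Gauss form of a `1`-trivial function over EVERY base field.**  `E` any intermediate
field with `A ∩ E` a discrete valuation ring, `y : LE M E` with `upF y` `1`-trivial: then
`y = d · z` with `d : E` a nonzero constant, `z` Gauss-integral and `red z = red g ^ p` for a
Gauss unit `g : LE M E`. -/
theorem exists_gauss_pow_of_trivAt (M p : ℕ) [NeZero M] (hp : p.Prime)
    (A : ValuationSubring Qb) (hA : A.LiesOverPrime p) (E : IntermediateField ℚ Qb)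
    [IsDiscreteValuationRing (OE A E)] (y : LE M E)
    (ht : TrivAt M A p 1 (Fermat.Agent.S36.InvFun.upF M E y)) :
    ∃ (d : E) (z g : LE M E) (hz : (z : LaurentSeries E) ∈ GaussDVR.V (OE A E) E)
      (hg : (g : LaurentSeries E) ∈ GaussDVR.V (OE A E) E),
      d ≠ 0 ∧ y = algebraMap E (LE M E) d * z ∧
      GaussDVR.red (OE A E) E ⟨(g : LaurentSeries E), hg⟩ ≠ 0 ∧
      GaussDVR.red (OE A E) E ⟨(z : LaurentSeries E), hz⟩ =
        GaussDVR.red (OE A E) E ⟨(g : LaurentSeries E), hg⟩ ^ p := by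
  haveI : Fact p.Prime := ⟨hp⟩
  obtain ⟨gb, hgbS, hgb⟩ := exists_redAt_pow_of_trivAt M p A hA ht
  have hf : upE M E y = Fermat.Agent.S36.InvFun.upF M E y := Subtype.ext rfl
  exact RootDesc.exists_gauss_pow_desc M p hp A hA (Fermat.Agent.S36.InvFun.upF M E y) (gb ^ p)
    gb 1 hgb hgbS (by rw [map_one, one_mul]) E y hf

/-- **Depth `≥ 1` on the component `∞`.**  `E` any intermediate field with `A ∩ E` a discrete
valuation ring, `ϖ` a uniformiser, `y : LE M E` with `upF y` `1`-trivial: then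
`y = c · g ^ p · (1 + ϖ r)` with `c : A ∩ E` nonzero and the `q`-expansion of `r`
Gauss-integral. -/
theorem depth_inf_of_trivAt (M p : ℕ) [NeZero M] (hp : p.Prime) (A : ValuationSubring Qb)
    (hA : A.LiesOverPrime p) (E : IntermediateField ℚ Qb) [IsDiscreteValuationRing (OE A E)]
    (ϖ : OE A E) (hϖ : Irreducible ϖ) (y : LE M E)
    (ht : TrivAt M A p 1 (Fermat.Agent.S36.InvFun.upF M E y)) :
    ∃ (c : OE A E) (g r : LE M E), c ≠ 0 ∧
      sigmaHom M E r ∈ GaussDVR.V (OE A E) E ∧
      y = algebraMap E (LE M E) (algebraMap (OE A E) E c) * g ^ p *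
        (1 + algebraMap E (LE M E) (algebraMap (OE A E) E ϖ) * r) := by
  obtain ⟨d, z, g, hzV, hgV, hd0, hyz, hg0, hred⟩ :=
    exists_gauss_pow_of_trivAt M p hp A hA E y ht
  have hp1 : 1 ≤ p := hp.one_le
  -- `g ≠ 0`
  have hgco : (g : LaurentSeries E) ≠ 0 := by
    intro h0
    apply hg0
    have e : (⟨(g : LaurentSeries E), hgV⟩ : GaussDVR.V (OE A E) E) = 0 := Subtype.ext h0
    rw [e, map_zero]
  have hg0' : g ≠ 0 := by
    rintro rfl
    exact hgco rfl
  -- the uniformiser as a constant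
  have hϖ0 : algebraMap (OE A E) E ϖ ≠ 0 := by
    intro h0
    exact hϖ.ne_zero (FaithfulSMul.algebraMap_injective (OE A E) E (by rw [h0, map_zero]))
  have ha0 : algebraMap E (LE M E) (algebraMap (OE A E) E ϖ) ≠ 0 :=
    (_root_.map_ne_zero _).mpr hϖ0
  have hC0 : (HahnSeries.C (algebraMap (OE A E) E ϖ) : LaurentSeries E) ≠ 0 :=
    HahnSeries.C_ne_zero hϖ0
  have hσa : sigmaHom M E (algebraMap E (LE M E) (algebraMap (OE A E) E ϖ))
      = HahnSeries.C (algebraMap (OE A E) E ϖ) := by
    rw [Fermat.Agent.S18.Wiring.C_eq_algebraMap]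
    rfl
  -- `z / g ^ p` is a Gauss unit of reduction `1`
  have hinvV : (g : LaurentSeries E)⁻¹ ∈ GaussDVR.V (OE A E) E :=
    GaussDVR.inv_mem (OE A E) E ⟨(g : LaurentSeries E), hgV⟩ hg0
  have hGGi : (⟨(g : LaurentSeries E), hgV⟩ : GaussDVR.V (OE A E) E)
      * ⟨(g : LaurentSeries E)⁻¹, hinvV⟩ = 1 := Subtype.ext (mul_inv_cancel₀ hgco)
  have hrr : GaussDVR.red (OE A E) E ⟨(g : LaurentSeries E), hgV⟩ *
      GaussDVR.red (OE A E) E ⟨(g : LaurentSeries E)⁻¹, hinvV⟩ = 1 := by
    rw [← map_mul, hGGi, map_one]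
  have hT : GaussDVR.red (OE A E) E
      ((⟨(z : LaurentSeries E), hzV⟩ : GaussDVR.V (OE A E) E)
        * ⟨(g : LaurentSeries E)⁻¹, hinvV⟩ ^ p - 1) = 0 := by
    rw [map_sub, map_mul, map_pow, map_one, hred, ← mul_pow, hrr, one_pow, sub_self]
  obtain ⟨Y, hY⟩ := GaussDVR.ker' E ϖ hϖ _ hT
  have hY' : (z : LaurentSeries E) * (g : LaurentSeries E)⁻¹ ^ p - 1
      = HahnSeries.C (algebraMap (OE A E) E ϖ) * (Y : LaurentSeries E) := hY
  -- the element `r`
  obtain ⟨r, hr⟩ : ∃ r : LE M E, r = (z * g⁻¹ ^ p - 1)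
      * (algebraMap E (LE M E) (algebraMap (OE A E) E ϖ))⁻¹ := ⟨_, rfl⟩
  have hσr : sigmaHom M E r = (Y : LaurentSeries E) := by
    rw [hr, map_mul, map_sub, map_mul, map_pow, map_inv₀, map_inv₀, map_one, hσa]
    show ((z : LaurentSeries E) * (g : LaurentSeries E)⁻¹ ^ p - 1)
      * (HahnSeries.C (algebraMap (OE A E) E ϖ))⁻¹ = (Y : LaurentSeries E)
    rw [hY', mul_comm (HahnSeries.C (algebraMap (OE A E) E ϖ)), mul_assoc,
      mul_inv_cancel₀ hC0, mul_one]
  have hrV : sigmaHom M E r ∈ GaussDVR.V (OE A E) E := by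
    rw [hσr]
    exact Y.2
  have h1 : algebraMap E (LE M E) (algebraMap (OE A E) E ϖ) * r = z * g⁻¹ ^ p - 1 := by
    rw [hr, mul_comm, mul_assoc, inv_mul_cancel₀ ha0, mul_one]
  have hz : z = g ^ p * (1 + algebraMap E (LE M E) (algebraMap (OE A E) E ϖ) * r) := by
    rw [h1, add_sub_cancel, mul_comm z, ← mul_assoc, ← mul_pow, mul_inv_cancel₀ hg0', one_pow,
      one_mul]
  -- the constant
  rcases ValuationSubring.mem_or_inv_mem (OE A E) d with hd | hd
  · refine ⟨⟨d, hd⟩, g, r, ?_, hrV, ?_⟩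
    · intro h0
      exact hd0 (congrArg Subtype.val h0)
    · have e : algebraMap (OE A E) E ⟨d, hd⟩ = d := rfl
      rw [e, mul_assoc, ← hz]
      exact hyz
  · have hdi0 : (⟨d⁻¹, hd⟩ : OE A E) ≠ 0 := by
      intro h0
      exact inv_ne_zero hd0 (congrArg Subtype.val h0)
    refine ⟨⟨d⁻¹, hd⟩ ^ (p - 1), algebraMap E (LE M E) d * g, r, pow_ne_zero _ hdi0, hrV, ?_⟩
    have e : algebraMap (OE A E) E (⟨d⁻¹, hd⟩ ^ (p - 1)) = d⁻¹ ^ (p - 1) := by
      rw [map_pow]
      rfl
    have hdd : d⁻¹ ^ (p - 1) * d ^ p = d := by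
      have hpp : d ^ p = d ^ (p - 1) * d := by
        rw [← pow_succ, Nat.sub_add_cancel hp1]
      rw [hpp, ← mul_assoc, ← mul_pow, inv_mul_cancel₀ hd0, one_pow, one_mul]
    rw [e, mul_pow, ← map_pow, ← mul_assoc, ← map_mul, hdd, mul_assoc, ← hz]
    exact hyz

/-- **Depth `≥ 1` on the component `0`.**  The same for the swap: if the swap of `upF y` is
`1`-trivial, then `y = c · g ^ p · (1 + ϖ r)` with `c : A ∩ E` nonzero and the `q`-expansion of
`w r` Gauss-integral. -/
theorem depth_zero_of_trivAt (M p : ℕ) [NeZero M] [NeZero p] (hp : p.Prime) (hpM : ¬ p ∣ M)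
    (A : ValuationSubring Qb) (hA : A.LiesOverPrime p) (E : IntermediateField ℚ Qb)
    [IsDiscreteValuationRing (OE A E)] (ϖ : OE A E) (hϖ : Irreducible ϖ) (y : LE (M * p) E)
    (ht : TrivAt (M * p) A p 1 (Fermat.Agent.S34.ToricSwap.wAL M p hp hpM
      (Fermat.Agent.S36.InvFun.upF (M * p) E y))) :
    ∃ (c : OE A E) (g r : LE (M * p) E), c ≠ 0 ∧
      sigmaHom (M * p) E (wHom M p E hp hpM r) ∈ GaussDVR.V (OE A E) E ∧
      y = algebraMap E (LE (M * p) E) (algebraMap (OE A E) E c) * g ^ p *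
        (1 + algebraMap E (LE (M * p) E) (algebraMap (OE A E) E ϖ) * r) := by
  have hup : Fermat.Agent.S36.InvFun.upF (M * p) E (wE M p E hp hpM y)
      = Fermat.Agent.S34.ToricSwap.wAL M p hp hpM
        (Fermat.Agent.S36.InvFun.upF (M * p) E y) := upE_wE M p E hp hpM y
  rw [← hup] at ht
  obtain ⟨c, g0, r0, hc, hr0, hy0⟩ :=
    depth_inf_of_trivAt (M * p) p hp A hA E ϖ hϖ (wE M p E hp hpM y) ht
  refine ⟨c, wE M p E hp hpM g0, wE M p E hp hpM r0, hc, ?_, ?_⟩
  · show sigmaHom (M * p) E (wE M p E hp hpM (wE M p E hp hpM r0)) ∈ GaussDVR.V (OE A E) E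
    rw [wE_wE]
    exact hr0
  · have h : wE M p E hp hpM (wE M p E hp hpM y) = wE M p E hp hpM
        (algebraMap E (LE (M * p) E) (algebraMap (OE A E) E c) * g0 ^ p *
          (1 + algebraMap E (LE (M * p) E) (algebraMap (OE A E) E ϖ) * r0)) :=
      congrArg (wE M p E hp hpM) hy0
    rw [wE_wE, map_mul, map_mul, map_pow, map_add, map_one, map_mul, AlgEquiv.commutes,
      AlgEquiv.commutes] at h
    exact h

/-! ### The exit: the unit hypothesis of `FunI.funIE_of_model` -/

/-- **The unit statement at the two generic rings of the level-`M p` model** (row B4), over ANY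
base field `K` with `A ∩ K` a discrete valuation ring and ANY uniformiser `ϖ`: a function
`y : LE (M p) K` which is `1`-trivial at the Gauss valuation together with its swap has depth
`≥ 1` along `V∞` and along `V0`, with constants in `A ∩ K`. -/
theorem hunit_VB (A : ValuationSubring Qb) (M p : ℕ) [NeZero M] [NeZero p] (hp : p.Prime)
    (hpM : ¬ p ∣ M) (hA : A.LiesOverPrime p) (K : IntermediateField ℚ Qb)
    [IsDiscreteValuationRing (OE A K)] (ϖ : OE A K) (hϖ : Irreducible ϖ) :
    letI := algebraOL (OE A K) K (LE (M * p) K)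
    ∀ y : LE (M * p) K,
      TrivAt (M * p) A p 1 (Fermat.Agent.S36.InvFun.upF (M * p) K y) →
      TrivAt (M * p) A p 1 (Fermat.Agent.S34.ToricSwap.wAL M p hp hpM
        (Fermat.Agent.S36.InvFun.upF (M * p) K y)) →
      ∀ W : Bool, ∃ c : OE A K, c ≠ 0 ∧
        Fermat.Agent.S33.Geo.Top.DepthIn
          (Fermat.Agent.S33.Geo.GaussRings.VB M p K (OE A K) hp hpM W) p ϖ 1 y c := by
  letI := algebraOL (OE A K) K (LE (M * p) K)
  haveI := isScalarTower_OL (OE A K) K (LE (M * p) K)
  intro y ht htw W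
  cases W with
  | true =>
    obtain ⟨c, g, r, hc, hr, hy⟩ := depth_inf_of_trivAt (M * p) p hp A hA K ϖ hϖ y ht
    refine ⟨c, hc, g, r, hr, ?_⟩
    rw [pow_one, IsScalarTower.algebraMap_apply (OE A K) K (LE (M * p) K) c,
      IsScalarTower.algebraMap_apply (OE A K) K (LE (M * p) K) ϖ]
    exact hy
  | false =>
    obtain ⟨c, g, r, hc, hr, hy⟩ := depth_zero_of_trivAt M p hp hpM A hA K ϖ hϖ y htw
    refine ⟨c, hc, g, r, hr, ?_⟩
    rw [pow_one, IsScalarTower.algebraMap_apply (OE A K) K (LE (M * p) K) c,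
      IsScalarTower.algebraMap_apply (OE A K) K (LE (M * p) K) ϖ]
    exact hy

end Fermat.Agent.S33.Geo.UnitGauss
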