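import Mathlib
import Fermat.Agent.S36.HorizAdapter

/-!
# S33, Stage B, Z3 leaf (Z3h): the horizontal hypothesis in valuation form from the two charts

`O` a discrete valuation ring, `L` a field over `O` (the function field), `t ∈ L` a coordinate.
`S36.HorizAdapter.Horiz π m t k` says: at every prime `Q` of the chart ring
`Chart O t = integralClosure O[t] L` not containing `π`, `k` is an `m`-th power times a unit.

* `exists_unit_mul_pow_of_horiz` : one chart: for a valuation subring `𝒱 ⊇ O[t]` of `L` in which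
                                   `π` is invertible, `k = e * h ^ m` with `e` a unit of `𝒱`;
* `horVal_of_horiz`              : both charts `t`, `t⁻¹`: the same for EVERY valuation subring
                                   `𝒱 ⊇ O` of `L` with `π⁻¹ ∈ 𝒱` (the global valuation form `HorVal`
                                   of the tame model row Z1).

With the landed `S44/L/Alt/DescHoriz.horiz_desc` at `(Ks, πs) = (K(ζ_p), ζ_p - 1)` this gives the
horizontal hypothesis of Z1 from `E4.DivBy`.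
-/

set_option autoImplicit false
set_option linter.unusedSectionVars false

namespace Fermat.Agent.S33.Geo.HorValSupply

open Fermat.Agent.S36.HorizAdapter Fermat.Agent.S34.Nodal

/-- The inverse of a unit of a valuation subring lies in it. -/
theorem inv_mem_of_isUnit {L : Type*} [Field L] (𝒱 : ValuationSubring L) {x : 𝒱}
    (hx : IsUnit x) : (x : L)⁻¹ ∈ 𝒱 := by
  obtain ⟨u, rfl⟩ := hx
  have h : ((u : 𝒱) : L) * ((↑u⁻¹ : 𝒱) : L) = 1 := by
    have h' := congrArg (fun z : 𝒱 => (z : L)) u.mul_inv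
    exact h'
  have e := eq_inv_of_mul_eq_one_right h
  rw [← e]
  exact (↑u⁻¹ : 𝒱).2

variable {O L : Type*} [CommRing O] [IsDomain O] [IsDiscreteValuationRing O]
  [Field L] [Algebra O L]

/-- **One chart.**  If `k` satisfies the horizontal hypothesis on the chart of `t`, then in every
valuation subring `𝒱` of `L` containing `O` and `t` in which `π` is invertible, `k` is a unit
times an `m`-th power. -/
theorem exists_unit_mul_pow_of_horiz (π : O) (hπ0 : algebraMap O L π ≠ 0) (m : ℕ) (t k : L)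
    (hH : Horiz π m t k) (𝒱 : ValuationSubring L) (hO : ∀ a : O, algebraMap O L a ∈ 𝒱)
    (hπ : (algebraMap O L π)⁻¹ ∈ 𝒱) (ht : t ∈ 𝒱) :
    ∃ h e : L, e ∈ 𝒱 ∧ e⁻¹ ∈ 𝒱 ∧ k = e * h ^ m := by
  -- `O[t] ⊆ 𝒱`
  let S : Subalgebra O L := { 𝒱.toSubring with algebraMap_mem' := hO }
  have hadj : Algebra.adjoin O ({t} : Set L) ≤ S :=
    Algebra.adjoin_le (Set.singleton_subset_iff.mpr ht)
  let f : Algebra.adjoin O ({t} : Set L) →+* 𝒱 :=
    { toFun := fun x => ⟨(x : L), hadj x.2⟩
      map_one' := rfl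
      map_mul' := fun _ _ => rfl
      map_zero' := rfl
      map_add' := fun _ _ => rfl }
  have hcomp : (algebraMap 𝒱 L).comp f = algebraMap (Algebra.adjoin O ({t} : Set L)) L :=
    RingHom.ext fun _ => rfl
  -- the chart ring lies in `𝒱`
  have hmem : ∀ c : Chart O t, (c : L) ∈ 𝒱 := by
    intro c
    obtain ⟨P, hPm, hP⟩ := c.2
    have h1 : IsIntegral 𝒱 (c : L) := by
      refine ⟨P.map f, hPm.map f, ?_⟩
      rw [Polynomial.eval₂_map, hcomp]
      exact hP
    obtain ⟨y, hy⟩ := IsIntegrallyClosed.algebraMap_eq_of_integral h1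
    rw [← hy]
    exact y.2
  let φ : Chart O t →+* 𝒱 :=
    { toFun := fun c => ⟨(c : L), hmem c⟩
      map_one' := rfl
      map_mul' := fun _ _ => rfl
      map_zero' := rfl
      map_add' := fun _ _ => rfl }
  let Q : Ideal (Chart O t) := (IsLocalRing.maximalIdeal 𝒱).comap φ
  have hQ : Q.IsPrime := Ideal.comap_isPrime φ _
  have hunit : ∀ c : Chart O t, c ∉ Q → ((c : L))⁻¹ ∈ 𝒱 := by
    intro c hc
    have h1 : φ c ∉ IsLocalRing.maximalIdeal 𝒱 := hc
    have h2 : IsUnit (φ c) := IsLocalRing.notMem_maximalIdeal.mp h1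
    exact inv_mem_of_isUnit 𝒱 h2
  have hπQ : algebraMap O (Chart O t) π ∉ Q := by
    intro hmemQ
    have h1 : φ (algebraMap O (Chart O t) π) ∈ IsLocalRing.maximalIdeal 𝒱 := hmemQ
    have h2 : ((φ (algebraMap O (Chart O t) π) : 𝒱) : L) = algebraMap O L π := rfl
    have h3 : IsUnit (φ (algebraMap O (Chart O t) π)) := by
      refine IsUnit.of_mul_eq_one (⟨(algebraMap O L π)⁻¹, hπ⟩ : 𝒱) (Subtype.ext ?_)
      show ((φ (algebraMap O (Chart O t) π) : 𝒱) : L) * (algebraMap O L π)⁻¹ = 1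
      rw [h2, mul_inv_cancel₀ hπ0]
    exact (IsLocalRing.mem_maximalIdeal _).mp h1 h3
  obtain ⟨τ, s, b, -, hs, hb, hk⟩ := hH Q hQ hπQ
  have hk' : k * (s : L) = τ ^ m * (b : L) := hk
  have hs0 : (s : L) ≠ 0 := by
    intro h0
    apply hs
    have h1 : φ s = 0 := Subtype.ext h0
    show φ s ∈ IsLocalRing.maximalIdeal 𝒱
    rw [h1]
    exact Ideal.zero_mem _
  have hb0 : (b : L) ≠ 0 := by
    intro h0
    apply hb
    have h1 : φ b = 0 := Subtype.ext h0
    show φ b ∈ IsLocalRing.maximalIdeal 𝒱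
    rw [h1]
    exact Ideal.zero_mem _
  refine ⟨τ, (b : L) * ((s : L))⁻¹, 𝒱.mul_mem _ _ (hmem b) (hunit s hs), ?_, ?_⟩
  · rw [mul_inv, inv_inv, mul_comm]
    exact 𝒱.mul_mem _ _ (hmem s) (hunit b hb)
  · have h1 : k = τ ^ m * (b : L) * ((s : L))⁻¹ := by
      rw [← hk', mul_assoc, mul_inv_cancel₀ hs0, mul_one]
    rw [h1]
    ring

/-- **Both charts: the global valuation form.**  If `k` satisfies the horizontal hypothesis on the
charts of `t` and of `t⁻¹`, then in EVERY valuation subring `𝒱` of `L` containing `O` in which `π`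
is invertible, `k` is a unit times an `m`-th power. -/
theorem horVal_of_horiz (π : O) (hπ0 : algebraMap O L π ≠ 0) (m : ℕ) (t k : L)
    (h1 : Horiz π m t k) (h2 : Horiz π m t⁻¹ k) :
    ∀ 𝒱 : ValuationSubring L, (∀ a : O, algebraMap O L a ∈ 𝒱) → (algebraMap O L π)⁻¹ ∈ 𝒱 →
      ∃ h e : L, e ∈ 𝒱 ∧ e⁻¹ ∈ 𝒱 ∧ k = e * h ^ m := by
  intro 𝒱 hO hπ
  rcases 𝒱.mem_or_inv_mem t with ht | ht
  · exact exists_unit_mul_pow_of_horiz π hπ0 m t k h1 𝒱 hO hπ ht
  · exact exists_unit_mul_pow_of_horiz π hπ0 m t⁻¹ k h2 𝒱 hO hπ ht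

end Fermat.Agent.S33.Geo.HorValSupply
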