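import Mathlib
import Fermat.Agent.S44.L.Alt.DescHoriz
import Fermat.Agent.S33.Geo.HorValSupply
import Fermat.Agent.S33.Geo.TameModel

/-!
# S33, Stage B, Z3 leaf (ZHorInst): the horizontal hypothesis `HorVal` from `E4.DivBy`

`M` a level with `4 ∣ M`, `p` a prime, `p ∤ M`, `E ⊆ ℚ̄` ANY intermediate field whose valuation
ring `OE A E` is a discrete valuation ring, `π` a uniformiser of `OE A E`
(in the application `E = K(ζ_p)`, `π = ζ_p - 1`).

* `horVal_of_divBy` : a nonzero `y ∈ LE (M p) E` whose divisor (after extension of constants to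
  `ℚ̄`) is divisible by `p` satisfies `TameModel.HorVal p π y`: in every valuation subring of
  `LE (M p) E` containing `OE A E` in which `π` is invertible, `y` is a unit times a `p`-th power.
* `horVal_wHom_of_divBy` : the same for the swap `w y`.

Proof: `S44/L/Alt/DescHoriz.horiz_desc` gives `HorizAdapter.Horiz π p t y` on the two charts
`t = α u₄`, `t = (α u₄)⁻¹`, and `HorValSupply.horVal_of_horiz` turns the two charts into the
global valuation form.
-/

set_option autoImplicit false
set_option linter.unusedSectionVars false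
set_option linter.style.haveILetI false
set_option synthInstance.maxHeartbeats 400000
set_option maxHeartbeats 1000000

open ModularCurve

noncomputable section

namespace Fermat.Agent.S33.Geo.ZHorInst

open Fermat.Agent.S18.K1Defs Fermat.Agent.S18.K1Main Fermat.Agent.S30 Fermat.Agent.S30.E4
open Fermat.Agent.S34.TwoPrimesRank Fermat.Agent.S34.HauptU.Plug
open Fermat.Agent.S36.Haupt4 Fermat.Agent.S36.HorizAdapter
open Fermat.Agent.S36 Fermat.Agent.S44.L.Alt Fermat.Agent.S33.Geo

local notation "Qb" => AlgebraicClosure ℚ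

/-- A uniformiser of `OE A E` is nonzero as a constant of the function field. -/
theorem algebraMap_unif_ne_zero (N : ℕ) (A : ValuationSubring Qb) (E : IntermediateField ℚ Qb)
    [IsDiscreteValuationRing (OE A E)] (π : OE A E) (hπ : Irreducible π) :
    letI := algebraOL (OE A E) E (LE N E)
    algebraMap (OE A E) (LE N E) π ≠ 0 := by
  letI := algebraOL (OE A E) E (LE N E)
  have hπ0 : algebraMap (OE A E) E π ≠ 0 := by
    intro h0
    exact hπ.ne_zero (FaithfulSMul.algebraMap_injective (OE A E) E (by rw [h0, map_zero]))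
  exact (_root_.map_ne_zero (algebraMap E (LE N E))).mpr hπ0

/-- **Z3 leaf (ZHorInst).**  `p ∣ div (upF y)` gives the horizontal hypothesis of the tame model
row in global valuation form, over any `E` with `OE A E` a discrete valuation ring and for any
uniformiser `π`. -/
theorem horVal_of_divBy (M p : ℕ) [NeZero M] [NeZero p] (A : ValuationSubring Qb)
    (E : IntermediateField ℚ Qb) [IsDiscreteValuationRing (OE A E)] (hp : p.Prime)
    (hpM : ¬ p ∣ M) (h4 : 4 ∣ M) (π : OE A E) (hπ : Irreducible π) (y : LE (M * p) E)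
    (hy : y ≠ 0) (hdiv : E4.DivBy (M * p) p (InvFun.upF (M * p) E y)) :
    letI := algebraOL (OE A E) E (LE (M * p) E)
    TameModel.HorVal p π y := by
  letI := algebraOL (OE A E) E (LE (M * p) E)
  obtain ⟨h1, h2, -, -⟩ := DescHoriz.horiz_desc M p A E hp hpM h4 π hπ p y hy hdiv
  exact HorValSupply.horVal_of_horiz π (algebraMap_unif_ne_zero (M * p) A E π hπ) p
    (alphaHom M p E (u4E M E h4)) y h1 h2

/-- The same for the swap `w y`. -/
theorem horVal_wHom_of_divBy (M p : ℕ) [NeZero M] [NeZero p] (A : ValuationSubring Qb)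
    (E : IntermediateField ℚ Qb) [IsDiscreteValuationRing (OE A E)] (hp : p.Prime)
    (hpM : ¬ p ∣ M) (h4 : 4 ∣ M) (π : OE A E) (hπ : Irreducible π) (y : LE (M * p) E)
    (hy : y ≠ 0) (hdiv : E4.DivBy (M * p) p (InvFun.upF (M * p) E y)) :
    letI := algebraOL (OE A E) E (LE (M * p) E)
    TameModel.HorVal p π (wHom M p E hp hpM y) := by
  letI := algebraOL (OE A E) E (LE (M * p) E)
  obtain ⟨-, -, h3, h4'⟩ := DescHoriz.horiz_desc M p A E hp hpM h4 π hπ p y hy hdiv
  exact HorValSupply.horVal_of_horiz π (algebraMap_unif_ne_zero (M * p) A E π hπ) p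
    (alphaHom M p E (u4E M E h4)) (wHom M p E hp hpM y) h3 h4'

end Fermat.Agent.S33.Geo.ZHorInst
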