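import Mathlib
import Fermat.Agent.S33.Geo.CycloLE
import Fermat.Agent.S33.Geo.UnitGauss
import Fermat.Agent.S33.Geo.ZHorInst
import Fermat.Agent.S33.Geo.ZCuspInst
import Fermat.Agent.S33.Geo.TameTopCusp
import Fermat.Agent.S44.L.CycloPerf

/-!
# S33 / GEO / Stage B, row Z3: the depth-`p` exit over `K₁ = K(ζ_p)` (E-level assembly)

`A` a valuation subring of `Qb = AlgebraicClosure ℚ` over the prime `p`, `K ⊆ Qb` a number field
inside the inertia field of `A`, `ζ` a primitive `p`-th root of unity, `K₁ = cyclo K ζ`,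
`O = OE A K`, `O₁ = OE A K₁`, `λ = ζ - 1 = CycloBase.lam`, levels `(M, M p)`, `4 ∣ M`, `p ∤ M`,
`F = LE (M p) K`, `F₁ = LE (M p) K₁`, `U = α u₄`.

Input: ANY model of `F` over `O` on the two Gauss rings `GaussRings.VB` whose points cover the
two charts of `U` in the cusp form (`Model.IsModel` + `Model.CoversCusp`: the output shape of
row B3, e.g. `⟨ChartPoints.Pt, ptR, ptOn, (isModelI_u4 ..).isModel, coversCusp_pt⟩`).

* `exists_cusp_of_coversCusp` : such a model has a closed point whose local ring consists of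
  functions regular at the cusp `∞` with value in `O` (the cusp point of `ZCusp`);
* `zdepth_adj` : **the exit of row Z3.**  A nonzero `y ∈ F₁` with leading coefficient `1`,
  divisor divisible by `p` (`E4.DivBy`), and `1`-trivial at the Gauss valuation together with
  its swap (`TrivAt`), has `p`-th-power depth `≥ p` with respect to `λ`, WITH THE CONSTANT `1`,
  along `V∞[λ]` and `V0[λ]` (`TameModel.adj`): `y = g ^ p * (1 + λ ^ p r)`, `r ∈ V W[λ]`;
* `zdepth_gauss` : the same read on the Gauss rings of `F₁` (`GaussRings.VB` over `K₁`);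
* `zdepth_exit` : the two components spelled out (`VInf`, `VZero` over `K₁`).

Chain: `UnitGauss.hunit_VB` at `(K₁, λ)` (depth `1`) → `CycloLE.adj_VB` → `ZHorInst` (horizontal
hypothesis from `DivBy`) → `TameTopCusp.tame_depth_one_cusp` (depth `p`, constant `1`, fed by
the binders of `CycloLE` and the cusp point) → `CycloLE.adj_VB`.
-/

set_option autoImplicit false
set_option linter.unusedSectionVars false
set_option linter.unusedVariables false
set_option linter.style.haveILetI false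
set_option synthInstance.maxHeartbeats 400000
set_option maxHeartbeats 1000000

open ModularCurve Polynomial

noncomputable section

namespace Fermat.Agent.S33.Geo.ZDepthInst

open Fermat.Agent.S18.K1Defs Fermat.Agent.S18.K1Main Fermat.Agent.S30
open Fermat.Agent.S34.TwoPrimesRank Fermat.Agent.S34.HauptU.Plug Fermat.Agent.S36.Haupt4
open Fermat.Agent.S36.CycloBase Fermat.Agent.S36.UnramBase Fermat.Agent.S36.InvFun
open Fermat.Agent.S33.Geo.Contract Fermat.Agent.S33.Geo.GaussRings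
open Fermat.Agent.S33.Geo.CoverFieldDefs Fermat.Agent.S33.Geo.CycloLE

local notation "Qb" => AlgebraicClosure ℚ

/-! ### The cusp point of a model covering the charts -/

section Cusp

variable (A : ValuationSubring Qb) (M p : ℕ) [NeZero M] [NeZero p] (h4 : 4 ∣ M)
  (K : IntermediateField ℚ Qb) [IsDiscreteValuationRing (OE A K)]

/-- **The cusp point of a model covering the charts of `U = α u₄`**: a closed point whose local
ring consists of functions regular at the cusp `∞` with value in `O`. -/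
theorem exists_cusp_of_coversCusp (π : OE A K) (hπ : ¬ IsUnit π) {Y : Type*}
    (R : Y → Subring (LE (M * p) K))
    (hcov : letI := algebraOL (OE A K) K (LE (M * p) K)
      Fermat.Agent.S33.Geo.Model.CoversCusp π (alphaHom M p K (u4E M K h4)) R) :
    letI := algebraOL (OE A K) K (LE (M * p) K)
    ∃ yInf : Y, ∀ a : LE (M * p) K, a ∈ R yInf →
      a ∈ Fermat.Agent.S33.Geo.ZCusp.cuspRing (OE A K) (sigmaHom (M * p) K) := by
  letI := algebraOL (OE A K) K (LE (M * p) K)
  haveI := isScalarTower_OL (OE A K) K (LE (M * p) K)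
  have hs := Fermat.Agent.S33.Geo.ZCuspInst.s4_mem_cuspRing (O := OE A K) M p K h4
  have hs0 := Fermat.Agent.S33.Geo.ZCuspInst.coeff_zero_s4 M p K h4
  have hmem : (alphaHom M p K (u4E M K h4))⁻¹ ∈
      Algebra.adjoin (OE A K) ({(alphaHom M p K (u4E M K h4))⁻¹} : Set (LE (M * p) K)) :=
    Algebra.subset_adjoin (Set.mem_singleton _)
  have hint' : (alphaHom M p K (u4E M K h4))⁻¹ ∈ integralClosure
      (Algebra.adjoin (OE A K) ({(alphaHom M p K (u4E M K h4))⁻¹} : Set (LE (M * p) K)))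
      (LE (M * p) K) :=
    (integralClosure _ _).algebraMap_mem
      (⟨_, hmem⟩ : Algebra.adjoin (OE A K)
        ({(alphaHom M p K (u4E M K h4))⁻¹} : Set (LE (M * p) K)))
  obtain ⟨yInf, hyInf⟩ := hcov.2
    (Fermat.Agent.S33.Geo.ZCusp.cuspIdeal (sigmaHom (M * p) K) (sigmaHom_algebraMap (M * p) K)
      (Fermat.Agent.S33.Geo.ZCuspInst.hinj_dvr K) (Fermat.Agent.S33.Geo.ZCuspInst.hint_dvr K)
      (alphaHom M p K (u4E M K h4))⁻¹ hs)
    (Fermat.Agent.S33.Geo.ZCusp.cuspIdeal_isMaximal (sigmaHom (M * p) K)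
      (sigmaHom_algebraMap (M * p) K) (Fermat.Agent.S33.Geo.ZCuspInst.hinj_dvr K)
      (Fermat.Agent.S33.Geo.ZCuspInst.hint_dvr K) (alphaHom M p K (u4E M K h4))⁻¹ hs)
    (Fermat.Agent.S33.Geo.ZCusp.unif_mem_cuspIdeal (sigmaHom (M * p) K)
      (sigmaHom_algebraMap (M * p) K) (Fermat.Agent.S33.Geo.ZCuspInst.hinj_dvr K)
      (Fermat.Agent.S33.Geo.ZCuspInst.hint_dvr K) (alphaHom M p K (u4E M K h4))⁻¹ hs π hπ _ rfl)
    ⟨⟨(alphaHom M p K (u4E M K h4))⁻¹, hint'⟩, rfl,
      Fermat.Agent.S33.Geo.ZCusp.coord_mem_cuspIdeal (sigmaHom (M * p) K)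
        (sigmaHom_algebraMap (M * p) K) (Fermat.Agent.S33.Geo.ZCuspInst.hinj_dvr K)
        (Fermat.Agent.S33.Geo.ZCuspInst.hint_dvr K) (alphaHom M p K (u4E M K h4))⁻¹ hs hs0 _ rfl⟩
  refine ⟨yInf, fun a ha => ?_⟩
  rw [hyInf] at ha
  exact Fermat.Agent.S33.Geo.ZCusp.mem_cuspRing_of_frac (sigmaHom (M * p) K)
    (sigmaHom_algebraMap (M * p) K) (Fermat.Agent.S33.Geo.ZCuspInst.hinj_dvr K)
    (Fermat.Agent.S33.Geo.ZCuspInst.hint_dvr K) (alphaHom M p K (u4E M K h4))⁻¹ hs a ha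

end Cusp

/-! ### The exit -/

section Main

variable (A : ValuationSubring Qb) (M p : ℕ) [NeZero M] [NeZero p]
  (hp : p.Prime) (hpM : ¬ p ∣ M) (h4 : 4 ∣ M) (hA : A.LiesOverPrime p)
  (K : IntermediateField ℚ Qb) [FiniteDimensional ℚ K]
  (hK : A.inertiaSubgroupIn ℚ ≤ K.fixingSubgroup) [IsDiscreteValuationRing (OE A K)]
  {ζ : Qb} (hζ : IsPrimitiveRoot ζ p) [IsDiscreteValuationRing (OE A (cyclo K ζ))]

include hA hK in
/-- **Row Z3, the exit on `V W[λ]`.**  Over `K₁ = K(ζ_p)`: a nonzero `y ∈ LE (M p) K₁` with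
leading coefficient `1`, divisor divisible by `p`, `1`-trivial at the Gauss valuation together
with its swap, has depth `≥ p` with respect to `λ = ζ_p - 1` with the constant `1` along the
two rings `V W[λ]`, `V W` the Gauss rings of `LE (M p) K` - for ANY model of `LE (M p) K` over
`O = A ∩ K` on these rings covering the charts of `α u₄` in the cusp form. -/
theorem zdepth_adj {Y : Type*} (R : Y → Subring (LE (M * p) K)) (On : Y → Bool → Prop)
    (Hor : LE (M * p) K → Prop)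
    (D : letI := algebraOL (OE A K) K (LE (M * p) K)
      Fermat.Agent.S33.Geo.Model.IsModel p ((p : ℕ) : OE A K) (VB M p K (OE A K) hp hpM) R On
        Hor)
    (hcov : letI := algebraOL (OE A K) K (LE (M * p) K)
      Fermat.Agent.S33.Geo.Model.CoversCusp ((p : ℕ) : OE A K) (alphaHom M p K (u4E M K h4)) R)
    (y : LE (M * p) (cyclo K ζ)) (hy : y ≠ 0)
    (hlc : (sigmaHom (M * p) (cyclo K ζ) y).leadingCoeff = 1)
    (hdiv : E4.DivBy (M * p) p (upF (M * p) (cyclo K ζ) y))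
    (ht : TrivAt (M * p) A p 1 (upF (M * p) (cyclo K ζ) y))
    (htw : TrivAt (M * p) A p 1
      (Fermat.Agent.S34.ToricSwap.wAL M p hp hpM (upF (M * p) (cyclo K ζ) y))) :
    letI := algebraOL (OE A (cyclo K ζ)) (cyclo K ζ) (LE (M * p) (cyclo K ζ))
    letI := algebraBC K ζ (M * p)
    ∀ W : Bool, Fermat.Agent.S33.Geo.Top.DepthIn
      (Fermat.Agent.S33.Geo.TameModel.adj
        (algebraMap (OE A (cyclo K ζ)) (LE (M * p) (cyclo K ζ)) (lam A hp K hζ))
        (VB M p K (OE A K) hp hpM W)) p (lam A hp K hζ) p y 1 := by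
  letI aO : Algebra (OE A K) (LE (M * p) K) := algebraOL (OE A K) K (LE (M * p) K)
  haveI tO := isScalarTower_OL (OE A K) K (LE (M * p) K)
  letI aO₁ : Algebra (OE A (cyclo K ζ)) (LE (M * p) (cyclo K ζ)) :=
    algebraOL (OE A (cyclo K ζ)) (cyclo K ζ) (LE (M * p) (cyclo K ζ))
  haveI tO₁ := isScalarTower_OL (OE A (cyclo K ζ)) (cyclo K ζ) (LE (M * p) (cyclo K ζ))
  letI aOO : Algebra (OE A K) (OE A (cyclo K ζ)) := (inclOE A (le_cyclo K ζ)).toAlgebra
  letI aFF : Algebra (LE (M * p) K) (LE (M * p) (cyclo K ζ)) := algebraBC K ζ (M * p)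
  have hπ : Irreducible ((p : ℕ) : OE A K) := irreducible_natCast_OE A K hp hA hK
  have hlam : Irreducible (lam A hp K hζ) := irreducible_lam A hp hA K hK hζ
  -- depth `1` (row B4 at `(K₁, λ)`), read on `V W[λ]`
  have h1 : ∀ W : Bool, ∃ c : OE A (cyclo K ζ), c ≠ 0 ∧ Fermat.Agent.S33.Geo.Top.DepthIn
      (Fermat.Agent.S33.Geo.TameModel.adj
        (algebraMap (OE A (cyclo K ζ)) (LE (M * p) (cyclo K ζ)) (lam A hp K hζ))
        (VB M p K (OE A K) hp hpM W)) p (lam A hp K hζ) 1 y c := by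
    intro W
    obtain ⟨c, hc, hD⟩ := Fermat.Agent.S33.Geo.UnitGauss.hunit_VB A M p hp hpM hA (cyclo K ζ)
      (lam A hp K hζ) hlam y ht htw W
    have e : Fermat.Agent.S33.Geo.TameModel.adj
        (algebraMap (OE A (cyclo K ζ)) (LE (M * p) (cyclo K ζ)) (lam A hp K hζ))
        (VB M p K (OE A K) hp hpM W) = VB M p (cyclo K ζ) (OE A (cyclo K ζ)) hp hpM W :=
      adj_VB A hp hA K hK hζ M p hp hpM W
    refine ⟨c, hc, ?_⟩
    rw [e]
    exact hD
  -- the horizontal hypothesis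
  have hHor : Fermat.Agent.S33.Geo.TameModel.HorVal p (lam A hp K hζ) y :=
    Fermat.Agent.S33.Geo.ZHorInst.horVal_of_divBy M p A (cyclo K ζ) hp hpM h4 (lam A hp K hζ)
      hlam y hy hdiv
  -- the cusp point
  obtain ⟨yInf, hR⟩ := exists_cusp_of_coversCusp A M p h4 K ((p : ℕ) : OE A K) hπ.not_isUnit R
    hcov
  have hcusp : ∀ a ∈ Fermat.Agent.S33.Geo.TameModel.adj
      (algebraMap (OE A (cyclo K ζ)) (LE (M * p) (cyclo K ζ)) (lam A hp K hζ)) (R yInf),
      a ∈ Fermat.Agent.S33.Geo.ZCusp.cuspRing (OE A (cyclo K ζ))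
        (sigmaHom (M * p) (cyclo K ζ)) :=
    fun a ha => Fermat.Agent.S33.Geo.ZCuspPt.closure_le_cuspRing (sigmaHom (M * p) K)
      (sigmaHom (M * p) (cyclo K ζ)) (fun b => sigmaHom_algebraMap (M * p) (cyclo K ζ) b)
      (inclE (le_cyclo K ζ)) (fun x n => rfl) (fun b => ⟨inclOE A (le_cyclo K ζ) b, rfl⟩)
      (lam A hp K hζ) (R yInf) hR a ha
  have hinj₁ : Function.Injective
      (algebraMap (OE A (cyclo K ζ)) (LE (M * p) (cyclo K ζ))) :=
    (algebraMap (cyclo K ζ) (LE (M * p) (cyclo K ζ))).injective.comp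
      (IsFractionRing.injective (OE A (cyclo K ζ)) (cyclo K ζ))
  exact Fermat.Agent.S33.Geo.TameTopCusp.tame_depth_one_cusp hp hπ (Associated.refl _)
    (Fermat.Agent.S44.L.CycloPerf.exists_pow_sub_dvd_natCast A hp hA K hK) hlam
    (one_add_lam_pow A hp K hζ) (exists_eval₂_eq_OE A hp hA K hK hζ)
    (fun c => bcLE_algebraMap_OE A K (M * p) c) hinj₁ (adjoin_lamF_eq_top hp K hζ (M * p))
    (psi_dvd_of_aeval_eq_zero A hp hA K hK hζ (M * p)) D y hy hHor h1
    (sigmaHom (M * p) (cyclo K ζ)) (fun b => sigmaHom_algebraMap (M * p) (cyclo K ζ) b)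
    (sigmaHom (M * p) K) (fun b => sigmaHom_algebraMap (M * p) K b)
    (IsFractionRing.injective (OE A K) K) yInf hR hcusp hlc

include hA hK in
/-- **Row Z3, the exit on the Gauss rings of `LE (M p) K₁`** (`GaussRings.VB` over `K₁`). -/
theorem zdepth_gauss {Y : Type*} (R : Y → Subring (LE (M * p) K)) (On : Y → Bool → Prop)
    (Hor : LE (M * p) K → Prop)
    (D : letI := algebraOL (OE A K) K (LE (M * p) K)
      Fermat.Agent.S33.Geo.Model.IsModel p ((p : ℕ) : OE A K) (VB M p K (OE A K) hp hpM) R On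
        Hor)
    (hcov : letI := algebraOL (OE A K) K (LE (M * p) K)
      Fermat.Agent.S33.Geo.Model.CoversCusp ((p : ℕ) : OE A K) (alphaHom M p K (u4E M K h4)) R)
    (y : LE (M * p) (cyclo K ζ)) (hy : y ≠ 0)
    (hlc : (sigmaHom (M * p) (cyclo K ζ) y).leadingCoeff = 1)
    (hdiv : E4.DivBy (M * p) p (upF (M * p) (cyclo K ζ) y))
    (ht : TrivAt (M * p) A p 1 (upF (M * p) (cyclo K ζ) y))
    (htw : TrivAt (M * p) A p 1
      (Fermat.Agent.S34.ToricSwap.wAL M p hp hpM (upF (M * p) (cyclo K ζ) y))) :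
    letI := algebraOL (OE A (cyclo K ζ)) (cyclo K ζ) (LE (M * p) (cyclo K ζ))
    ∀ W : Bool, Fermat.Agent.S33.Geo.Top.DepthIn
      (VB M p (cyclo K ζ) (OE A (cyclo K ζ)) hp hpM W) p (lam A hp K hζ) p y 1 := by
  letI aO₁ : Algebra (OE A (cyclo K ζ)) (LE (M * p) (cyclo K ζ)) :=
    algebraOL (OE A (cyclo K ζ)) (cyclo K ζ) (LE (M * p) (cyclo K ζ))
  letI aFF : Algebra (LE (M * p) K) (LE (M * p) (cyclo K ζ)) := algebraBC K ζ (M * p)
  intro W
  have h := zdepth_adj A M p hp hpM h4 hA K hK hζ R On Hor D hcov y hy hlc hdiv ht htw W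
  have e : Fermat.Agent.S33.Geo.TameModel.adj
      (algebraMap (OE A (cyclo K ζ)) (LE (M * p) (cyclo K ζ)) (lam A hp K hζ))
      (VB M p K (OE A K) hp hpM W) = VB M p (cyclo K ζ) (OE A (cyclo K ζ)) hp hpM W :=
    adj_VB A hp hA K hK hζ M p hp hpM W
  rw [← e]
  exact h

include hA hK in
/-- **Row Z3, the exit of record**: depth `≥ p` with the constant `1` on BOTH components of the
level-`M p` model over `K₁ = K(ζ_p)`. -/
theorem zdepth_exit {Y : Type*} (R : Y → Subring (LE (M * p) K)) (On : Y → Bool → Prop)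
    (Hor : LE (M * p) K → Prop)
    (D : letI := algebraOL (OE A K) K (LE (M * p) K)
      Fermat.Agent.S33.Geo.Model.IsModel p ((p : ℕ) : OE A K) (VB M p K (OE A K) hp hpM) R On
        Hor)
    (hcov : letI := algebraOL (OE A K) K (LE (M * p) K)
      Fermat.Agent.S33.Geo.Model.CoversCusp ((p : ℕ) : OE A K) (alphaHom M p K (u4E M K h4)) R)
    (y : LE (M * p) (cyclo K ζ)) (hy : y ≠ 0)
    (hlc : (sigmaHom (M * p) (cyclo K ζ) y).leadingCoeff = 1)
    (hdiv : E4.DivBy (M * p) p (upF (M * p) (cyclo K ζ) y))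
    (ht : TrivAt (M * p) A p 1 (upF (M * p) (cyclo K ζ) y))
    (htw : TrivAt (M * p) A p 1
      (Fermat.Agent.S34.ToricSwap.wAL M p hp hpM (upF (M * p) (cyclo K ζ) y))) :
    letI := algebraOL (OE A (cyclo K ζ)) (cyclo K ζ) (LE (M * p) (cyclo K ζ))
    Fermat.Agent.S33.Geo.Top.DepthIn (VInf (M * p) (cyclo K ζ) (OE A (cyclo K ζ))) p
        (lam A hp K hζ) p y 1 ∧
      Fermat.Agent.S33.Geo.Top.DepthIn (VZero M p (cyclo K ζ) (OE A (cyclo K ζ)) hp hpM) p
        (lam A hp K hζ) p y 1 :=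
  ⟨zdepth_gauss A M p hp hpM h4 hA K hK hζ R On Hor D hcov y hy hlc hdiv ht htw true,
    zdepth_gauss A M p hp hpM h4 hA K hK hζ R On Hor D hcov y hy hlc hdiv ht htw false⟩

end Main

end Fermat.Agent.S33.Geo.ZDepthInst
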