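/-
S33 (ordinary at `p ∥ N`), strand GEO, Stage B, row C4 (CoverUnr), the closed row (helper78).

The hypotheses `hN`, `hS` of `CoverBlocks.blocks_above` for the cover field `L0 (M p) K ζ T`
over `F = LE (M p) K`, on the two Gauss rings `GaussRings.VB M p K (OE A K)`, from

* ANY model of `F` over `O = OE A K` on the Gauss rings covering the charts of `α u₄` in the
  cusp form (the output shape of row B3; the input of `ZDepthInst.zdepth_adj`);
* the C8q data of the Kummer functions `y i ∈ LE (M p) K(ζ)`, `T i ^ p = y i`: nonzero, leading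
  coefficient `1`, divisor divisible by `p`, `1`-trivial at the Gauss valuation together with
  the swap;
* C1-E: `L0 / F` finite Galois of degree `p ^ k`.

`hN_of_model`, `hS_of_model` = `CoverUnrInst.hN_of_rows / hS_of_rows` fed by
`ZDepthInst.zdepth_adj` (row Z3) and `ZHorInst.horVal_of_divBy` (row Z3h).
-/
import Mathlib
import Fermat.Agent.S33.Geo.CoverUnrInst
import Fermat.Agent.S33.Geo.ZDepthInst

set_option autoImplicit false
set_option linter.unusedSectionVars false
set_option linter.unusedVariables false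
set_option linter.style.haveILetI false
set_option synthInstance.maxHeartbeats 400000
set_option maxHeartbeats 1000000

open ModularCurve

noncomputable section

namespace Fermat.Agent.S33.Geo.CoverUnrFinal

open IsLocalRing
open Fermat.Agent.S18.K1Defs Fermat.Agent.S18.K1Top Fermat.Agent.S18.K1Main Fermat.Agent.S30
open Fermat.Agent.S34.TwoPrimesRank Fermat.Agent.S34.HauptU.Plug Fermat.Agent.S36.Haupt4
open Fermat.Agent.S36.CycloBase Fermat.Agent.S36.UnramBase Fermat.Agent.S36.InvFun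
open Fermat.Agent.S33.Geo.Contract Fermat.Agent.S33.Geo.GaussRings
open Fermat.Agent.S33.Geo.CoverFieldDefs Fermat.Agent.S33.Geo.TopLocal

local notation "Qb" => AlgebraicClosure ℚ

variable (A : ValuationSubring Qb) (M p : ℕ) [NeZero M] [NeZero p]
  (hp : p.Prime) (hpM : ¬ p ∣ M) (h4 : 4 ∣ M) (hA : A.LiesOverPrime p)
  (K : IntermediateField ℚ Qb) [FiniteDimensional ℚ K]
  (hK : A.inertiaSubgroupIn ℚ ≤ K.fixingSubgroup) [IsDiscreteValuationRing (OE A K)]
  {ζ : Qb} (hζ : IsPrimitiveRoot ζ p) [IsDiscreteValuationRing (OE A (cyclo K ζ))]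
  {n : ℕ} (T : Fin n → LaurentSeries (cyclo K ζ)) (y : Fin n → LE (M * p) (cyclo K ζ))
  {k : ℕ} [FiniteDimensional (LE (M * p) K) (L0 (M * p) K ζ T)]
  [IsGalois (LE (M * p) K) (L0 (M * p) K ζ T)]

include hA hK hζ in
/-- **Row C4, node blocks, closed**: the hypothesis `hN` of `CoverBlocks.blocks_above` on the
Gauss rings of `LE (M p) K`, from a model of `LE (M p) K` and the data of the `y i`. -/
theorem hN_of_model {Y : Type*} (R : Y → Subring (LE (M * p) K)) (On : Y → Bool → Prop)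
    (Hor : LE (M * p) K → Prop)
    (D : letI := algebraOL (OE A K) K (LE (M * p) K)
      Fermat.Agent.S33.Geo.Model.IsModel p ((p : ℕ) : OE A K) (VB M p K (OE A K) hp hpM) R On
        Hor)
    (hcov : letI := algebraOL (OE A K) K (LE (M * p) K)
      Fermat.Agent.S33.Geo.Model.CoversCusp ((p : ℕ) : OE A K) (alphaHom M p K (u4E M K h4)) R)
    (hL0 : Module.finrank (LE (M * p) K) (L0 (M * p) K ζ T) = p ^ k)
    (hTy : ∀ i, T i ^ p = ((y i : LE (M * p) (cyclo K ζ)) : LaurentSeries (cyclo K ζ)))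
    (hy : ∀ i, y i ≠ 0)
    (hlc : ∀ i, (sigmaHom (M * p) (cyclo K ζ) (y i)).leadingCoeff = 1)
    (hdiv : ∀ i, E4.DivBy (M * p) p (upF (M * p) (cyclo K ζ) (y i)))
    (ht : ∀ i, TrivAt (M * p) A p 1 (upF (M * p) (cyclo K ζ) (y i)))
    (htw : ∀ i, TrivAt (M * p) A p 1
      (Fermat.Agent.S34.ToricSwap.wAL M p hp hpM (upF (M * p) (cyclo K ζ) (y i)))) :
    letI := algebraOL (OE A K) K (LE (M * p) K)
    ∀ (B : Type) [CommRing B] [IsDomain B] [IsLocalRing B] [IsNoetherianRing B]
      [Algebra (OE A K) B] [Algebra B (LE (M * p) K)] [IsFractionRing B (LE (M * p) K)]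
      [IsScalarTower (OE A K) B (LE (M * p) K)] [Algebra B (L0 (M * p) K ζ T)]
      [IsScalarTower B (LE (M * p) K) (L0 (M * p) K ζ T)] (y' : Y) (W₁ W₂ : Bool) (s t : B),
      (algebraMap B (LE (M * p) K)).range = R y' →
      Prime s → Prime t → ¬ Associated s t → maximalIdeal B = Ideal.span {s, t} →
      Associated (s * t) (algebraMap (OE A K) B ((p : ℕ) : OE A K)) →
      IsBranch s (VB M p K (OE A K) hp hpM W₁) → IsBranch t (VB M p K (OE A K) hp hpM W₂) →
      CoverBlocks.DiscrAt B (L0 (M * p) K ζ T) :=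
  CoverUnrInst.hN_of_rows A hp hA K hK hζ (M * p) T y (VB M p K (OE A K) hp hpM) R hL0 hy hTy
    (fun i => ZHorInst.horVal_of_divBy M p A (cyclo K ζ) hp hpM h4 (lam A hp K hζ)
      (irreducible_lam A hp hA K hK hζ) (y i) (hy i) (hdiv i))
    (fun W i => ZDepthInst.zdepth_adj A M p hp hpM h4 hA K hK hζ R On Hor D hcov (y i) (hy i)
      (hlc i) (hdiv i) (ht i) (htw i) W)

include hA hK hζ in
/-- **Row C4, smooth blocks, closed**: the hypothesis `hS` of `CoverBlocks.blocks_above` on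
the Gauss rings of `LE (M p) K`. -/
theorem hS_of_model {Y : Type*} (R : Y → Subring (LE (M * p) K)) (On : Y → Bool → Prop)
    (Hor : LE (M * p) K → Prop)
    (D : letI := algebraOL (OE A K) K (LE (M * p) K)
      Fermat.Agent.S33.Geo.Model.IsModel p ((p : ℕ) : OE A K) (VB M p K (OE A K) hp hpM) R On
        Hor)
    (hcov : letI := algebraOL (OE A K) K (LE (M * p) K)
      Fermat.Agent.S33.Geo.Model.CoversCusp ((p : ℕ) : OE A K) (alphaHom M p K (u4E M K h4)) R)
    (hL0 : Module.finrank (LE (M * p) K) (L0 (M * p) K ζ T) = p ^ k)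
    (hTy : ∀ i, T i ^ p = ((y i : LE (M * p) (cyclo K ζ)) : LaurentSeries (cyclo K ζ)))
    (hy : ∀ i, y i ≠ 0)
    (hlc : ∀ i, (sigmaHom (M * p) (cyclo K ζ) (y i)).leadingCoeff = 1)
    (hdiv : ∀ i, E4.DivBy (M * p) p (upF (M * p) (cyclo K ζ) (y i)))
    (ht : ∀ i, TrivAt (M * p) A p 1 (upF (M * p) (cyclo K ζ) (y i)))
    (htw : ∀ i, TrivAt (M * p) A p 1
      (Fermat.Agent.S34.ToricSwap.wAL M p hp hpM (upF (M * p) (cyclo K ζ) (y i)))) :
    letI := algebraOL (OE A K) K (LE (M * p) K)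
    ∀ (B : Type) [CommRing B] [IsDomain B] [IsLocalRing B] [IsNoetherianRing B]
      [Algebra (OE A K) B] [Algebra B (LE (M * p) K)] [IsFractionRing B (LE (M * p) K)]
      [IsScalarTower (OE A K) B (LE (M * p) K)] [Algebra B (L0 (M * p) K ζ T)]
      [IsScalarTower B (LE (M * p) K) (L0 (M * p) K ζ T)] (y' : Y) (W₁ : Bool) (z : B),
      (algebraMap B (LE (M * p) K)).range = R y' →
      Prime (algebraMap (OE A K) B ((p : ℕ) : OE A K)) →
      maximalIdeal B = Ideal.span {algebraMap (OE A K) B ((p : ℕ) : OE A K), z} →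
      IsBranch (algebraMap (OE A K) B ((p : ℕ) : OE A K)) (VB M p K (OE A K) hp hpM W₁) →
      CoverBlocks.DiscrAt B (L0 (M * p) K ζ T) :=
  CoverUnrInst.hS_of_rows A hp hA K hK hζ (M * p) T y (VB M p K (OE A K) hp hpM) R hL0 hy hTy
    (fun i => ZHorInst.horVal_of_divBy M p A (cyclo K ζ) hp hpM h4 (lam A hp K hζ)
      (irreducible_lam A hp hA K hK hζ) (y i) (hy i) (hdiv i))
    (fun W i => ZDepthInst.zdepth_adj A M p hp hpM h4 hA K hK hζ R On Hor D hcov (y i) (hy i)
      (hlc i) (hdiv i) (ht i) (htw i) W)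

end Fermat.Agent.S33.Geo.CoverUnrFinal
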