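import Mathlib
import Fermat.Agent.S33.Geo.FunLevel
import Fermat.Agent.S33.Geo.GaSat
import Fermat.Agent.S36.InvDescent
import Fermat.Agent.S36.GeomClass
import Fermat.Agent.S36.Descent

/-!
# S33 GEO, Stage B: descent of the function-level GEO-i hypotheses to a number field

`FunLevel.FunI L A p w` is a statement about functions `x ∈ FN L` with coefficients in `ℚ̄`.
The geometric instance rows work over a number field `K` of the geometric class
`S36.GeomClass A n S₀ K` (finite over `ℚ`, inside the inertia field of `A`, stable under the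
decomposition group, `ζ_n ∈ K`, `S₀ ⊆ K`), with `O = OE A K` an unramified discrete valuation
ring.  This file is the bridge (the S33 analogue of `S44/L/NZ/Split.splitFunStatement_of_splitE`):

* `exists_rational_rep` : a function `x` with `GoodI L A p w x` is, up to a `p`-th power,
  `K`-rational for some `K` of the geometric class, and the rational representative is again a
  `p`-Kummer function, `1`-trivial at both Gauss valuations
  (`S36/Descent.exists_invariant_rep` + `S36/InvDescent.descent_of_cofinal` +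
  `GeomClass.cofinal` + the `TrivAt` calculus of `S33/Geo/GaSat`);
* `FunIE L A p w K` : the number-field form of `FunI` (conclusion: a constant of `ℚ̄` times a
  `p`-th power in `FN L` - the weakest exit, which is what `PthPoint.exists_pow_eq_of_pointwise`
  and its "new constants" branch deliver);
* `funI_of_funIE` : `FunIE` over every `K` of the geometric class implies `FunI`;
* `FunIEStatement L' p`, `funIStatement_of_funIE` : the statement-level form.
-/

set_option autoImplicit false

open HahnSeries ModularCurve AlgebraicCurve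

noncomputable section

namespace Fermat.Agent.S33.Geo.FunDesc

open Fermat.Agent.S30 Fermat.Agent.S30.Producer Fermat.Agent.S18.K1Defs
open Fermat.Agent.S36.InvFun Fermat.Agent.S36.GeomClass
open Fermat.Agent.S33.Geo.Contract Fermat.Agent.S33.Geo.FunLevel Fermat.Agent.S33.Geo.GaSat

/-- **Rational representatives.**  A function `x` with the function-level hypotheses of GEO-i is
a `p`-th power times a function `upF L K y` rational over a number field `K` of the geometric
class, which is again a `p`-Kummer function and `1`-trivial at both Gauss valuations. -/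
theorem exists_rational_rep {L p n : ℕ} [NeZero L] (hp : p.Prime) (hn : ¬ p ∣ n)
    {A : ValuationSubring Qb} (hA : A.LiesOverPrime p) (w : FN L ≃ₐ[Qb] FN L)
    (S₀ : Finset Qb) (hS₀ : ∀ s ∈ S₀, ∀ τ ∈ A.inertiaSubgroupIn ℚ, τ s = s)
    {x : FN L} (hx : GoodI L A p w x) :
    ∃ K : IntermediateField ℚ Qb, GeomClass A n S₀ K ∧
      ∃ (y : LE L K) (h : FN L), y ≠ 0 ∧ h ≠ 0 ∧ x = upF L K y * h ^ p ∧
        E4.DivBy L p (upF L K y) ∧ TrivAt L A p 1 (upF L K y) ∧
        TrivAt L A p 1 (w (upF L K y)) := by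
  obtain ⟨hx0, hdiv, ht, htw, hI⟩ := hx
  -- an inertia-fixed representative of the class
  obtain ⟨f₀, h₁, hh₁, hff₀, hfix⟩ :=
    Fermat.Agent.S36.Descent.exists_invariant_rep L A hp.pos x hx0 (fun τ hτ => hI τ hτ)
  have hf₀ : f₀ ≠ 0 := by
    rintro rfl
    rw [zero_mul] at hff₀
    exact hx0 hff₀
  have hf₀eq : f₀ = x * h₁⁻¹ ^ p := by
    rw [hff₀, inv_pow, mul_assoc, mul_inv_cancel₀ (pow_ne_zero p hh₁), mul_one]
  have hdiv₀ : E4.DivBy L p f₀ := by
    rw [hf₀eq, inv_pow]
    exact E4.DivBy.mul hx0 (inv_ne_zero (pow_ne_zero p hh₁)) hdiv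
      (E4.divBy_pow_self L p h₁).inv
  have ht₀ : TrivAt L A p 1 f₀ := by
    have h1 := trivAt_mul_pow (n := 1) ht (inv_ne_zero hh₁)
    rw [pow_one] at h1
    rw [hf₀eq]
    exact h1
  have htw₀ : TrivAt L A p 1 (w f₀) := by
    have hwh : w h₁ ≠ 0 := (map_ne_zero w).mpr hh₁
    have h1 := trivAt_mul_pow (n := 1) htw (inv_ne_zero hwh)
    rw [pow_one] at h1
    rw [hf₀eq, map_mul, map_pow, map_inv₀]
    exact h1
  -- descent to a base field of the geometric class
  obtain ⟨K, hPK, y, hy⟩ := Fermat.Agent.S36.InvDescent.descent_of_cofinal L A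
    (GeomClass A n S₀) (fun S hS => cofinal A hp hA hn S₀ hS₀ S hS) f₀ hfix
  have hy0 : y ≠ 0 := by
    rintro rfl
    rw [_root_.map_zero] at hy
    exact hf₀ hy.symm
  refine ⟨K, hPK, y, h₁, hy0, hh₁, ?_, ?_, ?_, ?_⟩
  · rw [hy]; exact hff₀
  · rw [hy]; exact hdiv₀
  · rw [hy]; exact ht₀
  · rw [hy]; exact htw₀

/-- **The number-field form of `FunI`** over the base field `K`: a nonzero `K`-rational
`p`-Kummer function which is `1`-trivial at both Gauss valuations is a constant times a `p`-th
power. -/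
def FunIE (L : ℕ) [NeZero L] (A : ValuationSubring Qb) (p : ℕ) (w : FN L → FN L)
    (K : IntermediateField ℚ Qb) : Prop :=
  ∀ y : LE L K, y ≠ 0 → E4.DivBy L p (upF L K y) → TrivAt L A p 1 (upF L K y) →
    TrivAt L A p 1 (w (upF L K y)) →
    ∃ (c : Qb) (k : FN L), upF L K y = algebraMap Qb (FN L) c * k ^ p

/-- **`FunI` from the number-field form** over the geometric class of base fields. -/
theorem funI_of_funIE {L p n : ℕ} [NeZero L] (hp : p.Prime) (hn : ¬ p ∣ n)
    {A : ValuationSubring Qb} (hA : A.LiesOverPrime p) (w : FN L ≃ₐ[Qb] FN L)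
    (S₀ : Finset Qb) (hS₀ : ∀ s ∈ S₀, ∀ τ ∈ A.inertiaSubgroupIn ℚ, τ s = s)
    (h : ∀ K : IntermediateField ℚ Qb, GeomClass A n S₀ K → FunIE L A p w K) :
    FunI L A p w := by
  intro x hx
  obtain ⟨K, hK, y, h₁, hy0, -, hxy, hdiv, ht, htw⟩ :=
    exists_rational_rep hp hn hA w S₀ hS₀ hx
  obtain ⟨c, k, hc⟩ := h K hK y hy0 hdiv ht htw
  obtain ⟨d, hd⟩ := IsAlgClosed.exists_pow_nat_eq c hp.pos
  refine ⟨algebraMap Qb (FN L) d * k * h₁, ?_⟩
  rw [hxy, hc, ← hd, map_pow, mul_pow, mul_pow]

/-- Number-field target of the row GEO-i at the level `L' * p`: for every `A` over `p` and every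
swap there is a finite set `S₀` of inertia-fixed numbers such that `FunIE` holds over every base
field of the geometric class `GeomClass A L' S₀`. -/
def FunIEStatement (L' p : ℕ) [NeZero L'] [NeZero p] : Prop :=
  p.Prime → p ≠ 2 → ¬ p ∣ L' → ∀ A : ValuationSubring Qb, A.LiesOverPrime p →
    ∀ w : FN (L' * p) ≃ₐ[Qb] FN (L' * p), IsSwap L' p w →
      ∃ S₀ : Finset Qb, (∀ s ∈ S₀, ∀ τ ∈ A.inertiaSubgroupIn ℚ, τ s = s) ∧
        ∀ K : IntermediateField ℚ Qb, GeomClass A L' S₀ K → FunIE (L' * p) A p w K

/-- **The function-level target of GEO-i from its number-field form.** -/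
theorem funIStatement_of_funIE {L' p : ℕ} [NeZero L'] [NeZero p] (h : FunIEStatement L' p) :
    FunIStatement L' p := by
  intro hp hp2 hpL A hA w hw
  obtain ⟨S₀, hS₀, hE⟩ := h hp hp2 hpL A hA w hw
  exact funI_of_funIE hp hpL hA w S₀ hS₀ hE

end Fermat.Agent.S33.Geo.FunDesc
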