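/-
S33 (ordinary at `p ∥ N`), strand GEO, Stage B, row B5 (helper140): the unramified exit.

Levels `(M, M p)`, `4 ∣ M`, `p ∤ M` an odd prime, `A` a valuation ring of `ℚ̄` over `p`,
`K ⊆ ℚ̄` a number field containing a primitive `M`-th root of unity with `O = A ∩ K` a discrete
valuation ring in which `p` is a uniformiser, `F = LE (M p) K`, `U = α u₄` the coordinate of the
two charts of level `M p`.

* `powAt_of_depthIn_locAt` : a point form of depth `2` at `ϖ = p` along the local ring
  `DepthHenselExit.locAt S 𝔪` of a chart is the datum `PthPoint.PowAt` (level-free);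
* `DepthIn.mono` : a form along `V` is a form along any larger subring;
* `exists_upF_pow_of_powAt` : the unramified twin of `S44/L/NZ/ExitCore.exists_upF_pow_of_powAt`:
  `PthPoint.PowAt` at every maximal ideal over `p` of both charts gives a `p`-th power over `ℚ̄`
  (`ExitCore.exists_upF_pow_of_exit` + `PthPoint.exists_pow_eq_of_pointwise` + the reduced fibres
  `AltChartRed.hred0_OE`, `hredinf_OE`);
* `exit_of_datum` : **the exit of `Top.top_core` at `ϖ = p`, `top = 2`**: for an abstract model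
  datum `Top.IsDatum p p 2 V R On Hor` of `F` whose local rings cover the closed points of the
  special fibres of the two charts, a nonzero `f` with the horizontal hypothesis and depth `≥ 1`
  on every component is a constant times a `p`-th power over `ℚ̄`.
-/
import Mathlib
import Fermat.Agent.S44.L.NZ.ExitCore
import Fermat.Agent.S44.L.AltChartRed
import Fermat.Agent.S44.L.DepthHenselExit
import Fermat.Agent.S36.Haupt4.LevelQ
import Fermat.Agent.S36.InvFun
import Fermat.Agent.S33.Geo.Top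

set_option autoImplicit false
set_option linter.unusedSectionVars false
set_option linter.unusedVariables false
set_option linter.style.haveILetI false
set_option synthInstance.maxHeartbeats 400000
set_option maxHeartbeats 1000000

open ModularCurve

noncomputable section

namespace Fermat.Agent.S33.Geo.UnrExit

open Fermat.Agent.S18.K1Defs Fermat.Agent.S18.K1Main Fermat.Agent.S30 Fermat.Agent.S30.E4
open Fermat.Agent.S34.TwoPrimesRank Fermat.Agent.S36.Haupt4
open Fermat.Agent.S44.L Fermat.Agent.S44.L.NZ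

local notation "Qb" => AlgebraicClosure ℚ

/-! ### Level-free -/

section LevelFree

variable {O F : Type*} [CommRing O] [Field F] [Algebra O F]

/-- A form along `V` is a form along any larger subring. -/
theorem DepthIn.mono {V V' : Subring F} (hVV' : V ≤ V') {p : ℕ} {ϖ : O} {j : ℕ} {f : F} {c : O}
    (h : Fermat.Agent.S33.Geo.Top.DepthIn V p ϖ j f c) :
    Fermat.Agent.S33.Geo.Top.DepthIn V' p ϖ j f c := by
  obtain ⟨g, r, hr, hf⟩ := h
  exact ⟨g, r, hVV' hr, hf⟩

/-- **The point form of depth `2` at `ϖ = p` along the local ring of a chart is `PowAt`.** -/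
theorem powAt_of_depthIn_locAt (S : Subalgebra O F) (p : ℕ) (𝔪 : Ideal (integralClosure S F))
    (h𝔪 : 𝔪.IsPrime) {f : F} {c : O} (hc : algebraMap O F c ≠ 0)
    (h : Fermat.Agent.S33.Geo.Top.DepthIn (DepthHenselExit.locAt S 𝔪 h𝔪) p ((p : ℕ) : O) 2 f c) :
    PthPoint.PowAt S p (f / algebraMap O F c) 𝔪 := by
  obtain ⟨g, r, ⟨s, hs, hsr⟩, hf⟩ := h
  refine ⟨s, g, r, hs, hsr, ?_⟩
  rw [hf, map_natCast, mul_assoc, mul_div_cancel_left₀ _ hc]

end LevelFree

/-! ### The unramified exit over `OE A K` -/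

/-- **The unramified exit over `ℚ̄`.**  `p` a uniformiser of `O = OE A K`, and the datum
`PthPoint.PowAt` for `H` at every maximal ideal over `p` of the two chart rings of `U = α u₄`:
`H` is a `p`-th power in `Fb (M p)`. -/
theorem exists_upF_pow_of_powAt (A : ValuationSubring Qb) (M p : ℕ) [NeZero M] [NeZero p]
    (hp : p.Prime) (hp3 : 3 ≤ p) (hpM : ¬ p ∣ M) (h4 : 4 ∣ M) (hA : A.LiesOverPrime p)
    (K : IntermediateField ℚ Qb) [FiniteDimensional ℚ K] [IsDiscreteValuationRing (OE A K)]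
    (z : Qb) (hz : IsPrimitiveRoot z M) (hzK : z ∈ K)
    (hπ : Irreducible ((p : ℕ) : OE A K)) (H : LE (M * p) K) :
    letI := algebraOL (OE A K) K (LE (M * p) K)
    (∀ 𝔪 : Ideal (integralClosure (Algebra.adjoin (OE A K)
          ({alphaHom M p K (u4E M K h4)} : Set (LE (M * p) K))) (LE (M * p) K)),
        𝔪.IsMaximal →
        ((p : ℕ) : integralClosure (Algebra.adjoin (OE A K)
          ({alphaHom M p K (u4E M K h4)} : Set (LE (M * p) K))) (LE (M * p) K)) ∈ 𝔪 →
        PthPoint.PowAt (Algebra.adjoin (OE A K)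
          ({alphaHom M p K (u4E M K h4)} : Set (LE (M * p) K))) p H 𝔪) →
    (∀ 𝔪 : Ideal (integralClosure (Algebra.adjoin (OE A K)
          ({(alphaHom M p K (u4E M K h4))⁻¹} : Set (LE (M * p) K))) (LE (M * p) K)),
        𝔪.IsMaximal →
        ((p : ℕ) : integralClosure (Algebra.adjoin (OE A K)
          ({(alphaHom M p K (u4E M K h4))⁻¹} : Set (LE (M * p) K))) (LE (M * p) K)) ∈ 𝔪 →
        PthPoint.PowAt (Algebra.adjoin (OE A K)
          ({(alphaHom M p K (u4E M K h4))⁻¹} : Set (LE (M * p) K))) p H 𝔪) →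
    ∃ G : Fb (M * p), Fermat.Agent.S36.InvFun.upF (M * p) K H = G ^ p := by
  letI := algebraOL (OE A K) K (LE (M * p) K)
  haveI := isScalarTower_OL (OE A K) K (LE (M * p) K)
  intro h0 hinf
  have hodd : p ≠ 2 := by omega
  haveI := LevelQ.finiteDimensional_alpha_u4E M p K h4
  have hU := LevelQ.transcendental_alpha_u4E M p K h4
  have hU0 : alphaHom M p K (u4E M K h4) ≠ 0 := fun h => hU (h ▸ isAlgebraic_zero)
  have hcast : algebraMap (OE A K) (LE (M * p) K) ((p : ℕ) : OE A K)
      = ((p : ℕ) : LE (M * p) K) := map_natCast _ p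
  have hred0 := AltChartRed.hred0_OE A M p hp hodd hpM h4 hA K z hz hzK _ hπ p
  have hredinf := AltChartRed.hredinf_OE A M p hp hodd hpM h4 hA K z hz hzK _ hπ p
  rw [hcast] at hred0 hredinf
  refine ExitCore.exists_upF_pow_of_exit (M * p) A K p hp (alphaHom M p K (u4E M K h4)) hU H ?_
  intro L _ _ _ _ hinjL hOL hfin z hz
  haveI := hfin
  exact PthPoint.exists_pow_eq_of_pointwise p hp hp3 hπ.prime hinjL hOL _ hU0 hred0 hredinf H z hz
    h0 hinf

/-- **The exit of `Top.top_core` at `ϖ = p`, `top = 2`, over `OE A K`.**  For an abstract model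
datum of `F = LE (M p) K` whose local rings `R y` cover the closed points over `p` of the two
charts of `U = α u₄` (`R y ≤ locAt` suffices), a nonzero `f` with the horizontal hypothesis at
every point and depth `≥ 1` on every component is a constant times a `p`-th power over `ℚ̄`. -/
theorem exit_of_datum (A : ValuationSubring Qb) (M p : ℕ) [NeZero M] [NeZero p]
    (hp : p.Prime) (hp3 : 3 ≤ p) (hpM : ¬ p ∣ M) (h4 : 4 ∣ M) (hA : A.LiesOverPrime p)
    (K : IntermediateField ℚ Qb) [FiniteDimensional ℚ K] [IsDiscreteValuationRing (OE A K)]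
    (z : Qb) (hz : IsPrimitiveRoot z M) (hzK : z ∈ K)
    (hπ : Irreducible ((p : ℕ) : OE A K)) {ι Y : Type*} :
    letI := algebraOL (OE A K) K (LE (M * p) K)
    ∀ (V : ι → Subring (LE (M * p) K)) (R : Y → Subring (LE (M * p) K)) (On : Y → ι → Prop)
      (Hor : Y → LE (M * p) K → Prop),
      Fermat.Agent.S33.Geo.Top.IsDatum p ((p : ℕ) : OE A K) 2 V R On Hor →
      (∀ (𝔪 : Ideal (integralClosure (Algebra.adjoin (OE A K)
            ({alphaHom M p K (u4E M K h4)} : Set (LE (M * p) K))) (LE (M * p) K)))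
          (h𝔪 : 𝔪.IsMaximal),
          ((p : ℕ) : integralClosure (Algebra.adjoin (OE A K)
            ({alphaHom M p K (u4E M K h4)} : Set (LE (M * p) K))) (LE (M * p) K)) ∈ 𝔪 →
          ∃ y : Y, R y ≤ DepthHenselExit.locAt _ 𝔪 h𝔪.isPrime) →
      (∀ (𝔪 : Ideal (integralClosure (Algebra.adjoin (OE A K)
            ({(alphaHom M p K (u4E M K h4))⁻¹} : Set (LE (M * p) K))) (LE (M * p) K)))
          (h𝔪 : 𝔪.IsMaximal),
          ((p : ℕ) : integralClosure (Algebra.adjoin (OE A K)
            ({(alphaHom M p K (u4E M K h4))⁻¹} : Set (LE (M * p) K))) (LE (M * p) K)) ∈ 𝔪 →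
          ∃ y : Y, R y ≤ DepthHenselExit.locAt _ 𝔪 h𝔪.isPrime) →
      ∀ f : LE (M * p) K, f ≠ 0 → (∀ y, Hor y f) →
        (∀ W, ∃ c : OE A K, c ≠ 0 ∧
          Fermat.Agent.S33.Geo.Top.DepthIn (V W) p ((p : ℕ) : OE A K) 1 f c) →
        ∃ (c : Qb) (k : Fb (M * p)),
          Fermat.Agent.S36.InvFun.upF (M * p) K f = algebraMap Qb (Fb (M * p)) c * k ^ p := by
  letI := algebraOL (OE A K) K (LE (M * p) K)
  haveI := isScalarTower_OL (OE A K) K (LE (M * p) K)
  intro V R On Hor D hcov0 hcovinf f hf hHor h1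
  have hinj : Function.Injective (algebraMap (OE A K) (LE (M * p) K)) :=
    Fermat.Agent.S30.Model.ChartProv.algebraMap_injective_base (OE A K) K (LE (M * p) K)
  obtain ⟨c, hc, -, hpt⟩ := Fermat.Agent.S33.Geo.Top.top_core hπ.not_isUnit (by norm_num) hinj D
    f hf hHor h1
  have hcF : algebraMap (OE A K) (LE (M * p) K) c ≠ 0 := (map_ne_zero_iff _ hinj).mpr hc
  obtain ⟨G, hG⟩ := exists_upF_pow_of_powAt A M p hp hp3 hpM h4 hA K z hz hzK hπ
    (f / algebraMap (OE A K) (LE (M * p) K) c)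
    (fun 𝔪 h𝔪 hp𝔪 => by
      obtain ⟨y, hy⟩ := hcov0 𝔪 h𝔪 hp𝔪
      exact powAt_of_depthIn_locAt _ p 𝔪 h𝔪.isPrime hcF (DepthIn.mono hy (hpt y)))
    (fun 𝔪 h𝔪 hp𝔪 => by
      obtain ⟨y, hy⟩ := hcovinf 𝔪 h𝔪 hp𝔪
      exact powAt_of_depthIn_locAt _ p 𝔪 h𝔪.isPrime hcF (DepthIn.mono hy (hpt y)))
  refine ⟨(((c : OE A K) : K) : Qb), G, ?_⟩
  have hca : Fermat.Agent.S36.InvFun.upF (M * p) K (algebraMap (OE A K) (LE (M * p) K) c)
      = algebraMap Qb (Fb (M * p)) (((c : OE A K) : K) : Qb) := by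
    rw [IsScalarTower.algebraMap_apply (OE A K) K (LE (M * p) K)]
    exact Fermat.Agent.S36.InvFun.upF_algebraMap (M * p) K _
  have hca0 : Fermat.Agent.S36.InvFun.upF (M * p) K (algebraMap (OE A K) (LE (M * p) K) c) ≠ 0 :=
    (_root_.map_ne_zero _).mpr hcF
  rw [map_div₀, div_eq_iff hca0] at hG
  rw [hG, hca]
  exact mul_comm _ _

end Fermat.Agent.S33.Geo.UnrExit
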