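/-
S33 (ordinary at `p ∥ N`), strand GEO, Stage B, row B5 (helper140): FUN-I over a number field
from a model.

Levels `(M, M p)`, `4 ∣ M`, `p ∤ M` an odd prime, `A` a valuation ring of `ℚ̄` over `p`,
`K ⊆ ℚ̄` a number field containing a primitive `M`-th root of unity with `O = OE A K` a discrete
valuation ring in which `p` is a uniformiser, `F = LE (M p) K`, `U = α u₄` the coordinate of the
two charts of level `M p`.

* `exit_of_modelI` : for a model `Model.IsModelI p p V R On Hor` of `F` whose points cover the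
  closed points of the special fibre of the chart of `U` and the points over `U = ∞` of the chart
  of `U⁻¹` (`Model.CoversCusp`), a nonzero horizontal `f` of depth `≥ 1` on every component is a
  constant times a `p`-th power over `ℚ̄`
  (`IsModelI.top_core` at `top = 2`, `UnrExit.powAt_of_depthIn_locAt`,
  `ChartChange.hinf_of_h0`, `UnrExit.exists_upF_pow_of_powAt`);
* `funIE_of_model` : **`FunDesc.FunIE (M p) A p w K` from a model and the unit statement** (B3
  + B4 ⟹ B5): the horizontal hypothesis comes from `p ∣ div` (`Alt/DescHoriz.horiz_desc`), the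
  depth `≥ 1` on every component from the unit statement `hunit`.
-/
import Mathlib
import Fermat.Agent.S33.Geo.UnrExit
import Fermat.Agent.S33.Geo.ModelI
import Fermat.Agent.S33.Geo.FunDesc
import Fermat.Agent.S44.L.NZ.ChartChange
import Fermat.Agent.S44.L.Alt.DescHoriz
import Fermat.Agent.S44.L.KummerPerf

set_option autoImplicit false
set_option linter.unusedSectionVars false
set_option linter.unusedVariables false
set_option linter.style.haveILetI false
set_option synthInstance.maxHeartbeats 400000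
set_option maxHeartbeats 1000000

open ModularCurve

noncomputable section

namespace Fermat.Agent.S33.Geo.FunI

open Fermat.Agent.S18.K1Defs Fermat.Agent.S18.K1Main Fermat.Agent.S30 Fermat.Agent.S30.E4
open Fermat.Agent.S34.TwoPrimesRank Fermat.Agent.S34.HauptU.Plug Fermat.Agent.S36.Haupt4
open Fermat.Agent.S36.HorizAdapter
open Fermat.Agent.S44.L Fermat.Agent.S44.L.NZ
open Fermat.Agent.S33.Geo.Contract

local notation "Qb" => AlgebraicClosure ℚ

/-- The image of `p` in a chart ring is `p`. -/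
theorem algebraMap_natCast_mem {O F : Type*} [CommRing O] [Field F] [Algebra O F]
    (S : Subalgebra O F) (p : ℕ) (𝔪 : Ideal (integralClosure S F))
    (h : ((p : ℕ) : integralClosure S F) ∈ 𝔪) :
    algebraMap O (integralClosure S F) ((p : ℕ) : O) ∈ 𝔪 := by
  rw [map_natCast]
  exact h

/-- **The exit of a model over `OE A K`** (`ϖ = p`, `top = 2`, cusp form of the cover). -/
theorem exit_of_modelI (A : ValuationSubring Qb) (M p : ℕ) [NeZero M] [NeZero p]
    (hp : p.Prime) (hp3 : 3 ≤ p) (hpM : ¬ p ∣ M) (h4 : 4 ∣ M) (hA : A.LiesOverPrime p)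
    (K : IntermediateField ℚ Qb) [FiniteDimensional ℚ K] [IsDiscreteValuationRing (OE A K)]
    (z : Qb) (hz : IsPrimitiveRoot z M) (hzK : z ∈ K)
    (hπ : Irreducible ((p : ℕ) : OE A K)) {ι Y : Type*} :
    letI := algebraOL (OE A K) K (LE (M * p) K)
    ∀ (V : ι → Subring (LE (M * p) K)) (R : Y → Subring (LE (M * p) K)) (On : Y → ι → Prop)
      (Hor : LE (M * p) K → Prop),
      Fermat.Agent.S33.Geo.Model.IsModelI p ((p : ℕ) : OE A K) V R On Hor →
      Fermat.Agent.S33.Geo.Model.CoversCusp ((p : ℕ) : OE A K)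
        (alphaHom M p K (u4E M K h4)) R →
      ∀ f : LE (M * p) K, f ≠ 0 → Hor f →
        (∀ W, ∃ c : OE A K, c ≠ 0 ∧
          Fermat.Agent.S33.Geo.Top.DepthIn (V W) p ((p : ℕ) : OE A K) 1 f c) →
        ∃ (c : Qb) (k : Fb (M * p)),
          Fermat.Agent.S36.InvFun.upF (M * p) K f = algebraMap Qb (Fb (M * p)) c * k ^ p := by
  letI := algebraOL (OE A K) K (LE (M * p) K)
  haveI := isScalarTower_OL (OE A K) K (LE (M * p) K)
  intro V R On Hor D hcov f hf hHor h1
  have hinj : Function.Injective (algebraMap (OE A K) (LE (M * p) K)) :=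
    Fermat.Agent.S30.Model.ChartProv.algebraMap_injective_base (OE A K) K (LE (M * p) K)
  have hmax : IsLocalRing.maximalIdeal (OE A K) = Ideal.span {((p : ℕ) : OE A K)} :=
    (IsDiscreteValuationRing.irreducible_iff_uniformizer _).mp hπ
  have hperf : ∀ a : OE A K, ∃ b : OE A K, ((p : ℕ) : OE A K) ∣ a - b ^ p :=
    fun a => KummerPerf.exists_pow_sub_dvd A hp hA K hmax a
  obtain ⟨c, hc, -, hpt⟩ := D.top_core hp hπ hperf (top := 2) le_rfl hp.two_le (by simp) hinj
    f hf hHor h1
  have hcF : algebraMap (OE A K) (LE (M * p) K) c ≠ 0 := (map_ne_zero_iff _ hinj).mpr hc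
  have hU := LevelQ.transcendental_alpha_u4E M p K h4
  have hU0 : alphaHom M p K (u4E M K h4) ≠ 0 := fun h => hU (h ▸ isAlgebraic_zero)
  have h0 : ∀ 𝔪 : Ideal (integralClosure (Algebra.adjoin (OE A K)
        ({alphaHom M p K (u4E M K h4)} : Set (LE (M * p) K))) (LE (M * p) K)),
      𝔪.IsMaximal →
      ((p : ℕ) : integralClosure (Algebra.adjoin (OE A K)
        ({alphaHom M p K (u4E M K h4)} : Set (LE (M * p) K))) (LE (M * p) K)) ∈ 𝔪 →
      PthPoint.PowAt (Algebra.adjoin (OE A K)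
        ({alphaHom M p K (u4E M K h4)} : Set (LE (M * p) K))) p
        (f / algebraMap (OE A K) (LE (M * p) K) c) 𝔪 := by
    intro 𝔪 h𝔪 hp𝔪
    obtain ⟨y, hy⟩ := hcov.1 𝔪 h𝔪 (algebraMap_natCast_mem _ p 𝔪 hp𝔪)
    exact Fermat.Agent.S33.Geo.UnrExit.powAt_of_depthIn_locAt _ p 𝔪 h𝔪.isPrime hcF
      (hy ▸ hpt y)
  have hcusp : ∀ 𝔪 : Ideal (integralClosure (Algebra.adjoin (OE A K)
        ({(alphaHom M p K (u4E M K h4))⁻¹} : Set (LE (M * p) K))) (LE (M * p) K)),
      𝔪.IsMaximal →
      ((p : ℕ) : integralClosure (Algebra.adjoin (OE A K)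
        ({(alphaHom M p K (u4E M K h4))⁻¹} : Set (LE (M * p) K))) (LE (M * p) K)) ∈ 𝔪 →
      (∃ t : integralClosure (Algebra.adjoin (OE A K)
        ({(alphaHom M p K (u4E M K h4))⁻¹} : Set (LE (M * p) K))) (LE (M * p) K),
        (t : LE (M * p) K) = (alphaHom M p K (u4E M K h4))⁻¹ ∧ t ∈ 𝔪) →
      PthPoint.PowAt (Algebra.adjoin (OE A K)
        ({(alphaHom M p K (u4E M K h4))⁻¹} : Set (LE (M * p) K))) p
        (f / algebraMap (OE A K) (LE (M * p) K) c) 𝔪 := by
    intro 𝔪 h𝔪 hp𝔪 ht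
    obtain ⟨y, hy⟩ := hcov.2 𝔪 h𝔪 (algebraMap_natCast_mem _ p 𝔪 hp𝔪) ht
    exact Fermat.Agent.S33.Geo.UnrExit.powAt_of_depthIn_locAt _ p 𝔪 h𝔪.isPrime hcF
      (hy ▸ hpt y)
  obtain ⟨G, hG⟩ := Fermat.Agent.S33.Geo.UnrExit.exists_upF_pow_of_powAt A M p hp hp3 hpM h4 hA
    K z hz hzK hπ (f / algebraMap (OE A K) (LE (M * p) K) c) h0
    (ChartChange.hinf_of_h0 (alphaHom M p K (u4E M K h4)) hU0 p _ h0 hcusp)
  refine ⟨(((c : OE A K) : K) : Qb), G, ?_⟩
  have hca : Fermat.Agent.S36.InvFun.upF (M * p) K (algebraMap (OE A K) (LE (M * p) K) c)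
      = algebraMap Qb (Fb (M * p)) (((c : OE A K) : K) : Qb) := by
    rw [IsScalarTower.algebraMap_apply (OE A K) K (LE (M * p) K)]
    exact Fermat.Agent.S36.InvFun.upF_algebraMap (M * p) K _
  have hca0 : Fermat.Agent.S36.InvFun.upF (M * p) K (algebraMap (OE A K) (LE (M * p) K) c) ≠ 0 :=
    (_root_.map_ne_zero _).mpr hcF
  rw [map_div₀, div_eq_iff hca0] at hG
  rw [hG, hca]
  exact mul_comm _ _

/-- **B3 + B4 ⟹ B5 over one base field.**  `FunDesc.FunIE (M p) A p w K` from a model of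
`LE (M p) K` over `OE A K` (cusp form of the cover) whose horizontal predicate is implied by the
horizontal hypothesis on the two charts of `U = α u₄`, and the unit statement: a nonzero `y`
which is `1`-trivial at the Gauss valuation together with `w y` has depth `≥ 1` on every
component of the model. -/
theorem funIE_of_model (A : ValuationSubring Qb) (M p : ℕ) [NeZero M] [NeZero p]
    (hp : p.Prime) (hp3 : 3 ≤ p) (hpM : ¬ p ∣ M) (h4 : 4 ∣ M) (hA : A.LiesOverPrime p)
    (K : IntermediateField ℚ Qb) [FiniteDimensional ℚ K] [IsDiscreteValuationRing (OE A K)]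
    (z : Qb) (hz : IsPrimitiveRoot z M) (hzK : z ∈ K)
    (hπ : Irreducible ((p : ℕ) : OE A K))
    (w : Fermat.Agent.S30.Producer.FN (M * p) → Fermat.Agent.S30.Producer.FN (M * p))
    {ι Y : Type*} :
    letI := algebraOL (OE A K) K (LE (M * p) K)
    ∀ (V : ι → Subring (LE (M * p) K)) (R : Y → Subring (LE (M * p) K)) (On : Y → ι → Prop)
      (Hor : LE (M * p) K → Prop),
      (∀ f : LE (M * p) K,
        Horiz ((p : ℕ) : OE A K) p (alphaHom M p K (u4E M K h4)) f →
        Horiz ((p : ℕ) : OE A K) p (alphaHom M p K (u4E M K h4))⁻¹ f → Hor f) →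
      Fermat.Agent.S33.Geo.Model.IsModelI p ((p : ℕ) : OE A K) V R On Hor →
      Fermat.Agent.S33.Geo.Model.CoversCusp ((p : ℕ) : OE A K)
        (alphaHom M p K (u4E M K h4)) R →
      (∀ y : LE (M * p) K, y ≠ 0 →
        TrivAt (M * p) A p 1 (Fermat.Agent.S36.InvFun.upF (M * p) K y) →
        TrivAt (M * p) A p 1 (w (Fermat.Agent.S36.InvFun.upF (M * p) K y)) →
        ∀ W, ∃ c : OE A K, c ≠ 0 ∧
          Fermat.Agent.S33.Geo.Top.DepthIn (V W) p ((p : ℕ) : OE A K) 1 y c) →
      Fermat.Agent.S33.Geo.FunDesc.FunIE (M * p) A p w K := by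
  letI := algebraOL (OE A K) K (LE (M * p) K)
  haveI := isScalarTower_OL (OE A K) K (LE (M * p) K)
  intro V R On Hor hHor D hcov hunit y hy0 hdiv ht htw
  have hh := Fermat.Agent.S44.L.Alt.DescHoriz.horiz_desc M p A K hp hpM h4 _ hπ p y hy0 hdiv
  exact exit_of_modelI A M p hp hp3 hpM h4 hA K z hz hzK hπ V R On Hor D hcov y hy0
    (hHor y hh.1 hh.2.1) (hunit y hy0 ht htw)

end Fermat.Agent.S33.Geo.FunI
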