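import Mathlib
import Fermat.Agent.S36.Descent

/-!
# S33, COV' brick C8 (descent half): descent of invariant Kummer classes in a subfield of `ℚ̄((q))`

A port of the landed `S36/Descent.exists_invariant_rep_subgroup` from the function field `Fb N`
to an arbitrary subfield `S` of `ℚ̄((q))` containing the constants (in the application
`S = L̄ = FN(T_1, …, T_s)`, `T_i ^ p = y_i`).

* `exists_coeff_field` : the coefficients of an element of `ℚ̄(j(q^d) : d ∣ N)` lie in a finite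
  extension of `ℚ` (the hypothesis `hcoef` below for `f` in the function field).
* `exists_invariant_rep_subfield` : `I ≤ Gal(ℚ̄/ℚ)` any subgroup acting coefficientwise, `f ∈ S`
  nonzero with coefficients in a finite extension of `ℚ`; if the Kummer class of `f` in
  `S^× / (S^×)^m` is `I`-invariant (`∀ τ ∈ I, ∃ k ∈ S, τ f = f * k ^ m`), then `f = f₀ * h ^ m`
  with `f₀, h ∈ S`, `τ f₀ = f₀` for all `τ ∈ I`, and the coefficients of `f₀` lie in ONE finite
  extension `E` of `ℚ` (the finite-level half: they lie in `E ∩ ℚ̄^I`).  There is no constant in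
  the exit: the constants lie in `S` and `ℚ̄` is algebraically closed, so a constant
  `c = (c ^ (1/m)) ^ m` is absorbed into `h`.  `S` need not be stable under `I`: only the
  witnesses `k` of the invariance are required to lie in `S`.

Proof (Hilbert 90 with normalised roots, as in `S36/Descent`): normalise the leading coefficient
of `f` to `1`; for `τ ∈ I` let `w τ ∈ S` be THE `m`-th root of `τ f / f` with leading coefficient
`1`; `w (σ τ) = w σ * σ (w τ)`; `w τ` depends only on `τ|E`, `E` the normal closure of a finite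
coefficient field of `f`, and has coefficients in `E` (uniqueness + the fixed field of
`Gal(ℚ̄/E)` is `E`).  A Poincaré sum `b = ∑_{g ∈ Gal(E/ℚ)} c_g · g(x)` is nonzero for a suitable
`x ∈ E` and satisfies `σ b * w σ = b`; so `f * b ^ m` is `I`-invariant.
-/

set_option autoImplicit false

noncomputable section

namespace Fermat.Agent.S33.Geo.DescGen

open HahnSeries ModularCurve

local notation "Qb" => AlgebraicClosure ℚ
local notation "Gq" => (AlgebraicClosure ℚ ≃ₐ[ℚ] AlgebraicClosure ℚ)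

/-! ### The coefficientwise action -/

/-- The coefficientwise action of `Gal(ℚ̄/ℚ)` on `ℚ̄((q))`. -/
def act (τ : Gq) : LaurentSeries Qb →+* LaurentSeries Qb := coeffMap (τ : Qb →+* Qb)

theorem act_coeff (τ : Gq) (x : LaurentSeries Qb) (n : ℤ) :
    (act τ x).coeff n = τ (x.coeff n) := rfl

theorem act_mul (σ τ : Gq) (x : LaurentSeries Qb) : act (σ * τ) x = act σ (act τ x) := by
  ext n
  rw [act_coeff, act_coeff, act_coeff, AlgEquiv.mul_apply]

theorem act_algebraMap (σ : Gq) (c : Qb) :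
    act σ (algebraMap Qb (LaurentSeries Qb) c) = algebraMap Qb (LaurentSeries Qb) (σ c) :=
  coeffMap_algebraMap (σ : Qb →+* Qb) c

theorem lc_act (σ : Gq) (x : LaurentSeries Qb) :
    (act σ x).leadingCoeff = σ x.leadingCoeff :=
  Fermat.Agent.S36.Descent.leadingCoeff_coeffMap _ _

/-! ### Series with coefficients in an intermediate field -/

theorem coeff_mul_mem {E : IntermediateField ℚ Qb} {x y : LaurentSeries Qb}
    (hx : ∀ n : ℤ, x.coeff n ∈ E) (hy : ∀ n : ℤ, y.coeff n ∈ E) (n : ℤ) :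
    (x * y).coeff n ∈ E := by
  rw [HahnSeries.coeff_mul]
  exact sum_mem fun ij _ => mul_mem (hx _) (hy _)

theorem coeff_algebraMap_mem {E : IntermediateField ℚ Qb} {c : Qb} (hc : c ∈ E) (n : ℤ) :
    (algebraMap Qb (LaurentSeries Qb) c).coeff n ∈ E := by
  rw [algebraMap_laurentSeries_eq_single]
  by_cases h : n = 0
  · subst h
    rw [HahnSeries.coeff_single_same]
    exact hc
  · rw [HahnSeries.coeff_single_of_ne h]
    exact zero_mem E

theorem coeff_one_mem (E : IntermediateField ℚ Qb) (n : ℤ) :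
    (1 : LaurentSeries Qb).coeff n ∈ E := by
  have h := coeff_algebraMap_mem (E := E) (c := 1) (one_mem E) n
  rwa [map_one] at h

theorem coeff_pow_mem {E : IntermediateField ℚ Qb} {x : LaurentSeries Qb}
    (hx : ∀ n : ℤ, x.coeff n ∈ E) (k : ℕ) (n : ℤ) : (x ^ k).coeff n ∈ E := by
  induction k generalizing n with
  | zero => rw [pow_zero]; exact coeff_one_mem E n
  | succ k ih => rw [pow_succ]; exact coeff_mul_mem ih hx n

theorem coeff_sum_mem {E : IntermediateField ℚ Qb} {ι : Type*} (s : Finset ι)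
    (y : ι → LaurentSeries Qb) (h : ∀ i ∈ s, ∀ n : ℤ, (y i).coeff n ∈ E) (n : ℤ) :
    (∑ i ∈ s, y i).coeff n ∈ E := by
  rw [HahnSeries.coeff_sum]
  exact sum_mem fun i hi => h i hi n

/-! ### The fixed field of `Gal(ℚ̄/E)` -/

theorem isGalois_rat_Qb : IsGalois ℚ Qb := by
  have h : (DivisionRing.toRatAlgebra : Algebra ℚ (AlgebraicClosure ℚ)) =
      AlgebraicClosure.instAlgebra ℚ := Subsingleton.elim _ _
  rw [h]; infer_instance

/-- An element of `ℚ̄` fixed by every automorphism fixing `E` pointwise lies in `E`. -/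
theorem mem_of_fixed (E : IntermediateField ℚ Qb) (z : Qb)
    (hz : ∀ υ : Gq, (∀ e ∈ E, υ e = e) → υ z = z) : z ∈ E := by
  have : IsGalois ℚ Qb := isGalois_rat_Qb
  have h1 : IntermediateField.fixedField E.fixingSubgroup = E :=
    InfiniteGalois.fixedField_fixingSubgroup E
  have h2 : z ∈ IntermediateField.fixedField E.fixingSubgroup := by
    rw [IntermediateField.mem_fixedField_iff]
    intro υ hυ
    exact hz υ ((IntermediateField.mem_fixingSubgroup_iff E υ).mp hυ)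
  rwa [h1] at h2

/-! ### The coefficient field of an element of the function field -/

/-- The coefficients of an element of `ℚ̄(j(q^d) : d ∣ N) ⊆ ℚ̄((q))` lie in a finite extension of
`ℚ`: the hypothesis `hcoef` of `exists_invariant_rep_subfield` for `f` in the function field. -/
theorem exists_coeff_field (N : ℕ) (x : LaurentSeries Qb) (hx : x ∈ modularFunctionFieldBar N) :
    ∃ E₀ : IntermediateField ℚ Qb, FiniteDimensional ℚ E₀ ∧ ∀ n : ℤ, x.coeff n ∈ E₀ := by
  obtain ⟨E₀, hE₀, hdesc⟩ :=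
    Fermat.Agent.S30.GaussDescent.exists_descent (modularFunctionFieldFull N) hx
  obtain ⟨y, -, hy⟩ := hdesc E₀ le_rfl
  refine ⟨E₀, hE₀, fun n => ?_⟩
  rw [← hy]
  show algebraMap (↥E₀) Qb (y.coeff n) ∈ E₀
  exact (y.coeff n).2

/-! ### Hilbert 90 with normalised roots -/

/-- Existence of a normalised root. -/
theorem exists_normalised_root_sub (S : Subfield (LaurentSeries Qb))
    (hconst : ∀ c : Qb, algebraMap Qb (LaurentSeries Qb) c ∈ S) {m : ℕ} (hm : 0 < m)
    {f : LaurentSeries Qb} (hlc : f.leadingCoeff = 1) {τ : Gq} (k : LaurentSeries Qb)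
    (hkS : k ∈ S) (hk : act τ f = f * k ^ m) :
    ∃ w : LaurentSeries Qb, w ∈ S ∧ act τ f = f * w ^ m ∧ w.leadingCoeff = 1 := by
  have h1 : k.leadingCoeff ^ m = 1 := by
    have h0 : (act τ f).leadingCoeff = (f * k ^ m).leadingCoeff := by rw [hk]
    rw [lc_act, hlc, map_one, leadingCoeff_mul, hlc, one_mul,
      Fermat.Agent.S36.Descent.leadingCoeff_pow_eq] at h0
    exact h0.symm
  have hc : k.leadingCoeff ≠ 0 := by
    intro h0; rw [h0, zero_pow hm.ne'] at h1; exact zero_ne_one h1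
  refine ⟨k * algebraMap Qb (LaurentSeries Qb) (k.leadingCoeff)⁻¹, mul_mem hkS (hconst _), ?_, ?_⟩
  · rw [mul_pow, ← map_pow, inv_pow, h1, inv_one, map_one, mul_one]; exact hk
  · rw [leadingCoeff_mul, Fermat.Agent.S36.Descent.leadingCoeff_algebraMap, mul_inv_cancel₀ hc]

/-- **Poincaré sum.**  If `lc f = 1`, the coefficients of `f` lie in a finite extension of `ℚ`
and the class of `f` in `S^× / (S^×)^m` is `I`-invariant, there is `b ∈ S`, `b ≠ 0`, with
`f * b ^ m` fixed by `I`; the coefficients of `f` and `b` lie in one finite extension. -/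
theorem exists_poincare_sub (S : Subfield (LaurentSeries Qb))
    (hconst : ∀ c : Qb, algebraMap Qb (LaurentSeries Qb) c ∈ S) (I : Subgroup Gq)
    {m : ℕ} (hm : 0 < m) (f : LaurentSeries Qb) (hf : f ≠ 0) (hlc : f.leadingCoeff = 1)
    (hcoef : ∃ E₀ : IntermediateField ℚ Qb, FiniteDimensional ℚ E₀ ∧ ∀ n : ℤ, f.coeff n ∈ E₀)
    (hinv : ∀ τ ∈ I, ∃ k : LaurentSeries Qb, k ∈ S ∧ act τ f = f * k ^ m) :
    ∃ b : LaurentSeries Qb, b ∈ S ∧ b ≠ 0 ∧
      (∃ E : IntermediateField ℚ Qb, FiniteDimensional ℚ E ∧ (∀ n : ℤ, f.coeff n ∈ E) ∧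
        ∀ n : ℤ, b.coeff n ∈ E) ∧
      ∀ σ ∈ I, act σ (f * b ^ m) = f * b ^ m := by
  classical
  -- normalised roots
  have hroot : ∀ τ : Gq, ∃ w : LaurentSeries Qb, w ∈ S ∧
      (τ ∈ I → (act τ f = f * w ^ m ∧ w.leadingCoeff = 1)) := by
    intro τ
    by_cases hτ : τ ∈ I
    · obtain ⟨k, hkS, hk⟩ := hinv τ hτ
      obtain ⟨w, hwS, hw⟩ := exists_normalised_root_sub S hconst hm hlc k hkS hk
      exact ⟨w, hwS, fun _ => hw⟩
    · exact ⟨1, one_mem S, fun h => absurd h hτ⟩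
  choose w hwS hw using hroot
  have huniq : ∀ τ ∈ I, ∀ v : LaurentSeries Qb, act τ f = f * v ^ m → v.leadingCoeff = 1 →
      v = w τ := by
    intro τ hτ v hv hvlc
    obtain ⟨h1, h2⟩ := hw τ hτ
    refine Fermat.Agent.S36.Descent.eq_of_pow_eq_of_leadingCoeff_eq hm ?_ ?_ (hvlc.trans h2.symm)
    · intro h0
      rw [h0, leadingCoeff_zero] at h2
      exact zero_ne_one h2
    · exact mul_left_cancel₀ hf (hv.symm.trans h1)
  have hcoc : ∀ σ ∈ I, ∀ τ ∈ I, w (σ * τ) = w σ * act σ (w τ) := by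
    intro σ hσ τ hτ
    obtain ⟨h1, h2⟩ := hw σ hσ
    obtain ⟨h3, h4⟩ := hw τ hτ
    refine (huniq (σ * τ) (I.mul_mem hσ hτ) _ ?_ ?_).symm
    · rw [act_mul, h3, map_mul, map_pow, h1, mul_pow, mul_assoc]
    · rw [leadingCoeff_mul, h2, lc_act, h4, map_one, one_mul]
  -- the coefficient field
  obtain ⟨E₀, hE₀, hfE₀⟩ := hcoef
  have : Normal ℚ Qb := Fermat.Agent.S36.Descent.normal_rat_Qb
  let E : IntermediateField ℚ Qb := IntermediateField.normalClosure ℚ E₀ Qb
  have hEfin : FiniteDimensional ℚ E := normalClosure.is_finiteDimensional ℚ E₀ Qb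
  have hEnorm : Normal ℚ E := normalClosure.normal ℚ E₀ Qb
  have hfE : ∀ n : ℤ, f.coeff n ∈ E := fun n =>
    IntermediateField.le_normalClosure E₀ (hfE₀ n)
  let r : Gq →* (E ≃ₐ[ℚ] E) := AlgEquiv.restrictNormalHom E
  have hr : ∀ (σ : Gq) (x : E), algebraMap E Qb (r σ x) = σ (algebraMap E Qb x) :=
    fun σ x => AlgEquiv.restrictNormal_commutes σ E x
  -- `τ` maps `E` into `E`; `τ` trivial on `E` fixes `E` pointwise
  have hτE : ∀ (τ : Gq) (z : Qb), z ∈ E → τ z ∈ E := by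
    intro τ z hz
    have h1 : τ z = algebraMap E Qb (r τ ⟨z, hz⟩) := (hr τ ⟨z, hz⟩).symm
    rw [h1]
    exact (r τ ⟨z, hz⟩).2
  have hfixE : ∀ τ : Gq, r τ = 1 → ∀ z : Qb, z ∈ E → τ z = z := by
    intro τ hτ z hz
    have h1 := hr τ ⟨z, hz⟩
    rw [hτ] at h1
    exact h1.symm
  -- `τ` trivial on `E` fixes `f`
  have hfix : ∀ τ : Gq, r τ = 1 → act τ f = f := by
    intro τ hτ
    ext n
    rw [act_coeff]
    exact hfixE τ hτ _ (hfE n)
  have hw1 : ∀ υ ∈ I, r υ = 1 → w υ = 1 := by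
    intro υ hυ h1
    refine (huniq υ hυ 1 ?_ leadingCoeff_one).symm
    rw [hfix υ h1, one_pow, mul_one]
  have hconstw : ∀ σ ∈ I, ∀ σ' ∈ I, r σ = r σ' → w σ = w σ' := by
    intro σ hσ σ' hσ' h
    have hυ : σ⁻¹ * σ' ∈ I := I.mul_mem (I.inv_mem hσ) hσ'
    have h1 : r (σ⁻¹ * σ') = 1 := by rw [map_mul, map_inv, h, inv_mul_cancel]
    have h2 : σ' = σ * (σ⁻¹ * σ') := by rw [mul_inv_cancel_left]
    rw [h2, hcoc σ hσ _ hυ, hw1 _ hυ h1, map_one, mul_one]
  -- the normalised roots have coefficients in `E`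
  have hwE : ∀ τ ∈ I, ∀ n : ℤ, (w τ).coeff n ∈ E := by
    intro τ hτ n
    refine mem_of_fixed E _ fun υ hυ => ?_
    have hυf : act υ f = f := by
      ext k
      rw [act_coeff]
      exact hυ _ (hfE k)
    have hυτf : act υ (act τ f) = act τ f := by
      ext k
      show υ (τ (f.coeff k)) = τ (f.coeff k)
      exact hυ _ (hτE τ _ (hfE k))
    obtain ⟨h1, h2⟩ := hw τ hτ
    have h3 : act υ (w τ) = w τ := by
      refine huniq τ hτ _ ?_ ?_
      · have h4 : act υ (act τ f) = act υ (f * w τ ^ m) := by rw [← h1]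
        rw [hυτf, map_mul, map_pow, hυf] at h4
        exact h4
      · rw [lc_act, h2, map_one]
    have h5 : (act υ (w τ)).coeff n = (w τ).coeff n := by rw [h3]
    rw [act_coeff] at h5
    exact h5
  -- the coefficients of the Poincaré sum
  let c : (E ≃ₐ[ℚ] E) → LaurentSeries Qb := fun g =>
    if h : ∃ τ, τ ∈ I ∧ r τ = g then w (Classical.choose h) else 0
  have hc_of : ∀ τ ∈ I, c (r τ) = w τ := by
    intro τ hτ
    have h : ∃ τ', τ' ∈ I ∧ r τ' = r τ := ⟨τ, hτ, rfl⟩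
    show (if h : ∃ τ', τ' ∈ I ∧ r τ' = r τ then w (Classical.choose h) else 0) = w τ
    rw [dif_pos h]
    exact hconstw _ (Classical.choose_spec h).1 τ hτ (Classical.choose_spec h).2
  have hc_zero : ∀ g, (¬ ∃ τ, τ ∈ I ∧ r τ = g) → c g = 0 := by
    intro g h
    show (if h : ∃ τ', τ' ∈ I ∧ r τ' = g then w (Classical.choose h) else 0) = 0
    rw [dif_neg h]
  have hcS : ∀ g, c g ∈ S := by
    intro g
    by_cases h : ∃ τ, τ ∈ I ∧ r τ = g
    · obtain ⟨τ, hτ, rfl⟩ := h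
      rw [hc_of τ hτ]
      exact hwS τ
    · rw [hc_zero g h]
      exact zero_mem S
  have hcE : ∀ g, ∀ n : ℤ, (c g).coeff n ∈ E := by
    intro g
    by_cases h : ∃ τ, τ ∈ I ∧ r τ = g
    · obtain ⟨τ, hτ, rfl⟩ := h
      rw [hc_of τ hτ]
      exact hwE τ hτ
    · rw [hc_zero g h]
      intro n
      rw [HahnSeries.coeff_zero]
      exact zero_mem E
  have hstep : ∀ σ ∈ I, ∀ g, act σ (c g) * w σ = c (r σ * g) := by
    intro σ hσ g
    by_cases h : ∃ τ, τ ∈ I ∧ r τ = g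
    · obtain ⟨τ, hτ, rfl⟩ := h
      rw [hc_of τ hτ, ← map_mul r, hc_of (σ * τ) (I.mul_mem hσ hτ), hcoc σ hσ τ hτ, mul_comm]
    · rw [hc_zero g h, map_zero, zero_mul]
      symm
      apply hc_zero
      rintro ⟨τ', hτ', h'⟩
      apply h
      refine ⟨σ⁻¹ * τ', I.mul_mem (I.inv_mem hσ) hτ', ?_⟩
      rw [map_mul, map_inv, h', inv_mul_cancel_left]
  -- the characters
  let ψ : E →+* LaurentSeries Qb := (algebraMap Qb (LaurentSeries Qb)).comp (algebraMap E Qb)
  have hψinj : Function.Injective ψ := ψ.injective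
  let φ : (E ≃ₐ[ℚ] E) → (E →* LaurentSeries Qb) := fun g =>
    (ψ : E →* LaurentSeries Qb).comp ((g : E →+* E) : E →* E)
  have hφ : ∀ g x, φ g x = ψ (g x) := fun _ _ => rfl
  have hφinj : Function.Injective φ := by
    intro g g' h
    ext x
    have h1 : φ g x = φ g' x := by rw [h]
    rw [hφ, hφ] at h1
    exact congrArg _ (hψinj h1)
  have hLI : LinearIndependent (LaurentSeries Qb)
      (fun g : E ≃ₐ[ℚ] E => (φ g : E → LaurentSeries Qb)) :=
    (linearIndependent_monoidHom E (LaurentSeries Qb)).comp φ hφinj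
  have hc1 : c 1 = 1 := by
    have h1 := hc_of 1 I.one_mem
    rw [map_one] at h1
    rw [h1]
    exact hw1 1 I.one_mem (map_one r)
  obtain ⟨x, hx⟩ : ∃ x : E, ∑ g : E ≃ₐ[ℚ] E, c g * φ g x ≠ 0 := by
    by_contra hcon
    have hcon' : ∀ x : E, ∑ g : E ≃ₐ[ℚ] E, c g * φ g x = 0 := fun x =>
      not_not.mp fun h => hcon ⟨x, h⟩
    have h0 : ∑ g : E ≃ₐ[ℚ] E, c g • (φ g : E → LaurentSeries Qb) = 0 := by
      funext x
      rw [Finset.sum_apply]
      simpa using hcon' x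
    have h1 := Fintype.linearIndependent_iff.mp hLI c h0 1
    rw [hc1] at h1
    exact one_ne_zero h1
  have hφS : ∀ g : E ≃ₐ[ℚ] E, φ g x ∈ S := by
    intro g
    show algebraMap Qb (LaurentSeries Qb) (algebraMap E Qb (g x)) ∈ S
    exact hconst _
  have hφE : ∀ g : E ≃ₐ[ℚ] E, ∀ n : ℤ, (φ g x).coeff n ∈ E := by
    intro g
    show ∀ n : ℤ, (algebraMap Qb (LaurentSeries Qb) (algebraMap E Qb (g x))).coeff n ∈ E
    exact coeff_algebraMap_mem (g x).2
  refine ⟨∑ g : E ≃ₐ[ℚ] E, c g * φ g x, sum_mem fun g _ => mul_mem (hcS g) (hφS g), hx,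
    ⟨E, hEfin, hfE, coeff_sum_mem _ _ fun g _ => coeff_mul_mem (hcE g) (hφE g)⟩, ?_⟩
  intro σ hσ
  -- `σ b * w σ = b`
  have hgalφ : ∀ g : E ≃ₐ[ℚ] E, act σ (φ g x) = φ (r σ * g) x := by
    intro g
    rw [hφ, hφ]
    show act σ (algebraMap Qb (LaurentSeries Qb) (algebraMap E Qb (g x))) =
      algebraMap Qb (LaurentSeries Qb) (algebraMap E Qb ((r σ * g) x))
    rw [act_algebraMap, ← hr σ (g x)]
    rfl
  have hb : act σ (∑ g : E ≃ₐ[ℚ] E, c g * φ g x) * w σ = ∑ g : E ≃ₐ[ℚ] E, c g * φ g x := by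
    rw [map_sum, Finset.sum_mul]
    have h1 : ∀ g : E ≃ₐ[ℚ] E, act σ (c g * φ g x) * w σ = c (r σ * g) * φ (r σ * g) x := by
      intro g
      rw [map_mul, hgalφ, mul_right_comm, hstep σ hσ g]
    rw [Finset.sum_congr rfl fun g _ => h1 g]
    exact Fintype.sum_equiv (Equiv.mulLeft (r σ)) _ _ fun g => rfl
  obtain ⟨h1, -⟩ := hw σ hσ
  rw [map_mul, map_pow, h1, mul_assoc, ← mul_pow, mul_comm (w σ), hb]

/-- **Descent of invariant Kummer classes (Hilbert 90) in a subfield of `ℚ̄((q))`.**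
`S` a subfield of `ℚ̄((q))` containing the constants, `I` a subgroup of `Gal(ℚ̄/ℚ)` acting
coefficientwise, `f ∈ S` nonzero with coefficients in a finite extension of `ℚ`.  If the class of
`f` in `S^× / (S^×)^m` is `I`-invariant, then `f = f₀ * h ^ m` with `f₀, h ∈ S`, `f₀` fixed by
`I`, and the coefficients of `f₀` lie in one finite extension of `ℚ`.  (No constant in the exit:
constants lie in `S` and `ℚ̄` is algebraically closed, so they are absorbed into `h`.) -/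
theorem exists_invariant_rep_subfield (S : Subfield (LaurentSeries Qb))
    (hconst : ∀ c : Qb, algebraMap Qb (LaurentSeries Qb) c ∈ S) (I : Subgroup Gq)
    {m : ℕ} (hm : 0 < m) (f : LaurentSeries Qb) (hfS : f ∈ S) (hf : f ≠ 0)
    (hcoef : ∃ E₀ : IntermediateField ℚ Qb, FiniteDimensional ℚ E₀ ∧ ∀ n : ℤ, f.coeff n ∈ E₀)
    (hinv : ∀ τ ∈ I, ∃ k : LaurentSeries Qb, k ∈ S ∧ coeffMap (τ : Qb →+* Qb) f = f * k ^ m) :
    ∃ f0 : LaurentSeries Qb, f0 ∈ S ∧ ∃ h : LaurentSeries Qb, h ∈ S ∧ h ≠ 0 ∧ f = f0 * h ^ m ∧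
      (∀ τ ∈ I, coeffMap (τ : Qb →+* Qb) f0 = f0) ∧
      ∃ E : IntermediateField ℚ Qb, FiniteDimensional ℚ E ∧ ∀ n : ℤ, f0.coeff n ∈ E := by
  obtain ⟨a, ha⟩ : ∃ a : Qb, a = f.leadingCoeff := ⟨_, rfl⟩
  have hc : a ≠ 0 := by
    rw [ha]
    exact leadingCoeff_ne_zero.mpr hf
  obtain ⟨f₁, hf₁⟩ : ∃ f₁ : LaurentSeries Qb,
      f₁ = f * algebraMap Qb (LaurentSeries Qb) a⁻¹ := ⟨_, rfl⟩
  have hf₁S : f₁ ∈ S := by
    rw [hf₁]
    exact mul_mem hfS (hconst _)
  have hf₁0 : f₁ ≠ 0 := by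
    rw [hf₁]
    refine mul_ne_zero hf ?_
    rw [Ne, map_eq_zero]
    exact inv_ne_zero hc
  have hlc₁ : f₁.leadingCoeff = 1 := by
    rw [hf₁, leadingCoeff_mul, Fermat.Agent.S36.Descent.leadingCoeff_algebraMap, ← ha,
      mul_inv_cancel₀ hc]
  have hff₁ : f = f₁ * algebraMap Qb (LaurentSeries Qb) a := by
    rw [hf₁, mul_assoc, ← map_mul, inv_mul_cancel₀ hc, map_one, mul_one]
  obtain ⟨E₀, hE₀, hfE₀⟩ := hcoef
  have haE : a ∈ E₀ := by
    rw [ha, leadingCoeff_eq]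
    exact hfE₀ _
  have hf₁E : ∀ n : ℤ, f₁.coeff n ∈ E₀ := by
    rw [hf₁]
    exact coeff_mul_mem hfE₀ (coeff_algebraMap_mem (inv_mem haE))
  have hinv₁ : ∀ τ ∈ I, ∃ k : LaurentSeries Qb, k ∈ S ∧ act τ f₁ = f₁ * k ^ m := by
    intro τ hτ
    obtain ⟨k, hkS, hk⟩ := hinv τ hτ
    have hk' : act τ f = f * k ^ m := hk
    obtain ⟨d, hd⟩ := IsAlgClosed.exists_pow_nat_eq (a * (τ a)⁻¹) hm
    refine ⟨k * algebraMap Qb (LaurentSeries Qb) d, mul_mem hkS (hconst _), ?_⟩
    rw [hf₁, map_mul, hk', act_algebraMap, mul_pow, ← map_pow, hd, map_mul, map_inv₀]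
    have h1 : algebraMap Qb (LaurentSeries Qb) a⁻¹ * algebraMap Qb (LaurentSeries Qb) a = 1 := by
      rw [← map_mul, inv_mul_cancel₀ hc, map_one]
    calc f * k ^ m * algebraMap Qb (LaurentSeries Qb) (τ a)⁻¹
        = f * k ^ m * (algebraMap Qb (LaurentSeries Qb) a⁻¹ *
            algebraMap Qb (LaurentSeries Qb) a) *
            algebraMap Qb (LaurentSeries Qb) (τ a)⁻¹ := by rw [h1, mul_one]
      _ = f * algebraMap Qb (LaurentSeries Qb) a⁻¹ *
            (k ^ m * (algebraMap Qb (LaurentSeries Qb) a *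
              algebraMap Qb (LaurentSeries Qb) (τ a)⁻¹)) := by ring
  obtain ⟨b, hbS, hb0, ⟨E, hEfin, hf₁E', hbE⟩, hb⟩ :=
    exists_poincare_sub S hconst I hm f₁ hf₁0 hlc₁ ⟨E₀, hE₀, hf₁E⟩ hinv₁
  obtain ⟨e, he⟩ := IsAlgClosed.exists_pow_nat_eq a hm
  have he0 : e ≠ 0 := by
    rintro rfl
    rw [zero_pow hm.ne'] at he
    exact hc he.symm
  refine ⟨f₁ * b ^ m, mul_mem hf₁S (pow_mem hbS m),
    b⁻¹ * algebraMap Qb (LaurentSeries Qb) e, mul_mem (inv_mem hbS) (hconst _), ?_, ?_, hb,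
    E, hEfin, coeff_mul_mem hf₁E' (coeff_pow_mem hbE m)⟩
  · refine mul_ne_zero (inv_ne_zero hb0) ?_
    rw [Ne, map_eq_zero]
    exact he0
  · rw [mul_pow, ← map_pow, he, inv_pow, hff₁]
    have h2 : b ^ m * (b ^ m)⁻¹ = 1 := mul_inv_cancel₀ (pow_ne_zero m hb0)
    calc f₁ * algebraMap Qb (LaurentSeries Qb) a
        = f₁ * (b ^ m * (b ^ m)⁻¹) * algebraMap Qb (LaurentSeries Qb) a := by
          rw [h2, mul_one]
      _ = f₁ * b ^ m * ((b ^ m)⁻¹ * algebraMap Qb (LaurentSeries Qb) a) := by ring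

end Fermat.Agent.S33.Geo.DescGen
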