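import Mathlib
import Fermat.Agent.S33.Geo.FunLevel
import Fermat.Agent.S33.Geo.GaSat
import Fermat.Agent.S33.Geo.DescGen
import Fermat.Agent.S36.Descent
import Fermat.Agent.S44.L.RootLS
import Fermat.Agent.S24.FibreCount.ValPlace

/-!
# S33 (GEO, COV'), row C8q: the cover data of a function satisfying `GoodII0`

Function level, over `ℚ̄` (no model, no number field).  Let `x` satisfy `FunLevel.GoodII0` at
the level `L`, for a valuation subring `A` of `ℚ̄` over `p` with inertia group `I`, and let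
`I₁ ≤ I` be the subgroup fixing the `p`-th roots of unity (`inertiaOne`).

* the functions `σ x / x` (`σ ∈ I`) take finitely many values; each value is replaced, in its
  class modulo `p`-th powers, by a function `y i` of leading coefficient `1` which is FIXED by
  `I₁` (Hilbert 90 with normalised roots, `S36/Descent`);
* every `y i` has divisor divisible by `p`, is trivial at both Gauss valuations, is an
  eigenclass of `I` for the cyclotomic character, and has `q`-order divisible by `p`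
  (`dvd_order_of_divBy`: the `q`-order is the order at a place);
* `T i` is the `p`-th root of `y i` of leading coefficient `1` among the `q`-series; it is
  fixed by `I₁`;
* in the field `ℚ̄(X₀(L))(T i)` the class of `x` is `I`-invariant, so `x = F' * H ^ p` there
  with `F'` fixed by `I` coefficientwise (`DescGen`);
* all these series have their coefficients in one finite extension of `ℚ`.

`CoverData` packages the statement; `exists_coverData` is the row.
-/

set_option autoImplicit false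
set_option linter.style.haveILetI false

open HahnSeries ModularCurve AlgebraicCurve

noncomputable section

namespace Fermat.Agent.S33.Geo.FunII0Data

open Fermat.Agent.S30 Fermat.Agent.S30.Producer
open Fermat.Agent.S33.Geo.Contract Fermat.Agent.S33.Geo.FunLevel
open Fermat.Agent.S36 Fermat.Agent.S44.L

/-! ### The order at the cusp `∞` -/

/-- The `q`-order is an order function on the function field. -/
theorem isOrd_order (L : ℕ) :
    Fermat.Agent.S24.FibreCount.ValPlace.IsOrd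
      (fun f : FN L => (f : LaurentSeries Qb).order) := by
  refine ⟨fun a b ha hb => ?_, fun a b ha hb hab => ?_⟩
  · exact HahnSeries.order_mul (GaSat.coe_ne_zero_FN L ha) (GaSat.coe_ne_zero_FN L hb)
  · exact HahnSeries.min_order_le_order_add (GaSat.coe_ne_zero_FN L hab)

/-- **A function whose divisor is divisible by `m` has `q`-order divisible by `m`.** -/
theorem dvd_order_of_divBy {L m : ℕ} {x : FN L} (hx0 : x ≠ 0) (h : E4.DivBy L m x) :
    (m : ℤ) ∣ (x : LaurentSeries Qb).order := by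
  by_cases h0 : (x : LaurentSeries Qb).order = 0
  · rw [h0]
    exact dvd_zero _
  have hu := isOrd_order L
  have hK : ∀ c : Qb, c ≠ 0 →
      (fun f : FN L => (f : LaurentSeries Qb).order) (algebraMap Qb (FN L) c) = 0 := by
    intro c hc
    show ((algebraMap Qb (FN L) c : FN L) : LaurentSeries Qb).order = 0
    rw [GaSat.coe_algebraMap_FN]
    exact HahnSeries.order_C
  have hnt : ∃ t : FN L, t ≠ 0 ∧ 0 < (fun f : FN L => (f : LaurentSeries Qb).order) t := by
    rcases lt_or_gt_of_ne h0 with hlt | hgt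
    · refine ⟨x⁻¹, inv_ne_zero hx0, ?_⟩
      have h2 : ((x⁻¹ : FN L) : LaurentSeries Qb).order = -(x : LaurentSeries Qb).order :=
        hu.map_inv hx0
      show 0 < ((x⁻¹ : FN L) : LaurentSeries Qb).order
      rw [h2]
      omega
    · exact ⟨x, hx0, hgt⟩
  obtain ⟨κ, -, -, hκ⟩ :=
    Fermat.Agent.S24.FibreCount.ValPlace.exists_ramification_placeOfOrd hu hK hnt
  have h3 : (x : LaurentSeries Qb).order
      = κ * (Fermat.Agent.S24.FibreCount.ValPlace.placeOfOrd hu hK hnt).ord x := hκ x hx0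
  rw [h3]
  exact Dvd.dvd.mul_left (h _) κ

/-! ### Series fixed by the Galois group of a finite extension -/

/-- `z` is fixed coefficientwise by the absolute Galois group of some finite extension of
`ℚ` (equivalently: its coefficients lie in a finite extension of `ℚ`). -/
def FinFix (z : LaurentSeries Qb) : Prop :=
  ∃ E : IntermediateField ℚ Qb, FiniteDimensional ℚ E ∧
    ∀ τ : GQ, (∀ e ∈ E, τ e = e) → coeffMap (τ : Qb →+* Qb) z = z

theorem finFix_of_coeff {z : LaurentSeries Qb} (E : IntermediateField ℚ Qb)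
    (hE : FiniteDimensional ℚ E) (h : ∀ n : ℤ, z.coeff n ∈ E) : FinFix z := by
  refine ⟨E, hE, fun τ hτ => ?_⟩
  ext n
  rw [coeffMap_coeff]
  exact hτ _ (h n)

theorem finFix_coe (L : ℕ) (x : FN L) : FinFix (x : LaurentSeries Qb) := by
  obtain ⟨E, hE, h⟩ := DescGen.exists_coeff_field L (x : LaurentSeries Qb) x.2
  exact finFix_of_coeff E hE h

theorem FinFix.mul {a b : LaurentSeries Qb} (ha : FinFix a) (hb : FinFix b) :
    FinFix (a * b) := by
  obtain ⟨E₁, h₁, ha⟩ := ha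
  obtain ⟨E₂, h₂, hb⟩ := hb
  refine ⟨E₁ ⊔ E₂, IntermediateField.finiteDimensional_sup E₁ E₂, fun τ hτ => ?_⟩
  rw [map_mul, ha τ fun e he => hτ e ((le_sup_left : E₁ ≤ E₁ ⊔ E₂) he),
    hb τ fun e he => hτ e ((le_sup_right : E₂ ≤ E₁ ⊔ E₂) he)]

theorem FinFix.add {a b : LaurentSeries Qb} (ha : FinFix a) (hb : FinFix b) :
    FinFix (a + b) := by
  obtain ⟨E₁, h₁, ha⟩ := ha
  obtain ⟨E₂, h₂, hb⟩ := hb
  refine ⟨E₁ ⊔ E₂, IntermediateField.finiteDimensional_sup E₁ E₂, fun τ hτ => ?_⟩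
  rw [map_add, ha τ fun e he => hτ e ((le_sup_left : E₁ ≤ E₁ ⊔ E₂) he),
    hb τ fun e he => hτ e ((le_sup_right : E₂ ≤ E₁ ⊔ E₂) he)]

theorem FinFix.inv {a : LaurentSeries Qb} (ha : FinFix a) : FinFix a⁻¹ := by
  obtain ⟨E₁, h₁, ha⟩ := ha
  refine ⟨E₁, h₁, fun τ hτ => ?_⟩
  rw [map_inv₀, ha τ hτ]

/-- A finite family of such series has its coefficients in one finite extension of `ℚ`. -/
theorem exists_common_field {ι : Type*} [Finite ι] (z : ι → LaurentSeries Qb)
    (h : ∀ i, FinFix (z i)) :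
    ∃ E : IntermediateField ℚ Qb, FiniteDimensional ℚ E ∧ ∀ i (n : ℤ), (z i).coeff n ∈ E := by
  choose E hE hfix using h
  haveI := hE
  refine ⟨⨆ i, E i, IntermediateField.finiteDimensional_iSup_of_finite, fun i n => ?_⟩
  refine DescGen.mem_of_fixed _ _ fun υ hυ => ?_
  have h1 := hfix i υ fun e he => hυ e ((le_iSup E i : E i ≤ ⨆ i, E i) he)
  have h2 := congrArg (fun s : LaurentSeries Qb => s.coeff n) h1
  exact h2

/-! ### The subgroup of inertia fixing the `p`-th roots of unity -/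

/-- The elements of the inertia group of `A` acting trivially on the `p`-th roots of unity. -/
def inertiaOne (A : ValuationSubring Qb) (p : ℕ) : Subgroup GQ where
  carrier := {σ | σ ∈ A.inertiaSubgroupIn ℚ ∧ ∀ μ : Qb, μ ^ p = 1 → σ μ = μ}
  mul_mem' := by
    rintro a b ⟨ha, ha'⟩ ⟨hb, hb'⟩
    refine ⟨mul_mem ha hb, fun μ hμ => ?_⟩
    rw [AlgEquiv.mul_apply, hb' μ hμ, ha' μ hμ]
  one_mem' := ⟨one_mem _, fun μ _ => rfl⟩
  inv_mem' := by
    rintro a ⟨ha, ha'⟩
    refine ⟨inv_mem ha, fun μ hμ => ?_⟩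
    show a.symm μ = μ
    rw [AlgEquiv.symm_apply_eq]
    exact (ha' μ hμ).symm

theorem mem_inertiaOne {A : ValuationSubring Qb} {p : ℕ} {σ : GQ} :
    σ ∈ inertiaOne A p ↔ σ ∈ A.inertiaSubgroupIn ℚ ∧ ∀ μ : Qb, μ ^ p = 1 → σ μ = μ :=
  Iff.rfl

/-! ### The cover data -/

/-- **The cover data** of a function `x` of level `L`: functions `y i` (normalised, fixed by
`I₁`, `ω`-eigenclasses of `I`, trivial at both Gauss valuations, divisor divisible by `p`),
their normalised `p`-th roots `T i` among the `q`-series, and a decomposition `x = F' * H ^ p`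
in the field generated by the `T i` with `F'` fixed by `I`. -/
structure CoverData (L : ℕ) (A : ValuationSubring Qb) (p : ℕ) (w : FN L → FN L) (x : FN L)
    {n : ℕ} (y : Fin n → FN L) (T : Fin n → LaurentSeries Qb) (F' H : LaurentSeries Qb) :
    Prop where
  lc : ∀ i, (y i : LaurentSeries Qb).leadingCoeff = 1
  div : ∀ i, E4.DivBy L p (y i)
  triv : ∀ i, TrivAt L A p 1 (y i)
  trivw : ∀ i, TrivAt L A p 1 (w (y i))
  eigen : ∀ i, ∀ τ : GQ, τ ∈ A.inertiaSubgroupIn ℚ → ∀ a : ℕ,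
    (∀ μ : Qb, μ ^ p = 1 → τ μ = μ ^ a) → ∃ k : FN L, galF L τ (y i) = y i ^ a * k ^ p
  fix : ∀ i, ∀ τ : GQ, τ ∈ A.inertiaSubgroupIn ℚ → (∀ μ : Qb, μ ^ p = 1 → τ μ = μ) →
    galF L τ (y i) = y i
  origin : ∀ i, ∃ σ : GQ, σ ∈ A.inertiaSubgroupIn ℚ ∧ ∃ g : FN L, g ≠ 0 ∧
    y i = galF L σ x * x⁻¹ * g ^ p
  cover : ∀ σ : GQ, σ ∈ A.inertiaSubgroupIn ℚ → ∃ i, ∃ g : FN L, g ≠ 0 ∧
    y i = galF L σ x * x⁻¹ * g ^ p
  ord : ∀ i, (p : ℤ) ∣ (y i : LaurentSeries Qb).order
  root : ∀ i, T i ^ p = (y i : LaurentSeries Qb)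
  rootlc : ∀ i, (T i).leadingCoeff = 1
  rootfix : ∀ i, ∀ τ : GQ, τ ∈ A.inertiaSubgroupIn ℚ → (∀ μ : Qb, μ ^ p = 1 → τ μ = μ) →
    coeffMap (τ : Qb →+* Qb) (T i) = T i
  memF : F' ∈ IntermediateField.adjoin (FN L) (Set.range T)
  memH : H ∈ IntermediateField.adjoin (FN L) (Set.range T)
  neF : F' ≠ 0
  neH : H ≠ 0
  eq : (x : LaurentSeries Qb) = F' * H ^ p
  fixF : ∀ τ : GQ, τ ∈ A.inertiaSubgroupIn ℚ → coeffMap (τ : Qb →+* Qb) F' = F'
  coeff : ∃ E₀ : IntermediateField ℚ Qb, FiniteDimensional ℚ E₀ ∧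
    (∀ i (k : ℤ), (y i : LaurentSeries Qb).coeff k ∈ E₀) ∧ (∀ i (k : ℤ), (T i).coeff k ∈ E₀) ∧
    (∀ k : ℤ, F'.coeff k ∈ E₀) ∧ (∀ k : ℤ, H.coeff k ∈ E₀) ∧
    ∀ k : ℤ, (x : LaurentSeries Qb).coeff k ∈ E₀

/-- Field algebra used for the eigenclass of a normalised representative. -/
theorem eigen_alg {F : Type*} [Field F] {e g k t : F} (hg : g ≠ 0) (a p : ℕ) :
    e ^ a * k ^ p * t ^ p = (e * g ^ p) ^ a * ((g⁻¹) ^ a * k * t) ^ p := by
  have h1 : (g ^ p) ^ a * ((g⁻¹) ^ a) ^ p = 1 := by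
    rw [← pow_mul, ← pow_mul, mul_comm a p, ← mul_pow, mul_inv_cancel₀ hg, one_pow]
  linear_combination (-(e ^ a * k ^ p * t ^ p)) * h1

/-- **Row C8q: the cover data of a function satisfying `GoodII0`.** -/
theorem exists_coverData {L p : ℕ} [NeZero L] (hp : p.Prime) {A : ValuationSubring Qb}
    (hA : A.LiesOverPrime p) (w : FN L ≃ₐ[Qb] FN L)
    (hw : ∀ (σ : GQ) (z : FN L), w (galF L σ z) = galF L σ (w z)) {x : FN L}
    (hx : GoodII0 L A p w x) :
    ∃ (n : ℕ) (y : Fin n → FN L) (T : Fin n → LaurentSeries Qb) (F' H : LaurentSeries Qb),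
      CoverData L A p w x y T F' H := by
  classical
  haveI : Fact p.Prime := ⟨hp⟩
  obtain ⟨hx0, hdiv, -, htw, hI⟩ := hx
  have hwx0 : w x ≠ 0 := (map_ne_zero w).mpr hx0
  -- the classes `σ x / x`
  obtain ⟨Φ, hΦ⟩ : ∃ Φ : GQ → FN L, ∀ σ, Φ σ = galF L σ x * x⁻¹ := ⟨_, fun _ => rfl⟩
  have hΦ0 : ∀ σ, Φ σ ≠ 0 := fun σ => by
    rw [hΦ]
    exact mul_ne_zero (KummerSystem.galF_ne_zero σ hx0) (inv_ne_zero hx0)
  have hΦdiv : ∀ σ, E4.DivBy L p (Φ σ) := fun σ => by
    rw [hΦ]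
    exact E4.DivBy.mul (KummerSystem.galF_ne_zero σ hx0) (inv_ne_zero hx0) (hdiv.gal σ) hdiv.inv
  -- finitely many classes
  obtain ⟨E₀, hE₀, hcoef⟩ := DescGen.exists_coeff_field L (x : LaurentSeries Qb) x.2
  haveI := hE₀
  have hfin : (Set.range Φ).Finite := by
    let g : GQ → (E₀ →ₐ[ℚ] Qb) := fun σ => (σ : Qb →ₐ[ℚ] Qb).comp E₀.val
    have hfac : Function.FactorsThrough Φ g := by
      intro σ σ' h
      have h1 : ∀ e ∈ E₀, σ e = σ' e := fun e he => DFunLike.congr_fun h ⟨e, he⟩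
      rw [hΦ, hΦ]
      congr 1
      apply Subtype.ext
      rw [coe_galF, coe_galF]
      ext n
      rw [coeffMap_coeff, coeffMap_coeff]
      exact h1 _ (hcoef n)
    have hsub : Set.range Φ ⊆ Set.range (Function.extend g Φ 0) := by
      rintro _ ⟨σ, rfl⟩
      exact ⟨g σ, hfac.extend_apply 0 σ⟩
    exact (Set.finite_range _).subset hsub
  have hS : (Φ '' {σ | σ ∈ A.inertiaSubgroupIn ℚ}).Finite :=
    hfin.subset (Set.image_subset_range _ _)
  obtain ⟨n, e, he⟩ := hS.fin_embedding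
  have heI : ∀ i, ∃ σ : GQ, σ ∈ A.inertiaSubgroupIn ℚ ∧ Φ σ = e i := fun i => by
    have h1 : e i ∈ Φ '' {σ | σ ∈ A.inertiaSubgroupIn ℚ} := he ▸ Set.mem_range_self i
    obtain ⟨σ, hσ, h2⟩ := h1
    exact ⟨σ, hσ, h2⟩
  have hIe : ∀ σ : GQ, σ ∈ A.inertiaSubgroupIn ℚ → ∃ i, e i = Φ σ := fun σ hσ => by
    have h1 : Φ σ ∈ Set.range e := he ▸ Set.mem_image_of_mem Φ hσ
    exact h1
  choose σ₀ hσ₀ hσ₀e using heI
  have he0 : ∀ i, e i ≠ 0 := fun i => by
    rw [← hσ₀e i]
    exact hΦ0 _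
  -- normalised representatives fixed by `I₁`
  have hstep : ∀ i : Fin n, ∃ yi g : FN L, g ≠ 0 ∧ yi = e i * g ^ p ∧ Descent.lc L yi = 1 ∧
      ∀ τ ∈ inertiaOne A p, galF L τ yi = yi := by
    intro i
    have hinv : ∀ τ ∈ inertiaOne A p, ∃ k : FN L, E4.gal L τ (e i) = e i * k ^ p := by
      intro τ hτ
      obtain ⟨k, hk⟩ := hI (σ₀ i) (hσ₀ i) τ hτ.1 1 fun μ hμ => by
        rw [pow_one]
        exact hτ.2 μ hμ
      refine ⟨k, ?_⟩
      rw [pow_one, ← hΦ, hσ₀e i] at hk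
      exact hk
    obtain ⟨f0, h, hh0, hfh, hfix⟩ :=
      Descent.exists_invariant_rep_subgroup L (inertiaOne A p) hp.pos (e i) (he0 i) hinv
    have hf0 : f0 ≠ 0 := by
      rintro rfl
      rw [zero_mul] at hfh
      exact he0 i hfh
    obtain ⟨c, hc⟩ : ∃ c : Qb, c = Descent.lc L f0 := ⟨_, rfl⟩
    have hc0 : c ≠ 0 := by
      rw [hc]
      exact Descent.lc_ne_zero hf0
    obtain ⟨d, hd⟩ := IsAlgClosed.exists_pow_nat_eq c hp.pos
    have hd0 : d ≠ 0 := by
      rintro rfl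
      rw [zero_pow hp.ne_zero] at hd
      exact hc0 hd.symm
    have e1 : (algebraMap Qb (FN L) d⁻¹) ^ p = algebraMap Qb (FN L) c⁻¹ := by
      rw [← map_pow, inv_pow, hd]
    refine ⟨f0 * algebraMap Qb (FN L) c⁻¹, h⁻¹ * algebraMap Qb (FN L) d⁻¹, ?_, ?_, ?_, ?_⟩
    · exact mul_ne_zero (inv_ne_zero hh0) ((map_ne_zero _).mpr (inv_ne_zero hd0))
    · rw [hfh, mul_pow, e1, inv_pow, mul_assoc, ← mul_assoc (h ^ p),
        mul_inv_cancel₀ (pow_ne_zero p hh0), one_mul]
    · rw [Descent.lc_mul, Descent.lc_algebraMap, ← hc, mul_inv_cancel₀ hc0]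
    · intro τ hτ
      have h1 : E4.gal L τ f0 = f0 := hfix τ hτ
      have h2 : τ c = c := by
        rw [hc, ← Descent.lc_gal, h1]
      show E4.gal L τ (f0 * algebraMap Qb (FN L) c⁻¹) = _
      rw [map_mul, h1, Descent.gal_algebraMap, map_inv₀, h2]
  choose y g hg0 hyg hlc hfix using hstep
  have hy0 : ∀ i, y i ≠ 0 := fun i => by
    rw [hyg i]
    exact mul_ne_zero (he0 i) (pow_ne_zero p (hg0 i))
  have hydiv : ∀ i, E4.DivBy L p (y i) := fun i => by
    rw [hyg i]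
    refine E4.DivBy.mul (he0 i) (pow_ne_zero p (hg0 i)) ?_ (E4.divBy_pow_self L p (g i))
    rw [← hσ₀e i]
    exact hΦdiv _
  have hord : ∀ i, (p : ℤ) ∣ (y i : LaurentSeries Qb).order := fun i =>
    dvd_order_of_divBy (hy0 i) (hydiv i)
  -- the normalised roots
  have hroot : ∀ i, ∃ z : LaurentSeries Qb, z ^ p = (y i : LaurentSeries Qb) ∧
      z.leadingCoeff = 1 := fun i => by
    obtain ⟨z, hz, hz1, -⟩ :=
      RootLS.exists_root hp.ne_zero (y i : LaurentSeries Qb) (hord i) (hlc i)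
    exact ⟨z, hz, hz1⟩
  choose T hT hTlc using hroot
  have hTfix : ∀ i, ∀ τ : GQ, coeffMap (τ : Qb →+* Qb) (y i : LaurentSeries Qb) = y i →
      coeffMap (τ : Qb →+* Qb) (T i) = T i := by
    intro i τ hτ
    refine RootLS.eq_of_pow_eq hp.ne_zero ?_ ?_ (hTlc i)
    · rw [← map_pow, hT i, hτ]
    · rw [Descent.leadingCoeff_coeffMap, hTlc i]
      exact map_one τ
  -- the cover field
  obtain ⟨Lbar, hLbar⟩ : ∃ Lbar : IntermediateField (FN L) (LaurentSeries Qb),
      Lbar = IntermediateField.adjoin (FN L) (Set.range T) := ⟨_, rfl⟩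
  have hTmem : ∀ i, T i ∈ Lbar := fun i => by
    rw [hLbar]
    exact IntermediateField.subset_adjoin _ _ (Set.mem_range_self i)
  have hFNmem : ∀ z : FN L, (z : LaurentSeries Qb) ∈ Lbar := fun z => Lbar.algebraMap_mem z
  have hconst : ∀ c : Qb, algebraMap Qb (LaurentSeries Qb) c ∈ Lbar.toSubfield := fun c =>
    hFNmem (algebraMap Qb (FN L) c)
  have hinvx : ∀ τ ∈ A.inertiaSubgroupIn ℚ, ∃ k : LaurentSeries Qb, k ∈ Lbar.toSubfield ∧
      coeffMap (τ : Qb →+* Qb) (x : LaurentSeries Qb) = (x : LaurentSeries Qb) * k ^ p := by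
    intro τ hτ
    obtain ⟨i, hi⟩ := hIe τ hτ
    refine ⟨T i * ((g i : FN L) : LaurentSeries Qb)⁻¹,
      mul_mem (hTmem i) (inv_mem (hFNmem (g i))), ?_⟩
    have h1 : galF L τ x = x * (y i * (g i ^ p)⁻¹) := by
      rw [hyg i, hi, hΦ, mul_assoc, mul_inv_cancel₀ (pow_ne_zero p (hg0 i)), mul_one,
        mul_comm (galF L τ x), ← mul_assoc, mul_inv_cancel₀ hx0, one_mul]
    have h2 := congrArg (fun z : FN L => (z : LaurentSeries Qb)) h1
    rw [mul_pow, hT i, inv_pow]
    exact h2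
  obtain ⟨F', hF'S, H, hHS, hH0, hxFH, hF'fix, -⟩ :=
    DescGen.exists_invariant_rep_subfield Lbar.toSubfield hconst (A.inertiaSubgroupIn ℚ) hp.pos
      (x : LaurentSeries Qb) (hFNmem x) (GaSat.coe_ne_zero_FN L hx0) ⟨E₀, hE₀, hcoef⟩ hinvx
  -- coefficients
  have hFinT : ∀ i, FinFix (T i) := by
    intro i
    obtain ⟨E, hE, hfixE⟩ := finFix_coe L (y i)
    exact ⟨E, hE, fun τ hτ => hTfix i τ (hfixE τ hτ)⟩
  have hFinL : ∀ z ∈ Lbar, FinFix z := by
    intro z hz
    rw [hLbar] at hz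
    induction hz using IntermediateField.adjoin_induction with
    | mem z hz =>
      obtain ⟨i, rfl⟩ := hz
      exact hFinT i
    | algebraMap z => exact finFix_coe L z
    | add a b _ _ ha hb => exact ha.add hb
    | inv a _ ha => exact ha.inv
    | mul a b _ _ ha hb => exact ha.mul hb
  obtain ⟨E₁, hE₁, hco⟩ := exists_common_field
    (Sum.elim (Sum.elim (fun i => (y i : LaurentSeries Qb)) T)
      (![F', H, (x : LaurentSeries Qb)] : Fin 3 → LaurentSeries Qb))
    (by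
      rintro ((i | i) | i)
      · exact finFix_coe L (y i)
      · exact hFinT i
      · fin_cases i
        · exact hFinL F' hF'S
        · exact hFinL H hHS
        · exact finFix_coe L x)
  refine ⟨n, y, T, F', H, ?_⟩
  refine
    { lc := hlc
      div := hydiv
      triv := ?_
      trivw := ?_
      eigen := ?_
      fix := fun i τ hτ hμ => hfix i τ ⟨hτ, hμ⟩
      origin := fun i => ⟨σ₀ i, hσ₀ i, g i, hg0 i, by rw [hyg i, ← hσ₀e i, hΦ]⟩
      cover := fun σ hσ => by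
        obtain ⟨i, hi⟩ := hIe σ hσ
        exact ⟨i, g i, hg0 i, by rw [hyg i, hi, hΦ]⟩
      ord := hord
      root := hT
      rootlc := hTlc
      rootfix := fun i τ hτ hμ => hTfix i τ (by
        have h1 := congrArg (fun z : FN L => (z : LaurentSeries Qb)) (hfix i τ ⟨hτ, hμ⟩)
        exact h1)
      memF := hLbar ▸ hF'S
      memH := hLbar ▸ hHS
      neF := by
        rintro rfl
        rw [zero_mul] at hxFH
        exact GaSat.coe_ne_zero_FN L hx0 hxFH
      neH := hH0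
      eq := hxFH
      fixF := hF'fix
      coeff := ⟨E₁, hE₁, fun i k => hco (Sum.inl (Sum.inl i)) k,
        fun i k => hco (Sum.inl (Sum.inr i)) k, fun k => hco (Sum.inr 0) k,
        fun k => hco (Sum.inr 1) k, fun k => hco (Sum.inr 2) k⟩ }
  · intro i
    have h1 : TrivAt L A p 1 (Φ (σ₀ i)) := by
      rw [hΦ]
      exact GaSat.trivAt_gal_div hA (hσ₀ i) hx0 1
    have h2 := GaSat.trivAt_mul_pow h1 (hg0 i)
    rw [pow_one, hσ₀e i, ← hyg i] at h2
    exact h2
  · intro i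
    have h1 : TrivAt L A p 1 (galF L (σ₀ i) (w x) * (w x)⁻¹) :=
      GaSat.trivAt_gal_div hA (hσ₀ i) hwx0 1
    have h2 := GaSat.trivAt_mul_pow h1 ((map_ne_zero w).mpr (hg0 i))
    have h3 : w (y i) = galF L (σ₀ i) (w x) * (w x)⁻¹ * w (g i) ^ p ^ 1 := by
      rw [hyg i, ← hσ₀e i, hΦ, map_mul, map_mul, map_pow, map_inv₀, hw, pow_one]
    rw [h3]
    exact h2
  · intro i τ hτ a ha
    obtain ⟨k, hk⟩ := hI (σ₀ i) (hσ₀ i) τ hτ a ha
    rw [← hΦ, hσ₀e i] at hk
    refine ⟨(g i)⁻¹ ^ a * k * galF L τ (g i), ?_⟩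
    have h1 : galF L τ (y i) = e i ^ a * k ^ p * galF L τ (g i) ^ p := by
      rw [hyg i, map_mul, map_pow, hk]
    rw [h1, hyg i]
    exact eigen_alg (hg0 i) a p

end Fermat.Agent.S33.Geo.FunII0Data
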