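/-
S33 (ordinary at `p ∥ N`), strand GEO, chain ?FunII0, row C8h (helper7): the HORIZONTAL
divisibility UPSTAIRS, in the place form.

Situation (level-free).  `E ⊆ Ω` algebraic, characteristic zero (`E = K`, `Ω = ℚ̄`);
`L₀ / E` a field (the function field of the cover over `K`), `Lb / Ω` a field with
`Lb = L₀ · Ω` (`hgen`); `M / Ω` a field (the function field `FN L` downstairs) with `Lb / M`
algebraic.  If `x ∈ M` is nonzero with all orders at the places of `M / Ω` divisible by `p`, and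
`x = c * F' * H ^ p` in `Lb` with `c ∈ Ω`, `F' ∈ L₀`, `H ∈ Lb`, then every place of `L₀ / E` has
order divisible by `p` at `F'`.

Proof: a place `P` of `L₀ / E` has an unramified place `P'` of `Lb / Ω` above it
(`Lib.PlaceExt.exists_place_above`), which restricts to a place `P₀` of `M / Ω` with
`P'.ord = e * P₀.ord` on `M` (`Lib.PlaceRes.exists_place_below`); constants have order `0`.

* `dvd_ord_above`               : divisibility of all orders passes from `M` to `Lb`;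
* `dvd_ord_of_eq_const_mul_pow` : the statement, with a constant;
* `dvd_ord_of_eq_mul_pow`       : the statement, without constant;
* `horUp`                       : the case `Ω = ℚ̄`, `M = FN N`, hypothesis `E4.DivBy N p x`.
-/
import Mathlib
import Fermat.Prelude.Def_AlgebraicCurve_DivisorClassGroup
import Fermat.Agent.Lib.PlaceExt
import Fermat.Agent.Lib.PlaceRes
import Fermat.Agent.S30.E4.Defs

set_option autoImplicit false

namespace Fermat.Agent.S33.Geo.HorUp

open AlgebraicCurve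

section Generic

variable {E Ω L₀ Lb M : Type*} [Field E] [Field Ω] [Field L₀] [Field Lb] [Field M] [CharZero E]
  [Algebra E Ω] [Algebra.IsAlgebraic E Ω] [Algebra E L₀] [Algebra Ω Lb] [Algebra L₀ Lb]
  [Algebra E Lb] [IsScalarTower E Ω Lb] [IsScalarTower E L₀ Lb]
  [Algebra Ω M] [Algebra M Lb] [IsScalarTower Ω M Lb] [Algebra.IsAlgebraic M Lb]

omit [Field E] [Field L₀] [CharZero E] [Algebra E Ω] [Algebra.IsAlgebraic E Ω] [Algebra E L₀]
  [Algebra L₀ Lb] [Algebra E Lb] [IsScalarTower E Ω Lb] [IsScalarTower E L₀ Lb] in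
/-- Divisibility of all orders passes from `M` to an algebraic extension `Lb`. -/
theorem dvd_ord_above {p : ℕ} {x : M} (hx : ∀ P : Place Ω M, (p : ℤ) ∣ P.ord x)
    (Q : Place Ω Lb) : (p : ℤ) ∣ Q.ord (algebraMap M Lb x) := by
  obtain ⟨P₀, e, -, he⟩ :=
    Fermat.Agent.Lib.PlaceRes.exists_place_below (K := Ω) (L := M) (M := Lb) Q
  rw [he x]
  exact Dvd.dvd.mul_left (hx P₀) _

/-- **(C8h), with a constant.**  `x ∈ M` nonzero with `p ∣ ord_P x` at every place of `M / Ω`,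
`x = c * F' * H ^ p` in `Lb = L₀ · Ω` with `c ∈ Ω`, `F' ∈ L₀`, `H ∈ Lb`: then `p ∣ ord_P F'` at
every place `P` of `L₀ / E`. -/
theorem dvd_ord_of_eq_const_mul_pow
    (hgen : IntermediateField.adjoin L₀ (Set.range (algebraMap Ω Lb)) = ⊤)
    {p : ℕ} {x : M} (hx0 : x ≠ 0) (hx : ∀ P : Place Ω M, (p : ℤ) ∣ P.ord x)
    {c : Ω} {F' : L₀} {H : Lb}
    (hxF : algebraMap M Lb x = algebraMap Ω Lb c * algebraMap L₀ Lb F' * H ^ p)
    (P : Place E L₀) : (p : ℤ) ∣ P.ord F' := by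
  obtain ⟨P', hP'⟩ := Fermat.Agent.Lib.PlaceExt.exists_place_above (E := E) (Ω := Ω) (L := L₀)
    (F := Lb) hgen P
  have hxL : algebraMap M Lb x ≠ 0 := (map_ne_zero _).mpr hx0
  have hc0 : algebraMap Ω Lb c ≠ 0 := by
    intro h
    rw [h, zero_mul, zero_mul] at hxF
    exact hxL hxF
  have hF0 : algebraMap L₀ Lb F' ≠ 0 := by
    intro h
    rw [h, mul_zero, zero_mul] at hxF
    exact hxL hxF
  have hH0 : H ^ p ≠ 0 := by
    intro h
    rw [h, mul_zero] at hxF
    exact hxL hxF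
  have hpow : P'.ord (H ^ p) = (p : ℤ) * P'.ord H := by
    rw [← zpow_natCast, P'.ord_zpow]
  have h1 : P'.ord (algebraMap M Lb x) = P.ord F' + (p : ℤ) * P'.ord H := by
    rw [hxF, P'.ord_mul (mul_ne_zero hc0 hF0) hH0, P'.ord_mul hc0 hF0,
      Fermat.Agent.S24.FF.ord_algebraMap, zero_add, hP' F', hpow]
  have h2 : (p : ℤ) ∣ P.ord F' + (p : ℤ) * P'.ord H := by
    rw [← h1]
    exact dvd_ord_above hx P'
  exact (dvd_add_left (Dvd.intro _ rfl)).mp h2

/-- **(C8h).**  `x ∈ M` nonzero with `p ∣ ord_P x` at every place of `M / Ω`, `x = F' * H ^ p`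
in `Lb = L₀ · Ω` with `F' ∈ L₀`, `H ∈ Lb`: then `p ∣ ord_P F'` at every place `P` of `L₀ / E`. -/
theorem dvd_ord_of_eq_mul_pow
    (hgen : IntermediateField.adjoin L₀ (Set.range (algebraMap Ω Lb)) = ⊤)
    {p : ℕ} {x : M} (hx0 : x ≠ 0) (hx : ∀ P : Place Ω M, (p : ℤ) ∣ P.ord x)
    {F' : L₀} {H : Lb} (hxF : algebraMap M Lb x = algebraMap L₀ Lb F' * H ^ p)
    (P : Place E L₀) : (p : ℤ) ∣ P.ord F' :=
  dvd_ord_of_eq_const_mul_pow hgen hx0 hx (c := 1) (by rw [map_one, one_mul]; exact hxF) P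

end Generic

section Level

open Fermat.Agent.S30

/-- **(C8h) in the vocabulary of the chain**: `x ∈ FN N` nonzero with `E4.DivBy N p x`,
`x = F' * H ^ p` in `Lb = L₀ · ℚ̄` with `F' ∈ L₀`, `H ∈ Lb`: the intrinsic horizontal condition
`Hor' F'` (place form) holds upstairs. -/
theorem horUp {N p : ℕ} {E L₀ Lb : Type*} [Field E] [Field L₀] [Field Lb] [CharZero E]
    [Algebra E (AlgebraicClosure ℚ)] [Algebra.IsAlgebraic E (AlgebraicClosure ℚ)] [Algebra E L₀]
    [Algebra (AlgebraicClosure ℚ) Lb] [Algebra L₀ Lb] [Algebra E Lb]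
    [IsScalarTower E (AlgebraicClosure ℚ) Lb] [IsScalarTower E L₀ Lb]
    [Algebra (E4.Fb N) Lb] [IsScalarTower (AlgebraicClosure ℚ) (E4.Fb N) Lb]
    [Algebra.IsAlgebraic (E4.Fb N) Lb]
    (hgen : IntermediateField.adjoin L₀ (Set.range (algebraMap (AlgebraicClosure ℚ) Lb)) = ⊤)
    {x : E4.Fb N} (hx0 : x ≠ 0) (hdiv : E4.DivBy N p x) {F' : L₀} {H : Lb}
    (hxF : algebraMap (E4.Fb N) Lb x = algebraMap L₀ Lb F' * H ^ p) :
    ∀ P : Place E L₀, (p : ℤ) ∣ P.ord F' :=
  fun P => dvd_ord_of_eq_mul_pow hgen hx0 hdiv hxF P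

end Level

end Fermat.Agent.S33.Geo.HorUp
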