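/-
S33 (ordinary at `p ∥ N`), strand GEO, chain ?FunII0, row C8h, part 2 (helper7): the AMBIENT
form of `HorUp.dvd_ord_of_eq_mul_pow` - no algebra instance between the cover field and the
top field is asked of the consumer, and the generation hypothesis is in SET form.

Situation.  `E ⊆ Ω` algebraic, characteristic zero; `Ω'` a field over `Ω` (the ambient field,
`ℚ̄((q))`); `M ⊆ Ω'` a subfield over `Ω` (`FN L`); `Lb ⊆ Ω'` a subfield over `M`, algebraic over
`M` (`Lbar = FN(T_i)`); `L₀ / E` a field with a ring embedding `j : L₀ → Ω'` landing in `Lb`,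
compatible with the constants, such that `Lb` is generated by `Ω` and `j L₀`.  If `x ∈ M` is
nonzero with all orders at the places of `M / Ω` divisible by `p` and `x = j F' * H ^ p` with
`F' ∈ L₀`, `H ∈ Lb`, then `p ∣ ord_P F'` at every place `P` of `L₀ / E`.

* `dvd_ord_ambient` : the statement for an abstract field `L₀` and an embedding `j`;
* `dvd_ord_image`   : the statement for `L₀` an intermediate field of another ambient field
  `Ω₀` (`K((q))`) and a ring map `up : Ω₀ → Ω'`, with the generation hypothesis spelled with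
  the image `up '' L₀`.
-/
import Mathlib
import Fermat.Agent.S33.Geo.HorUp

set_option autoImplicit false

namespace Fermat.Agent.S33.Geo.HorUpAmb

open AlgebraicCurve

variable {E Ω L₀ Ω' : Type*} [Field E] [Field Ω] [Field L₀] [Field Ω'] [CharZero E]
  [Algebra E Ω] [Algebra.IsAlgebraic E Ω] [Algebra E L₀] [Algebra Ω Ω']

/-- **(C8h), ambient form.** -/
theorem dvd_ord_ambient (M : IntermediateField Ω Ω') (Lb : IntermediateField M Ω')
    [Algebra.IsAlgebraic M Lb] (j : L₀ →+* Ω')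
    (hjE : ∀ e : E, j (algebraMap E L₀ e) = algebraMap Ω Ω' (algebraMap E Ω e))
    (hjL : ∀ z : L₀, j z ∈ Lb)
    (hgen : ∀ z ∈ Lb, z ∈ Subfield.closure (Set.range (algebraMap Ω Ω') ∪ Set.range j))
    {p : ℕ} {x : M} (hx0 : x ≠ 0) (hx : ∀ P : Place Ω M, (p : ℤ) ∣ P.ord x)
    {F' : L₀} {H : Ω'} (hH : H ∈ Lb) (hxF : (x : Ω') = j F' * H ^ p)
    (P : Place E L₀) : (p : ℤ) ∣ P.ord F' := by
  let algL : Algebra L₀ Lb := (j.codRestrict Lb hjL).toAlgebra
  let algE : Algebra E Lb := ((algebraMap Ω Lb).comp (algebraMap E Ω)).toAlgebra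
  have t1 : IsScalarTower E Ω Lb := IsScalarTower.of_algebraMap_eq (fun _ => rfl)
  have t2 : IsScalarTower E L₀ Lb := IsScalarTower.of_algebraMap_eq (fun e => by
    apply Subtype.ext
    show algebraMap Ω Ω' (algebraMap E Ω e) = j (algebraMap E L₀ e)
    exact (hjE e).symm)
  have hgen' : IntermediateField.adjoin L₀ (Set.range (algebraMap Ω Lb)) = ⊤ := by
    rw [eq_top_iff]
    intro z _
    have hle : Subfield.closure (Set.range (algebraMap Ω Ω') ∪ Set.range j) ≤
        (IntermediateField.adjoin L₀ (Set.range (algebraMap Ω Lb))).toSubfield.map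
          (algebraMap Lb Ω') := by
      rw [Subfield.closure_le]
      rintro y (⟨ω, rfl⟩ | ⟨l, rfl⟩)
      · exact Subfield.mem_map.mpr ⟨algebraMap Ω Lb ω,
          IntermediateField.subset_adjoin L₀ _ ⟨ω, rfl⟩, rfl⟩
      · exact Subfield.mem_map.mpr ⟨algebraMap L₀ Lb l,
          (IntermediateField.adjoin L₀ (Set.range (algebraMap Ω Lb))).algebraMap_mem l, rfl⟩
    obtain ⟨z', hz', hzz⟩ := Subfield.mem_map.mp (hle (hgen z z.2))
    have hz : z' = z := Subtype.ext hzz
    rw [← hz]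
    exact hz'
  have hxF' : algebraMap M Lb x = algebraMap L₀ Lb F' * (⟨H, hH⟩ : Lb) ^ p := by
    apply Subtype.ext
    show (x : Ω') = j F' * H ^ p
    exact hxF
  exact HorUp.dvd_ord_of_eq_mul_pow (E := E) (Ω := Ω) (L₀ := L₀) (Lb := Lb) (M := M)
    hgen' hx0 hx hxF' P

/-- **(C8h), image form**: `L₀` an intermediate field of an ambient field `Ω₀`, embedded in
`Ω'` by a ring map `up : Ω₀ → Ω'`. -/
theorem dvd_ord_image {Ω₀ F₀ : Type*} [Field Ω₀] [Field F₀] [Algebra F₀ Ω₀]
    (L0 : IntermediateField F₀ Ω₀) [Algebra E L0]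
    (M : IntermediateField Ω Ω') (Lb : IntermediateField M Ω') [Algebra.IsAlgebraic M Lb]
    (up : Ω₀ →+* Ω')
    (hupE : ∀ e : E, up ((algebraMap E L0 e : L0) : Ω₀) = algebraMap Ω Ω' (algebraMap E Ω e))
    (hupL : ∀ z ∈ L0, up z ∈ Lb)
    (hgen : ∀ z ∈ Lb, z ∈ Subfield.closure (Set.range (algebraMap Ω Ω') ∪ up '' (L0 : Set Ω₀)))
    {p : ℕ} {x : M} (hx0 : x ≠ 0) (hx : ∀ P : Place Ω M, (p : ℤ) ∣ P.ord x)
    {F' : L0} {H : Ω'} (hH : H ∈ Lb) (hxF : (x : Ω') = up (F' : Ω₀) * H ^ p)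
    (P : Place E L0) : (p : ℤ) ∣ P.ord F' := by
  have hr : Set.range (up.comp (algebraMap L0 Ω₀)) = up '' (L0 : Set Ω₀) := by
    ext y
    constructor
    · rintro ⟨z, rfl⟩
      exact ⟨z, z.2, rfl⟩
    · rintro ⟨z, hz, rfl⟩
      exact ⟨⟨z, hz⟩, rfl⟩
  exact dvd_ord_ambient (E := E) M Lb (up.comp (algebraMap L0 Ω₀)) hupE (fun z => hupL z z.2)
    (by rw [hr]; exact hgen) hx0 hx hH hxF P

end Fermat.Agent.S33.Geo.HorUpAmb
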