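/-
S33 (ordinary at `p ∥ N`), strand GEO, chain ?FunII0, row C8h, part 3 (helper7): the horizontal
divisibility upstairs AT THE OBJECTS OF THE COVER (`S33/Geo/CoverFieldDefs`).

`K ⊆ ℚ̄` a subfield, `K₁ = cyclo K ζ`, `T : ι → K₁((q))`, `L0 = L0 N K ζ T ⊆ K((q))` the cover
field, `Lbar = FN N (up T_i) ⊆ ℚ̄((q))` the top field over `ℚ̄` (`up` = extension of
coefficients to `ℚ̄`).  If `x ∈ FN N` is nonzero with `E4.DivBy N p x` and
`x = up F' * H ^ p` with `F' ∈ L0`, `H ∈ Lbar`, then `p ∣ ord_P F'` at every place `P` of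
`L0 / K` - the intrinsic horizontal condition `Hor'` of the cover model (place form).

* `coe_algebraMap_L0` : the constants of `L0` (a `rfl`, recorded because the unifier is slow on it);
* `horUp_cover_of`    : the statement for ANY intermediate field `Lb` of `ℚ̄((q)) / FN N`,
  algebraic over `FN N`, containing `up L0` and generated by `ℚ̄` and `up L0` (set form);
* `up_mem_adjoin_of_mem_L0`, `isAlgebraic_adjoin_up` : the two hypotheses of `horUp_cover_of`
  for `Lb = FN N (up T_i)` when `T_i ^ p ∈ LE N K₁`;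
* `horUp_cover`       : the statement for `Lb = FN N (up T_i)`.
-/
import Mathlib
import Fermat.Agent.S33.Geo.HorUpAmb
import Fermat.Agent.S33.Geo.CoverFieldDefs
import Fermat.Agent.S30.E4.Defs
import Fermat.Agent.S30.GaussDescent

set_option autoImplicit false
set_option synthInstance.maxHeartbeats 400000

open ModularCurve AlgebraicCurve

namespace Fermat.Agent.S33.Geo.HorUpCover

open Fermat.Agent.S30 Fermat.Agent.S18.K1Defs Fermat.Agent.S18.K1Top Fermat.Agent.S36.CycloBase
open Fermat.Agent.S33.Geo.CoverFieldDefs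

local notation "Qb" => AlgebraicClosure ℚ

variable (N : ℕ) (K : IntermediateField ℚ Qb) (ζ : Qb) {ι : Type*}
  (T : ι → LaurentSeries (cyclo K ζ))

/-- The constants of the cover field, as series. -/
theorem coe_algebraMap_L0 (e : K) :
    ((algebraMap K (L0 N K ζ T) e : L0 N K ζ T) : LaurentSeries K)
      = algebraMap K (LaurentSeries K) e := rfl

/-- Extension of coefficients to `ℚ̄` is compatible with `inclLS`. -/
theorem up_inclLS (z : LaurentSeries K) :
    coeffMap (algebraMap (cyclo K ζ) Qb) (inclLS K ζ z) = coeffMap (algebraMap K Qb) z := by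
  rw [inclLS_apply, coeffMap_coeffMap]
  rfl

/-- **(C8h) at the cover field, general top field.** -/
theorem horUp_cover_of (Lb : IntermediateField (E4.Fb N) (LaurentSeries Qb))
    [Algebra.IsAlgebraic (E4.Fb N) Lb]
    (hupL : ∀ z ∈ L0 N K ζ T, coeffMap (algebraMap K Qb) z ∈ Lb)
    (hgen : ∀ z ∈ Lb, z ∈ Subfield.closure (Set.range (algebraMap Qb (LaurentSeries Qb)) ∪
      coeffMap (algebraMap K Qb) '' (L0 N K ζ T : Set (LaurentSeries K))))
    {p : ℕ} {x : E4.Fb N} (hx0 : x ≠ 0) (hdiv : E4.DivBy N p x) {F' : L0 N K ζ T}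
    {H : LaurentSeries Qb} (hH : H ∈ Lb)
    (hxF : (x : LaurentSeries Qb) = coeffMap (algebraMap K Qb) (F' : LaurentSeries K) * H ^ p) :
    ∀ P : Place K (L0 N K ζ T), (p : ℤ) ∣ P.ord F' := by
  have h1 : Algebra.IsAlgebraic ℚ Qb := GaussDescent.isAlgebraic_rat_Qb
  have h2 : Algebra.IsAlgebraic K Qb := inferInstance
  have hupE : ∀ e : K, coeffMap (algebraMap K Qb)
      ((algebraMap K (L0 N K ζ T) e : L0 N K ζ T) : LaurentSeries K)
        = algebraMap Qb (LaurentSeries Qb) (algebraMap K Qb e) := by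
    intro e
    rw [coe_algebraMap_L0]
    exact GaussDescent.up_algebraMap K e
  intro P
  exact HorUpAmb.dvd_ord_image (E := K) (Ω := Qb) (L0 N K ζ T) (E4.Fb N) Lb
    (coeffMap (algebraMap K Qb)) hupE hupL hgen hx0 hdiv hH hxF P

/-- The extension of coefficients of an element of the top field `L1 = F₁(T_i)` lies in
`FN N (up T_i)`. -/
theorem up_mem_adjoin_of_mem_L1 {w : LaurentSeries (cyclo K ζ)} (hw : w ∈ L1 N K ζ T) :
    coeffMap (algebraMap (cyclo K ζ) Qb) w ∈ IntermediateField.adjoin (E4.Fb N)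
      (Set.range fun i => coeffMap (algebraMap (cyclo K ζ) Qb) (T i)) := by
  have hle : (L1 N K ζ T).toSubfield ≤
      (IntermediateField.adjoin (E4.Fb N)
        (Set.range fun i => coeffMap (algebraMap (cyclo K ζ) Qb) (T i))).toSubfield.comap
          (coeffMap (algebraMap (cyclo K ζ) Qb)) := by
    rw [L1, IntermediateField.adjoin_toSubfield, Subfield.closure_le]
    rintro y (⟨f, rfl⟩ | ⟨i, rfl⟩)
    · have hf : coeffMap (algebraMap (cyclo K ζ) Qb) (f : LaurentSeries (cyclo K ζ)) ∈ E4.Fb N :=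
        coeffMap_mem_laurentBaseChange_hom (algebraMap (cyclo K ζ) Qb) f.2
      exact (IntermediateField.adjoin (E4.Fb N) _).algebraMap_mem (⟨_, hf⟩ : E4.Fb N)
    · exact IntermediateField.subset_adjoin _ _ ⟨i, rfl⟩
  exact hle hw

/-- The extension of coefficients of an element of the cover field lies in `FN N (up T_i)`. -/
theorem up_mem_adjoin_of_mem_L0 {z : LaurentSeries K} (hz : z ∈ L0 N K ζ T) :
    coeffMap (algebraMap K Qb) z ∈ IntermediateField.adjoin (E4.Fb N)
      (Set.range fun i => coeffMap (algebraMap (cyclo K ζ) Qb) (T i)) := by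
  rw [← up_inclLS K ζ z]
  exact up_mem_adjoin_of_mem_L1 N K ζ T ((mem_L0_iff N K ζ T).mp hz)

/-- `FN N (up T_i)` is algebraic over `FN N` when the `T_i ^ p` lie in `LE N K₁`. -/
theorem isAlgebraic_adjoin_up {p : ℕ} (hp : p ≠ 0) (hT : ∀ i, T i ^ p ∈ LE N (cyclo K ζ)) :
    Algebra.IsAlgebraic (E4.Fb N) (IntermediateField.adjoin (E4.Fb N)
      (Set.range fun i => coeffMap (algebraMap (cyclo K ζ) Qb) (T i))) := by
  apply IntermediateField.isAlgebraic_adjoin
  rintro y ⟨i, rfl⟩
  have hmem : coeffMap (algebraMap (cyclo K ζ) Qb) (T i) ^ p ∈ E4.Fb N := by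
    rw [← map_pow]
    exact coeffMap_mem_laurentBaseChange_hom (algebraMap (cyclo K ζ) Qb) (hT i)
  have hint : IsIntegral (E4.Fb N) (coeffMap (algebraMap (cyclo K ζ) Qb) (T i) ^ p) :=
    isIntegral_algebraMap (R := E4.Fb N) (A := LaurentSeries Qb) (x := ⟨_, hmem⟩)
  exact IsIntegral.of_pow (Nat.pos_of_ne_zero hp) hint

/-- **(C8h) at the cover field**: `x ∈ FN N` nonzero with `E4.DivBy N p x`,
`x = up F' * H ^ p` with `F' ∈ L0 N K ζ T` and `H ∈ FN N (up T_i)`, `T_i ^ p ∈ LE N K₁`, and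
`FN N (up T_i)` generated by `ℚ̄` and `up L0`: then `p ∣ ord_P F'` at every place `P` of
`L0 / K`. -/
theorem horUp_cover {p : ℕ} (hp : p ≠ 0) (hT : ∀ i, T i ^ p ∈ LE N (cyclo K ζ))
    (hgen : ∀ z ∈ IntermediateField.adjoin (E4.Fb N)
        (Set.range fun i => coeffMap (algebraMap (cyclo K ζ) Qb) (T i)),
      z ∈ Subfield.closure (Set.range (algebraMap Qb (LaurentSeries Qb)) ∪
        coeffMap (algebraMap K Qb) '' (L0 N K ζ T : Set (LaurentSeries K))))
    {x : E4.Fb N} (hx0 : x ≠ 0) (hdiv : E4.DivBy N p x) {F' : L0 N K ζ T}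
    {H : LaurentSeries Qb}
    (hH : H ∈ IntermediateField.adjoin (E4.Fb N)
      (Set.range fun i => coeffMap (algebraMap (cyclo K ζ) Qb) (T i)))
    (hxF : (x : LaurentSeries Qb) = coeffMap (algebraMap K Qb) (F' : LaurentSeries K) * H ^ p) :
    ∀ P : Place K (L0 N K ζ T), (p : ℤ) ∣ P.ord F' := by
  have halg := isAlgebraic_adjoin_up N K ζ T hp hT
  exact horUp_cover_of N K ζ T _ (fun z hz => up_mem_adjoin_of_mem_L0 N K ζ T hz) hgen hx0 hdiv
    hH hxF

end Fermat.Agent.S33.Geo.HorUpCover
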