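/-
S33 (ordinary at `p ∥ N`), strand GEO, chain ?FunII0, row C8h, part 4 (helper7): the generation
hypothesis of `HorUpCover.horUp_cover` from the exit `L0 · F₁ = L1` of the cover field.

`K ⊆ ℚ̄`, `K₁ = cyclo K ζ`, `T : ι → K₁((q))`, `L1 = F₁(T_i)` (`F₁ = LE N K₁`), `L0` the cover
field, `emb : L0 → L1`.  If `L1` is generated over `F₁` by `emb L0`, then the top field
`FN N (up T_i)` over `ℚ̄` is generated by `ℚ̄` and `up L0` (set form):

* `fb_mem_closure`        : `FN N ⊆ ℚ̄ · up L0` (already `ℚ̄ · up (LE N K)`);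
* `up_mem_closure_of_adjoin_emb` : `up L1 ⊆ ℚ̄ · up L0` under the hypothesis;
* `hgen_of_adjoin_emb`    : `FN N (up T_i) ⊆ ℚ̄ · up L0`;
* `horUp_cover_of_adjoin_emb` : `HorUpCover.horUp_cover` with this hypothesis.
-/
import Mathlib
import Fermat.Agent.S33.Geo.HorUpCover

set_option autoImplicit false
set_option synthInstance.maxHeartbeats 400000

open ModularCurve AlgebraicCurve

namespace Fermat.Agent.S33.Geo.HorUpGen

open Fermat.Agent.S30 Fermat.Agent.S18.K1Defs Fermat.Agent.S18.K1Top Fermat.Agent.S36.CycloBase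
open Fermat.Agent.S33.Geo.CoverFieldDefs Fermat.Agent.S33.Geo.HorUpCover

local notation "Qb" => AlgebraicClosure ℚ

variable (N : ℕ) (K : IntermediateField ℚ Qb) (ζ : Qb) {ι : Type*}
  (T : ι → LaurentSeries (cyclo K ζ))

/-- `FN N ⊆ ℚ̄ · up L0`. -/
theorem fb_mem_closure {f : LaurentSeries Qb} (hf : f ∈ E4.Fb N) :
    f ∈ Subfield.closure (Set.range (algebraMap Qb (LaurentSeries Qb)) ∪
      coeffMap (algebraMap K Qb) '' (L0 N K ζ T : Set (LaurentSeries K))) := by
  have hf' := mem_laurentBaseChange_iff.mp hf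
  refine (Subfield.closure_le.mpr ?_) hf'
  rintro y (⟨a, rfl⟩ | ⟨z, hz, rfl⟩)
  · exact Subfield.subset_closure (Or.inl ⟨a, rfl⟩)
  · refine Subfield.subset_closure (Or.inr ⟨coeffEmb K z, ?_, ?_⟩)
    · exact mem_L0_of_mem_LE N K ζ T (coeffEmb_mem_laurentBaseChange K hz)
    · exact coeffMap_coeffEmb_hom (algebraMap K Qb) z

/-- `up L1 ⊆ ℚ̄ · up L0` when `L1` is generated over `F₁` by `emb L0`. -/
theorem up_mem_closure_of_adjoin_emb
    (hb : IntermediateField.adjoin (LE N (cyclo K ζ)) (Set.range (emb N K ζ T)) = ⊤)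
    (w : L1 N K ζ T) :
    coeffMap (algebraMap (cyclo K ζ) Qb) (w : LaurentSeries (cyclo K ζ)) ∈
      Subfield.closure (Set.range (algebraMap Qb (LaurentSeries Qb)) ∪
        coeffMap (algebraMap K Qb) '' (L0 N K ζ T : Set (LaurentSeries K))) := by
  have hw : w ∈ IntermediateField.adjoin (LE N (cyclo K ζ)) (Set.range (emb N K ζ T)) := by
    rw [hb]
    exact IntermediateField.mem_top
  have hle : (IntermediateField.adjoin (LE N (cyclo K ζ))
      (Set.range (emb N K ζ T))).toSubfield ≤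
        (Subfield.closure (Set.range (algebraMap Qb (LaurentSeries Qb)) ∪
          coeffMap (algebraMap K Qb) '' (L0 N K ζ T : Set (LaurentSeries K)))).comap
            ((coeffMap (algebraMap (cyclo K ζ) Qb)).comp
              (algebraMap (L1 N K ζ T) (LaurentSeries (cyclo K ζ)))) := by
    rw [IntermediateField.adjoin_toSubfield, Subfield.closure_le]
    rintro y (⟨f, rfl⟩ | ⟨z, rfl⟩)
    · exact fb_mem_closure N K ζ T
        (coeffMap_mem_laurentBaseChange_hom (algebraMap (cyclo K ζ) Qb) f.2)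
    · have h1 : coeffMap (algebraMap (cyclo K ζ) Qb) (inclLS K ζ (z : LaurentSeries K)) ∈
          Subfield.closure (Set.range (algebraMap Qb (LaurentSeries Qb)) ∪
            coeffMap (algebraMap K Qb) '' (L0 N K ζ T : Set (LaurentSeries K))) := by
        rw [up_inclLS]
        exact Subfield.subset_closure (Or.inr ⟨z, z.2, rfl⟩)
      exact h1
  exact hle hw

/-- **The generation hypothesis of `HorUpCover.horUp_cover`** from `L0 · F₁ = L1`. -/
theorem hgen_of_adjoin_emb
    (hb : IntermediateField.adjoin (LE N (cyclo K ζ)) (Set.range (emb N K ζ T)) = ⊤) :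
    ∀ z ∈ IntermediateField.adjoin (E4.Fb N)
        (Set.range fun i => coeffMap (algebraMap (cyclo K ζ) Qb) (T i)),
      z ∈ Subfield.closure (Set.range (algebraMap Qb (LaurentSeries Qb)) ∪
        coeffMap (algebraMap K Qb) '' (L0 N K ζ T : Set (LaurentSeries K))) := by
  intro z hz
  have hle : (IntermediateField.adjoin (E4.Fb N)
      (Set.range fun i => coeffMap (algebraMap (cyclo K ζ) Qb) (T i))).toSubfield ≤
        Subfield.closure (Set.range (algebraMap Qb (LaurentSeries Qb)) ∪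
          coeffMap (algebraMap K Qb) '' (L0 N K ζ T : Set (LaurentSeries K))) := by
    rw [IntermediateField.adjoin_toSubfield, Subfield.closure_le]
    rintro y (⟨f, rfl⟩ | ⟨i, rfl⟩)
    · exact fb_mem_closure N K ζ T f.2
    · exact up_mem_closure_of_adjoin_emb N K ζ T hb (gen N K ζ T i)
  exact hle hz

/-- **(C8h) at the cover field, from `L0 · F₁ = L1`.** -/
theorem horUp_cover_of_adjoin_emb {p : ℕ} (hp : p ≠ 0)
    (hT : ∀ i, T i ^ p ∈ LE N (cyclo K ζ))
    (hb : IntermediateField.adjoin (LE N (cyclo K ζ)) (Set.range (emb N K ζ T)) = ⊤)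
    {x : E4.Fb N} (hx0 : x ≠ 0) (hdiv : E4.DivBy N p x) {F' : L0 N K ζ T}
    {H : LaurentSeries Qb}
    (hH : H ∈ IntermediateField.adjoin (E4.Fb N)
      (Set.range fun i => coeffMap (algebraMap (cyclo K ζ) Qb) (T i)))
    (hxF : (x : LaurentSeries Qb) = coeffMap (algebraMap K Qb) (F' : LaurentSeries K) * H ^ p) :
    ∀ P : Place K (L0 N K ζ T), (p : ℤ) ∣ P.ord F' :=
  horUp_cover N K ζ T hp hT (hgen_of_adjoin_emb N K ζ T hb) hx0 hdiv hH hxF

end Fermat.Agent.S33.Geo.HorUpGen
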