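/-
S33 (ordinary at `p ∥ N`), strand GEO, chain ?FunII0, row C8h, part 5 (helper7): the hypothesis
`hHor` of `FunII0Red.coverExit_of_model` in the vocabulary of the C8 skeleton.

From the cover data `D : FunII0Data.CoverData L A p w x y T F' H` of a function `x` with
`E4.DivBy L p x`, a base `K`, `ζ`, descended roots `T₁` (`up (T₁ i) = T i`,
`T₁ i ^ p ∈ LE L K₁`), the exit `L0 · F₁ = L1` of the cover field, and `f ∈ L0` with
`up f = F'`: every place of `L0 / K` has order divisible by `p` at `f`.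

* `hHor_of_coverData` : `f : ↥(L0 L K ζ T₁)` and `hT₁` in membership form;
* `hHor_of_baseData`  : the clauses of `FunII0Base.exists_baseData` verbatim
  (`T₁ i ^ p = y₁ i`, `F₀ ∈ L0`, `up F₀ = F'`).
-/
import Mathlib
import Fermat.Agent.S33.Geo.FunII0Data
import Fermat.Agent.S33.Geo.HorUpGen

set_option autoImplicit false
set_option synthInstance.maxHeartbeats 400000

open HahnSeries ModularCurve AlgebraicCurve

namespace Fermat.Agent.S33.Geo.HorUpData

open Fermat.Agent.S30 Fermat.Agent.S30.Producer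
open Fermat.Agent.S18.K1Defs (LE)
open Fermat.Agent.S36.CycloBase (cyclo)
open Fermat.Agent.S33.Geo.FunII0Data Fermat.Agent.S33.Geo.CoverFieldDefs

/-- **`hHor` of the C8 skeleton.** -/
theorem hHor_of_coverData {L p : ℕ} (hp : p ≠ 0) {A : ValuationSubring Qb} {w : FN L → FN L}
    {x : FN L} (hx0 : x ≠ 0) (hdiv : E4.DivBy L p x) {n : ℕ} {y : Fin n → FN L}
    {T : Fin n → LaurentSeries Qb} {F' H : LaurentSeries Qb}
    (D : CoverData L A p w x y T F' H) (K : IntermediateField ℚ Qb) (ζ : Qb)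
    (T₁ : Fin n → LaurentSeries (cyclo K ζ))
    (hb : ∀ i, coeffMap (algebraMap (cyclo K ζ) Qb) (T₁ i) = T i)
    (hT₁ : ∀ i, T₁ i ^ p ∈ LE L (cyclo K ζ))
    (hgen : IntermediateField.adjoin (LE L (cyclo K ζ)) (Set.range (emb L K ζ T₁)) = ⊤)
    (f : L0 L K ζ T₁) (hfF : coeffMap (algebraMap K Qb) (f : LaurentSeries K) = F') :
    ∀ P : Place K (L0 L K ζ T₁), (p : ℤ) ∣ P.ord f := by
  have hfun : (fun i => coeffMap (algebraMap (cyclo K ζ) Qb) (T₁ i)) = T := funext hb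
  have hH : H ∈ IntermediateField.adjoin (E4.Fb L)
      (Set.range fun i => coeffMap (algebraMap (cyclo K ζ) Qb) (T₁ i)) := by
    rw [hfun]
    exact D.memH
  have hxF : (x : LaurentSeries Qb)
      = coeffMap (algebraMap K Qb) (f : LaurentSeries K) * H ^ p := by
    rw [hfF]
    exact D.eq
  exact HorUpGen.horUp_cover_of_adjoin_emb L K ζ T₁ hp hT₁ hgen hx0 hdiv hH hxF

/-- **`hHor` of the C8 skeleton**, on the clauses of `FunII0Base.exists_baseData`. -/
theorem hHor_of_baseData {L p : ℕ} (hp : p ≠ 0) {A : ValuationSubring Qb} {w : FN L → FN L}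
    {x : FN L} (hx0 : x ≠ 0) (hdiv : E4.DivBy L p x) {n : ℕ} {y : Fin n → FN L}
    {T : Fin n → LaurentSeries Qb} {F' H : LaurentSeries Qb}
    (D : CoverData L A p w x y T F' H) (K : IntermediateField ℚ Qb) (ζ : Qb)
    (y₁ : Fin n → LE L (cyclo K ζ)) (T₁ : Fin n → LaurentSeries (cyclo K ζ))
    (hb : ∀ i, coeffMap (algebraMap (cyclo K ζ) Qb) (T₁ i) = T i)
    (hroot : ∀ i, T₁ i ^ p = ((y₁ i : LE L (cyclo K ζ)) : LaurentSeries (cyclo K ζ)))
    (hgen : IntermediateField.adjoin (LE L (cyclo K ζ)) (Set.range (emb L K ζ T₁)) = ⊤)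
    (F₀ : LaurentSeries K) (hF₀ : F₀ ∈ L0 L K ζ T₁)
    (hF₀F : coeffMap (algebraMap K Qb) F₀ = F') :
    ∀ P : Place K (L0 L K ζ T₁), (p : ℤ) ∣ P.ord (⟨F₀, hF₀⟩ : L0 L K ζ T₁) :=
  hHor_of_coverData hp hx0 hdiv D K ζ T₁ hb (fun i => by rw [hroot i]; exact (y₁ i).2) hgen
    ⟨F₀, hF₀⟩ hF₀F

end Fermat.Agent.S33.Geo.HorUpData
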