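/-
S33 (ordinary at `p ∥ N`), strand GEO, chain `?FunII0`, row C8 (helper31): the cover exit over
one base field, from the model of the cover field (row C3-E) and the unit statement upstairs
(row C6-E).

`coverExit_at` : level `M * p` (`4 ∣ M`), `A` over `p`, `K ⊆ ℚ̄` a finite base field with
`OE A K` a discrete valuation ring of uniformiser `p`, `ζ` and the descended roots `T₁ i` of the
cover data of `x` (`FunII0Data.CoverData`, `FunII0Base.exists_baseData`), the cover field
`L0 = L0 (M * p) K ζ T₁` finite over `LE (M * p) K` with `L0 · F₁ = L1` (row C1-E,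
`CoverFieldInst.cover_gal`), and `F₀ ∈ L0` the inertia-invariant factor of `x`.  If `L0` carries
a model over `OE A K` (element form `Model.IsModel`, place form of the horizontal predicate,
cusp form of the cover on the two charts of `u' =` the image of `α u₄`, with the two reducedness
clauses of the exit) on every component of which `F₀` has depth `≥ 1`, then `x` has the cover
exit `FunII0Exit.CoverExit`.

Everything else the exit `FunII0RedC.coverExit_of_modelC` asks for is supplied here from main: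
`hπ`, `hperf` (`S44/L/KummerPerf`), `hconst` (`CoverFieldExits.hconst`), `hHor`
(`HorUpData.hHor_of_coverData`), the transcendence of `u'` and the finiteness of `L0` over
`K(u')` (`S36/Haupt4/LevelQ`).

The `OE A K`-algebra structure on `L0` is the one through `K`:
`((algebraMap K L0).comp (algebraMap (OE A K) K)).toAlgebra`.
-/
import Mathlib
import Fermat.Agent.S33.Geo.FunI
import Fermat.Agent.S33.Geo.CoverFieldExits
import Fermat.Agent.S33.Geo.HorUpData
import Fermat.Agent.S33.Geo.FunII0RedC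

set_option autoImplicit false
set_option linter.unusedSectionVars false
set_option linter.unusedVariables false
set_option linter.style.haveILetI false
set_option synthInstance.maxHeartbeats 400000
set_option maxHeartbeats 1000000

open HahnSeries ModularCurve AlgebraicCurve

noncomputable section

namespace Fermat.Agent.S33.Geo.FunII0Final

open Fermat.Agent.S18.K1Defs Fermat.Agent.S18.K1Main Fermat.Agent.S30 Fermat.Agent.S30.E4
open Fermat.Agent.S30.Producer
open Fermat.Agent.S34.TwoPrimesRank Fermat.Agent.S34.HauptU.Plug Fermat.Agent.S36.Haupt4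
open Fermat.Agent.S36.CycloBase
open Fermat.Agent.S44.L
open Fermat.Agent.S33.Geo.Contract Fermat.Agent.S33.Geo.FunLevel
open Fermat.Agent.S33.Geo.FunII0Data Fermat.Agent.S33.Geo.FunII0Exit
open Fermat.Agent.S33.Geo.CoverFieldDefs

/-- A finite extension `M` of `L` is finite over `E(u)`, as soon as `L` is. -/
theorem finiteDimensional_adjoin_map {E L M : Type*} [Field E] [Field L] [Field M]
    [Algebra E L] [Algebra L M] [Algebra E M] [IsScalarTower E L M] (u : L)
    [FiniteDimensional (IntermediateField.adjoin E {u}) L] [FiniteDimensional L M] :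
    FiniteDimensional (IntermediateField.adjoin E ({algebraMap L M u} : Set M)) M := by
  set K : IntermediateField E L := IntermediateField.adjoin E {u} with hK
  set φ : L →ₐ[E] M := IsScalarTower.toAlgHom E L M with hφ
  have hKmap : IntermediateField.adjoin E ({algebraMap L M u} : Set M) = K.map φ := by
    rw [hK, IntermediateField.adjoin_map, Set.image_singleton]
    rfl
  have : Module.Finite K M := Module.Finite.trans L M
  have hfd : FiniteDimensional (K.map φ) M :=
    Module.Finite.of_equiv_equiv (K.equivMap φ).toRingEquiv (RingEquiv.refl M)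
      (RingHom.ext fun k => rfl)
  rw [hKmap]
  exact hfd

/-- **Row C8 over one base field**: the cover exit of `x` from a model of the cover field
(row C3-E) and the depth of the inertia-invariant factor `F₀` along its components
(row C6-E). -/
theorem coverExit_at {M p : ℕ} [NeZero M] [NeZero p] (hp : p.Prime) (hp2 : p ≠ 2) (h4 : 4 ∣ M)
    {A : ValuationSubring Qb} (hA : A.LiesOverPrime p)
    {w : FN (M * p) → FN (M * p)} {x : FN (M * p)} (hx0 : x ≠ 0) (hdiv : E4.DivBy (M * p) p x)
    {n : ℕ} {y : Fin n → FN (M * p)} {T : Fin n → LaurentSeries Qb} {F' H : LaurentSeries Qb}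
    (D : CoverData (M * p) A p w x y T F' H)
    (K : IntermediateField ℚ Qb) [FiniteDimensional ℚ K] [IsDiscreteValuationRing (OE A K)]
    (hπ : Irreducible ((p : ℕ) : OE A K))
    (ζ : Qb) (T₁ : Fin n → LaurentSeries (cyclo K ζ))
    (hb : ∀ i, coeffMap (algebraMap (cyclo K ζ) Qb) (T₁ i) = T i)
    (hT₁ : ∀ i, T₁ i ^ p ∈ LE (M * p) (cyclo K ζ))
    [FiniteDimensional (LE (M * p) K) ↥(L0 (M * p) K ζ T₁)]
    (hgen : IntermediateField.adjoin (LE (M * p) (cyclo K ζ))
      (Set.range (emb (M * p) K ζ T₁)) = ⊤)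
    (F₀ : LaurentSeries K) (hF₀ : F₀ ∈ L0 (M * p) K ζ T₁)
    (hF₀F : coeffMap (algebraMap K Qb) F₀ = F')
    {ι' Y : Type*} (V : ι' → Subring ↥(L0 (M * p) K ζ T₁))
    (R : Y → Subring ↥(L0 (M * p) K ζ T₁)) (On : Y → ι' → Prop) :
    letI : Algebra (OE A K) ↥(L0 (M * p) K ζ T₁) :=
      ((algebraMap K ↥(L0 (M * p) K ζ T₁)).comp (algebraMap (OE A K) K)).toAlgebra
    Fermat.Agent.S33.Geo.Model.IsModel p ((p : ℕ) : OE A K) V R On
        (fun f => ∀ P : Place K ↥(L0 (M * p) K ζ T₁), (p : ℤ) ∣ P.ord f) →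
      Fermat.Agent.S33.Geo.Model.CoversCusp ((p : ℕ) : OE A K)
        (algebraMap (LE (M * p) K) ↥(L0 (M * p) K ζ T₁) (alphaHom M p K (u4E M K h4))) R →
      (∀ z : ↥(L0 (M * p) K ζ T₁),
        IsIntegral (Algebra.adjoin (OE A K)
          ({algebraMap (LE (M * p) K) ↥(L0 (M * p) K ζ T₁) (alphaHom M p K (u4E M K h4))} :
            Set ↥(L0 (M * p) K ζ T₁))) z →
        IsIntegral (Algebra.adjoin (OE A K)
          ({algebraMap (LE (M * p) K) ↥(L0 (M * p) K ζ T₁) (alphaHom M p K (u4E M K h4))} :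
            Set ↥(L0 (M * p) K ζ T₁))) (z ^ p / (p : ↥(L0 (M * p) K ζ T₁))) →
        IsIntegral (Algebra.adjoin (OE A K)
          ({algebraMap (LE (M * p) K) ↥(L0 (M * p) K ζ T₁) (alphaHom M p K (u4E M K h4))} :
            Set ↥(L0 (M * p) K ζ T₁))) (z / (p : ↥(L0 (M * p) K ζ T₁)))) →
      (∀ z : ↥(L0 (M * p) K ζ T₁),
        IsIntegral (Algebra.adjoin (OE A K)
          ({(algebraMap (LE (M * p) K) ↥(L0 (M * p) K ζ T₁) (alphaHom M p K (u4E M K h4)))⁻¹} :
            Set ↥(L0 (M * p) K ζ T₁))) z →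
        IsIntegral (Algebra.adjoin (OE A K)
          ({(algebraMap (LE (M * p) K) ↥(L0 (M * p) K ζ T₁) (alphaHom M p K (u4E M K h4)))⁻¹} :
            Set ↥(L0 (M * p) K ζ T₁))) (z ^ p / (p : ↥(L0 (M * p) K ζ T₁))) →
        IsIntegral (Algebra.adjoin (OE A K)
          ({(algebraMap (LE (M * p) K) ↥(L0 (M * p) K ζ T₁) (alphaHom M p K (u4E M K h4)))⁻¹} :
            Set ↥(L0 (M * p) K ζ T₁))) (z / (p : ↥(L0 (M * p) K ζ T₁)))) →
      (∀ W, ∃ c : OE A K, c ≠ 0 ∧ Fermat.Agent.S33.Geo.Top.DepthIn (V W) p ((p : ℕ) : OE A K) 1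
        (⟨F₀, hF₀⟩ : ↥(L0 (M * p) K ζ T₁)) c) →
      CoverExit (M * p) A p x := by
  letI algO : Algebra (OE A K) ↥(L0 (M * p) K ζ T₁) :=
    ((algebraMap K ↥(L0 (M * p) K ζ T₁)).comp (algebraMap (OE A K) K)).toAlgebra
  haveI : IsScalarTower (OE A K) K ↥(L0 (M * p) K ζ T₁) :=
    IsScalarTower.of_algebraMap_eq (fun _ => rfl)
  intro Dm hcov hred0 hredinf h1
  have hp3 : 3 ≤ p := by
    have := hp.two_le
    omega
  have hmax : IsLocalRing.maximalIdeal (OE A K) = Ideal.span {((p : ℕ) : OE A K)} :=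
    (IsDiscreteValuationRing.irreducible_iff_uniformizer _).mp hπ
  have hperf : ∀ a : OE A K, ∃ b : OE A K, ((p : ℕ) : OE A K) ∣ a - b ^ p :=
    fun a => KummerPerf.exists_pow_sub_dvd A hp hA K hmax a
  have hU := LevelQ.transcendental_alpha_u4E M p K h4
  have hutr : Transcendental K (algebraMap (LE (M * p) K) ↥(L0 (M * p) K ζ T₁)
      (alphaHom M p K (u4E M K h4))) :=
    (transcendental_algebraMap_iff
      (algebraMap (LE (M * p) K) ↥(L0 (M * p) K ζ T₁)).injective).mpr hU
  have hu : algebraMap (LE (M * p) K) ↥(L0 (M * p) K ζ T₁) (alphaHom M p K (u4E M K h4)) ≠ 0 :=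
    fun h => hutr (h ▸ isAlgebraic_zero)
  haveI hfdU := LevelQ.finiteDimensional_alpha_u4E M p K h4
  haveI hfdK : FiniteDimensional
      (IntermediateField.adjoin K ({algebraMap (LE (M * p) K) ↥(L0 (M * p) K ζ T₁)
        (alphaHom M p K (u4E M K h4))} : Set ↥(L0 (M * p) K ζ T₁)))
      ↥(L0 (M * p) K ζ T₁) :=
    finiteDimensional_adjoin_map (E := K) (L := LE (M * p) K) (M := ↥(L0 (M * p) K ζ T₁))
      (alphaHom M p K (u4E M K h4))
  exact FunII0RedC.coverExit_of_modelC hp hp3 hx0 hdiv D K ζ T₁ hb hπ.prime hperf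
    (CoverFieldExits.hconst (M * p) K ζ T₁) Dm _ hu hutr hcov hred0 hredinf ⟨F₀, hF₀⟩ hF₀F
    (HorUpData.hHor_of_coverData hp.ne_zero hx0 hdiv D K ζ T₁ hb hT₁ hgen ⟨F₀, hF₀⟩ hF₀F) h1

end Fermat.Agent.S33.Geo.FunII0Final
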