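import Mathlib
import Fermat.Agent.S36.CoefDescent
import Fermat.Agent.S33.Geo.CoverFieldDefs

/-!
# S33 (GEO, COV'), row C1d: coefficient descent for the cover

`L̄ = FN(b_i) ⊆ ℚ̄((q))` is the cover field over `ℚ̄` (`FN` the function field of the level,
`b_i` the coefficientwise images of the generators `T_i ∈ K₁((q))` of the top field
`L1 = F₁(T_i)`, `K₁ = K(ζ)`), and `L0 = L1 ∩ K((q))` is the cover field over `K`
(`CoverFieldDefs`).  An element of `L̄` is defined over the field generated by its coefficients: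

* `exists_of_coeff_mem_subfield` : LEVEL-FREE CORE.  `E / K` algebraic, `S₀` a subfield of
  `K((q))` containing the constants: an element of the subfield of `E((q))` generated by `S₀` and
  the constants of `E`, all of whose coefficients lie in `K`, comes from `S₀`.  (The landed
  `S36/CoefDescent.exists_of_coeff_mem` is the case `S₀ = laurentBaseChange K F₀`; same proof:
  `S₀ · E` is the `S₀`-span of the constants, apply a `K`-linear retraction `E → K`
  coefficientwise.)
* `exists_mem_L1` (K₁) : `z ∈ L̄` with coefficients in `K₁` comes from `L1`.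
* `exists_mem_L0` (K)  : `z ∈ L̄` with coefficients in `K` comes from `L0`.
* `mem_sup_of_closure`, `mem_closure_of_closure` : the ambient form for an intermediate field
  `K ≤ E` of `ℚ̄ / ℚ` and any subfield `S₀` of `K((q))`: `z ∈ S₀ · ℚ̄` with coefficients in `E`
  lies in `S₀ · E`.
* `mem_sup_of_coeff_mem'`, `mem_sup_of_coeff_mem` (E'') : `z ∈ L̄` with coefficients in `E ≥ K`
  lies in `L0 · E`, given that the generators lie in `L0 · ℚ̄` (resp. in `L0 · F₁`, which is
  `L0 · F₁ = L1` at the generators).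
-/

set_option autoImplicit false
set_option linter.style.haveILetI false

noncomputable section

namespace Fermat.Agent.S33.Geo.CoverDescent

open HahnSeries ModularCurve
open Fermat.Agent.S30 Fermat.Agent.S18.K1Defs Fermat.Agent.S18.K1Top Fermat.Agent.S36.Descent
  Fermat.Agent.S36.CycloBase Fermat.Agent.S33.Geo.CoverFieldDefs

local notation "Qb" => AlgebraicClosure ℚ

/-! ### The level-free core -/

section Core

variable {K E : Type*} [Field K] [Field E] [Algebra K E]

/-- **Coefficient descent for a subfield.**  `E / K` algebraic, `S₀` a subfield of `K((q))`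
containing the constants.  An element of the subfield of `E((q))` generated by (the image of)
`S₀` and the constants of `E`, all of whose coefficients lie in `K`, comes from `S₀`. -/
theorem exists_of_coeff_mem_subfield [Algebra.IsAlgebraic K E] (S₀ : Subfield (LaurentSeries K))
    (hconst : ∀ c : K, algebraMap K (LaurentSeries K) c ∈ S₀) {z : LaurentSeries E}
    (hz : z ∈ Subfield.closure (⇑(coeffMap (algebraMap K E)) '' (S₀ : Set (LaurentSeries K)) ∪
      Set.range (algebraMap E (LaurentSeries E))))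
    (hcoeff : ∀ n : ℤ, z.coeff n ∈ Set.range (algebraMap K E)) :
    ∃ y ∈ S₀, coeffMap (algebraMap K E) y = z := by
  classical
  let ι : S₀ →+* LaurentSeries E := (coeffMap (algebraMap K E)).comp S₀.subtype
  letI : Algebra S₀ (LaurentSeries E) := ι.toAlgebra
  have hι : ∀ l : S₀, algebraMap S₀ (LaurentSeries E) l
      = coeffMap (algebraMap K E) (l : LaurentSeries K) := fun l => rfl
  -- the constants of `K` as a homomorphism into `S₀`
  let κ : K →+* S₀ := (algebraMap K (LaurentSeries K)).codRestrict S₀ hconst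
  -- constants are algebraic over `S₀`
  have halg : ∀ x ∈ Set.range (algebraMap E (LaurentSeries E)), IsAlgebraic S₀ x := by
    rintro _ ⟨c, rfl⟩
    obtain ⟨p, hp0, hp⟩ := Algebra.IsAlgebraic.isAlgebraic (R := K) c
    refine ⟨p.map κ, (Polynomial.map_ne_zero_iff κ.injective).mpr hp0, ?_⟩
    have hcomp : (algebraMap S₀ (LaurentSeries E)).comp κ =
        (algebraMap E (LaurentSeries E)).comp (algebraMap K E) := by
      refine RingHom.ext fun a => ?_
      rw [RingHom.comp_apply, RingHom.comp_apply, hι]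
      show coeffMap (algebraMap K E) (algebraMap K (LaurentSeries K) a) = _
      rw [algebraMap_laurentSeries_eq_single, algebraMap_laurentSeries_eq_single,
        coeffMap_single]
    rw [Polynomial.aeval_def, Polynomial.eval₂_map, hcomp, ← Polynomial.hom_eval₂,
      ← Polynomial.aeval_def, hp, map_zero]
  -- `z` lies in the field generated over `S₀` by the constants
  have hM : z ∈ IntermediateField.adjoin S₀ (Set.range (algebraMap E (LaurentSeries E))) := by
    have hle : Subfield.closure (⇑(coeffMap (algebraMap K E)) '' (S₀ : Set (LaurentSeries K)) ∪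
        Set.range (algebraMap E (LaurentSeries E))) ≤
        (IntermediateField.adjoin S₀
          (Set.range (algebraMap E (LaurentSeries E)))).toSubfield := by
      rw [Subfield.closure_le]
      rintro x (⟨y, hy, rfl⟩ | hx)
      · exact IntermediateField.algebraMap_mem _ (⟨y, hy⟩ : S₀)
      · exact IntermediateField.subset_adjoin _ _ hx
    exact hle hz
  have hspan : z ∈ Submodule.span S₀ (Set.range (algebraMap E (LaurentSeries E))) := by
    have h1 : z ∈ (IntermediateField.adjoin S₀
        (Set.range (algebraMap E (LaurentSeries E)))).toSubalgebra := hM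
    rw [IntermediateField.adjoin_toSubalgebra_of_isAlgebraic halg] at h1
    have h2 : z ∈ Subalgebra.toSubmodule (Algebra.adjoin S₀
        (Set.range (algebraMap E (LaurentSeries E)))) := h1
    rw [Algebra.adjoin_eq_span] at h2
    have h3 : (Submonoid.closure (Set.range (algebraMap E (LaurentSeries E))) :
        Set (LaurentSeries E)) = Set.range (algebraMap E (LaurentSeries E)) := by
      have h4 : Set.range (algebraMap E (LaurentSeries E)) =
          ((MonoidHom.mrange ((algebraMap E (LaurentSeries E) : E →+* LaurentSeries E) :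
            E →* LaurentSeries E) : Submonoid (LaurentSeries E)) : Set (LaurentSeries E)) := by
        ext w
        simp
      rw [h4, Submonoid.closure_eq]
    rwa [h3] at h2
  -- a `K`-linear retraction of `K → E`
  obtain ⟨lam, hlam⟩ := LinearMap.exists_leftInverse_of_injective (Algebra.linearMap K E)
    (LinearMap.ker_eq_bot.mpr (algebraMap K E).injective)
  have hlam' : ∀ a : K, lam (algebraMap K E a) = a := fun a => by
    have h := LinearMap.congr_fun hlam a
    simpa using h
  rw [Finsupp.mem_span_range_iff_exists_finsupp] at hspan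
  obtain ⟨c, hc⟩ := hspan
  refine ⟨coefLin lam z, ?_, ?_⟩
  · rw [← hc, Finsupp.sum, map_sum]
    refine sum_mem fun e _ => ?_
    rw [Algebra.smul_def, hι, coefLin_mul_const]
    exact mul_mem (c e).2 (hconst _)
  · ext n
    obtain ⟨a, ha⟩ := hcoeff n
    rw [coeffMap_coeff, coefLin_coeff, ← ha, hlam']

end Core

/-! ### Series over `ℚ̄` with coefficients in an intermediate field -/

/-- A series over `ℚ̄` all of whose coefficients lie in `E` comes from a series over `E`. -/
theorem exists_coeffMap_eq (E : IntermediateField ℚ Qb) (z : LaurentSeries Qb)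
    (h : ∀ n : ℤ, z.coeff n ∈ E) : ∃ y : LaurentSeries E, coeffMap (algebraMap E Qb) y = z := by
  refine ⟨HahnSeries.ofSuppBddBelow (fun n => (⟨z.coeff n, h n⟩ : E)) ?_, ?_⟩
  · refine ⟨z.order, fun n hn => ?_⟩
    by_contra hlt
    rw [not_le] at hlt
    apply hn
    exact Subtype.ext (HahnSeries.coeff_eq_zero_of_lt_order hlt)
  · ext n
    rfl

theorem isAlgebraic_Qb (E : IntermediateField ℚ Qb) : Algebra.IsAlgebraic E Qb := by
  have h2 : Algebra.IsAlgebraic ℚ Qb := GaussDescent.isAlgebraic_rat_Qb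
  infer_instance

/-- Coefficientwise inclusions compose. -/
theorem coeffMap_inclE {K E : IntermediateField ℚ Qb} (h : K ≤ E) (y : LaurentSeries K) :
    coeffMap (algebraMap E Qb) (coeffMap (inclE h) y) = coeffMap (algebraMap K Qb) y := by
  rw [coeffMap_coeffMap]
  exact coeffMap_congr (RingHom.ext fun c => rfl) y

/-! ### The ambient form: `S₀ · ℚ̄` and `S₀ · E` -/

section Ambient

variable (K E : IntermediateField ℚ Qb) (S₀ : Subfield (LaurentSeries K))

/-- **Ambient coefficient descent, `⊔` form.**  `K ≤ E` intermediate fields of `ℚ̄ / ℚ`, `S₀` a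
subfield of `K((q))`.  An element of `S₀ · ℚ̄` (the subfield of `ℚ̄((q))` generated by the image
of `S₀` and the constants) all of whose coefficients lie in `E` lies in `S₀ · E`, the join of the
image of `S₀` and the constants of `E`. -/
theorem mem_sup_of_closure (hKE : K ≤ E) {z : LaurentSeries Qb}
    (hz : z ∈ Subfield.closure (⇑(coeffMap (algebraMap K Qb)) '' (S₀ : Set (LaurentSeries K)) ∪
      Set.range (algebraMap Qb (LaurentSeries Qb))))
    (hcoeff : ∀ n : ℤ, z.coeff n ∈ E) :
    z ∈ S₀.map (coeffMap (algebraMap K Qb)) ⊔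
      E.toSubfield.map (algebraMap Qb (LaurentSeries Qb)) := by
  have hAlg : Algebra.IsAlgebraic E Qb := isAlgebraic_Qb E
  -- the subfield `S₀ · E` of `E((q))`
  let S₁ : Subfield (LaurentSeries E) :=
    Subfield.closure (⇑(coeffMap (inclE hKE)) '' (S₀ : Set (LaurentSeries K)) ∪
      Set.range (algebraMap E (LaurentSeries E)))
  have hconst : ∀ c : E, algebraMap E (LaurentSeries E) c ∈ S₁ := fun c =>
    Subfield.subset_closure (Or.inr ⟨c, rfl⟩)
  have hz' : z ∈ Subfield.closure (⇑(coeffMap (algebraMap E Qb)) '' (S₁ : Set (LaurentSeries E)) ∪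
      Set.range (algebraMap Qb (LaurentSeries Qb))) := by
    have hle : Subfield.closure (⇑(coeffMap (algebraMap K Qb)) '' (S₀ : Set (LaurentSeries K)) ∪
        Set.range (algebraMap Qb (LaurentSeries Qb))) ≤
        Subfield.closure (⇑(coeffMap (algebraMap E Qb)) '' (S₁ : Set (LaurentSeries E)) ∪
          Set.range (algebraMap Qb (LaurentSeries Qb))) := by
      rw [Subfield.closure_le]
      rintro x (⟨y, hy, rfl⟩ | hx)
      · refine Subfield.subset_closure (Or.inl ⟨coeffMap (inclE hKE) y, ?_, coeffMap_inclE hKE y⟩)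
        exact Subfield.subset_closure (Or.inl ⟨y, hy, rfl⟩)
      · exact Subfield.subset_closure (Or.inr hx)
    exact hle hz
  obtain ⟨y, hy, rfl⟩ := exists_of_coeff_mem_subfield S₁ hconst hz'
    (fun n => ⟨⟨z.coeff n, hcoeff n⟩, rfl⟩)
  -- the image of `S₀ · E` lies in the join
  have hle : S₁ ≤ (S₀.map (coeffMap (algebraMap K Qb)) ⊔
      E.toSubfield.map (algebraMap Qb (LaurentSeries Qb))).comap (coeffMap (algebraMap E Qb)) := by
    rw [Subfield.closure_le]
    rintro x (⟨y₀, hy₀, rfl⟩ | ⟨c, rfl⟩)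
    · rw [SetLike.mem_coe, Subfield.mem_comap, coeffMap_inclE]
      exact (le_sup_left : S₀.map (coeffMap (algebraMap K Qb)) ≤ _)
        (Subfield.mem_map.mpr ⟨y₀, hy₀, rfl⟩)
    · rw [SetLike.mem_coe, Subfield.mem_comap, coeffMap_algebraMap_hom]
      exact (le_sup_right : E.toSubfield.map (algebraMap Qb (LaurentSeries Qb)) ≤ _)
        (Subfield.mem_map.mpr ⟨(c : Qb), c.2, rfl⟩)
  exact Subfield.mem_comap.mp (hle hy)

/-- **Ambient coefficient descent, closure form.** -/
theorem mem_closure_of_closure (hKE : K ≤ E) {z : LaurentSeries Qb}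
    (hz : z ∈ Subfield.closure (⇑(coeffMap (algebraMap K Qb)) '' (S₀ : Set (LaurentSeries K)) ∪
      Set.range (algebraMap Qb (LaurentSeries Qb))))
    (hcoeff : ∀ n : ℤ, z.coeff n ∈ E) :
    z ∈ Subfield.closure (⇑(coeffMap (algebraMap K Qb)) '' (S₀ : Set (LaurentSeries K)) ∪
      ⇑(algebraMap Qb (LaurentSeries Qb)) '' (E : Set Qb)) := by
  have h := mem_sup_of_closure K E S₀ hKE hz hcoeff
  have hle : S₀.map (coeffMap (algebraMap K Qb)) ⊔
      E.toSubfield.map (algebraMap Qb (LaurentSeries Qb)) ≤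
      Subfield.closure (⇑(coeffMap (algebraMap K Qb)) '' (S₀ : Set (LaurentSeries K)) ∪
        ⇑(algebraMap Qb (LaurentSeries Qb)) '' (E : Set Qb)) := by
    refine sup_le (fun x hx => ?_) (fun x hx => ?_)
    · obtain ⟨y, hy, rfl⟩ := Subfield.mem_map.mp hx
      exact Subfield.subset_closure (Or.inl ⟨y, hy, rfl⟩)
    · obtain ⟨c, hc, rfl⟩ := Subfield.mem_map.mp hx
      exact Subfield.subset_closure (Or.inr ⟨c, hc, rfl⟩)
  exact hle h

/-- **Ambient coefficient descent over `K` itself**: an element of `S₀ · ℚ̄` with coefficients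
in `K` comes from `S₀` (`S₀` containing the constants of `K`). -/
theorem exists_mem_of_closure (hconst : ∀ c : K, algebraMap K (LaurentSeries K) c ∈ S₀)
    {z : LaurentSeries Qb}
    (hz : z ∈ Subfield.closure (⇑(coeffMap (algebraMap K Qb)) '' (S₀ : Set (LaurentSeries K)) ∪
      Set.range (algebraMap Qb (LaurentSeries Qb))))
    (hcoeff : ∀ n : ℤ, z.coeff n ∈ K) :
    ∃ y ∈ S₀, coeffMap (algebraMap K Qb) y = z := by
  have hAlg : Algebra.IsAlgebraic K Qb := isAlgebraic_Qb K
  exact exists_of_coeff_mem_subfield S₀ hconst hz (fun n => ⟨⟨z.coeff n, hcoeff n⟩, rfl⟩)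

end Ambient

/-! ### The cover field over `ℚ̄` inside `S₀ · ℚ̄` -/

section Bar

variable (N : ℕ) (K : IntermediateField ℚ Qb) (S₀ : Subfield (LaurentSeries K))

/-- The function field over `ℚ̄` lies in `S₀ · ℚ̄` as soon as `S₀` contains the function field
over `K`. -/
theorem bar_mem_closure (hF : ∀ y ∈ LE N K, y ∈ S₀) {x : LaurentSeries Qb}
    (hx : x ∈ modularFunctionFieldBar N) :
    x ∈ Subfield.closure (⇑(coeffMap (algebraMap K Qb)) '' (S₀ : Set (LaurentSeries K)) ∪
      Set.range (algebraMap Qb (LaurentSeries Qb))) := by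
  have hle : Subfield.closure (Set.range (algebraMap Qb (LaurentSeries Qb)) ∪
      (⇑(coeffEmb Qb) '' ((modularFunctionFieldFull N : IntermediateField ℚ (LaurentSeries ℚ)) :
        Set (LaurentSeries ℚ)))) ≤
      Subfield.closure (⇑(coeffMap (algebraMap K Qb)) '' (S₀ : Set (LaurentSeries K)) ∪
        Set.range (algebraMap Qb (LaurentSeries Qb))) := by
    rw [Subfield.closure_le]
    rintro x (hx | ⟨x₀, hx₀, rfl⟩)
    · exact Subfield.subset_closure (Or.inr hx)
    · refine Subfield.subset_closure (Or.inl ⟨coeffEmb K x₀, ?_, ?_⟩)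
      · exact hF _ (coeffEmb_mem_laurentBaseChange K hx₀)
      · exact coeffMap_coeffEmb_hom (algebraMap K Qb) x₀
  exact hle (mem_laurentBaseChange_iff.mp hx)

/-- The cover field `FN(b_i)` over `ℚ̄` lies in `S₀ · ℚ̄` as soon as `S₀` contains the function
field over `K` and the generators `b i` lie in `S₀ · ℚ̄`. -/
theorem adjoin_mem_closure (hF : ∀ y ∈ LE N K, y ∈ S₀) {ι : Type*} (b : ι → LaurentSeries Qb)
    (hb : ∀ i, b i ∈ Subfield.closure
      (⇑(coeffMap (algebraMap K Qb)) '' (S₀ : Set (LaurentSeries K)) ∪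
        Set.range (algebraMap Qb (LaurentSeries Qb)))) {z : LaurentSeries Qb}
    (hz : z ∈ IntermediateField.adjoin ↥(modularFunctionFieldBar N) (Set.range b)) :
    z ∈ Subfield.closure (⇑(coeffMap (algebraMap K Qb)) '' (S₀ : Set (LaurentSeries K)) ∪
      Set.range (algebraMap Qb (LaurentSeries Qb))) := by
  have h1 : z ∈ Subfield.closure
      (Set.range (algebraMap ↥(modularFunctionFieldBar N) (LaurentSeries Qb)) ∪ Set.range b) := hz
  have hle : Subfield.closure
      (Set.range (algebraMap ↥(modularFunctionFieldBar N) (LaurentSeries Qb)) ∪ Set.range b) ≤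
      Subfield.closure (⇑(coeffMap (algebraMap K Qb)) '' (S₀ : Set (LaurentSeries K)) ∪
        Set.range (algebraMap Qb (LaurentSeries Qb))) := by
    rw [Subfield.closure_le]
    rintro x (⟨f, rfl⟩ | ⟨i, rfl⟩)
    · exact bar_mem_closure N K S₀ hF f.2
    · exact hb i
  exact hle h1

end Bar

/-! ### The exits for the cover fields `L1`, `L0` -/

section Cover

variable (N : ℕ) (K : IntermediateField ℚ Qb) (ζ : Qb) {ι : Type*}
  (T : ι → LaurentSeries (cyclo K ζ)) (b : ι → LaurentSeries Qb)

/-- The coefficientwise inclusion `K((q)) → K(ζ)((q))` followed by the one into `ℚ̄((q))`. -/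
theorem coeffMap_inclLS (y : LaurentSeries K) :
    coeffMap (algebraMap (cyclo K ζ) Qb) (inclLS K ζ y) = coeffMap (algebraMap K Qb) y :=
  coeffMap_inclE (le_cyclo K ζ) y

/-- **(K₁)** An element of the cover field `L̄ = FN(b_i)` over `ℚ̄` all of whose coefficients
lie in `K₁ = K(ζ)` comes from the top field `L1 = F₁(T_i)`. -/
theorem exists_mem_L1 (hb : ∀ i, coeffMap (algebraMap (cyclo K ζ) Qb) (T i) = b i)
    {z : LaurentSeries Qb}
    (hz : z ∈ IntermediateField.adjoin ↥(modularFunctionFieldBar N) (Set.range b))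
    (hcoeff : ∀ n : ℤ, z.coeff n ∈ cyclo K ζ) :
    ∃ y ∈ L1 N K ζ T, coeffMap (algebraMap (cyclo K ζ) Qb) y = z := by
  have hconst : ∀ c : cyclo K ζ,
      algebraMap (cyclo K ζ) (LaurentSeries (cyclo K ζ)) c ∈ (L1 N K ζ T).toSubfield := fun c =>
    mem_L1_of_mem_LE N K ζ T ((LE N (cyclo K ζ)).algebraMap_mem c)
  have hz' := adjoin_mem_closure N (cyclo K ζ) (L1 N K ζ T).toSubfield
    (fun _ hy => mem_L1_of_mem_LE N K ζ T hy) b
    (fun i => Subfield.subset_closure (Or.inl ⟨T i, T_mem_L1 N K ζ T i, hb i⟩)) hz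
  exact exists_mem_of_closure (cyclo K ζ) (L1 N K ζ T).toSubfield hconst hz' hcoeff

/-- **(K)** An element of the cover field `L̄ = FN(b_i)` over `ℚ̄` all of whose coefficients
lie in `K` comes from the cover field `L0 = F₁(T_i) ∩ K((q))`. -/
theorem exists_mem_L0 (hb : ∀ i, coeffMap (algebraMap (cyclo K ζ) Qb) (T i) = b i)
    {z : LaurentSeries Qb}
    (hz : z ∈ IntermediateField.adjoin ↥(modularFunctionFieldBar N) (Set.range b))
    (hcoeff : ∀ n : ℤ, z.coeff n ∈ K) :
    ∃ y ∈ L0 N K ζ T, coeffMap (algebraMap K Qb) y = z := by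
  obtain ⟨y₁, hy₁, hy₁z⟩ := exists_mem_L1 N K ζ T b hb hz
    (fun n => le_cyclo K ζ (hcoeff n))
  obtain ⟨y₀, hy₀⟩ := exists_coeffMap_eq K z hcoeff
  refine ⟨y₀, ?_, hy₀⟩
  rw [mem_L0_iff]
  have h : inclLS K ζ y₀ = y₁ := by
    apply coeffMap_injective_hom (algebraMap (cyclo K ζ) Qb)
    rw [coeffMap_inclLS, hy₀, hy₁z]
  rw [h]
  exact hy₁

/-- The generators lie in `L0 · ℚ̄` if they lie in `L0 · F₁` (which is `L0 · F₁ = L1` at the
generators). -/
theorem gen_mem_closure (hb : ∀ i, coeffMap (algebraMap (cyclo K ζ) Qb) (T i) = b i)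
    (hgen : ∀ i, T i ∈ (L0 N K ζ T).toSubfield.map (inclLS K ζ) ⊔ (LE N (cyclo K ζ)).toSubfield)
    (i : ι) :
    b i ∈ Subfield.closure
      (⇑(coeffMap (algebraMap K Qb)) '' ((L0 N K ζ T).toSubfield : Set (LaurentSeries K)) ∪
        Set.range (algebraMap Qb (LaurentSeries Qb))) := by
  have hle : (L0 N K ζ T).toSubfield.map (inclLS K ζ) ⊔ (LE N (cyclo K ζ)).toSubfield ≤
      (Subfield.closure
        (⇑(coeffMap (algebraMap K Qb)) '' ((L0 N K ζ T).toSubfield : Set (LaurentSeries K)) ∪
          Set.range (algebraMap Qb (LaurentSeries Qb)))).comap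
        (coeffMap (algebraMap (cyclo K ζ) Qb)) := by
    refine sup_le (fun t ht => ?_) (fun t ht => ?_)
    · obtain ⟨y, hy, rfl⟩ := Subfield.mem_map.mp ht
      rw [Subfield.mem_comap, coeffMap_inclLS]
      exact Subfield.subset_closure (Or.inl ⟨y, hy, rfl⟩)
    · rw [Subfield.mem_comap]
      exact bar_mem_closure N K (L0 N K ζ T).toSubfield
        (fun _ hy => mem_L0_of_mem_LE N K ζ T hy)
        (coeffMap_mem_laurentBaseChange_hom (algebraMap (cyclo K ζ) Qb) ht)
  rw [← hb i]
  exact Subfield.mem_comap.mp (hle (hgen i))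

/-- **(E''), generators in `L0 · ℚ̄`.**  An element of the cover field `L̄ = FN(b_i)` over `ℚ̄`
all of whose coefficients lie in `E ≥ K` lies in `L0 · E`: the join, in the subfields of
`ℚ̄((q))`, of the image of `L0` and of the constants of `E`. -/
theorem mem_sup_of_coeff_mem' (E : IntermediateField ℚ Qb) (hKE : K ≤ E)
    (hgen : ∀ i, b i ∈ Subfield.closure
      (⇑(coeffMap (algebraMap K Qb)) '' ((L0 N K ζ T).toSubfield : Set (LaurentSeries K)) ∪
        Set.range (algebraMap Qb (LaurentSeries Qb))))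
    {z : LaurentSeries Qb}
    (hz : z ∈ IntermediateField.adjoin ↥(modularFunctionFieldBar N) (Set.range b))
    (hcoeff : ∀ n : ℤ, z.coeff n ∈ E) :
    z ∈ (L0 N K ζ T).toSubfield.map (coeffMap (algebraMap K Qb)) ⊔
      E.toSubfield.map (algebraMap Qb (LaurentSeries Qb)) :=
  mem_sup_of_closure K E (L0 N K ζ T).toSubfield hKE
    (adjoin_mem_closure N K (L0 N K ζ T).toSubfield (fun _ hy => mem_L0_of_mem_LE N K ζ T hy)
      b hgen hz) hcoeff

/-- **(E'')** An element of the cover field `L̄ = FN(b_i)` over `ℚ̄` all of whose coefficients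
lie in `E ≥ K` lies in `L0 · E`, given `L0 · F₁ = L1` at the generators `T i`. -/
theorem mem_sup_of_coeff_mem (hb : ∀ i, coeffMap (algebraMap (cyclo K ζ) Qb) (T i) = b i)
    (E : IntermediateField ℚ Qb) (hKE : K ≤ E)
    (hgen : ∀ i, T i ∈ (L0 N K ζ T).toSubfield.map (inclLS K ζ) ⊔ (LE N (cyclo K ζ)).toSubfield)
    {z : LaurentSeries Qb}
    (hz : z ∈ IntermediateField.adjoin ↥(modularFunctionFieldBar N) (Set.range b))
    (hcoeff : ∀ n : ℤ, z.coeff n ∈ E) :
    z ∈ (L0 N K ζ T).toSubfield.map (coeffMap (algebraMap K Qb)) ⊔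
      E.toSubfield.map (algebraMap Qb (LaurentSeries Qb)) :=
  mem_sup_of_coeff_mem' N K ζ T b E hKE (gen_mem_closure N K ζ T b hb hgen) hz hcoeff

/-- **(E''), closure form.** -/
theorem mem_closure_of_coeff_mem (hb : ∀ i, coeffMap (algebraMap (cyclo K ζ) Qb) (T i) = b i)
    (E : IntermediateField ℚ Qb) (hKE : K ≤ E)
    (hgen : ∀ i, T i ∈ (L0 N K ζ T).toSubfield.map (inclLS K ζ) ⊔ (LE N (cyclo K ζ)).toSubfield)
    {z : LaurentSeries Qb}
    (hz : z ∈ IntermediateField.adjoin ↥(modularFunctionFieldBar N) (Set.range b))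
    (hcoeff : ∀ n : ℤ, z.coeff n ∈ E) :
    z ∈ Subfield.closure
      (⇑(coeffMap (algebraMap K Qb)) '' ((L0 N K ζ T).toSubfield : Set (LaurentSeries K)) ∪
        ⇑(algebraMap Qb (LaurentSeries Qb)) '' (E : Set Qb)) :=
  mem_closure_of_closure K E (L0 N K ζ T).toSubfield hKE
    (adjoin_mem_closure N K (L0 N K ζ T).toSubfield (fun _ hy => mem_L0_of_mem_LE N K ζ T hy)
      b (gen_mem_closure N K ζ T b hb hgen) hz) hcoeff

end Cover

end Fermat.Agent.S33.Geo.CoverDescent
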