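import Mathlib
import Fermat.Agent.Lib.InertiaField
import Fermat.Agent.S36.CycloBase

/-!
# S33, Stage B, supplier of (UNIT): a finite normal field is totally ramified over its inertia field

`Qb = AlgebraicClosure ℚ`, `A` a valuation subring of `Qb` over the prime `p`, `E ⊆ Qb` a finite
normal extension of `ℚ`, `K = Lib.InertiaField.inertiaFixed A E = E ∩ Qb^I` its inertia field.

* `exists_uniformizer`           : a uniformiser `π` of `A ∩ E` in the vocabulary of `Qb`: `π` divides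
                                   every non-unit of `A ∩ E`, and every nonzero non-unit `x` of
                                   `A ∩ E` is `x * u = π ^ e` with `u` a unit of `A ∩ E`;
* `exists_approx`                : successive approximation `y = ∑_{i < m} c i π ^ i + π ^ m z` with
                                   `c i ∈ A ∩ K` (`k_E = k_K`);
* `exists_integral_expansion`    : for `K ≤ K1 ≤ E` and `ϖ ∈ K1`, `ϖ * u = π ^ e`:
                                   `A ∩ E = ∑_{i < e} (A ∩ K1) π ^ i` (Nakayama);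
* `exists_uniformizer_pow_of_le` : the pack with ONE `π` for all pairs `(K1, ϖ)`, `K ≤ K1 ≤ E`,
                                   `ϖ ∈ K1` a nonzero non-unit: `ϖ * u = π ^ e`, `|π| ^ e = |ϖ|`,
                                   `E = ∑_{i < e} K1 π ^ i`, `A ∩ E = ∑_{i < e} (A ∩ K1) π ^ i`;
* `exists_uniformizer_pow`       : the call `(K, p)`, with `K` unramified (`|x| ∈ |p| ^ ℤ` on `K`);
* `exists_uniformizer_pow_cyclo` : the call `(K(ζ_p), ζ_p - 1)`, with `|x| ∈ |ζ_p - 1| ^ ℤ` on `K(ζ_p)`;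
* `exists_monic_inertiaFixed`    : `A ∩ E` is integral over `A ∩ K`, in monic-polynomial form (so
                                   every valuation ring of an overfield that contains `A ∩ K`
                                   contains `π`, `u` and `u⁻¹`);
* the instance facts of `K` for the E-level files (`S44/L/NodeC1Inst.*_OE` binders):
  `inertiaSubgroupIn_le_fixingSubgroup`, `irreducible_natCast_OE_inertiaFixed`,
  `natCast_eq_mul_one`, `isUnit_two_OE`, `exists_valuation_eq_zpow_inertiaFixed`,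
  `exists_valuation_eq_zpow_cyclo`, `cyclo_le`
  (roots of unity of order prime to `p`: `Lib.InertiaField.rootOfUnity_mem_inertiaFixed`).

This is the input form of `S33/Geo/Orth` (`hπ`, `hdisc`, spanning by powers of `π`) and of the
landed level-free `S44/L/EisUnif` for the pair `(L0, L0 · E)`, `L0` a function field over `K`
or over `K(ζ_p)`.
-/

set_option autoImplicit false

noncomputable section

namespace Fermat.Agent.S33.Geo.InertiaPow

local notation "Qb" => AlgebraicClosure ℚ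

open Fermat.Agent.Lib.InertiaField Fermat.Agent.S30.GaussDescent

variable (A : ValuationSubring Qb) (E : IntermediateField ℚ Qb)

/-- A uniformiser of `A ∩ E`, in the vocabulary of `Qb`: `π ∈ E` of valuation `< 1` dividing every
non-unit of `A ∩ E`, and every nonzero non-unit `x` of `A ∩ E` is `x * u = π ^ e` with `u` a unit
of `A ∩ E` and `0 < e`. -/
theorem exists_uniformizer [FiniteDimensional ℚ E] {p : ℕ} (hp : p.Prime)
    (hA : A.LiesOverPrime p) :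
    ∃ π : Qb, π ∈ E ∧ π ≠ 0 ∧ A.valuation π < 1 ∧
      (∀ y : Qb, y ∈ E → A.valuation y < 1 → ∃ y₁ : Qb, y₁ ∈ E ∧ y₁ ∈ A ∧ y = π * y₁) ∧
      ∀ x : Qb, x ∈ E → x ≠ 0 → A.valuation x < 1 →
        ∃ (e : ℕ) (u : Qb), 0 < e ∧ u ∈ E ∧ A.valuation u = 1 ∧ x * u = π ^ e := by
  have hdvr : IsDiscreteValuationRing (OE A E) := isDiscreteValuationRing_OE A E hp hA
  obtain ⟨ϖ, hϖ⟩ := IsDiscreteValuationRing.exists_irreducible (OE A E)
  refine ⟨((ϖ : E) : Qb), (ϖ : E).2, ?_, ?_, ?_, ?_⟩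
  · intro h
    apply hϖ.ne_zero
    apply Subtype.ext
    apply Subtype.ext
    exact h
  · exact lt_of_le_of_ne (Fermat.Agent.S36.UnramBase.valuation_coe_le_one_OE A E ϖ)
      (fun h => hϖ.not_isUnit ((Fermat.Agent.S36.UnramBase.isUnit_OE_iff A E ϖ).mpr h))
  · intro y hyE hy
    let y' : OE A E := ⟨⟨y, hyE⟩, (A.valuation_le_one_iff y).mp hy.le⟩
    have hnu : ¬ IsUnit y' := by
      rw [Fermat.Agent.S36.UnramBase.isUnit_OE_iff]
      exact hy.ne
    have hmem : y' ∈ IsLocalRing.maximalIdeal (OE A E) := hnu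
    rw [hϖ.maximalIdeal_eq, Ideal.mem_span_singleton'] at hmem
    obtain ⟨a, ha⟩ := hmem
    refine ⟨((a : E) : Qb), (a : E).2, Fermat.Agent.S36.UnramBase.coe_mem_of_OE A E a, ?_⟩
    have h := congrArg (fun z : OE A E => ((z : E) : Qb)) ha
    have h' : ((a : E) : Qb) * ((ϖ : E) : Qb) = y := h
    rw [← h', mul_comm]
  · intro x hxE hx0 hx
    let x' : OE A E := ⟨⟨x, hxE⟩, (A.valuation_le_one_iff x).mp hx.le⟩
    have hx'0 : x' ≠ 0 := by
      intro h0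
      apply hx0
      have h := congrArg (fun z : OE A E => ((z : E) : Qb)) h0
      exact h
    have hnu : ¬ IsUnit x' := by
      rw [Fermat.Agent.S36.UnramBase.isUnit_OE_iff]
      exact hx.ne
    obtain ⟨e, u, hu⟩ := IsDiscreteValuationRing.associated_pow_irreducible hx'0 hϖ
    refine ⟨e, (((u : OE A E) : E) : Qb), ?_, ((u : OE A E) : E).2, ?_, ?_⟩
    · refine Nat.pos_of_ne_zero fun h0 => ?_
      rw [h0, pow_zero] at hu
      exact hnu (IsUnit.of_mul_eq_one _ hu)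
    · exact (Fermat.Agent.S36.UnramBase.isUnit_OE_iff A E (u : OE A E)).mp u.isUnit
    · have h := congrArg (fun z : OE A E => ((z : E) : Qb)) hu
      have h' : x * (((u : OE A E) : E) : Qb) = ((ϖ : E) : Qb) ^ e := by
        simpa using h
      exact h'

variable {E}

/-- One approximation step: `y = c + π * y₁` with `c ∈ A ∩ K`. -/
theorem exists_step {p : ℕ} (hp : p.Prime) (hA : A.LiesOverPrime p) [Normal ℚ E] {π : Qb}
    (hπ : ∀ y : Qb, y ∈ E → A.valuation y < 1 → ∃ y₁ : Qb, y₁ ∈ E ∧ y₁ ∈ A ∧ y = π * y₁)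
    (y : Qb) (hyE : y ∈ E) (hyA : y ∈ A) :
    ∃ c y₁ : Qb, c ∈ inertiaFixed A E ∧ c ∈ A ∧ y₁ ∈ E ∧ y₁ ∈ A ∧ y = c + π * y₁ := by
  obtain ⟨c, hcK, hcA, hc⟩ := exists_residue_inertiaFixed A E hp hA y hyE hyA
  have hcE : c ∈ E := inertiaFixed_le A E hcK
  have hv : A.valuation (y - c) < 1 := by
    have h := A.mem_nonunits_iff.mp hc
    rwa [← neg_sub, Valuation.map_neg] at h
  obtain ⟨y₁, h1, h2, h3⟩ := hπ (y - c) (sub_mem hyE hcE) hv
  exact ⟨c, y₁, hcK, hcA, h1, h2, by rw [← h3]; ring⟩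

/-- Successive approximation: `y = ∑_{i < m} c i * π ^ i + π ^ m * z` with `c i ∈ A ∩ K`. -/
theorem exists_approx {p : ℕ} (hp : p.Prime) (hA : A.LiesOverPrime p) [Normal ℚ E] {π : Qb}
    (hπ : ∀ y : Qb, y ∈ E → A.valuation y < 1 → ∃ y₁ : Qb, y₁ ∈ E ∧ y₁ ∈ A ∧ y = π * y₁)
    (m : ℕ) (y : Qb) (hyE : y ∈ E) (hyA : y ∈ A) :
    ∃ (c : ℕ → Qb) (z : Qb), (∀ i, c i ∈ inertiaFixed A E ∧ c i ∈ A) ∧ z ∈ E ∧ z ∈ A ∧
      y = ∑ i ∈ Finset.range m, c i * π ^ i + π ^ m * z := by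
  induction m with
  | zero =>
    exact ⟨fun _ => 0, y, fun _ => ⟨zero_mem _, zero_mem _⟩, hyE, hyA, by simp⟩
  | succ m ih =>
    obtain ⟨c, z, hc, hzE, hzA, hy⟩ := ih
    obtain ⟨c', z', hc'K, hc'A, hz'E, hz'A, hz⟩ := exists_step A hp hA hπ z hzE hzA
    refine ⟨Function.update c m c', z', ?_, hz'E, hz'A, ?_⟩
    · intro i
      by_cases hi : i = m
      · subst hi
        rw [Function.update_self]
        exact ⟨hc'K, hc'A⟩
      · rw [Function.update_of_ne hi]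
        exact hc i
    · have hsum : ∑ i ∈ Finset.range m, Function.update c m c' i * π ^ i =
          ∑ i ∈ Finset.range m, c i * π ^ i := by
        refine Finset.sum_congr rfl fun i hi => ?_
        rw [Function.update_of_ne (Finset.mem_range.mp hi).ne]
      rw [Finset.sum_range_succ, Function.update_self, hsum, hy, hz]
      ring

/-- **`A ∩ E = ∑_{i < e} (A ∩ K1) π ^ i`** for every intermediate field `K ≤ K1 ≤ E` and every
non-unit `ϖ ∈ K1` with `ϖ * u = π ^ e`, `u ∈ A ∩ E` (successive approximation + Nakayama). -/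
theorem exists_integral_expansion {p : ℕ} (hp : p.Prime) (hA : A.LiesOverPrime p)
    [FiniteDimensional ℚ E] [Normal ℚ E] (K1 : IntermediateField ℚ Qb)
    (hK1 : inertiaFixed A E ≤ K1) (hK1E : K1 ≤ E) {e : ℕ} {π ϖ u : Qb}
    (hϖK : ϖ ∈ K1) (hϖ1 : A.valuation ϖ < 1) (huE : u ∈ E) (huA : u ∈ A)
    (hϖu : ϖ * u = π ^ e)
    (hπ : ∀ y : Qb, y ∈ E → A.valuation y < 1 → ∃ y₁ : Qb, y₁ ∈ E ∧ y₁ ∈ A ∧ y = π * y₁)
    (y : Qb) (hyE : y ∈ E) (hyA : y ∈ A) :
    ∃ c : Fin e → Qb, (∀ i, c i ∈ K1 ∧ c i ∈ A) ∧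
      y = ∑ i, c i * π ^ (i : ℕ) := by
  classical
  obtain ⟨ι, hι, b, hb, hspan, -⟩ := exists_basis A E hp hA
  let S : Subring Qb := K1.toSubfield.toSubring ⊓ A.toSubring
  have hmemS : ∀ x : Qb, x ∈ S ↔ x ∈ K1 ∧ x ∈ A := fun x => Iff.rfl
  have hsmul : ∀ (s : S) (x : Qb), s • x = (s : Qb) * x := fun s x => rfl
  let N' : Submodule S Qb := Submodule.span S (Set.range b)
  let N : Submodule S Qb := Submodule.span S (Set.range fun i : Fin e => π ^ (i : ℕ))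
  -- `N'` is `A ∩ E`
  have hN'EA : ∀ x ∈ N', x ∈ E ∧ x ∈ A := by
    intro x hx
    refine Submodule.span_induction (p := fun x _ => x ∈ E ∧ x ∈ A) ?_ ?_ ?_ ?_ hx
    · rintro _ ⟨j, rfl⟩
      exact hb j
    · exact ⟨zero_mem _, zero_mem _⟩
    · intro x y _ _ hx hy
      exact ⟨add_mem hx.1 hy.1, add_mem hx.2 hy.2⟩
    · intro s x _ hx
      have hs := (hmemS (s : Qb)).mp s.2
      rw [hsmul]
      exact ⟨mul_mem (hK1E hs.1) hx.1, mul_mem hs.2 hx.2⟩
  have hEAN' : ∀ x : Qb, x ∈ E → x ∈ A → x ∈ N' := by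
    intro x hxE hxA
    obtain ⟨c, hc, rfl⟩ := hspan x hxE hxA
    refine Submodule.sum_mem _ fun j _ => ?_
    have h1 : c j * b j = (⟨c j, (hmemS _).mpr ⟨hK1 (hc j).1, (hc j).2⟩⟩ : S) • b j := rfl
    rw [h1]
    exact Submodule.smul_mem _ _ (Submodule.subset_span ⟨j, rfl⟩)
  have hN'fg : N'.FG := Submodule.fg_span (Set.finite_range b)
  -- units of `S`
  have hunit : ∀ s : S, A.valuation (s : Qb) = 1 → IsUnit s := by
    intro s hs
    have hs0 : (s : Qb) ≠ 0 := by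
      intro h0
      rw [h0, map_zero] at hs
      exact zero_ne_one hs
    have hinv : (s : Qb)⁻¹ ∈ S := (hmemS _).mpr
      ⟨inv_mem ((hmemS _).mp s.2).1,
        (A.valuation_le_one_iff _).mp (by rw [map_inv₀, hs, inv_one])⟩
    exact IsUnit.of_mul_eq_one (⟨(s : Qb)⁻¹, hinv⟩ : S) (Subtype.ext (mul_inv_cancel₀ hs0))
  -- the ideal `(ϖ)` lies in the Jacobson radical
  have hϖS : ϖ ∈ S := (hmemS _).mpr ⟨hϖK, (A.valuation_le_one_iff _).mp hϖ1.le⟩
  let I : Ideal S := Ideal.span {(⟨ϖ, hϖS⟩ : S)}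
  have hIJ : I ≤ Ideal.jacobson ⊥ := by
    intro x hx
    rw [Ideal.mem_span_singleton'] at hx
    obtain ⟨a, rfl⟩ := hx
    rw [Ideal.mem_jacobson_bot]
    intro t
    apply hunit
    have h1 : (((a * ⟨ϖ, hϖS⟩ * t + 1 : S)) : Qb) = 1 + (a : Qb) * ϖ * (t : Qb) := by
      push_cast
      ring
    rw [h1]
    apply Valuation.map_one_add_of_lt
    rw [map_mul, map_mul]
    have ha : A.valuation (a : Qb) ≤ 1 := (A.valuation_le_one_iff _).mpr ((hmemS _).mp a.2).2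
    have ht : A.valuation (t : Qb) ≤ 1 := (A.valuation_le_one_iff _).mpr ((hmemS _).mp t.2).2
    have h2 : A.valuation (a : Qb) * A.valuation ϖ ≤ A.valuation ϖ := by
      calc A.valuation (a : Qb) * A.valuation ϖ ≤ 1 * A.valuation ϖ :=
            mul_le_mul' ha le_rfl
        _ = A.valuation ϖ := one_mul _
    exact mul_lt_one_of_lt_of_le (lt_of_le_of_lt h2 hϖ1) ht
  -- `N' ⊆ N + ϖ N'`
  have hNN : N' ≤ N ⊔ I • N' := by
    intro x hx
    obtain ⟨hxE, hxA⟩ := hN'EA x hx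
    obtain ⟨c, z, hc, hzE, hzA, hxz⟩ := exists_approx A hp hA hπ e x hxE hxA
    rw [hxz]
    refine Submodule.add_mem_sup ?_ ?_
    · refine Submodule.sum_mem _ fun i hi => ?_
      have h1 : c i * π ^ i =
          (⟨c i, (hmemS _).mpr ⟨hK1 (hc i).1, (hc i).2⟩⟩ : S) • (π ^ i) := rfl
      rw [h1]
      exact Submodule.smul_mem _ _
        (Submodule.subset_span ⟨⟨i, Finset.mem_range.mp hi⟩, rfl⟩)
    · have h1 : π ^ e * z = (⟨ϖ, hϖS⟩ : S) • (u * z) := by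
        rw [hsmul, ← hϖu]
        ring
      rw [h1]
      exact Submodule.smul_mem_smul (Ideal.mem_span_singleton_self _)
        (hEAN' _ (mul_mem huE hzE) (mul_mem huA hzA))
  have hle : N' ≤ N := Submodule.le_of_le_smul_of_le_jacobson_bot hN'fg hIJ hNN
  have hyN : y ∈ N := hle (hEAN' y hyE hyA)
  obtain ⟨c, hc⟩ := (Submodule.mem_span_range_iff_exists_fun S).mp hyN
  refine ⟨fun i => ((c i : S) : Qb), fun i => (hmemS _).mp (c i).2, ?_⟩
  rw [← hc]
  exact Finset.sum_congr rfl fun i _ => rfl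

variable (E)

/-- **The pack, general form.**  `E` finite normal over `ℚ`, `K = inertiaFixed A E`.  There is ONE
uniformiser `π` of `A ∩ E` such that for every intermediate field `K ≤ K1 ≤ E` and every nonzero
non-unit `ϖ ∈ K1` of `A`: `ϖ * u = π ^ e` (`u` a unit of `A ∩ E`, `0 < e`), `|π| ^ e = |ϖ|`,
`E = ∑_{i < e} K1 π ^ i` and `A ∩ E = ∑_{i < e} (A ∩ K1) π ^ i`. -/
theorem exists_uniformizer_pow_of_le {p : ℕ} (hp : p.Prime) (hA : A.LiesOverPrime p)
    [FiniteDimensional ℚ E] [Normal ℚ E] :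
    ∃ π : Qb, π ∈ E ∧ π ≠ 0 ∧ A.valuation π < 1 ∧
      ∀ K1 : IntermediateField ℚ Qb, inertiaFixed A E ≤ K1 → K1 ≤ E →
        ∀ ϖ : Qb, ϖ ∈ K1 → ϖ ≠ 0 → A.valuation ϖ < 1 →
          ∃ (e : ℕ) (u : Qb), 0 < e ∧ u ∈ E ∧ A.valuation u = 1 ∧ ϖ * u = π ^ e ∧
            A.valuation π ^ e = A.valuation ϖ ∧
            (∀ y : Qb, y ∈ E → ∃ c : Fin e → Qb, (∀ i, c i ∈ K1) ∧
              y = ∑ i, c i * π ^ (i : ℕ)) ∧
            (∀ y : Qb, y ∈ E → y ∈ A → ∃ c : Fin e → Qb, (∀ i, c i ∈ K1 ∧ c i ∈ A) ∧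
              y = ∑ i, c i * π ^ (i : ℕ)) := by
  obtain ⟨π, hπE, hπ0, hπ1, hdiv, hfac⟩ := exists_uniformizer A E hp hA
  refine ⟨π, hπE, hπ0, hπ1, ?_⟩
  intro K1 hK1 hK1E ϖ hϖK hϖ0 hϖ1
  obtain ⟨e, u, he, huE, hu1, hϖu⟩ := hfac ϖ (hK1E hϖK) hϖ0 hϖ1
  have huA : u ∈ A := (A.valuation_le_one_iff u).mp hu1.le
  have hint := exists_integral_expansion A hp hA K1 hK1 hK1E hϖK hϖ1 huE huA hϖu hdiv
  have hp0 : (p : Qb) ≠ 0 := by exact_mod_cast hp.ne_zero
  refine ⟨e, u, he, huE, hu1, hϖu, ?_, ?_, hint⟩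
  · have h := congrArg A.valuation hϖu
    rw [map_mul, hu1, mul_one, map_pow] at h
    exact h.symm
  · intro y hyE
    obtain ⟨t, ht⟩ := exists_pow_mul_mem A hp hA y
    have hpE : (p : Qb) ^ t * y ∈ E := mul_mem (pow_mem (natCast_mem E p) t) hyE
    obtain ⟨c, hc, hy⟩ := hint _ hpE ht
    have hpt : (p : Qb) ^ t ≠ 0 := pow_ne_zero _ hp0
    refine ⟨fun i => c i / (p : Qb) ^ t, fun i => ?_, ?_⟩
    · exact div_mem (hc i).1 (pow_mem (natCast_mem _ p) t)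
    · have h1 : y = ((p : Qb) ^ t)⁻¹ * ((p : Qb) ^ t * y) := by
        rw [inv_mul_cancel_left₀ hpt]
      rw [h1, hy, Finset.mul_sum]
      refine Finset.sum_congr rfl fun i _ => ?_
      show ((p : Qb) ^ t)⁻¹ * (c i * π ^ (i : ℕ)) = c i / (p : Qb) ^ t * π ^ (i : ℕ)
      rw [div_eq_mul_inv]
      ring

/-! ### The instance facts of `K = inertiaFixed A E` -/

/-- `K = inertiaFixed A E` lies in the inertia field of `A` (the `hK` binder of `S36/UnramBase`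
and `S36/CycloBase`). -/
theorem inertiaSubgroupIn_le_fixingSubgroup :
    A.inertiaSubgroupIn ℚ ≤ (inertiaFixed A E).fixingSubgroup := by
  intro τ hτ
  rw [IntermediateField.mem_fixingSubgroup_iff]
  intro y hy
  exact ((mem_inertiaFixed_iff A E y).mp hy).2 τ hτ

/-- `K` is unramified at `A`: nonzero elements of `K` have valuation in `|p| ^ ℤ`. -/
theorem exists_valuation_eq_zpow_inertiaFixed {p : ℕ} (hp : p.Prime) (hA : A.LiesOverPrime p)
    [FiniteDimensional ℚ E] (x : Qb) (hx : x ∈ inertiaFixed A E) (hx0 : x ≠ 0) :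
    ∃ n : ℤ, A.valuation x = A.valuation (p : Qb) ^ n :=
  Fermat.Agent.S36.CycloBase.exists_valuation_eq_zpow A hp hA (inertiaFixed A E)
    (inertiaSubgroupIn_le_fixingSubgroup A E) x hx hx0

/-- `p` is a uniformiser of `A ∩ K` (the `hπ` binder of `S44/L/NodeC1Inst.*_OE`, with
`π := p`, `e := 1`). -/
theorem irreducible_natCast_OE_inertiaFixed {p : ℕ} (hp : p.Prime) (hA : A.LiesOverPrime p)
    [FiniteDimensional ℚ E] : Irreducible ((p : ℕ) : OE A (inertiaFixed A E)) :=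
  Fermat.Agent.S36.UnramBase.irreducible_natCast_OE A (inertiaFixed A E) hp hA
    (inertiaSubgroupIn_le_fixingSubgroup A E)

/-- The `hqe` binder of `S44/L/NodeC1Inst.*_OE` for `π := p`, `e := 1`. -/
theorem natCast_eq_mul_one (K : IntermediateField ℚ Qb) (p : ℕ) :
    ((p : ℕ) : OE A K) = ((p : ℕ) : OE A K) * 1 := (mul_one _).symm

/-- `2` is a unit of `A ∩ K` for odd `p` (the `h2` binder of `S44/L/NodeC1Inst.*_OE`), any `K`. -/
theorem isUnit_two_OE {p : ℕ} (hp : p.Prime) (hA : A.LiesOverPrime p) (hp2 : p ≠ 2)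
    (K : IntermediateField ℚ Qb) : IsUnit (2 : OE A K) := by
  have h := Fermat.Agent.S36.UnramBase.valuation_natCast_eq_one A hp hA (m := 2)
    (fun h => hp2 ((Nat.prime_dvd_prime_iff_eq hp Nat.prime_two).mp h))
  have h2 : (2 : OE A K) = ((2 : ℕ) : OE A K) := by norm_num
  have e : ∀ n : ℕ, ((((n : ℕ) : OE A K) : K) : Qb) = (n : Qb) := fun n => by simp
  rw [h2, Fermat.Agent.S36.UnramBase.isUnit_OE_iff, e 2]
  exact h

/-- `K(ζ) ≤ E` for `ζ ∈ E`. -/
theorem cyclo_le {ζ : Qb} (hζE : ζ ∈ E) :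
    Fermat.Agent.S36.CycloBase.cyclo (inertiaFixed A E) ζ ≤ E := by
  unfold Fermat.Agent.S36.CycloBase.cyclo
  refine sup_le (inertiaFixed_le A E) ?_
  rw [IntermediateField.adjoin_simple_le_iff]
  exact hζE

/-- Nonzero elements of `K(ζ_p)` have valuation in `|ζ_p - 1| ^ ℤ`. -/
theorem exists_valuation_eq_zpow_cyclo {p : ℕ} (hp : p.Prime) (hA : A.LiesOverPrime p)
    [FiniteDimensional ℚ E] {ζ : Qb} (hζ : IsPrimitiveRoot ζ p) (y : Qb)
    (hy : y ∈ Fermat.Agent.S36.CycloBase.cyclo (inertiaFixed A E) ζ) (hy0 : y ≠ 0) :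
    ∃ m : ℤ, A.valuation y = A.valuation (ζ - 1) ^ m :=
  Fermat.Agent.S36.CycloBase.exists_valuation_eq_zpow_lam A hp hA (inertiaFixed A E)
    (inertiaSubgroupIn_le_fixingSubgroup A E) hζ y hy hy0

/-- **`A ∩ E` is integral over `A ∩ K`**, in monic-polynomial form. -/
theorem exists_monic_inertiaFixed [Normal ℚ E] (y : Qb) (hyE : y ∈ E) (hyA : y ∈ A) :
    ∃ P : Polynomial Qb, P.Monic ∧ (∀ n, P.coeff n ∈ inertiaFixed A E ∧ P.coeff n ∈ A) ∧
      P.eval y = 0 := by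
  obtain ⟨P, hPm, hPA, hPI, hPE, hPy⟩ :=
    Fermat.Agent.Lib.InertiaResidue.exists_monic_fixed A y hyA
  have hconj : ∀ σ : Qb ≃ₐ[ℚ] Qb, σ y ∈ E := by
    intro σ
    have h := AlgEquiv.restrictNormal_commutes σ E ⟨y, hyE⟩
    have h' : σ y = ((σ.restrictNormal E ⟨y, hyE⟩ : E) : Qb) := h.symm
    rw [h']
    exact (σ.restrictNormal E ⟨y, hyE⟩).2
  exact ⟨P, hPm, fun n => ⟨(mem_inertiaFixed_iff A E _).mpr ⟨hPE E hconj n, hPI n⟩, hPA n⟩, hPy⟩

/-! ### The two calls -/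

/-- **The call `(K, p)`.**  `E` finite normal over `ℚ`, `K = inertiaFixed A E`: a uniformiser `π`
of `A ∩ E` with `p * u = π ^ e` (`u` a unit of `A ∩ E`), `E = ∑_{i < e} K π ^ i`,
`A ∩ E = ∑_{i < e} (A ∩ K) π ^ i`, and `K` is unramified at `A`. -/
theorem exists_uniformizer_pow {p : ℕ} (hp : p.Prime) (hA : A.LiesOverPrime p)
    [FiniteDimensional ℚ E] [Normal ℚ E] :
    ∃ (e : ℕ) (π u : Qb), 0 < e ∧ π ∈ E ∧ π ≠ 0 ∧ A.valuation π < 1 ∧
      u ∈ E ∧ A.valuation u = 1 ∧ (p : Qb) * u = π ^ e ∧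
      A.valuation π ^ e = A.valuation (p : Qb) ∧
      (∀ y : Qb, y ∈ E → ∃ c : Fin e → Qb, (∀ i, c i ∈ inertiaFixed A E) ∧
        y = ∑ i, c i * π ^ (i : ℕ)) ∧
      (∀ y : Qb, y ∈ E → y ∈ A → ∃ c : Fin e → Qb, (∀ i, c i ∈ inertiaFixed A E ∧ c i ∈ A) ∧
        y = ∑ i, c i * π ^ (i : ℕ)) ∧
      ∀ x : Qb, x ∈ inertiaFixed A E → x ≠ 0 →
        ∃ n : ℤ, A.valuation x = A.valuation (p : Qb) ^ n := by
  obtain ⟨π, hπE, hπ0, hπ1, H⟩ := exists_uniformizer_pow_of_le A E hp hA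
  have hp0 : (p : Qb) ≠ 0 := by exact_mod_cast hp.ne_zero
  have hp1 : A.valuation (p : Qb) < 1 := A.mem_nonunits_iff.mp hA
  obtain ⟨e, u, he, huE, hu1, hpu, hv, hf, hi⟩ :=
    H (inertiaFixed A E) le_rfl (inertiaFixed_le A E) (p : Qb) (natCast_mem _ p) hp0 hp1
  exact ⟨e, π, u, he, hπE, hπ0, hπ1, huE, hu1, hpu, hv, hf, hi,
    exists_valuation_eq_zpow_inertiaFixed A E hp hA⟩

/-- **The call `(K(ζ_p), ζ_p - 1)`** with the SAME shape: `(ζ - 1) * u = π ^ e`,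
`E = ∑_{i < e} K(ζ) π ^ i`, `A ∩ E = ∑_{i < e} (A ∩ K(ζ)) π ^ i`, and `|x| ∈ |ζ - 1| ^ ℤ` on
`K(ζ)`. -/
theorem exists_uniformizer_pow_cyclo {p : ℕ} (hp : p.Prime) (hA : A.LiesOverPrime p)
    [FiniteDimensional ℚ E] [Normal ℚ E] {ζ : Qb} (hζ : IsPrimitiveRoot ζ p) (hζE : ζ ∈ E) :
    ∃ (e : ℕ) (π u : Qb), 0 < e ∧ π ∈ E ∧ π ≠ 0 ∧ A.valuation π < 1 ∧
      u ∈ E ∧ A.valuation u = 1 ∧ (ζ - 1) * u = π ^ e ∧
      A.valuation π ^ e = A.valuation (ζ - 1) ∧
      (∀ y : Qb, y ∈ E → ∃ c : Fin e → Qb,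
        (∀ i, c i ∈ Fermat.Agent.S36.CycloBase.cyclo (inertiaFixed A E) ζ) ∧
        y = ∑ i, c i * π ^ (i : ℕ)) ∧
      (∀ y : Qb, y ∈ E → y ∈ A → ∃ c : Fin e → Qb,
        (∀ i, c i ∈ Fermat.Agent.S36.CycloBase.cyclo (inertiaFixed A E) ζ ∧ c i ∈ A) ∧
        y = ∑ i, c i * π ^ (i : ℕ)) ∧
      ∀ x : Qb, x ∈ Fermat.Agent.S36.CycloBase.cyclo (inertiaFixed A E) ζ → x ≠ 0 →
        ∃ n : ℤ, A.valuation x = A.valuation (ζ - 1) ^ n := by
  obtain ⟨π, hπE, hπ0, hπ1, H⟩ := exists_uniformizer_pow_of_le A E hp hA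
  obtain ⟨e, u, he, huE, hu1, hpu, hv, hf, hi⟩ :=
    H (Fermat.Agent.S36.CycloBase.cyclo (inertiaFixed A E) ζ)
      (Fermat.Agent.S36.CycloBase.le_cyclo _ ζ) (cyclo_le A E hζE) (ζ - 1)
      (Fermat.Agent.S36.CycloBase.zeta_sub_one_mem_cyclo _ ζ)
      (Fermat.Agent.S36.CycloBase.zeta_sub_one_ne_zero hp hζ)
      (Fermat.Agent.S36.CycloBase.valuation_lam A hp hA hζ).1
  exact ⟨e, π, u, he, hπE, hπ0, hπ1, huE, hu1, hpu, hv, hf, hi,
    exists_valuation_eq_zpow_cyclo A E hp hA hζ⟩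

end Fermat.Agent.S33.Geo.InertiaPow
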