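import Mathlib
import Fermat.Agent.S33.Geo.InertiaPow
import Fermat.Agent.S36.GeomClass

/-!
# S33, Stage B, leaf of the cover chain: the inertia field of a finite normal field is a
geometric base, and the fixed field of the inertia elements fixing `ζ` is `K(ζ)`

`Qb = AlgebraicClosure ℚ`, `A` a valuation subring of `Qb`, `I = A.inertiaSubgroupIn ℚ` its inertia
group, `D` its decomposition group, `E ⊆ Qb` a finite normal extension of `ℚ`,
`K = Lib.InertiaField.inertiaFixed A E = E ∩ Qb^I`.

* `mem_inertiaFixed_of_forall_fixed` : `y ∈ E` fixed by `I` lies in `K`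
                                      (a restatement of `Lib.InertiaField.mem_inertiaFixed_iff`);
* `mem_cyclo_of_forall_fixed`        : `ζ, y ∈ E`, and every `τ ∈ I` with `τ ζ = ζ` fixes `y`
                                      ⟹ `y ∈ K(ζ) = S36.CycloBase.cyclo K ζ`
                                      (Galois correspondence in `E / ℚ`);
* `forall_fixed_of_mem_cyclo`        : the converse (no hypothesis on `E`);
* `mem_cyclo_iff_forall_fixed`       : the two together;
* `map_mem_inertiaFixed`             : `D` preserves `K` (`E` normal, `I` normal in `D`);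
* `geomClass_inertiaFixed`           : `K` is a member of `S36.GeomClass.GeomClass A M S₀` as soon
                                      as `E` contains a primitive `M`-th root of unity (`p ∤ M`)
                                      and the inertia-fixed finite set `S₀`.
-/

set_option autoImplicit false

noncomputable section

namespace Fermat.Agent.S33.Geo.InertiaCyclo

local notation "Qb" => AlgebraicClosure ℚ
local notation "Gq" => (AlgebraicClosure ℚ ≃ₐ[ℚ] AlgebraicClosure ℚ)

open Fermat.Agent.Lib.InertiaField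

variable (A : ValuationSubring Qb) (E : IntermediateField ℚ Qb)

/-- `y ∈ E` fixed by the inertia group lies in the inertia field of `E`. -/
theorem mem_inertiaFixed_of_forall_fixed {y : Qb} (hyE : y ∈ E)
    (h : ∀ τ ∈ A.inertiaSubgroupIn ℚ, τ y = y) : y ∈ inertiaFixed A E :=
  (mem_inertiaFixed_iff A E y).mpr ⟨hyE, h⟩

/-- Restriction to the normal field `E` commutes with the inclusion into `Qb`. -/
theorem coe_restrictNormalHom_apply [Normal ℚ E] (τ : Gq) (x : E) :
    ((AlgEquiv.restrictNormalHom E τ x : E) : Qb) = τ (x : Qb) :=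
  AlgEquiv.restrictNormal_commutes τ E x

/-- A Galois conjugate of an element of the normal field `E` lies in `E`. -/
theorem map_mem_of_normal [Normal ℚ E] (τ : Gq) {x : Qb} (hx : x ∈ E) : τ x ∈ E := by
  have h := coe_restrictNormalHom_apply E τ ⟨x, hx⟩
  rw [← h]
  exact (AlgEquiv.restrictNormalHom E τ ⟨x, hx⟩).2

/-- **The fixed field of `{τ ∈ I | τ ζ = ζ}` in `E` is `K(ζ)`.**  `E` finite normal, `ζ ∈ E`,
`y ∈ E` fixed by every inertia element fixing `ζ`: then `y ∈ K(ζ)`, `K = inertiaFixed A E`. -/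
theorem mem_cyclo_of_forall_fixed [FiniteDimensional ℚ E] [Normal ℚ E] {ζ : Qb} (hζE : ζ ∈ E)
    {y : Qb} (hyE : y ∈ E) (h : ∀ τ ∈ A.inertiaSubgroupIn ℚ, τ ζ = ζ → τ y = y) :
    y ∈ Fermat.Agent.S36.CycloBase.cyclo (inertiaFixed A E) ζ := by
  classical
  have : IsGalois ℚ E := isGalois_iff.mpr ⟨inferInstance, inferInstance⟩
  -- the image of the inertia group in `Gal(E/ℚ)`
  let H0 : Subgroup (E ≃ₐ[ℚ] E) := (A.inertiaSubgroupIn ℚ).map (AlgEquiv.restrictNormalHom E)
  -- its elements fixing `ζ`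
  let H1 : Subgroup (E ≃ₐ[ℚ] E) := H0 ⊓ MulAction.stabilizer (E ≃ₐ[ℚ] E) (⟨ζ, hζE⟩ : E)
  -- `K(ζ)` as an intermediate field of `E`
  let M : IntermediateField ℚ E :=
    (Fermat.Agent.S36.CycloBase.cyclo (inertiaFixed A E) ζ).comap E.val
  have hmemM : ∀ x : E, x ∈ M ↔
      (x : Qb) ∈ Fermat.Agent.S36.CycloBase.cyclo (inertiaFixed A E) ζ := fun x => Iff.rfl
  have hM : M.fixingSubgroup ≤ H1 := by
    intro g hg
    rw [IntermediateField.mem_fixingSubgroup_iff] at hg
    have h0 : g ∈ (IntermediateField.fixedField H0).fixingSubgroup := by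
      rw [IntermediateField.mem_fixingSubgroup_iff]
      intro x hx
      apply hg
      rw [hmemM]
      apply Fermat.Agent.S36.CycloBase.le_cyclo
      rw [mem_inertiaFixed_iff]
      refine ⟨x.2, fun τ hτ => ?_⟩
      have h1 : AlgEquiv.restrictNormalHom E τ x = x :=
        (IntermediateField.mem_fixedField_iff H0 x).mp hx _ ⟨τ, hτ, rfl⟩
      rw [← coe_restrictNormalHom_apply E τ x, h1]
    rw [IntermediateField.fixingSubgroup_fixedField] at h0
    refine Subgroup.mem_inf.mpr ⟨h0, ?_⟩
    rw [MulAction.mem_stabilizer_iff]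
    exact hg ⟨ζ, hζE⟩ ((hmemM _).mpr (Fermat.Agent.S36.CycloBase.zeta_mem_cyclo _ ζ))
  have hy : (⟨y, hyE⟩ : E) ∈ IntermediateField.fixedField H1 := by
    rw [IntermediateField.mem_fixedField_iff]
    rintro g ⟨⟨τ, hτ, rfl⟩, hgζ⟩
    have hgζ' : AlgEquiv.restrictNormalHom E τ (⟨ζ, hζE⟩ : E) = ⟨ζ, hζE⟩ :=
      MulAction.mem_stabilizer_iff.mp hgζ
    have hτζ : τ ζ = ζ := by
      have h2 := coe_restrictNormalHom_apply E τ ⟨ζ, hζE⟩
      rw [hgζ'] at h2
      exact h2.symm
    apply Subtype.ext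
    rw [coe_restrictNormalHom_apply]
    exact h τ hτ hτζ
  have hle : IntermediateField.fixedField H1 ≤ M := by
    have h3 := IntermediateField.fixedField_le hM
    rwa [IsGalois.fixedField_fixingSubgroup] at h3
  exact (hmemM _).mp (hle hy)

/-- The converse: an element of `K(ζ)` is fixed by every inertia element fixing `ζ`. -/
theorem forall_fixed_of_mem_cyclo {ζ : Qb} {y : Qb}
    (hy : y ∈ Fermat.Agent.S36.CycloBase.cyclo (inertiaFixed A E) ζ) :
    ∀ τ ∈ A.inertiaSubgroupIn ℚ, τ ζ = ζ → τ y = y := by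
  intro τ hτ hτζ
  have hle : Fermat.Agent.S36.CycloBase.cyclo (inertiaFixed A E) ζ
      ≤ IntermediateField.fixedField (Subgroup.zpowers τ) := by
    rw [IntermediateField.le_iff_le, Subgroup.zpowers_le]
    unfold Fermat.Agent.S36.CycloBase.cyclo
    rw [IntermediateField.fixingSubgroup_sup]
    refine Subgroup.mem_inf.mpr ⟨?_, ?_⟩
    · rw [IntermediateField.mem_fixingSubgroup_iff]
      intro x hx
      exact ((mem_inertiaFixed_iff A E x).mp hx).2 τ hτ
    · have h1 : IntermediateField.adjoin ℚ {ζ}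
          ≤ IntermediateField.fixedField (Subgroup.zpowers τ) := by
        rw [IntermediateField.adjoin_simple_le_iff, IntermediateField.mem_fixedField_iff]
        intro f hf
        obtain ⟨n, rfl⟩ := Subgroup.mem_zpowers_iff.mp hf
        have hfix : τ ∈ MulAction.stabilizer Gq ζ := MulAction.mem_stabilizer_iff.mpr hτζ
        exact MulAction.mem_stabilizer_iff.mp (zpow_mem hfix n)
      have h2 := (IntermediateField.le_iff_le _ _).mp h1
      exact h2 (Subgroup.mem_zpowers τ)
  exact (IntermediateField.mem_fixedField_iff _ y).mp (hle hy) τ (Subgroup.mem_zpowers τ)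

/-- `K(ζ)` is exactly the set of elements of `E` fixed by the inertia elements fixing `ζ`. -/
theorem mem_cyclo_iff_forall_fixed [FiniteDimensional ℚ E] [Normal ℚ E] {ζ : Qb} (hζE : ζ ∈ E)
    (y : Qb) :
    y ∈ Fermat.Agent.S36.CycloBase.cyclo (inertiaFixed A E) ζ ↔
      y ∈ E ∧ ∀ τ ∈ A.inertiaSubgroupIn ℚ, τ ζ = ζ → τ y = y :=
  ⟨fun hy => ⟨Fermat.Agent.S33.Geo.InertiaPow.cyclo_le A E hζE hy,
      forall_fixed_of_mem_cyclo A E hy⟩,
    fun hy => mem_cyclo_of_forall_fixed A E hζE hy.1 hy.2⟩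

/-- The decomposition group preserves the inertia field of a normal field. -/
theorem map_mem_inertiaFixed [Normal ℚ E] {τ : Gq} (hτ : τ ∈ A.decompositionSubgroup ℚ)
    {x : Qb} (hx : x ∈ inertiaFixed A E) : τ x ∈ inertiaFixed A E := by
  rw [mem_inertiaFixed_iff] at hx ⊢
  refine ⟨map_mem_of_normal E τ hx.1, fun ι hι => ?_⟩
  have h1 := hx.2 (τ⁻¹ * ι * τ)
    (Fermat.Agent.S36.StableBase.conj_mem_inertiaSubgroupIn A hτ hι)
  have h2 : τ ((τ⁻¹ * ι * τ) x) = ι (τ x) := by
    rw [AlgEquiv.mul_apply, AlgEquiv.mul_apply]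
    exact AlgEquiv.apply_symm_apply τ (ι (τ x))
  rw [← h2, h1]

/-- **The inertia field of a finite normal field is a geometric base**: `K = inertiaFixed A E` is
finite, inertia-fixed, stable under the decomposition group, and contains the primitive `M`-th
roots of unity of `E` (`p ∤ M`) and every inertia-fixed element of `E`. -/
theorem geomClass_inertiaFixed [FiniteDimensional ℚ E] [Normal ℚ E] {p : ℕ} (hp : p.Prime)
    (hA : A.LiesOverPrime p) {M : ℕ} (hpM : ¬ p ∣ M) (S₀ : Finset Qb)
    (hζM : ∃ z : Qb, z ∈ E ∧ IsPrimitiveRoot z M) (hS₀E : ∀ s ∈ S₀, s ∈ E)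
    (hS₀ : ∀ s ∈ S₀, ∀ τ ∈ A.inertiaSubgroupIn ℚ, τ s = s) :
    Fermat.Agent.S36.GeomClass.GeomClass A M S₀ (inertiaFixed A E) := by
  refine ⟨inferInstance, ?_, ?_, ?_, ?_⟩
  · intro τ hτ x hx
    exact ((mem_inertiaFixed_iff A E x).mp hx).2 τ hτ
  · intro τ hτ
    refine ⟨fun x hx => map_mem_inertiaFixed A E hτ hx, fun x hx => ?_⟩
    exact map_mem_inertiaFixed A E (inv_mem hτ) hx
  · obtain ⟨z, hzE, hz⟩ := hζM
    exact ⟨z, rootOfUnity_mem_inertiaFixed A E hA
      ((Nat.Prime.coprime_iff_not_dvd hp).mpr hpM).symm hzE hz.pow_eq_one, hz⟩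
  · intro s hs
    exact (mem_inertiaFixed_iff A E s).mpr ⟨hS₀E s hs, hS₀ s hs⟩

end Fermat.Agent.S33.Geo.InertiaCyclo
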