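import Mathlib
import Fermat.Agent.S33.Geo.FunII0Data
import Fermat.Agent.S33.Geo.InertiaCyclo
import Fermat.Agent.S33.Geo.CoverDescent
import Fermat.Agent.S36.InvFun
import Fermat.Agent.S36.CoefFix
import Fermat.Agent.S36.KummerConst

/-!
# S33 (GEO, COV'), row C8q, second seat: the base of the cover data

`FunII0Data.exists_coverData` gives, for a function `x` satisfying `FunLevel.GoodII0`, the
cover data `(y, T, F', H)` over `ℚ̄`, with all coefficients in one finite extension of `ℚ`.
Here the base is chosen: for EVERY finite normal field `E ⊆ ℚ̄` containing those coefficients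
and a primitive `p`-th root of unity `ζ`, with `K = inertiaFixed A E` the inertia field of `E`
and `K₁ = cyclo K ζ = K(ζ)`:

* the functions `y i` are defined over `K₁` (`y₁ i : LE L K₁`), of leading coefficient `1`;
* their normalised `p`-th roots `T i` have coefficients in `K₁` (`T₁ i : K₁((q))`);
* the inertia-invariant factor `F'` has coefficients in `K` and lies in the cover field
  (`F₀ ∈ CoverFieldDefs.L0 L K ζ T₁`, by `CoverDescent.exists_mem_L0`);
* `H` and `x` are defined over `E`, and `x = F₀ * H ^ p` holds in `E((q))`.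

Pure coefficient descent (Galois correspondence inside `E`, `InertiaCyclo`): no model, no
valuation.  `exists_normal_field` supplies the field `E` (finite normal, containing a given
finite field and a given finite set of constants).
-/

set_option autoImplicit false
set_option linter.style.haveILetI false

open HahnSeries ModularCurve AlgebraicCurve

noncomputable section

namespace Fermat.Agent.S33.Geo.FunII0Base

open Fermat.Agent.S30 Fermat.Agent.S30.Producer
open Fermat.Agent.S18.K1Defs (LE)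
open Fermat.Agent.S36.InvFun (upF)
open Fermat.Agent.S36.CycloBase (cyclo inclE)
open Fermat.Agent.Lib.InertiaField (inertiaFixed inertiaFixed_le)
open Fermat.Agent.S33.Geo.FunII0Data

/-- **A finite normal field containing a finite field and a finite set of constants.** -/
theorem exists_normal_field (E₁ : IntermediateField ℚ Qb) [FiniteDimensional ℚ E₁]
    (S : Finset Qb) :
    ∃ E : IntermediateField ℚ Qb, FiniteDimensional ℚ E ∧ Normal ℚ E ∧ E₁ ≤ E ∧
      ∀ s ∈ S, s ∈ E := by
  haveI hnorm : Normal ℚ Qb := Fermat.Agent.S36.Descent.normal_rat_Qb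
  haveI hSfin : Finite (S : Set Qb) := S.finite_toSet.to_subtype
  haveI hS : FiniteDimensional ℚ (IntermediateField.adjoin ℚ (S : Set Qb)) :=
    IntermediateField.finiteDimensional_adjoin fun s _ =>
      (GaussDescent.isAlgebraic_rat_Qb.isAlgebraic s).isIntegral
  haveI h2 : FiniteDimensional ℚ ↥(E₁ ⊔ IntermediateField.adjoin ℚ (S : Set Qb)) :=
    IntermediateField.finiteDimensional_sup _ _
  refine ⟨IntermediateField.normalClosure ℚ ↥(E₁ ⊔ IntermediateField.adjoin ℚ (S : Set Qb)) Qb,
    normalClosure.is_finiteDimensional ℚ _ Qb, normalClosure.normal ℚ _ Qb, ?_, ?_⟩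
  · exact le_trans le_sup_left (IntermediateField.le_normalClosure _)
  · intro s hs
    exact IntermediateField.le_normalClosure _
      ((le_sup_right : IntermediateField.adjoin ℚ (S : Set Qb) ≤
          E₁ ⊔ IntermediateField.adjoin ℚ (S : Set Qb))
        (IntermediateField.subset_adjoin ℚ _ hs))

/-- **Row C8q, second half: the base of the cover data.**  For every finite normal field `E`
containing the coefficients of the cover data and a primitive `p`-th root of unity `ζ`, the
`y i` and `T i` are defined over `K₁ = K(ζ)`, `F'` over `K = inertiaFixed A E`, and `H`, `x`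
over `E`. -/
theorem exists_baseData {L p : ℕ} [NeZero L] (hp : p.Prime) {A : ValuationSubring Qb}
    {w : FN L → FN L} {x : FN L} {n : ℕ} {y : Fin n → FN L} {T : Fin n → LaurentSeries Qb}
    {F' H : LaurentSeries Qb} (h : CoverData L A p w x y T F' H) :
    ∃ E₁ : IntermediateField ℚ Qb, FiniteDimensional ℚ E₁ ∧
      ∀ (E : IntermediateField ℚ Qb) [FiniteDimensional ℚ E] [Normal ℚ E], E₁ ≤ E →
        ∀ ζ : Qb, ζ ∈ E → IsPrimitiveRoot ζ p →
          ∃ (y₁ : Fin n → LE L (cyclo (inertiaFixed A E) ζ))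
            (T₁ : Fin n → LaurentSeries (cyclo (inertiaFixed A E) ζ))
            (F₀ : LaurentSeries (inertiaFixed A E)) (H₁ : LaurentSeries E) (x₁ : LE L E),
            (∀ i, upF L (cyclo (inertiaFixed A E) ζ) (y₁ i) = y i) ∧
            (∀ i, ((y₁ i : LE L (cyclo (inertiaFixed A E) ζ)) :
              LaurentSeries (cyclo (inertiaFixed A E) ζ)).leadingCoeff = 1) ∧
            (∀ i, coeffMap (algebraMap (cyclo (inertiaFixed A E) ζ) Qb) (T₁ i) = T i) ∧
            (∀ i, T₁ i ^ p = ((y₁ i : LE L (cyclo (inertiaFixed A E) ζ)) :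
              LaurentSeries (cyclo (inertiaFixed A E) ζ))) ∧
            (∀ i, (T₁ i).leadingCoeff = 1) ∧
            F₀ ∈ CoverFieldDefs.L0 L (inertiaFixed A E) ζ T₁ ∧
            coeffMap (algebraMap (inertiaFixed A E) Qb) F₀ = F' ∧ F₀ ≠ 0 ∧
            coeffMap (algebraMap E Qb) H₁ = H ∧ H₁ ≠ 0 ∧ upF L E x₁ = x ∧
            (x₁ : LaurentSeries E) = coeffMap (inclE (inertiaFixed_le A E)) F₀ * H₁ ^ p := by
  haveI : NeZero p := ⟨hp.ne_zero⟩
  obtain ⟨E₀, hE₀, hyc, hTc, hFc, hHc, hxc⟩ := h.coeff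
  refine ⟨E₀, hE₀, fun E _ _ hE ζ hζE hζ => ?_⟩
  -- an automorphism fixing `ζ` fixes every `p`-th root of unity
  have hμ : ∀ τ : GQ, τ ζ = ζ → ∀ μ : Qb, μ ^ p = 1 → τ μ = μ := by
    intro τ hτ μ hμ
    obtain ⟨k, -, rfl⟩ := hζ.eq_pow_of_pow_eq_one hμ
    rw [map_pow, hτ]
  -- the coefficients of `y i` and `T i` lie in `K₁`
  have hy1 : ∀ i (k : ℤ), (y i : LaurentSeries Qb).coeff k ∈ cyclo (inertiaFixed A E) ζ := by
    intro i k
    refine InertiaCyclo.mem_cyclo_of_forall_fixed A E hζE (hE (hyc i k)) fun τ hτ hτζ => ?_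
    have h1 := h.fix i τ hτ (hμ τ hτζ)
    have h2 : ((galF L τ (y i) : FN L) : LaurentSeries Qb).coeff k
        = (y i : LaurentSeries Qb).coeff k := by rw [h1]
    rw [coe_galF, coeffMap_coeff] at h2
    exact h2
  have hT1 : ∀ i (k : ℤ), (T i).coeff k ∈ cyclo (inertiaFixed A E) ζ := by
    intro i k
    refine InertiaCyclo.mem_cyclo_of_forall_fixed A E hζE (hE (hTc i k)) fun τ hτ hτζ => ?_
    have h1 := h.rootfix i τ hτ (hμ τ hτζ)
    have h2 : (coeffMap (τ : Qb →+* Qb) (T i)).coeff k = (T i).coeff k := by rw [h1]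
    rw [coeffMap_coeff] at h2
    exact h2
  -- the coefficients of `F'` lie in `K`
  have hF1 : ∀ k : ℤ, F'.coeff k ∈ inertiaFixed A E := by
    intro k
    refine InertiaCyclo.mem_inertiaFixed_of_forall_fixed A E (hE (hFc k)) fun τ hτ => ?_
    have h1 := h.fixF τ hτ
    have h2 : (coeffMap (τ : Qb →+* Qb) F').coeff k = F'.coeff k := by rw [h1]
    rw [coeffMap_coeff] at h2
    exact h2
  -- the descended objects
  have hyex : ∀ i, ∃ z : LaurentSeries (cyclo (inertiaFixed A E) ζ),
      z ∈ LE L (cyclo (inertiaFixed A E) ζ) ∧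
        coeffMap (algebraMap (cyclo (inertiaFixed A E) ζ) Qb) z = (y i : LaurentSeries Qb) :=
    fun i => Fermat.Agent.S36.Descent.exists_rep_of_coeff_mem (modularFunctionFieldFull L)
      (cyclo (inertiaFixed A E) ζ) (y i).2 (hy1 i)
  choose y₁ hy₁mem hy₁ using hyex
  have hTex : ∀ i, ∃ z : LaurentSeries (cyclo (inertiaFixed A E) ζ),
      coeffMap (algebraMap (cyclo (inertiaFixed A E) ζ) Qb) z = T i :=
    fun i => CoverDescent.exists_coeffMap_eq _ (T i) (hT1 i)
  choose T₁ hT₁ using hTex
  obtain ⟨F₀, hF₀mem, hF₀⟩ :=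
    CoverDescent.exists_mem_L0 L (inertiaFixed A E) ζ T₁ T hT₁ h.memF hF1
  obtain ⟨H₁, hH₁⟩ := CoverDescent.exists_coeffMap_eq E H fun k => hE (hHc k)
  obtain ⟨x₁, hx₁mem, hx₁⟩ :=
    Fermat.Agent.S36.Descent.exists_rep_of_coeff_mem (modularFunctionFieldFull L) E x.2
      fun k => hE (hxc k)
  have hinj1 : Function.Injective
      (coeffMap (algebraMap (cyclo (inertiaFixed A E) ζ) Qb)) :=
    Fermat.Agent.S18.K1Top.coeffMap_injective_hom _
  have hinjE : Function.Injective (coeffMap (algebraMap E Qb)) :=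
    Fermat.Agent.S18.K1Top.coeffMap_injective_hom _
  refine ⟨fun i => ⟨y₁ i, hy₁mem i⟩, T₁, F₀, H₁, ⟨x₁, hx₁mem⟩, ?_, ?_, hT₁, ?_, ?_, hF₀mem,
    hF₀, ?_, hH₁, ?_, ?_, ?_⟩
  · intro i
    exact Subtype.ext (hy₁ i)
  · intro i
    show (y₁ i).leadingCoeff = 1
    have h1 := Fermat.Agent.S36.KummerConst.leadingCoeff_coeffMap_hom
      (algebraMap (cyclo (inertiaFixed A E) ζ) Qb) (y₁ i)
    rw [hy₁ i, h.lc i] at h1
    exact (algebraMap (cyclo (inertiaFixed A E) ζ) Qb).injective (by rw [← h1, map_one])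
  · intro i
    show T₁ i ^ p = y₁ i
    apply hinj1
    rw [map_pow, hT₁ i, h.root i, hy₁ i]
  · intro i
    have h1 := Fermat.Agent.S36.KummerConst.leadingCoeff_coeffMap_hom
      (algebraMap (cyclo (inertiaFixed A E) ζ) Qb) (T₁ i)
    rw [hT₁ i, h.rootlc i] at h1
    exact (algebraMap (cyclo (inertiaFixed A E) ζ) Qb).injective (by rw [← h1, map_one])
  · rintro rfl
    rw [map_zero] at hF₀
    exact h.neF hF₀.symm
  · rintro rfl
    rw [map_zero] at hH₁
    exact h.neH hH₁.symm
  · exact Subtype.ext hx₁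
  · show x₁ = coeffMap (inclE (inertiaFixed_le A E)) F₀ * H₁ ^ p
    apply hinjE
    rw [map_mul, map_pow, hH₁, CoverDescent.coeffMap_inclE, hF₀, hx₁]
    exact h.eq

end Fermat.Agent.S33.Geo.FunII0Base
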