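import Mathlib
import Fermat.Agent.S33.Geo.FunII0Base
import Fermat.Agent.S36.StableBase

/-!
# S33 (GEO, COV'), row C8q, second seat: the generator of `Gal(K(ζ)/K)` in inertia

`A` a valuation subring of `ℚ̄` with inertia group `I`, `E ⊆ ℚ̄` a field containing a primitive
`p`-th root of unity `ζ`, `K = inertiaFixed A E = E ∩ ℚ̄^I`, `K₁ = cyclo K ζ = K(ζ)`.

* `stable_cyclo` : every element of `I` stabilises `K₁` (it fixes `K` and maps `ζ` to a power
  of `ζ`);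
* `exists_generator` : there is `τ ∈ I` whose fixed field in `K₁` is `K` (the image of `I`
  under the cyclotomic character of `ζ` is a subgroup of the cyclic group `(ℤ/p)ˣ`; `τ` is an
  element mapping to a generator), and `τ ζ = ζ ^ a`;
* `exists_tau` : for the cover data of `FunII0Data` descended to `K₁` (`FunII0Base`), the same
  `τ` with the eigen relation over `K₁`:
  `galK L τ h₁ (y₁ i) = y₁ i ^ a * k ^ p`, `k ∈ LE L K₁` (no constant: the `y₁ i` have leading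
  coefficient `1`; the `p`-th root is descended by `S36.KummerConst`).

These are the binders `hτK`, `hτfix`, `hτζ`, `heig` of the cover field row C1-E.
-/

set_option autoImplicit false
set_option linter.style.haveILetI false
set_option synthInstance.maxHeartbeats 400000

open HahnSeries ModularCurve AlgebraicCurve

noncomputable section

namespace Fermat.Agent.S33.Geo.FunII0Tau

open Fermat.Agent.S30 Fermat.Agent.S30.Producer
open Fermat.Agent.S18.K1Defs (LE)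
open Fermat.Agent.S36.InvFun (upF)
open Fermat.Agent.S36.CycloBase (cyclo le_cyclo zeta_mem_cyclo)
open Fermat.Agent.Lib.InertiaField (inertiaFixed mem_inertiaFixed_iff)
open Fermat.Agent.S36.StableBase (Stable galK)
open Fermat.Agent.S33.Geo.FunII0Data

/-- The inertia group stabilises `K(ζ)`, `K` the inertia field of `E`. -/
theorem stable_cyclo {p : ℕ} [NeZero p] (A : ValuationSubring Qb) (E : IntermediateField ℚ Qb)
    {ζ : Qb} (hζ : IsPrimitiveRoot ζ p) {σ : GQ} (hσ : σ ∈ A.inertiaSubgroupIn ℚ) :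
    Stable (cyclo (inertiaFixed A E) ζ) σ := by
  have key : ∀ ρ : GQ, ρ ∈ A.inertiaSubgroupIn ℚ →
      ∀ x ∈ cyclo (inertiaFixed A E) ζ, ρ x ∈ cyclo (inertiaFixed A E) ζ := by
    intro ρ hρ
    have hle : inertiaFixed A E ⊔ IntermediateField.adjoin ℚ ({ζ} : Set Qb)
        ≤ (cyclo (inertiaFixed A E) ζ).comap (ρ : Qb →ₐ[ℚ] Qb) := by
      refine sup_le (fun x hx => ?_) (IntermediateField.adjoin_simple_le_iff.mpr ?_)
      · show ρ x ∈ cyclo (inertiaFixed A E) ζ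
        rw [((mem_inertiaFixed_iff A E x).mp hx).2 ρ hρ]
        exact le_cyclo _ ζ hx
      · show ρ ζ ∈ cyclo (inertiaFixed A E) ζ
        rw [← hζ.autToPow_spec ℚ ρ]
        exact pow_mem (zeta_mem_cyclo _ ζ) _
    exact fun x hx => hle hx
  exact ⟨key σ hσ, key σ.symm (inv_mem hσ)⟩

/-- **A generator of `Gal(K(ζ)/K)` in the inertia group.**  There is `τ ∈ I` with
`τ ζ = ζ ^ a` whose fixed field in `K(ζ)` is `K = inertiaFixed A E`. -/
theorem exists_generator {p : ℕ} (hp : p.Prime) (A : ValuationSubring Qb)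
    (E : IntermediateField ℚ Qb) {ζ : Qb} (hζE : ζ ∈ E) (hζ : IsPrimitiveRoot ζ p) :
    ∃ (τ : GQ) (a : ℕ), τ ∈ A.inertiaSubgroupIn ℚ ∧ (∀ x ∈ inertiaFixed A E, τ x = x) ∧
      (∀ x ∈ cyclo (inertiaFixed A E) ζ, τ x = x → x ∈ inertiaFixed A E) ∧ τ ζ = ζ ^ a := by
  classical
  haveI : Fact p.Prime := ⟨hp⟩
  haveI : NeZero p := ⟨hp.ne_zero⟩
  -- the cyclotomic character on `ζ`
  obtain ⟨χ, hχ⟩ : ∃ χ : GQ →* (ZMod p)ˣ, ∀ σ : GQ, σ ζ = ζ ^ (χ σ : ZMod p).val :=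
    ⟨hζ.autToPow ℚ, fun σ => (hζ.autToPow_spec ℚ σ).symm⟩
  -- an element of inertia mapping to a generator of the image of inertia
  obtain ⟨g, hg⟩ := IsCyclic.exists_generator (α := ↥((A.inertiaSubgroupIn ℚ).map χ))
  obtain ⟨τ, hτ, hτg⟩ := Subgroup.mem_map.mp g.2
  have hτK : ∀ x ∈ inertiaFixed A E, τ x = x := fun x hx =>
    ((mem_inertiaFixed_iff A E x).mp hx).2 τ hτ
  refine ⟨τ, (χ τ : ZMod p).val, hτ, hτK, ?_, hχ τ⟩
  intro x hx hτx
  refine (mem_inertiaFixed_iff A E x).mpr ⟨InertiaPow.cyclo_le A E hζE hx, fun σ hσ => ?_⟩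
  have hσm : (⟨χ σ, Subgroup.mem_map_of_mem χ hσ⟩ : ↥((A.inertiaSubgroupIn ℚ).map χ))
      ∈ Subgroup.zpowers g := hg _
  obtain ⟨m, hm⟩ := Subgroup.mem_zpowers_iff.mp hσm
  have hm' : χ τ ^ m = χ σ := by
    have h1 : ((g ^ m : ↥((A.inertiaSubgroupIn ℚ).map χ)) : (ZMod p)ˣ) = χ σ :=
      congrArg Subtype.val hm
    rw [Subgroup.coe_zpow, ← hτg] at h1
    exact h1
  have hρ : σ⁻¹ * τ ^ m ∈ A.inertiaSubgroupIn ℚ := mul_mem (inv_mem hσ) (zpow_mem hτ m)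
  have hχρ : χ (σ⁻¹ * τ ^ m) = 1 := by
    rw [map_mul, map_inv, map_zpow, hm', inv_mul_cancel]
  have hρζ : (σ⁻¹ * τ ^ m) ζ = ζ := by
    rw [hχ (σ⁻¹ * τ ^ m), hχρ, Units.val_one, ZMod.val_one, pow_one]
  have hρx := InertiaCyclo.forall_fixed_of_mem_cyclo A E hx _ hρ hρζ
  have hstab : τ ∈ MulAction.stabilizer GQ x := MulAction.mem_stabilizer_iff.mpr hτx
  have h2 : (τ ^ m) x = x := MulAction.mem_stabilizer_iff.mp (zpow_mem hstab m)
  rw [AlgEquiv.mul_apply, h2] at hρx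
  calc σ x = σ (σ⁻¹ x) := by rw [hρx]
    _ = x := AlgEquiv.apply_symm_apply σ x

/-- **The eigen relation over `K(ζ)`.**  `τ ∈ I` with `τ ζ = ζ ^ a`: for the cover data
descended to `K₁ = K(ζ)`, `galK L τ h₁ (y₁ i) = y₁ i ^ a * k ^ p` with `k ∈ LE L K₁`. -/
theorem eigen_base {L p : ℕ} [NeZero L] (hp : p.Prime) {A : ValuationSubring Qb}
    {w : FN L → FN L} {x : FN L} {n : ℕ} {y : Fin n → FN L} {T : Fin n → LaurentSeries Qb}
    {F' H : LaurentSeries Qb} (h : CoverData L A p w x y T F' H)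
    (E : IntermediateField ℚ Qb) {ζ : Qb} (hζ : IsPrimitiveRoot ζ p)
    (y₁ : Fin n → LE L (cyclo (inertiaFixed A E) ζ))
    (hy₁ : ∀ i, upF L (cyclo (inertiaFixed A E) ζ) (y₁ i) = y i)
    {τ : GQ} (hτ : τ ∈ A.inertiaSubgroupIn ℚ) {a : ℕ} (hτζ : τ ζ = ζ ^ a)
    (h₁ : Stable (cyclo (inertiaFixed A E) ζ) τ) (i : Fin n) :
    ∃ k : LE L (cyclo (inertiaFixed A E) ζ), galK L τ h₁ (y₁ i) = y₁ i ^ a * k ^ p := by
  haveI : NeZero p := ⟨hp.ne_zero⟩
  -- `τ` acts on the `p`-th roots of unity through `a`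
  have ha : ∀ μ : Qb, μ ^ p = 1 → τ μ = μ ^ a := by
    intro μ hμ
    obtain ⟨j, -, rfl⟩ := hζ.eq_pow_of_pow_eq_one hμ
    rw [map_pow, hτζ, ← pow_mul, ← pow_mul, mul_comm]
  obtain ⟨k₀, hk₀⟩ := h.eigen i τ hτ a ha
  have hlcy : Fermat.Agent.S36.Descent.lc L (y i) = 1 := h.lc i
  have hy0 : y i ≠ 0 := Fermat.Agent.S36.Descent.ne_zero_of_lc_eq_one hlcy
  have hy₁0 : y₁ i ≠ 0 := by
    intro h0
    apply hy0
    rw [← hy₁ i, h0, map_zero]
  -- compatibility of the two actions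
  have hgal : upF L (cyclo (inertiaFixed A E) ζ) (galK L τ h₁ (y₁ i)) = galF L τ (y i) := by
    rw [← hy₁ i]
    exact Subtype.ext (Fermat.Agent.S36.StableBase.up_galK L τ h₁ (y₁ i))
  -- the quotient `τ y / y ^ a` over `K₁`
  obtain ⟨g, hgdef⟩ : ∃ g : LE L (cyclo (inertiaFixed A E) ζ),
      g = galK L τ h₁ (y₁ i) * (y₁ i ^ a)⁻¹ := ⟨_, rfl⟩
  have hup : upF L (cyclo (inertiaFixed A E) ζ) g = algebraMap Qb (FN L) 1 * k₀ ^ p := by
    rw [hgdef, map_mul, map_inv₀, map_pow, hgal, hy₁ i, hk₀, map_one, one_mul,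
      mul_comm (y i ^ a) (k₀ ^ p), mul_assoc, mul_inv_cancel₀ (pow_ne_zero a hy0), mul_one]
  obtain ⟨c₀, W, hgW⟩ := Fermat.Agent.S36.KummerConst.exists_const_mul_pow_level L
    (cyclo (inertiaFixed A E) ζ) hp.pos g 1 k₀ (congrArg Subtype.val hup)
  -- leading coefficients
  have hlcg : Fermat.Agent.S36.Descent.lc L (upF L (cyclo (inertiaFixed A E) ζ) g) = 1 := by
    have h1 : upF L (cyclo (inertiaFixed A E) ζ) g * y i ^ a = galF L τ (y i) := by
      rw [hup, map_one, one_mul, hk₀, mul_comm]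
    have h2 := congrArg (Fermat.Agent.S36.Descent.lc L) h1
    have h3 : Fermat.Agent.S36.Descent.lc L (galF L τ (y i))
        = τ (Fermat.Agent.S36.Descent.lc L (y i)) := Fermat.Agent.S36.Descent.lc_gal τ (y i)
    rw [Fermat.Agent.S36.Descent.lc_mul, Fermat.Agent.S36.Descent.lc_pow, hlcy, one_pow,
      mul_one, h3, hlcy, map_one] at h2
    exact h2
  obtain ⟨ℓ, hℓ⟩ : ∃ ℓ : cyclo (inertiaFixed A E) ζ,
      ℓ = ((W : LE L (cyclo (inertiaFixed A E) ζ)) :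
        LaurentSeries (cyclo (inertiaFixed A E) ζ)).leadingCoeff := ⟨_, rfl⟩
  have hc₀ : c₀ * ℓ ^ p = 1 := by
    apply (algebraMap (cyclo (inertiaFixed A E) ζ) Qb).injective
    rw [map_mul, map_pow, map_one]
    have h4 : upF L (cyclo (inertiaFixed A E) ζ) g
        = algebraMap Qb (FN L) (c₀ : Qb) * upF L (cyclo (inertiaFixed A E) ζ) W ^ p := by
      rw [hgW, map_mul, map_pow, Fermat.Agent.S36.InvFun.upF_algebraMap]
    have h5 := congrArg (Fermat.Agent.S36.Descent.lc L) h4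
    rw [hlcg, Fermat.Agent.S36.Descent.lc_mul, Fermat.Agent.S36.Descent.lc_pow,
      Fermat.Agent.S36.Descent.lc_algebraMap] at h5
    have h6 : Fermat.Agent.S36.Descent.lc L (upF L (cyclo (inertiaFixed A E) ζ) W)
        = algebraMap (cyclo (inertiaFixed A E) ζ) Qb ℓ := by
      rw [hℓ]
      exact Fermat.Agent.S36.KummerConst.leadingCoeff_coeffMap_hom _ _
    rw [h6] at h5
    exact h5.symm
  have hℓ0 : ℓ ≠ 0 := by
    rintro rfl
    rw [zero_pow hp.ne_zero, mul_zero] at hc₀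
    exact zero_ne_one hc₀
  have hc₀' : c₀ = ℓ⁻¹ ^ p := by
    rw [inv_pow]
    exact eq_inv_of_mul_eq_one_left hc₀
  have hgk : g = (algebraMap (cyclo (inertiaFixed A E) ζ) (LE L (cyclo (inertiaFixed A E) ζ)) ℓ⁻¹
      * W) ^ p := by
    rw [mul_pow, ← map_pow, ← hc₀', hgW]
  refine ⟨algebraMap (cyclo (inertiaFixed A E) ζ) (LE L (cyclo (inertiaFixed A E) ζ)) ℓ⁻¹ * W, ?_⟩
  rw [← hgk, hgdef, mul_comm (galK L τ h₁ (y₁ i)), ← mul_assoc,
    mul_inv_cancel₀ (pow_ne_zero a hy₁0), one_mul]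

/-- **Row C8q, the automorphism `τ`** (binders `hτK`, `hτfix`, `hτζ`, `heig` of the cover field
row, with the constant `1`): a generator `τ ∈ I` of `Gal(K(ζ)/K)`, `τ ζ = ζ ^ a`, and the eigen
relation `galK L τ h₁ (y₁ i) = y₁ i ^ a * k ^ p` over `K₁ = K(ζ)` for the descended cover
data. -/
theorem exists_tau {L p : ℕ} [NeZero L] (hp : p.Prime) {A : ValuationSubring Qb}
    {w : FN L → FN L} {x : FN L} {n : ℕ} {y : Fin n → FN L} {T : Fin n → LaurentSeries Qb}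
    {F' H : LaurentSeries Qb} (h : CoverData L A p w x y T F' H)
    (E : IntermediateField ℚ Qb) {ζ : Qb} (hζE : ζ ∈ E) (hζ : IsPrimitiveRoot ζ p)
    (y₁ : Fin n → LE L (cyclo (inertiaFixed A E) ζ))
    (hy₁ : ∀ i, upF L (cyclo (inertiaFixed A E) ζ) (y₁ i) = y i) :
    ∃ (τ : GQ) (a : ℕ), τ ∈ A.inertiaSubgroupIn ℚ ∧ (∀ x ∈ inertiaFixed A E, τ x = x) ∧
      (∀ x ∈ cyclo (inertiaFixed A E) ζ, τ x = x → x ∈ inertiaFixed A E) ∧ τ ζ = ζ ^ a ∧
      ∃ h₁ : Stable (cyclo (inertiaFixed A E) ζ) τ,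
        ∀ i, ∃ k : LE L (cyclo (inertiaFixed A E) ζ),
          galK L τ h₁ (y₁ i) = y₁ i ^ a * k ^ p := by
  haveI : NeZero p := ⟨hp.ne_zero⟩
  obtain ⟨τ, a, hτ, hτK, hτfix, hτζ⟩ := exists_generator hp A E hζE hζ
  have h₁ : Stable (cyclo (inertiaFixed A E) ζ) τ := stable_cyclo A E hζ hτ
  exact ⟨τ, a, hτ, hτK, hτfix, hτζ, h₁, fun i => eigen_base hp h E hζ y₁ hy₁ hτ hτζ h₁ i⟩

end Fermat.Agent.S33.Geo.FunII0Tau
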