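/-
S33 (ordinary at `p ∥ N`), strand GEO, Stage B, row B5 (helper140): the swap is unique.

Two `ℚ̄`-automorphisms of `F_{N' p}` which both exchange `α` and `β` agree (the generators
`j(q^d)`, `d ∣ N' p`, lie in the images of `α` and `β`).  Hence every swap of the contract
(`Contract.IsSwap N' p w`) is the chosen Atkin–Lehner swap `S34.ToricSwap.wAL N' p`, and its
restriction to a base field `E` is `S34.HauptU.Plug.wHom` (`upF ∘ wHom = w ∘ upF`).
-/
import Mathlib
import Fermat.Agent.S33.Geo.Contract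
import Fermat.Agent.S33.Geo.AuxRes
import Fermat.Agent.S34.ToricSwap
import Fermat.Agent.S44.L.Alt.DescHoriz

set_option autoImplicit false

noncomputable section

open HahnSeries ModularCurve AlgebraicCurve

namespace Fermat.Agent.S33.Geo.SwapUnique

open Fermat.Agent.S30 Fermat.Agent.S30.Producer Fermat.Agent.S37.LevelPull
open Fermat.Agent.S33.Geo.Contract Fermat.Agent.S33.Geo.AuxRes

variable {N' p : ℕ} [NeZero N'] [NeZero p]

/-- **Uniqueness of the swap**: two automorphisms exchanging `α` and `β` agree. -/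
theorem swap_unique (hp : p.Prime) (w w' : FN (N' * p) ≃ₐ[Qb] FN (N' * p))
    (hα : ∀ f : FN N', w (heckeAlphaBar Qb N' p f) = heckeBetaBar Qb N' p f)
    (hβ : ∀ f : FN N', w (heckeBetaBar Qb N' p f) = heckeAlphaBar Qb N' p f)
    (hα' : ∀ f : FN N', w' (heckeAlphaBar Qb N' p f) = heckeBetaBar Qb N' p f)
    (hβ' : ∀ f : FN N', w' (heckeBetaBar Qb N' p f) = heckeAlphaBar Qb N' p f)
    (x : FN (N' * p)) : w x = w' x := by
  have h := swap_lvl hp (dvd_refl N') w w' hα hβ hα' hβ' x
  have e : ∀ y : FN (N' * p), lvl (mul_dvd_mul_right (dvd_refl N') p) y = y := fun y =>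
    Subtype.ext (coe_lvl _ y)
  rw [e, e] at h
  exact h.symm

/-- **Every swap of the contract is the chosen Atkin–Lehner swap.** -/
theorem isSwap_eq_wAL (hp : p.Prime) (hpN : ¬ p ∣ N') {w : FN (N' * p) ≃ₐ[Qb] FN (N' * p)}
    (hw : IsSwap N' p w) (x : FN (N' * p)) :
    w x = Fermat.Agent.S34.ToricSwap.wAL N' p hp hpN x :=
  swap_unique hp w (Fermat.Agent.S34.ToricSwap.wAL N' p hp hpN) hw.alpha hw.beta
    (fun f => Fermat.Agent.S34.ToricSwap.wAL_alpha hp hpN f)
    (fun f => Fermat.Agent.S34.ToricSwap.wAL_beta hp hpN f) x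

/-- **The swap of the contract on `K`-rational functions** is the `K`-level swap `wHom`. -/
theorem isSwap_upF (hp : p.Prime) (hpN : ¬ p ∣ N') {w : FN (N' * p) ≃ₐ[Qb] FN (N' * p)}
    (hw : IsSwap N' p w) (E : IntermediateField ℚ Qb)
    (f : Fermat.Agent.S18.K1Defs.LE (N' * p) E) :
    w (Fermat.Agent.S36.InvFun.upF (N' * p) E f) =
      Fermat.Agent.S36.InvFun.upF (N' * p) E
        (Fermat.Agent.S34.HauptU.Plug.wHom N' p E hp hpN f) := by
  rw [isSwap_eq_wAL hp hpN hw, Fermat.Agent.S44.L.Alt.DescHoriz.upF_wHom N' p E hp hpN f]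

end Fermat.Agent.S33.Geo.SwapUnique
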