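import Mathlib
import Fermat.Agent.S33.Geo.Contract
import Fermat.Agent.S36.InvFun

/-!
# S33 (GEO, COV'), row C6-E, supplier: the `TrivAt` witnesses over a number field

`Contract.TrivAt L A p n z` says `z = c * g ^ (p ^ n) * u` over `ℚ̄` with `c` a nonzero
constant, `g ≠ 0` and `u` a one-unit at the Gauss valuation of `A`.  Here the witnesses are
descended: there is a finite extension `E₁` of `ℚ` such that over EVERY field `E ⊇ E₁`

* `exists_trivAt_base` : `c`, a `p ^ n`-th root `d` of `c`, `g` and `u` are defined over `E`;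
* `exists_pow_mul_oneUnit` : every `z₁ ∈ LE L E` lifting `z` is `g ^ (p ^ n) * u` in `LE L E`
  with `u` a one-unit (the constant is absorbed: `c = d ^ (p ^ n)`).

`exists_LE` is the underlying descent of one function (`S30.GaussDescent.exists_descent`).
-/

set_option autoImplicit false
set_option linter.style.haveILetI false
set_option synthInstance.maxHeartbeats 400000

open HahnSeries ModularCurve AlgebraicCurve

noncomputable section

namespace Fermat.Agent.S33.Geo.TrivAtBase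

open Fermat.Agent.S30 Fermat.Agent.S30.Producer
open Fermat.Agent.S18.K1Defs (LE)
open Fermat.Agent.S36.InvFun (upF)
open Fermat.Agent.S33.Geo.Contract

/-- A function of level `L` over `ℚ̄` is defined over every sufficiently large number field. -/
theorem exists_LE (L : ℕ) [NeZero L] (g : FN L) :
    ∃ E₀ : IntermediateField ℚ Qb, FiniteDimensional ℚ E₀ ∧
      ∀ E : IntermediateField ℚ Qb, E₀ ≤ E → ∃ g₁ : LE L E, upF L E g₁ = g := by
  obtain ⟨E₀, hE₀, hdesc⟩ := GaussDescent.exists_descent (modularFunctionFieldFull L) g.2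
  refine ⟨E₀, hE₀, fun E hE => ?_⟩
  obtain ⟨y, hy, hyg⟩ := hdesc E hE
  exact ⟨⟨y, hy⟩, Subtype.ext hyg⟩

/-- **The `TrivAt` witnesses over a number field.** -/
theorem exists_trivAt_base {L p n : ℕ} [NeZero L] (hp : 0 < p) {A : ValuationSubring Qb}
    {z : FN L} (hz : TrivAt L A p n z) :
    ∃ E₁ : IntermediateField ℚ Qb, FiniteDimensional ℚ E₁ ∧
      ∀ E : IntermediateField ℚ Qb, E₁ ≤ E →
        ∃ (c d : E) (g u : LE L E), c ≠ 0 ∧ d ^ (p ^ n) = c ∧ g ≠ 0 ∧
          OneUnit L A (upF L E u) ∧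
          z = upF L E (algebraMap E (LE L E) c * g ^ (p ^ n) * u) := by
  obtain ⟨c, g, u, hc, hg, hu, hzeq⟩ := hz
  obtain ⟨d, hd⟩ := IsAlgClosed.exists_pow_nat_eq c (pow_pos hp n)
  obtain ⟨Eg, hEg, hgE⟩ := exists_LE L g
  obtain ⟨Eu, hEu, huE⟩ := exists_LE L u
  haveI := hEg
  haveI := hEu
  haveI hdfin : FiniteDimensional ℚ (IntermediateField.adjoin ℚ ({d} : Set Qb)) :=
    IntermediateField.adjoin.finiteDimensional
      (GaussDescent.isAlgebraic_rat_Qb.isAlgebraic d).isIntegral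
  haveI h12 : FiniteDimensional ℚ ↥(Eg ⊔ Eu) := IntermediateField.finiteDimensional_sup Eg Eu
  refine ⟨Eg ⊔ Eu ⊔ IntermediateField.adjoin ℚ ({d} : Set Qb),
    IntermediateField.finiteDimensional_sup _ _, fun E hE => ?_⟩
  have hgE' : Eg ≤ E := le_trans (le_trans le_sup_left le_sup_left) hE
  have huE' : Eu ≤ E := le_trans (le_trans le_sup_right le_sup_left) hE
  have hdE : d ∈ E :=
    hE ((le_sup_right : IntermediateField.adjoin ℚ ({d} : Set Qb)
        ≤ Eg ⊔ Eu ⊔ IntermediateField.adjoin ℚ ({d} : Set Qb))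
      (IntermediateField.mem_adjoin_simple_self ℚ d))
  have hcE : c ∈ E := by
    rw [← hd]
    exact pow_mem hdE _
  obtain ⟨g₁, hg₁⟩ := hgE E hgE'
  obtain ⟨u₁, hu₁⟩ := huE E huE'
  refine ⟨⟨c, hcE⟩, ⟨d, hdE⟩, g₁, u₁, ?_, ?_, ?_, ?_, ?_⟩
  · intro h0
    exact hc (congrArg Subtype.val h0)
  · exact Subtype.ext ((SubmonoidClass.coe_pow _ _).trans hd)
  · rintro rfl
    apply hg
    rw [← hg₁, map_zero]
  · rw [hu₁]
    exact hu
  · rw [map_mul, map_mul, map_pow, hg₁, hu₁, Fermat.Agent.S36.InvFun.upF_algebraMap]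
    exact hzeq

/-- **`TrivAt` over a number field, constant absorbed.**  Over every `E ⊇ E₁`, every lift
`z₁ ∈ LE L E` of `z` is a `p ^ n`-th power times a one-unit, inside `LE L E`. -/
theorem exists_pow_mul_oneUnit {L p n : ℕ} [NeZero L] (hp : 0 < p) {A : ValuationSubring Qb}
    {z : FN L} (hz : TrivAt L A p n z) :
    ∃ E₁ : IntermediateField ℚ Qb, FiniteDimensional ℚ E₁ ∧
      ∀ E : IntermediateField ℚ Qb, E₁ ≤ E → ∀ z₁ : LE L E, upF L E z₁ = z →
        ∃ g u : LE L E, g ≠ 0 ∧ OneUnit L A (upF L E u) ∧ z₁ = g ^ (p ^ n) * u := by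
  obtain ⟨E₁, hE₁, hbase⟩ := exists_trivAt_base hp hz
  refine ⟨E₁, hE₁, fun E hE z₁ hz₁ => ?_⟩
  obtain ⟨c, d, g, u, hc, hd, hg, hu, hzeq⟩ := hbase E hE
  have hd0 : d ≠ 0 := by
    rintro rfl
    rw [zero_pow (pow_pos hp n).ne'] at hd
    exact hc hd.symm
  refine ⟨algebraMap E (LE L E) d * g, u, mul_ne_zero ((map_ne_zero _).mpr hd0) hg, hu, ?_⟩
  apply Fermat.Agent.S36.InvFun.upF_injective L E
  rw [hz₁, hzeq, mul_pow, ← map_pow, hd]

end Fermat.Agent.S33.Geo.TrivAtBase
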