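/-
S33 (ordinary at `p ∥ N`), strand GEO, Stage B, row C6-E: **`hUnit`, the (UNIT)-upstairs exit at
the cover field from the `TrivAt` hypotheses** (statement of record: helper220 #9535 (1); this
text: racing twin helper117, typed from main on `Geo/UnitUpCover.unit_up_cover_VB` (helper91),
`Geo/TrivAtBase.exists_trivAt_base` (helper197), `S44/L/Alt/DescHoriz.upF_wHom`,
`S34/ToricSwap.wAL_wAL`).

`x` a function of level `M p` over `ℚ̄`, `x` and its Atkin–Lehner swap `wAL x` trivial at the
Gauss valuation of `A` (`Contract.TrivAt .. 1`).  There is a finite extension `E₂` of `ℚ` (the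
coefficients of the two `TrivAt` decompositions, `p`-th roots of their constants, a `p`-th root
of `p`) such that for every finite normal `E ⊇ E₂`, `K = inertiaFixed A E`, every cover field
`L0 = CoverFieldDefs.L0 (M p) K ζ T`, every `f ∈ L0ˣ` and `H ∈ L0 · E` with `x = f * H ^ p` over
`ℚ̄`, and every valuation ring `V'` of `L0` with uniformiser `p` lying over a component
`GaussRings.VB .. b` of the level-`M p` model over `A ∩ K`:

  `∃ c : O, c ≠ 0 ∧ Top.DepthIn V' p (p : O) 1 f c`.
-/
import Mathlib
import Fermat.Agent.S33.Geo.UnitUpCover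
import Fermat.Agent.S33.Geo.TrivAtBase

set_option autoImplicit false
set_option linter.unusedSectionVars false
set_option linter.unusedVariables false
set_option linter.style.haveILetI false
set_option synthInstance.maxHeartbeats 400000

open ModularCurve

noncomputable section

namespace Fermat.Agent.S33.Geo.UnitUpInst

open Fermat.Agent.S30 Fermat.Agent.S30.E4 Fermat.Agent.S30.Producer Fermat.Agent.S18.K1Defs
open Fermat.Agent.S18.K1Top
open Fermat.Agent.S36.InvFun Fermat.Agent.S33.Geo.Contract
open Fermat.Agent.S34.HauptU.Plug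
open Fermat.Agent.S36.CycloBase (cyclo)
open Fermat.Agent.S33.Geo.CoverFieldDefs (L0)
open Fermat.Agent.Lib.InertiaField (inertiaFixed inertiaFixed_le)

/-- Field algebra: from `F * H ^ p = (D * g) ^ p * u` with `H ≠ 0` to `F = (D * g / H) ^ p * u`. -/
theorem eq_div_pow_mul {Ω : Type*} [Field Ω] (p : ℕ) {F H Dg u : Ω} (hH : H ≠ 0)
    (h : F * H ^ p = Dg ^ p * u) : F = (Dg / H) ^ p * u := by
  rw [div_pow, div_mul_eq_mul_div, eq_div_iff (pow_ne_zero p hH), h]

/-- **`hUnit`: (UNIT) upstairs at the cover field, from the `TrivAt` hypotheses on `x` and on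
its Atkin–Lehner swap.** -/
theorem unit_up_base (M p : ℕ) [NeZero M] [NeZero p] (hp : p.Prime) (hpM : ¬ p ∣ M)
    (A : ValuationSubring Qb) (hA : A.LiesOverPrime p) (x : FN (M * p))
    (hx : TrivAt (M * p) A p 1 x)
    (hxw : TrivAt (M * p) A p 1 (Fermat.Agent.S34.ToricSwap.wAL M p hp hpM x)) :
    ∃ E₂ : IntermediateField ℚ Qb, FiniteDimensional ℚ E₂ ∧
      ∀ (E : IntermediateField ℚ Qb) [FiniteDimensional ℚ E] [Normal ℚ E], E₂ ≤ E →
        ∀ (K : IntermediateField ℚ Qb) (hK : K = inertiaFixed A E)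
          [IsDiscreteValuationRing (OE A K)] (ζ : Qb) {ι : Type*}
          (T : ι → LaurentSeries (cyclo K ζ)) (f : ↥(L0 (M * p) K ζ T)) (hf : f ≠ 0)
          (H : LaurentSeries Qb) (hH0 : H ≠ 0) (hH : H ∈ UnitUpCover.supF (M * p) K E ζ T)
          (hxf : (x : LaurentSeries Qb)
            = coeffMap (algebraMap K Qb) (f : LaurentSeries K) * H ^ p)
          {O : Type*} [CommRing O] [Algebra O ↥(L0 (M * p) K ζ T)]
          (V' : Subring ↥(L0 (M * p) K ζ T)) (hpi : BranchDvr.IsPiDvr (p : O) V')
          (hdisc : BranchPin.IsDisc (p : O) V') (b : Bool)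
          (hV : ∀ a ∈ GaussRings.VB M p K (OE A K) hp hpM b,
            algebraMap (LE (M * p) K) ↥(L0 (M * p) K ζ T) a ∈ V'),
          ∃ c : O, c ≠ 0 ∧ Top.DepthIn V' p (p : O) 1 f c := by
  classical
  obtain ⟨E₁, hE₁, hbase⟩ := TrivAtBase.exists_trivAt_base hp.pos hx
  obtain ⟨E₁', hE₁', hbase'⟩ := TrivAtBase.exists_trivAt_base hp.pos hxw
  obtain ⟨ρ, hρ⟩ : ∃ ρ : Qb, ρ ^ p = (p : Qb) := IsAlgClosed.exists_pow_nat_eq _ hp.pos
  haveI := hE₁
  haveI := hE₁'
  haveI hρfin : FiniteDimensional ℚ (IntermediateField.adjoin ℚ ({ρ} : Set Qb)) :=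
    IntermediateField.adjoin.finiteDimensional
      (GaussDescent.isAlgebraic_rat_Qb.isAlgebraic ρ).isIntegral
  haveI h12 : FiniteDimensional ℚ ↥(E₁ ⊔ E₁') := IntermediateField.finiteDimensional_sup E₁ E₁'
  refine ⟨E₁ ⊔ E₁' ⊔ IntermediateField.adjoin ℚ ({ρ} : Set Qb),
    IntermediateField.finiteDimensional_sup _ _, ?_⟩
  intro E _ _ hE K hK _ ζ ι T f hf H hH0 hH hxf O _ _ V' hpi hdisc b hV
  have hKE : K ≤ E := by
    rw [hK]
    exact inertiaFixed_le A E
  have hE₁E : E₁ ≤ E := le_trans (le_trans le_sup_left le_sup_left) hE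
  have hE₁'E : E₁' ≤ E := le_trans (le_trans le_sup_right le_sup_left) hE
  have hρE : ρ ∈ E := hE ((le_sup_right : IntermediateField.adjoin ℚ ({ρ} : Set Qb) ≤ _)
    (IntermediateField.mem_adjoin_simple_self ℚ ρ))
  cases b with
  | true =>
    obtain ⟨c, d, g, u, hc, hd, hg, hu, hzeq⟩ := hbase E hE₁E
    -- `x = (d g) ^ p * u` over `E`
    have hxE : (x : LaurentSeries Qb)
        = coeffMap (algebraMap E Qb)
            ((algebraMap E (LE (M * p) E) d * g : LE (M * p) E) : LaurentSeries E) ^ p
          * coeffMap (algebraMap E Qb) (u : LaurentSeries E) := by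
      have h1 : algebraMap E (LE (M * p) E) c * g ^ p ^ 1 * u
          = (algebraMap E (LE (M * p) E) d * g) ^ p * u := by
        rw [← hd, pow_one, map_pow, mul_pow]
      rw [hzeq, h1]
      show coeffMap (algebraMap E Qb)
        (((algebraMap E (LE (M * p) E) d * g) ^ p * u : LE (M * p) E) : LaurentSeries E) = _
      rw [← map_pow, ← map_mul]
      rfl
    have hfG : coeffMap (algebraMap K Qb) (f : LaurentSeries K)
        = (coeffMap (algebraMap E Qb)
            ((algebraMap E (LE (M * p) E) d * g : LE (M * p) E) : LaurentSeries E) / H) ^ p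
          * coeffMap (algebraMap E Qb) (u : LaurentSeries E) :=
      eq_div_pow_mul p hH0 (hxf.symm.trans hxE)
    exact UnitUpCover.unit_up_cover_VB A M p hp hpM hA K E hK hKE ζ T V' hpi hdisc true hV ρ hρE hρ
      f hf _ (div_mem (UnitUpCover.coeffMap_mem_supF_of_mem_LE (M * p) K E ζ T
        (algebraMap E (LE (M * p) E) d * g).2) hH) u hfG (fun _ => hu)
      (fun h => absurd h (by decide))
  | false =>
    obtain ⟨c, d, g, u, hc, hd, hg, hu, hzeq⟩ := hbase' E hE₁'E
    -- `x = wAL (wAL x) = (d * wHom g) ^ p * wHom u` over `E`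
    have hxE : (x : LaurentSeries Qb)
        = coeffMap (algebraMap E Qb)
            ((algebraMap E (LE (M * p) E) d * wHom M p E hp hpM g : LE (M * p) E) :
              LaurentSeries E) ^ p
          * coeffMap (algebraMap E Qb) ((wHom M p E hp hpM u : LE (M * p) E) : LaurentSeries E) := by
      have h1 : wHom M p E hp hpM (algebraMap E (LE (M * p) E) c * g ^ p ^ 1 * u)
          = (algebraMap E (LE (M * p) E) d * wHom M p E hp hpM g) ^ p * wHom M p E hp hpM u := by
        rw [map_mul, map_mul, map_pow,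
          Fermat.Agent.S44.L.Alt.SeamField.wHom_algebraMap_field M p E hp hpM c, ← hd, pow_one,
          map_pow, mul_pow]
      have h2 : x = upF (M * p) E
          ((algebraMap E (LE (M * p) E) d * wHom M p E hp hpM g) ^ p * wHom M p E hp hpM u) := by
        rw [← h1, Fermat.Agent.S44.L.Alt.DescHoriz.upF_wHom M p E hp hpM, ← hzeq,
          Fermat.Agent.S34.ToricSwap.wAL_wAL]
      have h3 := congrArg (fun z : FN (M * p) => (z : LaurentSeries Qb)) h2
      rw [show (x : LaurentSeries Qb) = _ from h3]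
      show coeffMap (algebraMap E Qb)
        (((algebraMap E (LE (M * p) E) d * wHom M p E hp hpM g) ^ p * wHom M p E hp hpM u :
          LE (M * p) E) : LaurentSeries E) = _
      rw [← map_pow, ← map_mul]
      rfl
    have hfG : coeffMap (algebraMap K Qb) (f : LaurentSeries K)
        = (coeffMap (algebraMap E Qb)
            ((algebraMap E (LE (M * p) E) d * wHom M p E hp hpM g : LE (M * p) E) :
              LaurentSeries E) / H) ^ p
          * coeffMap (algebraMap E Qb)
              ((wHom M p E hp hpM u : LE (M * p) E) : LaurentSeries E) :=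
      eq_div_pow_mul p hH0 (hxf.symm.trans hxE)
    have hu' : OneUnit (M * p) A
        (upF (M * p) E (wHom M p E hp hpM (wHom M p E hp hpM u))) := by
      rw [wHom_wHom]
      exact hu
    exact UnitUpCover.unit_up_cover_VB A M p hp hpM hA K E hK hKE ζ T V' hpi hdisc false hV ρ hρE
      hρ f hf _ (div_mem (UnitUpCover.coeffMap_mem_supF_of_mem_LE (M * p) K E ζ T
        (algebraMap E (LE (M * p) E) d * wHom M p E hp hpM g).2) hH)
      (wHom M p E hp hpM u) hfG (fun h => absurd h (by decide)) (fun _ => hu')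

end Fermat.Agent.S33.Geo.UnitUpInst
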