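/-
S33 (ordinary at `p ∥ N`), strand GEO, chain `?FunII0`, row C8 (helper31): THE HOLE `?FunII0`.

`funII0Statement (M p) (h4 : 4 ∣ M) : FunLevel.FunII0Statement M p` - the function-level target
of the row GEO-ii₀ at every level `M * p` with `4 ∣ M`: the second hole of
`S33/Exit.result_of_fun_four`.

* `coverExit_of_base` : over one base field `K` of the geometric class (`S36.GeomClass`), from
  the descended cover data (`FunII0Base.exists_baseData`), the generator of the inertia of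
  `K(ζ) / K` with its eigen relation (`FunII0Tau.exists_tau`) and the unit statement upstairs
  (row C6-E) as a hypothesis: the cover field is finite Galois of `p`-power degree
  (`CoverFieldInst.cover_gal`, row C1-E), carries a model over `OE A K`
  (`CoverModel.cover_model_exit`, row C3, at the base model `CoverBase.base_u4_geomClass` of row
  B3, the discriminant hypotheses `CoverUnrFinal.hN_of_model / hS_of_model` of row C4 and the
  suppliers `CoverSupply`), and `FunII0Final.coverExit_at` concludes;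
* `coverExit` : the choice of the field `E` (finite normal, containing the coefficients of the
  cover data, the field of `UnitUpInst.unit_up_base`, a primitive `p`-th and a primitive `M`-th
  root of unity), `K = inertiaFixed A E`;
* `funII0Statement` : `FunII0Exit.funII0Statement_of_coverExit`.
-/
import Mathlib
import Fermat.Agent.S33.Geo.FunII0Final
import Fermat.Agent.S33.Geo.FunII0Tau
import Fermat.Agent.S33.Geo.CoverFieldInst
import Fermat.Agent.S33.Geo.CoverBase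
import Fermat.Agent.S33.Geo.CoverSupply
import Fermat.Agent.S33.Geo.CoverUnrFinal
import Fermat.Agent.S33.Geo.CoverModel
import Fermat.Agent.S33.Geo.UnitUpInst
import Fermat.Agent.S33.Geo.SwapUnique

set_option autoImplicit false
set_option linter.unusedSectionVars false
set_option linter.unusedVariables false
set_option linter.style.haveILetI false
set_option synthInstance.maxHeartbeats 400000
set_option maxHeartbeats 1000000

open HahnSeries ModularCurve AlgebraicCurve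

noncomputable section

namespace Fermat.Agent.S33.Geo.FunII0Close

open Fermat.Agent.S18.K1Defs Fermat.Agent.S18.K1Main Fermat.Agent.S30 Fermat.Agent.S30.E4
open Fermat.Agent.S30.Producer
open Fermat.Agent.S34.TwoPrimesRank Fermat.Agent.S34.HauptU.Plug Fermat.Agent.S36.Haupt4
open Fermat.Agent.S36.CycloBase Fermat.Agent.S36.GeomClass
open Fermat.Agent.S36.InvFun (upF)
open Fermat.Agent.S36.StableBase (Stable galK)
open Fermat.Agent.Lib.InertiaField (inertiaFixed inertiaFixed_le)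
open Fermat.Agent.S33.Geo.Contract Fermat.Agent.S33.Geo.FunLevel
open Fermat.Agent.S33.Geo.FunII0Data Fermat.Agent.S33.Geo.FunII0Exit
open Fermat.Agent.S33.Geo.CoverFieldDefs Fermat.Agent.S33.Geo.GaussRings

/-- **Row C8 over one base field of the geometric class**, from the descended cover data and
the unit statement upstairs. -/
theorem coverExit_of_base {M p : ℕ} [NeZero M] [NeZero p] (hp : p.Prime) (hp2 : p ≠ 2)
    (hpM : ¬ p ∣ M) (h4 : 4 ∣ M) {A : ValuationSubring Qb} (hA : A.LiesOverPrime p)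
    {w : FN (M * p) → FN (M * p)}
    (hwAL : ∀ z : FN (M * p), w z = Fermat.Agent.S34.ToricSwap.wAL M p hp hpM z)
    {x : FN (M * p)} (hx0 : x ≠ 0) (hdiv : E4.DivBy (M * p) p x)
    {n : ℕ} {y : Fin n → FN (M * p)} {T : Fin n → LaurentSeries Qb} {F' H : LaurentSeries Qb}
    (D : CoverData (M * p) A p w x y T F' H)
    (K : IntermediateField ℚ Qb) {S₀ : Finset Qb} (hKc : GeomClass A M S₀ K)
    [IsDiscreteValuationRing (OE A K)] {ζ : Qb} (hζ : IsPrimitiveRoot ζ p)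
    (τ : GQ) (h₁ : Stable (cyclo K ζ) τ) (hτK : ∀ c ∈ K, τ c = c)
    (hτfix : ∀ c ∈ cyclo K ζ, τ c = c → c ∈ K) (a : ℕ) (hτζ : τ ζ = ζ ^ a)
    (y₁ : Fin n → LE (M * p) (cyclo K ζ)) (T₁ : Fin n → LaurentSeries (cyclo K ζ))
    (hy₁ : ∀ i, upF (M * p) (cyclo K ζ) (y₁ i) = y i)
    (hlc : ∀ i, ((y₁ i : LE (M * p) (cyclo K ζ)) : LaurentSeries (cyclo K ζ)).leadingCoeff = 1)
    (hb : ∀ i, coeffMap (algebraMap (cyclo K ζ) Qb) (T₁ i) = T i)
    (hroot : ∀ i, T₁ i ^ p = ((y₁ i : LE (M * p) (cyclo K ζ)) : LaurentSeries (cyclo K ζ)))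
    (heig : ∀ i, ∃ k : LE (M * p) (cyclo K ζ), galK (M * p) τ h₁ (y₁ i) = y₁ i ^ a * k ^ p)
    (F₀ : LaurentSeries K) (hF₀ : F₀ ∈ L0 (M * p) K ζ T₁)
    (hF₀F : coeffMap (algebraMap K Qb) F₀ = F')
    (hunit : (∀ i, T₁ i ∈ (L0 (M * p) K ζ T₁).toSubfield.map (inclLS K ζ) ⊔
          (LE (M * p) (cyclo K ζ)).toSubfield) →
      letI : Algebra (OE A K) ↥(L0 (M * p) K ζ T₁) :=
        ((algebraMap K ↥(L0 (M * p) K ζ T₁)).comp (algebraMap (OE A K) K)).toAlgebra
      ∀ (V' : Subring ↥(L0 (M * p) K ζ T₁)) (b : Bool),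
        Fermat.Agent.S33.Geo.BranchDvr.IsPiDvr ((p : ℕ) : OE A K) V' →
        Fermat.Agent.S33.Geo.BranchPin.IsDisc ((p : ℕ) : OE A K) V' →
        (∀ f ∈ VB M p K (OE A K) hp hpM b,
          algebraMap (LE (M * p) K) ↥(L0 (M * p) K ζ T₁) f ∈ V') →
        ∃ c : OE A K, c ≠ 0 ∧ Fermat.Agent.S33.Geo.Top.DepthIn V' p ((p : ℕ) : OE A K) 1
          (⟨F₀, hF₀⟩ : ↥(L0 (M * p) K ζ T₁)) c) :
    CoverExit (M * p) A p x := by
  classical
  haveI hKfd : FiniteDimensional ℚ K := hKc.finiteDimensional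
  haveI hK1dvr : IsDiscreteValuationRing (OE A (cyclo K ζ)) :=
    GaussDescent.isDiscreteValuationRing_OE A (cyclo K ζ) hp hA
  obtain ⟨hfd, hgal, ⟨m, hm⟩, hgen1, hgen2, -⟩ := CoverFieldInst.cover_gal (M * p) K ζ T₁ hp hζ
    τ h₁ hτK hτfix a hτζ y₁ hroot heig
  haveI := hfd
  haveI := hgal
  haveI hsep : Algebra.IsSeparable (LE (M * p) K) ↥(L0 (M * p) K ζ T₁) := hgal.to_isSeparable
  letI algOF := algebraOL (OE A K) K (LE (M * p) K)
  haveI towF := isScalarTower_OL (OE A K) K (LE (M * p) K)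
  obtain ⟨hπ, hD, hcov, hVu, hU0, hUtr, hUfd, hperf, hinjF, hprime⟩ :=
    CoverBase.base_u4_geomClass A M p hp hp2 hpM h4 hA S₀ K hKc
  letI algOL : Algebra (OE A K) ↥(L0 (M * p) K ζ T₁) :=
    ((algebraMap K ↥(L0 (M * p) K ζ T₁)).comp (algebraMap (OE A K) K)).toAlgebra
  haveI towL : IsScalarTower (OE A K) K ↥(L0 (M * p) K ζ T₁) :=
    IsScalarTower.of_algebraMap_eq (fun _ => rfl)
  haveI towFL : IsScalarTower (OE A K) (LE (M * p) K) ↥(L0 (M * p) K ζ T₁) :=
    CoverSupply.isScalarTower_O_LE_L0 (M * p) K ζ T₁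
  haveI := hUfd
  haveI hfin := CoverSupply.finite_chart (M * p) K ζ T₁ (O := OE A K)
    (alphaHom M p K (u4E M K h4)) hUtr
  -- the data of the `y₁ i`
  have hy0 : ∀ i, y₁ i ≠ 0 := by
    intro i h
    have h1 := hlc i
    rw [h] at h1
    simp at h1
  have hdivy : ∀ i, E4.DivBy (M * p) p (upF (M * p) (cyclo K ζ) (y₁ i)) := fun i => by
    rw [hy₁ i]
    exact D.div i
  have hty : ∀ i, TrivAt (M * p) A p 1 (upF (M * p) (cyclo K ζ) (y₁ i)) := fun i => by
    rw [hy₁ i]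
    exact D.triv i
  have htwy : ∀ i, TrivAt (M * p) A p 1
      (Fermat.Agent.S34.ToricSwap.wAL M p hp hpM (upF (M * p) (cyclo K ζ) (y₁ i))) := fun i => by
    rw [hy₁ i, ← hwAL]
    exact D.trivw i
  have hN := CoverUnrFinal.hN_of_model A M p hp hpM h4 hA K hKc.le_fixingSubgroup hζ T₁ y₁ _ _ _
    hD hcov hm hroot hy0 hlc hdivy hty htwy
  have hS := CoverUnrFinal.hS_of_model A M p hp hpM h4 hA K hKc.le_fixingSubgroup hζ T₁ y₁ _ _ _
    hD hcov hm hroot hy0 hlc hdivy hty htwy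
  obtain ⟨y₀, hdeg⟩ := CoverSupply.exists_degOne_u4 M p K ζ T₁ (O := OE A K) h4
    ((p : ℕ) : OE A K) hπ.not_isUnit
  obtain ⟨hDm, hcov', hβ, hred0, hredinf⟩ := CoverModel.cover_model_exit hD hπ
    (alphaHom M p K (u4E M K h4)) hU0 hcov hVu
    (CoverSupply.hinj (M * p) K ζ T₁ (IsFractionRing.injective (OE A K) K))
    (CoverSupply.hOL (M * p) K ζ T₁)
    (fun f => ∀ P : Place K ↥(L0 (M * p) K ζ T₁), (p : ℤ) ∣ P.ord f)
    (CoverSupply.hHor (M * p) K ζ T₁ p hp.ne_zero ((p : ℕ) : OE A K) hπ.not_isUnit) hN hS y₀ hdeg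
  refine FunII0Final.coverExit_at hp hp2 h4 hA hx0 hdiv D K hπ ζ T₁ hb
    (fun i => by rw [hroot i]; exact (y₁ i).2) hgen1 F₀ hF₀ hF₀F _ _ _ hDm hcov' hred0 hredinf ?_
  intro W'
  obtain ⟨b, hb'⟩ := hβ W'
  obtain ⟨hpi, hdisc, -⟩ := CoverModel.alpha (O := OE A K) (ϖ := ((p : ℕ) : OE A K)) W'
  exact hunit hgen2 (W' : Subring ↥(L0 (M * p) K ζ T₁)) b hpi hdisc (fun f hf => (hb' f).mpr hf)

/-- **Row C8: the cover exit** of every function satisfying `FunLevel.GoodII0`, at a level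
`M * p` with `4 ∣ M`. -/
theorem coverExit (M p : ℕ) [NeZero M] [NeZero p] (h4 : 4 ∣ M) (hp : p.Prime) (hp2 : p ≠ 2)
    (hpM : ¬ p ∣ M) (A : ValuationSubring Qb) (hA : A.LiesOverPrime p)
    (w : FN (M * p) ≃ₐ[Qb] FN (M * p)) (hw : IsSwap M p w) (x : FN (M * p))
    (hx : GoodII0 (M * p) A p w x) : CoverExit (M * p) A p x := by
  classical
  obtain ⟨hx0, hdiv, htriv, htrivw, -⟩ := id hx
  obtain ⟨n, y, T, F', H, D⟩ := FunII0Data.exists_coverData hp hA w hw.gal hx
  obtain ⟨E₁, hE₁, hbase⟩ := FunII0Base.exists_baseData hp D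
  have htrivw' : TrivAt (M * p) A p 1 (Fermat.Agent.S34.ToricSwap.wAL M p hp hpM x) := by
    rw [← SwapUnique.isSwap_eq_wAL hp hpM hw x]
    exact htrivw
  obtain ⟨E₂, hE₂, hunit⟩ := UnitUpInst.unit_up_base M p hp hpM A hA x htriv htrivw'
  haveI : NeZero (p : Qb) := ⟨by exact_mod_cast hp.ne_zero⟩
  haveI : NeZero (M : Qb) := ⟨by exact_mod_cast NeZero.ne M⟩
  obtain ⟨ζ, hζ⟩ := HasEnoughRootsOfUnity.exists_primitiveRoot Qb p
  obtain ⟨z, hz⟩ := HasEnoughRootsOfUnity.exists_primitiveRoot Qb M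
  haveI := hE₁
  haveI := hE₂
  haveI h12 : FiniteDimensional ℚ ↥(E₁ ⊔ E₂) := IntermediateField.finiteDimensional_sup E₁ E₂
  obtain ⟨E, hEfin, hEnorm, hE12, hES⟩ := FunII0Base.exists_normal_field (E₁ ⊔ E₂) {ζ, z}
  haveI := hEfin
  haveI := hEnorm
  have hζE : ζ ∈ E := hES ζ (by simp)
  have hzE : z ∈ E := hES z (by simp)
  have hKc : GeomClass A M ∅ (inertiaFixed A E) :=
    InertiaCyclo.geomClass_inertiaFixed A E hp hA hpM ∅ ⟨z, hzE, hz⟩ (by simp) (by simp)
  haveI hKdvr : IsDiscreteValuationRing (OE A (inertiaFixed A E)) :=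
    hKc.isDiscreteValuationRing hp hA
  obtain ⟨y₁, T₁, F₀, H₁, x₁, hy₁, hlc, hb, hroot, hTlc, hF₀mem, hF₀F, hF₀0, hH₁, hH₁0, hx₁,
    hxeq⟩ := hbase E (le_trans le_sup_left hE12) ζ hζE hζ
  obtain ⟨τ, a, hτI, hτK, hτfix, hτζ, h₁, heig⟩ := FunII0Tau.exists_tau hp D E hζE hζ y₁ hy₁
  refine coverExit_of_base hp hp2 hpM h4 hA (fun z => SwapUnique.isSwap_eq_wAL hp hpM hw z) hx0
    hdiv D (inertiaFixed A E) hKc hζ τ h₁ hτK hτfix a hτζ y₁ T₁ hy₁ hlc hb hroot heig F₀ hF₀mem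
    hF₀F ?_
  intro hgen2 V' b hpi hdisc hV
  have hH : H ∈ UnitUpCover.supF (M * p) (inertiaFixed A E) E ζ T₁ :=
    CoverDescent.mem_sup_of_coeff_mem (M * p) (inertiaFixed A E) ζ T₁ T hb E
      (inertiaFixed_le A E) hgen2 D.memH (fun k => by rw [← hH₁]; exact (H₁.coeff k).2)
  have hxf : (x : LaurentSeries Qb) = coeffMap (algebraMap (inertiaFixed A E) Qb)
      (((⟨F₀, hF₀mem⟩ : ↥(L0 (M * p) (inertiaFixed A E) ζ T₁)) :
        LaurentSeries (inertiaFixed A E))) * H ^ p := by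
    show (x : LaurentSeries Qb) = coeffMap (algebraMap (inertiaFixed A E) Qb) F₀ * H ^ p
    rw [hF₀F]
    exact D.eq
  exact hunit E (le_trans le_sup_right hE12) (inertiaFixed A E) rfl ζ T₁ ⟨F₀, hF₀mem⟩
    (fun h => hF₀0 (congrArg Subtype.val h)) H D.neH hH hxf V' hpi hdisc b hV

/-- **The hole `?FunII0`**: the function-level target of the row GEO-ii₀ at every level `M * p`
with `4 ∣ M`. -/
theorem funII0Statement (M p : ℕ) [NeZero M] [NeZero p] (h4 : 4 ∣ M) :
    FunLevel.FunII0Statement M p :=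
  FunII0Exit.funII0Statement_of_coverExit fun hp hp2 hpM A hA w hw x hx =>
    coverExit M p h4 hp hp2 hpM A hA w hw x hx

end Fermat.Agent.S33.Geo.FunII0Close
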