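/-
S33 (ordinary at `p ∥ N`), strand GEO, Stage B, row B5 (helper140): the hole `?FunI` from the
model instance alone.

`funIStatement_of_model` : for every level `M` with `4 ∣ M`, the model instance of the row B3
(`Model.IsModelI` on the two Gauss rings `GaussRings.VB`, cusp form of the cover, over every base
field of the `*_OE` block) gives `FunLevel.FunIStatement M p`.  The unit instance is the landed
`UnitGauss.hunit_VB` (row B4, helper279), plugged into `FunILeaves.funIStatement_of_leaves`.
-/
import Mathlib
import Fermat.Agent.S33.Geo.FunILeaves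
import Fermat.Agent.S33.Geo.UnitGauss

set_option autoImplicit false
set_option linter.unusedSectionVars false
set_option linter.unusedVariables false
set_option linter.style.haveILetI false
set_option synthInstance.maxHeartbeats 400000
set_option maxHeartbeats 1000000

open ModularCurve

noncomputable section

namespace Fermat.Agent.S33.Geo.FunIModel

open Fermat.Agent.S18.K1Defs Fermat.Agent.S18.K1Main Fermat.Agent.S30 Fermat.Agent.S30.E4
open Fermat.Agent.S30.Producer
open Fermat.Agent.S34.TwoPrimesRank Fermat.Agent.S34.HauptU.Plug Fermat.Agent.S36.Haupt4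
open Fermat.Agent.S36.HorizAdapter
open Fermat.Agent.S33.Geo.Contract Fermat.Agent.S33.Geo.GaussRings

local notation "Qb" => AlgebraicClosure ℚ

/-- **The hole `?FunI` at a level `M` with `4 ∣ M`, from the model instance (row B3) alone.** -/
theorem funIStatement_of_model (M p : ℕ) [NeZero M] [NeZero p] (h4 : 4 ∣ M)
    (hB3 : ∀ (hp : p.Prime) (hodd : p ≠ 2) (hpM : ¬ p ∣ M)
        (A : ValuationSubring Qb) (hA : A.LiesOverPrime p)
        (K : IntermediateField ℚ Qb) [FiniteDimensional ℚ K] [IsDiscreteValuationRing (OE A K)]
        (z : Qb) (hz : IsPrimitiveRoot z M) (hzK : z ∈ K)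
        (hπ : Irreducible ((p : ℕ) : OE A K)),
        letI := algebraOL (OE A K) K (LE (M * p) K)
        ∃ (Y : Type) (R : Y → Subring (LE (M * p) K)) (On : Y → Bool → Prop),
          Fermat.Agent.S33.Geo.Model.IsModelI p ((p : ℕ) : OE A K)
            (VB M p K (OE A K) hp hpM) R On
            (fun f => Horiz ((p : ℕ) : OE A K) p (alphaHom M p K (u4E M K h4)) f ∧
              Horiz ((p : ℕ) : OE A K) p (alphaHom M p K (u4E M K h4))⁻¹ f) ∧
          Fermat.Agent.S33.Geo.Model.CoversCusp ((p : ℕ) : OE A K)
            (alphaHom M p K (u4E M K h4)) R) :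
    Fermat.Agent.S33.Geo.FunLevel.FunIStatement M p :=
  Fermat.Agent.S33.Geo.FunILeaves.funIStatement_of_leaves M p h4 hB3
    (fun hp hodd hpM A hA K _ _ hπ y hy ht htw W =>
      Fermat.Agent.S33.Geo.UnitGauss.hunit_VB A M p hp hpM hA K _ hπ y ht htw W)

end Fermat.Agent.S33.Geo.FunIModel
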