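import Mathlib
import Fermat.Agent.S37.ConstLemma
import Fermat.Agent.S33.Geo.Top

/-!
# S33.GEO (level-free): constants and vanishing on a component covered by two affine charts

Pure commutative algebra behind the two GLOBAL fields of the TOP datum, `(CONST0)` and `(VAN)`.
A component `W` of the special fibre is seen through ring homs `r₁ : C₁ → L`, `r₂ : C₂ → L`
(the reductions of the two chart rings, `L` the residue field of the generic ring of `W`, e.g.
`κ((q))`), with `r₁ C₁` integral over `k[u]` and `r₂ C₂` integral over `k[u⁻¹]`.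

* `mem_range_of_forall_maximal` : a value which is a fraction of values of `r` with denominator
  outside `𝔫`, for every maximal `𝔫 ⊇ ker r`, is a value of `r` (a domain is the intersection
  of its localisations at maximal ideals, read in the image of `r`);
  `mem_range_of_forall_maximal_of_pow` : the same testing only the maximal ideals containing `s`,
  when `X * r (s ^ n)` is already a value (second chart: only the points over `u = ∞`).
* `exists_frac_of_mem_range` : elements of a localisation at a prime, inside `F`, as fractions.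
* `isIntegral_of_mem_ranges` : a common value of `r₁` and `r₂` is integral over `k`.
* `eq_zero_of_isIntegral_of_mem` : a value `r d`, `d ∈ 𝔫 ⊇ ker r`, integral over `k`, is `0`
  ("a regular function vanishing at one closed point is zero").
* `exists_C_eq_of_mem_ranges` : in `k((q))` a common value is a constant of `k`.

Component form (`V` the generic ring of the component inside the function field `F`,
`red : V →+* L` its reduction with kernel `ϖ V`, `chartRed V red hCV : C →+* L` the reduction of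
a chart ring `C` mapping into `V`, `RegAt ϖ V 𝔫 x` : modulo `ϖ V`, `x` is a fraction of chart
elements with denominator outside `𝔫`):

* `regAt_of_mem_range` : `RegAt` from `a ∈ R y`, `Top.MemPi V ϖ (x - a)` when `R y` is the range
  of any model of the localisation of the chart at `𝔫` (the hypothesis of `Top.ConstAt`,
  `Top.Van`).
* `red_mem_range`, `red_mem_range_of_pow`, `red_mul_pow_eq` : regular at all closed points of the
  first chart, and at the points of the second chart over `u = ∞` only, implies that the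
  reduction is a value of both charts.
* `red_isIntegral` : ... and integral over the constants `k`.
* `memPi_of_van` : **(VAN)** - moreover congruent, at one closed point `𝔫`, to a fraction
  `c / t` with `c ∈ 𝔫`, `t ∉ 𝔫`: then `x ∈ ϖ V`.
* `exists_const_of_reg` : **(CONST)** when `red` lands in `k((q))`: `x ≡ κ` modulo `ϖ V` for a
  constant `κ` of `O`.

Nothing here knows modular curves: the instances (level-`M` model, its covers) supply `V`, `red`,
the two chart rings and the chart change `d * s ^ n = e`.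
-/

set_option autoImplicit false

namespace Fermat.Agent.S33.Geo.RangeInt

open Polynomial

/-- Let `X * r (s ^ n)` be a value of `r`.  If `X` is, at every maximal ideal `𝔫 ∋ s` over
`ker r`, a fraction of values of `r` with denominator outside `𝔫`, then `X` is a value of `r`
(the denominator ideal of `X` contains `s ^ n` and lies in no maximal ideal). -/
theorem mem_range_of_forall_maximal_of_pow {C L : Type*} [CommRing C] [Field L] (r : C →+* L)
    (X : L) (s : C) (n : ℕ) (hs : ∃ c : C, X * r (s ^ n) = r c)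
    (h : ∀ 𝔫 : Ideal C, 𝔫.IsMaximal → RingHom.ker r ≤ 𝔫 → s ∈ 𝔫 →
      ∃ c t : C, t ∉ 𝔫 ∧ X * r t = r c) : X ∈ r.range := by
  let I : Ideal C :=
    { carrier := {d | ∃ c : C, X * r d = r c}
      add_mem' := by
        rintro a b ⟨c, hc⟩ ⟨c', hc'⟩
        exact ⟨c + c', by simp only [map_add, mul_add, hc, hc']⟩
      zero_mem' := ⟨0, by simp⟩
      smul_mem' := by
        rintro e a ⟨c, hc⟩
        exact ⟨e * c, by rw [smul_eq_mul, map_mul, map_mul, mul_left_comm, hc]⟩ }
  have hmem : ∀ d : C, d ∈ I ↔ ∃ c : C, X * r d = r c := fun d => Iff.rfl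
  by_cases hI : I = ⊤
  · have h1 : (1 : C) ∈ I := by rw [hI]; exact Submodule.mem_top
    obtain ⟨c, hc⟩ := (hmem 1).mp h1
    exact ⟨c, by rw [← hc, map_one, mul_one]⟩
  · obtain ⟨𝔫, h𝔫, hle⟩ := Ideal.exists_le_maximal I hI
    have hker : RingHom.ker r ≤ 𝔫 := by
      intro d hd
      refine hle ((hmem d).mpr ⟨0, ?_⟩)
      rw [RingHom.mem_ker.mp hd, mul_zero, map_zero]
    have hs𝔫 : s ∈ 𝔫 := h𝔫.isPrime.mem_of_pow_mem n (hle ((hmem _).mpr hs))
    obtain ⟨c, t, ht, hct⟩ := h 𝔫 h𝔫 hker hs𝔫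
    exact absurd (hle ((hmem t).mpr ⟨c, hct⟩)) ht

/-- A value which is, at every maximal ideal `𝔫` over `ker r`, a fraction of values of `r` with
denominator outside `𝔫`, is a value of `r`. -/
theorem mem_range_of_forall_maximal {C L : Type*} [CommRing C] [Field L] (r : C →+* L) (X : L)
    (h : ∀ 𝔫 : Ideal C, 𝔫.IsMaximal → RingHom.ker r ≤ 𝔫 →
      ∃ c s : C, s ∉ 𝔫 ∧ X * r s = r c) : X ∈ r.range :=
  mem_range_of_forall_maximal_of_pow r X 0 1 ⟨0, by simp⟩ fun 𝔫 h𝔫 hk _ => h 𝔫 h𝔫 hk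

/-- Elements of the localisation of `C` at a prime `𝔫`, inside `F`, are fractions of elements of
`C` with denominator outside `𝔫`. -/
theorem exists_frac_of_mem_range {C F : Type*} [CommRing C] [Field F] [Algebra C F]
    (𝔫 : Ideal C) [𝔫.IsPrime] (A : Type*) [CommRing A] [Algebra C A]
    [IsLocalization.AtPrime A 𝔫] [Algebra A F] [IsScalarTower C A F] {a : F}
    (ha : a ∈ (algebraMap A F).range) :
    ∃ c s : C, s ∉ 𝔫 ∧ a * algebraMap C F s = algebraMap C F c := by
  obtain ⟨a', rfl⟩ := ha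
  obtain ⟨⟨c, s⟩, h⟩ := IsLocalization.surj 𝔫.primeCompl a'
  refine ⟨c, s, Ideal.mem_primeCompl_iff.mp s.2, ?_⟩
  rw [IsScalarTower.algebraMap_apply C A F (s : C), IsScalarTower.algebraMap_apply C A F c,
    ← map_mul]
  exact congrArg (algebraMap A F) h

/-- **Two charts**: a common value of the two chart reductions is integral over the field of
constants. -/
theorem isIntegral_of_mem_ranges {k L : Type*} [Field k] [Field L] [Algebra k L]
    {C₁ C₂ : Type*} [CommRing C₁] [CommRing C₂] (r₁ : C₁ →+* L) (r₂ : C₂ →+* L) (u : L)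
    (h₁ : ∀ c : C₁, IsIntegral (Algebra.adjoin k {u}) (r₁ c))
    (h₂ : ∀ c : C₂, IsIntegral (Algebra.adjoin k {u⁻¹}) (r₂ c))
    {X : L} (hX₁ : X ∈ r₁.range) (hX₂ : X ∈ r₂.range) : IsIntegral k X := by
  obtain ⟨c₁, rfl⟩ := hX₁
  obtain ⟨c₂, hc₂⟩ := hX₂
  refine Fermat.Agent.S37.ConstLemma.isIntegral_of_two_charts u (r₁ c₁) (h₁ c₁) 1 (by simp) ?_
  rw [map_one, one_mul, ← hc₂]
  exact h₂ c₂

/-- **Vanishing**: a value `r d` with `d` in a proper ideal `𝔫 ⊇ ker r`, integral over a field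
of constants `k` whose elements are values of `r`, is zero. -/
theorem eq_zero_of_isIntegral_of_mem {k L : Type*} [Field k] [Field L] [Algebra k L]
    {C : Type*} [CommRing C] (r : C →+* L) (hlift : ∀ κ : k, ∃ e : C, r e = algebraMap k L κ)
    (𝔫 : Ideal C) (h𝔫 : 𝔫 ≠ ⊤) (hker : RingHom.ker r ≤ 𝔫) (d : C) (hd : d ∈ 𝔫)
    (hint : IsIntegral k (r d)) : r d = 0 := by
  by_contra hne
  have h0 : (minpoly k (r d)).coeff 0 ≠ 0 := minpoly.coeff_zero_ne_zero hint hne
  let S : Subalgebra k L :=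
    { r.range.toSubsemiring with
      algebraMap_mem' := fun κ => RingHom.mem_range.mpr (hlift κ) }
  have hS : ∀ x : L, x ∈ S ↔ x ∈ r.range := fun x => Iff.rfl
  have hQ : aeval (r d) (minpoly k (r d)).divX ∈ S :=
    (Algebra.adjoin_le (Set.singleton_subset_iff.mpr ((hS _).mpr ⟨d, rfl⟩)))
      (aeval_mem_adjoin_singleton k (r d))
  obtain ⟨e, he⟩ := (hS _).mp hQ
  obtain ⟨a, ha⟩ := hlift ((minpoly k (r d)).coeff 0)
  obtain ⟨b, hb⟩ := hlift ((minpoly k (r d)).coeff 0)⁻¹
  have hdecomp : aeval (r d) (minpoly k (r d)) =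
      aeval (r d) (minpoly k (r d)).divX * r d +
        algebraMap k L ((minpoly k (r d)).coeff 0) := by
    conv_lhs => rw [← Polynomial.divX_mul_X_add (minpoly k (r d))]
    simp
  have hz : r (e * d + a) = 0 := by
    rw [map_add, map_mul, he, ha, ← hdecomp, minpoly.aeval]
  have h1 : e * d + a ∈ 𝔫 := hker (RingHom.mem_ker.mpr hz)
  have ha𝔫 : a ∈ 𝔫 := by
    have h2 := 𝔫.sub_mem h1 (𝔫.mul_mem_left e hd)
    simpa using h2
  have hab : r (a * b - 1) = 0 := by
    rw [map_sub, map_mul, ha, hb, map_one, ← map_mul, mul_inv_cancel₀ h0, map_one, sub_self]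
  have h3 : a * b - 1 ∈ 𝔫 := hker (RingHom.mem_ker.mpr hab)
  apply h𝔫
  rw [Ideal.eq_top_iff_one]
  have h4 := 𝔫.sub_mem (𝔫.mul_mem_right b ha𝔫) h3
  simpa using h4

/-- **Constants**: in `k((q))` a common value of the two chart reductions is a constant. -/
theorem exists_C_eq_of_mem_ranges {k : Type*} [Field k] {C₁ C₂ : Type*} [CommRing C₁]
    [CommRing C₂] (r₁ : C₁ →+* LaurentSeries k) (r₂ : C₂ →+* LaurentSeries k)
    (u : LaurentSeries k) (h₁ : ∀ c : C₁, IsIntegral (Algebra.adjoin k {u}) (r₁ c))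
    (h₂ : ∀ c : C₂, IsIntegral (Algebra.adjoin k {u⁻¹}) (r₂ c)) {X : LaurentSeries k}
    (hX₁ : X ∈ r₁.range) (hX₂ : X ∈ r₂.range) : ∃ κ : k, HahnSeries.C κ = X :=
  Fermat.Agent.S37.ConstLemma.laurent_eq_C_of_isIntegral X
    (isIntegral_of_mem_ranges r₁ r₂ u h₁ h₂ hX₁ hX₂)

/-! ### A component seen through its generic ring and one or two charts

`V` is the generic ring of the component inside the function field `F`, `red : V →+* L` its
reduction (kernel `ϖ V`), `C` a chart ring mapping into `V`. -/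

section Component

variable {O F : Type*} [CommRing O] [Field F] [Algebra O F] {L : Type*} [Field L]
  (ϖ : O) (V : Subring F) (red : V →+* L)

/-- `x` is, modulo `ϖ V`, a fraction of elements of the chart `C` with denominator outside `𝔫`
(`x` is regular at the closed point `𝔫`, modulo `ϖ`). -/
def RegAt {C : Type*} [CommRing C] [Algebra C F] (𝔫 : Ideal C) (x : F) : Prop :=
  ∃ a : F, (∃ c t : C, t ∉ 𝔫 ∧ a * algebraMap C F t = algebraMap C F c) ∧
    Top.MemPi V ϖ (x - a)

/-- `RegAt` from an element of (any model of) the local ring of the chart at `𝔫`: this is the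
hypothesis of `Top.ConstAt` / `Top.Van` at a point `y` with `R y = (algebraMap A F).range`. -/
theorem regAt_of_mem_range {C : Type*} [CommRing C] [Algebra C F] (𝔫 : Ideal C) [𝔫.IsPrime]
    (A : Type*) [CommRing A] [Algebra C A] [IsLocalization.AtPrime A 𝔫] [Algebra A F]
    [IsScalarTower C A F] {x a : F} (ha : a ∈ (algebraMap A F).range)
    (hxa : Top.MemPi V ϖ (x - a)) : RegAt ϖ V 𝔫 x :=
  ⟨a, exists_frac_of_mem_range 𝔫 A ha, hxa⟩

variable {C : Type*} [CommRing C] [Algebra C F] (hCV : ∀ c : C, algebraMap C F c ∈ V)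

/-- The reduction of the chart `C` on the component. -/
def chartRed : C →+* L := red.comp ((algebraMap C F).codRestrict V hCV)

theorem chartRed_apply (c : C) : chartRed V red hCV c = red ⟨algebraMap C F c, hCV c⟩ := rfl

variable (hϖV : algebraMap O F ϖ ∈ V) (hϖ0 : red ⟨algebraMap O F ϖ, hϖV⟩ = 0)

include hϖ0 in
/-- Elements of `V` congruent modulo `ϖ V` have the same reduction. -/
theorem red_eq_of_memPi {x a : F} (hx : x ∈ V) (ha : a ∈ V) (h : Top.MemPi V ϖ (x - a)) :
    red ⟨x, hx⟩ = red ⟨a, ha⟩ := by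
  obtain ⟨v, hv, hxa⟩ := h
  have h2 : (⟨x, hx⟩ : V) = ⟨a, ha⟩ + ⟨algebraMap O F ϖ, hϖV⟩ * ⟨v, hv⟩ :=
    Subtype.ext (by
      show x = a + algebraMap O F ϖ * v
      linear_combination hxa)
  rw [h2, map_add, map_mul, hϖ0, zero_mul, add_zero]

include hϖV in
/-- An element congruent modulo `ϖ V` to an element of `V` lies in `V`. -/
theorem mem_of_memPi {x a : F} (hx : x ∈ V) (h : Top.MemPi V ϖ (x - a)) : a ∈ V := by
  obtain ⟨v, hv, hxa⟩ := h
  have h1 : a = x - algebraMap O F ϖ * v := by linear_combination (-1 : F) * hxa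
  rw [h1]
  exact V.sub_mem hx (V.mul_mem hϖV hv)

include hϖ0 in
/-- The reduction of an element regular at `𝔫` is a fraction of chart reductions with
denominator outside `𝔫`. -/
theorem RegAt.exists_red {𝔫 : Ideal C} {x : F} (hx : x ∈ V) (h : RegAt ϖ V 𝔫 x) :
    ∃ c t : C, t ∉ 𝔫 ∧ red ⟨x, hx⟩ * chartRed V red hCV t = chartRed V red hCV c := by
  obtain ⟨a, ⟨c, t, ht, hct⟩, hxa⟩ := h
  have haV : a ∈ V := mem_of_memPi ϖ V hϖV hx hxa
  refine ⟨c, t, ht, ?_⟩
  rw [red_eq_of_memPi ϖ V red hϖV hϖ0 hx haV hxa, chartRed_apply, chartRed_apply, ← map_mul]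
  exact congrArg red (Subtype.ext hct)

include hϖ0 in
/-- **First chart**: an element of `V` regular at every closed point of the chart on the
component reduces to a value of the chart. -/
theorem red_mem_range {x : F} (hx : x ∈ V)
    (hreg : ∀ 𝔫 : Ideal C, 𝔫.IsMaximal → RingHom.ker (chartRed V red hCV) ≤ 𝔫 →
      RegAt ϖ V 𝔫 x) : red ⟨x, hx⟩ ∈ (chartRed V red hCV).range :=
  mem_range_of_forall_maximal _ _ fun 𝔫 h𝔫 hk =>
    (hreg 𝔫 h𝔫 hk).exists_red ϖ V red hCV hϖV hϖ0 hx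

include hϖ0 in
/-- **Second chart**: the same, testing only the closed points containing `s` (the points over
`u = ∞`), when `x * s ^ n` is congruent to a chart element `e` modulo `ϖ V`
(in practice `x ≡ d`, `d` in the first chart, and `d * s ^ n = e` in `F`). -/
theorem red_mem_range_of_pow {x : F} (hx : x ∈ V) (s : C) (n : ℕ) (e : C)
    (hs : red ⟨x, hx⟩ * chartRed V red hCV (s ^ n) = chartRed V red hCV e)
    (hreg : ∀ 𝔫 : Ideal C, 𝔫.IsMaximal → RingHom.ker (chartRed V red hCV) ≤ 𝔫 → s ∈ 𝔫 →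
      RegAt ϖ V 𝔫 x) : red ⟨x, hx⟩ ∈ (chartRed V red hCV).range :=
  mem_range_of_forall_maximal_of_pow _ _ s n ⟨e, hs⟩ fun 𝔫 h𝔫 hk hs𝔫 =>
    (hreg 𝔫 h𝔫 hk hs𝔫).exists_red ϖ V red hCV hϖV hϖ0 hx

/-- The chart-change input of `red_mem_range_of_pow`: a value `red x = chartRed₁ d` of the
first chart, with `d * s ^ n = e` in `F` for elements `s`, `e` of the second chart. -/
theorem red_mul_pow_eq {C₂ : Type*} [CommRing C₂] [Algebra C₂ F]
    (hCV₂ : ∀ c : C₂, algebraMap C₂ F c ∈ V) {x : F} (hx : x ∈ V) (d : C) (s : C₂) (n : ℕ)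
    (e : C₂) (hd : chartRed V red hCV d = red ⟨x, hx⟩)
    (hde : algebraMap C F d * algebraMap C₂ F s ^ n = algebraMap C₂ F e) :
    red ⟨x, hx⟩ * chartRed V red hCV₂ (s ^ n) = chartRed V red hCV₂ e := by
  rw [← hd, chartRed_apply, chartRed_apply, chartRed_apply, ← map_mul]
  refine congrArg red (Subtype.ext ?_)
  show algebraMap C F d * algebraMap C₂ F (s ^ n) = algebraMap C₂ F e
  rw [map_pow, hde]

end Component

/-! ### (CONST) and (VAN) for a component with two charts -/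

section TwoCharts

variable {O F k : Type*} [CommRing O] [Field F] [Algebra O F] [Field k] {L : Type*} [Field L]
  [Algebra k L] (ϖ : O) (V : Subring F) (red : V →+* L)
  (hOV : ∀ a : O, algebraMap O F a ∈ V) (hϖ0 : red ⟨algebraMap O F ϖ, hOV ϖ⟩ = 0)
  (hker : ∀ x : V, red x = 0 → Top.MemPi V ϖ (x : F))
  (hres : ∀ κ : k, ∃ a : O, red ⟨algebraMap O F a, hOV a⟩ = algebraMap k L κ)
  {C₁ C₂ : Type*} [CommRing C₁] [CommRing C₂] [Algebra C₁ F] [Algebra C₂ F]
  (hCV₁ : ∀ c : C₁, algebraMap C₁ F c ∈ V) (hCV₂ : ∀ c : C₂, algebraMap C₂ F c ∈ V)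
  (u : L) (hint₁ : ∀ c : C₁, IsIntegral (Algebra.adjoin k {u}) (chartRed V red hCV₁ c))
  (hint₂ : ∀ c : C₂, IsIntegral (Algebra.adjoin k {u⁻¹}) (chartRed V red hCV₂ c))
  (s : C₂) (hchg : ∀ d : C₁, ∃ (n : ℕ) (e : C₂),
    algebraMap C₁ F d * algebraMap C₂ F s ^ n = algebraMap C₂ F e)

include hϖ0 hint₁ hint₂ hchg in
/-- **Regular everywhere ⟹ integral over the constants**: an element of `V` which is regular
modulo `ϖ` at every closed point of the first chart on the component and at the closed points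
of the second chart over `u = ∞` (`s ∈ 𝔫`) has a reduction which is a value of both charts and
integral over `k`. -/
theorem red_isIntegral {x : F} (hx : x ∈ V)
    (hreg₁ : ∀ 𝔫 : Ideal C₁, 𝔫.IsMaximal → RingHom.ker (chartRed V red hCV₁) ≤ 𝔫 →
      RegAt ϖ V 𝔫 x)
    (hreg₂ : ∀ 𝔫 : Ideal C₂, 𝔫.IsMaximal → RingHom.ker (chartRed V red hCV₂) ≤ 𝔫 → s ∈ 𝔫 →
      RegAt ϖ V 𝔫 x) :
    red ⟨x, hx⟩ ∈ (chartRed V red hCV₁).range ∧ red ⟨x, hx⟩ ∈ (chartRed V red hCV₂).range ∧
      IsIntegral k (red ⟨x, hx⟩) := by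
  have h1 : red ⟨x, hx⟩ ∈ (chartRed V red hCV₁).range :=
    red_mem_range ϖ V red hCV₁ (hOV ϖ) hϖ0 hx hreg₁
  obtain ⟨d, hd⟩ := h1
  obtain ⟨n, e, hde⟩ := hchg d
  have h2 : red ⟨x, hx⟩ ∈ (chartRed V red hCV₂).range :=
    red_mem_range_of_pow ϖ V red hCV₂ (hOV ϖ) hϖ0 hx s n e
      (red_mul_pow_eq V red hCV₁ hCV₂ hx d s n e hd hde) hreg₂
  exact ⟨⟨d, hd⟩, h2, isIntegral_of_mem_ranges _ _ u hint₁ hint₂ ⟨d, hd⟩ h2⟩

include hϖ0 hker hres hint₁ hint₂ hchg in
/-- **(VAN)** for a component with two charts: regular everywhere, and at one closed point `𝔫`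
of a chart `C` (either one) congruent to a fraction `a = c / t`, `t ∉ 𝔫`, `c ∈ 𝔫`, implies
`x ∈ ϖ V`. -/
theorem memPi_of_van {x : F} (hx : x ∈ V)
    (hreg₁ : ∀ 𝔫 : Ideal C₁, 𝔫.IsMaximal → RingHom.ker (chartRed V red hCV₁) ≤ 𝔫 →
      RegAt ϖ V 𝔫 x)
    (hreg₂ : ∀ 𝔫 : Ideal C₂, 𝔫.IsMaximal → RingHom.ker (chartRed V red hCV₂) ≤ 𝔫 → s ∈ 𝔫 →
      RegAt ϖ V 𝔫 x)
    {C : Type*} [CommRing C] [Algebra C F] (hCV : ∀ c : C, algebraMap C F c ∈ V)
    (hO : ∀ a : O, ∃ c : C, algebraMap C F c = algebraMap O F a)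
    (hXC : red ⟨x, hx⟩ ∈ (chartRed V red hCV).range)
    (𝔫 : Ideal C) (h𝔫 : 𝔫.IsPrime) (hk : RingHom.ker (chartRed V red hCV) ≤ 𝔫)
    (a : F) (c t : C) (ht : t ∉ 𝔫) (hc : c ∈ 𝔫) (hct : a * algebraMap C F t = algebraMap C F c)
    (hxa : Top.MemPi V ϖ (x - a)) : Top.MemPi V ϖ x := by
  obtain ⟨-, -, hint⟩ := red_isIntegral ϖ V red hOV hϖ0 hCV₁ hCV₂ u hint₁ hint₂ s hchg hx
    hreg₁ hreg₂
  obtain ⟨d, hd⟩ := hXC
  -- `d * t - c ∈ ker ⊆ 𝔫`, hence `d ∈ 𝔫`
  have haV : a ∈ V := mem_of_memPi ϖ V (hOV ϖ) hx hxa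
  have hXa : red ⟨x, hx⟩ = red ⟨a, haV⟩ := red_eq_of_memPi ϖ V red (hOV ϖ) hϖ0 hx haV hxa
  have h1 : chartRed V red hCV (d * t - c) = 0 := by
    rw [map_sub, map_mul, hd, hXa, chartRed_apply, chartRed_apply, ← map_mul, sub_eq_zero]
    exact congrArg red (Subtype.ext hct)
  have h2 : d * t - c ∈ 𝔫 := hk (RingHom.mem_ker.mpr h1)
  have h3 : d * t ∈ 𝔫 := by
    have h4 := 𝔫.add_mem h2 hc
    simpa using h4
  have hd𝔫 : d ∈ 𝔫 := (h𝔫.mem_or_mem h3).resolve_right ht
  -- the constants are values of the chart reduction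
  have hlift : ∀ κ : k, ∃ e : C, chartRed V red hCV e = algebraMap k L κ := by
    intro κ
    obtain ⟨b, hb⟩ := hres κ
    obtain ⟨e, he⟩ := hO b
    refine ⟨e, ?_⟩
    rw [chartRed_apply, ← hb]
    exact congrArg red (Subtype.ext he)
  have h0 : chartRed V red hCV d = 0 :=
    eq_zero_of_isIntegral_of_mem (k := k) _ hlift 𝔫 h𝔫.ne_top hk d hd𝔫 (by rw [hd]; exact hint)
  exact hker ⟨x, hx⟩ (by rw [← hd, h0])

end TwoCharts

/-! ### (CONST) in `k((q))` -/

section Const

variable {O F k : Type*} [CommRing O] [Field F] [Algebra O F] [Field k]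
  (ϖ : O) (V : Subring F) (red : V →+* LaurentSeries k)
  (hOV : ∀ a : O, algebraMap O F a ∈ V) (hϖ0 : red ⟨algebraMap O F ϖ, hOV ϖ⟩ = 0)
  (hker : ∀ x : V, red x = 0 → Top.MemPi V ϖ (x : F))
  (hres : ∀ κ : k, ∃ a : O, red ⟨algebraMap O F a, hOV a⟩ = HahnSeries.C κ)
  {C₁ C₂ : Type*} [CommRing C₁] [CommRing C₂] [Algebra C₁ F] [Algebra C₂ F]
  (hCV₁ : ∀ c : C₁, algebraMap C₁ F c ∈ V) (hCV₂ : ∀ c : C₂, algebraMap C₂ F c ∈ V)
  (u : LaurentSeries k)
  (hint₁ : ∀ c : C₁, IsIntegral (Algebra.adjoin k {u}) (chartRed V red hCV₁ c))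
  (hint₂ : ∀ c : C₂, IsIntegral (Algebra.adjoin k {u⁻¹}) (chartRed V red hCV₂ c))
  (s : C₂) (hchg : ∀ d : C₁, ∃ (n : ℕ) (e : C₂),
    algebraMap C₁ F d * algebraMap C₂ F s ^ n = algebraMap C₂ F e)

include hϖ0 hker hres hint₁ hint₂ hchg in
/-- **(CONST)** for a component whose reduction lands in `k((q))`: an element of `V` regular
modulo `ϖ` at every closed point of the first chart and at the points of the second chart over
`u = ∞` is congruent to a constant of `O` modulo `ϖ V`. -/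
theorem exists_const_of_reg {x : F} (hx : x ∈ V)
    (hreg₁ : ∀ 𝔫 : Ideal C₁, 𝔫.IsMaximal → RingHom.ker (chartRed V red hCV₁) ≤ 𝔫 →
      RegAt ϖ V 𝔫 x)
    (hreg₂ : ∀ 𝔫 : Ideal C₂, 𝔫.IsMaximal → RingHom.ker (chartRed V red hCV₂) ≤ 𝔫 → s ∈ 𝔫 →
      RegAt ϖ V 𝔫 x) :
    ∃ κ : O, Top.MemPi V ϖ (x - algebraMap O F κ) := by
  obtain ⟨-, -, hint⟩ := red_isIntegral ϖ V red hOV hϖ0 hCV₁ hCV₂ u hint₁ hint₂ s hchg hx
    hreg₁ hreg₂
  obtain ⟨κ, hκ⟩ := Fermat.Agent.S37.ConstLemma.laurent_eq_C_of_isIntegral _ hint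
  obtain ⟨a, ha⟩ := hres κ
  refine ⟨a, ?_⟩
  have h1 : red (⟨x, hx⟩ - ⟨algebraMap O F a, hOV a⟩) = 0 := by
    rw [map_sub, ha, hκ, sub_self]
  exact hker _ h1

end Const

end Fermat.Agent.S33.Geo.RangeInt
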