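import Mathlib
import Fermat.Agent.S34.TwoPrimesGauss
import Fermat.Agent.S44.L.NZ.ChartChange
import Fermat.Agent.S33.Geo.RangeInt

/-!
# S33.GEO: (CONST) on the Gauss component of a `q`-expansion embedding

Level-free in the modular sense (binder block of `S34/TwoPrimesGauss`, section `Chart`): `O` a
discrete valuation ring with uniformiser `ϖ` and residue field `κ`, `σ : L →+* E((q))` a
"`q`-expansion" embedding of the function field `L` landing in the fraction field of `O((q))`.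

* `VG O σ` : the Gauss ring of `σ` inside `L` (`x` with `σ x` Gauss-integral) - the generic ring
  of the component of the special fibre cut out by `σ`;  `redG O σ : VG O σ →+* κ((q))` its
  reduction.
* `algebraMap_mem_VG`, `redG_algebraMap`, `redG_unif`, `memPi_of_redG_eq_zero`,
  `exists_redG_eq_C` : constants, the uniformiser, the kernel `ϖ V`, the residue field.
* `chart_mem_VG`, `chartRed_eq_redHom` : a chart ring `Chart O u` (`σ u` integral) maps into
  `VG O σ`, and the reduction of the chart is `TwoPrimesGauss.redHom`.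
* `isIntegral_redHom` : the reduction of a chart element is integral over `κ[ρ U]`.
* `rho_eq_inv`, `exists_chart_change` : the second chart `v = u⁻¹`.
* `red_isIntegral` : regular everywhere ⟹ the reduction is a value of both charts and integral
  over `κ`.
* `redHom_eq_zero_of_memPi` (branch lemma), `memPi_of_van`, `memPi_of_van_fst`,
  `memPi_of_van_snd` : **(VAN)** - regular everywhere and, at one closed point `𝔫` of a chart,
  congruent to a fraction `c / d`, `c ∈ 𝔫`, `d ∉ 𝔫` ⟹ `x ∈ ϖ (VG O σ)`.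
* `exists_const` : **(CONST)** - an element of `VG O σ` which is regular modulo `ϖ` at the closed
  points of `Chart O u` on the component and at the closed points of `Chart O v` over `u = ∞`
  is congruent to a constant of `O` modulo `ϖ (VG O σ)`.  This is `Top.ConstAt` for the
  component `∞` of the level-`M p` model (`σ` the `q`-expansion) and for the component `0`
  (`σ ∘ w`): `redInf = redHom σ ..`, `redZero = redHom (σ.comp w) ..`.
-/

set_option autoImplicit false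
set_option linter.unusedSectionVars false

noncomputable section

namespace Fermat.Agent.S33.Geo.GaussConst

open Polynomial
open Fermat.Agent.S30 Fermat.Agent.S34.TwoPrimesGauss Fermat.Agent.S33.Geo

variable {O E : Type*} [CommRing O] [IsDomain O] [IsDiscreteValuationRing O] [Field E]
  [Algebra O E] [FaithfulSMul O E] {L : Type*} [Field L] [Algebra O L]
  (σ : L →+* LaurentSeries E)
  (hσO : ∀ r : O, σ (algebraMap O L r) = HahnSeries.C (algebraMap O E r))
  (ϖ : O) (hϖ : Irreducible ϖ) (hσfrac : ∀ x : L, σ x ∈ GaussDVR.fracField O E)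

variable (O) in
/-- The Gauss ring of the `q`-expansion embedding `σ`, inside `L`. -/
def VG : Subring L := (GaussDVR.V O E).comap σ

theorem mem_VG {x : L} : x ∈ VG O σ ↔ σ x ∈ GaussDVR.V O E := Iff.rfl

variable (O) in
/-- The reduction of the Gauss ring of `σ`. -/
def redG : VG O σ →+* LaurentSeries (IsLocalRing.ResidueField O) :=
  (GaussDVR.red O E).comp (σ.restrict (VG O σ) (GaussDVR.V O E) fun _ hx => hx)

theorem redG_apply (x : VG O σ) : redG O σ x = GaussDVR.red O E ⟨σ (x : L), x.2⟩ := rfl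

include hσO in
/-- Constants lie in the Gauss ring. -/
theorem algebraMap_mem_VG (a : O) : algebraMap O L a ∈ VG O σ := by
  show σ (algebraMap O L a) ∈ GaussDVR.V O E
  rw [hσO, ← GaussDVR.iota_C]
  exact GaussDVR.mem_of_int O E _

/-- The reduction of a constant is its residue. -/
theorem redG_algebraMap (a : O) :
    redG O σ ⟨algebraMap O L a, algebraMap_mem_VG σ hσO a⟩ =
      HahnSeries.C (IsLocalRing.residue O a) := by
  have h : (⟨σ (algebraMap O L a), algebraMap_mem_VG σ hσO a⟩ : GaussDVR.V O E) =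
      GaussDVR.ofInt O E (HahnSeries.C a) :=
    Subtype.ext (by
      show σ (algebraMap O L a) = GaussDVR.iota O E (HahnSeries.C a)
      rw [hσO, GaussDVR.iota_C])
  show GaussDVR.red O E ⟨σ (algebraMap O L a), algebraMap_mem_VG σ hσO a⟩ = _
  rw [h, GaussDVR.red_ofInt, GaussDVR.rho_C]

include hϖ in
/-- The uniformiser reduces to zero. -/
theorem redG_unif : redG O σ ⟨algebraMap O L ϖ, algebraMap_mem_VG σ hσO ϖ⟩ = 0 := by
  rw [redG_algebraMap σ hσO ϖ, GaussDVR.residue_unif ϖ hϖ, map_zero]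

include hσO hϖ in
/-- The kernel of the reduction is `ϖ V`. -/
theorem memPi_of_redG_eq_zero (x : VG O σ) (hx : redG O σ x = 0) :
    Top.MemPi (VG O σ) ϖ (x : L) := by
  obtain ⟨y, hy⟩ := GaussDVR.ker' E ϖ hϖ ⟨σ (x : L), x.2⟩ hx
  have hy' : σ (x : L) = HahnSeries.C (algebraMap O E ϖ) * (y : LaurentSeries E) := hy
  have hC : HahnSeries.C (algebraMap O E ϖ) ≠ (0 : LaurentSeries E) := by
    rw [← GaussDVR.coe_unif]
    exact GaussDVR.coe_unif_ne_zero E ϖ hϖ
  have hϖL : algebraMap O L ϖ ≠ 0 := by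
    intro h0
    have h1 := hσO ϖ
    rw [h0, map_zero] at h1
    exact hC h1.symm
  refine ⟨(x : L) / algebraMap O L ϖ, ?_, by field_simp⟩
  show σ ((x : L) / algebraMap O L ϖ) ∈ GaussDVR.V O E
  have h2 : σ ((x : L) / algebraMap O L ϖ) = (y : LaurentSeries E) := by
    rw [map_div₀, hσO, hy']
    exact mul_div_cancel_left₀ _ hC
  rw [h2]
  exact y.2

/-- Every element of the residue field is the reduction of a constant. -/
theorem exists_redG_eq_C (κ : IsLocalRing.ResidueField O) :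
    ∃ a : O, redG O σ ⟨algebraMap O L a, algebraMap_mem_VG σ hσO a⟩ = HahnSeries.C κ := by
  obtain ⟨a, rfl⟩ := IsLocalRing.residue_surjective κ
  exact ⟨a, redG_algebraMap σ hσO a⟩

/-! ### Charts -/

include hσO hϖ hσfrac in
/-- A chart ring maps into the Gauss ring. -/
theorem chart_mem_VG (u : L) (U : LaurentSeries O) (hσu : σ u = GaussDVR.iota O E U)
    (c : Chart O u) : algebraMap (Chart O u) L c ∈ VG O σ :=
  sigma_mem_V σ hσO ϖ hϖ hσfrac u U hσu c.2

/-- The reduction of the chart on the Gauss component is `TwoPrimesGauss.redHom`. -/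
theorem chartRed_eq_redHom (u : L) (U : LaurentSeries O) (hσu : σ u = GaussDVR.iota O E U) :
    RangeInt.chartRed (VG O σ) (redG O σ) (chart_mem_VG σ hσO ϖ hϖ hσfrac u U hσu) =
      redHom σ hσO ϖ hϖ hσfrac u U hσu :=
  RingHom.ext fun _ => rfl

/-- The reduction of `p(u)` is `p̄(ρ U)`. -/
theorem redHom_polyChart (u : L) (U : LaurentSeries O) (hσu : σ u = GaussDVR.iota O E U)
    (p : O[X]) :
    redHom σ hσO ϖ hϖ hσfrac u U hσu (polyChart u p) =
      (p.map (IsLocalRing.residue O)).eval₂ HahnSeries.C (GaussDVR.rho O U) := by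
  rw [redHom_of_int σ hσO ϖ hϖ hσfrac u U hσu (polyChart u p) (p.eval₂ HahnSeries.C U)
    (by rw [coe_polyChart]; exact sigma_aeval σ hσO u U hσu p), hom_eval₂, eval₂_map]
  congr 1
  refine RingHom.ext fun r => ?_
  rw [RingHom.comp_apply, RingHom.comp_apply, GaussDVR.rho_C]

/-- **The reduction of a chart element is integral over `κ[ρ U]`.** -/
theorem isIntegral_redHom (u : L) (U : LaurentSeries O) (hσu : σ u = GaussDVR.iota O E U)
    (c : Chart O u) :
    IsIntegral (Algebra.adjoin (IsLocalRing.ResidueField O) {GaussDVR.rho O U})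
      (redHom σ hσO ϖ hϖ hσfrac u U hσu c) := by
  obtain ⟨P, hP, hPc⟩ := polyChart_isIntegralElem (O := O) u c
  have h1 : ((redHom σ hσO ϖ hϖ hσfrac u U hσu).comp (polyChart (O := O) u)).IsIntegralElem
      (redHom σ hσO ϖ hϖ hσfrac u U hσu c) :=
    ⟨P, hP, by rw [← Polynomial.hom_eval₂, hPc, map_zero]⟩
  refine Fermat.Agent.S37.ConstLemma.isIntegralElem_of_range_le
    (algebraMap (Algebra.adjoin (IsLocalRing.ResidueField O) {GaussDVR.rho O U})
      (LaurentSeries (IsLocalRing.ResidueField O))) _ ?_ h1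
  rintro _ ⟨p, rfl⟩
  have hC : (HahnSeries.C : IsLocalRing.ResidueField O →+*
      LaurentSeries (IsLocalRing.ResidueField O)) =
      algebraMap (IsLocalRing.ResidueField O) (LaurentSeries (IsLocalRing.ResidueField O)) :=
    RingHom.ext fun a => (LaurentSeries.algebraMap_apply _ a).symm
  have h2 : (p.map (IsLocalRing.residue O)).eval₂ HahnSeries.C (GaussDVR.rho O U) =
      aeval (GaussDVR.rho O U) (p.map (IsLocalRing.residue O)) := by
    rw [aeval_def, hC]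
  refine ⟨⟨_, aeval_mem_adjoin_singleton (IsLocalRing.ResidueField O) (GaussDVR.rho O U)
    (p := p.map (IsLocalRing.residue O))⟩, ?_⟩
  rw [RingHom.comp_apply, redHom_polyChart σ hσO ϖ hϖ hσfrac u U hσu p, h2]
  first | done | rfl

/-- The `q`-expansions of the two chart coordinates are inverse to each other modulo `ϖ`. -/
theorem rho_eq_inv (u v : L) (huv : u * v = 1) (U U₂ : LaurentSeries O)
    (hσu : σ u = GaussDVR.iota O E U) (hσv : σ v = GaussDVR.iota O E U₂) :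
    GaussDVR.rho O U₂ = (GaussDVR.rho O U)⁻¹ := by
  have h : GaussDVR.iota O E (U * U₂) = GaussDVR.iota O E 1 := by
    rw [map_mul, ← hσu, ← hσv, ← map_mul, huv, map_one, map_one]
  have h1 : GaussDVR.rho O U * GaussDVR.rho O U₂ = 1 := by
    rw [← map_mul, GaussDVR.iota_injective O E h, map_one]
  exact eq_inv_of_mul_eq_one_right h1

/-- Change of chart: an element of `Chart O u` times a power of `v = u⁻¹` lies in
`Chart O v`. -/
theorem exists_chart_change (u v : L) (huv : u * v = 1) (s : Chart O v)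
    (hs : algebraMap (Chart O v) L s = v) (d : Chart O u) :
    ∃ (n : ℕ) (e : Chart O v),
      algebraMap (Chart O u) L d * algebraMap (Chart O v) L s ^ n = algebraMap (Chart O v) L e := by
  obtain ⟨m, hm⟩ := Fermat.Agent.S44.L.NZ.ChartChange.exists_isIntegral_mul_pow (O := O) u v huv
    (algebraMap (Chart O u) L d) d.2
  exact ⟨m, ⟨algebraMap (Chart O u) L d * v ^ m, hm m le_rfl⟩, by rw [hs]; first | done | rfl⟩

/-! ### Regular everywhere: values of both charts, integral over the residue field -/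

include hσO hϖ hσfrac in
/-- An element of the Gauss ring which is regular modulo `ϖ` at the closed points of
`Chart O u` on the component and at the closed points of `Chart O v` over `u = ∞` has a
reduction which is a value of both chart reductions and is integral over the residue field. -/
theorem red_isIntegral (u v : L) (huv : u * v = 1) (U U₂ : LaurentSeries O)
    (hσu : σ u = GaussDVR.iota O E U) (hσv : σ v = GaussDVR.iota O E U₂)
    (s : Chart O v) (hs : algebraMap (Chart O v) L s = v) {x : L} (hx : x ∈ VG O σ)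
    (hreg₁ : ∀ 𝔫 : Ideal (Chart O u), 𝔫.IsMaximal →
      RingHom.ker (redHom σ hσO ϖ hϖ hσfrac u U hσu) ≤ 𝔫 → RangeInt.RegAt ϖ (VG O σ) 𝔫 x)
    (hreg₂ : ∀ 𝔫 : Ideal (Chart O v), 𝔫.IsMaximal →
      RingHom.ker (redHom σ hσO ϖ hϖ hσfrac v U₂ hσv) ≤ 𝔫 → s ∈ 𝔫 →
      RangeInt.RegAt ϖ (VG O σ) 𝔫 x) :
    redG O σ ⟨x, hx⟩ ∈ (redHom σ hσO ϖ hϖ hσfrac u U hσu).range ∧
      redG O σ ⟨x, hx⟩ ∈ (redHom σ hσO ϖ hϖ hσfrac v U₂ hσv).range ∧
      IsIntegral (IsLocalRing.ResidueField O) (redG O σ ⟨x, hx⟩) := by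
  have e₁ := chartRed_eq_redHom σ hσO ϖ hϖ hσfrac u U hσu
  have e₂ := chartRed_eq_redHom σ hσO ϖ hϖ hσfrac v U₂ hσv
  rw [← e₁, ← e₂]
  refine RangeInt.red_isIntegral ϖ (VG O σ) (redG O σ) (algebraMap_mem_VG σ hσO)
    (redG_unif σ hσO ϖ hϖ) (chart_mem_VG σ hσO ϖ hϖ hσfrac u U hσu)
    (chart_mem_VG σ hσO ϖ hϖ hσfrac v U₂ hσv) (GaussDVR.rho O U) ?_ ?_ s
    (exists_chart_change u v huv s hs) hx ?_ ?_
  · intro c
    rw [e₁]
    exact isIntegral_redHom σ hσO ϖ hϖ hσfrac u U hσu c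
  · intro c
    rw [e₂, ← rho_eq_inv σ u v huv U U₂ hσu hσv]
    exact isIntegral_redHom σ hσO ϖ hϖ hσfrac v U₂ hσv c
  · intro 𝔫 h𝔫 hk
    rw [e₁] at hk
    exact hreg₁ 𝔫 h𝔫 hk
  · intro 𝔫 h𝔫 hk hs𝔫
    rw [e₂] at hk
    exact hreg₂ 𝔫 h𝔫 hk hs𝔫

/-! ### (VAN) -/

include hσO hϖ hσfrac in
/-- **The branch lemma**: a fraction `a = c / d` of chart elements which lies in `ϖ (VG O σ)`
has numerator in the kernel of the chart reduction (so `c ∈ 𝔫` for every `𝔫` over the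
component: `a` is a non-unit of the local ring at `𝔫`). -/
theorem redHom_eq_zero_of_memPi (t : L) (T : LaurentSeries O)
    (hσt : σ t = GaussDVR.iota O E T) (a : L) (c d : Chart O t)
    (hcd : a * algebraMap (Chart O t) L d = algebraMap (Chart O t) L c)
    (ha : Top.MemPi (VG O σ) ϖ a) : redHom σ hσO ϖ hϖ hσfrac t T hσt c = 0 := by
  obtain ⟨w, hw, haw⟩ := ha
  have hϖV := algebraMap_mem_VG σ hσO ϖ
  have haV : a ∈ VG O σ := by
    rw [haw]
    exact (VG O σ).mul_mem hϖV hw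
  have h0 : redG O σ ⟨a, haV⟩ = 0 := by
    have h1 : (⟨a, haV⟩ : VG O σ) = ⟨algebraMap O L ϖ, hϖV⟩ * ⟨w, hw⟩ := Subtype.ext haw
    rw [h1, map_mul, redG_unif σ hσO ϖ hϖ, zero_mul]
  have hcV := chart_mem_VG σ hσO ϖ hϖ hσfrac t T hσt
  have h2 : redG O σ ⟨algebraMap (Chart O t) L c, hcV c⟩ =
      redG O σ ⟨a, haV⟩ * redG O σ ⟨algebraMap (Chart O t) L d, hcV d⟩ := by
    rw [← map_mul]
    exact congrArg (redG O σ) (Subtype.ext hcd.symm)
  show redG O σ ⟨algebraMap (Chart O t) L c, hcV c⟩ = 0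
  rw [h2, h0, zero_mul]

include hσO hϖ hσfrac in
/-- (VAN) at a closed point of a chart `Chart O t` whose reduction takes the value `red x`. -/
theorem memPi_of_van (u v : L) (huv : u * v = 1) (U U₂ : LaurentSeries O)
    (hσu : σ u = GaussDVR.iota O E U) (hσv : σ v = GaussDVR.iota O E U₂)
    (s : Chart O v) (hs : algebraMap (Chart O v) L s = v) {x : L} (hx : x ∈ VG O σ)
    (hreg₁ : ∀ 𝔫 : Ideal (Chart O u), 𝔫.IsMaximal →
      RingHom.ker (redHom σ hσO ϖ hϖ hσfrac u U hσu) ≤ 𝔫 → RangeInt.RegAt ϖ (VG O σ) 𝔫 x)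
    (hreg₂ : ∀ 𝔫 : Ideal (Chart O v), 𝔫.IsMaximal →
      RingHom.ker (redHom σ hσO ϖ hϖ hσfrac v U₂ hσv) ≤ 𝔫 → s ∈ 𝔫 →
      RangeInt.RegAt ϖ (VG O σ) 𝔫 x)
    (t : L) (T : LaurentSeries O) (hσt : σ t = GaussDVR.iota O E T)
    (hXt : redG O σ ⟨x, hx⟩ ∈ (redHom σ hσO ϖ hϖ hσfrac t T hσt).range)
    (𝔫 : Ideal (Chart O t)) (h𝔫 : 𝔫.IsPrime)
    (hk : RingHom.ker (redHom σ hσO ϖ hϖ hσfrac t T hσt) ≤ 𝔫) (a : L) (c d : Chart O t)
    (hd : d ∉ 𝔫) (hc : c ∈ 𝔫)
    (hcd : a * algebraMap (Chart O t) L d = algebraMap (Chart O t) L c)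
    (hxa : Top.MemPi (VG O σ) ϖ (x - a)) : Top.MemPi (VG O σ) ϖ x := by
  have e₁ := chartRed_eq_redHom σ hσO ϖ hϖ hσfrac u U hσu
  have e₂ := chartRed_eq_redHom σ hσO ϖ hϖ hσfrac v U₂ hσv
  have et := chartRed_eq_redHom σ hσO ϖ hϖ hσfrac t T hσt
  refine RangeInt.memPi_of_van (k := IsLocalRing.ResidueField O) ϖ (VG O σ) (redG O σ)
    (algebraMap_mem_VG σ hσO)
    (redG_unif σ hσO ϖ hϖ) (memPi_of_redG_eq_zero σ hσO ϖ hϖ) ?_
    (chart_mem_VG σ hσO ϖ hϖ hσfrac u U hσu) (chart_mem_VG σ hσO ϖ hϖ hσfrac v U₂ hσv)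
    (GaussDVR.rho O U) ?_ ?_ s (exists_chart_change u v huv s hs) hx ?_ ?_
    (chart_mem_VG σ hσO ϖ hϖ hσfrac t T hσt) ?_ ?_ 𝔫 h𝔫 ?_ a c d hd hc hcd hxa
  · intro κ
    obtain ⟨b, hb⟩ := exists_redG_eq_C σ hσO κ
    exact ⟨b, by rw [hb, LaurentSeries.algebraMap_apply]⟩
  · intro c
    rw [e₁]
    exact isIntegral_redHom σ hσO ϖ hϖ hσfrac u U hσu c
  · intro c
    rw [e₂, ← rho_eq_inv σ u v huv U U₂ hσu hσv]
    exact isIntegral_redHom σ hσO ϖ hϖ hσfrac v U₂ hσv c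
  · intro 𝔪 h𝔪 hk'
    rw [e₁] at hk'
    exact hreg₁ 𝔪 h𝔪 hk'
  · intro 𝔪 h𝔪 hk' hs𝔪
    rw [e₂] at hk'
    exact hreg₂ 𝔪 h𝔪 hk' hs𝔪
  · intro b
    refine ⟨polyChart t (Polynomial.C b), ?_⟩
    show ((polyChart t (Polynomial.C b) : Chart O t) : L) = algebraMap O L b
    rw [coe_polyChart, aeval_C]
  · rw [et]
    exact hXt
  · rw [et]
    exact hk

include hσO hϖ hσfrac in
/-- **(VAN) at a closed point of the first chart.** -/
theorem memPi_of_van_fst (u v : L) (huv : u * v = 1) (U U₂ : LaurentSeries O)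
    (hσu : σ u = GaussDVR.iota O E U) (hσv : σ v = GaussDVR.iota O E U₂)
    (s : Chart O v) (hs : algebraMap (Chart O v) L s = v) {x : L} (hx : x ∈ VG O σ)
    (hreg₁ : ∀ 𝔫 : Ideal (Chart O u), 𝔫.IsMaximal →
      RingHom.ker (redHom σ hσO ϖ hϖ hσfrac u U hσu) ≤ 𝔫 → RangeInt.RegAt ϖ (VG O σ) 𝔫 x)
    (hreg₂ : ∀ 𝔫 : Ideal (Chart O v), 𝔫.IsMaximal →
      RingHom.ker (redHom σ hσO ϖ hϖ hσfrac v U₂ hσv) ≤ 𝔫 → s ∈ 𝔫 →
      RangeInt.RegAt ϖ (VG O σ) 𝔫 x)
    (𝔫 : Ideal (Chart O u)) (h𝔫 : 𝔫.IsPrime)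
    (hk : RingHom.ker (redHom σ hσO ϖ hϖ hσfrac u U hσu) ≤ 𝔫) (a : L) (c d : Chart O u)
    (hd : d ∉ 𝔫) (hc : c ∈ 𝔫)
    (hcd : a * algebraMap (Chart O u) L d = algebraMap (Chart O u) L c)
    (hxa : Top.MemPi (VG O σ) ϖ (x - a)) : Top.MemPi (VG O σ) ϖ x :=
  memPi_of_van σ hσO ϖ hϖ hσfrac u v huv U U₂ hσu hσv s hs hx hreg₁ hreg₂ u U hσu
    (red_isIntegral σ hσO ϖ hϖ hσfrac u v huv U U₂ hσu hσv s hs hx hreg₁ hreg₂).1
    𝔫 h𝔫 hk a c d hd hc hcd hxa

include hσO hϖ hσfrac in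
/-- **(VAN) at a closed point of the second chart.** -/
theorem memPi_of_van_snd (u v : L) (huv : u * v = 1) (U U₂ : LaurentSeries O)
    (hσu : σ u = GaussDVR.iota O E U) (hσv : σ v = GaussDVR.iota O E U₂)
    (s : Chart O v) (hs : algebraMap (Chart O v) L s = v) {x : L} (hx : x ∈ VG O σ)
    (hreg₁ : ∀ 𝔫 : Ideal (Chart O u), 𝔫.IsMaximal →
      RingHom.ker (redHom σ hσO ϖ hϖ hσfrac u U hσu) ≤ 𝔫 → RangeInt.RegAt ϖ (VG O σ) 𝔫 x)
    (hreg₂ : ∀ 𝔫 : Ideal (Chart O v), 𝔫.IsMaximal →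
      RingHom.ker (redHom σ hσO ϖ hϖ hσfrac v U₂ hσv) ≤ 𝔫 → s ∈ 𝔫 →
      RangeInt.RegAt ϖ (VG O σ) 𝔫 x)
    (𝔫 : Ideal (Chart O v)) (h𝔫 : 𝔫.IsPrime)
    (hk : RingHom.ker (redHom σ hσO ϖ hϖ hσfrac v U₂ hσv) ≤ 𝔫) (a : L) (c d : Chart O v)
    (hd : d ∉ 𝔫) (hc : c ∈ 𝔫)
    (hcd : a * algebraMap (Chart O v) L d = algebraMap (Chart O v) L c)
    (hxa : Top.MemPi (VG O σ) ϖ (x - a)) : Top.MemPi (VG O σ) ϖ x :=
  memPi_of_van σ hσO ϖ hϖ hσfrac u v huv U U₂ hσu hσv s hs hx hreg₁ hreg₂ v U₂ hσv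
    (red_isIntegral σ hσO ϖ hϖ hσfrac u v huv U U₂ hσu hσv s hs hx hreg₁ hreg₂).2.1
    𝔫 h𝔫 hk a c d hd hc hcd hxa

/-! ### (CONST) -/

include hσO hϖ hσfrac in
/-- **(CONST) on the Gauss component of `σ`**: an element of the Gauss ring which is regular
modulo `ϖ` at every closed point of `Chart O u` on the component and at the closed points of
`Chart O v` (`v = u⁻¹`) over `u = ∞` (`s ∈ 𝔫`, `s` the coordinate `v`) is congruent to a constant
of `O` modulo `ϖ (VG O σ)`. -/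
theorem exists_const (u v : L) (huv : u * v = 1) (U U₂ : LaurentSeries O)
    (hσu : σ u = GaussDVR.iota O E U) (hσv : σ v = GaussDVR.iota O E U₂)
    (s : Chart O v) (hs : algebraMap (Chart O v) L s = v) {x : L} (hx : x ∈ VG O σ)
    (hreg₁ : ∀ 𝔫 : Ideal (Chart O u), 𝔫.IsMaximal →
      RingHom.ker (redHom σ hσO ϖ hϖ hσfrac u U hσu) ≤ 𝔫 → RangeInt.RegAt ϖ (VG O σ) 𝔫 x)
    (hreg₂ : ∀ 𝔫 : Ideal (Chart O v), 𝔫.IsMaximal →
      RingHom.ker (redHom σ hσO ϖ hϖ hσfrac v U₂ hσv) ≤ 𝔫 → s ∈ 𝔫 →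
      RangeInt.RegAt ϖ (VG O σ) 𝔫 x) :
    ∃ κ : O, Top.MemPi (VG O σ) ϖ (x - algebraMap O L κ) := by
  have e₁ := chartRed_eq_redHom σ hσO ϖ hϖ hσfrac u U hσu
  have e₂ := chartRed_eq_redHom σ hσO ϖ hϖ hσfrac v U₂ hσv
  refine RangeInt.exists_const_of_reg ϖ (VG O σ) (redG O σ) (algebraMap_mem_VG σ hσO)
    (redG_unif σ hσO ϖ hϖ) (memPi_of_redG_eq_zero σ hσO ϖ hϖ) (exists_redG_eq_C σ hσO)
    (chart_mem_VG σ hσO ϖ hϖ hσfrac u U hσu) (chart_mem_VG σ hσO ϖ hϖ hσfrac v U₂ hσv)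
    (GaussDVR.rho O U) ?_ ?_ s (exists_chart_change u v huv s hs) hx ?_ ?_
  · intro c
    rw [e₁]
    exact isIntegral_redHom σ hσO ϖ hϖ hσfrac u U hσu c
  · intro c
    rw [e₂, ← rho_eq_inv σ u v huv U U₂ hσu hσv]
    exact isIntegral_redHom σ hσO ϖ hϖ hσfrac v U₂ hσv c
  · intro 𝔫 h𝔫 hk
    rw [e₁] at hk
    exact hreg₁ 𝔫 h𝔫 hk
  · intro 𝔫 h𝔫 hk hs𝔫
    rw [e₂] at hk
    exact hreg₂ 𝔫 h𝔫 hk hs𝔫

end Fermat.Agent.S33.Geo.GaussConst
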