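import Mathlib
import Fermat.Agent.S44.L.CrossingGauss
import Fermat.Agent.S33.Geo.GaussConst
import Fermat.Agent.S33.Geo.ChartPoints

/-!
# S33 / GEO / Stage B, row B3 (global half): the model package of the two Gauss components

Level-free in the modular sense.  Binder block of `S44/L/CrossingGauss.exists_crossing_gauss`
(= `S34/TwoPrimesGauss`, section `Package`): `O` a discrete valuation ring with uniformiser `ϖ`,
`σ : L →+* E((q))` the `q`-expansion embedding of the function field `L` of the level-`ℓ M'`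
curve, `w` the swap, `u = α u'` the coordinate of the two charts.  The two components of the
special fibre have generic rings

  `V true = VG O σ`  (the component `∞`),   `V false = VG O (σ.comp w)`  (the component `0`).

This file discharges EVERY non-block hypothesis of `ChartPoints.isModelI_of_blocks` for this
pair:

* `memPi_iff`, `not_memPi_one`, `inv_mem_of_not_memPi` : `ϖ V` is the kernel of the reduction and
  `V` is local with maximal ideal `ϖ V` (one embedding `τ`);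
* `cen_iff_ker_redHom_le` : **pinning** - on a chart `Chart O t` (`τ t` integral) the centre of
  `VG O τ` lies in an ideal `𝔪` iff `ker (redHom τ ..) ≤ 𝔪`;  `ptOn_inl_true_iff`,
  `ptOn_inl_false_iff` : the same for `ChartPoints.ptOn` at the points of the chart `u` and the
  two reductions `redInf`, `redZero`;  `ptOn_inr_true_iff`, `ptOn_inr_false_iff` : at the points
  of the chart `u⁻¹` and `Datum.redInvInf`, `Datum.redInvZero`;
* `hV_gauss`, `hne_gauss`, `hunit_gauss`, `hred0_gauss` (`TwoPrimesGauss.sat`), `hred1_gauss`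
  (`Crossing.inf_dvd_of_mem_inf`) : the chart hypotheses;
* `constAt_true` : (CONST0) on the component `∞` (`GaussConst.exists_const`);
* `isModelI_of_blocks_gauss` : **`Model.IsModelI` for the concrete point set `ChartPoints.Pt`
  from the local blocks alone.**
-/

set_option autoImplicit false
set_option linter.unusedSectionVars false
set_option linter.unusedVariables false
set_option linter.style.haveILetI false

noncomputable section

namespace Fermat.Agent.S33.Geo.GaussModel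

open ModularCurve Polynomial
open Fermat.Agent.S30 Fermat.Agent.S30.Model Fermat.Agent.S30.Model.GlueChart Fermat.Agent.S34
  Fermat.Agent.S34.TwoPrimesGauss
open Fermat.Agent.S33.Geo.Top Fermat.Agent.S33.Geo.GaussConst Fermat.Agent.S33.Geo.ChartPoints
  Fermat.Agent.S33.Geo.Model
open Fermat.Agent.S44.L Fermat.Agent.S44.L.NZ

/-! ### One embedding -/

section One

variable {O E : Type*} [CommRing O] [IsDomain O] [IsDiscreteValuationRing O] [Field E]
  [Algebra O E] [FaithfulSMul O E] {L : Type*} [Field L] [Algebra O L]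
  (τ : L →+* LaurentSeries E)
  (hτO : ∀ r : O, τ (algebraMap O L r) = HahnSeries.C (algebraMap O E r))
  (ϖ : O) (hϖ : Irreducible ϖ)

include hτO hϖ in
/-- `x ∈ ϖ V` iff the reduction of `x` vanishes. -/
theorem memPi_iff {x : L} (hx : τ x ∈ GaussDVR.V O E) :
    MemPi (VG O τ) ϖ x ↔ GaussDVR.red O E ⟨τ x, hx⟩ = 0 := by
  constructor
  · rintro ⟨v, hv, hxv⟩
    have hϖV := algebraMap_mem_VG τ hτO ϖ
    have h1 : (⟨x, hx⟩ : VG O τ) = ⟨algebraMap O L ϖ, hϖV⟩ * ⟨v, hv⟩ := Subtype.ext hxv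
    have h2 : redG O τ ⟨x, hx⟩ = 0 := by
      rw [h1, map_mul, redG_unif τ hτO ϖ hϖ, zero_mul]
    exact h2
  · intro h
    exact memPi_of_redG_eq_zero τ hτO ϖ hϖ ⟨x, hx⟩ h

include hτO in
/-- An element of `ϖ V` lies in `V`. -/
theorem mem_of_memPi {x : L} (h : MemPi (VG O τ) ϖ x) : x ∈ VG O τ := by
  obtain ⟨v, hv, rfl⟩ := h
  exact (VG O τ).mul_mem (algebraMap_mem_VG τ hτO ϖ) hv

include hτO hϖ in
/-- `ϖ` is not a unit of the Gauss ring. -/
theorem not_memPi_one : ¬ MemPi (VG O τ) ϖ (1 : L) := by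
  intro h
  have h1 := (memPi_iff τ hτO ϖ hϖ (x := 1) (VG O τ).one_mem).mp h
  have h2 : (⟨τ 1, (VG O τ).one_mem⟩ : GaussDVR.V O E) = 1 := Subtype.ext (map_one τ)
  rw [h2, map_one] at h1
  exact one_ne_zero h1

include hτO hϖ in
/-- The Gauss ring is local with maximal ideal `ϖ V`. -/
theorem inv_mem_of_not_memPi {a : L} (ha : a ∈ VG O τ) (hna : ¬ MemPi (VG O τ) ϖ a) :
    a⁻¹ ∈ VG O τ := by
  have hred : GaussDVR.red O E ⟨τ a, ha⟩ ≠ 0 :=
    fun h => hna ((memPi_iff τ hτO ϖ hϖ ha).mpr h)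
  have h := GaussDVR.inv_mem O E ⟨τ a, ha⟩ hred
  show τ a⁻¹ ∈ GaussDVR.V O E
  rw [map_inv₀]
  exact h

variable (hτfrac : ∀ x : L, τ x ∈ GaussDVR.fracField O E)

include hτO hϖ hτfrac in
/-- On a chart, `ϖ V` is the kernel of the chart reduction. -/
theorem memPi_chart_iff (t : L) (T : LaurentSeries O) (hτt : τ t = GaussDVR.iota O E T)
    (b : Chart O t) :
    MemPi (VG O τ) ϖ (b : L) ↔ redHom τ hτO ϖ hϖ hτfrac t T hτt b = 0 :=
  memPi_iff τ hτO ϖ hϖ (sigma_mem_V τ hτO ϖ hϖ hτfrac t T hτt b.2)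

include hτO hϖ hτfrac in
/-- **Pinning.**  On a chart `Chart O t` with `τ t` integral, the centre of the Gauss ring of
`τ` lies in an ideal `𝔪` iff `ker (redHom τ ..) ≤ 𝔪`. -/
theorem cen_iff_ker_redHom_le (t : L) (T : LaurentSeries O)
    (hτt : τ t = GaussDVR.iota O E T) (𝔪 : Ideal (Chart O t)) :
    (∀ b : Chart O t, MemPi (VG O τ) ϖ (b : L) → b ∈ 𝔪) ↔
      RingHom.ker (redHom τ hτO ϖ hϖ hτfrac t T hτt) ≤ 𝔪 :=
  cen_iff_ker_le ϖ (VG O τ) t (redHom τ hτO ϖ hϖ hτfrac t T hτt)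
    (memPi_chart_iff τ hτO ϖ hϖ hτfrac t T hτt) 𝔪

end One

/-! ### The two components -/

section Main

universe u

variable {O E : Type*} [CommRing O] [IsDomain O] [IsDiscreteValuationRing O] [Field E]
  [Algebra O E] [FaithfulSMul O E]
  {L' : Type*} {L : Type u} [Field L'] [Field L] [Algebra O L'] [Algebra O L]
  (ϖ : O) (hϖ : Irreducible ϖ)
  (α : L' →+* L) (hαO : ∀ r : O, α (algebraMap O L' r) = algebraMap O L r)
  (σ : L →+* LaurentSeries E)
  (hσO : ∀ r : O, σ (algebraMap O L r) = HahnSeries.C (algebraMap O E r))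
  (hσfrac : ∀ x : L, σ x ∈ GaussDVR.fracField O E)
  (u' : L') (U : LaurentSeries O) (hσu : σ (α u') = GaussDVR.iota O E U)
  (w : L ≃+* L) (hwO : ∀ r : O, w (algebraMap O L r) = algebraMap O L r)
  (ℓ : ℕ) [NeZero ℓ]
  (hwα : ∀ x : L', σ (w (α x)) = qExpand E ℓ (σ (α x)))

section Pin

variable (V : Bool → Subring L) (hVt : V true = VG O σ)
  (hVf : V false = VG O (σ.comp (w : L →+* L)))

include hVt in
/-- **Pinning on the chart `u`, component `∞`**: `y` lies on `∞` iff `ker redInf ≤ y`. -/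
theorem ptOn_inl_true_iff
    (𝔪 : {𝔪 : Ideal (integralClosure (Algebra.adjoin O ({α u'} : Set L)) L) //
      𝔪.IsMaximal ∧
        algebraMap O (integralClosure (Algebra.adjoin O ({α u'} : Set L)) L) ϖ ∈ 𝔪}) :
    ptOn ϖ (α u') V (Sum.inl 𝔪) true ↔
      RingHom.ker (redInf ϖ hϖ α σ hσO hσfrac u' U hσu) ≤ 𝔪.1 := by
  rw [ptOn_inl, hVt]
  exact cen_iff_ker_redHom_le σ hσO ϖ hϖ hσfrac (α u') U hσu 𝔪.1

include hVf in
/-- **Pinning on the chart `u`, component `0`**: `y` lies on `0` iff `ker redZero ≤ y`. -/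
theorem ptOn_inl_false_iff
    (𝔪 : {𝔪 : Ideal (integralClosure (Algebra.adjoin O ({α u'} : Set L)) L) //
      𝔪.IsMaximal ∧
        algebraMap O (integralClosure (Algebra.adjoin O ({α u'} : Set L)) L) ϖ ∈ 𝔪}) :
    ptOn ϖ (α u') V (Sum.inl 𝔪) false ↔
      RingHom.ker (redZero ϖ hϖ α σ hσO hσfrac u' U hσu w hwO ℓ hwα) ≤ 𝔪.1 := by
  rw [ptOn_inl, hVf]
  exact cen_iff_ker_redHom_le (σ.comp (w : L →+* L)) (sigmaW_O σ hσO w hwO) ϖ hϖ
    (fun x => hσfrac (w x)) (α u') (qExpand O ℓ U) (sigmaW_u α σ u' U hσu w ℓ hwα) 𝔪.1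

include hVt in
/-- **Pinning on the chart `u⁻¹`, component `∞`**, for any integral expansion `T` of `u⁻¹`. -/
theorem ptOn_inr_true_iff (T : LaurentSeries O) (hσt : σ (α u')⁻¹ = GaussDVR.iota O E T)
    (𝔪 : {𝔪 : Ideal (integralClosure (Algebra.adjoin O ({(α u')⁻¹} : Set L)) L) //
      𝔪.IsMaximal ∧
        algebraMap O (integralClosure (Algebra.adjoin O ({(α u')⁻¹} : Set L)) L) ϖ ∈ 𝔪 ∧
        ∀ s : integralClosure (Algebra.adjoin O ({(α u')⁻¹} : Set L)) L,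
          (s : L) = (α u')⁻¹ → s ∈ 𝔪}) :
    ptOn ϖ (α u') V (Sum.inr 𝔪) true ↔
      RingHom.ker (redHom σ hσO ϖ hϖ hσfrac (α u')⁻¹ T hσt) ≤ 𝔪.1 := by
  rw [ptOn_inr, hVt]
  exact cen_iff_ker_redHom_le σ hσO ϖ hϖ hσfrac (α u')⁻¹ T hσt 𝔪.1

include hVf in
/-- **Pinning on the chart `u⁻¹`, component `0`**, for any integral expansion `T` of
`w u⁻¹`. -/
theorem ptOn_inr_false_iff (T : LaurentSeries O)
    (hσt : (σ.comp (w : L →+* L)) (α u')⁻¹ = GaussDVR.iota O E T)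
    (𝔪 : {𝔪 : Ideal (integralClosure (Algebra.adjoin O ({(α u')⁻¹} : Set L)) L) //
      𝔪.IsMaximal ∧
        algebraMap O (integralClosure (Algebra.adjoin O ({(α u')⁻¹} : Set L)) L) ϖ ∈ 𝔪 ∧
        ∀ s : integralClosure (Algebra.adjoin O ({(α u')⁻¹} : Set L)) L,
          (s : L) = (α u')⁻¹ → s ∈ 𝔪}) :
    ptOn ϖ (α u') V (Sum.inr 𝔪) false ↔
      RingHom.ker (redHom (σ.comp (w : L →+* L)) (sigmaW_O σ hσO w hwO) ϖ hϖ
        (fun x => hσfrac (w x)) (α u')⁻¹ T hσt) ≤ 𝔪.1 := by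
  rw [ptOn_inr, hVf]
  exact cen_iff_ker_redHom_le (σ.comp (w : L →+* L)) (sigmaW_O σ hσO w hwO) ϖ hϖ
    (fun x => hσfrac (w x)) (α u')⁻¹ T hσt 𝔪.1

end Pin

/-! ### The chart hypotheses -/

section Charts

variable (hρ : GaussDVR.rho O U ≠ 0)
  (V : Bool → Subring L) (hVt : V true = VG O σ)
  (hVf : V false = VG O (σ.comp (w : L →+* L)))

include hϖ hσO hσfrac hσu hwO hwα hρ hVt hVf in
/-- The generic rings contain the overlap chart. -/
theorem hV_gauss : ∀ W (x : L),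
    IsIntegral (Algebra.adjoin O ({α u', (α u')⁻¹} : Set L)) x → x ∈ V W := by
  intro W x hx
  cases W
  · rw [hVf]
    exact Modular.Datum.sigma_w_mem_V_overlap ϖ hϖ α σ hσO hσfrac u' U hσu w hwO ℓ hwα hρ ⟨x, hx⟩
  · rw [hVt]
    exact Modular.Datum.sigma_mem_V_overlap ϖ hϖ α σ hσO hσfrac u' U hσu hρ ⟨x, hx⟩

include hϖ hσO hwO hVt hVf in
/-- `ϖ` is a non-unit of both generic rings. -/
theorem hne_gauss : ∀ W, ¬ MemPi (V W) ϖ (1 : L) := by
  intro W
  cases W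
  · rw [hVf]
    exact not_memPi_one (σ.comp (w : L →+* L)) (sigmaW_O σ hσO w hwO) ϖ hϖ
  · rw [hVt]
    exact not_memPi_one σ hσO ϖ hϖ

include hϖ hσO hwO hVt hVf in
/-- Both generic rings are local with maximal ideal `ϖ V`. -/
theorem hunit_gauss : ∀ W (a : L), a ∈ V W → ¬ MemPi (V W) ϖ a → a⁻¹ ∈ V W := by
  intro W
  cases W
  · rw [hVf]
    exact fun a ha hna =>
      inv_mem_of_not_memPi (σ.comp (w : L →+* L)) (sigmaW_O σ hσO w hwO) ϖ hϖ ha hna
  · rw [hVt]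
    exact fun a ha hna => inv_mem_of_not_memPi σ hσO ϖ hϖ ha hna

end Charts

section Package

variable (hww : ∀ z : L, w (w z) = z)
  (hprime : Prime (piC u' ϖ))
  (hcop : IsCoprime (GaussDVR.rho O U).order (ℓ : ℤ)) (hord : (GaussDVR.rho O U).order ≠ 0)
  (hℓ : 2 ≤ ℓ)
  (hfrob : qExpand (IsLocalRing.ResidueField O) ℓ (GaussDVR.rho O U) = GaussDVR.rho O U ^ ℓ)
  (hwu : IsIntegral (Algebra.adjoin O {α u'}) (w (α u')))
  (hrank : ∀ v : Option (Fin 1 ⊕ Fin ℓ) → Chart O (α u'),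
    ∃ c : Option (Fin 1 ⊕ Fin ℓ) → Chart O u', c ≠ 0 ∧ ∑ i, incl α hαO u' (c i) * v i = 0)
  (V : Bool → Subring L) (hVt : V true = VG O σ)
  (hVf : V false = VG O (σ.comp (w : L →+* L)))

include hϖ hαO hσO hσfrac hσu hwO hwα hww hprime hcop hord hℓ hfrob hwu hrank hVt hVf in
/-- **The fibre of the chart `u` is reduced**: an element of the chart in `ϖ V` for both
components is divisible by `ϖ` in the chart (`TwoPrimesGauss.sat`). -/
theorem hred0_gauss : ∀ x : L, IsIntegral (Algebra.adjoin O ({α u'} : Set L)) x →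
    (∀ W, MemPi (V W) ϖ x) →
    ∃ c : L, IsIntegral (Algebra.adjoin O ({α u'} : Set L)) c ∧ x = algebraMap O L ϖ * c := by
  intro x hx hW
  have h1 := hW true
  rw [hVt] at h1
  have h2 := hW false
  rw [hVf] at h2
  have hxV : σ x ∈ GaussDVR.V O E := mem_of_memPi σ hσO ϖ h1
  have hxW : σ (w x) ∈ GaussDVR.V O E :=
    mem_of_memPi (σ.comp (w : L →+* L)) (sigmaW_O σ hσO w hwO) ϖ h2
  exact sat ϖ hϖ α hαO σ hσO hσfrac u' U hσu w hwO ℓ hwα hww hprime hcop hord hℓ hfrob hwu hrank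
    x hxV hxW hx ((memPi_iff σ hσO ϖ hϖ hxV).mp h1)
    ((memPi_iff (σ.comp (w : L →+* L)) (sigmaW_O σ hσO w hwO) ϖ hϖ hxW).mp h2)

include hϖ hαO hσO hσfrac hσu hwO hwα hww hprime hcop hord hℓ hfrob hwu hrank hVt hVf in
/-- **The fibre of the chart `u⁻¹` is reduced** (`Crossing.inf_dvd_of_mem_inf`). -/
theorem hred1_gauss (hinj : Function.Injective (algebraMap O L)) (hu : α u' ≠ 0)
    (hnzd : ∀ x : L, IsIntegral (Algebra.adjoin O ({(α u')⁻¹} : Set L)) x →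
      IsIntegral (Algebra.adjoin O ({(α u')⁻¹} : Set L)) ((α u')⁻¹ * x / algebraMap O L ϖ) →
      IsIntegral (Algebra.adjoin O ({(α u')⁻¹} : Set L)) (x / algebraMap O L ϖ)) :
    ∀ x : L, IsIntegral (Algebra.adjoin O ({(α u')⁻¹} : Set L)) x →
      (∀ W, MemPi (V W) ϖ x) →
      ∃ c : L, IsIntegral (Algebra.adjoin O ({(α u')⁻¹} : Set L)) c ∧
        x = algebraMap O L ϖ * c := by
  intro x hx hW
  have hρ : GaussDVR.rho O U ≠ 0 := fun h => hord (by rw [h, HahnSeries.order_zero])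
  have hπL : algebraMap O L ϖ ≠ 0 := fun h => hϖ.ne_zero (hinj (by rw [h, map_zero]))
  have h1 := hW true
  rw [hVt] at h1
  have h2 := hW false
  rw [hVf] at h2
  have hxV : σ x ∈ GaussDVR.V O E := mem_of_memPi σ hσO ϖ h1
  have hxW : σ (w x) ∈ GaussDVR.V O E :=
    mem_of_memPi (σ.comp (w : L →+* L)) (sigmaW_O σ hσO w hwO) ϖ h2
  have hred : (Modular.Datum.P₁ ϖ hϖ α σ hσO hσfrac u' U hσu hρ).comap
        (Nodal.toOverlapZero O (α u')) ⊓
      (Modular.Datum.P₂ ϖ hϖ α σ hσO hσfrac u' U hσu w hwO ℓ hwα hρ).comap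
        (Nodal.toOverlapZero O (α u')) ≤
      Ideal.span {piElt (Algebra.adjoin O ({α u'} : Set L)) ϖ} := by
    rw [Modular.Datum.comap_zero_P₁ ϖ hϖ α σ hσO hσfrac u' U hσu hρ,
      Modular.Datum.comap_zero_P₂ ϖ hϖ α σ hσO hσfrac u' U hσu w hwO ℓ hwα hρ]
    rintro c ⟨hI, hZ⟩
    exact Ideal.mem_span_singleton.mpr
      (dvd_of_redInf_redZero ϖ hϖ α hαO σ hσO hσfrac u' U hσu w hwO ℓ hwα hww hprime hcop hord hℓ
        hfrob hwu hrank c hI hZ)
  have hdvd := Crossing.inf_dvd_of_mem_inf ϖ hπL (α u') hu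
    (Modular.Datum.P₁ ϖ hϖ α σ hσO hσfrac u' U hσu hρ)
    (Modular.Datum.P₂ ϖ hϖ α σ hσO hσfrac u' U hσu w hwO ℓ hwα hρ) hred hnzd ⟨x, hx⟩
    ((Modular.Datum.mem_comap_inf_P₁_iff ϖ hϖ α σ hσO hσfrac u' U hσu hρ ⟨x, hx⟩ hxV).mpr
      ((memPi_iff σ hσO ϖ hϖ hxV).mp h1))
    ((Modular.Datum.mem_comap_inf_P₂_iff ϖ hϖ α σ hσO hσfrac u' U hσu w hwO ℓ hwα hρ ⟨x, hx⟩
      hxW).mpr
      ((memPi_iff (σ.comp (w : L →+* L)) (sigmaW_O σ hσO w hwO) ϖ hϖ hxW).mp h2))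
  exact (piElt_dvd_iff _ ϖ ⟨x, hx⟩).mp hdvd

include hϖ hσO hσfrac hσu hVt in
/-- **(CONST0) on the component `∞`**, for the concrete point set `ChartPoints.Pt`. -/
theorem constAt_true (hu : α u' ≠ 0) (U₂ : LaurentSeries O)
    (hσv : σ (α u')⁻¹ = GaussDVR.iota O E U₂) :
    ConstAt V (ptR ϖ (α u')) (ptOn ϖ (α u') V) ϖ true := by
  intro x hx hreg
  have hx' : x ∈ VG O σ := by rw [← hVt]; exact hx
  have key : ∃ κ : O, MemPi (VG O σ) ϖ (x - algebraMap O L κ) := by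
    refine exists_const σ hσO ϖ hϖ hσfrac (α u') (α u')⁻¹ (mul_inv_cancel₀ hu) U U₂ hσu hσv
      ⟨(α u')⁻¹, ChartChange.isIntegral_self _⟩ rfl hx' ?_ ?_
    · intro 𝔫 h𝔫 hk
      have hcen : ∀ b : integralClosure (Algebra.adjoin O ({α u'} : Set L)) L,
          MemPi (V true) ϖ (b : L) → b ∈ 𝔫 := by
        rw [hVt]
        exact (cen_iff_ker_redHom_le σ hσO ϖ hϖ hσfrac (α u') U hσu 𝔫).mpr hk
      obtain ⟨a, ha, hxa⟩ := hreg (Sum.inl ⟨𝔫, h𝔫, algebraMap_mem_of_cen ϖ (V true) (α u') 𝔫 hcen⟩)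
        hcen
      obtain ⟨b, c, hb, hab⟩ := exists_frac_of_mem_locAt _ 𝔫 h𝔫.isPrime ha
      rw [hVt] at hxa
      exact ⟨a, ⟨c, b, hb, hab⟩, hxa⟩
    · intro 𝔫 h𝔫 hk hs𝔫
      have hcen : ∀ b : integralClosure (Algebra.adjoin O ({(α u')⁻¹} : Set L)) L,
          MemPi (V true) ϖ (b : L) → b ∈ 𝔫 := by
        rw [hVt]
        exact (cen_iff_ker_redHom_le σ hσO ϖ hϖ hσfrac (α u')⁻¹ U₂ hσv 𝔫).mpr hk
      obtain ⟨a, ha, hxa⟩ := hreg (Sum.inr ⟨𝔫, h𝔫,
        algebraMap_mem_of_cen ϖ (V true) (α u')⁻¹ 𝔫 hcen, fun s hs => by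
          have e : s = ⟨(α u')⁻¹, ChartChange.isIntegral_self _⟩ := Subtype.ext hs
          rw [e]
          exact hs𝔫⟩) hcen
      obtain ⟨b, c, hb, hab⟩ := exists_frac_of_mem_locAt _ 𝔫 h𝔫.isPrime ha
      rw [hVt] at hxa
      exact ⟨a, ⟨c, b, hb, hab⟩, hxa⟩
  rw [hVt]
  exact key

include hϖ hαO hσO hσfrac hσu hwO hwα hww hprime hcop hord hℓ hfrob hwu hrank hVt hVf in
/-- **The model package of the two Gauss components from the local blocks alone.**
Hypotheses: those of `CrossingGauss.exists_crossing_gauss` that concern the charts (`hinj`,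
`hOL`, finiteness of the chart `u`, `hnzd`), an integral expansion `U₂` of `u⁻¹`, and a block at
every closed point of `ChartPoints.Pt ϖ (α u')`. -/
theorem isModelI_of_blocks_gauss
    (hinj : Function.Injective (algebraMap O L))
    (hOL : ∀ x : L, IsIntegral O x → ∃ a : O, algebraMap O L a = x)
    (hu : α u' ≠ 0)
    [Module.Finite (Algebra.adjoin O ({α u'} : Set L))
      (integralClosure (Algebra.adjoin O ({α u'} : Set L)) L)]
    (hnzd : ∀ x : L, IsIntegral (Algebra.adjoin O ({(α u')⁻¹} : Set L)) x →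
      IsIntegral (Algebra.adjoin O ({(α u')⁻¹} : Set L)) ((α u')⁻¹ * x / algebraMap O L ϖ) →
      IsIntegral (Algebra.adjoin O ({(α u')⁻¹} : Set L)) (x / algebraMap O L ϖ))
    (U₂ : LaurentSeries O) (hσv : σ (α u')⁻¹ = GaussDVR.iota O E U₂)
    (p : ℕ) (Hor : L → Prop)
    (hblock : ∀ y : Pt ϖ (α u'),
      (∃ W₁ W₂, (∀ W, ptOn ϖ (α u') V y W ↔ W = W₁ ∨ W = W₂) ∧
        NodeBlockI p ϖ Hor (ptR ϖ (α u') y) (V W₁) (V W₂)) ∨
      (∃ W₁, (∀ W, ptOn ϖ (α u') V y W ↔ W = W₁) ∧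
        SmoothBlockI p ϖ Hor (ptR ϖ (α u') y) (V W₁))) :
    IsModelI p ϖ V (ptR ϖ (α u')) (ptOn ϖ (α u') V) Hor := by
  have hρ : GaussDVR.rho O U ≠ 0 := fun h => hord (by rw [h, HahnSeries.order_zero])
  exact isModelI_of_blocks p ϖ hϖ hinj hOL (α u') hu (CechP1.hfin_of_finite (α u')) V Hor
    (hV_gauss ϖ hϖ α σ hσO hσfrac u' U hσu w hwO ℓ hwα hρ V hVt hVf)
    (hne_gauss ϖ hϖ σ hσO w hwO V hVt hVf)
    (hunit_gauss ϖ hϖ σ hσO w hwO V hVt hVf)
    (hred0_gauss ϖ hϖ α hαO σ hσO hσfrac u' U hσu w hwO ℓ hwα hww hprime hcop hord hℓ hfrob hwu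
      hrank V hVt hVf)
    (hred1_gauss ϖ hϖ α hαO σ hσO hσfrac u' U hσu w hwO ℓ hwα hww hprime hcop hord hℓ hfrob hwu
      hrank V hVt hVf hinj hu hnzd)
    true (constAt_true ϖ hϖ α σ hσO hσfrac u' U hσu V hVt hu U₂ hσv) hblock

end Package

end Main

end Fermat.Agent.S33.Geo.GaussModel
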