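import Mathlib
import Fermat.Agent.S44.L.CrossingInst
import Fermat.Agent.S36.SqChart.Coord4
import Fermat.Agent.S33.Geo.GaussModel
import Fermat.Agent.S33.Geo.GaussRings

/-!
# S33 / GEO / Stage B, row B3 (global half): the model package at `u₄`, E-level instance

`S33/Geo/GaussModel.isModelI_of_blocks_gauss` at the objects of `S44/L/CrossingInst` (binders of
`CrossingInst.exists_crossing_u4` / `exists_crossing_u4_OE`): levels `(M, M q)`, `q` an odd
prime, `q ∤ M`, `4 ∣ M`, base an unramified discrete valuation ring `O` of residue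
characteristic `q` with fraction field `E ⊆ ℚ̄`, `F = LE (M q) E`, `U = α u₄` the coordinate of
the two charts, generic rings `GaussRings.VB M q E O hq hqM` (`true ↦ V∞`, `false ↦ V0`), closed
points `ChartPoints.Pt π U` with local rings `ChartPoints.ptR` and incidence `ChartPoints.ptOn`.

* `ptOn_inl_true_iff_u4`, `ptOn_inl_false_iff_u4` : **pinning on the chart `U`** - the point
  `y` lies on `∞` iff `ker redInf ≤ y`, on `0` iff `ker redZero ≤ y` (the reductions of
  `S44/L/NodeC1Inst`, `NodeLocInst`, `CrossingInst`, verbatim);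
* `cen_true_iff_s4`, `cen_false_iff_s4` : **pinning on the chart of `α u₄⁻¹`** (the chart at
  infinity in the spelling of `S44/L/NodeC1InstInf`, `NodeLocInstInf`);
* `isModelI_u4_of_blocks_gen` : **`Model.IsModelI` from the local blocks alone**, generic
  unramified base;
* `isModelI_u4_of_blocks` : the same over `O = OE A K` with `ϖ = p` (the binder block of
  `S33/Geo/FunI.funIE_of_model`).
-/

set_option autoImplicit false
set_option linter.unusedSectionVars false
set_option linter.unusedVariables false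
set_option linter.style.haveILetI false
set_option synthInstance.maxHeartbeats 400000
set_option maxHeartbeats 1000000

open ModularCurve Polynomial IntermediateField

noncomputable section

namespace Fermat.Agent.S33.Geo.ModelInstGlob

open Fermat.Agent.S30 Fermat.Agent.S34 Fermat.Agent.S34.TwoPrimesGauss
open Fermat.Agent.S30.Model
open Fermat.Agent.S18.K1Defs Fermat.Agent.S18.K1Main
open Fermat.Agent.S34.TwoPrimesRank Fermat.Agent.S34.HauptU.Plug
open Fermat.Agent.S34.HauptU.LevelMAux
open Fermat.Agent.S36.Haupt4 Fermat.Agent.S36.LevelQInstAlt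
open Fermat.Agent.S33.Geo.Top Fermat.Agent.S33.Geo.ChartPoints Fermat.Agent.S33.Geo.Model
open Fermat.Agent.S33.Geo.GaussRings

local notation "Qb" => AlgebraicClosure ℚ

/-! ### Generic unramified base -/

section Generic

variable (M q : ℕ) [NeZero M] [NeZero q] (E : IntermediateField ℚ Qb)
  {O : Type} [CommRing O] [IsDomain O] [IsDiscreteValuationRing O]
  [Algebra O E] [IsFractionRing O E]

/-- **Pinning on the chart `U = α u₄`, component `∞`**: the closed point `y` lies on the
component `∞` iff `ker redInf ≤ y`. -/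
theorem ptOn_inl_true_iff_u4 (hq : q.Prime) (hqM : ¬ q ∣ M) (h4 : 4 ∣ M)
    (π : O) (hπ : Irreducible π)
    (hσfrac : ∀ x : LE (M * q) E, sigmaHom (M * q) E x ∈ GaussDVR.fracField O E) :
    letI := algebraOL O E (LE M E)
    letI := algebraOL O E (LE (M * q) E)
    haveI := isScalarTower_OL O E (LE M E)
    haveI := isScalarTower_OL O E (LE (M * q) E)
    ∀ 𝔪 : {𝔪 : Ideal (integralClosure (Algebra.adjoin O
          ({alphaHom M q E (u4E M E h4)} : Set (LE (M * q) E))) (LE (M * q) E)) //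
        𝔪.IsMaximal ∧ algebraMap O (integralClosure (Algebra.adjoin O
          ({alphaHom M q E (u4E M E h4)} : Set (LE (M * q) E))) (LE (M * q) E)) π ∈ 𝔪},
      ptOn π (alphaHom M q E (u4E M E h4)) (VB M q E O hq hqM) (Sum.inl 𝔪) true ↔
        RingHom.ker (redInf π hπ (alphaHom M q E) (sigmaHom (M * q) E)
          (sigmaHom_algebraMap (M * q) E) hσfrac (u4E M E h4) (u4 O) (hσu_u4 M q E h4)) ≤ 𝔪.1 := by
  letI := algebraOL O E (LE M E)
  letI := algebraOL O E (LE (M * q) E)
  haveI := isScalarTower_OL O E (LE M E)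
  haveI := isScalarTower_OL O E (LE (M * q) E)
  intro 𝔪
  exact GaussModel.ptOn_inl_true_iff π hπ (alphaHom M q E) (sigmaHom (M * q) E)
    (sigmaHom_algebraMap (M * q) E) hσfrac (u4E M E h4) (u4 O) (hσu_u4 M q E h4)
    (VB M q E O hq hqM) rfl 𝔪

/-- **Pinning on the chart `U = α u₄`, component `0`**: the closed point `y` lies on the
component `0` iff `ker redZero ≤ y`. -/
theorem ptOn_inl_false_iff_u4 (hq : q.Prime) (hqM : ¬ q ∣ M) (h4 : 4 ∣ M)
    (π : O) (hπ : Irreducible π)
    (hσfrac : ∀ x : LE (M * q) E, sigmaHom (M * q) E x ∈ GaussDVR.fracField O E) :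
    letI := algebraOL O E (LE M E)
    letI := algebraOL O E (LE (M * q) E)
    haveI := isScalarTower_OL O E (LE M E)
    haveI := isScalarTower_OL O E (LE (M * q) E)
    ∀ 𝔪 : {𝔪 : Ideal (integralClosure (Algebra.adjoin O
          ({alphaHom M q E (u4E M E h4)} : Set (LE (M * q) E))) (LE (M * q) E)) //
        𝔪.IsMaximal ∧ algebraMap O (integralClosure (Algebra.adjoin O
          ({alphaHom M q E (u4E M E h4)} : Set (LE (M * q) E))) (LE (M * q) E)) π ∈ 𝔪},
      ptOn π (alphaHom M q E (u4E M E h4)) (VB M q E O hq hqM) (Sum.inl 𝔪) false ↔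
        RingHom.ker (redZero π hπ (alphaHom M q E) (sigmaHom (M * q) E)
          (sigmaHom_algebraMap (M * q) E) hσfrac (u4E M E h4) (u4 O) (hσu_u4 M q E h4)
          (wHom M q E hq hqM) (wHom_algebraMap M q E hq hqM) q
          (sigmaHom_wHom_alpha M q E hq hqM)) ≤ 𝔪.1 := by
  letI := algebraOL O E (LE M E)
  letI := algebraOL O E (LE (M * q) E)
  haveI := isScalarTower_OL O E (LE M E)
  haveI := isScalarTower_OL O E (LE (M * q) E)
  intro 𝔪
  exact GaussModel.ptOn_inl_false_iff π hπ (alphaHom M q E) (sigmaHom (M * q) E)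
    (sigmaHom_algebraMap (M * q) E) hσfrac (u4E M E h4) (u4 O) (hσu_u4 M q E h4)
    (wHom M q E hq hqM) (wHom_algebraMap M q E hq hqM) q (sigmaHom_wHom_alpha M q E hq hqM)
    (VB M q E O hq hqM) rfl 𝔪

/-- **Pinning on the chart of `α u₄⁻¹`, component `∞`** (spelling of `S44/L/NodeC1InstInf`):
the centre of `V∞` lies in `y` iff `ker redInf ≤ y`. -/
theorem cen_true_iff_s4 (hq : q.Prime) (hqM : ¬ q ∣ M) (h4 : 4 ∣ M)
    (π : O) (hπ : Irreducible π)
    (hσfrac : ∀ x : LE (M * q) E, sigmaHom (M * q) E x ∈ GaussDVR.fracField O E) :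
    letI := algebraOL O E (LE M E)
    letI := algebraOL O E (LE (M * q) E)
    haveI := isScalarTower_OL O E (LE M E)
    haveI := isScalarTower_OL O E (LE (M * q) E)
    ∀ y : Ideal (Chart O (alphaHom M q E (u4E M E h4)⁻¹)),
      (∀ b : Chart O (alphaHom M q E (u4E M E h4)⁻¹),
          MemPi (VB M q E O hq hqM true) π (b : LE (M * q) E) → b ∈ y) ↔
        RingHom.ker (redInf π hπ (alphaHom M q E) (sigmaHom (M * q) E)
          (sigmaHom_algebraMap (M * q) E) hσfrac (u4E M E h4)⁻¹
          (HauptU.E.posO O Fermat.Agent.S36.SqChart.Coord4.s4Z)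
          (Fermat.Agent.S36.SqChart.Coord4.hσ1u_s4 M E q h4)) ≤ y := by
  letI := algebraOL O E (LE M E)
  letI := algebraOL O E (LE (M * q) E)
  haveI := isScalarTower_OL O E (LE M E)
  haveI := isScalarTower_OL O E (LE (M * q) E)
  intro y
  exact GaussModel.cen_iff_ker_redHom_le (sigmaHom (M * q) E) (sigmaHom_algebraMap (M * q) E)
    π hπ hσfrac (alphaHom M q E (u4E M E h4)⁻¹)
    (HauptU.E.posO O Fermat.Agent.S36.SqChart.Coord4.s4Z)
    (Fermat.Agent.S36.SqChart.Coord4.hσ1u_s4 M E q h4) y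

/-- **Pinning on the chart of `α u₄⁻¹`, component `0`** (spelling of `S44/L/NodeC1InstInf`):
the centre of `V0` lies in `y` iff `ker redZero ≤ y`. -/
theorem cen_false_iff_s4 (hq : q.Prime) (hqM : ¬ q ∣ M) (h4 : 4 ∣ M)
    (π : O) (hπ : Irreducible π)
    (hσfrac : ∀ x : LE (M * q) E, sigmaHom (M * q) E x ∈ GaussDVR.fracField O E) :
    letI := algebraOL O E (LE M E)
    letI := algebraOL O E (LE (M * q) E)
    haveI := isScalarTower_OL O E (LE M E)
    haveI := isScalarTower_OL O E (LE (M * q) E)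
    ∀ y : Ideal (Chart O (alphaHom M q E (u4E M E h4)⁻¹)),
      (∀ b : Chart O (alphaHom M q E (u4E M E h4)⁻¹),
          MemPi (VB M q E O hq hqM false) π (b : LE (M * q) E) → b ∈ y) ↔
        RingHom.ker (redZero π hπ (alphaHom M q E) (sigmaHom (M * q) E)
          (sigmaHom_algebraMap (M * q) E) hσfrac (u4E M E h4)⁻¹
          (HauptU.E.posO O Fermat.Agent.S36.SqChart.Coord4.s4Z)
          (Fermat.Agent.S36.SqChart.Coord4.hσ1u_s4 M E q h4)
          (wHom M q E hq hqM) (wHom_algebraMap M q E hq hqM) q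
          (sigmaHom_wHom_alpha M q E hq hqM)) ≤ y := by
  letI := algebraOL O E (LE M E)
  letI := algebraOL O E (LE (M * q) E)
  haveI := isScalarTower_OL O E (LE M E)
  haveI := isScalarTower_OL O E (LE (M * q) E)
  intro y
  exact GaussModel.cen_iff_ker_redHom_le
    ((sigmaHom (M * q) E).comp (wHom M q E hq hqM : LE (M * q) E →+* LE (M * q) E))
    (sigmaW_O (sigmaHom (M * q) E) (sigmaHom_algebraMap (M * q) E) (wHom M q E hq hqM)
      (wHom_algebraMap M q E hq hqM)) π hπ (fun x => hσfrac (wHom M q E hq hqM x))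
    (alphaHom M q E (u4E M E h4)⁻¹)
    (qExpand O q (HauptU.E.posO O Fermat.Agent.S36.SqChart.Coord4.s4Z))
    (sigmaW_u (alphaHom M q E) (sigmaHom (M * q) E) (u4E M E h4)⁻¹
      (HauptU.E.posO O Fermat.Agent.S36.SqChart.Coord4.s4Z)
      (Fermat.Agent.S36.SqChart.Coord4.hσ1u_s4 M E q h4) (wHom M q E hq hqM) q
      (sigmaHom_wHom_alpha M q E hq hqM)) y

/-- **The model package at `u₄` from the local blocks alone** (generic unramified base).  Every
global hypothesis of `ChartPoints.isModelI_of_blocks` is discharged: what is left is the block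
at every closed point of `ChartPoints.Pt π (α u₄)`. -/
theorem isModelI_u4_of_blocks_gen (hq : q.Prime) (hodd : q ≠ 2) (hqM : ¬ q ∣ M) (h4 : 4 ∣ M)
    (h2 : IsUnit (2 : O)) (hFG : FinGaussC M O E) (π : O) (hπ : Irreducible π)
    (e : O) (he : IsUnit e) (hqe : ((q : ℕ) : O) = π * e)
    (hσfrac : ∀ x : LE (M * q) E, sigmaHom (M * q) E x ∈ GaussDVR.fracField O E) :
    letI := algebraOL O E (LE (M * q) E)
    ∀ (p : ℕ) (Hor : LE (M * q) E → Prop),
      (∀ y : Pt π (alphaHom M q E (u4E M E h4)),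
        (∃ W₁ W₂, (∀ W, ptOn π (alphaHom M q E (u4E M E h4)) (VB M q E O hq hqM) y W ↔
            W = W₁ ∨ W = W₂) ∧
          NodeBlockI p π Hor (ptR π (alphaHom M q E (u4E M E h4)) y)
            (VB M q E O hq hqM W₁) (VB M q E O hq hqM W₂)) ∨
        (∃ W₁, (∀ W, ptOn π (alphaHom M q E (u4E M E h4)) (VB M q E O hq hqM) y W ↔ W = W₁) ∧
          SmoothBlockI p π Hor (ptR π (alphaHom M q E (u4E M E h4)) y)
            (VB M q E O hq hqM W₁))) →
      IsModelI p π (VB M q E O hq hqM) (ptR π (alphaHom M q E (u4E M E h4)))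
        (ptOn π (alphaHom M q E (u4E M E h4)) (VB M q E O hq hqM)) Hor := by
  classical
  letI := algebraOL O E (LE M E)
  letI := algebraOL O E (LE (M * q) E)
  haveI := isScalarTower_OL O E (LE M E)
  haveI := isScalarTower_OL O E (LE (M * q) E)
  intro p Hor hblock
  have hfg := u4_fin_gauss M E h4 hFG
  have hfin : FiniteDimensional (IntermediateField.adjoin E {u4E M E h4}) (LE M E) := hfg.1
  haveI := hfin
  have hcf := Fermat.Agent.S36.Haupt4.Fibre.chartFacts_u4 M E h4 h2 hFG π hπ
  have hwu := hwu_u4 M q E (O := O) h2 hq hodd hqM h4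
  haveI : Fact q.Prime := ⟨hq⟩
  haveI : CharP (IsLocalRing.ResidueField O) q :=
    Fermat.Agent.S36.DerUnram.charP_residue π hπ q ⟨e, hqe⟩
  -- level `M q`
  haveI := Fermat.Agent.S36.Haupt4.LevelQ.finiteDimensional_alpha_u4E M q E h4
  have hT : Transcendental E (alphaHom M q E (u4E M E h4)) :=
    Fermat.Agent.S36.Haupt4.LevelQ.transcendental_alpha_u4E M q E h4
  have hu : alphaHom M q E (u4E M E h4) ≠ 0 := fun h0 => hT (by rw [h0]; exact isAlgebraic_zero)
  have hTinv : Transcendental E (alphaHom M q E (u4E M E h4))⁻¹ :=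
    Fermat.Agent.S44.L.CrossingInst.transcendental_inv_of hT
  haveI : Module.Finite (Algebra.adjoin O ({alphaHom M q E (u4E M E h4)} : Set (LE (M * q) E)))
      (integralClosure (Algebra.adjoin O ({alphaHom M q E (u4E M E h4)} : Set (LE (M * q) E)))
        (LE (M * q) E)) :=
    Assembly.chart_finite (E := E) _ hT
  have hinj : Function.Injective (algebraMap O (LE (M * q) E)) := by
    rw [IsScalarTower.algebraMap_eq O E (LE (M * q) E)]
    exact (algebraMap E (LE (M * q) E)).injective.comp (IsFractionRing.injective O E)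
  have hOL : ∀ x : LE (M * q) E, IsIntegral O x → ∃ a : O, algebraMap O (LE (M * q) E) a = x :=
    Assembly.exists_of_isIntegral_of_algClosedIn (algClosedIn_laurent (LE (M * q) E))
  have hnzd : ∀ x : LE (M * q) E,
      IsIntegral (Algebra.adjoin O ({(alphaHom M q E (u4E M E h4))⁻¹} : Set (LE (M * q) E))) x →
      IsIntegral (Algebra.adjoin O ({(alphaHom M q E (u4E M E h4))⁻¹} : Set (LE (M * q) E)))
        ((alphaHom M q E (u4E M E h4))⁻¹ * x / algebraMap O (LE (M * q) E) π) →
      IsIntegral (Algebra.adjoin O ({(alphaHom M q E (u4E M E h4))⁻¹} : Set (LE (M * q) E)))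
        (x / algebraMap O (LE (M * q) E) π) :=
    fun x hx h => Assembly.chart_nzd (E := E) π hπ _ hTinv x hx h
  have hσv : sigmaHom (M * q) E (alphaHom M q E (u4E M E h4))⁻¹ =
      GaussDVR.iota O E (HauptU.E.posO O Fermat.Agent.S36.SqChart.Coord4.s4Z) := by
    rw [← map_inv₀]
    exact Fermat.Agent.S36.SqChart.Coord4.hσ1u_s4 M E q h4
  exact GaussModel.isModelI_of_blocks_gauss π hπ (alphaHom M q E) (alphaHom_algebraMap M q E)
    (sigmaHom (M * q) E) (sigmaHom_algebraMap (M * q) E) hσfrac (u4E M E h4) (u4 O)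
    (hσu_u4 M q E h4) (wHom M q E hq hqM) (wHom_algebraMap M q E hq hqM) q
    (sigmaHom_wHom_alpha M q E hq hqM) (wHom_wHom M q E hq hqM) hcf.prime_zero (hcop_u4 q)
    hord_u4 hq.two_le (hfrob_u4 q hq) hwu (hrank_u4 M q E hq hqM h4) (VB M q E O hq hqM) rfl rfl
    hinj hOL hu hnzd (HauptU.E.posO O Fermat.Agent.S36.SqChart.Coord4.s4Z) hσv p Hor hblock

end Generic

/-! ### The arithmetic instance `O = A ∩ K`, `ϖ = p` -/

section Arithmetic

/-- **The model package at `u₄` over `O = OE A K` from the local blocks alone**, `ϖ = p`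
(binder block of `S33/Geo/FunI.funIE_of_model`).  With `ChartPoints.coversCusp_pt` this is row
B3 modulo the blocks. -/
theorem isModelI_u4_of_blocks (A : ValuationSubring Qb) (M p : ℕ) [NeZero M] [NeZero p]
    (hp : p.Prime) (hodd : p ≠ 2) (hpM : ¬ p ∣ M) (h4 : 4 ∣ M) (hA : A.LiesOverPrime p)
    (K : IntermediateField ℚ Qb) [FiniteDimensional ℚ K] [IsDiscreteValuationRing (OE A K)]
    (z : Qb) (hz : IsPrimitiveRoot z M) (hzK : z ∈ K)
    (hπ : Irreducible ((p : ℕ) : OE A K)) :
    letI := algebraOL (OE A K) K (LE (M * p) K)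
    ∀ (Hor : LE (M * p) K → Prop),
      (∀ y : Pt ((p : ℕ) : OE A K) (alphaHom M p K (u4E M K h4)),
        (∃ W₁ W₂, (∀ W, ptOn ((p : ℕ) : OE A K) (alphaHom M p K (u4E M K h4))
            (VB M p K (OE A K) hp hpM) y W ↔ W = W₁ ∨ W = W₂) ∧
          NodeBlockI p ((p : ℕ) : OE A K) Hor
            (ptR ((p : ℕ) : OE A K) (alphaHom M p K (u4E M K h4)) y)
            (VB M p K (OE A K) hp hpM W₁) (VB M p K (OE A K) hp hpM W₂)) ∨
        (∃ W₁, (∀ W, ptOn ((p : ℕ) : OE A K) (alphaHom M p K (u4E M K h4))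
            (VB M p K (OE A K) hp hpM) y W ↔ W = W₁) ∧
          SmoothBlockI p ((p : ℕ) : OE A K) Hor
            (ptR ((p : ℕ) : OE A K) (alphaHom M p K (u4E M K h4)) y)
            (VB M p K (OE A K) hp hpM W₁))) →
      IsModelI p ((p : ℕ) : OE A K) (VB M p K (OE A K) hp hpM)
        (ptR ((p : ℕ) : OE A K) (alphaHom M p K (u4E M K h4)))
        (ptOn ((p : ℕ) : OE A K) (alphaHom M p K (u4E M K h4)) (VB M p K (OE A K) hp hpM))
        Hor := by
  haveI : Fact p.Prime := ⟨hp⟩
  have h2 : IsUnit (2 : OE A K) := isUnit_two_OE A hA hodd K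
  have hFG : FinGaussC M (OE A K) K :=
    Fermat.Agent.S36.Haupt4.Fibre.finGaussC_OE A M hpM hA K z hz hzK
  intro Hor hblock
  exact isModelI_u4_of_blocks_gen (O := OE A K) M p K hp hodd hpM h4 h2 hFG _ hπ 1 isUnit_one
    (mul_one _).symm (sigmaHom_mem_fracField (M * p) K A) p Hor hblock

end Arithmetic

end Fermat.Agent.S33.Geo.ModelInstGlob
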