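/-
S33 (ordinary at `p ∥ N`), strand GEO, Stage B, row B5 (helper140): the hole `?FunI` from the
local blocks of the model alone.

`funIStatement_of_blocks` : for every level `M` with `4 ∣ M`: if every closed point
`y : ChartPoints.Pt p (α u₄)` of the two-chart model of `LE (M p) K` over `OE A K` carries a
local block (a regular node on the two Gauss components or a smooth point on one of them, with
the pinning of the components through `y`), then `FunLevel.FunIStatement M p`.

The global half of the model is the landed `ModelInstGlob.isModelI_u4_of_blocks` (helper163), the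
cover is `ChartPoints.coversCusp_pt` (helper19), the rest is `FunIModel.funIStatement_of_model`.
-/
import Mathlib
import Fermat.Agent.S33.Geo.FunIModel
import Fermat.Agent.S33.Geo.ModelInstGlob

set_option autoImplicit false
set_option linter.unusedSectionVars false
set_option linter.unusedVariables false
set_option linter.style.haveILetI false
set_option synthInstance.maxHeartbeats 400000
set_option maxHeartbeats 1000000

open ModularCurve

noncomputable section

namespace Fermat.Agent.S33.Geo.FunIBlocks

open Fermat.Agent.S18.K1Defs Fermat.Agent.S18.K1Main Fermat.Agent.S30 Fermat.Agent.S30.E4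
open Fermat.Agent.S30.Producer
open Fermat.Agent.S34.TwoPrimesRank Fermat.Agent.S34.HauptU.Plug Fermat.Agent.S36.Haupt4
open Fermat.Agent.S36.HorizAdapter
open Fermat.Agent.S33.Geo.Contract Fermat.Agent.S33.Geo.GaussRings
open Fermat.Agent.S33.Geo.Model Fermat.Agent.S33.Geo.ChartPoints

local notation "Qb" => AlgebraicClosure ℚ

/-- **The hole `?FunI` at a level `M` with `4 ∣ M`, from the local blocks at the closed points
of the two-chart model.** -/
theorem funIStatement_of_blocks (M p : ℕ) [NeZero M] [NeZero p] (h4 : 4 ∣ M)
    (hblock : ∀ (hp : p.Prime) (hodd : p ≠ 2) (hpM : ¬ p ∣ M)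
        (A : ValuationSubring Qb) (hA : A.LiesOverPrime p)
        (K : IntermediateField ℚ Qb) [FiniteDimensional ℚ K] [IsDiscreteValuationRing (OE A K)]
        (z : Qb) (hz : IsPrimitiveRoot z M) (hzK : z ∈ K)
        (hπ : Irreducible ((p : ℕ) : OE A K)),
        letI := algebraOL (OE A K) K (LE (M * p) K)
        ∀ y : Pt ((p : ℕ) : OE A K) (alphaHom M p K (u4E M K h4)),
          (∃ W₁ W₂, (∀ W, ptOn ((p : ℕ) : OE A K) (alphaHom M p K (u4E M K h4))
              (VB M p K (OE A K) hp hpM) y W ↔ W = W₁ ∨ W = W₂) ∧
            NodeBlockI p ((p : ℕ) : OE A K)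
              (fun f => Horiz ((p : ℕ) : OE A K) p (alphaHom M p K (u4E M K h4)) f ∧
                Horiz ((p : ℕ) : OE A K) p (alphaHom M p K (u4E M K h4))⁻¹ f)
              (ptR ((p : ℕ) : OE A K) (alphaHom M p K (u4E M K h4)) y)
              (VB M p K (OE A K) hp hpM W₁) (VB M p K (OE A K) hp hpM W₂)) ∨
          (∃ W₁, (∀ W, ptOn ((p : ℕ) : OE A K) (alphaHom M p K (u4E M K h4))
              (VB M p K (OE A K) hp hpM) y W ↔ W = W₁) ∧
            SmoothBlockI p ((p : ℕ) : OE A K)
              (fun f => Horiz ((p : ℕ) : OE A K) p (alphaHom M p K (u4E M K h4)) f ∧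
                Horiz ((p : ℕ) : OE A K) p (alphaHom M p K (u4E M K h4))⁻¹ f)
              (ptR ((p : ℕ) : OE A K) (alphaHom M p K (u4E M K h4)) y)
              (VB M p K (OE A K) hp hpM W₁))) :
    Fermat.Agent.S33.Geo.FunLevel.FunIStatement M p :=
  Fermat.Agent.S33.Geo.FunIModel.funIStatement_of_model M p h4
    (fun hp hodd hpM A hA K _ _ z hz hzK hπ =>
      ⟨_, _, _,
        Fermat.Agent.S33.Geo.ModelInstGlob.isModelI_u4_of_blocks A M p hp hodd hpM h4 hA K z hz
          hzK hπ _ (hblock hp hodd hpM A hA K z hz hzK hπ),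
        coversCusp_pt _ _⟩)

end Fermat.Agent.S33.Geo.FunIBlocks
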