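import Mathlib
import Fermat.Agent.S33.Geo.ModelI
import Fermat.Agent.S33.Geo.TopChart

/-!
# S33 / GEO / Stage B: the local blocks of a model from chart data

Level-free (Mathlib + `S33/Geo/ModelI` + `S33/Geo/TopChart`).  `O` a discrete valuation ring
with uniformiser `ϖ`, `F` a field over `O`, `S` a subalgebra of `F` (`S = O[u]`),
`C = integralClosure S F` the chart ring (noetherian, `Frac C = F`), `y` a prime of `C`.
The blocks `Model.NodeBlockI` / `Model.SmoothBlockI` at `y` with `R y = DepthHenselExit.locAt S y`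
are produced from the chart vocabulary of `S44/L/NodeC1` (`PrinAt y P t` unfolded:
`t ∈ P ∧ ∀ x ∈ P, ∃ s ∉ y, s * x ∈ (t)`; `y = (t₁, t₂)` locally at `y`), with the generic rings
`V W = TopChart.locSubring P_W`; the presentation of the local ring is `Localization.AtPrime y`
with `TopChart.algLoc`.

* `locAt_eq_locSubring` : `DepthHenselExit.locAt S y = TopChart.locSubring y`.
* `range_algLoc` : the image of `Localization.AtPrime y` in `F` is `locAt S y`.
* `horIdeal_of_horChart` : the `S36.HorizAdapter.Horiz` form (`TopChart.HorChart`) is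
  `Model.HorIdeal` at the chart ring.
* `nodeBlockI_of_chart` : a crossing point (`P₁ = (t₁)`, `P₂ = (t₂)`, `y = (t₁, t₂)` locally at
  `y`, `t₁ t₂ = ϖ g`, `g ∉ y`).
* `smoothBlockI_of_chart` : a point on one component (`P = (ϖ)`, `y = (ϖ, z)` locally at `y`);
  `smoothBlockI_of_chart'` : the same with `𝔪 = (ϖ, θ)` given in the local ring.
-/

set_option autoImplicit false
set_option linter.unusedSectionVars false
set_option linter.unusedVariables false
set_option linter.style.haveILetI false

universe u

namespace Fermat.Agent.S33.Geo.ModelChart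

open IsLocalRing
open Fermat.Agent.S33.Geo.Top Fermat.Agent.S33.Geo.TopLocal Fermat.Agent.S33.Geo.TopChart
open Fermat.Agent.S33.Geo.Model Fermat.Agent.S44.L

/-! ### `locAt` and `locSubring` -/

section LocAt

variable {O F : Type*} [CommRing O] [Field F] [Algebra O F]

/-- The local ring `DepthHenselExit.locAt` of a chart at a prime is `TopChart.locSubring`. -/
theorem locAt_eq_locSubring (S : Subalgebra O F) (y : Ideal (integralClosure S F))
    [hy : y.IsPrime] : DepthHenselExit.locAt S y hy = locSubring (F := F) y := by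
  ext x
  constructor
  · rintro ⟨s, hs, hint⟩
    exact ⟨⟨(s : F) * x, hint⟩, s, hs, mul_comm _ _⟩
  · rintro ⟨a, b, hb, e⟩
    refine ⟨b, hb, ?_⟩
    have h1 : (b : F) * x = (a : F) := by
      rw [mul_comm]
      exact e
    rw [h1]
    exact a.2

/-- The `S36.HorizAdapter.Horiz` form of the horizontal hypothesis (`TopChart.HorChart`) is
`Model.HorIdeal` at the chart ring. -/
theorem horIdeal_of_horChart {C : Type*} [CommRing C] [Algebra O C] [Algebra C F] {p : ℕ}
    {ϖ : O} {f : F} (h : HorChart p (algebraMap O C ϖ) f) : HorIdeal p ϖ C f := by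
  intro Q hQ hϖQ
  obtain ⟨τ, s, b, -, hs, hb, e⟩ := h Q hQ hϖQ
  exact ⟨b, s, τ, hb, hs, by rw [mul_comm, e, mul_comm]⟩

end LocAt

/-! ### The blocks -/

section Blocks

variable {O : Type*} [CommRing O] [IsDomain O] [IsDiscreteValuationRing O]
  {F : Type u} [Field F] [Algebra O F]
  (S : Subalgebra O F) [IsNoetherianRing (integralClosure S F)]
  [IsFractionRing (integralClosure S F) F]

/-- The image of `Localization.AtPrime y` in `F` is the local ring `locAt S y` of the chart. -/
theorem range_algLoc (y : Ideal (integralClosure S F)) [hy : y.IsPrime] :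
    letI := algLoc F y
    RingHom.range (R := Localization.AtPrime y) (algebraMap (Localization.AtPrime y) F) =
      DepthHenselExit.locAt S y hy := by
  letI := algLoc F y
  haveI := isScalarTower_algLoc F y
  rw [locAt_eq_locSubring]
  apply le_antisymm
  · rintro _ ⟨a, rfl⟩
    exact algebraMap_loc_mem y a
  · rintro x ⟨a, b, hb, e⟩
    refine ⟨IsLocalization.mk' (Localization.AtPrime y) a (⟨b, hb⟩ : y.primeCompl), ?_⟩
    have hb0 : algebraMap (integralClosure S F) F b ≠ 0 :=
      (map_ne_zero_iff _ (IsFractionRing.injective (integralClosure S F) F)).mpr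
        (fun h0 => hb (h0 ▸ y.zero_mem))
    have h2 := congrArg (algebraMap (Localization.AtPrime y) F)
      (IsLocalization.mk'_spec (Localization.AtPrime y) a (⟨b, hb⟩ : y.primeCompl))
    rw [map_mul, ← IsScalarTower.algebraMap_apply, ← IsScalarTower.algebraMap_apply] at h2
    exact mul_right_cancel₀ hb0 (h2.trans e.symm)

/-- **The block at a crossing point of a chart.**  `y` a prime of the chart ring, `P₁`, `P₂`
vertical primes inside `y` with `P₁ = (t₁)`, `P₂ = (t₂)` locally at `y`, `t₁ t₂ = ϖ g`, `g ∉ y`,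
`t₁ ∉ P₂`, `y = (t₁, t₂)` locally at `y`; the generic rings are `locSubring P₁`,
`locSubring P₂`. -/
theorem nodeBlockI_of_chart (hinj : Function.Injective (algebraMap O F)) (p : ℕ) (ϖ : O)
    (hϖ0 : ϖ ≠ 0) (Hor : F → Prop)
    (hHor : ∀ f : F, Hor f → HorIdeal p ϖ (integralClosure S F) f)
    (y : Ideal (integralClosure S F)) (hy : y.IsPrime)
    (P₁ P₂ : Ideal (integralClosure S F)) [P₁.IsPrime] [P₂.IsPrime] (hP₁ : P₁ ≤ y)
    (hP₂ : P₂ ≤ y) (t₁ t₂ g : integralClosure S F) (hg : g ∉ y)
    (hmul : t₁ * t₂ = algebraMap O (integralClosure S F) ϖ * g)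
    (ht₁ : t₁ ∈ P₁ ∧ ∀ x ∈ P₁, ∃ s, s ∉ y ∧ s * x ∈ Ideal.span {t₁})
    (ht₂ : t₂ ∈ P₂ ∧ ∀ x ∈ P₂, ∃ s, s ∉ y ∧ s * x ∈ Ideal.span {t₂})
    (hne : t₁ ∉ P₂) (hm : ∀ m ∈ y, ∃ s, s ∉ y ∧ s * m ∈ Ideal.span {t₁, t₂})
    {V₁ V₂ : Subring F} (hV₁ : V₁ = locSubring P₁) (hV₂ : V₂ = locSubring P₂) :
    NodeBlockI p ϖ Hor (DepthHenselExit.locAt S y hy) V₁ V₂ := by
  haveI := hy
  letI := algLoc F y
  haveI hST := isScalarTower_algLoc F y
  haveI hFR := isFractionRing_algLoc F y
  haveI hN : IsNoetherianRing (Localization.AtPrime y) :=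
    NodeLoc.isNoetherianRing_localization y
  haveI hSTO : IsScalarTower O (Localization.AtPrime y) F :=
    IsScalarTower.of_algebraMap_eq fun x => by
      rw [IsScalarTower.algebraMap_apply O (integralClosure S F) F,
        IsScalarTower.algebraMap_apply (integralClosure S F) (Localization.AtPrime y) F,
        ← IsScalarTower.algebraMap_apply O (integralClosure S F) (Localization.AtPrime y)]
  have hϖC : algebraMap O (integralClosure S F) ϖ ≠ 0 := fun h0 => hϖ0 (hinj (by
    rw [IsScalarTower.algebraMap_apply O (integralClosure S F) F, h0, map_zero, map_zero]))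
  obtain ⟨hs, ht, hna, hmax, hass⟩ := NodeLoc.node_localization y P₁ P₂ hP₁ hP₂
    (algebraMap O (integralClosure S F) ϖ) t₁ t₂ g hϖC hg hmul ht₁.1 ht₁.2 ht₂.1 ht₂.2 hne hm
  rw [← IsScalarTower.algebraMap_apply O (integralClosure S F) (Localization.AtPrime y)] at hass
  have hB₁ : IsBranch (algebraMap (integralClosure S F) (Localization.AtPrime y) t₁) V₁ :=
    hV₁ ▸ isBranch_locSubring y P₁ hP₁ t₁ ht₁.1 ht₁.2
  have hB₂ : IsBranch (algebraMap (integralClosure S F) (Localization.AtPrime y) t₂) V₂ :=
    hV₂ ▸ isBranch_locSubring y P₂ hP₂ t₂ ht₂.1 ht₂.2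
  have hH : ∀ f : F, Hor f → HorIdeal p ϖ (Localization.AtPrime y) f := fun f hf =>
    (hHor f hf).map (algebraMap (integralClosure S F) (Localization.AtPrime y))
      (IsScalarTower.algebraMap_apply O (integralClosure S F) (Localization.AtPrime y) ϖ).symm
      (RingHom.id F)
      (fun a => IsScalarTower.algebraMap_apply (integralClosure S F) (Localization.AtPrime y) F a)
  exact ⟨Localization.AtPrime y, inferInstance, inferInstance, inferInstance, hN, inferInstance,
    algLoc F y, hFR, hSTO, range_algLoc S y, hH, _, _, hs, ht, hna, hmax, hass, hB₁, hB₂⟩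

/-- **The block at a point of a chart on one component only**, the maximal ideal given in the
local ring: `P = (ϖ)` locally at `y` and `𝔪 = (ϖ, θ)` in `Localization.AtPrime y`; the generic
ring is `locSubring P`. -/
theorem smoothBlockI_of_chart' (hinj : Function.Injective (algebraMap O F)) (p : ℕ) (ϖ : O)
    (hϖ0 : ϖ ≠ 0) (Hor : F → Prop)
    (hHor : ∀ f : F, Hor f → HorIdeal p ϖ (integralClosure S F) f)
    (y : Ideal (integralClosure S F)) (hy : y.IsPrime)
    (P : Ideal (integralClosure S F)) [P.IsPrime] (hP : P ≤ y)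
    (hprin : algebraMap O (integralClosure S F) ϖ ∈ P ∧
      ∀ x ∈ P, ∃ s, s ∉ y ∧ s * x ∈ Ideal.span {algebraMap O (integralClosure S F) ϖ})
    (hmax : haveI := hy
      ∃ θ : Localization.AtPrime y, maximalIdeal (Localization.AtPrime y) =
        Ideal.span {algebraMap O (Localization.AtPrime y) ϖ, θ})
    {V₁ : Subring F} (hV₁ : V₁ = locSubring P) :
    SmoothBlockI p ϖ Hor (DepthHenselExit.locAt S y hy) V₁ := by
  haveI := hy
  letI := algLoc F y
  haveI hST := isScalarTower_algLoc F y
  haveI hFR := isFractionRing_algLoc F y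
  haveI hN : IsNoetherianRing (Localization.AtPrime y) :=
    NodeLoc.isNoetherianRing_localization y
  haveI hSTO : IsScalarTower O (Localization.AtPrime y) F :=
    IsScalarTower.of_algebraMap_eq fun x => by
      rw [IsScalarTower.algebraMap_apply O (integralClosure S F) F,
        IsScalarTower.algebraMap_apply (integralClosure S F) (Localization.AtPrime y) F,
        ← IsScalarTower.algebraMap_apply O (integralClosure S F) (Localization.AtPrime y)]
  have hϖC : algebraMap O (integralClosure S F) ϖ ≠ 0 := fun h0 => hϖ0 (hinj (by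
    rw [IsScalarTower.algebraMap_apply O (integralClosure S F) F, h0, map_zero, map_zero]))
  have hprime := NodeLoc.prime_algebraMap y P hP (algebraMap O (integralClosure S F) ϖ) hϖC
    hprin.1 hprin.2
  have hB : IsBranch (algebraMap (integralClosure S F) (Localization.AtPrime y)
      (algebraMap O (integralClosure S F) ϖ)) V₁ :=
    hV₁ ▸ isBranch_locSubring y P hP _ hprin.1 hprin.2
  rw [← IsScalarTower.algebraMap_apply O (integralClosure S F) (Localization.AtPrime y)]
    at hprime hB
  have hH : ∀ f : F, Hor f → HorIdeal p ϖ (Localization.AtPrime y) f := fun f hf =>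
    (hHor f hf).map (algebraMap (integralClosure S F) (Localization.AtPrime y))
      (IsScalarTower.algebraMap_apply O (integralClosure S F) (Localization.AtPrime y) ϖ).symm
      (RingHom.id F)
      (fun a => IsScalarTower.algebraMap_apply (integralClosure S F) (Localization.AtPrime y) F a)
  obtain ⟨θ, hθ⟩ := hmax
  exact ⟨Localization.AtPrime y, inferInstance, inferInstance, inferInstance, hN, inferInstance,
    algLoc F y, hFR, hSTO, range_algLoc S y, hH, hprime, θ, hθ, hB⟩

/-- **The block at a point of a chart on one component only**: `P = (ϖ)` and `y = (ϖ, z)`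
locally at `y`; the generic ring is `locSubring P`. -/
theorem smoothBlockI_of_chart (hinj : Function.Injective (algebraMap O F)) (p : ℕ) (ϖ : O)
    (hϖ0 : ϖ ≠ 0) (Hor : F → Prop)
    (hHor : ∀ f : F, Hor f → HorIdeal p ϖ (integralClosure S F) f)
    (y : Ideal (integralClosure S F)) (hy : y.IsPrime)
    (P : Ideal (integralClosure S F)) [P.IsPrime] (hP : P ≤ y)
    (hprin : algebraMap O (integralClosure S F) ϖ ∈ P ∧
      ∀ x ∈ P, ∃ s, s ∉ y ∧ s * x ∈ Ideal.span {algebraMap O (integralClosure S F) ϖ})
    (z : integralClosure S F) (hz : z ∈ y)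
    (hm : ∀ m ∈ y, ∃ s, s ∉ y ∧
      s * m ∈ Ideal.span {algebraMap O (integralClosure S F) ϖ, z})
    {V₁ : Subring F} (hV₁ : V₁ = locSubring P) :
    SmoothBlockI p ϖ Hor (DepthHenselExit.locAt S y hy) V₁ := by
  haveI := hy
  have hϖC : algebraMap O (integralClosure S F) ϖ ≠ 0 := fun h0 => hϖ0 (hinj (by
    rw [IsScalarTower.algebraMap_apply O (integralClosure S F) F, h0, map_zero, map_zero]))
  have hmax := (NodeLoc.smooth_localization y P hP (algebraMap O (integralClosure S F) ϖ) hϖC
    hprin.1 hprin.2 z hz hm).2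
  rw [← IsScalarTower.algebraMap_apply O (integralClosure S F) (Localization.AtPrime y)] at hmax
  exact smoothBlockI_of_chart' S hinj p ϖ hϖ0 Hor hHor y hy P hP hprin ⟨_, hmax⟩ hV₁

end Blocks

end Fermat.Agent.S33.Geo.ModelChart
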