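import Mathlib
import Fermat.Agent.S34.TwoPrimesGauss
import Fermat.Agent.S33.Geo.GaussConst
import Fermat.Agent.S33.Geo.ModelChart

/-!
# S33 / GEO / Stage B (row B3): the Gauss ring of a component is the local ring of a chart at
the kernel of the reduction; the smooth block at a point on one component

Level-free (Mathlib + `S34/TwoPrimesGauss` + `S33/Geo/GaussConst` + `S33/Geo/ModelChart`).

Binder block of `S34/TwoPrimesGauss`, section `Chart`: `O` a discrete valuation ring with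
uniformiser `ϖ`, `σ : L →+* E((q))` a `q`-expansion embedding of the function field `L`,
`u : L` a chart coordinate with integral `q`-expansion, `C = Chart O u`,
`r = redHom σ .. : C →+* κ((q))` the reduction of the chart on the Gauss component of `σ`,
`V = GaussConst.VG O σ` the Gauss ring of `σ` inside `L`.

* `memPi_iff_redHom_eq_zero`, `cen_iff_ker_le` : on the chart, `ϖ V ∩ C = ker r`; the centre of
  `V` on the chart lies in an ideal `𝔪` iff `ker r ≤ 𝔪` (the `ChartPoints.ptOn` clause).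
* `exists_frac_redHom_ne_zero`, `vg_eq_locSubring` : given a separator `t₀` (`r t₀ ≠ 0`,
  `(ker r) t₀ ⊆ ϖ C`), `V = C_{ker r}` (`TopChart.locSubring (ker r)`).
* `smoothBlockI_gauss` : the block `Model.SmoothBlockI` at a prime `y ⊇ ker r` of the chart
  where `ker r = (ϖ)` and `y = (ϖ, z)` locally at `y`, with generic ring `V`.

Binder block of `S34/TwoPrimesGauss`, section `Package` (two components `∞`: `σ`, and `0`:
`σ ∘ w`; `rI = redInf ..`, `rZ = redZero ..` on `C = Chart O (α u')`):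

* `vg_inf_eq_locSubring`, `vg_zero_eq_locSubring` : `VG O σ = C_{ker rI}`,
  `VG O (σ ∘ w) = C_{ker rZ}` (the hypotheses `hV₁`, `hV₂` of `ModelChart.nodeBlockI_of_chart`
  and `hV₁` of `ModelChart.smoothBlockI_of_chart`).
* `cen_inf_iff`, `cen_zero_iff` : centre ⟺ kernel for the two components.
* `block_inf`, `block_zero` : at a prime `y` of the chart on exactly one component, which is
  `(ϖ)` locally at `y`, with `y = (ϖ, z)` locally at `y` (the conclusions of
  `S44/L/NodeC1.smooth_inf_of_unram` / `smooth_zero_of_unram` and of `NodeC1InstInf.cusp_s4`):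
  the `ptOn` clause `centre of V W ⊆ y ⟺ W = W₁` and the block `SmoothBlockI` with generic
  ring `V W₁`, for any `V : Bool → Subring L` with `V true = VG O σ`, `V false = VG O (σ ∘ w)`.
-/

set_option autoImplicit false
set_option linter.unusedSectionVars false
set_option linter.unusedVariables false
set_option linter.style.haveILetI false

noncomputable section

namespace Fermat.Agent.S33.Geo.GaussBlock

open ModularCurve Polynomial
open Fermat.Agent.S30 Fermat.Agent.S34.TwoPrimesGauss Fermat.Agent.S33.Geo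
open Fermat.Agent.S33.Geo.Top Fermat.Agent.S33.Geo.TopChart Fermat.Agent.S33.Geo.Model

/-! ### One component -/

section Chart

variable {O E : Type*} [CommRing O] [IsDomain O] [IsDiscreteValuationRing O] [Field E]
  [Algebra O E] [FaithfulSMul O E] {L : Type*} [Field L] [Algebra O L]
  (σ : L →+* LaurentSeries E)
  (hσO : ∀ r : O, σ (algebraMap O L r) = HahnSeries.C (algebraMap O E r))
  (ϖ : O) (hϖ : Irreducible ϖ) (hσfrac : ∀ x : L, σ x ∈ GaussDVR.fracField O E)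
  (u : L) (U : LaurentSeries O) (hσu : σ u = GaussDVR.iota O E U)

local notation "rH" => redHom σ hσO ϖ hϖ hσfrac u U hσu
local notation "tV" => toV σ hσO ϖ hϖ hσfrac u U hσu

/-- **On a chart, `ϖ V ∩ C` is the kernel of the chart reduction.** -/
theorem memPi_iff_redHom_eq_zero (c : Chart O u) :
    MemPi (GaussConst.VG O σ) ϖ (c : L) ↔ rH c = 0 := by
  constructor
  · intro h
    exact GaussConst.redHom_eq_zero_of_memPi σ hσO ϖ hϖ hσfrac u U hσu (c : L) c 1
      (by rw [map_one, mul_one]; rfl) h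
  · intro h
    exact GaussConst.memPi_of_redG_eq_zero σ hσO ϖ hϖ
      ⟨(c : L), GaussConst.chart_mem_VG σ hσO ϖ hϖ hσfrac u U hσu c⟩ h

/-- **Centre ⟺ kernel**: the centre of the Gauss ring `V` on the chart lies in the ideal `𝔪`
iff the kernel of the chart reduction does. -/
theorem cen_iff_ker_le (𝔪 : Ideal (Chart O u)) :
    (∀ b : Chart O u, MemPi (GaussConst.VG O σ) ϖ (b : L) → b ∈ 𝔪) ↔ RingHom.ker rH ≤ 𝔪 :=
  ⟨fun h b hb => h b ((memPi_iff_redHom_eq_zero σ hσO ϖ hϖ hσfrac u U hσu b).mpr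
      (RingHom.mem_ker.mp hb)),
    fun h b hb => h (RingHom.mem_ker.mpr
      ((memPi_iff_redHom_eq_zero σ hσO ϖ hϖ hσfrac u U hσu b).mp hb))⟩

/-- The image of `ϖ` in the Gauss ring is the uniformiser. -/
theorem toV_piC : tV (piC u ϖ) = GaussDVR.unif E ϖ := by
  apply Subtype.ext
  rw [GaussDVR.coe_unif]
  exact hσO ϖ

/-- Compatibility of the reductions with a fraction `x = c / s`. -/
theorem red_mul_redHom (x : L) (hx : σ x ∈ GaussDVR.V O E) (c s : Chart O u)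
    (hxs : x * (s : L) = (c : L)) :
    GaussDVR.red O E ⟨σ x, hx⟩ * rH s = rH c := by
  have h : tV c = ⟨σ x, hx⟩ * tV s := by
    apply Subtype.ext
    show σ (c : L) = σ x * σ (s : L)
    rw [← hxs, map_mul]
  show GaussDVR.red O E ⟨σ x, hx⟩ * GaussDVR.red O E (tV s) = GaussDVR.red O E (tV c)
  rw [h, map_mul]

/-- A chart element with nonzero reduction has nonzero `q`-expansion. -/
theorem sigma_ne_zero_of_redHom_ne_zero (t : Chart O u) (ht : rH t ≠ 0) : σ (t : L) ≠ 0 := by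
  intro h0
  apply ht
  have h1 : tV t = 0 := Subtype.ext h0
  show GaussDVR.red O E (tV t) = 0
  rw [h1, map_zero]

/-- A chart element with nonzero reduction is a unit of the Gauss ring. -/
theorem isUnit_toV (t : Chart O u) (ht : rH t ≠ 0) : IsUnit (tV t) := by
  have ht' : GaussDVR.red O E (tV t) ≠ 0 := ht
  have h0 : ((tV t : GaussDVR.V O E) : LaurentSeries E) ≠ 0 :=
    sigma_ne_zero_of_redHom_ne_zero σ hσO ϖ hϖ hσfrac u U hσu t ht
  refine IsUnit.of_mul_eq_one (⟨((tV t : GaussDVR.V O E) : LaurentSeries E)⁻¹,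
    GaussDVR.inv_mem O E (tV t) ht'⟩ : GaussDVR.V O E) ?_
  apply Subtype.ext
  show ((tV t : GaussDVR.V O E) : LaurentSeries E) *
    ((tV t : GaussDVR.V O E) : LaurentSeries E)⁻¹ = 1
  exact mul_inv_cancel₀ h0

include hσO hϖ hσfrac in
/-- **Every element of the Gauss ring is a fraction of chart elements with denominator off the
kernel of the reduction**, given a separator `t₀`: `r t₀ ≠ 0` and `(ker r) t₀ ⊆ ϖ C`. -/
theorem exists_frac_redHom_ne_zero [IsFractionRing (Chart O u) L]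
    (t₀ : Chart O u) (ht₀ : rH t₀ ≠ 0)
    (hdiv : ∀ c : Chart O u, rH c = 0 → piC u ϖ ∣ c * t₀)
    (x : L) (hx : σ x ∈ GaussDVR.V O E) :
    ∃ c s : Chart O u, rH s ≠ 0 ∧ x * (s : L) = (c : L) := by
  have ht₀0 : t₀ ≠ 0 := fun h => ht₀ (by rw [h, map_zero])
  have hunit : IsUnit (tV t₀) := isUnit_toV σ hσO ϖ hϖ hσfrac u U hσu t₀ ht₀
  obtain ⟨tinv, htinv⟩ := hunit.exists_right_inv
  have hπL : algebraMap O L ϖ ≠ 0 := by
    intro h0
    have h1 := hσO ϖ
    rw [h0, map_zero] at h1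
    have h2 : algebraMap O E ϖ = 0 := by
      by_contra hne
      exact HahnSeries.C_ne_zero hne h1.symm
    exact hϖ.ne_zero (FaithfulSMul.algebraMap_injective O E (by rw [h2, map_zero]))
  have key : ∀ k : ℕ, ∀ c s : Chart O u, s ≠ 0 → x * (s : L) = (c : L) →
      ¬ GaussDVR.unif E ϖ ^ k ∣ tV s →
      ∃ c' s' : Chart O u, rH s' ≠ 0 ∧ x * (s' : L) = (c' : L) := by
    intro k
    induction k with
    | zero =>
      intro c s _ _ hk
      exact absurd (by rw [pow_zero]; exact one_dvd _) hk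
    | succ k ih =>
      intro c s hs hxs hk
      by_cases hsI : rH s = 0
      · have hcI : rH c = 0 := by
          rw [← red_mul_redHom σ hσO ϖ hϖ hσfrac u U hσu x hx c s hxs, hsI, mul_zero]
        obtain ⟨s₁, hs₁⟩ := hdiv s hsI
        obtain ⟨c₁, hc₁⟩ := hdiv c hcI
        have hs₁0 : s₁ ≠ 0 := by
          rintro rfl
          rw [mul_zero] at hs₁
          exact (mul_ne_zero hs ht₀0) hs₁
        have e1 : (s : L) * (t₀ : L) = algebraMap O L ϖ * (s₁ : L) :=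
          congrArg (fun z : Chart O u => (z : L)) hs₁
        have e2 : (c : L) * (t₀ : L) = algebraMap O L ϖ * (c₁ : L) :=
          congrArg (fun z : Chart O u => (z : L)) hc₁
        have hxs₁ : x * (s₁ : L) = (c₁ : L) := by
          apply mul_left_cancel₀ hπL
          calc algebraMap O L ϖ * (x * (s₁ : L)) = x * (algebraMap O L ϖ * (s₁ : L)) := by ring
            _ = x * ((s : L) * (t₀ : L)) := by rw [e1]
            _ = (c : L) * (t₀ : L) := by rw [← mul_assoc, hxs]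
            _ = algebraMap O L ϖ * (c₁ : L) := e2
        refine ih c₁ s₁ hs₁0 hxs₁ ?_
        intro hdvd
        apply hk
        have e3 : tV s * tV t₀ = GaussDVR.unif E ϖ * tV s₁ := by
          rw [← map_mul, hs₁, map_mul, toV_piC σ hσO ϖ hϖ hσfrac u U hσu]
        obtain ⟨v, hv⟩ := hdvd
        refine ⟨v * tinv, ?_⟩
        calc tV s = tV s * (tV t₀ * tinv) := by rw [htinv, mul_one]
          _ = (tV s * tV t₀) * tinv := by ring
          _ = GaussDVR.unif E ϖ * (GaussDVR.unif E ϖ ^ k * v) * tinv := by rw [e3, hv]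
          _ = GaussDVR.unif E ϖ ^ (k + 1) * (v * tinv) := by ring
      · exact ⟨c, s, hsI, hxs⟩
  obtain ⟨⟨c₀, s₀⟩, h₀⟩ := IsLocalization.surj (nonZeroDivisors (Chart O u)) x
  have hs₀ : (s₀ : Chart O u) ≠ 0 := nonZeroDivisors.ne_zero s₀.2
  have hts₀ : tV (s₀ : Chart O u) ≠ 0 := by
    intro h0
    apply hs₀
    apply Subtype.ext
    have h1 : σ ((s₀ : Chart O u) : L) = 0 :=
      congrArg (fun v : GaussDVR.V O E => (v : LaurentSeries E)) h0
    exact (map_eq_zero_iff _ σ.injective).mp h1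
  obtain ⟨n, hn⟩ := GaussDVR.exists_not_pow_dvd E ϖ hϖ _ hts₀
  exact key n c₀ s₀ hs₀ h₀ hn

include hσO hϖ hσfrac in
/-- **The Gauss ring of a component is the local ring of the chart at the kernel of the
reduction**, given a separator `t₀`: `r t₀ ≠ 0` and `(ker r) t₀ ⊆ ϖ C`. -/
theorem vg_eq_locSubring [IsFractionRing (Chart O u) L] [hP : (RingHom.ker rH).IsPrime]
    (t₀ : Chart O u) (ht₀ : rH t₀ ≠ 0)
    (hdiv : ∀ c : Chart O u, rH c = 0 → piC u ϖ ∣ c * t₀) :
    GaussConst.VG O σ = locSubring (F := L) (RingHom.ker rH) := by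
  ext x
  constructor
  · intro hx
    obtain ⟨c, s, hs, hxs⟩ :=
      exists_frac_redHom_ne_zero σ hσO ϖ hϖ hσfrac u U hσu t₀ ht₀ hdiv x hx
    exact ⟨c, s, fun h => hs (RingHom.mem_ker.mp h), hxs⟩
  · rintro ⟨a, b, hb, e⟩
    have hb' : rH b ≠ 0 := fun h => hb (RingHom.mem_ker.mpr h)
    have hinv : (σ (b : L))⁻¹ ∈ GaussDVR.V O E := GaussDVR.inv_mem O E (tV b) hb'
    have hb0 : σ (b : L) ≠ 0 := sigma_ne_zero_of_redHom_ne_zero σ hσO ϖ hϖ hσfrac u U hσu b hb'
    have e' : σ x * σ (b : L) = σ (a : L) := by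
      rw [← map_mul]
      exact congrArg σ e
    have h1 : σ x = σ (a : L) * (σ (b : L))⁻¹ := by
      rw [← e', mul_assoc, mul_inv_cancel₀ hb0, mul_one]
    show σ x ∈ GaussDVR.V O E
    rw [h1]
    exact (GaussDVR.V O E).mul_mem (tV a).2 hinv

include hσO hϖ hσfrac in
/-- **The smooth block at a point of a chart on the Gauss component of `σ`.**  `y` a prime of
the chart containing `ker r`, where `ker r = (ϖ)` and `y = (ϖ, z)` locally at `y`; a separator
`t₀` as in `vg_eq_locSubring`.  The local ring is `DepthHenselExit.locAt` of the chart at `y`,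
the generic ring is the Gauss ring `VG O σ`. -/
theorem smoothBlockI_gauss [IsNoetherianRing (Chart O u)] [IsFractionRing (Chart O u) L]
    (hinj : Function.Injective (algebraMap O L)) (p : ℕ) (Hor : L → Prop)
    (hHor : ∀ f : L, Hor f → HorIdeal p ϖ (Chart O u) f)
    (t₀ : Chart O u) (ht₀ : rH t₀ ≠ 0)
    (hdiv : ∀ c : Chart O u, rH c = 0 → piC u ϖ ∣ c * t₀)
    (y : Ideal (Chart O u)) (hy : y.IsPrime) (hk : RingHom.ker rH ≤ y)
    (hprin : piC u ϖ ∈ RingHom.ker rH ∧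
      ∀ x ∈ RingHom.ker rH, ∃ s, s ∉ y ∧ s * x ∈ Ideal.span {piC u ϖ})
    (hreg : ∃ z ∈ y, ∀ m ∈ y, ∃ s, s ∉ y ∧ s * m ∈ Ideal.span {piC u ϖ, z}) :
    SmoothBlockI p ϖ Hor
      (Fermat.Agent.S44.L.DepthHenselExit.locAt (Algebra.adjoin O ({u} : Set L)) y hy)
      (GaussConst.VG O σ) := by
  haveI hP : (RingHom.ker rH).IsPrime := RingHom.ker_isPrime _
  have hpi : algebraMap O (Chart O u) ϖ = piC u ϖ := Subtype.ext rfl
  obtain ⟨z, hz, hm⟩ := hreg
  refine ModelChart.smoothBlockI_of_chart (Algebra.adjoin O ({u} : Set L)) hinj p ϖ hϖ.ne_zero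
    Hor hHor y hy (RingHom.ker rH) hk ?_ z hz ?_
    (vg_eq_locSubring σ hσO ϖ hϖ hσfrac u U hσu t₀ ht₀ hdiv)
  · rw [hpi]
    exact hprin
  · rw [hpi]
    exact hm

end Chart

/-! ### Two components -/

section Package

variable {O E : Type*} [CommRing O] [IsDomain O] [IsDiscreteValuationRing O] [Field E]
  [Algebra O E] [FaithfulSMul O E]
  {L' L : Type*} [Field L'] [Field L] [Algebra O L'] [Algebra O L]
  (ϖ : O) (hϖ : Irreducible ϖ)
  (α : L' →+* L) (hαO : ∀ r : O, α (algebraMap O L' r) = algebraMap O L r)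
  (σ : L →+* LaurentSeries E)
  (hσO : ∀ r : O, σ (algebraMap O L r) = HahnSeries.C (algebraMap O E r))
  (hσfrac : ∀ x : L, σ x ∈ GaussDVR.fracField O E)
  (u' : L') (U : LaurentSeries O) (hσu : σ (α u') = GaussDVR.iota O E U)
  (w : L ≃+* L) (hwO : ∀ r : O, w (algebraMap O L r) = algebraMap O L r)
  (ℓ : ℕ) [NeZero ℓ]
  (hwα : ∀ x : L', σ (w (α x)) = qExpand E ℓ (σ (α x)))
  (hww : ∀ z : L, w (w z) = z)
  (hprime : Prime (piC u' ϖ))
  (hcop : IsCoprime (GaussDVR.rho O U).order (ℓ : ℤ)) (hord : (GaussDVR.rho O U).order ≠ 0)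
  (hℓ : 2 ≤ ℓ)
  (hfrob : qExpand (IsLocalRing.ResidueField O) ℓ (GaussDVR.rho O U) = GaussDVR.rho O U ^ ℓ)
  (hwu : IsIntegral (Algebra.adjoin O {α u'}) (w (α u')))
  (hrank : ∀ v : Option (Fin 1 ⊕ Fin ℓ) → Chart O (α u'),
    ∃ c : Option (Fin 1 ⊕ Fin ℓ) → Chart O u', c ≠ 0 ∧ ∑ i, incl α hαO u' (c i) * v i = 0)

local notation "rI" => redInf ϖ hϖ α σ hσO hσfrac u' U hσu
local notation "rZ" => redZero ϖ hϖ α σ hσO hσfrac u' U hσu w hwO ℓ hwα

/-- Centre ⟺ kernel on the `∞`-component. -/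
theorem cen_inf_iff (𝔪 : Ideal (Chart O (α u'))) :
    (∀ b : Chart O (α u'), MemPi (GaussConst.VG O σ) ϖ (b : L) → b ∈ 𝔪) ↔
      RingHom.ker rI ≤ 𝔪 :=
  cen_iff_ker_le σ hσO ϖ hϖ hσfrac (α u') U hσu 𝔪

/-- Centre ⟺ kernel on the `0`-component. -/
theorem cen_zero_iff (𝔪 : Ideal (Chart O (α u'))) :
    (∀ b : Chart O (α u'),
        MemPi (GaussConst.VG O (σ.comp (w : L →+* L))) ϖ (b : L) → b ∈ 𝔪) ↔
      RingHom.ker rZ ≤ 𝔪 :=
  cen_iff_ker_le (σ.comp (w : L →+* L)) (sigmaW_O σ hσO w hwO) ϖ hϖ (fun x => hσfrac (w x))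
    (α u') (qExpand O ℓ U) (sigmaW_u α σ u' U hσu w ℓ hwα) 𝔪

include hϖ hαO hσO hσfrac hσu hwO hwα hww hprime hcop hord hℓ hfrob hwu hrank in
/-- A separator for the `∞`-component: `rI t₀ ≠ 0` and `(ker rI) t₀ ⊆ ϖ C`. -/
theorem exists_sep_inf_dvd :
    ∃ t₀ : Chart O (α u'), rI t₀ ≠ 0 ∧ ∀ c : Chart O (α u'), rI c = 0 → piC (α u') ϖ ∣ c * t₀ := by
  obtain ⟨t₀, ht₀Z, ht₀I⟩ := exists_sep_zero ϖ hϖ α hαO σ hσO hσfrac u' U hσu w hwO ℓ hwα hww
    hprime hcop hord hℓ hfrob hwu hrank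
  refine ⟨t₀, ht₀I, fun c hc => ?_⟩
  have hI : rI (c * t₀) = 0 := by rw [map_mul, hc, zero_mul]
  have hZ : rZ (c * t₀) = 0 := by rw [map_mul, ht₀Z, mul_zero]
  exact dvd_of_redInf_redZero ϖ hϖ α hαO σ hσO hσfrac u' U hσu w hwO ℓ hwα hww hprime hcop
    hord hℓ hfrob hwu hrank (c * t₀) hI hZ

include hϖ hαO hσO hσfrac hσu hwO hwα hww hprime hcop hord hℓ hfrob hwu hrank in
/-- A separator for the `0`-component: `rZ t₀ ≠ 0` and `(ker rZ) t₀ ⊆ ϖ C`. -/
theorem exists_sep_zero_dvd :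
    ∃ t₀ : Chart O (α u'), rZ t₀ ≠ 0 ∧ ∀ c : Chart O (α u'), rZ c = 0 → piC (α u') ϖ ∣ c * t₀ := by
  obtain ⟨t₀, ht₀I, ht₀Z⟩ := exists_sep_inf ϖ hϖ α hαO σ hσO hσfrac u' U hσu w hwO ℓ hwα hww
    hprime hcop hord hℓ hfrob hwu hrank
  refine ⟨t₀, ht₀Z, fun c hc => ?_⟩
  have hI : rI (c * t₀) = 0 := by rw [map_mul, ht₀I, mul_zero]
  have hZ : rZ (c * t₀) = 0 := by rw [map_mul, hc, zero_mul]
  exact dvd_of_redInf_redZero ϖ hϖ α hαO σ hσO hσfrac u' U hσu w hwO ℓ hwα hww hprime hcop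
    hord hℓ hfrob hwu hrank (c * t₀) hI hZ

include hϖ hαO hσO hσfrac hσu hwO hwα hww hprime hcop hord hℓ hfrob hwu hrank in
/-- **`V∞ = C_{p_∞}`**: the Gauss ring of `σ` is the local ring of the chart at `ker rI`. -/
theorem vg_inf_eq_locSubring [IsFractionRing (Chart O (α u')) L]
    [hP : (RingHom.ker rI).IsPrime] :
    GaussConst.VG O σ = locSubring (F := L) (RingHom.ker rI) := by
  obtain ⟨t₀, ht₀, hdiv⟩ := exists_sep_inf_dvd ϖ hϖ α hαO σ hσO hσfrac u' U hσu w hwO ℓ hwα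
    hww hprime hcop hord hℓ hfrob hwu hrank
  haveI : (RingHom.ker (redHom σ hσO ϖ hϖ hσfrac (α u') U hσu)).IsPrime := hP
  exact vg_eq_locSubring σ hσO ϖ hϖ hσfrac (α u') U hσu t₀ ht₀ hdiv

include hϖ hαO hσO hσfrac hσu hwO hwα hww hprime hcop hord hℓ hfrob hwu hrank in
/-- **`V0 = C_{p_0}`**: the Gauss ring of `σ ∘ w` is the local ring of the chart at `ker rZ`. -/
theorem vg_zero_eq_locSubring [IsFractionRing (Chart O (α u')) L]
    [hP : (RingHom.ker rZ).IsPrime] :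
    GaussConst.VG O (σ.comp (w : L →+* L)) = locSubring (F := L) (RingHom.ker rZ) := by
  obtain ⟨t₀, ht₀, hdiv⟩ := exists_sep_zero_dvd ϖ hϖ α hαO σ hσO hσfrac u' U hσu w hwO ℓ hwα
    hww hprime hcop hord hℓ hfrob hwu hrank
  haveI : (RingHom.ker (redHom (σ.comp (w : L →+* L)) (sigmaW_O σ hσO w hwO) ϖ hϖ
      (fun x => hσfrac (w x)) (α u') (qExpand O ℓ U) (sigmaW_u α σ u' U hσu w ℓ hwα))).IsPrime :=
    hP
  exact vg_eq_locSubring (σ.comp (w : L →+* L)) (sigmaW_O σ hσO w hwO) ϖ hϖ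
    (fun x => hσfrac (w x)) (α u') (qExpand O ℓ U) (sigmaW_u α σ u' U hσu w ℓ hwα) t₀ ht₀ hdiv

include hϖ hαO hσO hσfrac hσu hwO hwα hww hprime hcop hord hℓ hfrob hwu hrank in
/-- **The block at a point of the chart on the `∞`-component only.**  `y` a prime of
`C = Chart O (α u')` with `p_∞ ⊆ y`, `p_0 ⊄ y`, `p_∞ = (ϖ)` and `y = (ϖ, z)` locally at `y`:
the centre of `V W` lies in `y` iff `W = true`, and `y` carries a smooth block with generic
ring `V true = V∞`. -/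
theorem block_inf [IsNoetherianRing (Chart O (α u'))] [IsFractionRing (Chart O (α u')) L]
    (hinj : Function.Injective (algebraMap O L)) (p : ℕ) (Hor : L → Prop)
    (hHor : ∀ f : L, Hor f → HorIdeal p ϖ (Chart O (α u')) f)
    (V : Bool → Subring L) (hVt : V true = GaussConst.VG O σ)
    (hVf : V false = GaussConst.VG O (σ.comp (w : L →+* L)))
    (y : Ideal (Chart O (α u'))) (hy : y.IsPrime)
    (hI : RingHom.ker rI ≤ y) (hZ : ¬ RingHom.ker rZ ≤ y)
    (hprin : piC (α u') ϖ ∈ RingHom.ker rI ∧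
      ∀ x ∈ RingHom.ker rI, ∃ s, s ∉ y ∧ s * x ∈ Ideal.span {piC (α u') ϖ})
    (hreg : ∃ z ∈ y, ∀ m ∈ y, ∃ s, s ∉ y ∧ s * m ∈ Ideal.span {piC (α u') ϖ, z}) :
    (∀ W, (∀ b : Chart O (α u'), MemPi (V W) ϖ (b : L) → b ∈ y) ↔ W = true) ∧
      SmoothBlockI p ϖ Hor
        (Fermat.Agent.S44.L.DepthHenselExit.locAt (Algebra.adjoin O ({α u'} : Set L)) y hy)
        (V true) := by
  have hcI := cen_inf_iff ϖ hϖ α σ hσO hσfrac u' U hσu y
  have hcZ := cen_zero_iff ϖ hϖ α σ hσO hσfrac u' U hσu w hwO ℓ hwα y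
  refine ⟨fun W => ?_, ?_⟩
  · cases W
    · rw [hVf]
      exact ⟨fun h => absurd (hcZ.mp h) hZ, fun h => Bool.noConfusion h⟩
    · rw [hVt]
      exact ⟨fun _ => rfl, fun _ => hcI.mpr hI⟩
  · rw [hVt]
    obtain ⟨t₀, ht₀, hdiv⟩ := exists_sep_inf_dvd ϖ hϖ α hαO σ hσO hσfrac u' U hσu w hwO ℓ hwα
      hww hprime hcop hord hℓ hfrob hwu hrank
    exact smoothBlockI_gauss σ hσO ϖ hϖ hσfrac (α u') U hσu hinj p Hor hHor t₀ ht₀ hdiv y hy hI
      hprin hreg

include hϖ hαO hσO hσfrac hσu hwO hwα hww hprime hcop hord hℓ hfrob hwu hrank in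
/-- **The block at a point of the chart on the `0`-component only.**  `y` a prime of
`C = Chart O (α u')` with `p_0 ⊆ y`, `p_∞ ⊄ y`, `p_0 = (ϖ)` and `y = (ϖ, z)` locally at `y`:
the centre of `V W` lies in `y` iff `W = false`, and `y` carries a smooth block with generic
ring `V false = V0`. -/
theorem block_zero [IsNoetherianRing (Chart O (α u'))] [IsFractionRing (Chart O (α u')) L]
    (hinj : Function.Injective (algebraMap O L)) (p : ℕ) (Hor : L → Prop)
    (hHor : ∀ f : L, Hor f → HorIdeal p ϖ (Chart O (α u')) f)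
    (V : Bool → Subring L) (hVt : V true = GaussConst.VG O σ)
    (hVf : V false = GaussConst.VG O (σ.comp (w : L →+* L)))
    (y : Ideal (Chart O (α u'))) (hy : y.IsPrime)
    (hZ : RingHom.ker rZ ≤ y) (hI : ¬ RingHom.ker rI ≤ y)
    (hprin : piC (α u') ϖ ∈ RingHom.ker rZ ∧
      ∀ x ∈ RingHom.ker rZ, ∃ s, s ∉ y ∧ s * x ∈ Ideal.span {piC (α u') ϖ})
    (hreg : ∃ z ∈ y, ∀ m ∈ y, ∃ s, s ∉ y ∧ s * m ∈ Ideal.span {piC (α u') ϖ, z}) :
    (∀ W, (∀ b : Chart O (α u'), MemPi (V W) ϖ (b : L) → b ∈ y) ↔ W = false) ∧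
      SmoothBlockI p ϖ Hor
        (Fermat.Agent.S44.L.DepthHenselExit.locAt (Algebra.adjoin O ({α u'} : Set L)) y hy)
        (V false) := by
  have hcI := cen_inf_iff ϖ hϖ α σ hσO hσfrac u' U hσu y
  have hcZ := cen_zero_iff ϖ hϖ α σ hσO hσfrac u' U hσu w hwO ℓ hwα y
  refine ⟨fun W => ?_, ?_⟩
  · cases W
    · rw [hVf]
      exact ⟨fun _ => rfl, fun _ => hcZ.mpr hZ⟩
    · rw [hVt]
      exact ⟨fun h => absurd (hcI.mp h) hI, fun h => Bool.noConfusion h⟩
  · rw [hVf]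
    obtain ⟨t₀, ht₀, hdiv⟩ := exists_sep_zero_dvd ϖ hϖ α hαO σ hσO hσfrac u' U hσu w hwO ℓ hwα
      hww hprime hcop hord hℓ hfrob hwu hrank
    exact smoothBlockI_gauss (σ.comp (w : L →+* L)) (sigmaW_O σ hσO w hwO) ϖ hϖ
      (fun x => hσfrac (w x)) (α u') (qExpand O ℓ U) (sigmaW_u α σ u' U hσu w ℓ hwα) hinj p Hor
      hHor t₀ ht₀ hdiv y hy hZ hprin hreg

end Package

end Fermat.Agent.S33.Geo.GaussBlock
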