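import Mathlib
import Fermat.Agent.S44.L.NodeLocInstInf
import Fermat.Agent.S36.HorizAdapter
import Fermat.Agent.S33.Geo.GaussBlock
import Fermat.Agent.S33.Geo.GaussRings
import Fermat.Agent.S33.Geo.ChartPoints

/-!
# S33 / GEO / Stage B, row B3 (model instance): the blocks at the points over `u₄ = ∞`

Levels `(M, M q)`, `4 ∣ M`, `q` an odd prime, `q ∤ M`; `O` a discrete valuation ring of residue
characteristic `q` with fraction field `E ⊆ ℚ̄`, `2 ∈ Oˣ`, uniformiser `π` (the base may be
ramified); `U = α u₄ ∈ LE (M q) E`, `V = GaussRings.VB M q E O hq hqM : Bool → Subring _`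
(`true ↦ V∞`, `false ↦ V0`).

The points of the two-chart model `ChartPoints.Pt π U` in the second summand are the maximal
ideals `𝔪 ∋ π, U⁻¹` of the chart of `U⁻¹` (the points over `u₄ = ∞`).  By
`S44/L/NodeC1InstInf.cusp_s4` such a point lies on exactly one component `W₁`, which is `(π)`
locally at `𝔪`, and `𝔪 = (π, z)` locally at `𝔪`; by `S33/Geo/GaussBlock.block_inf` /
`block_zero` it carries the smooth block of `Model.IsModelI` with generic ring `V W₁`, and
`ChartPoints.ptOn .. (Sum.inr 𝔪) W ↔ W = W₁`.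

* `block_s4` : the statement on `Chart O (α u₄⁻¹)` (spelling of the landed `S44/L` instances),
  any horizontal predicate `Hor` with `Hor f → Model.HorIdeal p π (Chart ..) f`.
* `block_inr_u4` : **the second disjunct of the `hblock` hypothesis of
  `ChartPointsBool.isModelI_bool_of_crossing` at every point `Sum.inr y` of
  `ChartPoints.Pt π (α u₄)`**, with `Hor f = Horiz π p U f ∧ Horiz π p U⁻¹ f`
  (coordinate spelled `(α u₄)⁻¹`, as in `ChartPoints.Pt`).
* `block_inr_u4_OE` : the same over `O = OE A K` in the binder block of `S33/Geo/UnrExit` /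
  `FunIFinal` (`π = (q : OE A K)`, `p = q`).
-/

set_option autoImplicit false
set_option linter.unusedSectionVars false
set_option linter.unusedVariables false
set_option linter.style.haveILetI false
set_option synthInstance.maxHeartbeats 400000
set_option maxHeartbeats 1000000

open ModularCurve Polynomial IntermediateField

noncomputable section

namespace Fermat.Agent.S33.Geo.ModelInstInf

open Fermat.Agent.S30 Fermat.Agent.S34 Fermat.Agent.S34.TwoPrimesGauss
open Fermat.Agent.S36.PrinAt Fermat.Agent.S30.Model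
open Fermat.Agent.S18.K1Defs Fermat.Agent.S18.K1Main
open Fermat.Agent.S34.TwoPrimesRank Fermat.Agent.S34.HauptU.Plug
open Fermat.Agent.S34.HauptU.LevelMAux
open Fermat.Agent.S36.Haupt4 Fermat.Agent.S36.LevelQInstAlt
open Fermat.Agent.S36.HorizAdapter

local notation "Qb" => AlgebraicClosure ℚ

/-! ### Generic base -/

section Generic

variable (M q : ℕ) [NeZero M] [NeZero q] (E : IntermediateField ℚ Qb)
  {O : Type} [CommRing O] [IsDomain O] [IsDiscreteValuationRing O]
  [Algebra O E] [IsFractionRing O E]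

/-- **The block at a point over `u₄ = ∞`, on `Chart O (α u₄⁻¹)`**: a maximal ideal `y ∋ π` of
the chart at `u₄⁻¹` containing the coordinate lies on exactly one component `W₁`
(`centre of V W ⊆ y ⟺ W = W₁`) and carries a smooth block with generic ring `V W₁`. -/
theorem block_s4 (hq : q.Prime) (hodd : q ≠ 2) (hqM : ¬ q ∣ M) (h4 : 4 ∣ M)
    (h2 : IsUnit (2 : O)) (hFG : FinGaussC M O E) (π : O) (hπ : Irreducible π)
    (hchar : CharP (IsLocalRing.ResidueField O) q)
    (hσfrac : ∀ x : LE (M * q) E, sigmaHom (M * q) E x ∈ GaussDVR.fracField O E) :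
    letI := algebraOL O E (LE M E)
    letI := algebraOL O E (LE (M * q) E)
    haveI := isScalarTower_OL O E (LE M E)
    haveI := isScalarTower_OL O E (LE (M * q) E)
    ∀ (p : ℕ) (Hor : LE (M * q) E → Prop),
      (∀ f : LE (M * q) E, Hor f → Fermat.Agent.S33.Geo.Model.HorIdeal p π
        (Chart O (alphaHom M q E (u4E M E h4)⁻¹)) f) →
      ∀ (y : Ideal (Chart O (alphaHom M q E (u4E M E h4)⁻¹))) (hy : y.IsMaximal),
        piC (alphaHom M q E (u4E M E h4)⁻¹) π ∈ y →
        incl (alphaHom M q E) (alphaHom_algebraMap M q E) (u4E M E h4)⁻¹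
          (polyChart (u4E M E h4)⁻¹ X) ∈ y →
        ∃ W₁ : Bool,
          (∀ W, (∀ b : Chart O (alphaHom M q E (u4E M E h4)⁻¹),
              Fermat.Agent.S33.Geo.Top.MemPi (Fermat.Agent.S33.Geo.GaussRings.VB M q E O hq hqM W)
                π (b : LE (M * q) E) → b ∈ y) ↔ W = W₁) ∧
          Fermat.Agent.S33.Geo.Model.SmoothBlockI p π Hor
            (Fermat.Agent.S44.L.DepthHenselExit.locAt
              (Algebra.adjoin O ({alphaHom M q E (u4E M E h4)⁻¹} : Set (LE (M * q) E))) y
              hy.isPrime)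
            (Fermat.Agent.S33.Geo.GaussRings.VB M q E O hq hqM W₁) := by
  classical
  letI := algebraOL O E (LE M E)
  letI := algebraOL O E (LE (M * q) E)
  haveI := isScalarTower_OL O E (LE M E)
  haveI := isScalarTower_OL O E (LE (M * q) E)
  have hfg := u4_fin_gauss M E h4 hFG
  have hfin : FiniteDimensional (IntermediateField.adjoin E {u4E M E h4}) (LE M E) := hfg.1
  haveI := hfin
  haveI hfin' : FiniteDimensional (IntermediateField.adjoin E {(u4E M E h4)⁻¹}) (LE M E) :=
    Fermat.Agent.S36.SqChart.Coord4.finite_u4E_inv M E h4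
  have hcf := Fermat.Agent.S36.Haupt4.Fibre.chartFacts_u4 M E h4 h2 hFG π hπ
  have hwu := Fermat.Agent.S36.Haupt4.Hwu.hwu_u4E_inv M q E (O := O) h2 hq hodd hqM h4
  haveI : Fact q.Prime := ⟨hq⟩
  haveI := hchar
  have hT : Transcendental E (u4E M E h4)⁻¹ := hcf.transcendental_inv
  haveI := Fermat.Agent.S44.L.NodeLocInstInf.finiteDimensional_alpha_s4 M q E h4
  haveI hNoeth : IsNoetherianRing (Chart O (alphaHom M q E (u4E M E h4)⁻¹)) :=
    Fermat.Agent.S44.L.NodeLocInst.isNoetherianRing_chart' (O := O) (E := E)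
      (alphaHom M q E (u4E M E h4)⁻¹)
      (Fermat.Agent.S36.A2.transcendental_alpha (O := O) (alphaHom M q E)
        (alphaHom_algebraMap M q E) (u4E M E h4)⁻¹ hT)
  haveI hFR : IsFractionRing (Chart O (alphaHom M q E (u4E M E h4)⁻¹)) (LE (M * q) E) :=
    Fermat.Agent.S44.L.NodeLocInstInf.isFractionRing_chart_s4 M q E h4
  have hinj : Function.Injective (algebraMap O (LE (M * q) E)) :=
    ChartProv.algebraMap_injective_base O E (LE (M * q) E)
  intro p Hor hHor y hy hπy hxy
  have hc := Fermat.Agent.S44.L.NodeC1InstInf.cusp_s4 M q E hq hodd hqM h4 h2 hFG π hπ hchar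
    hσfrac y hy hπy hxy
  rcases hc with h1 | h1
  · exact ⟨true, Fermat.Agent.S33.Geo.GaussBlock.block_inf π hπ (alphaHom M q E)
      (alphaHom_algebraMap M q E)
      (sigmaHom (M * q) E) (sigmaHom_algebraMap (M * q) E) hσfrac (u4E M E h4)⁻¹
      (HauptU.E.posO O Fermat.Agent.S36.SqChart.Coord4.s4Z)
      (Fermat.Agent.S36.SqChart.Coord4.hσ1u_s4 M E q h4)
      (wHom M q E hq hqM) (wHom_algebraMap M q E hq hqM) q
      (sigmaHom_wHom_alpha M q E hq hqM) (wHom_wHom M q E hq hqM) hcf.prime_inf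
      (Fermat.Agent.S36.SqChart.Coord4.hcop_s4 q) Fermat.Agent.S36.SqChart.Coord4.hord_s4
      hq.two_le (Fermat.Agent.S36.SqChart.Coord4.qExpand_rho_s4 q hq) hwu
      (fun v => hrank_modular_of_finite M q E hq hqM _ v)
      hinj p Hor hHor (Fermat.Agent.S33.Geo.GaussRings.VB M q E O hq hqM) rfl rfl y hy.isPrime
      h1.1 h1.2.1 h1.2.2.1 h1.2.2.2⟩
  · exact ⟨false, Fermat.Agent.S33.Geo.GaussBlock.block_zero π hπ (alphaHom M q E)
      (alphaHom_algebraMap M q E)
      (sigmaHom (M * q) E) (sigmaHom_algebraMap (M * q) E) hσfrac (u4E M E h4)⁻¹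
      (HauptU.E.posO O Fermat.Agent.S36.SqChart.Coord4.s4Z)
      (Fermat.Agent.S36.SqChart.Coord4.hσ1u_s4 M E q h4)
      (wHom M q E hq hqM) (wHom_algebraMap M q E hq hqM) q
      (sigmaHom_wHom_alpha M q E hq hqM) (wHom_wHom M q E hq hqM) hcf.prime_inf
      (Fermat.Agent.S36.SqChart.Coord4.hcop_s4 q) Fermat.Agent.S36.SqChart.Coord4.hord_s4
      hq.two_le (Fermat.Agent.S36.SqChart.Coord4.qExpand_rho_s4 q hq) hwu
      (fun v => hrank_modular_of_finite M q E hq hqM _ v)
      hinj p Hor hHor (Fermat.Agent.S33.Geo.GaussRings.VB M q E O hq hqM) rfl rfl y hy.isPrime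
      h1.1 h1.2.1 h1.2.2.1 h1.2.2.2⟩

/-- The block at a point over `u₄ = ∞`, stated uniformly in the spelling `t` of the chart
coordinate `α u₄⁻¹ = (α u₄)⁻¹`. -/
theorem block_coord (hq : q.Prime) (hodd : q ≠ 2) (hqM : ¬ q ∣ M) (h4 : 4 ∣ M)
    (h2 : IsUnit (2 : O)) (hFG : FinGaussC M O E) (π : O) (hπ : Irreducible π)
    (hchar : CharP (IsLocalRing.ResidueField O) q)
    (hσfrac : ∀ x : LE (M * q) E, sigmaHom (M * q) E x ∈ GaussDVR.fracField O E) (p : ℕ) :
    letI := algebraOL O E (LE (M * q) E)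
    ∀ (t : LE (M * q) E) (ht : alphaHom M q E (u4E M E h4)⁻¹ = t)
      (y : {𝔪 : Ideal (integralClosure (Algebra.adjoin O ({t} : Set (LE (M * q) E)))
            (LE (M * q) E)) //
          𝔪.IsMaximal ∧
          algebraMap O (integralClosure (Algebra.adjoin O ({t} : Set (LE (M * q) E)))
            (LE (M * q) E)) π ∈ 𝔪 ∧
          ∀ s : integralClosure (Algebra.adjoin O ({t} : Set (LE (M * q) E))) (LE (M * q) E),
            (s : LE (M * q) E) = t → s ∈ 𝔪}),
      ∃ W₁ : Bool,
        (∀ W, (∀ b : integralClosure (Algebra.adjoin O ({t} : Set (LE (M * q) E)))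
            (LE (M * q) E),
            Fermat.Agent.S33.Geo.Top.MemPi (Fermat.Agent.S33.Geo.GaussRings.VB M q E O hq hqM W)
              π (b : LE (M * q) E) → b ∈ y.1) ↔ W = W₁) ∧
        Fermat.Agent.S33.Geo.Model.SmoothBlockI p π
          (fun f => Horiz π p (alphaHom M q E (u4E M E h4)) f ∧ Horiz π p t f)
          (Fermat.Agent.S44.L.DepthHenselExit.locAt
            (Algebra.adjoin O ({t} : Set (LE (M * q) E))) y.1 y.2.1.isPrime)
          (Fermat.Agent.S33.Geo.GaussRings.VB M q E O hq hqM W₁) := by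
  letI := algebraOL O E (LE M E)
  letI := algebraOL O E (LE (M * q) E)
  haveI := isScalarTower_OL O E (LE M E)
  haveI := isScalarTower_OL O E (LE (M * q) E)
  intro t ht
  subst ht
  intro y
  have hx : incl (alphaHom M q E) (alphaHom_algebraMap M q E) (u4E M E h4)⁻¹
      (polyChart (u4E M E h4)⁻¹ X) ∈ y.1 :=
    y.2.2.2 _ (by rw [coe_incl, coe_polyChart, Polynomial.aeval_X])
  have e : algebraMap O (Chart O (alphaHom M q E (u4E M E h4)⁻¹)) π =
      piC (alphaHom M q E (u4E M E h4)⁻¹) π := Subtype.ext rfl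
  have hπy : piC (alphaHom M q E (u4E M E h4)⁻¹) π ∈ y.1 :=
    (congrArg (fun c : Chart O (alphaHom M q E (u4E M E h4)⁻¹) => c ∈ y.1) e).mp y.2.2.1
  exact block_s4 M q E hq hodd hqM h4 h2 hFG π hπ hchar hσfrac p _
    (fun f hf => Fermat.Agent.S33.Geo.ModelChart.horIdeal_of_horChart hf.2) y.1 y.2.1 hπy hx

/-- **The blocks at the points over `u₄ = ∞` of the two-chart model of `U = α u₄`**: every point
`Sum.inr y` of `ChartPoints.Pt π U` lies on exactly one component `W₁` and carries a smooth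
block with generic ring `V W₁` (the second disjunct of the `hblock` hypothesis of
`ChartPointsBool.isModelI_bool_of_crossing`). -/
theorem block_inr_u4 (hq : q.Prime) (hodd : q ≠ 2) (hqM : ¬ q ∣ M) (h4 : 4 ∣ M)
    (h2 : IsUnit (2 : O)) (hFG : FinGaussC M O E) (π : O) (hπ : Irreducible π)
    (hchar : CharP (IsLocalRing.ResidueField O) q)
    (hσfrac : ∀ x : LE (M * q) E, sigmaHom (M * q) E x ∈ GaussDVR.fracField O E) (p : ℕ) :
    letI := algebraOL O E (LE (M * q) E)
    ∀ y : {𝔪 : Ideal (integralClosure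
          (Algebra.adjoin O ({(alphaHom M q E (u4E M E h4))⁻¹} : Set (LE (M * q) E)))
          (LE (M * q) E)) //
        𝔪.IsMaximal ∧
        algebraMap O (integralClosure
          (Algebra.adjoin O ({(alphaHom M q E (u4E M E h4))⁻¹} : Set (LE (M * q) E)))
          (LE (M * q) E)) π ∈ 𝔪 ∧
        ∀ s : integralClosure
          (Algebra.adjoin O ({(alphaHom M q E (u4E M E h4))⁻¹} : Set (LE (M * q) E)))
          (LE (M * q) E), (s : LE (M * q) E) = (alphaHom M q E (u4E M E h4))⁻¹ → s ∈ 𝔪},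
      ∃ W₁ : Bool,
        (∀ W, Fermat.Agent.S33.Geo.ChartPoints.ptOn π (alphaHom M q E (u4E M E h4))
          (Fermat.Agent.S33.Geo.GaussRings.VB M q E O hq hqM) (Sum.inr y) W ↔ W = W₁) ∧
        Fermat.Agent.S33.Geo.Model.SmoothBlockI p π
          (fun f => Horiz π p (alphaHom M q E (u4E M E h4)) f ∧
            Horiz π p (alphaHom M q E (u4E M E h4))⁻¹ f)
          (Fermat.Agent.S33.Geo.ChartPoints.ptR π (alphaHom M q E (u4E M E h4)) (Sum.inr y))
          (Fermat.Agent.S33.Geo.GaussRings.VB M q E O hq hqM W₁) := by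
  letI := algebraOL O E (LE (M * q) E)
  intro y
  exact block_coord M q E hq hodd hqM h4 h2 hFG π hπ hchar hσfrac p
    (alphaHom M q E (u4E M E h4))⁻¹ (map_inv₀ (alphaHom M q E) (u4E M E h4)) y

end Generic

/-! ### `O = OE A K` -/

section Arithmetic

variable (A : ValuationSubring Qb) (M q : ℕ) [NeZero M] [NeZero q]

/-- **The blocks at the points over `u₄ = ∞`, over `O = A ∩ K`** (binder block of
`S33/Geo/UnrExit` / `FunIFinal`: uniformiser `(q : OE A K)`, exponent `q`). -/
theorem block_inr_u4_OE (hq : q.Prime) (hodd : q ≠ 2) (hqM : ¬ q ∣ M) (h4 : 4 ∣ M)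
    (hA : A.LiesOverPrime q) (K : IntermediateField ℚ Qb) [FiniteDimensional ℚ K]
    [IsDiscreteValuationRing (OE A K)] (z : Qb) (hz : IsPrimitiveRoot z M) (hzK : z ∈ K)
    (hπ : Irreducible ((q : ℕ) : OE A K)) :
    letI := algebraOL (OE A K) K (LE (M * q) K)
    ∀ y : {𝔪 : Ideal (integralClosure
          (Algebra.adjoin (OE A K) ({(alphaHom M q K (u4E M K h4))⁻¹} : Set (LE (M * q) K)))
          (LE (M * q) K)) //
        𝔪.IsMaximal ∧
        algebraMap (OE A K) (integralClosure
          (Algebra.adjoin (OE A K) ({(alphaHom M q K (u4E M K h4))⁻¹} : Set (LE (M * q) K)))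
          (LE (M * q) K)) ((q : ℕ) : OE A K) ∈ 𝔪 ∧
        ∀ s : integralClosure
          (Algebra.adjoin (OE A K) ({(alphaHom M q K (u4E M K h4))⁻¹} : Set (LE (M * q) K)))
          (LE (M * q) K), (s : LE (M * q) K) = (alphaHom M q K (u4E M K h4))⁻¹ → s ∈ 𝔪},
      ∃ W₁ : Bool,
        (∀ W, Fermat.Agent.S33.Geo.ChartPoints.ptOn ((q : ℕ) : OE A K)
          (alphaHom M q K (u4E M K h4))
          (Fermat.Agent.S33.Geo.GaussRings.VB M q K (OE A K) hq hqM) (Sum.inr y) W ↔ W = W₁) ∧
        Fermat.Agent.S33.Geo.Model.SmoothBlockI q ((q : ℕ) : OE A K)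
          (fun f => Horiz ((q : ℕ) : OE A K) q (alphaHom M q K (u4E M K h4)) f ∧
            Horiz ((q : ℕ) : OE A K) q (alphaHom M q K (u4E M K h4))⁻¹ f)
          (Fermat.Agent.S33.Geo.ChartPoints.ptR ((q : ℕ) : OE A K)
            (alphaHom M q K (u4E M K h4)) (Sum.inr y))
          (Fermat.Agent.S33.Geo.GaussRings.VB M q K (OE A K) hq hqM W₁) := by
  haveI : Fact q.Prime := ⟨hq⟩
  exact block_inr_u4 (O := OE A K) M q K hq hodd hqM h4 (isUnit_two_OE A hA hodd K)
    (Fermat.Agent.S36.Haupt4.Fibre.finGaussC_OE A M hqM hA K z hz hzK) ((q : ℕ) : OE A K) hπ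
    (Fermat.Agent.S34.Sat.charP_residue_OE' A K hq hA)
    (sigmaHom_mem_fracField (M * q) K A) q

end Arithmetic

end Fermat.Agent.S33.Geo.ModelInstInf
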