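import Mathlib
import Fermat.Agent.S34.TwoPrimesGauss
import Fermat.Agent.S34.Modular.ChartZero
import Fermat.Agent.S44.L.RedCore
import Fermat.Agent.S33.Geo.GaussConst
import Fermat.Agent.S33.Geo.ModelChart
import Fermat.Agent.S33.Geo.ChartPoints

/-!
# S33 / GEO / Stage B, row B3: the blocks of the two-component model at the points of a chart

Package level (variable block of `S34/TwoPrimesGauss`, any level-`M` coordinate `u'`; no modular
object).  `C = Chart O (α u')` the chart ring of level `M ℓ`, `rI = redInf`, `rZ = redZero` its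
two reductions, `V∞ = GaussConst.VG O σ`, `V0 = GaussConst.VG O (σ.comp w)` the two Gauss rings
inside `L`.

* `memPi_inf_iff`, `memPi_zero_iff` : on the chart, `ϖ V∞ ∩ C = ker rI`, `ϖ V0 ∩ C = ker rZ`.
* `cen_inf_iff`, `cen_zero_iff` : the pinning of `ChartPoints.ptOn` (centre spelling) by the
  kernels: the centre of `V∞` (`V0`) lies in `y` iff `ker rI ≤ y` (`ker rZ ≤ y`).
* `vinf_eq_locSubring`, `vzero_eq_locSubring` : `V∞ = C_(ker rI)`, `V0 = C_(ker rZ)` inside `L`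
  (`TopChart.locSubring`).
* `block_node`, `block_smooth_inf`, `block_smooth_zero` : the block clause of
  `ChartPoints.isModelI_of_blocks` at a point `Sum.inl y` of `ChartPoints.Pt ϖ (α u')` from the
  chart data of `S44/L/NodeC1` (`PrinAt`, `RegAt` unfolded), for `V : Bool → Subring L` with
  `V true = V∞`, `V false = V0`.
* `block_inl` : the three cases together.
-/

set_option autoImplicit false
set_option linter.unusedSectionVars false
set_option linter.unusedVariables false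
set_option linter.style.haveILetI false

open ModularCurve Polynomial

noncomputable section

namespace Fermat.Agent.S33.Geo.BlockGauss

open Fermat.Agent.S30 Fermat.Agent.S34 Fermat.Agent.S34.TwoPrimesGauss
open Fermat.Agent.S33.Geo Fermat.Agent.S33.Geo.Top Fermat.Agent.S33.Geo.Model
open Fermat.Agent.S33.Geo.TopChart Fermat.Agent.S33.Geo.ChartPoints
open Fermat.Agent.S33.Geo.GaussConst Fermat.Agent.S44.L

section Pkg

variable {O E : Type*} [CommRing O] [IsDomain O] [IsDiscreteValuationRing O] [Field E]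
  [Algebra O E] [FaithfulSMul O E]
  {L' L : Type*} [Field L'] [Field L] [Algebra O L'] [Algebra O L]
  (ϖ : O) (hϖ : Irreducible ϖ)
  (α : L' →+* L) (hαO : ∀ r : O, α (algebraMap O L' r) = algebraMap O L r)
  (σ : L →+* LaurentSeries E)
  (hσO : ∀ r : O, σ (algebraMap O L r) = HahnSeries.C (algebraMap O E r))
  (hσfrac : ∀ x : L, σ x ∈ GaussDVR.fracField O E)
  (u' : L') (U : LaurentSeries O) (hσu : σ (α u') = GaussDVR.iota O E U)
  (w : L ≃+* L) (hwO : ∀ r : O, w (algebraMap O L r) = algebraMap O L r)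
  (ℓ : ℕ) [NeZero ℓ]
  (hwα : ∀ x : L', σ (w (α x)) = qExpand E ℓ (σ (α x)))
  (hww : ∀ z : L, w (w z) = z)
  (hprime : Prime (piC u' ϖ))
  (hcop : IsCoprime (GaussDVR.rho O U).order (ℓ : ℤ)) (hord : (GaussDVR.rho O U).order ≠ 0)
  (hℓ : 2 ≤ ℓ)
  (hfrob : qExpand (IsLocalRing.ResidueField O) ℓ (GaussDVR.rho O U) = GaussDVR.rho O U ^ ℓ)
  (hwu : IsIntegral (Algebra.adjoin O {α u'}) (w (α u')))
  (hrank : ∀ v : Option (Fin 1 ⊕ Fin ℓ) → Chart O (α u'),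
    ∃ c : Option (Fin 1 ⊕ Fin ℓ) → Chart O u', c ≠ 0 ∧ ∑ i, incl α hαO u' (c i) * v i = 0)

local notation "rI" => redInf ϖ hϖ α σ hσO hσfrac u' U hσu
local notation "rZ" => redZero ϖ hϖ α σ hσO hσfrac u' U hσu w hwO ℓ hwα
local notation "W" => Fermat.Agent.S34.Modular.ChartZero.wChart α u' w hwO hww hwu
local notation "Vinf" => VG O σ
local notation "Vzero" => VG O (σ.comp (w : L →+* L))

/-! ### The centres of the two Gauss rings on the chart -/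

/-- On the chart, `ϖ V∞ ∩ C = ker rI`. -/
theorem memPi_inf_iff (c : Chart O (α u')) : MemPi Vinf ϖ (c : L) ↔ rI c = 0 := by
  constructor
  · intro h
    exact redHom_eq_zero_of_memPi σ hσO ϖ hϖ hσfrac (α u') U hσu (c : L) c 1
      (by rw [map_one, mul_one]; rfl) h
  · intro h
    exact memPi_of_redG_eq_zero σ hσO ϖ hϖ
      ⟨(c : L), chart_mem_VG σ hσO ϖ hϖ hσfrac (α u') U hσu c⟩ h

/-- On the chart, `ϖ V0 ∩ C = ker rZ`. -/
theorem memPi_zero_iff (c : Chart O (α u')) : MemPi Vzero ϖ (c : L) ↔ rZ c = 0 := by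
  constructor
  · intro h
    exact redHom_eq_zero_of_memPi (σ.comp (w : L →+* L)) (sigmaW_O σ hσO w hwO) ϖ hϖ
      (fun x => hσfrac (w x)) (α u') (qExpand O ℓ U) (sigmaW_u α σ u' U hσu w ℓ hwα) (c : L) c 1
      (by rw [map_one, mul_one]; rfl) h
  · intro h
    exact memPi_of_redG_eq_zero (σ.comp (w : L →+* L)) (sigmaW_O σ hσO w hwO) ϖ hϖ
      ⟨(c : L), chart_mem_VG (σ.comp (w : L →+* L)) (sigmaW_O σ hσO w hwO) ϖ hϖ
        (fun x => hσfrac (w x)) (α u') (qExpand O ℓ U) (sigmaW_u α σ u' U hσu w ℓ hwα) c⟩ h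

/-- **Pinning at `∞`**: the centre of `V∞` lies in `y` iff `ker rI ≤ y`. -/
theorem cen_inf_iff (y : Ideal (Chart O (α u'))) :
    (∀ b : Chart O (α u'), MemPi Vinf ϖ (b : L) → b ∈ y) ↔ RingHom.ker rI ≤ y :=
  cen_iff_ker_le ϖ Vinf (α u') rI (memPi_inf_iff ϖ hϖ α σ hσO hσfrac u' U hσu) y

/-- **Pinning at `0`**: the centre of `V0` lies in `y` iff `ker rZ ≤ y`. -/
theorem cen_zero_iff (y : Ideal (Chart O (α u'))) :
    (∀ b : Chart O (α u'), MemPi Vzero ϖ (b : L) → b ∈ y) ↔ RingHom.ker rZ ≤ y :=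
  cen_iff_ker_le ϖ Vzero (α u') rZ (memPi_zero_iff ϖ hϖ α σ hσO hσfrac u' U hσu w hwO ℓ hwα) y

/-! ### The Gauss rings are the local rings of the chart at the two vertical primes -/

include hαO hwO hwα hww hprime hcop hord hℓ hfrob hwu hrank in
/-- `V∞` is the localisation of the chart at `ker rI`, inside `L`. -/
theorem vinf_eq_locSubring [IsFractionRing (Chart O (α u')) L] :
    Vinf = @locSubring (Chart O (α u')) _ L _ _ (RingHom.ker rI) (RingHom.ker_isPrime _) := by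
  haveI : (RingHom.ker rI).IsPrime := RingHom.ker_isPrime _
  ext x
  constructor
  · intro hx
    obtain ⟨c, s, hs, hxs⟩ := RedCore.exists_frac_redInf_ne_zero ϖ hϖ α hαO σ hσO hσfrac u' U hσu
      w hwO ℓ hwα hww hprime hcop hord hℓ hfrob hwu hrank x hx
    exact ⟨c, s, fun h => hs (RingHom.mem_ker.mp h), hxs⟩
  · rintro ⟨a, b, hb, e⟩
    have hbV : σ (b : L) ∈ GaussDVR.V O E := sigma_mem_V σ hσO ϖ hϖ hσfrac (α u') U hσu b.2
    have haV : σ (a : L) ∈ GaussDVR.V O E := sigma_mem_V σ hσO ϖ hϖ hσfrac (α u') U hσu a.2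
    have hred : GaussDVR.red O E ⟨σ (b : L), hbV⟩ ≠ 0 := fun h => hb (RingHom.mem_ker.mpr h)
    have hinv : (σ (b : L))⁻¹ ∈ GaussDVR.V O E := GaussDVR.inv_mem O E ⟨σ (b : L), hbV⟩ hred
    have hb0 : (b : L) ≠ 0 := by
      intro h0
      apply hred
      have e0 : (⟨σ (b : L), hbV⟩ : GaussDVR.V O E) = 0 := Subtype.ext (by
        show σ (b : L) = 0
        rw [h0, map_zero])
      rw [e0, map_zero]
    have hx : x = (a : L) * (b : L)⁻¹ := by
      have e' : x * (b : L) = (a : L) := e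
      rw [← e', mul_assoc, mul_inv_cancel₀ hb0, mul_one]
    show σ x ∈ GaussDVR.V O E
    rw [hx, map_mul, map_inv₀]
    exact (GaussDVR.V O E).mul_mem haV hinv

include hαO hww hprime hcop hord hℓ hfrob hwu hrank in
/-- `V0` is the localisation of the chart at `ker rZ`, inside `L`. -/
theorem vzero_eq_locSubring [IsFractionRing (Chart O (α u')) L] :
    Vzero = @locSubring (Chart O (α u')) _ L _ _ (RingHom.ker rZ) (RingHom.ker_isPrime _) := by
  haveI : (RingHom.ker rI).IsPrime := RingHom.ker_isPrime _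
  haveI : (RingHom.ker rZ).IsPrime := RingHom.ker_isPrime _
  have hinf := vinf_eq_locSubring ϖ hϖ α hαO σ hσO hσfrac u' U hσu w hwO ℓ hwα hww hprime hcop
    hord hℓ hfrob hwu hrank
  ext x
  constructor
  · intro hx
    have hx' : σ (w x) ∈ GaussDVR.V O E := hx
    obtain ⟨c, s, hs, hxs⟩ := RedCore.exists_frac_redInf_ne_zero ϖ hϖ α hαO σ hσO hσfrac u' U hσu
      w hwO ℓ hwα hww hprime hcop hord hℓ hfrob hwu hrank (w x) hx'
    refine ⟨W c, W s, fun h => hs ?_, ?_⟩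
    · rw [← Fermat.Agent.S34.Modular.ChartZero.redZero_wChart ϖ hϖ α σ hσO hσfrac u' U hσu w hwO
        ℓ hwα hww hwu s]
      exact RingHom.mem_ker.mp h
    · have h1 := congrArg w hxs
      rw [map_mul, hww] at h1
      exact h1
  · rintro ⟨a, b, hb, e⟩
    have hmem : w x ∈ @locSubring (Chart O (α u')) _ L _ _ (RingHom.ker rI)
        (RingHom.ker_isPrime _) := by
      refine ⟨W a, W b, fun h => hb ?_, ?_⟩
      · exact RingHom.mem_ker.mpr (RingHom.mem_ker.mp h)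
      · have e' : x * (b : L) = (a : L) := e
        have h1 := congrArg w e'
        rw [map_mul] at h1
        exact h1
    rw [← hinf] at hmem
    exact hmem

/-! ### The blocks at the points of the chart -/

section Blocks

variable [IsFractionRing (Chart O (α u')) L] [IsNoetherianRing (Chart O (α u'))]
  (hinj : Function.Injective (algebraMap O L)) (p : ℕ) (Hor : L → Prop)
  (hHor : ∀ f : L, Hor f → HorIdeal p ϖ (Chart O (α u')) f)
  (V : Bool → Subring L) (hVt : V true = VG O σ)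
  (hVf : V false = VG O (σ.comp (w : L →+* L)))

include hαO hww hprime hcop hord hℓ hfrob hwu hrank hinj hHor hVt hVf in
/-- **The block at a crossing point**: `y ⊇ ker rI + ker rZ` maximal, `t₁ t₂ = ϖ g`, `g ∉ y`,
`ker rI = (t₁)`, `ker rZ = (t₂)` and `y = (t₁, t₂)` locally at `y`, `t₁ ∉ ker rZ`. -/
theorem block_node
    (y : {𝔪 : Ideal (Chart O (α u')) // 𝔪.IsMaximal ∧ algebraMap O (Chart O (α u')) ϖ ∈ 𝔪})
    (hI : RingHom.ker rI ≤ y.1) (hZ : RingHom.ker rZ ≤ y.1)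
    (t₁ t₂ g : Chart O (α u')) (hg : g ∉ y.1) (hmul : t₁ * t₂ = piC (α u') ϖ * g)
    (h₁ : t₁ ∈ RingHom.ker rI ∧ ∀ x ∈ RingHom.ker rI, ∃ s, s ∉ y.1 ∧ s * x ∈ Ideal.span {t₁})
    (h₂ : t₂ ∈ RingHom.ker rZ ∧ ∀ x ∈ RingHom.ker rZ, ∃ s, s ∉ y.1 ∧ s * x ∈ Ideal.span {t₂})
    (hne : t₁ ∉ RingHom.ker rZ)
    (hm : ∀ m ∈ y.1, ∃ s, s ∉ y.1 ∧ s * m ∈ Ideal.span {t₁, t₂}) :
    ∃ W₁ W₂, (∀ W', ptOn ϖ (α u') V (Sum.inl y) W' ↔ W' = W₁ ∨ W' = W₂) ∧
      NodeBlockI p ϖ Hor (ptR ϖ (α u') (Sum.inl y)) (V W₁) (V W₂) := by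
  haveI : (RingHom.ker rI).IsPrime := RingHom.ker_isPrime _
  haveI : (RingHom.ker rZ).IsPrime := RingHom.ker_isPrime _
  refine ⟨true, false, fun W' => ⟨fun _ => by cases W' <;> simp, ?_⟩, ?_⟩
  · rintro (rfl | rfl)
    · show ∀ b : Chart O (α u'), MemPi (V true) ϖ (b : L) → b ∈ y.1
      rw [hVt]
      exact (cen_inf_iff ϖ hϖ α σ hσO hσfrac u' U hσu y.1).mpr hI
    · show ∀ b : Chart O (α u'), MemPi (V false) ϖ (b : L) → b ∈ y.1
      rw [hVf]
      exact (cen_zero_iff ϖ hϖ α σ hσO hσfrac u' U hσu w hwO ℓ hwα y.1).mpr hZ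
  · exact ModelChart.nodeBlockI_of_chart (Algebra.adjoin O ({α u'} : Set L)) hinj p ϖ hϖ.ne_zero
      Hor hHor y.1 y.2.1.isPrime (RingHom.ker rI) (RingHom.ker rZ) hI hZ t₁ t₂ g hg hmul h₁ h₂
      hne hm
      (hVt.trans (vinf_eq_locSubring ϖ hϖ α hαO σ hσO hσfrac u' U hσu w hwO ℓ hwα hww hprime
        hcop hord hℓ hfrob hwu hrank))
      (hVf.trans (vzero_eq_locSubring ϖ hϖ α hαO σ hσO hσfrac u' U hσu w hwO ℓ hwα hww hprime
        hcop hord hℓ hfrob hwu hrank))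

include hαO hww hprime hcop hord hℓ hfrob hwu hrank hinj hHor hVt hVf in
/-- **The block at a point of the component `∞` off the component `0`**: `ker rI = (ϖ)` and
`y = (ϖ, z)` locally at `y`. -/
theorem block_smooth_inf
    (y : {𝔪 : Ideal (Chart O (α u')) // 𝔪.IsMaximal ∧ algebraMap O (Chart O (α u')) ϖ ∈ 𝔪})
    (hI : RingHom.ker rI ≤ y.1) (hZ : ¬ RingHom.ker rZ ≤ y.1)
    (hprin : piC (α u') ϖ ∈ RingHom.ker rI ∧
      ∀ x ∈ RingHom.ker rI, ∃ s, s ∉ y.1 ∧ s * x ∈ Ideal.span {piC (α u') ϖ})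
    (hreg : ∃ z ∈ y.1, ∀ m ∈ y.1, ∃ s, s ∉ y.1 ∧ s * m ∈ Ideal.span {piC (α u') ϖ, z}) :
    ∃ W₁, (∀ W', ptOn ϖ (α u') V (Sum.inl y) W' ↔ W' = W₁) ∧
      SmoothBlockI p ϖ Hor (ptR ϖ (α u') (Sum.inl y)) (V W₁) := by
  obtain ⟨z, hz, hm⟩ := hreg
  haveI : (RingHom.ker rI).IsPrime := RingHom.ker_isPrime _
  refine ⟨true, fun W' => ⟨fun h => ?_, ?_⟩, ?_⟩
  · cases W'
    · exfalso
      apply hZ
      have h' : ∀ b : Chart O (α u'), MemPi (V false) ϖ (b : L) → b ∈ y.1 := h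
      rw [hVf] at h'
      exact (cen_zero_iff ϖ hϖ α σ hσO hσfrac u' U hσu w hwO ℓ hwα y.1).mp h'
    · rfl
  · rintro rfl
    show ∀ b : Chart O (α u'), MemPi (V true) ϖ (b : L) → b ∈ y.1
    rw [hVt]
    exact (cen_inf_iff ϖ hϖ α σ hσO hσfrac u' U hσu y.1).mpr hI
  · exact ModelChart.smoothBlockI_of_chart (Algebra.adjoin O ({α u'} : Set L)) hinj p ϖ
      hϖ.ne_zero Hor hHor y.1 y.2.1.isPrime (RingHom.ker rI) hI hprin z hz hm
      (hVt.trans (vinf_eq_locSubring ϖ hϖ α hαO σ hσO hσfrac u' U hσu w hwO ℓ hwα hww hprime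
        hcop hord hℓ hfrob hwu hrank))

include hαO hww hprime hcop hord hℓ hfrob hwu hrank hinj hHor hVt hVf in
/-- **The block at a point of the component `0` off the component `∞`**: `ker rZ = (ϖ)` and
`y = (ϖ, z)` locally at `y`. -/
theorem block_smooth_zero
    (y : {𝔪 : Ideal (Chart O (α u')) // 𝔪.IsMaximal ∧ algebraMap O (Chart O (α u')) ϖ ∈ 𝔪})
    (hZ : RingHom.ker rZ ≤ y.1) (hI : ¬ RingHom.ker rI ≤ y.1)
    (hprin : piC (α u') ϖ ∈ RingHom.ker rZ ∧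
      ∀ x ∈ RingHom.ker rZ, ∃ s, s ∉ y.1 ∧ s * x ∈ Ideal.span {piC (α u') ϖ})
    (hreg : ∃ z ∈ y.1, ∀ m ∈ y.1, ∃ s, s ∉ y.1 ∧ s * m ∈ Ideal.span {piC (α u') ϖ, z}) :
    ∃ W₁, (∀ W', ptOn ϖ (α u') V (Sum.inl y) W' ↔ W' = W₁) ∧
      SmoothBlockI p ϖ Hor (ptR ϖ (α u') (Sum.inl y)) (V W₁) := by
  obtain ⟨z, hz, hm⟩ := hreg
  haveI : (RingHom.ker rZ).IsPrime := RingHom.ker_isPrime _
  refine ⟨false, fun W' => ⟨fun h => ?_, ?_⟩, ?_⟩
  · cases W'
    · rfl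
    · exfalso
      apply hI
      have h' : ∀ b : Chart O (α u'), MemPi (V true) ϖ (b : L) → b ∈ y.1 := h
      rw [hVt] at h'
      exact (cen_inf_iff ϖ hϖ α σ hσO hσfrac u' U hσu y.1).mp h'
  · rintro rfl
    show ∀ b : Chart O (α u'), MemPi (V false) ϖ (b : L) → b ∈ y.1
    rw [hVf]
    exact (cen_zero_iff ϖ hϖ α σ hσO hσfrac u' U hσu w hwO ℓ hwα y.1).mpr hZ
  · exact ModelChart.smoothBlockI_of_chart (Algebra.adjoin O ({α u'} : Set L)) hinj p ϖ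
      hϖ.ne_zero Hor hHor y.1 y.2.1.isPrime (RingHom.ker rZ) hZ hprin z hz hm
      (hVf.trans (vzero_eq_locSubring ϖ hϖ α hαO σ hσO hσfrac u' U hσu w hwO ℓ hwα hww hprime
        hcop hord hℓ hfrob hwu hrank))

include hαO hww hprime hcop hord hℓ hfrob hwu hrank hinj hHor hVt hVf in
/-- **The block clause of `ChartPoints.isModelI_of_blocks` at a point `Sum.inl y` of the
chart**, from the three local statements of `S44/L/NodeC1` (crossing point; point of `∞` off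
`0`; point of `0` off `∞`). -/
theorem block_inl
    (y : {𝔪 : Ideal (Chart O (α u')) // 𝔪.IsMaximal ∧ algebraMap O (Chart O (α u')) ϖ ∈ 𝔪})
    (hmm : RingHom.ker rI ≤ y.1 ∨ RingHom.ker rZ ≤ y.1)
    (hnode : RingHom.ker rI ≤ y.1 → RingHom.ker rZ ≤ y.1 →
      ∃ t₁ t₂ g : Chart O (α u'), g ∉ y.1 ∧ t₁ * t₂ = piC (α u') ϖ * g ∧
        (t₁ ∈ RingHom.ker rI ∧ ∀ x ∈ RingHom.ker rI, ∃ s, s ∉ y.1 ∧ s * x ∈ Ideal.span {t₁}) ∧
        (t₂ ∈ RingHom.ker rZ ∧ ∀ x ∈ RingHom.ker rZ, ∃ s, s ∉ y.1 ∧ s * x ∈ Ideal.span {t₂}) ∧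
        t₁ ∉ RingHom.ker rZ ∧ ∀ m ∈ y.1, ∃ s, s ∉ y.1 ∧ s * m ∈ Ideal.span {t₁, t₂})
    (hsinf : RingHom.ker rI ≤ y.1 → ¬ RingHom.ker rZ ≤ y.1 →
      (piC (α u') ϖ ∈ RingHom.ker rI ∧
        ∀ x ∈ RingHom.ker rI, ∃ s, s ∉ y.1 ∧ s * x ∈ Ideal.span {piC (α u') ϖ}) ∧
      ∃ z ∈ y.1, ∀ m ∈ y.1, ∃ s, s ∉ y.1 ∧ s * m ∈ Ideal.span {piC (α u') ϖ, z})
    (hszero : RingHom.ker rZ ≤ y.1 → ¬ RingHom.ker rI ≤ y.1 →
      (piC (α u') ϖ ∈ RingHom.ker rZ ∧
        ∀ x ∈ RingHom.ker rZ, ∃ s, s ∉ y.1 ∧ s * x ∈ Ideal.span {piC (α u') ϖ}) ∧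
      ∃ z ∈ y.1, ∀ m ∈ y.1, ∃ s, s ∉ y.1 ∧ s * m ∈ Ideal.span {piC (α u') ϖ, z}) :
    (∃ W₁ W₂, (∀ W', ptOn ϖ (α u') V (Sum.inl y) W' ↔ W' = W₁ ∨ W' = W₂) ∧
      NodeBlockI p ϖ Hor (ptR ϖ (α u') (Sum.inl y)) (V W₁) (V W₂)) ∨
    (∃ W₁, (∀ W', ptOn ϖ (α u') V (Sum.inl y) W' ↔ W' = W₁) ∧
      SmoothBlockI p ϖ Hor (ptR ϖ (α u') (Sum.inl y)) (V W₁)) := by
  by_cases hI : RingHom.ker rI ≤ y.1
  · by_cases hZ : RingHom.ker rZ ≤ y.1
    · obtain ⟨t₁, t₂, g, hg, hmul, h₁, h₂, hne, hm⟩ := hnode hI hZ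
      exact Or.inl (block_node ϖ hϖ α hαO σ hσO hσfrac u' U hσu w hwO ℓ hwα hww hprime hcop hord
        hℓ hfrob hwu hrank hinj p Hor hHor V hVt hVf y hI hZ t₁ t₂ g hg hmul h₁ h₂ hne hm)
    · obtain ⟨hprin, hreg⟩ := hsinf hI hZ
      exact Or.inr (block_smooth_inf ϖ hϖ α hαO σ hσO hσfrac u' U hσu w hwO ℓ hwα hww hprime
        hcop hord hℓ hfrob hwu hrank hinj p Hor hHor V hVt hVf y hI hZ hprin hreg)
  · have hZ : RingHom.ker rZ ≤ y.1 := hmm.resolve_left hI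
    obtain ⟨hprin, hreg⟩ := hszero hZ hI
    exact Or.inr (block_smooth_zero ϖ hϖ α hαO σ hσO hσfrac u' U hσu w hwO ℓ hwα hww hprime
      hcop hord hℓ hfrob hwu hrank hinj p Hor hHor V hVt hVf y hZ hI hprin hreg)

end Blocks

end Pkg

end Fermat.Agent.S33.Geo.BlockGauss
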