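import Mathlib
import Fermat.Agent.S44.L.NodeLocInst
import Fermat.Agent.S44.L.CrossingInst
import Fermat.Agent.S33.Geo.GaussRings
import Fermat.Agent.S33.Geo.BlockGauss

/-!
# S33 / GEO / Stage B, row B3: the blocks of the level-`M p` model at the points of the chart
# of `u₄`

E-level instance of `S33/Geo/BlockGauss.block_inl` at the objects of `S44/L/NodeC1Inst`: level
`(M, M q)`, `q` an odd prime, `q ∤ M`, `4 ∣ M`, `O` an unramified discrete valuation ring of
residue characteristic `q` with fraction field `E ⊆ ℚ̄`, `C = Chart O (α u₄)`,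
`V = GaussRings.VB M q E O hq hqM` (`true ↦ V∞`, `false ↦ V0`).

* `block_inl_u4` : the block clause of `ChartPoints.isModelI_of_blocks` at every point
  `Sum.inl y` of `ChartPoints.Pt π (α u₄)` (generic base `O`, any uniformiser `π`, `q = π e`):
  a node block on `(V∞, V0)` at the crossing points (`NodeC1Inst.node_u4`), a smooth block on
  `V∞` resp. `V0` at the other points (`NodeC1Inst.smooth_inf_u4`, `smooth_zero_u4`), with the
  component clause pinned by `ker redInf ≤ y`, `ker redZero ≤ y`.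
* `block_inl_u4_OE` : the same over `O = OE A K` with the uniformiser `(p : OE A K)`, in the
  binder block of `S33/Geo/UnrExit`.
-/

set_option autoImplicit false
set_option linter.unusedSectionVars false
set_option linter.unusedVariables false
set_option linter.style.haveILetI false
set_option synthInstance.maxHeartbeats 400000
set_option maxHeartbeats 1000000

open ModularCurve Polynomial IntermediateField

noncomputable section

namespace Fermat.Agent.S33.Geo.ModelInstU

open Fermat.Agent.S30 Fermat.Agent.S34 Fermat.Agent.S34.TwoPrimesGauss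
open Fermat.Agent.S30.Model
open Fermat.Agent.S18.K1Defs Fermat.Agent.S18.K1Main
open Fermat.Agent.S34.TwoPrimesRank Fermat.Agent.S34.HauptU.Plug
open Fermat.Agent.S34.HauptU.LevelMAux
open Fermat.Agent.S36.Haupt4 Fermat.Agent.S36.LevelQInstAlt
open Fermat.Agent.S33.Geo Fermat.Agent.S33.Geo.GaussRings

local notation "Qb" => AlgebraicClosure ℚ

/-! ### Generic unramified base -/

section Generic

variable (M q : ℕ) [NeZero M] [NeZero q] (E : IntermediateField ℚ Qb)
  {O : Type} [CommRing O] [IsDomain O] [IsDiscreteValuationRing O]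
  [Algebra O E] [IsFractionRing O E]

/-- **The blocks at the points of the chart of `u₄`** (generic unramified base). -/
theorem block_inl_u4 (hq : q.Prime) (hodd : q ≠ 2) (hqM : ¬ q ∣ M) (h4 : 4 ∣ M)
    (h2 : IsUnit (2 : O)) (hFG : FinGaussC M O E) (π : O) (hπ : Irreducible π)
    (e : O) (he : IsUnit e) (hqe : ((q : ℕ) : O) = π * e)
    (hσfrac : ∀ x : LE (M * q) E, sigmaHom (M * q) E x ∈ GaussDVR.fracField O E) (p : ℕ) :
    letI := algebraOL O E (LE (M * q) E)
    ∀ (Hor : LE (M * q) E → Prop),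
      (∀ f : LE (M * q) E, Hor f →
        Model.HorIdeal p π (Chart O (alphaHom M q E (u4E M E h4))) f) →
      ∀ y : {𝔪 : Ideal (Chart O (alphaHom M q E (u4E M E h4))) //
          𝔪.IsMaximal ∧ algebraMap O (Chart O (alphaHom M q E (u4E M E h4))) π ∈ 𝔪},
        (∃ W₁ W₂, (∀ W', ChartPoints.ptOn π (alphaHom M q E (u4E M E h4)) (VB M q E O hq hqM)
              (Sum.inl y) W' ↔ W' = W₁ ∨ W' = W₂) ∧
            Model.NodeBlockI p π Hor
              (ChartPoints.ptR π (alphaHom M q E (u4E M E h4)) (Sum.inl y))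
              (VB M q E O hq hqM W₁) (VB M q E O hq hqM W₂)) ∨
        (∃ W₁, (∀ W', ChartPoints.ptOn π (alphaHom M q E (u4E M E h4)) (VB M q E O hq hqM)
              (Sum.inl y) W' ↔ W' = W₁) ∧
            Model.SmoothBlockI p π Hor
              (ChartPoints.ptR π (alphaHom M q E (u4E M E h4)) (Sum.inl y))
              (VB M q E O hq hqM W₁)) := by
  classical
  letI := algebraOL O E (LE M E)
  letI := algebraOL O E (LE (M * q) E)
  haveI := isScalarTower_OL O E (LE M E)
  haveI := isScalarTower_OL O E (LE (M * q) E)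
  have hfg := u4_fin_gauss M E h4 hFG
  have hfin : FiniteDimensional (IntermediateField.adjoin E {u4E M E h4}) (LE M E) := hfg.1
  haveI := hfin
  have hcf := Fermat.Agent.S36.Haupt4.Fibre.chartFacts_u4 M E h4 h2 hFG π hπ
  have hwu := hwu_u4 M q E (O := O) h2 hq hodd hqM h4
  haveI : Fact q.Prime := ⟨hq⟩
  haveI : CharP (IsLocalRing.ResidueField O) q :=
    Fermat.Agent.S36.DerUnram.charP_residue π hπ q ⟨e, hqe⟩
  haveI := Fermat.Agent.S36.Haupt4.LevelQ.finiteDimensional_alpha_u4E M q E h4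
  have hT : Transcendental E (alphaHom M q E (u4E M E h4)) :=
    Fermat.Agent.S36.Haupt4.LevelQ.transcendental_alpha_u4E M q E h4
  haveI hFR : IsFractionRing (Chart O (alphaHom M q E (u4E M E h4))) (LE (M * q) E) :=
    Fermat.Agent.S44.L.NodeLocInst.isFractionRing_chart_u4 M q E (O := O) h4
  haveI hN : IsNoetherianRing (Chart O (alphaHom M q E (u4E M E h4))) :=
    Fermat.Agent.S44.L.NodeLocInst.isNoetherianRing_chart' (E := E) _ hT
  have hinj : Function.Injective (algebraMap O (LE (M * q) E)) := by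
    rw [IsScalarTower.algebraMap_eq O E (LE (M * q) E)]
    exact (algebraMap E (LE (M * q) E)).injective.comp (IsFractionRing.injective O E)
  intro Hor hHor y
  have hπy : piC (alphaHom M q E (u4E M E h4)) π ∈ y.1 := y.2.2
  have hmm := Fermat.Agent.S44.L.NodeC1Inst.mem_or_mem_u4 M q E hq hodd hqM h4 h2 hFG π hπ e he
    hqe hσfrac y.1 y.2.1.isPrime hπy
  have key := @BlockGauss.block_inl O E _ _ _ _ _ _ (LE M E) (LE (M * q) E) _ _ _ _ π hπ
    (alphaHom M q E) (alphaHom_algebraMap M q E)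
    (sigmaHom (M * q) E) (sigmaHom_algebraMap (M * q) E) hσfrac (u4E M E h4) (u4 O)
    (hσu_u4 M q E h4) (wHom M q E hq hqM) (wHom_algebraMap M q E hq hqM) q _
    (sigmaHom_wHom_alpha M q E hq hqM) (wHom_wHom M q E hq hqM) hcf.prime_zero (hcop_u4 q)
    hord_u4 hq.two_le (hfrob_u4 q hq) hwu (hrank_u4 M q E hq hqM h4) hFR hN hinj p Hor hHor
    (VB M q E O hq hqM)
  have hVt : VB M q E O hq hqM true = GaussConst.VG O (sigmaHom (M * q) E) := rfl
  have hVf : VB M q E O hq hqM false = GaussConst.VG O ((sigmaHom (M * q) E).comp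
    (wHom M q E hq hqM : LE (M * q) E →+* LE (M * q) E)) := rfl
  have key2 := key hVt hVf y hmm
  refine key2 ?_ ?_ ?_
  · intro hI hZ
    have hI' : RingHom.ker (redInf π hπ (alphaHom M q E) (sigmaHom (M * q) E)
        (sigmaHom_algebraMap (M * q) E) hσfrac (u4E M E h4) (u4 O) (hσu_u4 M q E h4)) ≤ y.1 := by
      with_reducible exact hI
    have hZ' : RingHom.ker (redZero π hπ (alphaHom M q E) (sigmaHom (M * q) E)
        (sigmaHom_algebraMap (M * q) E) hσfrac (u4E M E h4) (u4 O) (hσu_u4 M q E h4)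
        (wHom M q E hq hqM) (wHom_algebraMap M q E hq hqM) q
        (sigmaHom_wHom_alpha M q E hq hqM)) ≤ y.1 := by
      with_reducible exact hZ
    have hnode := Fermat.Agent.S44.L.NodeC1Inst.node_u4 M q E hq hodd hqM
      h4 h2 hFG π hπ e he hqe hσfrac y.1 y.2.1 hI' hZ'
    obtain ⟨g, hg, hmul, h₁, h₂, hm⟩ := hnode
    have hne := Fermat.Agent.S44.L.NodeLocInst.t1_notMem_ker_redZero π hπ (alphaHom M q E)
        (alphaHom_algebraMap M q E) (sigmaHom (M * q) E) (sigmaHom_algebraMap (M * q) E) hσfrac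
        (u4E M E h4) (u4 O) (hσu_u4 M q E h4) (wHom M q E hq hqM) (wHom_algebraMap M q E hq hqM)
        q (sigmaHom_wHom_alpha M q E hq hqM) (wHom_wHom M q E hq hqM) hord_u4 hq.two_le
        (hfrob_u4 q hq) hwu
    refine ⟨_, _, g, hg, hmul, ?_, ?_, ?_, ?_⟩
    · exact h₁
    · exact h₂
    · exact hne
    · exact hm
  · intro hI hZ
    have hI' : RingHom.ker (redInf π hπ (alphaHom M q E) (sigmaHom (M * q) E)
        (sigmaHom_algebraMap (M * q) E) hσfrac (u4E M E h4) (u4 O) (hσu_u4 M q E h4)) ≤ y.1 := by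
      with_reducible exact hI
    have hZ' : ¬ RingHom.ker (redZero π hπ (alphaHom M q E) (sigmaHom (M * q) E)
        (sigmaHom_algebraMap (M * q) E) hσfrac (u4E M E h4) (u4 O) (hσu_u4 M q E h4)
        (wHom M q E hq hqM) (wHom_algebraMap M q E hq hqM) q
        (sigmaHom_wHom_alpha M q E hq hqM)) ≤ y.1 := by
      with_reducible exact hZ
    have hs := Fermat.Agent.S44.L.NodeC1Inst.smooth_inf_u4 M q E hq hodd hqM h4 h2 hFG π hπ e he
      hqe hσfrac y.1 y.2.1 hI' hZ'
    obtain ⟨hprin, hreg⟩ := hs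
    refine ⟨?_, ?_⟩
    · exact hprin
    · exact hreg
  · intro hZ hI
    have hI' : ¬ RingHom.ker (redInf π hπ (alphaHom M q E) (sigmaHom (M * q) E)
        (sigmaHom_algebraMap (M * q) E) hσfrac (u4E M E h4) (u4 O) (hσu_u4 M q E h4)) ≤ y.1 := by
      with_reducible exact hI
    have hZ' : RingHom.ker (redZero π hπ (alphaHom M q E) (sigmaHom (M * q) E)
        (sigmaHom_algebraMap (M * q) E) hσfrac (u4E M E h4) (u4 O) (hσu_u4 M q E h4)
        (wHom M q E hq hqM) (wHom_algebraMap M q E hq hqM) q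
        (sigmaHom_wHom_alpha M q E hq hqM)) ≤ y.1 := by
      with_reducible exact hZ
    have hs := Fermat.Agent.S44.L.NodeC1Inst.smooth_zero_u4 M q E hq hodd hqM h4 h2 hFG π hπ e he
      hqe hσfrac y.1 y.2.1 hZ' hI'
    obtain ⟨hprin, hreg⟩ := hs
    refine ⟨?_, ?_⟩
    · exact hprin
    · exact hreg

end Generic

/-! ### The arithmetic instance `O = A ∩ K`, uniformiser `p` -/

section Arithmetic

/-- **The blocks at the points of the chart of `u₄` over `O = A ∩ K`, uniformiser `p`**
(binder block of `S33/Geo/UnrExit`). -/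
theorem block_inl_u4_OE (A : ValuationSubring Qb) (M p : ℕ) [NeZero M] [NeZero p]
    (hp : p.Prime) (hodd : p ≠ 2) (hpM : ¬ p ∣ M) (h4 : 4 ∣ M) (hA : A.LiesOverPrime p)
    (K : IntermediateField ℚ Qb) [FiniteDimensional ℚ K] [IsDiscreteValuationRing (OE A K)]
    (z : Qb) (hz : IsPrimitiveRoot z M) (hzK : z ∈ K)
    (hπ : Irreducible ((p : ℕ) : OE A K)) (m : ℕ) :
    letI := algebraOL (OE A K) K (LE (M * p) K)
    ∀ (Hor : LE (M * p) K → Prop),
      (∀ f : LE (M * p) K, Hor f → Model.HorIdeal m ((p : ℕ) : OE A K)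
        (Chart (OE A K) (alphaHom M p K (u4E M K h4))) f) →
      ∀ y : {𝔪 : Ideal (Chart (OE A K) (alphaHom M p K (u4E M K h4))) //
          𝔪.IsMaximal ∧ algebraMap (OE A K) (Chart (OE A K) (alphaHom M p K (u4E M K h4)))
            ((p : ℕ) : OE A K) ∈ 𝔪},
        (∃ W₁ W₂, (∀ W', ChartPoints.ptOn ((p : ℕ) : OE A K) (alphaHom M p K (u4E M K h4))
              (VB M p K (OE A K) hp hpM) (Sum.inl y) W' ↔ W' = W₁ ∨ W' = W₂) ∧
            Model.NodeBlockI m ((p : ℕ) : OE A K) Hor
              (ChartPoints.ptR ((p : ℕ) : OE A K) (alphaHom M p K (u4E M K h4)) (Sum.inl y))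
              (VB M p K (OE A K) hp hpM W₁) (VB M p K (OE A K) hp hpM W₂)) ∨
        (∃ W₁, (∀ W', ChartPoints.ptOn ((p : ℕ) : OE A K) (alphaHom M p K (u4E M K h4))
              (VB M p K (OE A K) hp hpM) (Sum.inl y) W' ↔ W' = W₁) ∧
            Model.SmoothBlockI m ((p : ℕ) : OE A K) Hor
              (ChartPoints.ptR ((p : ℕ) : OE A K) (alphaHom M p K (u4E M K h4)) (Sum.inl y))
              (VB M p K (OE A K) hp hpM W₁)) := by
  haveI : Fact p.Prime := ⟨hp⟩
  exact block_inl_u4 (O := OE A K) M p K hp hodd hpM h4 (isUnit_two_OE A hA hodd K)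
    (Fermat.Agent.S36.Haupt4.Fibre.finGaussC_OE A M hpM hA K z hz hzK) ((p : ℕ) : OE A K) hπ 1
    isUnit_one (mul_one _).symm (sigmaHom_mem_fracField (M * p) K A) m

end Arithmetic

end Fermat.Agent.S33.Geo.ModelInstU
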