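import Mathlib
import Fermat.Agent.S33.Geo.ModelInstU
import Fermat.Agent.S33.Geo.ModelInstInf
import Fermat.Agent.S33.Geo.FunIBlocks

/-!
# S33 / GEO / Stage B, row B3: the blocks of the level-`M p` model at `u₄`, all closed points

`O = OE A K` with uniformiser `(p : OE A K)` (binder block of `S33/Geo/UnrExit`),
`U = alphaHom M p K (u4E M K h4)`, `V = GaussRings.VB M p K (OE A K) hp hpM`,
`Hor f := Horiz (p : OE A K) p U f ∧ Horiz (p : OE A K) p U⁻¹ f`.

* `block_inl_u4_horiz` : the block at a point `Sum.inl y` of `ChartPoints.Pt (p : OE A K) U`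
  for the horizontal clause of record (`ModelInstU.block_inl_u4_OE` +
  `ModelChart.horIdeal_of_horChart`).
* `block_u4` : the `hblock` binder of `FunIBlocks.funIStatement_of_blocks`, verbatim: the block
  at every point of `ChartPoints.Pt (p : OE A K) U` (`block_inl_u4_horiz` on the chart of `U`,
  `ModelInstInf.block_inr_u4_OE` at the points over `U = ∞`).
* `funIStatement` : **the hole `?FunI`**, `FunLevel.FunIStatement M p` for every `M` with
  `4 ∣ M`.
-/

set_option autoImplicit false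
set_option linter.unusedSectionVars false
set_option linter.unusedVariables false
set_option linter.style.haveILetI false
set_option synthInstance.maxHeartbeats 400000
set_option maxHeartbeats 1000000

open ModularCurve

noncomputable section

namespace Fermat.Agent.S33.Geo.ModelInst

open Fermat.Agent.S18.K1Defs Fermat.Agent.S18.K1Main Fermat.Agent.S30 Fermat.Agent.S30.E4
open Fermat.Agent.S30.Producer Fermat.Agent.S34 Fermat.Agent.S34.TwoPrimesGauss
open Fermat.Agent.S34.TwoPrimesRank Fermat.Agent.S34.HauptU.Plug Fermat.Agent.S36.Haupt4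
open Fermat.Agent.S34.HauptU.LevelMAux Fermat.Agent.S36.LevelQInstAlt
open Fermat.Agent.S36.HorizAdapter
open Fermat.Agent.S33.Geo.Contract Fermat.Agent.S33.Geo.GaussRings
open Fermat.Agent.S33.Geo.Model Fermat.Agent.S33.Geo.ChartPoints

local notation "Qb" => AlgebraicClosure ℚ

/-! ### Generic unramified base -/

section Generic

variable (M q : ℕ) [NeZero M] [NeZero q] (E : IntermediateField ℚ Qb)
  {O : Type} [CommRing O] [IsDomain O] [IsDiscreteValuationRing O]
  [Algebra O E] [IsFractionRing O E]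

/-- **The blocks at the points of the chart of `u₄`, horizontal clause of record** (generic
unramified base). -/
theorem block_inl_u4_horiz_gen (hq : q.Prime) (hodd : q ≠ 2) (hqM : ¬ q ∣ M) (h4 : 4 ∣ M)
    (h2 : IsUnit (2 : O)) (hFG : FinGaussC M O E) (π : O) (hπ : Irreducible π)
    (e : O) (he : IsUnit e) (hqe : ((q : ℕ) : O) = π * e)
    (hσfrac : ∀ x : LE (M * q) E, sigmaHom (M * q) E x ∈ GaussDVR.fracField O E) (p : ℕ) :
    letI := algebraOL O E (LE (M * q) E)
    ∀ y : {𝔪 : Ideal (Chart O (alphaHom M q E (u4E M E h4))) //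
        𝔪.IsMaximal ∧ algebraMap O (Chart O (alphaHom M q E (u4E M E h4))) π ∈ 𝔪},
      (∃ W₁ W₂, (∀ W, ptOn π (alphaHom M q E (u4E M E h4)) (VB M q E O hq hqM)
          (Sum.inl y) W ↔ W = W₁ ∨ W = W₂) ∧
        NodeBlockI p π
          (fun f => Horiz π p (alphaHom M q E (u4E M E h4)) f ∧
            Horiz π p (alphaHom M q E (u4E M E h4))⁻¹ f)
          (ptR π (alphaHom M q E (u4E M E h4)) (Sum.inl y))
          (VB M q E O hq hqM W₁) (VB M q E O hq hqM W₂)) ∨
      (∃ W₁, (∀ W, ptOn π (alphaHom M q E (u4E M E h4)) (VB M q E O hq hqM)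
          (Sum.inl y) W ↔ W = W₁) ∧
        SmoothBlockI p π
          (fun f => Horiz π p (alphaHom M q E (u4E M E h4)) f ∧
            Horiz π p (alphaHom M q E (u4E M E h4))⁻¹ f)
          (ptR π (alphaHom M q E (u4E M E h4)) (Sum.inl y))
          (VB M q E O hq hqM W₁)) := by
  letI := algebraOL O E (LE (M * q) E)
  exact Fermat.Agent.S33.Geo.ModelInstU.block_inl_u4 M q E hq hodd hqM h4 h2 hFG π hπ e he hqe
    hσfrac p
    (fun f => Horiz π p (alphaHom M q E (u4E M E h4)) f ∧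
      Horiz π p (alphaHom M q E (u4E M E h4))⁻¹ f)
    (fun f h => Fermat.Agent.S33.Geo.ModelChart.horIdeal_of_horChart h.1)

end Generic

/-! ### The arithmetic instance `O = A ∩ K`, uniformiser `p` -/

/-- **The blocks at the points of the chart of `u₄`, horizontal clause of record.** -/
theorem block_inl_u4_horiz (A : ValuationSubring Qb) (M p : ℕ) [NeZero M] [NeZero p]
    (hp : p.Prime) (hodd : p ≠ 2) (hpM : ¬ p ∣ M) (h4 : 4 ∣ M) (hA : A.LiesOverPrime p)
    (K : IntermediateField ℚ Qb) [FiniteDimensional ℚ K] [IsDiscreteValuationRing (OE A K)]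
    (z : Qb) (hz : IsPrimitiveRoot z M) (hzK : z ∈ K)
    (hπ : Irreducible ((p : ℕ) : OE A K)) :
    letI := algebraOL (OE A K) K (LE (M * p) K)
    ∀ y : {𝔪 : Ideal (Chart (OE A K) (alphaHom M p K (u4E M K h4))) //
        𝔪.IsMaximal ∧ algebraMap (OE A K) (Chart (OE A K) (alphaHom M p K (u4E M K h4)))
          ((p : ℕ) : OE A K) ∈ 𝔪},
      (∃ W₁ W₂, (∀ W, ptOn ((p : ℕ) : OE A K) (alphaHom M p K (u4E M K h4))
          (VB M p K (OE A K) hp hpM) (Sum.inl y) W ↔ W = W₁ ∨ W = W₂) ∧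
        NodeBlockI p ((p : ℕ) : OE A K)
          (fun f => Horiz ((p : ℕ) : OE A K) p (alphaHom M p K (u4E M K h4)) f ∧
            Horiz ((p : ℕ) : OE A K) p (alphaHom M p K (u4E M K h4))⁻¹ f)
          (ptR ((p : ℕ) : OE A K) (alphaHom M p K (u4E M K h4)) (Sum.inl y))
          (VB M p K (OE A K) hp hpM W₁) (VB M p K (OE A K) hp hpM W₂)) ∨
      (∃ W₁, (∀ W, ptOn ((p : ℕ) : OE A K) (alphaHom M p K (u4E M K h4))
          (VB M p K (OE A K) hp hpM) (Sum.inl y) W ↔ W = W₁) ∧
        SmoothBlockI p ((p : ℕ) : OE A K)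
          (fun f => Horiz ((p : ℕ) : OE A K) p (alphaHom M p K (u4E M K h4)) f ∧
            Horiz ((p : ℕ) : OE A K) p (alphaHom M p K (u4E M K h4))⁻¹ f)
          (ptR ((p : ℕ) : OE A K) (alphaHom M p K (u4E M K h4)) (Sum.inl y))
          (VB M p K (OE A K) hp hpM W₁)) := by
  haveI : Fact p.Prime := ⟨hp⟩
  exact block_inl_u4_horiz_gen (O := OE A K) M p K hp hodd hpM h4 (isUnit_two_OE A hA hodd K)
    (Fermat.Agent.S36.Haupt4.Fibre.finGaussC_OE A M hpM hA K z hz hzK) ((p : ℕ) : OE A K) hπ 1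
    isUnit_one (mul_one _).symm (sigmaHom_mem_fracField (M * p) K A) p

/-- **The blocks of the level-`M p` model at `u₄`**: the `hblock` binder of
`FunIBlocks.funIStatement_of_blocks`. -/
theorem block_u4 (A : ValuationSubring Qb) (M p : ℕ) [NeZero M] [NeZero p]
    (hp : p.Prime) (hodd : p ≠ 2) (hpM : ¬ p ∣ M) (h4 : 4 ∣ M) (hA : A.LiesOverPrime p)
    (K : IntermediateField ℚ Qb) [FiniteDimensional ℚ K] [IsDiscreteValuationRing (OE A K)]
    (z : Qb) (hz : IsPrimitiveRoot z M) (hzK : z ∈ K)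
    (hπ : Irreducible ((p : ℕ) : OE A K)) :
    letI := algebraOL (OE A K) K (LE (M * p) K)
    ∀ y : Pt ((p : ℕ) : OE A K) (alphaHom M p K (u4E M K h4)),
      (∃ W₁ W₂, (∀ W, ptOn ((p : ℕ) : OE A K) (alphaHom M p K (u4E M K h4))
          (VB M p K (OE A K) hp hpM) y W ↔ W = W₁ ∨ W = W₂) ∧
        NodeBlockI p ((p : ℕ) : OE A K)
          (fun f => Horiz ((p : ℕ) : OE A K) p (alphaHom M p K (u4E M K h4)) f ∧
            Horiz ((p : ℕ) : OE A K) p (alphaHom M p K (u4E M K h4))⁻¹ f)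
          (ptR ((p : ℕ) : OE A K) (alphaHom M p K (u4E M K h4)) y)
          (VB M p K (OE A K) hp hpM W₁) (VB M p K (OE A K) hp hpM W₂)) ∨
      (∃ W₁, (∀ W, ptOn ((p : ℕ) : OE A K) (alphaHom M p K (u4E M K h4))
          (VB M p K (OE A K) hp hpM) y W ↔ W = W₁) ∧
        SmoothBlockI p ((p : ℕ) : OE A K)
          (fun f => Horiz ((p : ℕ) : OE A K) p (alphaHom M p K (u4E M K h4)) f ∧
            Horiz ((p : ℕ) : OE A K) p (alphaHom M p K (u4E M K h4))⁻¹ f)
          (ptR ((p : ℕ) : OE A K) (alphaHom M p K (u4E M K h4)) y)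
          (VB M p K (OE A K) hp hpM W₁)) := by
  letI := algebraOL (OE A K) K (LE (M * p) K)
  rintro (y | y)
  · exact block_inl_u4_horiz A M p hp hodd hpM h4 hA K z hz hzK hπ y
  · exact Or.inr
      (Fermat.Agent.S33.Geo.ModelInstInf.block_inr_u4_OE A M p hp hodd hpM h4 hA K z hz hzK hπ y)

/-- **The hole `?FunI`**: `FunLevel.FunIStatement M p` for every level `M` with `4 ∣ M`. -/
theorem funIStatement (M p : ℕ) [NeZero M] [NeZero p] (h4 : 4 ∣ M) :
    Fermat.Agent.S33.Geo.FunLevel.FunIStatement M p :=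
  Fermat.Agent.S33.Geo.FunIBlocks.funIStatement_of_blocks M p h4
    (fun hp hodd hpM A hA K _ _ z hz hzK hπ =>
      block_u4 A M p hp hodd hpM h4 hA K z hz hzK hπ)

end Fermat.Agent.S33.Geo.ModelInst
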