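import Mathlib

/-!
# S33 / GEO, row DVR: `p`-power Galois subextensions of tame extensions are unramified

Level-free commutative algebra, Mathlib only (helper78).  Vocabulary: the ramification index
`Ideal.ramificationIdx` of Mathlib (length of `S_q / p S_q`), `Algebra.IsUnramifiedAt`, and the
elementwise forms used by the purity bricks of `S44/L` (`DiscrUnr.isUnit_discr_of_unr`):

* `hunr` at a prime `q` of `S` over `R`: `∀ x ∈ q, ∃ s ∉ q, s * x ∈ (q ∩ R) S`;
* `hsep` at `q`: `∀ c : S, ∃ f : R[X], f(c) ∈ q ∧ f'(c) ∉ q`.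

Contents.

* Bridges: `ramificationIdx_eq_one_of_unr`, `unr_of_ramificationIdx_eq_one`
  (`hunr` at `q` ⟺ `q.ramificationIdx R = 1`).
* `not_dvd_ramificationIdx_of_tower`: `A ⊆ A1 ⊆ C1`, `rank_A A1 < p`, `e(P1 | A1) = 1`
  ⟹ `p ∤ e(P1 | A)`.
* `ramificationIdx_under_eq_one_of_galois_pPow` (the tower step): `A ⊆ C0 ⊆ C1`, `C0 / A` Galois
  with group of order `p ^ s`, `p ∤ e(P1 | A)` ⟹ `e(P1 ∩ C0 | A) = 1`.
* `unr_of_galois_pPow`: the same in the elementwise form.
* `isUnramifiedAt_of_aeval_derivative` (one generator) and `isUnramifiedAt_of_gens`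
  (`n` generators, induction through the rings `interSub M = C1 ∩ M`): the integral closure `C1`
  of a Dedekind domain `A1` in `L1 = K1(Z_1, …, Z_n)` is unramified at every prime `P` with
  `f_i(Z_i) = 0`, `f_i'(Z_i) ∉ P` (different ideal).
* `isUnramifiedAt_under_of_tame_galois`, `unr_under_of_tame_galois`, `sep_of_isUnramifiedAt`
  and the exit `unr_sep_of_tame_galois`: `hunr` (always) and `hsep` (if `p ∈ 𝔪_A`) at every
  maximal ideal of `C0` over the local base `A`.
-/

set_option autoImplicit false

namespace Fermat.Agent.S33.Geo.AsDvr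

open Polynomial

/-! ### Bridges: `ramificationIdx = 1` and the elementwise form -/

section Bridge

variable {R S : Type*} [CommRing R] [CommRing S] [Algebra R S]

theorem map_under_eq_map_map (q : Ideal S) [q.IsPrime] :
    (q.under R).map (algebraMap R (Localization.AtPrime q)) =
      ((q.under R).map (algebraMap R S)).map (algebraMap S (Localization.AtPrime q)) := by
  rw [Ideal.map_map, ← IsScalarTower.algebraMap_eq]

/-- The elementwise form of `e = 1` at the prime `q` of `S` over `R` gives `p S_q = q S_q`. -/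
theorem map_eq_maximalIdeal_of_unr (q : Ideal S) [q.IsPrime]
    (h : ∀ x ∈ q, ∃ s : S, s ∉ q ∧ s * x ∈ (q.under R).map (algebraMap R S)) :
    (q.under R).map (algebraMap R (Localization.AtPrime q)) =
      IsLocalRing.maximalIdeal (Localization.AtPrime q) := by
  rw [map_under_eq_map_map (R := R) q]
  apply le_antisymm
  · rw [← Localization.AtPrime.map_eq_maximalIdeal]
    exact Ideal.map_mono Ideal.map_comap_le
  · rw [← Localization.AtPrime.map_eq_maximalIdeal, Ideal.map_le_iff_le_comap]
    intro x hx
    obtain ⟨s, hs, hsx⟩ := h x hx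
    rw [Ideal.mem_comap]
    have hu : IsUnit (algebraMap S (Localization.AtPrime q) s) :=
      IsLocalization.map_units (Localization.AtPrime q) (⟨s, hs⟩ : q.primeCompl)
    have h1 : algebraMap S (Localization.AtPrime q) (s * x) ∈
        ((q.under R).map (algebraMap R S)).map (algebraMap S (Localization.AtPrime q)) :=
      Ideal.mem_map_of_mem _ hsx
    rw [map_mul] at h1
    exact (Ideal.unit_mul_mem_iff_mem _ hu).mp h1

/-- `p S_q = q S_q` in the elementwise form. -/
theorem unr_of_map_eq_maximalIdeal (q : Ideal S) [q.IsPrime]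
    (h : (q.under R).map (algebraMap R (Localization.AtPrime q)) =
      IsLocalRing.maximalIdeal (Localization.AtPrime q)) :
    ∀ x ∈ q, ∃ s : S, s ∉ q ∧ s * x ∈ (q.under R).map (algebraMap R S) := by
  intro x hx
  have hx' : algebraMap S (Localization.AtPrime q) x ∈
      ((q.under R).map (algebraMap R S)).map (algebraMap S (Localization.AtPrime q)) := by
    rw [← map_under_eq_map_map (R := R) q, h]
    exact (IsLocalization.AtPrime.to_map_mem_maximal_iff (Localization.AtPrime q) q x).mpr hx
  rw [IsLocalization.mem_map_algebraMap_iff q.primeCompl] at hx'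
  obtain ⟨⟨a, s⟩, has⟩ := hx'
  have has' : algebraMap S (Localization.AtPrime q) (x * s) =
      algebraMap S (Localization.AtPrime q) a := by
    rw [map_mul]
    exact has
  obtain ⟨c, hc⟩ := (IsLocalization.eq_iff_exists q.primeCompl (Localization.AtPrime q)).mp has'
  refine ⟨c * s, ?_, ?_⟩
  · exact fun hcs => (Ideal.IsPrime.mem_or_mem ‹_› hcs).elim c.2 s.2
  · have e1 : (c : S) * s * x = c * a := by
      rw [← hc]
      ring
    rw [e1]
    exact Ideal.mul_mem_left _ _ a.2

/-- **Bridge (⇒).**  The elementwise form `hunr` at `q` gives `q.ramificationIdx R = 1`. -/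
theorem ramificationIdx_eq_one_of_unr (q : Ideal S) [q.IsPrime]
    (h : ∀ x ∈ q, ∃ s : S, s ∉ q ∧ s * x ∈ (q.under R).map (algebraMap R S)) :
    q.ramificationIdx R = 1 := by
  rw [Ideal.ramificationIdx_def, ENat.toNat_eq_iff_eq_natCast, Nat.cast_one,
    Module.length_eq_one_iff, isSimpleModule_iff_isCoatom, ← Ideal.isMaximal_def,
    IsLocalRing.isMaximal_iff]
  exact map_eq_maximalIdeal_of_unr q h

/-- `q.ramificationIdx R = 1` gives `p S_q = q S_q`. -/
theorem map_eq_maximalIdeal_of_ramificationIdx_eq_one (q : Ideal S) [q.IsPrime]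
    (h : q.ramificationIdx R = 1) :
    (q.under R).map (algebraMap R (Localization.AtPrime q)) =
      IsLocalRing.maximalIdeal (Localization.AtPrime q) := by
  rw [Ideal.ramificationIdx_def, ENat.toNat_eq_iff_eq_natCast, Nat.cast_one,
    Module.length_eq_one_iff, isSimpleModule_iff_isCoatom, ← Ideal.isMaximal_def,
    IsLocalRing.isMaximal_iff] at h
  exact h

/-- **Bridge (⇐).**  `q.ramificationIdx R = 1` gives the elementwise form `hunr` at `q`. -/
theorem unr_of_ramificationIdx_eq_one (q : Ideal S) [q.IsPrime] (h : q.ramificationIdx R = 1) :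
    ∀ x ∈ q, ∃ s : S, s ∉ q ∧ s * x ∈ (q.under R).map (algebraMap R S) :=
  unr_of_map_eq_maximalIdeal q (map_eq_maximalIdeal_of_ramificationIdx_eq_one q h)

end Bridge

/-! ### The tame tower `A ⊆ A1 ⊆ C1` -/

section Tower

variable {A A1 C1 : Type*} [CommRing A] [IsDomain A] [CommRing A1] [CommRing C1]
  [Algebra A A1] [Algebra A1 C1] [Algebra A C1] [IsScalarTower A A1 C1]
  [Module.Finite A A1] [Module.Flat A A1]

/-- The ramification index of a prime of a finite flat algebra is at most the rank. -/
theorem ramificationIdx_le_finrank (q : Ideal A1) [q.IsPrime] :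
    q.ramificationIdx A ≤ Module.finrank A A1 := by
  classical
  have hfin : Fintype ((q.under A).primesOver A1) :=
    (Algebra.QuasiFinite.finite_primesOver (q.under A)).fintype
  rw [← Ideal.sum_ramification_inertia_eq_finrank (q.under A) A1]
  let Q : (q.under A).primesOver A1 := ⟨q, ‹q.IsPrime›, inferInstance⟩
  have h1 : Q.1.ramificationIdx A * Q.1.inertiaDeg A ≤
      ∑ r : (q.under A).primesOver A1, r.1.ramificationIdx A * r.1.inertiaDeg A :=
    Finset.single_le_sum (f := fun r : (q.under A).primesOver A1 =>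
      r.1.ramificationIdx A * r.1.inertiaDeg A) (fun _ _ => Nat.zero_le _) (Finset.mem_univ Q)
  have h2 : 0 < q.inertiaDeg A := Ideal.inertiaDeg_pos q A
  calc q.ramificationIdx A ≤ q.ramificationIdx A * q.inertiaDeg A :=
        Nat.le_mul_of_pos_right _ h2
    _ ≤ _ := h1

/-- **The tame tower.**  `A ⊆ A1 ⊆ C1` with `A1` finite flat over the domain `A` of rank `< p`,
`C1` flat over `A1`, and `e(P1 | A1) = 1`: then `p ∤ e(P1 | A)`. -/
theorem not_dvd_ramificationIdx_of_tower [Module.Flat A1 C1] {p : ℕ}
    (hdeg : Module.finrank A A1 < p) (P1 : Ideal C1) [P1.IsPrime]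
    (h1 : P1.ramificationIdx A1 = 1) : ¬ p ∣ P1.ramificationIdx A := by
  have htow : P1.ramificationIdx A = (P1.under A1).ramificationIdx A * P1.ramificationIdx A1 :=
    Ideal.ramificationIdx_tower (P1.under A1) P1
  rw [htow, h1, mul_one]
  have hpos : 0 < (P1.under A1).ramificationIdx A := Ideal.ramificationIdx_pos _ A
  have hle : (P1.under A1).ramificationIdx A ≤ Module.finrank A A1 :=
    ramificationIdx_le_finrank (P1.under A1)
  exact Nat.not_dvd_of_pos_of_lt hpos (lt_of_le_of_lt hle hdeg)

end Tower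

/-! ### The tower step: a `p`-power Galois subextension of a tame extension is unramified -/

section Galois

variable {A C0 C1 : Type*} [CommRing A] [IsDomain A] [CommRing C0] [IsDomain C0] [CommRing C1]
  [Algebra A C0] [Algebra C0 C1] [Algebra A C1] [IsScalarTower A C0 C1]
  [Module.Finite A C0] [Module.Flat A C0] [Module.Flat C0 C1]

/-- **The tower step.**  `A ⊆ C0 ⊆ C1` domains, `C0` finite flat over `A` and Galois with a group
of order `p ^ s`, `C1` flat over `C0`.  If `P1` is a prime of `C1` with `p ∤ e(P1 | A)`, then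
`e(P1 ∩ C0 | A) = 1`. -/
theorem ramificationIdx_under_eq_one_of_galois_pPow (G : Type*) [Group G]
    [MulSemiringAction G C0] [IsGaloisGroup G A C0] {p s : ℕ} (hp : p.Prime)
    (hG : Nat.card G = p ^ s) (P1 : Ideal C1) [P1.IsPrime]
    (he : ¬ p ∣ P1.ramificationIdx A) : (P1.under C0).ramificationIdx A = 1 := by
  have hfinG : Finite G := IsGaloisGroup.finite G A C0
  have h1 : (P1.under C0).ramificationIdx A ∣ P1.ramificationIdx A :=
    Ideal.ramificationIdx_below_dvd (P1.under C0) P1
  have h2 : (P1.under C0).ramificationIdx A ∣ Nat.card G := by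
    have h3 := Ideal.ncard_primesOver_mul_ramificationIdxIn_mul_inertiaDegIn
      ((P1.under C0).under A) C0 G
    rw [Ideal.ramificationIdxIn_eq_ramificationIdx ((P1.under C0).under A) (P1.under C0) G] at h3
    rw [← h3]
    exact Dvd.dvd.mul_left (Dvd.intro _ rfl) _
  rw [hG] at h2
  obtain ⟨k, -, hk⟩ := (Nat.dvd_prime_pow hp).mp h2
  rcases Nat.eq_zero_or_pos k with rfl | hkpos
  · rw [hk, pow_zero]
  · exfalso
    apply he
    refine dvd_trans ?_ h1
    rw [hk]
    exact dvd_pow_self p hkpos.ne'

/-- **The tower step, elementwise form.**  In the situation of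
`ramificationIdx_under_eq_one_of_galois_pPow`, `C0` is unramified over `A` at `P1 ∩ C0`. -/
theorem unr_of_galois_pPow (G : Type*) [Group G]
    [MulSemiringAction G C0] [IsGaloisGroup G A C0] {p s : ℕ} (hp : p.Prime)
    (hG : Nat.card G = p ^ s) (P1 : Ideal C1) [P1.IsPrime]
    (he : ¬ p ∣ P1.ramificationIdx A) :
    ∀ x ∈ P1.under C0, ∃ c : C0, c ∉ P1.under C0 ∧
      c * x ∈ ((P1.under C0).under A).map (algebraMap A C0) :=
  unr_of_ramificationIdx_eq_one _ (ramificationIdx_under_eq_one_of_galois_pPow G hp hG P1 he)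

end Galois

/-! ### Unramifiedness from generators with unit derivative (different ideal) -/

section OneGen

attribute [local instance] FractionRing.liftAlgebra FractionRing.isScalarTower_liftAlgebra

variable (A1 K1 : Type*) {L1 C1 : Type*} [CommRing A1] [IsDedekindDomain A1] [Field K1]
  [Algebra A1 K1] [IsFractionRing A1 K1] [CharZero K1]
  [Field L1] [Algebra K1 L1] [FiniteDimensional K1 L1]
  [CommRing C1] [Algebra A1 C1] [Algebra C1 L1] [Algebra A1 L1] [IsScalarTower A1 K1 L1]
  [IsScalarTower A1 C1 L1] [IsIntegralClosure C1 A1 L1]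

include K1 in
/-- One generator: if `L1 = K1(x)` with `x` in the integral closure `C1` of the Dedekind domain
`A1`, `f(x) = 0` for some `f ∈ A1[X]` and `f'(x) ∉ P`, then `C1 / A1` is unramified at `P`. -/
theorem isUnramifiedAt_of_aeval_derivative (x : C1)
    (hx : Algebra.adjoin K1 {algebraMap C1 L1 x} = ⊤) (f : A1[X]) (hf : aeval x f = 0)
    (P : Ideal C1) [P.IsPrime] (hP : aeval x (derivative f) ∉ P) :
    Algebra.IsUnramifiedAt A1 P := by
  have hinj : Function.Injective (algebraMap C1 L1) := IsIntegralClosure.algebraMap_injective C1 A1 L1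
  have : IsDomain C1 := hinj.isDomain
  have : Algebra.IsSeparable K1 L1 := inferInstance
  have : IsDedekindDomain C1 := IsIntegralClosure.isDedekindDomain A1 K1 L1 C1
  have : Module.Finite A1 C1 := IsIntegralClosure.finite A1 K1 L1 C1
  have : IsFractionRing C1 L1 := IsIntegralClosure.isFractionRing_of_finite_extension A1 K1 L1 C1
  have hAinj : Function.Injective (algebraMap A1 C1) := by
    have h1 : Function.Injective (algebraMap A1 L1) := by
      rw [IsScalarTower.algebraMap_eq A1 K1 L1]
      exact (algebraMap K1 L1).injective.comp (IsFractionRing.injective A1 K1)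
    rw [IsScalarTower.algebraMap_eq A1 C1 L1] at h1
    exact Function.Injective.of_comp h1
  have : FaithfulSMul A1 C1 := (faithfulSMul_iff_algebraMap_injective A1 C1).mpr hAinj
  have : Module.IsTorsionFree A1 C1 := inferInstance
  have hsep : Algebra.IsSeparable (FractionRing A1) (FractionRing C1) := by
    have : CharZero (FractionRing A1) := by
      have e := (FractionRing.algEquiv A1 K1)
      exact (RingHom.charZero_iff e.symm.toRingHom.injective).mp inferInstance
    infer_instance
  rw [← not_dvd_differentIdeal_iff]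
  intro hdvd
  have hle : differentIdeal A1 C1 ≤ P := Ideal.le_of_dvd hdvd
  have hmem := hle (aeval_derivative_mem_differentIdeal A1 K1 L1 x hx)
  have hint : IsIntegral A1 x := IsIntegralClosure.isIntegral A1 L1 x
  obtain ⟨g, hg⟩ := minpoly.isIntegrallyClosed_dvd hint hf
  apply hP
  rw [hg, derivative_mul, map_add, map_mul, map_mul, minpoly.aeval, zero_mul, add_zero]
  exact P.mul_mem_right _ hmem

end OneGen

/-! ### The intermediate ring `C1 ∩ M` -/

section Inter

variable {A1 K1 L1 C1 : Type*} [CommRing A1] [Field K1] [Algebra A1 K1] [Field L1] [Algebra K1 L1]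
  [CommRing C1] [Algebra A1 C1] [Algebra C1 L1] [Algebra A1 L1] [IsScalarTower A1 K1 L1]
  [IsScalarTower A1 C1 L1]

/-- `C1 ∩ M` as an `A1`-subalgebra of `C1`, for an intermediate field `M` of `L1 / K1`. -/
def interSub (M : IntermediateField K1 L1) : Subalgebra A1 C1 :=
  (M.toSubalgebra.restrictScalars A1).comap (IsScalarTower.toAlgHom A1 C1 L1)

theorem mem_interSub (M : IntermediateField K1 L1) (c : C1) :
    c ∈ interSub (A1 := A1) M ↔ algebraMap C1 L1 c ∈ M := Iff.rfl

/-- The inclusion `C1 ∩ M → M`. -/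
def interSubHom (M : IntermediateField K1 L1) : interSub (A1 := A1) (C1 := C1) M →+* M :=
  ((algebraMap C1 L1).comp (algebraMap (interSub (A1 := A1) (C1 := C1) M) C1)).codRestrict M
    (fun d => d.2)

instance interSubAlgebra (M : IntermediateField K1 L1) :
    Algebra (interSub (A1 := A1) (C1 := C1) M) M := (interSubHom M).toAlgebra

theorem coe_algebraMap_interSub (M : IntermediateField K1 L1)
    (d : interSub (A1 := A1) (C1 := C1) M) :
    ((algebraMap (interSub (A1 := A1) (C1 := C1) M) M d : M) : L1) = algebraMap C1 L1 (d : C1) :=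
  rfl

instance interSub_isScalarTower_top (M : IntermediateField K1 L1) :
    IsScalarTower (interSub (A1 := A1) (C1 := C1) M) M L1 :=
  IsScalarTower.of_algebraMap_eq (fun _ => rfl)

instance interSub_isScalarTower_bot (M : IntermediateField K1 L1) :
    IsScalarTower A1 (interSub (A1 := A1) (C1 := C1) M) M :=
  IsScalarTower.of_algebraMap_eq (fun a => by
    apply Subtype.ext
    rw [coe_algebraMap_interSub]
    exact IsScalarTower.algebraMap_apply A1 C1 L1 a)

variable [IsIntegralClosure C1 A1 L1]

theorem isIntegral_interSub (M : IntermediateField K1 L1) :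
    Algebra.IsIntegral A1 (interSub (A1 := A1) (C1 := C1) M) :=
  ⟨fun d => by
    have h1 : IsIntegral A1 (d : C1) := IsIntegralClosure.isIntegral A1 L1 (d : C1)
    exact (isIntegral_algHom_iff (interSub (A1 := A1) (C1 := C1) M).val
      Subtype.val_injective).mp h1⟩

theorem isIntegralClosure_interSub (M : IntermediateField K1 L1) :
    IsIntegralClosure (interSub (A1 := A1) (C1 := C1) M) A1 M := by
  have hinj : Function.Injective (algebraMap C1 L1) :=
    IsIntegralClosure.algebraMap_injective C1 A1 L1
  have : IsScalarTower A1 M L1 := IsScalarTower.of_algebraMap_eq (fun _ => rfl)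
  have := isIntegral_interSub (A1 := A1) (C1 := C1) M
  refine ⟨?_, ?_⟩
  · intro d d' h
    apply Subtype.ext
    apply hinj
    rw [← coe_algebraMap_interSub, ← coe_algebraMap_interSub, h]
  · intro x
    constructor
    · intro hx
      have h1 : IsIntegral A1 (x : L1) := hx.map (IsScalarTower.toAlgHom A1 M L1)
      obtain ⟨c, hc⟩ := (IsIntegralClosure.isIntegral_iff (A := C1)).mp h1
      refine ⟨⟨c, ?_⟩, ?_⟩
      · rw [mem_interSub, hc]; exact x.2
      · apply Subtype.ext; rw [coe_algebraMap_interSub]; exact hc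
    · rintro ⟨d, rfl⟩
      exact (Algebra.IsIntegral.isIntegral (R := A1) d).map
        (IsScalarTower.toAlgHom A1 (interSub (A1 := A1) (C1 := C1) M) M)

theorem isIntegralClosure_over_interSub (M : IntermediateField K1 L1) :
    IsIntegralClosure C1 (interSub (A1 := A1) (C1 := C1) M) L1 := by
  have := isIntegral_interSub (A1 := A1) (C1 := C1) M
  exact IsIntegralClosure.tower_top (R := A1)

end Inter


/-! ### Field-theoretic plumbing for the induction on the number of generators -/

section Adjoin

variable {K1 L1 : Type*} [Field K1] [Field L1] [Algebra K1 L1]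

/-- If `L1 = K1[S ∪ {z}]` and `S ⊆ M`, then `L1 = M[z]`. -/
theorem adjoin_singleton_eq_top_of_adjoin (M : IntermediateField K1 L1) (S : Set L1) (z : L1)
    (hS : S ⊆ M) (h : Algebra.adjoin K1 (insert z S) = ⊤) :
    Algebra.adjoin M {z} = ⊤ := by
  rw [eq_top_iff]
  intro x hx0
  clear hx0
  have hx : x ∈ Algebra.adjoin K1 (insert z S) := by rw [h]; exact Algebra.mem_top
  induction hx using Algebra.adjoin_induction with
  | mem y hy =>
    rcases Set.mem_insert_iff.mp hy with rfl | hy
    · exact Algebra.subset_adjoin (Set.mem_singleton _)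
    · exact (Algebra.adjoin M {z}).algebraMap_mem ⟨y, hS hy⟩
  | algebraMap r => exact (Algebra.adjoin M {z}).algebraMap_mem (algebraMap K1 M r)
  | add x y _ _ hx hy => exact add_mem hx hy
  | mul x y _ _ hx hy => exact mul_mem hx hy

/-- The generators of `M = K1(g_i)` generate `M` as a `K1`-algebra (algebraic case). -/
theorem adjoin_range_eq_top_of_adjoin [Algebra.IsAlgebraic K1 L1] {ι : Type*} (g : ι → L1)
    (g' : ι → IntermediateField.adjoin K1 (Set.range g)) (hg : ∀ i, (g' i : L1) = g i) :
    Algebra.adjoin K1 (Set.range g') = ⊤ := by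
  apply Subalgebra.map_injective (f := (IntermediateField.adjoin K1 (Set.range g)).val)
    Subtype.val_injective
  rw [Algebra.map_top, AlgHom.map_adjoin, ← Set.range_comp]
  have h1 : (⇑(IntermediateField.adjoin K1 (Set.range g)).val ∘ g') = g := funext hg
  rw [h1, IntermediateField.range_val]
  exact (IntermediateField.adjoin_toSubalgebra (Set.range g)).symm

end Adjoin

section Gens

universe u v w1 w2

attribute [local instance] FractionRing.liftAlgebra FractionRing.isScalarTower_liftAlgebra

/-- The induction step: `M` an intermediate field of `L1 / K1`, `L1 = M(z)` with `z ∈ C1` a root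
of `f ∈ A1[X]`, `f'(z) ∉ P`; if `C1 ∩ M` is unramified over `A1` at `P ∩ M`, then `C1` is
unramified over `A1` at `P`. -/
theorem isUnramifiedAt_of_step (A1 : Type u) (K1 : Type v) [CommRing A1] [IsDedekindDomain A1]
    [Field K1] [Algebra A1 K1] [IsFractionRing A1 K1] [CharZero K1]
    {L1 : Type w1} {C1 : Type w2} [Field L1] [Algebra K1 L1] [FiniteDimensional K1 L1]
    [CommRing C1] [Algebra A1 C1] [Algebra C1 L1] [Algebra A1 L1] [IsScalarTower A1 K1 L1]
    [IsScalarTower A1 C1 L1] [IsIntegralClosure C1 A1 L1]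
    (M : IntermediateField K1 L1) (z : C1) (hz : Algebra.adjoin M {algebraMap C1 L1 z} = ⊤)
    (f : A1[X]) (hf : aeval z f = 0) (P : Ideal C1) [P.IsPrime]
    (hP : aeval z (derivative f) ∉ P)
    (h : Algebra.IsUnramifiedAt A1 (P.under (interSub (A1 := A1) (C1 := C1) M))) :
    Algebra.IsUnramifiedAt A1 P := by
  have hICD := isIntegralClosure_interSub (A1 := A1) (C1 := C1) M
  have hICC := isIntegralClosure_over_interSub (A1 := A1) (C1 := C1) M
  have hinj : Function.Injective (algebraMap C1 L1) :=
    IsIntegralClosure.algebraMap_injective C1 A1 L1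
  have : IsDomain C1 := hinj.isDomain
  have hDD : IsDedekindDomain (interSub (A1 := A1) (C1 := C1) M) :=
    IsIntegralClosure.isDedekindDomain A1 K1 M _
  have hFD : IsFractionRing (interSub (A1 := A1) (C1 := C1) M) M :=
    IsIntegralClosure.isFractionRing_of_finite_extension A1 K1 M _
  have h2 : Algebra.IsUnramifiedAt (interSub (A1 := A1) (C1 := C1) M) P := by
    refine isUnramifiedAt_of_aeval_derivative (interSub (A1 := A1) (C1 := C1) M) M (L1 := L1) z hz
      (f.map (algebraMap A1 (interSub (A1 := A1) (C1 := C1) M))) ?_ P ?_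
    · rw [aeval_map_algebraMap]; exact hf
    · rw [derivative_map, aeval_map_algebraMap]; exact hP
  exact Algebra.IsUnramifiedAt.comp (P.under (interSub (A1 := A1) (C1 := C1) M)) P


/-- **`n` generators.**  `A1` a Dedekind domain with fraction field `K1` of characteristic `0`,
`C1` its integral closure in the finite extension `L1 = K1(Z_1, …, Z_n)`, each `Z_i ∈ C1` a root
of some `f_i ∈ A1[X]` with `f_i'(Z_i) ∉ P`.  Then `C1 / A1` is unramified at `P`. -/
theorem isUnramifiedAt_of_gens (A1 : Type u) (K1 : Type v) [CommRing A1] [IsDedekindDomain A1]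
    [Field K1] [Algebra A1 K1] [IsFractionRing A1 K1] [CharZero K1] (n : ℕ) :
    ∀ (L1 : Type w1) (C1 : Type w2) [Field L1] [Algebra K1 L1] [FiniteDimensional K1 L1]
      [CommRing C1] [Algebra A1 C1] [Algebra C1 L1] [Algebra A1 L1] [IsScalarTower A1 K1 L1]
      [IsScalarTower A1 C1 L1] [IsIntegralClosure C1 A1 L1]
      (Z : Fin n → C1) (f : Fin n → A1[X]) (_ : ∀ i, aeval (Z i) (f i) = 0)
      (_ : Algebra.adjoin K1 (Set.range fun i => algebraMap C1 L1 (Z i)) = ⊤)
      (P : Ideal C1) [P.IsPrime] (_ : ∀ i, aeval (Z i) (derivative (f i)) ∉ P),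
      Algebra.IsUnramifiedAt A1 P := by
  induction n with
  | zero =>
    intro L1 C1 _ _ _ _ _ _ _ _ _ _ Z f hf hgen P _ hP
    refine isUnramifiedAt_of_aeval_derivative A1 K1 (L1 := L1) (0 : C1) ?_ (X : A1[X]) (by simp)
      P ?_
    · rw [eq_top_iff, ← hgen]
      exact Algebra.adjoin_mono (by simp)
    · rw [derivative_X, map_one]
      exact fun h => (inferInstance : P.IsPrime).ne_top ((Ideal.eq_top_iff_one P).mpr h)
  | succ n ih =>
    intro L1 C1 _ _ _ _ _ _ _ _ _ _ Z f hf hgen P _ hP
    let g : Fin n → L1 := fun i => algebraMap C1 L1 (Z i.castSucc)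
    let M : IntermediateField K1 L1 := IntermediateField.adjoin K1 (Set.range g)
    have hmem : ∀ i : Fin n, Z i.castSucc ∈ interSub (A1 := A1) (C1 := C1) M := fun i =>
      (mem_interSub M _).mpr (IntermediateField.subset_adjoin K1 _ ⟨i, rfl⟩)
    have hICD := isIntegralClosure_interSub (A1 := A1) (C1 := C1) M
    refine isUnramifiedAt_of_step A1 K1 M (Z (Fin.last n)) ?_ (f (Fin.last n)) (hf _) P (hP _) ?_
    · apply adjoin_singleton_eq_top_of_adjoin M (Set.range g) _
        (IntermediateField.subset_adjoin K1 _)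
      rw [eq_top_iff, ← hgen]
      apply Algebra.adjoin_mono
      rintro _ ⟨i, rfl⟩
      refine Fin.lastCases ?_ (fun j => ?_) i
      · exact Set.mem_insert _ _
      · exact Set.mem_insert_of_mem _ ⟨j, rfl⟩
    · refine ih M (interSub (A1 := A1) (C1 := C1) M) (fun i => ⟨Z i.castSucc, hmem i⟩)
        (fun i => f i.castSucc) ?_ ?_ _ ?_
      · intro i
        apply Subtype.ext
        rw [← Subalgebra.aeval_coe]
        exact hf i.castSucc
      · exact adjoin_range_eq_top_of_adjoin g _ (fun i => rfl)
      · intro i hi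
        apply hP i.castSucc
        have hk : aeval (Z i.castSucc) (derivative (f i.castSucc)) =
            ((aeval (⟨Z i.castSucc, hmem i⟩ : interSub (A1 := A1) (C1 := C1) M)
              (derivative (f i.castSucc)) : interSub (A1 := A1) (C1 := C1) M) : C1) :=
          Subalgebra.aeval_coe _ ⟨Z i.castSucc, hmem i⟩ _
        rw [hk]
        exact hi

end Gens

/-! ### The final assembly: `C0 / A` is unramified -/

section Final

/-- In characteristic `p`, a finite extension of degree `< p` is separable. -/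
theorem isSeparable_of_finrank_lt_char {k K : Type*} [Field k] [Field K] [Algebra k K]
    [FiniteDimensional k K] (p : ℕ) [CharP k p] (h : Module.finrank k K < p) :
    Algebra.IsSeparable k K := by
  refine ⟨fun x => ?_⟩
  have hint : IsIntegral k x := IsIntegral.of_finite k x
  have hirr : Irreducible (minpoly k x) := minpoly.irreducible hint
  rcases Polynomial.separable_or p hirr with hs | ⟨-, g, hg, hgx⟩
  · exact hs
  · exfalso
    have h1 : (minpoly k x).natDegree = g.natDegree * p := by
      rw [← hgx, Polynomial.natDegree_expand]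
    have h2 : 0 < g.natDegree := hg.natDegree_pos
    have h3 : (minpoly k x).natDegree ≤ Module.finrank k K := minpoly.natDegree_le x
    have h4 : p ≤ g.natDegree * p := Nat.le_mul_of_pos_left p h2
    omega

variable {A A1 C0 C1 : Type*} [CommRing A] [IsDomain A]
  [CommRing A1] [Algebra A A1] [Module.Finite A A1] [Module.Flat A A1]

/-- The inertia degree of a prime of a finite flat algebra is at most the rank. -/
theorem inertiaDeg_le_finrank (q : Ideal A1) [q.IsPrime] :
    q.inertiaDeg A ≤ Module.finrank A A1 := by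
  classical
  have hfin : Fintype ((q.under A).primesOver A1) :=
    (Algebra.QuasiFinite.finite_primesOver (q.under A)).fintype
  rw [← Ideal.sum_ramification_inertia_eq_finrank (q.under A) A1]
  let Q : (q.under A).primesOver A1 := ⟨q, ‹q.IsPrime›, inferInstance⟩
  have h1 : Q.1.ramificationIdx A * Q.1.inertiaDeg A ≤
      ∑ r : (q.under A).primesOver A1, r.1.ramificationIdx A * r.1.inertiaDeg A :=
    Finset.single_le_sum (f := fun r : (q.under A).primesOver A1 =>
      r.1.ramificationIdx A * r.1.inertiaDeg A) (fun _ _ => Nat.zero_le _) (Finset.mem_univ Q)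
  have h2 : 0 < q.ramificationIdx A := Ideal.ramificationIdx_pos q A
  calc q.inertiaDeg A ≤ q.ramificationIdx A * q.inertiaDeg A :=
        Nat.le_mul_of_pos_left _ h2
    _ ≤ _ := h1

/-- Residue extensions of degree `< p` in residue characteristic `p` are separable. -/
theorem isSeparable_residueField_of_finrank_lt {p : ℕ} (hp : p.Prime)
    (hdeg : Module.finrank A A1 < p) (𝔪 : Ideal A) [𝔪.IsPrime] (q : Ideal A1) [q.IsPrime]
    [q.LiesOver 𝔪] (hpm : (p : A) ∈ 𝔪)
    [Algebra (Localization.AtPrime 𝔪) (Localization.AtPrime q)]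
    [Localization.AtPrime.IsLiesOverAlgebra 𝔪 q] :
    Algebra.IsSeparable 𝔪.ResidueField q.ResidueField := by
  have h1 : q.inertiaDeg A = Module.finrank 𝔪.ResidueField q.ResidueField :=
    Ideal.inertiaDeg_eq 𝔪 q
  have h2 : q.inertiaDeg A ≤ Module.finrank A A1 := inertiaDeg_le_finrank q
  have h3 : 0 < q.inertiaDeg A := Ideal.inertiaDeg_pos q A
  have : Module.Finite 𝔪.ResidueField q.ResidueField := Module.finite_of_finrank_pos (h1 ▸ h3)
  have : CharP 𝔪.ResidueField p := by
    rw [CharP.charP_iff_prime_eq_zero hp]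
    have h4 : algebraMap A 𝔪.ResidueField (p : A) = 0 :=
      (Ideal.algebraMap_residueField_eq_zero).mpr hpm
    simpa using h4
  exact isSeparable_of_finrank_lt_char p (by omega)

variable [CommRing C0] [IsDomain C0] [Algebra A C0] [Module.Finite A C0] [Module.Flat A C0]
  [CommRing C1] [Algebra A C1] [Algebra A1 C1] [Algebra C0 C1]
  [IsScalarTower A A1 C1] [IsScalarTower A C0 C1]
  [Module.Flat A1 C1] [Module.Flat C0 C1] [Algebra.EssFiniteType A1 C1]

/-- **The DVR lemma, `IsUnramifiedAt` form.**  `A ⊆ A1 ⊆ C1` and `A ⊆ C0 ⊆ C1`; `A1 / A` finite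
flat of rank `< p`; `C0 / A` finite flat Galois with group of order `p ^ s`; `C1` flat over `A1`
and over `C0`.  If `C1 / A1` is unramified at the prime `P1` of residue characteristic `p`, then
`C0 / A` is unramified at `P1 ∩ C0`. -/
theorem isUnramifiedAt_under_of_tame_galois (G : Type*) [Group G] [MulSemiringAction G C0]
    [IsGaloisGroup G A C0] {p s : ℕ} (hp : p.Prime) (hG : Nat.card G = p ^ s)
    (hdeg : Module.finrank A A1 < p) (P1 : Ideal C1) [P1.IsPrime]
    (hpP : (p : A) ∈ P1.under A) [Algebra.IsUnramifiedAt A1 P1] :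
    Algebra.IsUnramifiedAt A (P1.under C0) := by
  have he1 : P1.ramificationIdx A1 = 1 := Ideal.ramificationIdx_eq_one_of_isUnramifiedAt
  have he : ¬ p ∣ P1.ramificationIdx A := not_dvd_ramificationIdx_of_tower hdeg P1 he1
  have he0 : (P1.under C0).ramificationIdx A = 1 :=
    ramificationIdx_under_eq_one_of_galois_pPow G hp hG P1 he
  let 𝔪 : Ideal A := (P1.under C0).under A
  let 𝔮 : Ideal A1 := P1.under A1
  have h𝔪 : 𝔪 = P1.under A := Ideal.under_under P1
  have : 𝔮.LiesOver 𝔪 := ⟨by rw [h𝔪]; exact (Ideal.under_under (B := A1) P1).symm⟩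
  have : P1.LiesOver 𝔪 := ⟨h𝔪⟩
  let _ := Localization.AtPrime.algebraOfLiesOver 𝔪 (P1.under C0)
  let _ := Localization.AtPrime.algebraOfLiesOver 𝔪 𝔮
  let _ := Localization.AtPrime.algebraOfLiesOver 𝔮 P1
  let _ := Localization.AtPrime.algebraOfLiesOver (P1.under C0) P1
  let _ := Localization.AtPrime.algebraOfLiesOver 𝔪 P1
  rw [Algebra.isUnramifiedAt_iff_map_eq A 𝔪 (P1.under C0)]
  refine ⟨?_, map_eq_maximalIdeal_of_ramificationIdx_eq_one _ he0⟩
  have hs1 : Algebra.IsSeparable 𝔮.ResidueField P1.ResidueField :=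
    ((Algebra.isUnramifiedAt_iff_map_eq A1 𝔮 P1).mp ‹_›).1
  have hs2 : Algebra.IsSeparable 𝔪.ResidueField 𝔮.ResidueField :=
    isSeparable_residueField_of_finrank_lt hp hdeg 𝔪 𝔮 (h𝔪 ▸ hpP)
  have hs3 : Algebra.IsSeparable 𝔪.ResidueField P1.ResidueField :=
    Algebra.IsSeparable.trans 𝔪.ResidueField 𝔮.ResidueField P1.ResidueField
  exact Algebra.isSeparable_tower_bot_of_isSeparable 𝔪.ResidueField (P1.under C0).ResidueField
    P1.ResidueField

/-- **`hunr` half, no residue characteristic hypothesis.**  In the situation of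
`isUnramifiedAt_under_of_tame_galois` (without `p ∈ P1`), the elementwise form of `e = 1` holds
at `P1 ∩ C0` over `A`. -/
theorem unr_under_of_tame_galois (G : Type*) [Group G] [MulSemiringAction G C0]
    [IsGaloisGroup G A C0] {p s : ℕ} (hp : p.Prime) (hG : Nat.card G = p ^ s)
    (hdeg : Module.finrank A A1 < p) (P1 : Ideal C1) [P1.IsPrime]
    [Algebra.IsUnramifiedAt A1 P1] :
    ∀ x ∈ P1.under C0, ∃ c : C0, c ∉ P1.under C0 ∧
      c * x ∈ ((P1.under C0).under A).map (algebraMap A C0) :=
  unr_of_galois_pPow G hp hG P1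
    (not_dvd_ramificationIdx_of_tower hdeg P1 Ideal.ramificationIdx_eq_one_of_isUnramifiedAt)

end Final

/-! ### From `IsUnramifiedAt` to the elementwise separability form -/

section Sep

variable {R S : Type*} [CommRing R] [CommRing S] [Algebra R S] [Algebra.EssFiniteType R S]

/-- **`hsep` from `IsUnramifiedAt`.**  If `S / R` is unramified at the maximal ideal `q` lying
over a maximal ideal of `R`, every `c : S` is, modulo `q`, a simple root of a polynomial over
`R`. -/
theorem sep_of_isUnramifiedAt (q : Ideal S) [q.IsMaximal] [(q.under R).IsMaximal]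
    [Algebra.IsUnramifiedAt R q] :
    ∀ c : S, ∃ f : R[X], aeval c f ∈ q ∧ aeval c (derivative f) ∉ q := by
  let 𝔪 : Ideal R := q.under R
  let _ := Localization.AtPrime.algebraOfLiesOver 𝔪 q
  have hs : Algebra.IsSeparable 𝔪.ResidueField q.ResidueField :=
    ((Algebra.isUnramifiedAt_iff_map_eq R 𝔪 q).mp ‹_›).1
  have hs' : Algebra.IsSeparable (R ⧸ 𝔪) (S ⧸ q) := Algebra.isSeparable_residueField_iff.mp hs
  intro c
  have hsc : (minpoly (R ⧸ 𝔪) (Ideal.Quotient.mk q c)).Separable :=
    Algebra.IsSeparable.isSeparable _ _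
  obtain ⟨f, hf⟩ := Polynomial.map_surjective (Ideal.Quotient.mk 𝔪) Ideal.Quotient.mk_surjective
    (minpoly (R ⧸ 𝔪) (Ideal.Quotient.mk q c))
  have key : ∀ g : R[X], Ideal.Quotient.mk q (aeval c g) =
      aeval (Ideal.Quotient.mk q c) (g.map (Ideal.Quotient.mk 𝔪)) := by
    intro g
    rw [← Ideal.Quotient.algebraMap_eq 𝔪, aeval_map_algebraMap]
    exact (aeval_algHom_apply (Ideal.Quotient.mkₐ R q) c g).symm
  refine ⟨f, ?_, ?_⟩
  · rw [← Ideal.Quotient.eq_zero_iff_mem, key, hf, minpoly.aeval]
  · rw [← Ideal.Quotient.eq_zero_iff_mem, key, ← derivative_map, hf]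
    exact hsc.aeval_derivative_ne_zero (minpoly.aeval _ _)

end Sep

/-! ### The exit at a local base: `hunr` and `hsep` at every maximal ideal of `C0` -/

section Exit

variable {A A1 C0 C1 : Type*} [CommRing A] [IsDomain A] [IsLocalRing A]
  [CommRing A1] [Algebra A A1] [Module.Finite A A1] [Module.Flat A A1]
  [CommRing C0] [IsDomain C0] [Algebra A C0] [Module.Finite A C0] [Module.Flat A C0]
  [CommRing C1] [Algebra A C1] [Algebra A1 C1] [Algebra C0 C1]
  [IsScalarTower A A1 C1] [IsScalarTower A C0 C1]
  [Module.Flat A1 C1] [Module.Flat C0 C1] [Algebra.EssFiniteType A1 C1]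
  [FaithfulSMul C0 C1] [Algebra.IsIntegral C0 C1]

/-- **The DVR exit (ring form).**  `A` a local domain; `A ⊆ A1 ⊆ C1`, `A ⊆ C0 ⊆ C1`;
`A1 / A` finite flat of rank `< p`; `C0 / A` finite flat, Galois with group of order `p ^ s`;
`C1` flat over `A1`, flat and integral over `C0`; `C1 / A1` unramified at every maximal ideal.
Then at every maximal ideal `P` of `C0`: `𝔪_A` generates `P` locally (`hunr`), and if
`p ∈ 𝔪_A` the residue field of `P` is separable over that of `A` (`hsep`).  These are the
binders of `S44/L/DiscrUnr.isUnit_discr_of_unr`. -/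
theorem unr_sep_of_tame_galois (G : Type*) [Group G] [MulSemiringAction G C0]
    [IsGaloisGroup G A C0] {p s : ℕ} (hp : p.Prime) (hG : Nat.card G = p ^ s)
    (hdeg : Module.finrank A A1 < p)
    (h1 : ∀ (P1 : Ideal C1) [P1.IsMaximal], Algebra.IsUnramifiedAt A1 P1) :
    (∀ P : Ideal C0, P.IsMaximal → ∀ x ∈ P, ∃ s : C0, s ∉ P ∧
        s * x ∈ (IsLocalRing.maximalIdeal A).map (algebraMap A C0)) ∧
    ((p : A) ∈ IsLocalRing.maximalIdeal A → ∀ P : Ideal C0, P.IsMaximal → ∀ c : C0,
        ∃ f : A[X], aeval c f ∈ P ∧ aeval c (derivative f) ∉ P) := by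
  have key : ∀ P : Ideal C0, P.IsMaximal → ∃ P1 : Ideal C1, P1.IsMaximal ∧ P1.under C0 = P ∧
      (P1.under C0).under A = IsLocalRing.maximalIdeal A := by
    intro P hP
    have hker : RingHom.ker (algebraMap C0 C1) ≤ P := by
      rw [(RingHom.injective_iff_ker_eq_bot _).mp (FaithfulSMul.algebraMap_injective C0 C1)]
      exact bot_le
    obtain ⟨P1, hP1, hP1P⟩ := Ideal.exists_ideal_over_maximal_of_isIntegral P hker
    refine ⟨P1, hP1, hP1P, ?_⟩
    have hm : (P.under A).IsMaximal := Ideal.IsMaximal.under A P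
    rw [show P1.under C0 = P from hP1P]
    exact IsLocalRing.eq_maximalIdeal hm
  constructor
  · intro P hP x hx
    obtain ⟨P1, hP1, rfl, hm⟩ := key P hP
    have := h1 P1
    have h2 := unr_under_of_tame_galois (A1 := A1) G hp hG hdeg P1 x hx
    rwa [hm] at h2
  · intro hpA P hP c
    obtain ⟨P1, hP1, rfl, hm⟩ := key P hP
    have := h1 P1
    have hpP : (p : A) ∈ P1.under A := by
      rw [← Ideal.under_under (B := C0) P1, hm]
      exact hpA
    have h3 : Algebra.IsUnramifiedAt A (P1.under C0) :=
      isUnramifiedAt_under_of_tame_galois (A1 := A1) G hp hG hdeg P1 hpP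
    have : ((P1.under C0).under A).IsMaximal := by
      rw [hm]
      infer_instance
    exact sep_of_isUnramifiedAt (R := A) (P1.under C0) c

end Exit

end Fermat.Agent.S33.Geo.AsDvr
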