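import Fermat.Agent.S33.Geo.AsDvr

/-!
# S33 / GEO, row DVR (consumer-side wrappers): Kummer data with depth `p`

Level-free, on top of `AsDvr` (helper78).  The covering `L1 = K1(T_1, …, T_n)`, `T_i ^ p = y_i`,
is unramified over the integral closure `A1` of the base in `K1 ∋ ζ_p`

* at the **vertical** primes (`π = ζ - 1 ∈ P`) when `y_i = G_i ^ p (1 + π ^ p r_i)`, `r_i ∈ A1`
  (Artin-Schreier generator `Z = (T / G - 1) / π`, polynomial of `exists_as_polynomial`);
* at the **horizontal** primes (`p ∉ P`) when `y_i = G_i ^ p w_i`, `w_i ∈ A1ˣ` (Kummer).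

In both cases `G_i ∈ K1` is only nonzero.  Combined with `AsDvr.unr_sep_of_tame_galois` this
gives `hunr` / `hsep` (the binders of `S44/L/DiscrUnr.isUnit_discr_of_unr`) at every maximal
ideal of `C0` over the local base `A`, for every `C0 ⊆ C1` Galois over `A` of `p`-power order:

* `unr_sep_of_depth` / `unr_of_unit`: abstract rings, `IsGaloisGroup G A C0`;
* `unr_sep_of_depth_aklb` / `unr_of_unit_aklb`: two AKLB squares `(A, K, L0, C0)`,
  `(A1, K1, L1, C1)`, `L0 / K` Galois of degree `p ^ s`; every flatness / finiteness instance is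
  derived.
-/

set_option autoImplicit false

namespace Fermat.Agent.S33.Geo.AsDvrKummer

open Polynomial Fermat.Agent.S33.Geo.AsDvr

/-! ### The cyclotomic uniformiser and the Artin-Schreier polynomial -/

section Poly

variable {R : Type*} [CommRing R] [IsDomain R]

/-- `p = unit · (ζ - 1) ^ (p - 1)` for a primitive `p`-th root of unity `ζ` of a domain. -/
theorem associated_sub_one_pow_natCast {p : ℕ} (hp : p.Prime) {ζ : R}
    (hζ : IsPrimitiveRoot ζ p) : Associated ((ζ - 1) ^ (p - 1)) (p : R) := by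
  obtain ⟨n, rfl⟩ : ∃ n, p = n + 1 := ⟨p - 1, (Nat.succ_pred_eq_of_pos hp.pos).symm⟩
  have h1 := hζ.prod_one_sub_pow_eq_order
  have h2 : Associated (∏ _k ∈ Finset.range n, (ζ - 1))
      (∏ k ∈ Finset.range n, (1 - ζ ^ (k + 1))) := by
    apply Associated.prod
    intro k hk
    have hcop : (k + 1).Coprime (n + 1) := by
      refine Nat.Coprime.symm ((Nat.Prime.coprime_iff_not_dvd hp).mpr ?_)
      exact Nat.not_dvd_of_pos_of_lt (Nat.succ_pos k) (by simpa using hk)
    have h3 : Associated (ζ - 1) (ζ ^ (k + 1) - 1) :=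
      hζ.associated_sub_one_pow_sub_one_of_coprime hcop
    rw [← neg_sub (ζ ^ (k + 1)) 1]
    exact h3.neg_right
  rw [Finset.prod_const, Finset.card_range, h1] at h2
  simpa using h2

/-- **The Artin-Schreier polynomial.**  If `p = u π ^ (p - 1)`, then
`((1 + π X) ^ p - (1 + π ^ p r)) / π ^ p` is a monic polynomial over `R` with derivative
`u (1 + π X) ^ (p - 1)`. -/
theorem exists_as_polynomial {p : ℕ} (hp : p.Prime) (π u r : R) (hπ : π ≠ 0)
    (hu : (p : R) = u * π ^ (p - 1)) :
    ∃ f : R[X], f.Monic ∧ C (π ^ p) * f = (1 + C π * X) ^ p - C (1 + π ^ p * r) ∧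
      derivative f = C u * (1 + C π * X) ^ (p - 1) := by
  have hπp : π ^ p ≠ 0 := pow_ne_zero _ hπ
  have hcomp : (1 + C π * X : R[X]) ^ p = ((1 + X) ^ p).comp (C π * X) := by simp
  have hcoeff : ∀ k, ((1 + C π * X : R[X]) ^ p - C (1 + π ^ p * r)).coeff k =
      (p.choose k : R) * π ^ k - if k = 0 then 1 + π ^ p * r else 0 := by
    intro k
    rw [coeff_sub, hcomp, comp_C_mul_X_coeff, coeff_one_add_X_pow, coeff_C]
  have hdvd : C (π ^ p) ∣ (1 + C π * X) ^ p - C (1 + π ^ p * r) := by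
    rw [C_dvd_iff_dvd_coeff]
    intro k
    rw [hcoeff]
    rcases Nat.eq_zero_or_pos k with rfl | hk
    · simp
    · rw [if_neg hk.ne', sub_zero]
      rcases lt_or_ge k p with hkp | hkp
      · obtain ⟨c, hc⟩ := hp.dvd_choose_self hk.ne' hkp
        obtain ⟨j, rfl⟩ : ∃ j, k = j + 1 := ⟨k - 1, (Nat.succ_pred_eq_of_pos hk).symm⟩
        rw [hc, Nat.cast_mul, hu]
        refine ⟨u * c * π ^ j, ?_⟩
        have hpp : π ^ p = π ^ (p - 1) * π := by
          rw [← pow_succ, Nat.sub_add_cancel hp.pos]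
        rw [hpp, pow_succ]
        ring
      · rcases eq_or_lt_of_le hkp with rfl | hlt
        · simp
        · rw [Nat.choose_eq_zero_of_lt hlt]
          simp
  obtain ⟨f, hf⟩ := hdvd
  have hfc : ∀ k, π ^ p * f.coeff k =
      (p.choose k : R) * π ^ k - if k = 0 then 1 + π ^ p * r else 0 := by
    intro k
    rw [← hcoeff, hf, coeff_C_mul]
  have hmonic : f.Monic := by
    apply monic_of_natDegree_le_of_coeff_eq_one p
    · rw [natDegree_le_iff_coeff_eq_zero]
      intro k hk
      have h1 := hfc k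
      rw [Nat.choose_eq_zero_of_lt hk, if_neg (by omega)] at h1
      simpa [hπp] using h1
    · have h1 := hfc p
      rw [Nat.choose_self, if_neg hp.ne_zero] at h1
      have h2 : π ^ p * f.coeff p = π ^ p * 1 := by rw [h1]; ring
      exact mul_left_cancel₀ hπp h2
  refine ⟨f, hmonic, hf.symm, ?_⟩
  have hd := congrArg derivative hf
  rw [derivative_sub, derivative_C, sub_zero, derivative_pow, derivative_mul, derivative_C,
    zero_mul, zero_add, derivative_add, derivative_one, zero_add, derivative_mul, derivative_C,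
    zero_mul, zero_add, derivative_X, mul_one] at hd
  have hCne : (C (π ^ p) : R[X]) ≠ 0 := by
    rwa [Ne, C_eq_zero]
  apply mul_left_cancel₀ hCne
  rw [← hd]
  have hpp : π ^ p = π ^ (p - 1) * π := by
    rw [← pow_succ, Nat.sub_add_cancel hp.pos]
  have hpC : (C (p : R) : R[X]) = C u * C (π ^ (p - 1)) := by rw [← C_mul, hu]
  rw [hpp, C_mul, hpC]
  ring

end Poly

/-! ### Generators with unit derivative from Kummer data -/

section Producers

theorem algebraMap_injective_of_tower (A1 K1 L1 : Type*) [CommRing A1] [Field K1] [Algebra A1 K1]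
    [IsFractionRing A1 K1] [Field L1] [Algebra K1 L1] [Algebra A1 L1] [IsScalarTower A1 K1 L1] :
    Function.Injective (algebraMap A1 L1) := by
  rw [IsScalarTower.algebraMap_eq A1 K1 L1]
  exact (algebraMap K1 L1).injective.comp (IsFractionRing.injective A1 K1)

variable {A1 K1 L1 C1 : Type*} [CommRing A1] [IsDomain A1] [Field K1] [Algebra A1 K1]
  [IsFractionRing A1 K1] [Field L1] [Algebra K1 L1] [CommRing C1] [Algebra A1 C1] [Algebra C1 L1]
  [Algebra A1 L1] [IsScalarTower A1 K1 L1] [IsScalarTower A1 C1 L1] [IsIntegralClosure C1 A1 L1]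

/-- **Vertical producer (depth `p`).**  `T ^ p = G ^ p (1 + π ^ p r)` with `p = u π ^ (p - 1)`,
`r ∈ A1`, `G ≠ 0`: then `Z = (T / G - 1) / π` lies in `C1`, is a root of the Artin-Schreier
polynomial `f ∈ A1[X]`, and `f'(Z) ∉ P` at every prime `P ∋ π` with `u ∉ P`. -/
theorem exists_gen_of_depth {p : ℕ} (hp : p.Prime) (π u : A1) (hπ : π ≠ 0)
    (hu : (p : A1) = u * π ^ (p - 1)) (T : L1) (G : K1) (hG : G ≠ 0) (r : A1)
    (hT : T ^ p = algebraMap K1 L1 (G ^ p * (1 + algebraMap A1 K1 (π ^ p * r)))) :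
    ∃ (Z : C1) (f : A1[X]), aeval Z f = 0 ∧
      T = algebraMap K1 L1 G * (1 + algebraMap A1 L1 π * algebraMap C1 L1 Z) ∧
      ∀ P : Ideal C1, P.IsPrime → algebraMap A1 C1 π ∈ P → algebraMap A1 C1 u ∉ P →
        aeval Z (derivative f) ∉ P := by
  obtain ⟨f, hfm, hf, hfd⟩ := exists_as_polynomial hp π u r hπ hu
  have hinjA : Function.Injective (algebraMap A1 L1) :=
    algebraMap_injective_of_tower A1 K1 L1
  have hinjC : Function.Injective (algebraMap C1 L1) :=
    IsIntegralClosure.algebraMap_injective C1 A1 L1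
  have hπL : algebraMap A1 L1 π ≠ 0 := fun h => hπ (hinjA (by rw [h, map_zero]))
  have hGL : algebraMap K1 L1 G ≠ 0 := fun h => hG ((algebraMap K1 L1).injective (by rw [h, map_zero]))
  set Z0 : L1 := (T / algebraMap K1 L1 G - 1) / algebraMap A1 L1 π with hZ0
  have h1 : 1 + algebraMap A1 L1 π * Z0 = T / algebraMap K1 L1 G := by
    rw [hZ0]
    field_simp
    ring
  have hroot : aeval Z0 f = 0 := by
    have h2 := congrArg (aeval Z0) hf
    simp only [map_mul, aeval_C, map_sub, map_pow, map_add, map_one, aeval_X] at h2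
    rw [h1, div_pow, hT, map_mul, map_pow, mul_div_cancel_left₀ _ (pow_ne_zero _ hGL), map_add,
      map_one, ← IsScalarTower.algebraMap_apply A1 K1 L1, map_mul, map_pow, sub_self] at h2
    rcases mul_eq_zero.mp h2 with h3 | h3
    · exact absurd h3 (pow_ne_zero _ hπL)
    · exact h3
  have hint : IsIntegral A1 Z0 := ⟨f, hfm, by rw [← aeval_def]; exact hroot⟩
  obtain ⟨Z, hZ⟩ := (IsIntegralClosure.isIntegral_iff (A := C1)).mp hint
  refine ⟨Z, f, ?_, ?_, ?_⟩
  · apply hinjC
    rw [map_zero, ← aeval_algebraMap_apply, hZ]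
    exact hroot
  · rw [hZ, h1, mul_div_cancel₀ _ hGL]
  · intro P hP hπP huP hmem
    rw [hfd] at hmem
    simp only [map_mul, aeval_C, map_pow, map_add, map_one, aeval_X] at hmem
    rcases hP.mem_or_mem hmem with h3 | h3
    · exact huP h3
    · have h4 := hP.mem_of_pow_mem _ h3
      have h5 : (1 : C1) ∈ P := by
        have h6 := P.sub_mem h4 (P.mul_mem_right Z hπP)
        simpa using h6
      exact hP.ne_top ((Ideal.eq_top_iff_one P).mpr h5)

omit [IsDomain A1] [IsFractionRing A1 K1] in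
/-- **Horizontal producer (Kummer, `p` invertible).**  `T ^ p = G ^ p w` with `w` a unit of `A1`,
`G ≠ 0`: then `Z = T / G` lies in `C1`, is a root of `f = X ^ p - w`, and `f'(Z) ∉ P` at every
prime `P` not containing `p`. -/
theorem exists_gen_of_unit {p : ℕ} (hp : p ≠ 0) (T : L1) (G : K1) (hG : G ≠ 0) (w : A1)
    (hw : IsUnit w) (hT : T ^ p = algebraMap K1 L1 (G ^ p * algebraMap A1 K1 w)) :
    ∃ (Z : C1) (f : A1[X]), aeval Z f = 0 ∧ T = algebraMap K1 L1 G * algebraMap C1 L1 Z ∧
      ∀ P : Ideal C1, P.IsPrime → (p : C1) ∉ P → aeval Z (derivative f) ∉ P := by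
  have hinjC : Function.Injective (algebraMap C1 L1) :=
    IsIntegralClosure.algebraMap_injective C1 A1 L1
  have hGL : algebraMap K1 L1 G ≠ 0 := fun h => hG ((algebraMap K1 L1).injective (by rw [h, map_zero]))
  set Z0 : L1 := T / algebraMap K1 L1 G with hZ0
  have h1 : Z0 ^ p = algebraMap A1 L1 w := by
    rw [hZ0, div_pow, hT, map_mul, map_pow, mul_div_cancel_left₀ _ (pow_ne_zero _ hGL),
      ← IsScalarTower.algebraMap_apply A1 K1 L1]
  have hroot : aeval Z0 (X ^ p - C w : A1[X]) = 0 := by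
    simp only [map_sub, map_pow, aeval_X, aeval_C]
    rw [h1, sub_self]
  have hint : IsIntegral A1 Z0 :=
    ⟨X ^ p - C w, monic_X_pow_sub_C w hp, by rw [← aeval_def]; exact hroot⟩
  obtain ⟨Z, hZ⟩ := (IsIntegralClosure.isIntegral_iff (A := C1)).mp hint
  have hZp : Z ^ p = algebraMap A1 C1 w := by
    apply hinjC
    rw [map_pow, hZ, h1, ← IsScalarTower.algebraMap_apply A1 C1 L1]
  refine ⟨Z, X ^ p - C w, ?_, ?_, ?_⟩
  · simp only [map_sub, map_pow, aeval_X, aeval_C]
    rw [hZp, sub_self]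
  · rw [hZ, hZ0, mul_div_cancel₀ _ hGL]
  · intro P hP hpP hmem
    rw [derivative_sub, derivative_C, sub_zero, derivative_X_pow] at hmem
    simp only [map_mul, map_pow, aeval_X, map_natCast] at hmem
    rcases hP.mem_or_mem hmem with h3 | h3
    · exact hpP h3
    · have h4 : Z ^ p ∈ P := by
        obtain ⟨j, rfl⟩ : ∃ j, p = j + 1 := ⟨p - 1, (Nat.succ_pred_eq_of_pos (Nat.pos_of_ne_zero hp)).symm⟩
        rw [pow_succ]
        exact P.mul_mem_right Z (by simpa using h3)
      rw [hZp] at h4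
      exact hP.ne_top (P.eq_top_of_isUnit_mem h4 (hw.map (algebraMap A1 C1)))

end Producers

/-! ### Unramifiedness of `C1 / A1` from Kummer data -/

section Unr

variable {A1 K1 L1 C1 : Type*} [CommRing A1] [IsDedekindDomain A1] [Field K1] [Algebra A1 K1]
  [IsFractionRing A1 K1] [CharZero K1] [Field L1] [Algebra K1 L1] [FiniteDimensional K1 L1]
  [CommRing C1] [Algebra A1 C1] [Algebra C1 L1] [Algebra A1 L1] [IsScalarTower A1 K1 L1]
  [IsScalarTower A1 C1 L1] [IsIntegralClosure C1 A1 L1]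

/-- **Vertical case.**  `L1 = K1(T_1, …, T_n)`, `T_i ^ p = G_i ^ p (1 + π ^ p r_i)` with
`r_i ∈ A1`, `G_i ≠ 0`, `p = u π ^ (p - 1)`: `C1 / A1` is unramified at every prime `P ∋ π` with
`u ∉ P`. -/
theorem isUnramifiedAt_of_depth {p n : ℕ} (hp : p.Prime) (π u : A1) (hπ : π ≠ 0)
    (hu : (p : A1) = u * π ^ (p - 1)) (T : Fin n → L1) (G : Fin n → K1) (r : Fin n → A1)
    (hG : ∀ i, G i ≠ 0)
    (hT : ∀ i, T i ^ p = algebraMap K1 L1 (G i ^ p * (1 + algebraMap A1 K1 (π ^ p * r i))))
    (hgen : Algebra.adjoin K1 (Set.range T) = ⊤) (P : Ideal C1) [P.IsPrime]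
    (hπP : algebraMap A1 C1 π ∈ P) (huP : algebraMap A1 C1 u ∉ P) :
    Algebra.IsUnramifiedAt A1 P := by
  choose Z f hf hTZ hder using fun i =>
    exists_gen_of_depth (C1 := C1) hp π u hπ hu (T i) (G i) (hG i) (r i) (hT i)
  refine isUnramifiedAt_of_gens A1 K1 n L1 C1 Z f hf ?_ P
    (fun i => hder i P inferInstance hπP huP)
  rw [eq_top_iff, ← hgen]
  apply Algebra.adjoin_le
  rintro _ ⟨i, rfl⟩
  rw [hTZ i]
  have hZmem : algebraMap C1 L1 (Z i) ∈
      Algebra.adjoin K1 (Set.range fun i => algebraMap C1 L1 (Z i)) :=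
    Algebra.subset_adjoin ⟨i, rfl⟩
  refine mul_mem (Subalgebra.algebraMap_mem _ _) (add_mem (one_mem _) (mul_mem ?_ hZmem))
  rw [IsScalarTower.algebraMap_apply A1 K1 L1]
  exact Subalgebra.algebraMap_mem _ _

/-- **Horizontal case.**  `L1 = K1(T_1, …, T_n)`, `T_i ^ p = G_i ^ p w_i` with `w_i` units of
`A1`, `G_i ≠ 0`: `C1 / A1` is unramified at every prime `P` not containing `p`. -/
theorem isUnramifiedAt_of_unit {p n : ℕ} (hp : p ≠ 0) (T : Fin n → L1) (G : Fin n → K1)
    (w : Fin n → A1) (hG : ∀ i, G i ≠ 0) (hw : ∀ i, IsUnit (w i))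
    (hT : ∀ i, T i ^ p = algebraMap K1 L1 (G i ^ p * algebraMap A1 K1 (w i)))
    (hgen : Algebra.adjoin K1 (Set.range T) = ⊤) (P : Ideal C1) [P.IsPrime]
    (hpP : (p : C1) ∉ P) : Algebra.IsUnramifiedAt A1 P := by
  choose Z f hf hTZ hder using fun i =>
    exists_gen_of_unit (C1 := C1) hp (T i) (G i) (hG i) (w i) (hw i) (hT i)
  refine isUnramifiedAt_of_gens A1 K1 n L1 C1 Z f hf ?_ P (fun i => hder i P inferInstance hpP)
  rw [eq_top_iff, ← hgen]
  apply Algebra.adjoin_le
  rintro _ ⟨i, rfl⟩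
  rw [hTZ i]
  have hZmem : algebraMap C1 L1 (Z i) ∈
      Algebra.adjoin K1 (Set.range fun i => algebraMap C1 L1 (Z i)) :=
    Algebra.subset_adjoin ⟨i, rfl⟩
  exact mul_mem (Subalgebra.algebraMap_mem _ _) hZmem

end Unr

/-! ### The exits: Kummer data upstairs, `hunr` / `hsep` for `C0 / A` -/

section Exit

/-- Every maximal ideal of `C1` contains the maximal ideal of the local ring `A`
(`A ⊆ C0 ⊆ C1` integral). -/
theorem algebraMap_mem_of_mem_maximalIdeal {A : Type*} (C0 : Type*) {C1 : Type*} [CommRing A]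
    [IsLocalRing A] [CommRing C0] [Algebra A C0] [Algebra.IsIntegral A C0] [CommRing C1]
    [Algebra A C1] [Algebra C0 C1] [IsScalarTower A C0 C1] [Algebra.IsIntegral C0 C1]
    (P1 : Ideal C1) [P1.IsMaximal] {a : A} (ha : a ∈ IsLocalRing.maximalIdeal A) :
    algebraMap A C1 a ∈ P1 := by
  have h1 : (P1.under C0).IsMaximal := Ideal.IsMaximal.under C0 P1
  have h2 : ((P1.under C0).under A).IsMaximal := Ideal.IsMaximal.under A (P1.under C0)
  have h3 : (P1.under C0).under A = IsLocalRing.maximalIdeal A := IsLocalRing.eq_maximalIdeal h2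
  rw [Ideal.under_under] at h3
  have h4 : a ∈ P1.under A := by rw [h3]; exact ha
  exact h4

variable {A A1 C0 K1 L1 : Type*} (C1 : Type*) [CommRing A] [IsDomain A] [IsLocalRing A]
  [CommRing A1] [IsDedekindDomain A1] [Algebra A A1] [Module.Finite A A1] [Module.Flat A A1]
  [Field K1] [Algebra A1 K1] [IsFractionRing A1 K1] [CharZero K1]
  [Field L1] [Algebra K1 L1] [FiniteDimensional K1 L1]
  [CommRing C1] [Algebra A1 C1] [Algebra C1 L1] [Algebra A1 L1] [IsScalarTower A1 K1 L1]
  [IsScalarTower A1 C1 L1] [IsIntegralClosure C1 A1 L1]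
  [CommRing C0] [IsDomain C0] [Algebra A C0] [Module.Finite A C0] [Module.Flat A C0]
  [Algebra A C1] [Algebra C0 C1] [IsScalarTower A A1 C1] [IsScalarTower A C0 C1]
  [Module.Flat C0 C1] [FaithfulSMul C0 C1] [Algebra.IsIntegral C0 C1]

include C1

/-- **The DVR exit, vertical case** (the consumer-side wrapper).  `A` local with `p ∈ 𝔪_A`;
`ζ ∈ A1` a primitive `p`-th root of unity, `π = ζ - 1`; `L1 = K1(T_1, …, T_n)` with
`T_i ^ p = G_i ^ p (1 + π ^ p r_i)`, `r_i ∈ A1`, `G_i ≠ 0`.  Then `hunr` and `hsep` hold at every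
maximal ideal of `C0` over `A`. -/
theorem unr_sep_of_depth (G : Type*) [Group G] [MulSemiringAction G C0] [IsGaloisGroup G A C0]
    {p s n : ℕ} (hp : p.Prime) (hG : Nat.card G = p ^ s) (hdeg : Module.finrank A A1 < p)
    (hpA : (p : A) ∈ IsLocalRing.maximalIdeal A) (ζ : A1) (hζ : IsPrimitiveRoot ζ p)
    (T : Fin n → L1) (Gk : Fin n → K1) (r : Fin n → A1) (hGk : ∀ i, Gk i ≠ 0)
    (hT : ∀ i, T i ^ p =
      algebraMap K1 L1 (Gk i ^ p * (1 + algebraMap A1 K1 ((ζ - 1) ^ p * r i))))
    (hgen : Algebra.adjoin K1 (Set.range T) = ⊤) :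
    (∀ P : Ideal C0, P.IsMaximal → ∀ x ∈ P, ∃ s : C0, s ∉ P ∧
        s * x ∈ (IsLocalRing.maximalIdeal A).map (algebraMap A C0)) ∧
    (∀ P : Ideal C0, P.IsMaximal → ∀ c : C0,
        ∃ f : A[X], aeval c f ∈ P ∧ aeval c (derivative f) ∉ P) := by
  have hinjC : Function.Injective (algebraMap C1 L1) :=
    IsIntegralClosure.algebraMap_injective C1 A1 L1
  have : IsDomain C1 := hinjC.isDomain
  have hfin : Module.Finite A1 C1 := IsIntegralClosure.finite A1 K1 L1 C1
  have hinjA : Function.Injective (algebraMap A1 C1) := by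
    have h1 : Function.Injective (algebraMap A1 L1) := algebraMap_injective_of_tower A1 K1 L1
    rw [IsScalarTower.algebraMap_eq A1 C1 L1] at h1
    exact Function.Injective.of_comp h1
  have : FaithfulSMul A1 C1 := (faithfulSMul_iff_algebraMap_injective A1 C1).mpr hinjA
  have : Module.Flat A1 C1 := inferInstance
  obtain ⟨u, hu⟩ := associated_sub_one_pow_natCast hp hζ
  have hu' : (p : A1) = (u : A1) * (ζ - 1) ^ (p - 1) := by rw [← hu, mul_comm]
  have hπ : ζ - 1 ≠ 0 := sub_ne_zero.mpr (hζ.ne_one hp.one_lt)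
  have h1 : ∀ (P1 : Ideal C1) [P1.IsMaximal], Algebra.IsUnramifiedAt A1 P1 := by
    intro P1 hP1
    have huP : algebraMap A1 C1 (u : A1) ∉ P1 := fun h =>
      hP1.ne_top (P1.eq_top_of_isUnit_mem h (u.isUnit.map (algebraMap A1 C1)))
    have hpP : algebraMap A1 C1 (p : A1) ∈ P1 := by
      have h2 := algebraMap_mem_of_mem_maximalIdeal C0 P1 hpA
      rwa [map_natCast, ← map_natCast (algebraMap A1 C1)] at h2
    have hπP : algebraMap A1 C1 (ζ - 1) ∈ P1 := by
      rw [hu', map_mul, map_pow] at hpP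
      rcases (inferInstance : P1.IsPrime).mem_or_mem hpP with h3 | h3
      · exact absurd h3 huP
      · exact (inferInstance : P1.IsPrime).mem_of_pow_mem _ h3
    exact isUnramifiedAt_of_depth hp (ζ - 1) u hπ hu' T Gk r hGk hT hgen P1 hπP huP
  have h := unr_sep_of_tame_galois (A1 := A1) (C0 := C0) (C1 := C1) G hp hG hdeg h1
  exact ⟨h.1, h.2 hpA⟩

/-- **The DVR exit, horizontal case.**  `A` local with `p` a unit; `L1 = K1(T_1, …, T_n)` with
`T_i ^ p = G_i ^ p w_i`, `w_i` units of `A1`, `G_i ≠ 0`.  Then `hunr` holds at every maximal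
ideal of `C0` over `A`. -/
theorem unr_of_unit (G : Type*) [Group G] [MulSemiringAction G C0] [IsGaloisGroup G A C0]
    {p s n : ℕ} (hp : p.Prime) (hG : Nat.card G = p ^ s) (hdeg : Module.finrank A A1 < p)
    (hpA : IsUnit (p : A)) (T : Fin n → L1) (Gk : Fin n → K1) (w : Fin n → A1)
    (hGk : ∀ i, Gk i ≠ 0) (hw : ∀ i, IsUnit (w i))
    (hT : ∀ i, T i ^ p = algebraMap K1 L1 (Gk i ^ p * algebraMap A1 K1 (w i)))
    (hgen : Algebra.adjoin K1 (Set.range T) = ⊤) :
    ∀ P : Ideal C0, P.IsMaximal → ∀ x ∈ P, ∃ s : C0, s ∉ P ∧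
      s * x ∈ (IsLocalRing.maximalIdeal A).map (algebraMap A C0) := by
  have hinjC : Function.Injective (algebraMap C1 L1) :=
    IsIntegralClosure.algebraMap_injective C1 A1 L1
  have : IsDomain C1 := hinjC.isDomain
  have hfin : Module.Finite A1 C1 := IsIntegralClosure.finite A1 K1 L1 C1
  have hinjA : Function.Injective (algebraMap A1 C1) := by
    have h1 : Function.Injective (algebraMap A1 L1) := algebraMap_injective_of_tower A1 K1 L1
    rw [IsScalarTower.algebraMap_eq A1 C1 L1] at h1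
    exact Function.Injective.of_comp h1
  have : FaithfulSMul A1 C1 := (faithfulSMul_iff_algebraMap_injective A1 C1).mpr hinjA
  have : Module.Flat A1 C1 := inferInstance
  have h1 : ∀ (P1 : Ideal C1) [P1.IsMaximal], Algebra.IsUnramifiedAt A1 P1 := by
    intro P1 hP1
    have hpP : (p : C1) ∉ P1 := fun h => by
      have h2 : IsUnit ((p : C1)) := by
        have := hpA.map (algebraMap A C1)
        rwa [map_natCast] at this
      exact hP1.ne_top (P1.eq_top_of_isUnit_mem h h2)
    exact isUnramifiedAt_of_unit hp.ne_zero T Gk w hGk hw hT hgen P1 hpP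
  exact (unr_sep_of_tame_galois (A1 := A1) (C0 := C0) (C1 := C1) G hp hG hdeg h1).1

end Exit

/-! ### The same exits with the Galois hypothesis at the field level (two AKLB squares) -/

section AKLB

/-- In an AKLB square with `L0 / K` finite Galois, `Aut(C0 / A)` is a Galois group of `C0 / A`
of order `[L0 : K]`. -/
theorem isGaloisGroup_algEquiv (A K L0 C0 : Type*) [CommRing A] [IsDomain A]
    [IsIntegrallyClosed A] [Field K] [Algebra A K] [IsFractionRing A K] [Field L0] [Algebra K L0]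
    [FiniteDimensional K L0] [IsGalois K L0] [CommRing C0] [Algebra A C0] [Algebra C0 L0]
    [Algebra A L0] [IsScalarTower A K L0] [IsScalarTower A C0 L0] [IsIntegralClosure C0 A L0] :
    IsGaloisGroup (C0 ≃ₐ[A] C0) A C0 ∧ Nat.card (C0 ≃ₐ[A] C0) = Module.finrank K L0 := by
  have : IsDomain C0 := (IsIntegralClosure.algebraMap_injective C0 A L0).isDomain
  have : IsFractionRing C0 L0 := IsIntegralClosure.isFractionRing_of_finite_extension A K L0 C0
  refine ⟨⟨inferInstance, inferInstance, Algebra.isInvariant_of_isGalois' A K L0 C0⟩, ?_⟩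
  rw [← IsGalois.card_aut_eq_finrank K L0]
  exact (Nat.card_congr (galRestrict A K L0 C0).toEquiv).symm

variable {A K L0 C0 A1 K1 L1 : Type*} (C1 : Type*)
  [CommRing A] [IsDedekindDomain A] [IsLocalRing A] [Field K] [Algebra A K] [IsFractionRing A K]
  [Field L0] [Algebra K L0] [FiniteDimensional K L0] [IsGalois K L0]
  [CommRing C0] [Algebra A C0] [Algebra C0 L0] [Algebra A L0] [IsScalarTower A K L0]
  [IsScalarTower A C0 L0] [IsIntegralClosure C0 A L0]
  [CommRing A1] [IsDedekindDomain A1] [Algebra A A1] [Module.Finite A A1] [FaithfulSMul A A1]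
  [Field K1] [Algebra A1 K1] [IsFractionRing A1 K1] [CharZero K1]
  [Field L1] [Algebra K1 L1] [FiniteDimensional K1 L1]
  [CommRing C1] [Algebra A1 C1] [Algebra C1 L1] [Algebra A1 L1] [IsScalarTower A1 K1 L1]
  [IsScalarTower A1 C1 L1] [IsIntegralClosure C1 A1 L1]
  [Algebra A C1] [Algebra C0 C1] [IsScalarTower A A1 C1] [IsScalarTower A C0 C1]
  [FaithfulSMul C0 C1]

include C1 K L0

/-- **The DVR exit, vertical case, AKLB form.**  `A` a local Dedekind domain with `p ∈ 𝔪_A`;
`C0` the integral closure of `A` in the finite Galois extension `L0 / K` of degree `p ^ s`;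
`A1` Dedekind, finite over `A` of rank `< p`, with a primitive `p`-th root of unity `ζ`;
`C1` the integral closure of `A1` in `L1 = K1(T_1, …, T_n)`,
`T_i ^ p = G_i ^ p (1 + (ζ - 1) ^ p r_i)`, `r_i ∈ A1`, `G_i ≠ 0`; `C0 ⊆ C1` over `A`.  Then `hunr`
and `hsep` hold at every maximal ideal of `C0` over `A`. -/
theorem unr_sep_of_depth_aklb {p s n : ℕ} (hp : p.Prime) (hL0 : Module.finrank K L0 = p ^ s)
    (hdeg : Module.finrank A A1 < p) (hpA : (p : A) ∈ IsLocalRing.maximalIdeal A) (ζ : A1)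
    (hζ : IsPrimitiveRoot ζ p) (T : Fin n → L1) (Gk : Fin n → K1) (r : Fin n → A1)
    (hGk : ∀ i, Gk i ≠ 0)
    (hT : ∀ i, T i ^ p =
      algebraMap K1 L1 (Gk i ^ p * (1 + algebraMap A1 K1 ((ζ - 1) ^ p * r i))))
    (hgen : Algebra.adjoin K1 (Set.range T) = ⊤) :
    (∀ P : Ideal C0, P.IsMaximal → ∀ x ∈ P, ∃ s : C0, s ∉ P ∧
        s * x ∈ (IsLocalRing.maximalIdeal A).map (algebraMap A C0)) ∧
    (∀ P : Ideal C0, P.IsMaximal → ∀ c : C0,
        ∃ f : A[X], aeval c f ∈ P ∧ aeval c (derivative f) ∉ P) := by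
  have hinj0 : Function.Injective (algebraMap C0 L0) :=
    IsIntegralClosure.algebraMap_injective C0 A L0
  have : IsDomain C0 := hinj0.isDomain
  have : Module.Finite A C0 := IsIntegralClosure.finite A K L0 C0
  have : IsDedekindDomain C0 := IsIntegralClosure.isDedekindDomain A K L0 C0
  have hinjA0 : Function.Injective (algebraMap A C0) := by
    have h1 : Function.Injective (algebraMap A L0) := algebraMap_injective_of_tower A K L0
    rw [IsScalarTower.algebraMap_eq A C0 L0] at h1
    exact Function.Injective.of_comp h1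
  have : FaithfulSMul A C0 := (faithfulSMul_iff_algebraMap_injective A C0).mpr hinjA0
  have : Module.Flat A C0 := inferInstance
  have : Module.Flat A A1 := inferInstance
  have hinjC : Function.Injective (algebraMap C1 L1) :=
    IsIntegralClosure.algebraMap_injective C1 A1 L1
  have : IsDomain C1 := hinjC.isDomain
  have : Module.Flat C0 C1 := inferInstance
  have : Algebra.IsIntegral A1 C1 := IsIntegralClosure.isIntegral_algebra A1 L1
  have : Algebra.IsIntegral A C1 := Algebra.IsIntegral.trans A1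
  have : Algebra.IsIntegral C0 C1 := Algebra.IsIntegral.tower_top A
  obtain ⟨hgal, hcard⟩ := isGaloisGroup_algEquiv A K L0 C0
  exact unr_sep_of_depth C1 (C0 ≃ₐ[A] C0) hp (hcard.trans hL0) hdeg hpA ζ hζ T Gk r hGk hT hgen

/-- **The DVR exit, horizontal case, AKLB form.**  As `unr_sep_of_depth_aklb` with `p` a unit of
`A` and `T_i ^ p = G_i ^ p w_i`, `w_i` units of `A1`: `hunr` at every maximal ideal of `C0`. -/
theorem unr_of_unit_aklb {p s n : ℕ} (hp : p.Prime) (hL0 : Module.finrank K L0 = p ^ s)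
    (hdeg : Module.finrank A A1 < p) (hpA : IsUnit (p : A)) (T : Fin n → L1) (Gk : Fin n → K1)
    (w : Fin n → A1) (hGk : ∀ i, Gk i ≠ 0) (hw : ∀ i, IsUnit (w i))
    (hT : ∀ i, T i ^ p = algebraMap K1 L1 (Gk i ^ p * algebraMap A1 K1 (w i)))
    (hgen : Algebra.adjoin K1 (Set.range T) = ⊤) :
    ∀ P : Ideal C0, P.IsMaximal → ∀ x ∈ P, ∃ s : C0, s ∉ P ∧
      s * x ∈ (IsLocalRing.maximalIdeal A).map (algebraMap A C0) := by
  have hinj0 : Function.Injective (algebraMap C0 L0) :=
    IsIntegralClosure.algebraMap_injective C0 A L0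
  have : IsDomain C0 := hinj0.isDomain
  have : Module.Finite A C0 := IsIntegralClosure.finite A K L0 C0
  have : IsDedekindDomain C0 := IsIntegralClosure.isDedekindDomain A K L0 C0
  have hinjA0 : Function.Injective (algebraMap A C0) := by
    have h1 : Function.Injective (algebraMap A L0) := algebraMap_injective_of_tower A K L0
    rw [IsScalarTower.algebraMap_eq A C0 L0] at h1
    exact Function.Injective.of_comp h1
  have : FaithfulSMul A C0 := (faithfulSMul_iff_algebraMap_injective A C0).mpr hinjA0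
  have : Module.Flat A C0 := inferInstance
  have : Module.Flat A A1 := inferInstance
  have hinjC : Function.Injective (algebraMap C1 L1) :=
    IsIntegralClosure.algebraMap_injective C1 A1 L1
  have : IsDomain C1 := hinjC.isDomain
  have : Module.Flat C0 C1 := inferInstance
  have : Algebra.IsIntegral A1 C1 := IsIntegralClosure.isIntegral_algebra A1 L1
  have : Algebra.IsIntegral A C1 := Algebra.IsIntegral.trans A1
  have : Algebra.IsIntegral C0 C1 := Algebra.IsIntegral.tower_top A
  obtain ⟨hgal, hcard⟩ := isGaloisGroup_algEquiv A K L0 C0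
  exact unr_of_unit C1 (C0 ≃ₐ[A] C0) hp (hcard.trans hL0) hdeg hpA T Gk w hGk hw hT hgen

end AKLB

end Fermat.Agent.S33.Geo.AsDvrKummer
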