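import Mathlib
import Fermat.Agent.S33.Geo.AuxDescent
import Fermat.Agent.S37.LevelPull
import Fermat.Agent.S30.Producer.Defs

/-!
# S33, brick (AUX), exit shapes: `FN N` is closed under `p`-th roots in `FN M`, `M ∣ 4N`

`FN N = ℚ̄(j(q^d) : d ∣ N) ⊆ ℚ̄((q))`, `lvl h : FN N → FN M` the inclusion for `h : N ∣ M`
(`S37.LevelPull.lvl`).  On top of the landed descent `AuxDescent.pow_descent_four`
(an element of `FN N` which is a `p`-th power in `FN (4N)` is a `p`-th power in `FN N`; every odd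
prime `p`, every `N`) this file gives the shapes the level change `N ↦ M` of the geometric
statements consumes:

* `mem_of_pow_mem` : **root-closedness**, in `q`-series form (no cast between the types
  `FN (N * 4)`, `FN (N * 2 * 2)`, `FN (N' * 4 * p)`): for `M ∣ 4N` and `g ∈ FN M` with
  `g ^ p ∈ FN N`, already `g ∈ FN N`  (two `p`-th roots of the same series differ by a constant);
* `exists_pow_eq_of_lvl` : `lvl h x = g ^ p  ⟹  ∃ g', x = g' ^ p ∧ lvl h g' = g`;
* `exists_lvl_eq_of_pow`, `pow_descent_lvl` (the `hdesc` of `AuxRes.transfer`);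
* `exists_galF_eq_of_lvl` : `galF M σ (lvl h x) = lvl h x * k ^ p` with `k` of level `M`
  ⟹ `galF N σ x = x * k' ^ p` with `lvl h k' = k` (the conclusion of `GeoII0` descends).
-/

set_option autoImplicit false

noncomputable section

open ModularCurve HahnSeries

namespace Fermat.Agent.S33.Geo.AuxLevel

open Fermat.Agent.S30 Fermat.Agent.S30.Producer Fermat.Agent.S37.LevelPull

/-! ### Constants -/

/-- A root of unity of `ℚ̄((q))` is a constant. -/
theorem exists_const_of_pow_eq_one {p : ℕ} (hp : p ≠ 0) {y : LaurentSeries Qb} (hy : y ^ p = 1) :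
    ∃ ζ : Qb, y = algebraMap Qb (LaurentSeries Qb) ζ := by
  have hint : IsIntegral Qb y :=
    ⟨Polynomial.X ^ p - Polynomial.C 1, Polynomial.monic_X_pow_sub_C 1 hp, by
      rw [Polynomial.eval₂_sub, Polynomial.eval₂_pow, Polynomial.eval₂_X, Polynomial.eval₂_C,
        map_one, hy, sub_self]⟩
  have hdeg := IsAlgClosed.degree_eq_one_of_irreducible Qb (minpoly.irreducible hint)
  obtain ⟨ζ, hζ⟩ := minpoly.mem_range_of_degree_eq_one Qb y hdeg
  exact ⟨ζ, hζ.symm⟩

/-- Two series with the same `p`-th power differ by a constant. -/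
theorem exists_const_mul_of_pow_eq {p : ℕ} (hp : p ≠ 0) {a b : LaurentSeries Qb} (hb : b ≠ 0)
    (h : a ^ p = b ^ p) : ∃ ζ : Qb, a = algebraMap Qb (LaurentSeries Qb) ζ * b := by
  have h1 : (a / b) ^ p = 1 := by
    rw [div_pow, h, div_self (pow_ne_zero p hb)]
  obtain ⟨ζ, hζ⟩ := exists_const_of_pow_eq_one hp h1
  exact ⟨ζ, by rw [← hζ, div_mul_cancel₀ a hb]⟩

/-! ### Root-closedness -/

theorem mem_of_pow_mem_four (N p : ℕ) [NeZero N] (hp : p.Prime) (hp2 : p ≠ 2)
    {g : LaurentSeries Qb} (hg : g ∈ modularFunctionFieldBar (N * 2 * 2))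
    (hgp : g ^ p ∈ modularFunctionFieldBar N) : g ∈ modularFunctionFieldBar N := by
  by_cases hg0 : g = 0
  · rw [hg0]
    exact zero_mem _
  obtain ⟨g', hg'⟩ := Fermat.Agent.S33.Geo.AuxDescent.pow_descent_four N p hp hp2
    (⟨g ^ p, hgp⟩ : FN N) (⟨g, hg⟩ : FN (N * 2 * 2)) rfl
  have h1 : g ^ p = (g' : LaurentSeries Qb) ^ p := (congrArg Subtype.val hg').symm
  have hg'0 : (g' : LaurentSeries Qb) ≠ 0 := by
    intro h0
    rw [h0, zero_pow hp.ne_zero] at h1
    exact hg0 ((pow_eq_zero_iff hp.ne_zero).mp h1)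
  obtain ⟨ζ, hζ⟩ := exists_const_mul_of_pow_eq hp.ne_zero hg'0 h1
  rw [hζ]
  exact mul_mem (IntermediateField.algebraMap_mem _ ζ) g'.2

/-- **(AUX), root-closedness.**  `p` odd, `M ∣ 4N`: a series of level `M` whose `p`-th power has
level `N` has level `N`. -/
theorem mem_of_pow_mem {N M p : ℕ} [NeZero N] [NeZero M] (hp : p.Prime) (hp2 : p ≠ 2)
    (hM : M ∣ N * 4) {g : LaurentSeries Qb} (hg : g ∈ modularFunctionFieldBar M)
    (hgp : g ^ p ∈ modularFunctionFieldBar N) : g ∈ modularFunctionFieldBar N :=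
  mem_of_pow_mem_four N p hp hp2
    (fb_mono (hM.trans (show N * 4 ∣ N * 2 * 2 from ⟨1, by ring⟩)) hg) hgp

/-! ### Exit shapes along `lvl` -/

/-- **(AUX)** a level-`N` function which is a `p`-th power at the auxiliary level is a `p`-th
power at level `N`, with the same root. -/
theorem exists_pow_eq_of_lvl {N M p : ℕ} [NeZero N] [NeZero M] (hp : p.Prime) (hp2 : p ≠ 2)
    (h : N ∣ M) (hM : M ∣ N * 4) (x : FN N) (g : FN M) (hxg : lvl h x = g ^ p) :
    ∃ g' : FN N, x = g' ^ p ∧ lvl h g' = g := by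
  have hcoe : (x : LaurentSeries Qb) = (g : LaurentSeries Qb) ^ p := by
    have h1 := congrArg Subtype.val hxg
    rw [coe_lvl] at h1
    exact h1
  have hg : (g : LaurentSeries Qb) ∈ modularFunctionFieldBar N :=
    mem_of_pow_mem hp hp2 hM g.2 (by rw [← hcoe]; exact x.2)
  exact ⟨⟨g, hg⟩, Subtype.ext hcoe, Subtype.ext (coe_lvl h _)⟩

/-- Every `p`-th root at the auxiliary level of a level-`N` function comes from level `N`. -/
theorem exists_lvl_eq_of_pow {N M p : ℕ} [NeZero N] [NeZero M] (hp : p.Prime) (hp2 : p ≠ 2)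
    (h : N ∣ M) (hM : M ∣ N * 4) (y : FN N) (k : FN M) (hk : k ^ p = lvl h y) :
    ∃ k' : FN N, lvl h k' = k ∧ k' ^ p = y := by
  obtain ⟨g', h1, h2⟩ := exists_pow_eq_of_lvl hp hp2 h hM y k hk.symm
  exact ⟨g', h2, h1.symm⟩

/-- The descent hypothesis `hdesc` of `AuxRes.transfer`. -/
theorem pow_descent_lvl {N M p : ℕ} [NeZero N] [NeZero M] (hp : p.Prime) (hp2 : p ≠ 2)
    (h : N ∣ M) (hM : M ∣ N * 4) :
    ∀ (x : FN N) (g : FN M), lvl h x = g ^ p → ∃ g₀ : FN N, x = g₀ ^ p := fun x g hxg => by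
  obtain ⟨g', h1, -⟩ := exists_pow_eq_of_lvl hp hp2 h hM x g hxg
  exact ⟨g', h1⟩

/-- The conclusion of `GeoII0` descends: if the Galois twist of a level-`N` function is the
function times a `p`-th power at the auxiliary level, the root has level `N`. -/
theorem exists_galF_eq_of_lvl {N M p : ℕ} [NeZero N] [NeZero M] (hp : p.Prime) (hp2 : p ≠ 2)
    (h : N ∣ M) (hM : M ∣ N * 4) (σ : GQ) {x : FN N} (hx : x ≠ 0) (k : FN M)
    (hk : galF M σ (lvl h x) = lvl h x * k ^ p) :
    ∃ k' : FN N, galF N σ x = x * k' ^ p ∧ lvl h k' = k := by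
  have hx0 : (x : LaurentSeries Qb) ≠ 0 := fun h0 => hx (Subtype.ext h0)
  have hcoe : ((galF N σ x : FN N) : LaurentSeries Qb)
      = (x : LaurentSeries Qb) * (k : LaurentSeries Qb) ^ p := by
    have h1 := congrArg Subtype.val hk
    rw [coe_galF, coe_lvl] at h1
    rw [coe_galF]
    exact h1
  have hkp : (k : LaurentSeries Qb) ^ p ∈ modularFunctionFieldBar N := by
    have h2 : (k : LaurentSeries Qb) ^ p
        = ((galF N σ x : FN N) : LaurentSeries Qb) * (x : LaurentSeries Qb)⁻¹ := by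
      rw [hcoe, mul_comm (x : LaurentSeries Qb), mul_assoc, mul_inv_cancel₀ hx0, mul_one]
    rw [h2]
    exact mul_mem (galF N σ x).2 (inv_mem x.2)
  have hkN : (k : LaurentSeries Qb) ∈ modularFunctionFieldBar N :=
    mem_of_pow_mem hp hp2 hM k.2 hkp
  exact ⟨⟨k, hkN⟩, Subtype.ext hcoe, Subtype.ext (coe_lvl h _)⟩

end Fermat.Agent.S33.Geo.AuxLevel
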