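/-
S33 (helper19), GEO, level-free: the model package for the concrete point set `ChartPoints.Pt`
with (CONN) supplied directly, and the case of TWO components meeting in one closed point.

* `conn_bool` : for `ι = Bool`, one point lying on both components connects the graph.
* `isModelI_of_blocks_conn`, `isModel_of_blocks_conn` : `Model.IsModelI` / `Model.IsModel` for
  `(Pt, ptR, ptOn)` from the blocks, (CONN) as a hypothesis, (CONST0) on one root component and
  the three facts on the generic rings (`hV`, `hne`, `hunit`).  No hypothesis on the charts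
  (no finiteness, no reducedness of the fibre).
* `isModelI_bool_of_crossing`, `isModel_bool_of_crossing` : the same for two components and a
  crossing point.
* `crossing_of_ideal` : a maximal ideal of the chart `u` containing both centres is a crossing
  point of `Pt π u`.
-/
import Mathlib
import Fermat.Agent.S33.Geo.ChartPoints

set_option autoImplicit false

namespace Fermat.Agent.S33.Geo.ChartPointsBool

open Fermat.Agent.S30.Model Fermat.Agent.S33.Geo.Top Fermat.Agent.S33.Geo.Model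
open Fermat.Agent.S33.Geo.ChartPoints

universe u

/-- For two components, one point lying on both connects the graph of components. -/
theorem conn_bool {Y : Type*} (On : Y → Bool → Prop) (h : ∃ y, On y true ∧ On y false) :
    ∀ W W' : Bool, Relation.ReflTransGen (fun a b => ∃ y, On y a ∧ On y b) W W' := by
  obtain ⟨y, ht, hf⟩ := h
  intro W W'
  rcases W with _ | _ <;> rcases W' with _ | _
  · exact Relation.ReflTransGen.refl
  · exact Relation.ReflTransGen.single ⟨y, hf, ht⟩
  · exact Relation.ReflTransGen.single ⟨y, ht, hf⟩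
  · exact Relation.ReflTransGen.refl

section Crossing

variable {O : Type*} {F : Type u} [CommRing O] [Field F] [Algebra O F]

/-- A maximal ideal of the chart `u` containing the centres of both components is a crossing
point of `Pt π u`. -/
theorem crossing_of_ideal (π : O) (u : F) (V : Bool → Subring F)
    (𝔪 : Ideal (integralClosure (Algebra.adjoin O ({u} : Set F)) F)) (h𝔪 : 𝔪.IsMaximal)
    (htrue : ∀ b : integralClosure (Algebra.adjoin O ({u} : Set F)) F,
      MemPi (V true) π (b : F) → b ∈ 𝔪)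
    (hfalse : ∀ b : integralClosure (Algebra.adjoin O ({u} : Set F)) F,
      MemPi (V false) π (b : F) → b ∈ 𝔪) :
    ∃ y : Pt π u, ptOn π u V y true ∧ ptOn π u V y false :=
  ⟨Sum.inl ⟨𝔪, h𝔪, algebraMap_mem_of_cen π (V true) u 𝔪 htrue⟩, htrue, hfalse⟩

end Crossing

section Model

variable {O : Type*} [CommRing O] [IsDomain O] [IsDiscreteValuationRing O]
  {F : Type u} [Field F] [Algebra O F]

/-- The fields `constV` and `van` of the model package for `(Pt, ptR, ptOn)`, from the three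
facts on the generic rings. -/
theorem constV_van_pt (π : O) (hπ : Irreducible π) (u : F) (hu : u ≠ 0)
    {ι : Type*} (V : ι → Subring F)
    (hV : ∀ W (x : F), IsIntegral (Algebra.adjoin O ({u, u⁻¹} : Set F)) x → x ∈ V W)
    (hne : ∀ W, ¬ MemPi (V W) π 1)
    (hunit : ∀ W (a : F), a ∈ V W → ¬ MemPi (V W) π a → a⁻¹ ∈ V W) :
    (∀ W (a : O), algebraMap O F a ∈ V W) ∧
    (∀ W (x : F), x ∈ V W →
      (∀ y, ptOn π u V y W → ∃ a : F, a ∈ ptR π u y ∧ MemPi (V W) π (x - a)) →
      ∀ y, ptOn π u V y W → ∀ a : F, a ∈ ptR π u y → MemPi (V W) π (x - a) →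
        (∃ W', ptOn π u V y W' ∧ MemPi (V W') π a) → MemPi (V W) π x) := by
  have hvan := van_pt π u V (isUnit_of_not_dvd π hπ) hu hV hne hunit
  refine ⟨fun W a => hV W _ (CechP1.isIntegral_adjoin_of_mem (Subalgebra.algebraMap_mem _ a)),
    ?_⟩
  rintro W x hx hreg y hy a ha hxa ⟨W', hW', ha'⟩
  exact hvan W x hx hreg y W' hy hW' a ha ha' hxa

/-- **The model package (form of record) for `(Pt, ptR, ptOn)` with (CONN) as a hypothesis.** -/
theorem isModelI_of_blocks_conn (p : ℕ) (π : O) (hπ : Irreducible π) (u : F) (hu : u ≠ 0)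
    {ι : Type*} (V : ι → Subring F) (Hor : F → Prop)
    (hV : ∀ W (x : F), IsIntegral (Algebra.adjoin O ({u, u⁻¹} : Set F)) x → x ∈ V W)
    (hne : ∀ W, ¬ MemPi (V W) π 1)
    (hunit : ∀ W (a : F), a ∈ V W → ¬ MemPi (V W) π a → a⁻¹ ∈ V W)
    (hconn : ∀ W W' : ι, Relation.ReflTransGen
      (fun a b => ∃ y : Pt π u, ptOn π u V y a ∧ ptOn π u V y b) W W')
    (W₀ : ι) (hconst : ConstAt V (ptR π u) (ptOn π u V) π W₀)
    (hblock : ∀ y : Pt π u,
      (∃ W₁ W₂, (∀ W, ptOn π u V y W ↔ W = W₁ ∨ W = W₂) ∧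
        NodeBlockI p π Hor (ptR π u y) (V W₁) (V W₂)) ∨
      (∃ W₁, (∀ W, ptOn π u V y W ↔ W = W₁) ∧ SmoothBlockI p π Hor (ptR π u y) (V W₁))) :
    IsModelI p π V (ptR π u) (ptOn π u V) Hor := by
  obtain ⟨h1, h4⟩ := constV_van_pt π hπ u hu V hV hne hunit
  exact { constV := h1, block := hblock, conn := hconn, const0 := ⟨W₀, hconst⟩, van := h4 }

/-- **The model package (element form) for `(Pt, ptR, ptOn)` with (CONN) as a hypothesis.** -/
theorem isModel_of_blocks_conn (p : ℕ) (π : O) (hπ : Irreducible π) (u : F) (hu : u ≠ 0)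
    {ι : Type*} (V : ι → Subring F) (Hor : F → Prop)
    (hV : ∀ W (x : F), IsIntegral (Algebra.adjoin O ({u, u⁻¹} : Set F)) x → x ∈ V W)
    (hne : ∀ W, ¬ MemPi (V W) π 1)
    (hunit : ∀ W (a : F), a ∈ V W → ¬ MemPi (V W) π a → a⁻¹ ∈ V W)
    (hconn : ∀ W W' : ι, Relation.ReflTransGen
      (fun a b => ∃ y : Pt π u, ptOn π u V y a ∧ ptOn π u V y b) W W')
    (W₀ : ι) (hconst : ConstAt V (ptR π u) (ptOn π u V) π W₀)
    (hblock : ∀ y : Pt π u,
      (∃ W₁ W₂, (∀ W, ptOn π u V y W ↔ W = W₁ ∨ W = W₂) ∧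
        NodeBlock p π Hor (ptR π u y) (V W₁) (V W₂)) ∨
      (∃ W₁, (∀ W, ptOn π u V y W ↔ W = W₁) ∧ SmoothBlock p π Hor (ptR π u y) (V W₁))) :
    IsModel p π V (ptR π u) (ptOn π u V) Hor := by
  obtain ⟨h1, h4⟩ := constV_van_pt π hπ u hu V hV hne hunit
  exact { constV := h1, block := hblock, conn := hconn, const0 := ⟨W₀, hconst⟩, van := h4 }

/-- **Two components meeting in one closed point: the model package (form of record).** -/
theorem isModelI_bool_of_crossing (p : ℕ) (π : O) (hπ : Irreducible π) (u : F) (hu : u ≠ 0)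
    (V : Bool → Subring F) (Hor : F → Prop)
    (hV : ∀ W (x : F), IsIntegral (Algebra.adjoin O ({u, u⁻¹} : Set F)) x → x ∈ V W)
    (hne : ∀ W, ¬ MemPi (V W) π 1)
    (hunit : ∀ W (a : F), a ∈ V W → ¬ MemPi (V W) π a → a⁻¹ ∈ V W)
    (hcross : ∃ y : Pt π u, ptOn π u V y true ∧ ptOn π u V y false)
    (W₀ : Bool) (hconst : ConstAt V (ptR π u) (ptOn π u V) π W₀)
    (hblock : ∀ y : Pt π u,
      (∃ W₁ W₂, (∀ W, ptOn π u V y W ↔ W = W₁ ∨ W = W₂) ∧
        NodeBlockI p π Hor (ptR π u y) (V W₁) (V W₂)) ∨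
      (∃ W₁, (∀ W, ptOn π u V y W ↔ W = W₁) ∧ SmoothBlockI p π Hor (ptR π u y) (V W₁))) :
    IsModelI p π V (ptR π u) (ptOn π u V) Hor :=
  isModelI_of_blocks_conn p π hπ u hu V Hor hV hne hunit (conn_bool (ptOn π u V) hcross) W₀
    hconst hblock

/-- **Two components meeting in one closed point: the model package (element form).** -/
theorem isModel_bool_of_crossing (p : ℕ) (π : O) (hπ : Irreducible π) (u : F) (hu : u ≠ 0)
    (V : Bool → Subring F) (Hor : F → Prop)
    (hV : ∀ W (x : F), IsIntegral (Algebra.adjoin O ({u, u⁻¹} : Set F)) x → x ∈ V W)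
    (hne : ∀ W, ¬ MemPi (V W) π 1)
    (hunit : ∀ W (a : F), a ∈ V W → ¬ MemPi (V W) π a → a⁻¹ ∈ V W)
    (hcross : ∃ y : Pt π u, ptOn π u V y true ∧ ptOn π u V y false)
    (W₀ : Bool) (hconst : ConstAt V (ptR π u) (ptOn π u V) π W₀)
    (hblock : ∀ y : Pt π u,
      (∃ W₁ W₂, (∀ W, ptOn π u V y W ↔ W = W₁ ∨ W = W₂) ∧
        NodeBlock p π Hor (ptR π u y) (V W₁) (V W₂)) ∨
      (∃ W₁, (∀ W, ptOn π u V y W ↔ W = W₁) ∧ SmoothBlock p π Hor (ptR π u y) (V W₁))) :
    IsModel p π V (ptR π u) (ptOn π u V) Hor :=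
  isModel_of_blocks_conn p π hπ u hu V Hor hV hne hunit (conn_bool (ptOn π u V) hcross) W₀
    hconst hblock

end Model

end Fermat.Agent.S33.Geo.ChartPointsBool
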