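import Mathlib
import Fermat.Agent.S36.CycloBase

/-!
# S33 / GEO / C1-E leaf: a generator of the cyclotomic action of a subgroup fixing `K`

`Qb = AlgebraicClosure ℚ`, `K ⊆ Qb` an intermediate field, `ζ` a primitive `p`-th root of unity,
`cyclo K ζ = K(ζ)` (`S36/CycloBase`).

* `fix_cyclo`     : an automorphism fixing `K` pointwise and `ζ` fixes `K(ζ)` pointwise;
* `map_mem_cyclo`, `stable_cyclo` : an automorphism fixing `K` pointwise maps `K(ζ)` into itself,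
  and so does its inverse;
* `exists_gen`    : a subgroup `I` of the absolute Galois group fixing `K` pointwise contains an
  element `τ₀` such that every element of `K(ζ)` fixed by `τ₀` is fixed by all of `I`
  (`τ₀` maps to a generator of the image of `I` in the automorphisms of the `p`-th roots of unity).
-/

set_option autoImplicit false

open scoped IntermediateField

namespace Fermat.Agent.S33.Geo.CoverAut

open Fermat.Agent.S36.CycloBase

local notation "Qb" => AlgebraicClosure ℚ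
local notation "Gq" => (AlgebraicClosure ℚ ≃ₐ[ℚ] AlgebraicClosure ℚ)

variable (K : IntermediateField ℚ Qb) {ζ : Qb}

/-- An automorphism fixing `K` pointwise and `ζ` fixes `K(ζ)` pointwise. -/
theorem fix_cyclo (σ : Gq) (hσK : ∀ c ∈ K, σ c = c) (hσζ : σ ζ = ζ) :
    ∀ c ∈ cyclo K ζ, σ c = c := by
  intro c hc
  rw [mem_cyclo_iff] at hc
  induction hc using IntermediateField.adjoin_induction with
  | mem x hx => rw [Set.mem_singleton_iff.mp hx, hσζ]
  | algebraMap x =>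
    show σ (x : Qb) = (x : Qb)
    exact hσK _ x.2
  | add x y _ _ hx hy => rw [map_add, hx, hy]
  | inv x _ hx => rw [map_inv₀, hx]
  | mul x y _ _ hx hy => rw [map_mul, hx, hy]

/-- An automorphism fixing `K` pointwise maps `K(ζ)` into itself. -/
theorem map_mem_cyclo {p : ℕ} (hp : p.Prime) (hζ : IsPrimitiveRoot ζ p) (σ : Gq)
    (hσK : ∀ c ∈ K, σ c = c) : ∀ x ∈ cyclo K ζ, σ x ∈ cyclo K ζ := by
  have : NeZero p := ⟨hp.ne_zero⟩
  intro c hc
  rw [mem_cyclo_iff] at hc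
  induction hc using IntermediateField.adjoin_induction with
  | mem x hx =>
    rw [Set.mem_singleton_iff.mp hx, ← hζ.autToPow_spec ℚ σ]
    exact pow_mem (zeta_mem_cyclo K ζ) _
  | algebraMap x =>
    show σ (x : Qb) ∈ cyclo K ζ
    rw [hσK _ x.2]
    exact le_cyclo K ζ x.2
  | add x y _ _ hx hy =>
    rw [map_add]
    exact add_mem hx hy
  | inv x _ hx =>
    rw [map_inv₀]
    exact inv_mem hx
  | mul x y _ _ hx hy =>
    rw [map_mul]
    exact mul_mem hx hy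

/-- **(G2)** An automorphism fixing `K` pointwise stabilises `K(ζ)`, and so does its inverse. -/
theorem stable_cyclo {p : ℕ} (hp : p.Prime) (hζ : IsPrimitiveRoot ζ p) (τ : Gq)
    (hτK : ∀ c ∈ K, τ c = c) :
    (∀ x ∈ cyclo K ζ, τ x ∈ cyclo K ζ) ∧ (∀ x ∈ cyclo K ζ, τ.symm x ∈ cyclo K ζ) := by
  refine ⟨map_mem_cyclo K hp hζ τ hτK, map_mem_cyclo K hp hζ τ.symm fun c hc => ?_⟩
  rw [AlgEquiv.symm_apply_eq, hτK c hc]

/-- **(G1)** A subgroup `I` fixing `K` pointwise contains an element `τ₀`, acting on `ζ` by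
`ζ ↦ ζ ^ a`, such that every element of `K(ζ)` fixed by `τ₀` is fixed by all of `I`. -/
theorem exists_gen {p : ℕ} (hp : p.Prime) (hζ : IsPrimitiveRoot ζ p) (I : Subgroup Gq)
    (hI : ∀ τ ∈ I, ∀ c ∈ K, τ c = c) :
    ∃ τ₀ ∈ I, ∃ a : ℕ, τ₀ ζ = ζ ^ a ∧
      ∀ c ∈ cyclo K ζ, τ₀ c = c → ∀ τ ∈ I, τ c = c := by
  have : Fact p.Prime := ⟨hp⟩
  have : NeZero p := ⟨hp.ne_zero⟩
  have : Fact (1 < p) := ⟨hp.one_lt⟩
  -- the cyclotomic character
  obtain ⟨χ, hχ⟩ : ∃ χ : Gq →* (ZMod p)ˣ,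
      ∀ σ : Gq, ζ ^ ((χ σ : (ZMod p)ˣ) : ZMod p).val = σ ζ :=
    ⟨hζ.autToPow ℚ, hζ.autToPow_spec ℚ⟩
  -- the image of `I` is cyclic
  obtain ⟨g, hg⟩ := IsCyclic.exists_generator (α := ↥(I.map χ))
  obtain ⟨τ₀, hτ₀I, hτ₀⟩ := Subgroup.mem_map.mp g.2
  refine ⟨τ₀, hτ₀I, ((χ τ₀ : (ZMod p)ˣ) : ZMod p).val, (hχ τ₀).symm, ?_⟩
  intro c hc hτ₀c τ hτ
  -- `χ τ` is a power of `χ τ₀`
  have hmem : (⟨χ τ, Subgroup.mem_map_of_mem χ hτ⟩ : ↥(I.map χ)) ∈ Subgroup.zpowers g := hg _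
  obtain ⟨n, hn⟩ := Subgroup.mem_zpowers_iff.mp hmem
  have hn' : χ τ₀ ^ n = χ τ := by
    have h := congrArg Subtype.val hn
    rw [Subgroup.coe_zpow] at h
    rw [hτ₀]
    exact h
  -- `τ⁻¹ * τ₀ ^ n` fixes `K` and `ζ`
  have hσK : ∀ d ∈ K, (τ⁻¹ * τ₀ ^ n) d = d := by
    intro d hd
    have h1 : τ ∈ MulAction.stabilizer Gq d := hI τ hτ d hd
    have h2 : τ₀ ∈ MulAction.stabilizer Gq d := hI τ₀ hτ₀I d hd
    exact Subgroup.mul_mem _ (Subgroup.inv_mem _ h1) (Subgroup.zpow_mem _ h2 n)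
  have hσζ : (τ⁻¹ * τ₀ ^ n) ζ = ζ := by
    have h1 : χ (τ⁻¹ * τ₀ ^ n) = 1 := by
      rw [map_mul, map_inv, map_zpow, hn', inv_mul_cancel]
    have h2 := hχ (τ⁻¹ * τ₀ ^ n)
    rw [h1, Units.val_one, ZMod.val_one, pow_one] at h2
    exact h2.symm
  have hσc : (τ⁻¹ * τ₀ ^ n) c = c := fix_cyclo K _ hσK hσζ c hc
  -- conclude through the stabiliser of `c`
  have h3 : τ₀ ∈ MulAction.stabilizer Gq c := hτ₀c
  have h4 : τ⁻¹ * τ₀ ^ n ∈ MulAction.stabilizer Gq c := hσc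
  have h5 : τ⁻¹ ∈ MulAction.stabilizer Gq c := by
    have h := Subgroup.mul_mem _ h4 (Subgroup.inv_mem _ (Subgroup.zpow_mem _ h3 n))
    rwa [mul_inv_cancel_right] at h
  have h6 : τ ∈ MulAction.stabilizer Gq c := by
    have h := Subgroup.inv_mem _ h5
    rwa [inv_inv] at h
  exact h6

end Fermat.Agent.S33.Geo.CoverAut
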