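import Mathlib
import Fermat.Agent.S33.Geo.ModelInst

/-!
# S33 / GEO / Stage B, row B3 as a theorem: the model package of the level-`M p` model at `u₄`

`O = OE A K` with uniformiser `(p : OE A K)` (binder block of `S33/Geo/UnrExit`),
`U = alphaHom M p K (u4E M K h4)`, `V = GaussRings.VB M p K (OE A K) hp hpM`,
`Hor f := Horiz (p : OE A K) p U f ∧ Horiz (p : OE A K) p U⁻¹ f`.

* `isModelI_u4_pt` : `Model.IsModelI` on the points `ChartPoints.Pt (p : OE A K) U` with
  `R = ChartPoints.ptR`, `On = ChartPoints.ptOn` (`ModelInstGlob.isModelI_u4_of_blocks` +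
  `ModelInst.block_u4`).
* `isModel_u4_pt` : the same in the element form `Model.IsModel`.
* `coversCusp_u4_pt` : `Model.CoversCusp` for these points.
* `isModelI_u4` : **row B3** = the leaf `hB3` of `FunILeaves.funIStatement_of_leaves` /
  `FunIModel.funIStatement_of_model`, verbatim (`∃ Y R On, IsModelI .. ∧ CoversCusp ..`).
-/

set_option autoImplicit false
set_option linter.unusedSectionVars false
set_option linter.unusedVariables false
set_option linter.style.haveILetI false
set_option synthInstance.maxHeartbeats 400000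
set_option maxHeartbeats 1000000

open ModularCurve

noncomputable section

namespace Fermat.Agent.S33.Geo.ModelInstB3

open Fermat.Agent.S18.K1Defs Fermat.Agent.S18.K1Main Fermat.Agent.S30 Fermat.Agent.S30.E4
open Fermat.Agent.S30.Producer
open Fermat.Agent.S34.TwoPrimesRank Fermat.Agent.S34.HauptU.Plug Fermat.Agent.S36.Haupt4
open Fermat.Agent.S36.HorizAdapter
open Fermat.Agent.S33.Geo.Contract Fermat.Agent.S33.Geo.GaussRings
open Fermat.Agent.S33.Geo.Model Fermat.Agent.S33.Geo.ChartPoints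

local notation "Qb" => AlgebraicClosure ℚ

/-- **The model package at `u₄` on the points `ChartPoints.Pt (p : OE A K) U`.** -/
theorem isModelI_u4_pt (M p : ℕ) [NeZero M] [NeZero p] (h4 : 4 ∣ M)
    (hp : p.Prime) (hodd : p ≠ 2) (hpM : ¬ p ∣ M)
    (A : ValuationSubring Qb) (hA : A.LiesOverPrime p)
    (K : IntermediateField ℚ Qb) [FiniteDimensional ℚ K] [IsDiscreteValuationRing (OE A K)]
    (z : Qb) (hz : IsPrimitiveRoot z M) (hzK : z ∈ K)
    (hπ : Irreducible ((p : ℕ) : OE A K)) :
    letI := algebraOL (OE A K) K (LE (M * p) K)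
    IsModelI p ((p : ℕ) : OE A K) (VB M p K (OE A K) hp hpM)
      (ptR ((p : ℕ) : OE A K) (alphaHom M p K (u4E M K h4)))
      (ptOn ((p : ℕ) : OE A K) (alphaHom M p K (u4E M K h4)) (VB M p K (OE A K) hp hpM))
      (fun f => Horiz ((p : ℕ) : OE A K) p (alphaHom M p K (u4E M K h4)) f ∧
        Horiz ((p : ℕ) : OE A K) p (alphaHom M p K (u4E M K h4))⁻¹ f) := by
  letI := algebraOL (OE A K) K (LE (M * p) K)
  exact Fermat.Agent.S33.Geo.ModelInstGlob.isModelI_u4_of_blocks A M p hp hodd hpM h4 hA K z hz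
    hzK hπ
    (fun f => Horiz ((p : ℕ) : OE A K) p (alphaHom M p K (u4E M K h4)) f ∧
      Horiz ((p : ℕ) : OE A K) p (alphaHom M p K (u4E M K h4))⁻¹ f)
    (Fermat.Agent.S33.Geo.ModelInst.block_u4 A M p hp hodd hpM h4 hA K z hz hzK hπ)

/-- The model package at `u₄`, element form of the horizontal clause. -/
theorem isModel_u4_pt (M p : ℕ) [NeZero M] [NeZero p] (h4 : 4 ∣ M)
    (hp : p.Prime) (hodd : p ≠ 2) (hpM : ¬ p ∣ M)
    (A : ValuationSubring Qb) (hA : A.LiesOverPrime p)
    (K : IntermediateField ℚ Qb) [FiniteDimensional ℚ K] [IsDiscreteValuationRing (OE A K)]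
    (z : Qb) (hz : IsPrimitiveRoot z M) (hzK : z ∈ K)
    (hπ : Irreducible ((p : ℕ) : OE A K)) :
    letI := algebraOL (OE A K) K (LE (M * p) K)
    IsModel p ((p : ℕ) : OE A K) (VB M p K (OE A K) hp hpM)
      (ptR ((p : ℕ) : OE A K) (alphaHom M p K (u4E M K h4)))
      (ptOn ((p : ℕ) : OE A K) (alphaHom M p K (u4E M K h4)) (VB M p K (OE A K) hp hpM))
      (fun f => Horiz ((p : ℕ) : OE A K) p (alphaHom M p K (u4E M K h4)) f ∧
        Horiz ((p : ℕ) : OE A K) p (alphaHom M p K (u4E M K h4))⁻¹ f) := by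
  letI := algebraOL (OE A K) K (LE (M * p) K)
  exact (isModelI_u4_pt M p h4 hp hodd hpM A hA K z hz hzK hπ).isModel

/-- The points `ChartPoints.Pt (p : OE A K) U` cover the fibre of the two charts, cusp form. -/
theorem coversCusp_u4_pt (M p : ℕ) [NeZero M] [NeZero p] (h4 : 4 ∣ M)
    (A : ValuationSubring Qb)
    (K : IntermediateField ℚ Qb) [FiniteDimensional ℚ K] [IsDiscreteValuationRing (OE A K)] :
    letI := algebraOL (OE A K) K (LE (M * p) K)
    CoversCusp ((p : ℕ) : OE A K) (alphaHom M p K (u4E M K h4))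
      (ptR ((p : ℕ) : OE A K) (alphaHom M p K (u4E M K h4))) := by
  letI := algebraOL (OE A K) K (LE (M * p) K)
  exact coversCusp_pt _ _

/-- **Row B3**: the model instance on the two Gauss rings at `u₄`, cusp form of the cover
(the leaf `hB3` of `FunILeaves.funIStatement_of_leaves`, verbatim). -/
theorem isModelI_u4 (M p : ℕ) [NeZero M] [NeZero p] (h4 : 4 ∣ M)
    (hp : p.Prime) (hodd : p ≠ 2) (hpM : ¬ p ∣ M)
    (A : ValuationSubring Qb) (hA : A.LiesOverPrime p)
    (K : IntermediateField ℚ Qb) [FiniteDimensional ℚ K] [IsDiscreteValuationRing (OE A K)]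
    (z : Qb) (hz : IsPrimitiveRoot z M) (hzK : z ∈ K)
    (hπ : Irreducible ((p : ℕ) : OE A K)) :
    letI := algebraOL (OE A K) K (LE (M * p) K)
    ∃ (Y : Type) (R : Y → Subring (LE (M * p) K)) (On : Y → Bool → Prop),
      IsModelI p ((p : ℕ) : OE A K) (VB M p K (OE A K) hp hpM) R On
        (fun f => Horiz ((p : ℕ) : OE A K) p (alphaHom M p K (u4E M K h4)) f ∧
          Horiz ((p : ℕ) : OE A K) p (alphaHom M p K (u4E M K h4))⁻¹ f) ∧
      CoversCusp ((p : ℕ) : OE A K) (alphaHom M p K (u4E M K h4)) R := by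
  letI := algebraOL (OE A K) K (LE (M * p) K)
  exact ⟨Pt ((p : ℕ) : OE A K) (alphaHom M p K (u4E M K h4)),
    ptR ((p : ℕ) : OE A K) (alphaHom M p K (u4E M K h4)),
    ptOn ((p : ℕ) : OE A K) (alphaHom M p K (u4E M K h4)) (VB M p K (OE A K) hp hpM),
    isModelI_u4_pt M p h4 hp hodd hpM A hA K z hz hzK hπ,
    coversCusp_u4_pt M p h4 A K⟩

/-- The hole `?FunI` once more, through the leaf form (`FunIModel.funIStatement_of_model`):
a consistency check of the literal `isModelI_u4` against its consumer. -/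
theorem funIStatement_of_b3 (M p : ℕ) [NeZero M] [NeZero p] (h4 : 4 ∣ M) :
    Fermat.Agent.S33.Geo.FunLevel.FunIStatement M p :=
  Fermat.Agent.S33.Geo.FunIModel.funIStatement_of_model M p h4
    (fun hp hodd hpM A hA K _ _ z hz hzK hπ => isModelI_u4 M p h4 hp hodd hpM A hA K z hz hzK hπ)

end Fermat.Agent.S33.Geo.ModelInstB3
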