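import Mathlib
import Fermat.Agent.S33.Geo.ModelInstGlob
import Fermat.Agent.S33.Geo.ModelInstB3
import Fermat.Agent.S44.L.KummerPerf
import Fermat.Agent.S36.GeomClass

/-!
# S33 / GEO / row C3-E, base side: the base data of the cover model at `u₄`

Levels `(M, M p)`, `4 ∣ M`, `p ∤ M` an odd prime, `A` a valuation ring of `ℚ̄` over `p`,
`K ⊆ ℚ̄` a number field containing a primitive `M`-th root of unity with `O = OE A K` a discrete
valuation ring in which `p` is a uniformiser (the class of `K` of row B3 / `FunIFinal`),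
`F = LE (M p) K` with the algebra `algebraOL (OE A K) K F`, `U = α u₄ ∈ F` the coordinate of the
two charts, `V = GaussRings.VB M p K (OE A K) hp hpM` (`true ↦ V∞`, `false ↦ V0`), points
`ChartPoints.Pt p U` with local rings `ptR` and incidence `ptOn`.

Everything `S33/Geo/CoverModel.cover_model` / `cover_model_cusp` / `cover_model_exit` takes
DOWNSTAIRS, and the base-side binders of the exits of the cover chain (`ModelExitC`,
`FunII0Inst`, `ZConstTop`), for every `K` of the class.  The model itself is row B3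
(`ModelInstB3.isModel_u4_pt`, `coversCusp_u4_pt`, helper120); this file adds the facts which
are not part of `Model.IsModel` and bundles them:

* `huV_u4_gen`, `huV_u4` : `U, U⁻¹ ∈ V W` for both generic rings (the binder `hVu`);
* `alpha_u4_ne_zero` : `U ≠ 0`;
* `hinj_OE` : `OE A K → LE N K` is injective; `prime_natCast_OE` : `p` is prime in `OE A K`;
  `hperf_OE` : every element of `OE A K` is a `p`-th power modulo `p`;
* `base_u4` : **the base data of the cover model in one statement**: the model, the cover of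
  the fibre by its points (cusp form), `hVu`, `U ≠ 0`, `U` transcendental over `K`,
  `F` finite over `K(U)`, `hperf`, `hinj`, `Prime p`;
* `base_u4_geomClass` : the same for `K` in `S36.GeomClass.GeomClass A M S₀` (the class of the
  cover chain: `K = inertiaFixed A E`, `InertiaCyclo.geomClass_inertiaFixed`), together with
  `Irreducible p`.
-/

set_option autoImplicit false
set_option linter.unusedSectionVars false
set_option linter.unusedVariables false
set_option linter.style.haveILetI false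
set_option synthInstance.maxHeartbeats 400000
set_option maxHeartbeats 1000000

open ModularCurve Polynomial IntermediateField

noncomputable section

namespace Fermat.Agent.S33.Geo.CoverBase

open Fermat.Agent.S30 Fermat.Agent.S34 Fermat.Agent.S34.TwoPrimesGauss
open Fermat.Agent.S30.Model
open Fermat.Agent.S18.K1Defs Fermat.Agent.S18.K1Main
open Fermat.Agent.S34.TwoPrimesRank Fermat.Agent.S34.HauptU.Plug
open Fermat.Agent.S34.HauptU.LevelMAux
open Fermat.Agent.S36.Haupt4 Fermat.Agent.S36.LevelQInstAlt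
open Fermat.Agent.S36.HorizAdapter Fermat.Agent.S36.GeomClass
open Fermat.Agent.S33.Geo.Top Fermat.Agent.S33.Geo.ChartPoints Fermat.Agent.S33.Geo.Model
open Fermat.Agent.S33.Geo.GaussRings

local notation "Qb" => AlgebraicClosure ℚ

/-! ### Generic base -/

section Generic

variable (M q : ℕ) [NeZero M] [NeZero q] (E : IntermediateField ℚ Qb)
  {O : Type} [CommRing O] [IsDomain O] [IsDiscreteValuationRing O]
  [Algebra O E] [IsFractionRing O E]

/-- **The two generic rings contain the coordinate `U = α u₄` and its inverse** (the binder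
`hVu` of `CoverModel.cover_model`), generic base. -/
theorem huV_u4_gen (hq : q.Prime) (hqM : ¬ q ∣ M) (h4 : 4 ∣ M) :
    ∀ W, alphaHom M q E (u4E M E h4) ∈ VB M q E O hq hqM W ∧
      (alphaHom M q E (u4E M E h4))⁻¹ ∈ VB M q E O hq hqM W := by
  letI := algebraOL O E (LE M E)
  letI := algebraOL O E (LE (M * q) E)
  haveI := isScalarTower_OL O E (LE M E)
  haveI := isScalarTower_OL O E (LE (M * q) E)
  have hinv : (alphaHom M q E (u4E M E h4))⁻¹ = alphaHom M q E (u4E M E h4)⁻¹ :=
    (map_inv₀ (alphaHom M q E) (u4E M E h4)).symm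
  have h1 : sigmaHom (M * q) E (alphaHom M q E (u4E M E h4)) = GaussDVR.iota O E (u4 O) :=
    hσu_u4 M q E h4
  have h2 : sigmaHom (M * q) E (alphaHom M q E (u4E M E h4)⁻¹) =
      GaussDVR.iota O E (HauptU.E.posO O Fermat.Agent.S36.SqChart.Coord4.s4Z) :=
    Fermat.Agent.S36.SqChart.Coord4.hσ1u_s4 M E q h4
  have h3 : sigmaHom (M * q) E (wHom M q E hq hqM (alphaHom M q E (u4E M E h4))) =
      GaussDVR.iota O E (qExpand O q (u4 O)) :=
    sigmaW_u (alphaHom M q E) (sigmaHom (M * q) E) (u4E M E h4) (u4 O) h1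
      (wHom M q E hq hqM) q (sigmaHom_wHom_alpha M q E hq hqM)
  have h4' : sigmaHom (M * q) E (wHom M q E hq hqM (alphaHom M q E (u4E M E h4)⁻¹)) =
      GaussDVR.iota O E
        (qExpand O q (HauptU.E.posO O Fermat.Agent.S36.SqChart.Coord4.s4Z)) :=
    sigmaW_u (alphaHom M q E) (sigmaHom (M * q) E) (u4E M E h4)⁻¹
      (HauptU.E.posO O Fermat.Agent.S36.SqChart.Coord4.s4Z) h2
      (wHom M q E hq hqM) q (sigmaHom_wHom_alpha M q E hq hqM)
  intro W
  cases W
  · refine ⟨?_, ?_⟩
    · rw [VB_false, mem_VZero, h3]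
      exact GaussDVR.mem_of_int (O := O) E _
    · rw [hinv, VB_false, mem_VZero, h4']
      exact GaussDVR.mem_of_int (O := O) E _
  · refine ⟨?_, ?_⟩
    · rw [VB_true, mem_VInf, h1]
      exact GaussDVR.mem_of_int (O := O) E _
    · rw [hinv, VB_true, mem_VInf, h2]
      exact GaussDVR.mem_of_int (O := O) E _

end Generic

/-! ### The arithmetic instance `O = A ∩ K`, `ϖ = p` -/

section Arithmetic

variable (A : ValuationSubring Qb)

/-- `OE A K → LE N K` is injective. -/
theorem hinj_OE (N : ℕ) [NeZero N] (K : IntermediateField ℚ Qb) :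
    letI := algebraOL (OE A K) K (LE N K)
    Function.Injective (algebraMap (OE A K) (LE N K)) := by
  letI := algebraOL (OE A K) K (LE N K)
  haveI := isScalarTower_OL (OE A K) K (LE N K)
  exact ChartProv.algebraMap_injective_base (OE A K) K (LE N K)

/-- `p` is a prime element of `OE A K` as soon as it is irreducible. -/
theorem prime_natCast_OE (p : ℕ) (K : IntermediateField ℚ Qb)
    [IsDiscreteValuationRing (OE A K)] (hπ : Irreducible ((p : ℕ) : OE A K)) :
    Prime ((p : ℕ) : OE A K) :=
  hπ.prime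

/-- **The residue field of `OE A K` is perfect**, divisibility form at the uniformiser `p`
(the binder `hperf` of `Model.IsModel.top_core`, `ZConstTop.tame_depth_one_top`, ..). -/
theorem hperf_OE (p : ℕ) (hp : p.Prime) (hA : A.LiesOverPrime p)
    (K : IntermediateField ℚ Qb) [FiniteDimensional ℚ K] [IsDiscreteValuationRing (OE A K)]
    (hπ : Irreducible ((p : ℕ) : OE A K)) :
    ∀ a : OE A K, ∃ b : OE A K, ((p : ℕ) : OE A K) ∣ a - b ^ p := by
  have hmax : IsLocalRing.maximalIdeal (OE A K) = Ideal.span {((p : ℕ) : OE A K)} :=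
    (IsDiscreteValuationRing.irreducible_iff_uniformizer _).mp hπ
  exact fun a => Fermat.Agent.S44.L.KummerPerf.exists_pow_sub_dvd A hp hA K hmax a

variable (M p : ℕ) [NeZero M] [NeZero p]

/-- `U = α u₄ ≠ 0`. -/
theorem alpha_u4_ne_zero (K : IntermediateField ℚ Qb) (h4 : 4 ∣ M) :
    alphaHom M p K (u4E M K h4) ≠ 0 := fun h =>
  LevelQ.transcendental_alpha_u4E M p K h4 (h ▸ isAlgebraic_zero)

/-- **The two generic rings contain `U = α u₄` and `U⁻¹`** (the binder `hVu` of
`CoverModel.cover_model`), over `O = OE A K`. -/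
theorem huV_u4 (hp : p.Prime) (hpM : ¬ p ∣ M) (h4 : 4 ∣ M)
    (K : IntermediateField ℚ Qb) [IsDiscreteValuationRing (OE A K)] :
    ∀ W, alphaHom M p K (u4E M K h4) ∈ VB M p K (OE A K) hp hpM W ∧
      (alphaHom M p K (u4E M K h4))⁻¹ ∈ VB M p K (OE A K) hp hpM W :=
  huV_u4_gen (O := OE A K) M p K hp hpM h4

/-- **The base data of the cover model (row C3-E, base side)**, for every `K` of the class of
row B3: with `O = OE A K`, `F = LE (M p) K`, `U = α u₄`, `V = GaussRings.VB`,

1. the model `Model.IsModel p p V (ptR p U) (ptOn p U V) Hor` (`Hor` of record),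
2. `Model.CoversCusp p U (ptR p U)`,
3. `hVu : ∀ W, U ∈ V W ∧ U⁻¹ ∈ V W`,
4. `U ≠ 0`,
5. `U` is transcendental over `K`,
6. `F` is finite over `K(U)`,
7. `hperf : ∀ a : O, ∃ b : O, p ∣ a - b ^ p`,
8. `hinj : O → F` is injective,
9. `p` is prime in `O`. -/
theorem base_u4 (hp : p.Prime) (hodd : p ≠ 2) (hpM : ¬ p ∣ M) (h4 : 4 ∣ M)
    (hA : A.LiesOverPrime p)
    (K : IntermediateField ℚ Qb) [FiniteDimensional ℚ K] [IsDiscreteValuationRing (OE A K)]
    (z : Qb) (hz : IsPrimitiveRoot z M) (hzK : z ∈ K)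
    (hπ : Irreducible ((p : ℕ) : OE A K)) :
    letI := algebraOL (OE A K) K (LE (M * p) K)
    IsModel p ((p : ℕ) : OE A K) (VB M p K (OE A K) hp hpM)
        (ptR ((p : ℕ) : OE A K) (alphaHom M p K (u4E M K h4)))
        (ptOn ((p : ℕ) : OE A K) (alphaHom M p K (u4E M K h4)) (VB M p K (OE A K) hp hpM))
        (fun f => Horiz ((p : ℕ) : OE A K) p (alphaHom M p K (u4E M K h4)) f ∧
          Horiz ((p : ℕ) : OE A K) p (alphaHom M p K (u4E M K h4))⁻¹ f) ∧
      CoversCusp ((p : ℕ) : OE A K) (alphaHom M p K (u4E M K h4))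
        (ptR ((p : ℕ) : OE A K) (alphaHom M p K (u4E M K h4))) ∧
      (∀ W, alphaHom M p K (u4E M K h4) ∈ VB M p K (OE A K) hp hpM W ∧
        (alphaHom M p K (u4E M K h4))⁻¹ ∈ VB M p K (OE A K) hp hpM W) ∧
      alphaHom M p K (u4E M K h4) ≠ 0 ∧
      Transcendental K (alphaHom M p K (u4E M K h4)) ∧
      FiniteDimensional (IntermediateField.adjoin K {alphaHom M p K (u4E M K h4)})
        (LE (M * p) K) ∧
      (∀ a : OE A K, ∃ b : OE A K, ((p : ℕ) : OE A K) ∣ a - b ^ p) ∧
      Function.Injective (algebraMap (OE A K) (LE (M * p) K)) ∧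
      Prime ((p : ℕ) : OE A K) := by
  letI := algebraOL (OE A K) K (LE (M * p) K)
  exact ⟨Fermat.Agent.S33.Geo.ModelInstB3.isModel_u4_pt M p h4 hp hodd hpM A hA K z hz hzK hπ,
    Fermat.Agent.S33.Geo.ModelInstB3.coversCusp_u4_pt M p h4 A K,
    huV_u4 A M p hp hpM h4 K, alpha_u4_ne_zero M p K h4,
    LevelQ.transcendental_alpha_u4E M p K h4, LevelQ.finiteDimensional_alpha_u4E M p K h4,
    hperf_OE A p hp hA K hπ, hinj_OE A (M * p) K, prime_natCast_OE A p K hπ⟩

/-- **The base data of the cover model over a field of the geometric class**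
`S36.GeomClass.GeomClass A M S₀` (e.g. `K = inertiaFixed A E`,
`InertiaCyclo.geomClass_inertiaFixed`), in the binder shape of the `hB4` row of
`FunIFinal.funIStatement_of_leaves`: `p` is a uniformiser of `OE A K` and the data of
`base_u4` hold. -/
theorem base_u4_geomClass (hp : p.Prime) (hodd : p ≠ 2) (hpM : ¬ p ∣ M) (h4 : 4 ∣ M)
    (hA : A.LiesOverPrime p) (S₀ : Finset Qb)
    (K : IntermediateField ℚ Qb) (hK : GeomClass A M S₀ K)
    [FiniteDimensional ℚ K] [IsDiscreteValuationRing (OE A K)] :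
    letI := algebraOL (OE A K) K (LE (M * p) K)
    Irreducible ((p : ℕ) : OE A K) ∧
      IsModel p ((p : ℕ) : OE A K) (VB M p K (OE A K) hp hpM)
        (ptR ((p : ℕ) : OE A K) (alphaHom M p K (u4E M K h4)))
        (ptOn ((p : ℕ) : OE A K) (alphaHom M p K (u4E M K h4)) (VB M p K (OE A K) hp hpM))
        (fun f => Horiz ((p : ℕ) : OE A K) p (alphaHom M p K (u4E M K h4)) f ∧
          Horiz ((p : ℕ) : OE A K) p (alphaHom M p K (u4E M K h4))⁻¹ f) ∧
      CoversCusp ((p : ℕ) : OE A K) (alphaHom M p K (u4E M K h4))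
        (ptR ((p : ℕ) : OE A K) (alphaHom M p K (u4E M K h4))) ∧
      (∀ W, alphaHom M p K (u4E M K h4) ∈ VB M p K (OE A K) hp hpM W ∧
        (alphaHom M p K (u4E M K h4))⁻¹ ∈ VB M p K (OE A K) hp hpM W) ∧
      alphaHom M p K (u4E M K h4) ≠ 0 ∧
      Transcendental K (alphaHom M p K (u4E M K h4)) ∧
      FiniteDimensional (IntermediateField.adjoin K {alphaHom M p K (u4E M K h4)})
        (LE (M * p) K) ∧
      (∀ a : OE A K, ∃ b : OE A K, ((p : ℕ) : OE A K) ∣ a - b ^ p) ∧
      Function.Injective (algebraMap (OE A K) (LE (M * p) K)) ∧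
      Prime ((p : ℕ) : OE A K) := by
  letI := algebraOL (OE A K) K (LE (M * p) K)
  obtain ⟨z, hzK, hz⟩ := hK.exists_primitiveRoot
  have hπ : Irreducible ((p : ℕ) : OE A K) := hK.irreducible_natCast hp hA
  exact ⟨hπ, base_u4 A M p hp hodd hpM h4 hA K z hz hzK hπ⟩

end Arithmetic

end Fermat.Agent.S33.Geo.CoverBase
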