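import Mathlib

/-!
# S33 / GEO / C3, part T2 (b): the chart level of a finite cover

Mathlib only.  `O` a commutative ring, `F` a field over `O`, `L / F` a field extension
(`IsScalarTower O F L`).  For `v ∈ F` with image `v' ∈ L`, the chart downstairs is
`integralClosure O[v] F` and the chart of the cover is `integralClosure O[v'] L`.

* `isIntegral_map_adjoin` : integrality over `O[v]` passes to integrality over `O[v']`.
* `chartMap`, `contract`, `contract_isMaximal` : the map of chart rings, the contraction of an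
  ideal of the chart of the cover, and its maximality for a maximal ideal.
* `exists_maximal_mem_iff` : integral closure commutes with localisation, chart form.  For every
  ring `A` whose image in `F` is the local ring of the chart downstairs at the contraction of
  `𝔪'` (elementwise form), there is a maximal ideal `P` of the integral closure of `A` in `L`
  such that the localisation of that integral closure at `P` (fraction form inside `L`) is the
  local ring of the chart of the cover at `𝔪'` (integrality form inside `L`).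
-/

set_option autoImplicit false
set_option linter.unusedSectionVars false
set_option linter.unusedVariables false

namespace Fermat.Agent.S33.Geo.CoverChart

open Polynomial

universe u w

/-! ### Integrality and ranges of ring homomorphisms -/

section Gen

variable {R₁ R₂ T : Type*} [CommRing R₁] [CommRing R₂] [CommRing T]

/-- A root of a monic polynomial over `R₁` whose coefficients map into the range of `g` is
integral over `g`. -/
theorem isIntegralElem_of_coeff_mem_range (f : R₁ →+* T) (g : R₂ →+* T) {y : T} (q : R₁[X])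
    (hq : q.Monic) (h0 : q.eval₂ f y = 0) (h : ∀ i, f (q.coeff i) ∈ g.range) :
    g.IsIntegralElem y := by
  have hl : q.map f ∈ Polynomial.lifts g :=
    (Polynomial.lifts_iff_coeff_lifts _).mpr fun n => by
      rw [Polynomial.coeff_map]
      exact RingHom.mem_range.mp (h n)
  obtain ⟨q', hq'1, -, hq'm⟩ := Polynomial.lifts_and_natDegree_eq_and_monic hl (hq.map f)
  refine ⟨q', hq'm, ?_⟩
  rw [← Polynomial.eval_map, hq'1, Polynomial.eval_map]
  exact h0

/-- Integrality over `f` passes to integrality over `g` when the range of `f` lies in the range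
of `g`. -/
theorem isIntegralElem_of_range_le (f : R₁ →+* T) (g : R₂ →+* T) (h : ∀ r, f r ∈ g.range)
    {y : T} (hy : f.IsIntegralElem y) : g.IsIntegralElem y := by
  obtain ⟨p, hp, hpy⟩ := hy
  exact isIntegralElem_of_coeff_mem_range f g p hp hpy fun i => h _

end Gen

/-! ### The local ring and its maximal ideal, fraction form -/

section Frac

variable {O L : Type*} [CommRing O] [Field L] [Algebra O L] {S' : Subalgebra O L}
  (𝔪' : Ideal (integralClosure S' L))

/-- `x` lies in the localisation of the integral closure of `S'` at `𝔪'` (fraction form). -/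
def InLoc (x : L) : Prop :=
  ∃ s c : integralClosure S' L, s ∉ 𝔪' ∧ (s : L) * x = (c : L)

/-- `x` lies in the maximal ideal of the localisation of the integral closure of `S'` at `𝔪'`
(fraction form). -/
def InMax (x : L) : Prop :=
  ∃ s c : integralClosure S' L, s ∉ 𝔪' ∧ c ∈ 𝔪' ∧ (s : L) * x = (c : L)

theorem inLoc_iff (x : L) :
    InLoc 𝔪' x ↔ ∃ s : integralClosure S' L, s ∉ 𝔪' ∧ IsIntegral S' ((s : L) * x) := by
  constructor
  · rintro ⟨s, c, hs, e⟩
    refine ⟨s, hs, ?_⟩
    rw [e]
    exact c.2
  · rintro ⟨s, hs, h⟩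
    exact ⟨s, ⟨_, h⟩, hs, rfl⟩

theorem inMax_zero (h : 𝔪' ≠ ⊤) : InMax 𝔪' 0 :=
  ⟨1, 0, (Ideal.ne_top_iff_one 𝔪').mp h, 𝔪'.zero_mem, by rw [mul_zero]; rfl⟩

theorem inMax_add (hpr : 𝔪'.IsPrime) {x y : L} (hx : InMax 𝔪' x) (hy : InMax 𝔪' y) :
    InMax 𝔪' (x + y) := by
  obtain ⟨s₁, c₁, hs₁, hc₁, e₁⟩ := hx
  obtain ⟨s₂, c₂, hs₂, hc₂, e₂⟩ := hy
  refine ⟨s₁ * s₂, s₂ * c₁ + s₁ * c₂, fun h => (hpr.mem_or_mem h).elim hs₁ hs₂,
    𝔪'.add_mem (𝔪'.mul_mem_left _ hc₁) (𝔪'.mul_mem_left _ hc₂), ?_⟩
  show (s₁ : L) * (s₂ : L) * (x + y) = (s₂ : L) * (c₁ : L) + (s₁ : L) * (c₂ : L)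
  linear_combination (s₂ : L) * e₁ + (s₁ : L) * e₂

theorem inMax_mul (hpr : 𝔪'.IsPrime) {b x : L} (hb : InLoc 𝔪' b) (hx : InMax 𝔪' x) :
    InMax 𝔪' (b * x) := by
  obtain ⟨t, d, ht, e'⟩ := hb
  obtain ⟨s, c, hs, hc, e⟩ := hx
  refine ⟨t * s, d * c, fun h => (hpr.mem_or_mem h).elim ht hs, 𝔪'.mul_mem_left _ hc, ?_⟩
  show (t : L) * (s : L) * (b * x) = (d : L) * (c : L)
  linear_combination (s : L) * x * e' + (d : L) * e

theorem not_inMax_coe (hpr : 𝔪'.IsPrime) {s₀ : integralClosure S' L} (hs₀ : s₀ ∉ 𝔪') :
    ¬ InMax 𝔪' (s₀ : L) := by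
  rintro ⟨s, c, hs, hc, e⟩
  have h : s * s₀ = c := Subtype.ext e
  have h' : s * s₀ ∈ 𝔪' := by rw [h]; exact hc
  exact (hpr.mem_or_mem h').elim hs hs₀

theorem not_inMax_one (hpr : 𝔪'.IsPrime) : ¬ InMax 𝔪' (1 : L) :=
  not_inMax_coe 𝔪' hpr (s₀ := 1) ((Ideal.ne_top_iff_one 𝔪').mp hpr.ne_top)

end Frac

/-! ### The chart level -/

section Chart

variable {O : Type*} [CommRing O] {F : Type u} [Field F] [Algebra O F]
  {L : Type w} [Field L] [Algebra F L] [Algebra O L] [IsScalarTower O F L]

theorem adjoin_map_eq (v : F) :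
    (Algebra.adjoin O ({v} : Set F)).map (IsScalarTower.toAlgHom O F L) =
      Algebra.adjoin O ({algebraMap F L v} : Set L) := by
  rw [AlgHom.map_adjoin, Set.image_singleton]
  rfl

theorem map_mem_adjoin (v : F) {a : F} (ha : a ∈ Algebra.adjoin O ({v} : Set F)) :
    algebraMap F L a ∈ Algebra.adjoin O ({algebraMap F L v} : Set L) := by
  rw [← adjoin_map_eq]
  exact Subalgebra.mem_map.mpr ⟨a, ha, rfl⟩

theorem exists_mem_adjoin_map (v : F) {r : L}
    (hr : r ∈ Algebra.adjoin O ({algebraMap F L v} : Set L)) :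
    ∃ a ∈ Algebra.adjoin O ({v} : Set F), algebraMap F L a = r := by
  rw [← adjoin_map_eq] at hr
  obtain ⟨a, ha, rfl⟩ := Subalgebra.mem_map.mp hr
  exact ⟨a, ha, rfl⟩

theorem isIntegral_of_mem_adjoin (v : F) {a : F} (ha : a ∈ Algebra.adjoin O ({v} : Set F)) :
    IsIntegral (Algebra.adjoin O ({v} : Set F)) a :=
  isIntegral_algebraMap (R := Algebra.adjoin O ({v} : Set F)) (A := F)
    (x := (⟨a, ha⟩ : Algebra.adjoin O ({v} : Set F)))

/-- Integrality over `O[v]` passes to the cover. -/
theorem isIntegral_map_adjoin (v : F) {x : F}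
    (hx : IsIntegral (Algebra.adjoin O ({v} : Set F)) x) :
    IsIntegral (Algebra.adjoin O ({algebraMap F L v} : Set L)) (algebraMap F L x) := by
  obtain ⟨p, hp, hpx⟩ := hx
  refine isIntegralElem_of_coeff_mem_range
    ((algebraMap F L).comp (algebraMap (Algebra.adjoin O ({v} : Set F)) F))
    (algebraMap (Algebra.adjoin O ({algebraMap F L v} : Set L)) L) p hp ?_ ?_
  · rw [← Polynomial.hom_eval₂, hpx, map_zero]
  · intro i
    exact RingHom.mem_range.mpr
      ⟨⟨algebraMap F L (p.coeff i : F), map_mem_adjoin v (p.coeff i).2⟩, rfl⟩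

/-- The map of chart rings `integralClosure O[v] F → integralClosure O[v'] L`. -/
def chartMap (v : F) : integralClosure (Algebra.adjoin O ({v} : Set F)) F →+*
    integralClosure (Algebra.adjoin O ({algebraMap F L v} : Set L)) L where
  toFun x := ⟨algebraMap F L (x : F), isIntegral_map_adjoin v x.2⟩
  map_one' := Subtype.ext (map_one _)
  map_mul' _ _ := Subtype.ext (map_mul _ _ _)
  map_zero' := Subtype.ext (map_zero _)
  map_add' _ _ := Subtype.ext (map_add _ _ _)

@[simp] theorem coe_chartMap (v : F) (x : integralClosure (Algebra.adjoin O ({v} : Set F)) F) :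
    ((chartMap (L := L) v x : integralClosure (Algebra.adjoin O ({algebraMap F L v} : Set L)) L)
      : L) = algebraMap F L (x : F) := rfl

/-- The map of chart rings is integral. -/
theorem chartMap_isIntegral (v : F) : (chartMap (O := O) (L := L) v).IsIntegral := by
  intro c'
  have hc' : (algebraMap (Algebra.adjoin O ({algebraMap F L v} : Set L))
      (integralClosure (Algebra.adjoin O ({algebraMap F L v} : Set L)) L)).IsIntegralElem c' :=
    Algebra.IsIntegral.isIntegral c'
  refine isIntegralElem_of_range_le _ _ ?_ hc'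
  intro r
  obtain ⟨a, ha, har⟩ := exists_mem_adjoin_map (O := O) v r.2
  exact RingHom.mem_range.mpr ⟨⟨a, isIntegral_of_mem_adjoin v ha⟩, Subtype.ext har⟩

/-- The contraction of an ideal of the chart of the cover to the chart downstairs. -/
def contract (v : F)
    (𝔪' : Ideal (integralClosure (Algebra.adjoin O ({algebraMap F L v} : Set L)) L)) :
    Ideal (integralClosure (Algebra.adjoin O ({v} : Set F)) F) :=
  𝔪'.comap (chartMap v)

theorem mem_contract {v : F}
    {𝔪' : Ideal (integralClosure (Algebra.adjoin O ({algebraMap F L v} : Set L)) L)}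
    {x : integralClosure (Algebra.adjoin O ({v} : Set F)) F} :
    x ∈ contract v 𝔪' ↔ chartMap (O := O) (L := L) v x ∈ 𝔪' := Iff.rfl

/-- The contraction of a maximal ideal is maximal. -/
theorem contract_isMaximal (v : F)
    (𝔪' : Ideal (integralClosure (Algebra.adjoin O ({algebraMap F L v} : Set L)) L))
    (h𝔪' : 𝔪'.IsMaximal) : (contract v 𝔪').IsMaximal := by
  have := h𝔪'
  have h : (𝔪'.comap (chartMap (O := O) (L := L) v)).IsMaximal :=
    Ideal.isMaximal_comap_of_isIntegral_of_isMaximal' (chartMap (O := O) (L := L) v)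
      (chartMap_isIntegral v) 𝔪'
  exact h

/-- The chart of the cover is integral over every ring whose image in `F` contains the local
ring of the chart downstairs at the contraction of `𝔪'`. -/
theorem isIntegral_of_isIntegral_adjoin (v : F)
    (𝔪' : Ideal (integralClosure (Algebra.adjoin O ({algebraMap F L v} : Set L)) L))
    (h𝔪' : 𝔪'.IsMaximal)
    {A : Type u} [CommRing A] [Algebra A F] [Algebra A L] [IsScalarTower A F L]
    (hrange : ∀ x : F,
      (∃ s : integralClosure (Algebra.adjoin O ({v} : Set F)) F, s ∉ contract v 𝔪' ∧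
        IsIntegral (Algebra.adjoin O ({v} : Set F)) ((s : F) * x)) →
      x ∈ (algebraMap A F).range)
    {c : L} (hc : IsIntegral (Algebra.adjoin O ({algebraMap F L v} : Set L)) c) :
    IsIntegral A c := by
  have h1 : (1 : integralClosure (Algebra.adjoin O ({v} : Set F)) F) ∉ contract v 𝔪' :=
    (Ideal.ne_top_iff_one _).mp (contract_isMaximal v 𝔪' h𝔪').ne_top
  refine isIntegralElem_of_range_le
    (algebraMap (Algebra.adjoin O ({algebraMap F L v} : Set L)) L) (algebraMap A L) ?_ hc
  intro r
  obtain ⟨a, ha, har⟩ := exists_mem_adjoin_map (O := O) v r.2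
  obtain ⟨a₀, ha₀⟩ := RingHom.mem_range.mp (hrange a ⟨1, h1, by
    rw [OneMemClass.coe_one, one_mul]
    exact isIntegral_of_mem_adjoin v ha⟩)
  refine RingHom.mem_range.mpr ⟨a₀, ?_⟩
  rw [IsScalarTower.algebraMap_apply A F L, ha₀]
  exact har

/-- An element of `L` integral over `A` becomes integral over `O[v']` after multiplication by an
element of the chart downstairs outside the contraction of `𝔪'`. -/
theorem exists_notMem_isIntegral_mul (v : F)
    (𝔪' : Ideal (integralClosure (Algebra.adjoin O ({algebraMap F L v} : Set L)) L))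
    (h𝔪' : 𝔪'.IsMaximal)
    {A : Type u} [CommRing A] [Algebra A F] [Algebra A L] [IsScalarTower A F L]
    (hrange : ∀ x : F, x ∈ (algebraMap A F).range ↔
      ∃ s : integralClosure (Algebra.adjoin O ({v} : Set F)) F, s ∉ contract v 𝔪' ∧
        IsIntegral (Algebra.adjoin O ({v} : Set F)) ((s : F) * x))
    {y : L} (hy : IsIntegral A y) :
    ∃ s : integralClosure (Algebra.adjoin O ({v} : Set F)) F, s ∉ contract v 𝔪' ∧
      IsIntegral (Algebra.adjoin O ({algebraMap F L v} : Set L))
        (algebraMap F L (s : F) * y) := by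
  have h𝔪 : (contract v 𝔪').IsPrime := (contract_isMaximal v 𝔪' h𝔪').isPrime
  have h1 : (1 : integralClosure (Algebra.adjoin O ({v} : Set F)) F) ∉ contract v 𝔪' :=
    (Ideal.ne_top_iff_one _).mp h𝔪.ne_top
  obtain ⟨p, hp, hpy⟩ := hy
  -- a common denominator of the coefficients
  have key : ∀ T : Finset ℕ, ∃ s : integralClosure (Algebra.adjoin O ({v} : Set F)) F,
      s ∉ contract v 𝔪' ∧ ∀ i ∈ T, IsIntegral (Algebra.adjoin O ({v} : Set F))
        ((s : F) * algebraMap A F (p.coeff i)) := by
    intro T
    induction T using Finset.induction_on with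
    | empty => exact ⟨1, h1, fun i hi => absurd hi (Finset.notMem_empty i)⟩
    | insert i T hi ih =>
      obtain ⟨s, hs, hsT⟩ := ih
      obtain ⟨t, ht, hti⟩ := (hrange _).mp (RingHom.mem_range_self (algebraMap A F) (p.coeff i))
      refine ⟨t * s, fun h => (h𝔪.mem_or_mem h).elim ht hs, fun j hj => ?_⟩
      rcases Finset.mem_insert.mp hj with rfl | hj
      · have e : ((t * s : integralClosure (Algebra.adjoin O ({v} : Set F)) F) : F) *
            algebraMap A F (p.coeff j) = (s : F) * ((t : F) * algebraMap A F (p.coeff j)) := by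
          show (t : F) * (s : F) * _ = _
          ring
        rw [e]
        exact (show IsIntegral (Algebra.adjoin O ({v} : Set F)) (s : F) from s.2).mul hti
      · have e : ((t * s : integralClosure (Algebra.adjoin O ({v} : Set F)) F) : F) *
            algebraMap A F (p.coeff j) = (t : F) * ((s : F) * algebraMap A F (p.coeff j)) := by
          show (t : F) * (s : F) * _ = _
          ring
        rw [e]
        exact (show IsIntegral (Algebra.adjoin O ({v} : Set F)) (t : F) from t.2).mul (hsT j hj)
  obtain ⟨s, hs, hsT⟩ := key p.support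
  have hsall : ∀ i, IsIntegral (Algebra.adjoin O ({v} : Set F))
      ((s : F) * algebraMap A F (p.coeff i)) := by
    intro i
    by_cases hi : i ∈ p.support
    · exact hsT i hi
    · rw [Polynomial.notMem_support_iff.mp hi, map_zero, mul_zero]
      exact isIntegral_zero
  have hsint : IsIntegral (Algebra.adjoin O ({v} : Set F)) (s : F) := s.2
  -- `s` comes from `A`
  obtain ⟨a_s, has⟩ := RingHom.mem_range.mp ((hrange (s : F)).mpr ⟨1, h1, by
    rw [OneMemClass.coe_one, one_mul]
    exact hsint⟩)
  -- scale the roots by `s`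
  have hq : (Polynomial.scaleRoots p a_s).Monic := (Polynomial.monic_scaleRoots_iff a_s).mpr hp
  have hroot : (Polynomial.scaleRoots p a_s).eval₂ (algebraMap A L) (algebraMap A L a_s * y)
      = 0 := Polynomial.scaleRoots_eval₂_eq_zero (algebraMap A L) hpy
  have hcoefF : ∀ i, IsIntegral (Algebra.adjoin O ({v} : Set F))
      (algebraMap A F ((Polynomial.scaleRoots p a_s).coeff i)) := by
    intro i
    rw [Polynomial.coeff_scaleRoots]
    rcases lt_trichotomy i p.natDegree with hlt | heq | hgt
    · obtain ⟨k, hk⟩ : ∃ k, p.natDegree - i = k + 1 := ⟨p.natDegree - i - 1, by omega⟩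
      have e : algebraMap A F (p.coeff i * a_s ^ (p.natDegree - i)) =
          ((s : F) * algebraMap A F (p.coeff i)) * (s : F) ^ k := by
        rw [hk, map_mul, map_pow, has]
        ring
      rw [e]
      exact (hsall i).mul (hsint.pow k)
    · rw [heq, Nat.sub_self, pow_zero, mul_one, hp.coeff_natDegree, map_one]
      exact isIntegral_one
    · rw [Polynomial.coeff_eq_zero_of_natDegree_lt hgt, zero_mul, map_zero]
      exact isIntegral_zero
  have hcoef : ∀ i, algebraMap A L ((Polynomial.scaleRoots p a_s).coeff i) ∈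
      (algebraMap (integralClosure (Algebra.adjoin O ({algebraMap F L v} : Set L)) L) L).range := by
    intro i
    have h := isIntegral_map_adjoin (O := O) (L := L) v (hcoefF i)
    rw [← IsScalarTower.algebraMap_apply A F L] at h
    exact RingHom.mem_range.mpr ⟨⟨_, h⟩, rfl⟩
  have h5 : IsIntegral (integralClosure (Algebra.adjoin O ({algebraMap F L v} : Set L)) L)
      (algebraMap A L a_s * y) :=
    isIntegralElem_of_coeff_mem_range (algebraMap A L) _ _ hq hroot hcoef
  have h6 : IsIntegral (Algebra.adjoin O ({algebraMap F L v} : Set L))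
      (algebraMap A L a_s * y) :=
    isIntegral_trans (A := integralClosure (Algebra.adjoin O ({algebraMap F L v} : Set L)) L)
      _ h5
  refine ⟨s, hs, ?_⟩
  rw [← has, ← IsScalarTower.algebraMap_apply A F L]
  exact h6

/-- **Integral closure commutes with localisation, chart form.**  For every ring `A` whose image
in `F` is the local ring of the chart downstairs at the contraction of `𝔪'` there is a maximal
ideal `P` of the integral closure of `A` in `L` whose local ring (fraction form) is the local
ring of the chart of the cover at `𝔪'` (integrality form). -/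
theorem exists_maximal_mem_iff (v : F)
    (𝔪' : Ideal (integralClosure (Algebra.adjoin O ({algebraMap F L v} : Set L)) L))
    (h𝔪' : 𝔪'.IsMaximal)
    {A : Type u} [CommRing A] [IsDomain A] [Algebra A F] [Algebra A L] [IsScalarTower A F L]
    (hrange : ∀ x : F, x ∈ (algebraMap A F).range ↔
      ∃ s : integralClosure (Algebra.adjoin O ({v} : Set F)) F, s ∉ contract v 𝔪' ∧
        IsIntegral (Algebra.adjoin O ({v} : Set F)) ((s : F) * x)) :
    ∃ (P : Ideal (integralClosure A L)) (hP : P.IsMaximal), ∀ x : L,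
      (∃ a b : integralClosure A L, b ∉ P ∧
        x * algebraMap (integralClosure A L) L b = algebraMap (integralClosure A L) L a) ↔
      ∃ s : integralClosure (Algebra.adjoin O ({algebraMap F L v} : Set L)) L, s ∉ 𝔪' ∧
        IsIntegral (Algebra.adjoin O ({algebraMap F L v} : Set L)) ((s : L) * x) := by
  have hpr : 𝔪'.IsPrime := h𝔪'.isPrime
  have hne : 𝔪' ≠ ⊤ := hpr.ne_top
  have h1' : (1 : integralClosure (Algebra.adjoin O ({algebraMap F L v} : Set L)) L) ∉ 𝔪' :=
    (Ideal.ne_top_iff_one 𝔪').mp hne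
  -- the integral closure of `A` lies in the local ring of the chart of the cover
  have hI : ∀ y : L, IsIntegral A y → InLoc 𝔪' y := by
    intro y hy
    obtain ⟨s, hs, hsy⟩ := exists_notMem_isIntegral_mul v 𝔪' h𝔪' hrange hy
    exact ⟨chartMap (O := O) (L := L) v s, ⟨_, hsy⟩, hs, rfl⟩
  -- the chart of the cover lies in the integral closure of `A`
  have hII : ∀ c : integralClosure (Algebra.adjoin O ({algebraMap F L v} : Set L)) L,
      IsIntegral A (c : L) := fun c =>
    isIntegral_of_isIntegral_adjoin v 𝔪' h𝔪' (fun x hx => (hrange x).mpr hx) c.2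
  let P : Ideal (integralClosure A L) :=
    { carrier := {b | InMax 𝔪' (b : L)}
      zero_mem' := inMax_zero 𝔪' hne
      add_mem' := fun {x y} hx hy => inMax_add 𝔪' hpr hx hy
      smul_mem' := fun b x hx => inMax_mul 𝔪' hpr (hI b b.2) hx }
  have hPmem : ∀ b : integralClosure A L, b ∈ P ↔ InMax 𝔪' (b : L) := fun _ => Iff.rfl
  have hPmax : P.IsMaximal := by
    rw [Ideal.isMaximal_iff]
    refine ⟨fun h => not_inMax_one 𝔪' hpr ((hPmem 1).mp h), ?_⟩
    intro J b hPJ hb hbJ
    obtain ⟨t, d, ht, e⟩ := hI b b.2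
    have hd : d ∉ 𝔪' := fun hd => hb ⟨t, d, ht, hd, e⟩
    obtain ⟨d', i, hi, hdi⟩ := h𝔪'.exists_inv hd
    have hdi' : (d' : L) * (d : L) + (i : L) = 1 := congrArg Subtype.val hdi
    have hmem : b * ⟨((t * d' : integralClosure (Algebra.adjoin O ({algebraMap F L v} : Set L))
        L) : L), hII _⟩ - 1 ∈ P := by
      refine ⟨1, -i, h1', 𝔪'.neg_mem hi, ?_⟩
      show (1 : L) * ((b : L) * ((t : L) * (d' : L)) - 1) = -(i : L)
      linear_combination (d' : L) * e + hdi'
    have h1J : (1 : integralClosure A L) =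
        b * ⟨((t * d' : integralClosure (Algebra.adjoin O ({algebraMap F L v} : Set L)) L) : L),
          hII _⟩ - (b * ⟨((t * d' : integralClosure (Algebra.adjoin O ({algebraMap F L v} :
            Set L)) L) : L), hII _⟩ - 1) := by ring
    rw [h1J]
    exact J.sub_mem (J.mul_mem_right _ hbJ) (hPJ hmem)
  refine ⟨P, hPmax, fun x => ⟨?_, ?_⟩⟩
  · rintro ⟨a, b, hb, hxb⟩
    have hxb' : x * (b : L) = (a : L) := hxb
    obtain ⟨s₁, c₁, hs₁, e₁⟩ := hI a a.2
    obtain ⟨s₂, c₂, hs₂, e₂⟩ := hI b b.2
    have hc₂ : c₂ ∉ 𝔪' := fun h => hb ⟨s₂, c₂, hs₂, h, e₂⟩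
    refine ⟨s₁ * c₂, fun h => (hpr.mem_or_mem h).elim hs₁ hc₂, ?_⟩
    have e : ((s₁ * c₂ : integralClosure (Algebra.adjoin O ({algebraMap F L v} : Set L)) L) : L)
        * x = ((s₂ * c₁ : integralClosure (Algebra.adjoin O ({algebraMap F L v} : Set L)) L)
          : L) := by
      show (s₁ : L) * (c₂ : L) * x = (s₂ : L) * (c₁ : L)
      linear_combination (s₁ : L) * (s₂ : L) * hxb' - (s₁ : L) * x * e₂ + (s₂ : L) * e₁
    rw [e]
    exact (s₂ * c₁).2
  · rintro ⟨s, hs, hsx⟩
    refine ⟨⟨(s : L) * x, hII ⟨_, hsx⟩⟩, ⟨(s : L), hII s⟩, not_inMax_coe 𝔪' hpr hs, ?_⟩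
    show x * (s : L) = (s : L) * x
    exact mul_comm _ _

end Chart

end Fermat.Agent.S33.Geo.CoverChart
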