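/-
S33 (ordinary at `p ∥ N`), strand GEO, Stage B, row C1-E (helper117): THE COVER FIELD, finiteness
of the top field (what the two-tower form of C4 asks of C1-E besides `CoverFieldInst.cover_gal`).

`L1 = F₁(T_i)` with `T_i ^ p ∈ F₁ = LE N K(ζ)` and finitely many `T_i`:
* `isIntegral_gen`, `isIntegral_T` : the generators are integral over `F₁`;
* `finiteDimensional_L1` : `L1 / F₁` is finite;
* `algebra_adjoin_gen` : the generators generate `L1` as an `F₁`-ALGEBRA
  (`Algebra.adjoin F₁ (range gen) = ⊤`, the `hgen` binder of the two-tower statements).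
-/
import Mathlib
import Fermat.Agent.S33.Geo.CoverFieldDefs

set_option autoImplicit false

open ModularCurve

noncomputable section

namespace Fermat.Agent.S33.Geo.CoverFieldFin

open Fermat.Agent.S18.K1Defs Fermat.Agent.S18.K1Top Fermat.Agent.S36.CycloBase
open Fermat.Agent.S33.Geo.CoverFieldDefs

local notation "Qb" => AlgebraicClosure ℚ

variable (N : ℕ) (K : IntermediateField ℚ Qb) (ζ : Qb) {ι : Type*}
  (T : ι → LaurentSeries (cyclo K ζ))

/-- The generators are integral over `F₁` (as elements of `K(ζ)((q))`). -/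
theorem isIntegral_T {p : ℕ} (hp : p ≠ 0) (hT : ∀ i, T i ^ p ∈ LE N (cyclo K ζ)) (i : ι) :
    IsIntegral (LE N (cyclo K ζ)) (T i) := by
  refine ⟨Polynomial.X ^ p - Polynomial.C (⟨T i ^ p, hT i⟩ : LE N (cyclo K ζ)),
    Polynomial.monic_X_pow_sub_C _ hp, ?_⟩
  rw [Polynomial.eval₂_sub, Polynomial.eval₂_pow, Polynomial.eval₂_X, Polynomial.eval₂_C]
  exact sub_self _

/-- The generators are integral over `F₁` (as elements of the top field). -/
theorem isIntegral_gen {p : ℕ} (hp : p ≠ 0) (hT : ∀ i, T i ^ p ∈ LE N (cyclo K ζ)) (i : ι) :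
    IsIntegral (LE N (cyclo K ζ)) (gen N K ζ T i) := by
  refine ⟨Polynomial.X ^ p - Polynomial.C (⟨T i ^ p, hT i⟩ : LE N (cyclo K ζ)),
    Polynomial.monic_X_pow_sub_C _ hp, ?_⟩
  rw [Polynomial.eval₂_sub, Polynomial.eval₂_pow, Polynomial.eval₂_X, Polynomial.eval₂_C]
  apply Subtype.ext
  exact sub_self _

/-- **The top field is finite over `F₁`.** -/
theorem finiteDimensional_L1 {p : ℕ} (hp : p ≠ 0) [Finite ι]
    (hT : ∀ i, T i ^ p ∈ LE N (cyclo K ζ)) :
    FiniteDimensional (LE N (cyclo K ζ)) (L1 N K ζ T) := by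
  have : Finite (Set.range T) := Set.finite_range T
  show FiniteDimensional (LE N (cyclo K ζ))
    (IntermediateField.adjoin (LE N (cyclo K ζ)) (Set.range T))
  refine IntermediateField.finiteDimensional_adjoin ?_
  rintro _ ⟨i, rfl⟩
  exact isIntegral_T N K ζ T hp hT i

/-- **The generators generate the top field as an `F₁`-algebra.** -/
theorem algebra_adjoin_gen {p : ℕ} (hp : p ≠ 0) (hT : ∀ i, T i ^ p ∈ LE N (cyclo K ζ)) :
    Algebra.adjoin (LE N (cyclo K ζ)) (Set.range (gen N K ζ T)) = ⊤ := by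
  have h1 := IntermediateField.adjoin_toSubalgebra_of_isAlgebraic
    (F := LE N (cyclo K ζ)) (S := Set.range (gen N K ζ T)) (by
      rintro _ ⟨i, rfl⟩
      exact (isIntegral_gen N K ζ T hp hT i).isAlgebraic)
  rw [← h1, adjoin_gen]
  rfl

end Fermat.Agent.S33.Geo.CoverFieldFin
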