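import Mathlib
import Fermat.Agent.S33.Geo.CoverModel
import Fermat.Agent.S33.Geo.CoverBase
import Fermat.Agent.S33.Geo.CoverSupply
import Fermat.Agent.S33.Geo.CoverUnrFinal

/-!
# S33 / GEO / C3-E: the model of the cover field, E-level instance (the row `hModel`)

The instance of `CoverModel.cover_model_exit` at the objects of the chain `?FunII0`:

* base: `O = OE A K` (a discrete valuation ring with uniformiser `p`), `F = LE (M * p) K` with
  the `O`-algebra structure `algebraOL (OE A K) K F`, components `V = GaussRings.VB`, chart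
  coordinate `U = alphaHom M p K (u4E M K h4)`;
* cover: `L = ↥(CoverFieldDefs.L0 (M * p) K ζ T)` with the `O`-algebra structure through `K`
  (`((algebraMap K L).comp (algebraMap O K)).toAlgebra`), `u' = algebraMap F L U`,
  `Hor' f := ∀ P : AlgebraicCurve.Place K L, (p : ℤ) ∣ P.ord f`.

* `hModel_u4` : **the closed row**: the conclusion of `CoverModel.cover_model_exit` at these
  objects (the model of `L`, the cover of its fibre, (β), `hred0`, `hredinf`) together with (α)
  and the base facts of the exit, from the landed suppliers - row B3 / `CoverBase.base_u4` (the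
  base model), row C4 / `CoverUnrFinal.hN_of_model`, `hS_of_model` (the discriminant
  hypotheses, from the C8q data of the Kummer functions `y i`, `T i ^ p = y i`), `CoverSupply`
  (finite chart, no new constants, place form of the horizontal clause, the cusp point of
  residue degree one);
* `hModel` : the closed row in the existential form consumed by the glue of the chain.
-/

set_option autoImplicit false
set_option linter.unusedSectionVars false
set_option linter.unusedVariables false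
set_option linter.style.haveILetI false
set_option synthInstance.maxHeartbeats 400000
set_option maxHeartbeats 1000000

open ModularCurve IsLocalRing

noncomputable section

namespace Fermat.Agent.S33.Geo.CoverModelInst

open Fermat.Agent.S30 Fermat.Agent.S18.K1Defs Fermat.Agent.S18.K1Top Fermat.Agent.S18.K1Main
open Fermat.Agent.S34.TwoPrimesRank Fermat.Agent.S34.HauptU.Plug Fermat.Agent.S36.Haupt4
open Fermat.Agent.S36.CycloBase Fermat.Agent.S36.UnramBase Fermat.Agent.S36.InvFun
open Fermat.Agent.S33.Geo.Contract Fermat.Agent.S33.Geo.GaussRings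
open Fermat.Agent.S33.Geo.CoverFieldDefs
open Fermat.Agent.S33.Geo.Top Fermat.Agent.S33.Geo.TopLocal Fermat.Agent.S33.Geo.Model
open Fermat.Agent.S33.Geo.ChartBranch Fermat.Agent.S33.Geo.ChartPoints
open Fermat.Agent.S33.Geo.ChartBranchModel Fermat.Agent.S33.Geo.CoverBlocks

local notation "Qb" => AlgebraicClosure ℚ

/-! ### The closed row -/

section Closed

variable (A : ValuationSubring Qb) (M p : ℕ) [NeZero M] [NeZero p]
  (hp : p.Prime) (hodd : p ≠ 2) (hpM : ¬ p ∣ M) (h4 : 4 ∣ M) (hA : A.LiesOverPrime p)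
  (K : IntermediateField ℚ Qb) [FiniteDimensional ℚ K]
  (hK : A.inertiaSubgroupIn ℚ ≤ K.fixingSubgroup) [IsDiscreteValuationRing (OE A K)]
  (z : Qb) (hz : IsPrimitiveRoot z M) (hzK : z ∈ K) (hπ : Irreducible ((p : ℕ) : OE A K))
  {ζ : Qb} (hζ : IsPrimitiveRoot ζ p)
  {n : ℕ} (T : Fin n → LaurentSeries (cyclo K ζ)) (y : Fin n → LE (M * p) (cyclo K ζ))
  {k : ℕ} [FiniteDimensional (LE (M * p) K) (L0 (M * p) K ζ T)]
  [IsGalois (LE (M * p) K) (L0 (M * p) K ζ T)]

set_option maxHeartbeats 4000000 in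
include hodd hA hK hz hzK hπ hζ h4 in
/-- **Row C3-E, closed (`hModel`), canonical datum**: the model of the cover field
`L0 (M * p) K ζ T` over `OE A K` on the canonical components `{W' // IsGen p u' W'}` and points
`Pt p u'` of the two charts of `u' = α u₄`: the model, the cover of its fibre (cusp form),
(β), (γ) `hred0`, `hredinf`, (α), and the base facts `u' ≠ 0`, `u'` transcendental over `K`,
`L0` finite over `K(u')`. -/
theorem hModel_u4
    (hL0 : Module.finrank (LE (M * p) K) (L0 (M * p) K ζ T) = p ^ k)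
    (hTy : ∀ i, T i ^ p = ((y i : LE (M * p) (cyclo K ζ)) : LaurentSeries (cyclo K ζ)))
    (hy : ∀ i, y i ≠ 0)
    (hlc : ∀ i, (sigmaHom (M * p) (cyclo K ζ) (y i)).leadingCoeff = 1)
    (hdiv : ∀ i, E4.DivBy (M * p) p (upF (M * p) (cyclo K ζ) (y i)))
    (ht : ∀ i, TrivAt (M * p) A p 1 (upF (M * p) (cyclo K ζ) (y i)))
    (htw : ∀ i, TrivAt (M * p) A p 1
      (Fermat.Agent.S34.ToricSwap.wAL M p hp hpM (upF (M * p) (cyclo K ζ) (y i)))) :
    letI := algebraOL (OE A K) K (LE (M * p) K)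
    letI : Algebra (OE A K) (L0 (M * p) K ζ T) :=
      ((algebraMap K (L0 (M * p) K ζ T)).comp (algebraMap (OE A K) K)).toAlgebra
    IsModel p ((p : ℕ) : OE A K)
        (Subtype.val : {W' : Subring (L0 (M * p) K ζ T) // IsGen ((p : ℕ) : OE A K)
          (algebraMap (LE (M * p) K) (L0 (M * p) K ζ T) (alphaHom M p K (u4E M K h4))) W'} →
            Subring (L0 (M * p) K ζ T))
        (ptR ((p : ℕ) : OE A K)
          (algebraMap (LE (M * p) K) (L0 (M * p) K ζ T) (alphaHom M p K (u4E M K h4))))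
        (ptOn ((p : ℕ) : OE A K)
          (algebraMap (LE (M * p) K) (L0 (M * p) K ζ T) (alphaHom M p K (u4E M K h4)))
          (Subtype.val : {W' : Subring (L0 (M * p) K ζ T) // IsGen ((p : ℕ) : OE A K)
            (algebraMap (LE (M * p) K) (L0 (M * p) K ζ T) (alphaHom M p K (u4E M K h4))) W'} →
              Subring (L0 (M * p) K ζ T)))
        (fun f => ∀ P : AlgebraicCurve.Place K (L0 (M * p) K ζ T), (p : ℤ) ∣ P.ord f) ∧
      CoversCusp ((p : ℕ) : OE A K)
        (algebraMap (LE (M * p) K) (L0 (M * p) K ζ T) (alphaHom M p K (u4E M K h4)))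
        (ptR ((p : ℕ) : OE A K)
          (algebraMap (LE (M * p) K) (L0 (M * p) K ζ T) (alphaHom M p K (u4E M K h4)))) ∧
      algebraMap (LE (M * p) K) (L0 (M * p) K ζ T) (alphaHom M p K (u4E M K h4)) ≠ 0 ∧
      Transcendental K
        (algebraMap (LE (M * p) K) (L0 (M * p) K ζ T) (alphaHom M p K (u4E M K h4))) ∧
      FiniteDimensional (IntermediateField.adjoin K
        ({algebraMap (LE (M * p) K) (L0 (M * p) K ζ T) (alphaHom M p K (u4E M K h4))} :
          Set (L0 (M * p) K ζ T))) (L0 (M * p) K ζ T) ∧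
      (∀ x : L0 (M * p) K ζ T,
        IsIntegral (Algebra.adjoin (OE A K) ({algebraMap (LE (M * p) K) (L0 (M * p) K ζ T)
          (alphaHom M p K (u4E M K h4))} : Set (L0 (M * p) K ζ T))) x →
        IsIntegral (Algebra.adjoin (OE A K) ({algebraMap (LE (M * p) K) (L0 (M * p) K ζ T)
          (alphaHom M p K (u4E M K h4))} : Set (L0 (M * p) K ζ T)))
          (x ^ p / (p : L0 (M * p) K ζ T)) →
        IsIntegral (Algebra.adjoin (OE A K) ({algebraMap (LE (M * p) K) (L0 (M * p) K ζ T)
          (alphaHom M p K (u4E M K h4))} : Set (L0 (M * p) K ζ T)))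
          (x / (p : L0 (M * p) K ζ T))) ∧
      (∀ x : L0 (M * p) K ζ T,
        IsIntegral (Algebra.adjoin (OE A K) ({(algebraMap (LE (M * p) K) (L0 (M * p) K ζ T)
          (alphaHom M p K (u4E M K h4)))⁻¹} : Set (L0 (M * p) K ζ T))) x →
        IsIntegral (Algebra.adjoin (OE A K) ({(algebraMap (LE (M * p) K) (L0 (M * p) K ζ T)
          (alphaHom M p K (u4E M K h4)))⁻¹} : Set (L0 (M * p) K ζ T)))
          (x ^ p / (p : L0 (M * p) K ζ T)) →
        IsIntegral (Algebra.adjoin (OE A K) ({(algebraMap (LE (M * p) K) (L0 (M * p) K ζ T)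
          (alphaHom M p K (u4E M K h4)))⁻¹} : Set (L0 (M * p) K ζ T)))
          (x / (p : L0 (M * p) K ζ T))) ∧
      ∀ W' : {W' : Subring (L0 (M * p) K ζ T) // IsGen ((p : ℕ) : OE A K)
          (algebraMap (LE (M * p) K) (L0 (M * p) K ζ T) (alphaHom M p K (u4E M K h4))) W'},
        Fermat.Agent.S33.Geo.BranchDvr.IsPiDvr ((p : ℕ) : OE A K)
            (W' : Subring (L0 (M * p) K ζ T)) ∧
          Fermat.Agent.S33.Geo.BranchPin.IsDisc ((p : ℕ) : OE A K)
            (W' : Subring (L0 (M * p) K ζ T)) ∧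
          ∃ b : Bool, ∀ f : LE (M * p) K,
            algebraMap (LE (M * p) K) (L0 (M * p) K ζ T) f ∈ (W' : Subring (L0 (M * p) K ζ T)) ↔
              f ∈ VB M p K (OE A K) hp hpM b := by
  letI := algebraOL (OE A K) K (LE (M * p) K)
  letI : Algebra (OE A K) (L0 (M * p) K ζ T) :=
    ((algebraMap K (L0 (M * p) K ζ T)).comp (algebraMap (OE A K) K)).toAlgebra
  haveI : IsDiscreteValuationRing (OE A (cyclo K ζ)) :=
    Fermat.Agent.S30.GaussDescent.isDiscreteValuationRing_OE A (cyclo K ζ) hp hA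
  haveI : IsScalarTower (OE A K) K (L0 (M * p) K ζ T) :=
    IsScalarTower.of_algebraMap_eq (fun _ => rfl)
  haveI : IsScalarTower (OE A K) K (LE (M * p) K) := isScalarTower_OL (OE A K) K (LE (M * p) K)
  haveI : IsScalarTower (OE A K) (LE (M * p) K) (L0 (M * p) K ζ T) :=
    CoverSupply.isScalarTower_O_LE_L0 (M * p) K ζ T (O := OE A K)
  obtain ⟨D, hcov, hVu, hU0, hUtr, hfd, hperf, hinjF, hprime⟩ :=
    CoverBase.base_u4 A M p hp hodd hpM h4 hA K z hz hzK hπ
  haveI := hfd
  haveI hfin := CoverSupply.finite_chart (M * p) K ζ T (O := OE A K)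
    (alphaHom M p K (u4E M K h4)) hUtr
  obtain ⟨y₀, hdeg⟩ := CoverSupply.exists_degOne_u4 M p K ζ T (O := OE A K) h4
    ((p : ℕ) : OE A K) hπ.not_isUnit
  obtain ⟨h1, h2, h3, h4', h5⟩ := CoverModel.cover_model_exit D hπ
    (alphaHom M p K (u4E M K h4)) hU0 hcov hVu
    (CoverSupply.hinj (M * p) K ζ T (IsFractionRing.injective (OE A K) K))
    (CoverSupply.hOL (M * p) K ζ T)
    (fun f => ∀ P : AlgebraicCurve.Place K (L0 (M * p) K ζ T), (p : ℤ) ∣ P.ord f)
    (CoverSupply.hHor (M * p) K ζ T p hp.ne_zero ((p : ℕ) : OE A K) hπ.not_isUnit)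
    (CoverUnrFinal.hN_of_model A M p hp hpM h4 hA K hK hζ T y _ _ _ D hcov hL0 hTy hy hlc hdiv
      ht htw)
    (CoverUnrFinal.hS_of_model A M p hp hpM h4 hA K hK hζ T y _ _ _ D hcov hL0 hTy hy hlc hdiv
      ht htw)
    y₀ hdeg
  refine ⟨h1, h2, (map_ne_zero _).mpr hU0,
    CoverSupply.transcendental_up (M * p) K ζ T _ hUtr,
    CoverSupply.finiteDimensional_adjoin_up (M * p) K ζ T _, h4', h5, fun W' => ?_⟩
  exact ⟨(CoverModel.alpha W').1, (CoverModel.alpha W').2.1, h3 W'⟩

set_option maxHeartbeats 4000000 in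
include hodd hA hK hz hzK hπ hζ h4 in
/-- **Row C3-E, closed (`hModel`), existential form** (the form consumed by the glue of the
chain `?FunII0`): a model of the cover field `L0 (M * p) K ζ T` over `OE A K` with the place
form of the horizontal predicate and the cusp form of the cover, the base facts of the exit
`ModelExitC.model_exit_cusp`, (γ) `hred0`, `hredinf`, and for every component (α) `IsPiDvr`,
`IsDisc` and (β) "lies over `V∞` or `V0`". -/
theorem hModel
    (hL0 : Module.finrank (LE (M * p) K) (L0 (M * p) K ζ T) = p ^ k)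
    (hTy : ∀ i, T i ^ p = ((y i : LE (M * p) (cyclo K ζ)) : LaurentSeries (cyclo K ζ)))
    (hy : ∀ i, y i ≠ 0)
    (hlc : ∀ i, (sigmaHom (M * p) (cyclo K ζ) (y i)).leadingCoeff = 1)
    (hdiv : ∀ i, E4.DivBy (M * p) p (upF (M * p) (cyclo K ζ) (y i)))
    (ht : ∀ i, TrivAt (M * p) A p 1 (upF (M * p) (cyclo K ζ) (y i)))
    (htw : ∀ i, TrivAt (M * p) A p 1
      (Fermat.Agent.S34.ToricSwap.wAL M p hp hpM (upF (M * p) (cyclo K ζ) (y i)))) :
    letI : Algebra (OE A K) (L0 (M * p) K ζ T) :=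
      ((algebraMap K (L0 (M * p) K ζ T)).comp (algebraMap (OE A K) K)).toAlgebra
    ∃ (ι' Y' : Type) (V' : ι' → Subring (L0 (M * p) K ζ T))
      (R' : Y' → Subring (L0 (M * p) K ζ T)) (On' : Y' → ι' → Prop) (u' : L0 (M * p) K ζ T),
      IsModel p ((p : ℕ) : OE A K) V' R' On'
        (fun f => ∀ P : AlgebraicCurve.Place K (L0 (M * p) K ζ T), (p : ℤ) ∣ P.ord f) ∧
      CoversCusp ((p : ℕ) : OE A K) u' R' ∧
      u' ≠ 0 ∧ Transcendental K u' ∧
      FiniteDimensional (IntermediateField.adjoin K ({u'} : Set (L0 (M * p) K ζ T)))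
        (L0 (M * p) K ζ T) ∧
      (∀ x : L0 (M * p) K ζ T,
        IsIntegral (Algebra.adjoin (OE A K) ({u'} : Set (L0 (M * p) K ζ T))) x →
        IsIntegral (Algebra.adjoin (OE A K) ({u'} : Set (L0 (M * p) K ζ T)))
          (x ^ p / (p : L0 (M * p) K ζ T)) →
        IsIntegral (Algebra.adjoin (OE A K) ({u'} : Set (L0 (M * p) K ζ T)))
          (x / (p : L0 (M * p) K ζ T))) ∧
      (∀ x : L0 (M * p) K ζ T,
        IsIntegral (Algebra.adjoin (OE A K) ({u'⁻¹} : Set (L0 (M * p) K ζ T))) x →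
        IsIntegral (Algebra.adjoin (OE A K) ({u'⁻¹} : Set (L0 (M * p) K ζ T)))
          (x ^ p / (p : L0 (M * p) K ζ T)) →
        IsIntegral (Algebra.adjoin (OE A K) ({u'⁻¹} : Set (L0 (M * p) K ζ T)))
          (x / (p : L0 (M * p) K ζ T))) ∧
      ∀ W : ι', Fermat.Agent.S33.Geo.BranchDvr.IsPiDvr ((p : ℕ) : OE A K) (V' W) ∧
        Fermat.Agent.S33.Geo.BranchPin.IsDisc ((p : ℕ) : OE A K) (V' W) ∧
        ∃ b : Bool, ∀ f : LE (M * p) K,
          algebraMap (LE (M * p) K) (L0 (M * p) K ζ T) f ∈ V' W ↔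
            f ∈ VB M p K (OE A K) hp hpM b := by
  letI := algebraOL (OE A K) K (LE (M * p) K)
  letI : Algebra (OE A K) (L0 (M * p) K ζ T) :=
    ((algebraMap K (L0 (M * p) K ζ T)).comp (algebraMap (OE A K) K)).toAlgebra
  obtain ⟨h1, h2, h3, h4', h5, h6, h7, h8⟩ := hModel_u4 A M p hp hodd hpM h4 hA K hK z hz hzK hπ
    hζ T y hL0 hTy hy hlc hdiv ht htw
  exact ⟨_, _, _, _, _, _, h1, h2, h3, h4', h5, h6, h7, h8⟩

end Closed

end Fermat.Agent.S33.Geo.CoverModelInst
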