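/-
S33 (ordinary at `p ∥ N`), strand GEO, Stage B, row C4 (CoverUnr), level-free (helper154).

The level-free exit of C4 in its second accepted literal (helper154 #9304, accepted by the C4
owner helper78 in #9371): the base `O` is a discrete valuation ring with uniformiser `ϖ` and
`ϖ ∣ p` (so `O` may be ramified over `ℤ_(p)`), and the two field-level data are written
unfolded (they are `CoverUnrDefs.DepData p ζ T V` and `CoverUnrDefs.HorData F F1 p ϖ T` by
definitional unfolding, and the branch hypotheses are `TopLocal.IsBranch` unfolded).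

* `not_dvd_natCast_of_not_dvd_uniformizer` : a prime element of the block ring not dividing `ϖ`
  does not divide `p`;
* `discrAt_of_node`, `discrAt_of_smooth` : as `CoverUnr.discrAt_node` / `CoverUnr.discrAt_smooth`
  with `(hϖ : Irreducible ϖ) (hϖp : ϖ ∣ (p : O))` in place of `Associated ϖ (p : O)`.
-/
import Mathlib
import Fermat.Agent.S33.Geo.CoverUnr

set_option autoImplicit false
set_option linter.unusedSectionVars false
set_option linter.style.haveILetI false

namespace Fermat.Agent.S33.Geo.CoverUnr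

open IsLocalRing Polynomial
open Fermat.Agent.S44.L Fermat.Agent.S44.L.LocalPrincipal

section Uniformizer

variable {O : Type*} [CommRing O] [IsDomain O] [IsDiscreteValuationRing O]
  {A : Type*} [CommRing A] [IsDomain A] [Algebra O A]

/-- In a domain `A` of characteristic zero over a discrete valuation ring `O` with uniformiser
`ϖ`, a prime element not dividing `ϖ` does not divide `p`. -/
theorem not_dvd_natCast_of_not_dvd_uniformizer [CharZero A] {p : ℕ} (hp : p.Prime) {ϖ : O}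
    (hϖ : Irreducible ϖ) {g : A} (hg : Prime g) (hgϖ : ¬ g ∣ algebraMap O A ϖ) :
    ¬ g ∣ (p : A) := by
  intro h
  have hp0 : (p : O) ≠ 0 := by
    intro h0
    have h1 : (p : A) = 0 := by rw [← map_natCast (algebraMap O A), h0, map_zero]
    exact Nat.cast_ne_zero.mpr hp.ne_zero h1
  obtain ⟨e, u, hu⟩ := IsDiscreteValuationRing.eq_unit_mul_pow_irreducible hp0 hϖ
  have h2 : (p : A) = algebraMap O A u * algebraMap O A ϖ ^ e := by
    rw [← map_natCast (algebraMap O A), hu, map_mul, map_pow]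
  rw [h2] at h
  rcases hg.dvd_or_dvd h with h3 | h3
  · exact hg.not_isUnit (isUnit_of_dvd_unit h3 (u.isUnit.map _))
  · exact hgϖ (hg.dvd_of_dvd_pow h3)

end Uniformizer

section Final

universe u v w

variable {O : Type*} [CommRing O] [IsDomain O] [IsDiscreteValuationRing O]
  {A : Type u} [CommRing A] [IsDomain A] [IsLocalRing A] [IsNoetherianRing A] [Algebra O A]
  {F : Type v} [Field F] [CharZero F] [Algebra A F] [IsFractionRing A F] [Algebra O F]
  [IsScalarTower O A F]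
  {L0 : Type w} [Field L0] [Algebra F L0] [Algebra A L0] [IsScalarTower A F L0]
  [FiniteDimensional F L0] [IsGalois F L0]
  {F1 L1 : Type*} [Field F1] [Algebra F F1] [Field L1] [Algebra F1 L1] [FiniteDimensional F1 L1]
  [Algebra L0 L1] [Algebra F L1] [IsScalarTower F F1 L1] [IsScalarTower F L0 L1]

/-- **C4, node block, uniformiser form.**  `O` a discrete valuation ring with uniformiser
`ϖ ∣ p`; `A` a noetherian local domain over `O` with `𝔪_A = (x, y)`, `x`, `y` prime, `x y ~ ϖ`,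
branch rings `V₁ = A_(x)`, `V₂ = A_(y)`; `F = Frac A` of characteristic zero, `L0 / F` Galois of
degree `p ^ s`, `F1 = F[ζ]`, `L1 = F1[T_1, …, T_n]`, `T_i ≠ 0`, `L0 → L1 ← F1` over `F`.
VERTICAL data: on each branch, `T_i ^ p = G ^ p (1 + (ζ - 1) ^ p r)` with `G ≠ 0` and `r`
integral over the branch ring.  HORIZONTAL data: at every valuation ring of `F1` containing `O`
and `1 / ϖ`, `T_i ^ p` is a unit times a `p`-th power.  Then no prime element of `A` divides the
discriminant of a basis of the integral closure of `A` in `L0`. -/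
theorem discrAt_of_node {p s n : ℕ} (hp : p.Prime) {ϖ : O} (hϖ : Irreducible ϖ)
    (hϖp : ϖ ∣ (p : O)) {x y : A} (hx : Prime x) (hy : Prime y)
    (hm : maximalIdeal A = Ideal.span {x, y}) (hxy : Associated (x * y) (algebraMap O A ϖ))
    {V₁ V₂ : Subring F}
    (hV₁ : ∀ f : F, f ∈ V₁ ↔ ∃ a b : A, ¬ x ∣ b ∧ f * algebraMap A F b = algebraMap A F a)
    (hV₂ : ∀ f : F, f ∈ V₂ ↔ ∃ a b : A, ¬ y ∣ b ∧ f * algebraMap A F b = algebraMap A F a)
    (hL0 : Module.finrank F L0 = p ^ s) (ζ : F1) (hζ : IsPrimitiveRoot ζ p)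
    (hF1 : Algebra.adjoin F {ζ} = ⊤) (T : Fin n → L1) (hT0 : ∀ i, T i ≠ 0)
    (hgen : Algebra.adjoin F1 (Set.range T) = ⊤)
    (hdep₁ : ∀ i, ∃ G r : F1, G ≠ 0 ∧ ((algebraMap F F1).comp V₁.subtype).IsIntegralElem r ∧
      T i ^ p = algebraMap F1 L1 (G ^ p * (1 + (ζ - 1) ^ p * r)))
    (hdep₂ : ∀ i, ∃ G r : F1, G ≠ 0 ∧ ((algebraMap F F1).comp V₂.subtype).IsIntegralElem r ∧
      T i ^ p = algebraMap F1 L1 (G ^ p * (1 + (ζ - 1) ^ p * r)))
    (hhor : ∀ i, ∀ 𝒱 : ValuationSubring F1,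
      (∀ a : O, algebraMap F F1 (algebraMap O F a) ∈ 𝒱) →
      (algebraMap F F1 (algebraMap O F ϖ))⁻¹ ∈ 𝒱 →
      ∃ e h : F1, e ∈ 𝒱 ∧ e⁻¹ ∈ 𝒱 ∧ T i ^ p = algebraMap F1 L1 (e * h ^ p)) :
    ∀ (κ : Type w) [Fintype κ] [DecidableEq κ] (b : Module.Basis κ A (integralClosure A L0))
      (g : A), Prime g → ¬ g ∣ Algebra.discr A b := by
  intro κ _ _ b g hg
  haveI : CharZero A := (algebraMap A F).charZero
  have hϖA : algebraMap O A ϖ ∣ (p : A) := by
    obtain ⟨c, hc⟩ := hϖp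
    exact ⟨algebraMap O A c, by rw [← map_mul, ← hc, map_natCast]⟩
  have hxp : x ∣ (p : A) := (Dvd.intro _ rfl).trans (hxy.dvd.trans hϖA)
  have hyp : y ∣ (p : A) := (Dvd.intro_left _ rfl).trans (hxy.dvd.trans hϖA)
  by_cases hgϖ : g ∣ algebraMap O A ϖ
  · rcases hg.dvd_or_dvd (hgϖ.trans hxy.symm.dvd) with h | h
    · exact fun hd => not_dvd_discr_of_vertical hp hx hxp hV₁ hL0 ζ hζ hF1 T hgen hdep₁ b
        ((hg.associated_of_dvd hx h).dvd_iff_dvd_left.mp hd)
    · exact fun hd => not_dvd_discr_of_vertical hp hy hyp hV₂ hL0 ζ hζ hF1 T hgen hdep₂ b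
        ((hg.associated_of_dvd hy h).dvd_iff_dvd_left.mp hd)
  · haveI : IsDomain (A ⧸ Ideal.span {x}) := Node.isDomain_quot hx
    haveI : IsPrincipalIdealRing (A ⧸ Ideal.span {x}) := Node.isPrincipalIdealRing_quot hx hm
    haveI : UniqueFactorizationMonoid A := LocalPrincipal.quot_ufm hx.ne_zero
    have hxm : x ∈ maximalIdeal A := by
      rw [hm]
      exact Ideal.subset_span (by simp)
    have hpA : (p : A) ∈ maximalIdeal A := by
      obtain ⟨c, hc⟩ := hxp
      rw [hc]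
      exact Ideal.mul_mem_right _ _ hxm
    exact not_dvd_discr_of_horData hp hpA hg hgϖ
      (not_dvd_natCast_of_not_dvd_uniformizer hp hϖ hg hgϖ) ζ hζ.pow_eq_one hF1 T hT0 hgen
      hhor b

/-- **C4, smooth block, uniformiser form.**  As `discrAt_of_node`, at a block ring with `ϖ`
prime and `𝔪_A = (ϖ, z)`, branch ring `V₁ = A_(ϖ)`. -/
theorem discrAt_of_smooth {p s n : ℕ} (hp : p.Prime) {ϖ : O} (hϖ : Irreducible ϖ)
    (hϖp : ϖ ∣ (p : O)) (hπ : Prime (algebraMap O A ϖ)) {z : A}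
    (hm : maximalIdeal A = Ideal.span {algebraMap O A ϖ, z}) {V₁ : Subring F}
    (hV₁ : ∀ f : F, f ∈ V₁ ↔
      ∃ a b : A, ¬ algebraMap O A ϖ ∣ b ∧ f * algebraMap A F b = algebraMap A F a)
    (hL0 : Module.finrank F L0 = p ^ s) (ζ : F1) (hζ : IsPrimitiveRoot ζ p)
    (hF1 : Algebra.adjoin F {ζ} = ⊤) (T : Fin n → L1) (hT0 : ∀ i, T i ≠ 0)
    (hgen : Algebra.adjoin F1 (Set.range T) = ⊤)
    (hdep₁ : ∀ i, ∃ G r : F1, G ≠ 0 ∧ ((algebraMap F F1).comp V₁.subtype).IsIntegralElem r ∧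
      T i ^ p = algebraMap F1 L1 (G ^ p * (1 + (ζ - 1) ^ p * r)))
    (hhor : ∀ i, ∀ 𝒱 : ValuationSubring F1,
      (∀ a : O, algebraMap F F1 (algebraMap O F a) ∈ 𝒱) →
      (algebraMap F F1 (algebraMap O F ϖ))⁻¹ ∈ 𝒱 →
      ∃ e h : F1, e ∈ 𝒱 ∧ e⁻¹ ∈ 𝒱 ∧ T i ^ p = algebraMap F1 L1 (e * h ^ p)) :
    ∀ (κ : Type w) [Fintype κ] [DecidableEq κ] (b : Module.Basis κ A (integralClosure A L0))
      (g : A), Prime g → ¬ g ∣ Algebra.discr A b := by
  intro κ _ _ b g hg
  haveI : CharZero A := (algebraMap A F).charZero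
  have hϖA : algebraMap O A ϖ ∣ (p : A) := by
    obtain ⟨c, hc⟩ := hϖp
    exact ⟨algebraMap O A c, by rw [← map_mul, ← hc, map_natCast]⟩
  by_cases hgϖ : g ∣ algebraMap O A ϖ
  · exact fun hd => not_dvd_discr_of_vertical hp hπ hϖA hV₁ hL0 ζ hζ hF1 T hgen hdep₁ b
      ((hg.associated_of_dvd hπ hgϖ).dvd_iff_dvd_left.mp hd)
  · haveI : IsDomain (A ⧸ Ideal.span {algebraMap O A ϖ}) := Node.isDomain_quot hπ
    haveI : IsPrincipalIdealRing (A ⧸ Ideal.span {algebraMap O A ϖ}) :=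
      Node.isPrincipalIdealRing_quot hπ hm
    haveI : UniqueFactorizationMonoid A := LocalPrincipal.quot_ufm hπ.ne_zero
    have hπm : algebraMap O A ϖ ∈ maximalIdeal A := by
      rw [hm]
      exact Ideal.subset_span (by simp)
    have hpA : (p : A) ∈ maximalIdeal A := by
      obtain ⟨c, hc⟩ := hϖA
      rw [hc]
      exact Ideal.mul_mem_right _ _ hπm
    exact not_dvd_discr_of_horData hp hpA hg hgϖ
      (not_dvd_natCast_of_not_dvd_uniformizer hp hϖ hg hgϖ) ζ hζ.pow_eq_one hF1 T hT0 hgen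
      hhor b

end Final

end Fermat.Agent.S33.Geo.CoverUnr
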