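import Mathlib
import Fermat.Agent.S33.Geo.ModelI
import Fermat.Agent.S44.L.NZ.ChartChange

/-!
# S33 / GEO / row B3: a cusp cover is a weak cover of both charts

Level-free (Mathlib + `S33/Geo/ModelI` + `S44/L/NZ/ChartChange`).

`O[u]` and `O[u⁻¹]` are the two coordinate rings of the projective line,
`C_u = integralClosure O[u] F`, `C_(u⁻¹) = integralClosure O[u⁻¹] F` the two chart rings of the
function field `F`.  `Model.CoversCusp ϖ u R` says that every closed point `∋ ϖ` of `C_u`, and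
every closed point `∋ ϖ` of `C_(u⁻¹)` OVER `u = ∞`, is a point `y` of the model with
`R y = DepthHenselExit.locAt`.  A closed point `𝔪` of `C_(u⁻¹)` off `u = ∞` is not literally a
point of the model, but its local ring contains the local ring of a closed point of `C_u`:

* `contr u v huv 𝔪` : the contraction of an ideal `𝔪` of `C_v` to `C_u` (`u * v = 1`), the
  `x ∈ C_u` with `x * v ^ n ∈ 𝔪` for some `n`;
* `locAt_le_of_contr_le` : for a maximal (prime) ideal `𝔫` of `C_u` above the contraction of the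
  prime `𝔪`, `locAt 𝔫 ≤ locAt 𝔪`;
* `weakCover_of_coversCusp` : **a cusp cover is a weak cover**: for EVERY maximal ideal `𝔪 ∋ ϖ`
  of either chart there is a point `y` of the model with `R y ≤ locAt 𝔪`.  This is the covering
  hypothesis (with `≤`) of `TopExit.exit_of_datum` / `UnrExit.exit_of_datum`.
-/

set_option autoImplicit false

namespace Fermat.Agent.S33.Geo.CoverWeak

open Fermat.Agent.S33.Geo Fermat.Agent.S44.L Fermat.Agent.S44.L.NZ

section Contraction

variable {O F : Type*} [CommRing O] [Field F] [Algebra O F]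

/-- The contraction to the chart of `u` of an ideal `𝔪` of the chart of `v` (`u * v = 1`): the
`x` of the chart of `u` such that `x * v ^ n` is (the value of) an element of `𝔪` for some
`n`. -/
def contr (u v : F) (huv : u * v = 1)
    (𝔪 : Ideal (integralClosure (Algebra.adjoin O ({v} : Set F)) F)) :
    Ideal (integralClosure (Algebra.adjoin O ({u} : Set F)) F) where
  carrier := {x | ∃ (n : ℕ) (a : integralClosure (Algebra.adjoin O ({v} : Set F)) F),
    a ∈ 𝔪 ∧ (a : F) = (x : F) * v ^ n}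
  add_mem' := by
    rintro x x' ⟨n, a, ha, e⟩ ⟨n', a', ha', e'⟩
    have hv : IsIntegral (Algebra.adjoin O ({v} : Set F)) v := ChartChange.isIntegral_self v
    refine ⟨n + n',
      a * (⟨v ^ n', hv.pow n'⟩ : integralClosure (Algebra.adjoin O ({v} : Set F)) F)
        + a' * (⟨v ^ n, hv.pow n⟩ : integralClosure (Algebra.adjoin O ({v} : Set F)) F),
      𝔪.add_mem (𝔪.mul_mem_right _ ha) (𝔪.mul_mem_right _ ha'), ?_⟩
    show (a : F) * v ^ n' + (a' : F) * v ^ n = ((x : F) + (x' : F)) * v ^ (n + n')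
    rw [e, e', pow_add]
    ring
  zero_mem' := ⟨0, 0, 𝔪.zero_mem, by
    show (0 : F) = (0 : F) * v ^ 0
    rw [zero_mul]⟩
  smul_mem' := by
    rintro c x ⟨n, a, ha, e⟩
    obtain ⟨m, hm⟩ := ChartChange.exists_isIntegral_mul_pow u v huv (c : F) c.2
    refine ⟨m + n,
      (⟨(c : F) * v ^ m, hm m le_rfl⟩ : integralClosure (Algebra.adjoin O ({v} : Set F)) F) * a,
      𝔪.mul_mem_left _ ha, ?_⟩
    show (c : F) * v ^ m * (a : F) = (c : F) * (x : F) * v ^ (m + n)
    rw [e, pow_add]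
    ring

theorem mem_contr {u v : F} {huv : u * v = 1}
    {𝔪 : Ideal (integralClosure (Algebra.adjoin O ({v} : Set F)) F)}
    {x : integralClosure (Algebra.adjoin O ({u} : Set F)) F} :
    x ∈ contr u v huv 𝔪 ↔
      ∃ (n : ℕ) (a : integralClosure (Algebra.adjoin O ({v} : Set F)) F),
        a ∈ 𝔪 ∧ (a : F) = (x : F) * v ^ n :=
  Iff.rfl

/-- The contraction of a prime not containing the coordinate `v` is a proper ideal. -/
theorem contr_ne_top (u v : F) (huv : u * v = 1)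
    (𝔪 : Ideal (integralClosure (Algebra.adjoin O ({v} : Set F)) F)) (h𝔪 : 𝔪.IsPrime)
    (hv𝔪 : ¬ ∃ t : integralClosure (Algebra.adjoin O ({v} : Set F)) F, (t : F) = v ∧ t ∈ 𝔪) :
    contr u v huv 𝔪 ≠ ⊤ := by
  intro htop
  have h1 : (1 : integralClosure (Algebra.adjoin O ({u} : Set F)) F) ∈ contr u v huv 𝔪 := by
    rw [htop]
    exact Submodule.mem_top
  obtain ⟨n, a, ha, e⟩ := h1
  have hv : IsIntegral (Algebra.adjoin O ({v} : Set F)) v := ChartChange.isIntegral_self v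
  have hpow : (⟨v, hv⟩ : integralClosure (Algebra.adjoin O ({v} : Set F)) F) ^ n = a := by
    apply Subtype.ext
    show v ^ n = (a : F)
    rw [e]
    show v ^ n = (1 : F) * v ^ n
    rw [one_mul]
  have hmem : (⟨v, hv⟩ : integralClosure (Algebra.adjoin O ({v} : Set F)) F) ^ n ∈ 𝔪 := by
    rw [hpow]
    exact ha
  exact hv𝔪 ⟨⟨v, hv⟩, rfl, h𝔪.mem_of_pow_mem n hmem⟩

/-- The contraction contains the elements of the base lying in `𝔪`. -/
theorem algebraMap_mem_contr (u v : F) (huv : u * v = 1)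
    (𝔪 : Ideal (integralClosure (Algebra.adjoin O ({v} : Set F)) F)) (ϖ : O)
    (hϖ : algebraMap O (integralClosure (Algebra.adjoin O ({v} : Set F)) F) ϖ ∈ 𝔪) :
    algebraMap O (integralClosure (Algebra.adjoin O ({u} : Set F)) F) ϖ ∈ contr u v huv 𝔪 :=
  ⟨0, algebraMap O (integralClosure (Algebra.adjoin O ({v} : Set F)) F) ϖ, hϖ, by
    show algebraMap O F ϖ = algebraMap O F ϖ * v ^ 0
    rw [pow_zero, mul_one]⟩

/-- **Change of chart for the local rings**: if the prime `𝔫` of the chart of `u` contains the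
contraction of the prime `𝔪` of the chart of `v` (`u * v = 1`), then the local ring at `𝔫` lies
in the local ring at `𝔪`. -/
theorem locAt_le_of_contr_le (u v : F) (huv : u * v = 1)
    (𝔪 : Ideal (integralClosure (Algebra.adjoin O ({v} : Set F)) F)) (h𝔪 : 𝔪.IsPrime)
    (𝔫 : Ideal (integralClosure (Algebra.adjoin O ({u} : Set F)) F)) (h𝔫 : 𝔫.IsPrime)
    (hle : contr u v huv 𝔪 ≤ 𝔫) :
    DepthHenselExit.locAt (Algebra.adjoin O ({u} : Set F)) 𝔫 h𝔫 ≤
      DepthHenselExit.locAt (Algebra.adjoin O ({v} : Set F)) 𝔪 h𝔪 := by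
  rintro x ⟨s, hs, hsx⟩
  obtain ⟨m₁, hm₁⟩ := ChartChange.exists_isIntegral_mul_pow u v huv (s : F) s.2
  obtain ⟨m₂, hm₂⟩ := ChartChange.exists_isIntegral_mul_pow u v huv ((s : F) * x) hsx
  have h1 := hm₁ (m₁ + m₂) (Nat.le_add_right _ _)
  have h2 := hm₂ (m₁ + m₂) (Nat.le_add_left _ _)
  refine ⟨⟨(s : F) * v ^ (m₁ + m₂), h1⟩, fun hmem => hs (hle ⟨m₁ + m₂, _, hmem, rfl⟩), ?_⟩
  have e : (s : F) * v ^ (m₁ + m₂) * x = (s : F) * x * v ^ (m₁ + m₂) := by ring
  show IsIntegral (Algebra.adjoin O ({v} : Set F)) ((s : F) * v ^ (m₁ + m₂) * x)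
  rw [e]
  exact h2

end Contraction

section Cover

variable {O : Type*} [CommRing O] {F : Type*} [Field F] [Algebra O F]

/-- **A cusp cover is a weak cover of both charts.**  If the points of the model are the closed
points `∋ ϖ` of the chart of `u` and the closed points `∋ ϖ` of the chart of `u⁻¹` over
`u = ∞` (`Model.CoversCusp`), then for EVERY maximal ideal `𝔪 ∋ ϖ` of either chart there is a
point `y` of the model whose local ring lies in the local ring of the chart at `𝔪`. -/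
theorem weakCover_of_coversCusp {ϖ : O} {u : F} (hu : u ≠ 0) {Y : Type*} {R : Y → Subring F}
    (h : Model.CoversCusp ϖ u R) :
    ∀ v : F, v = u ∨ v = u⁻¹ →
      ∀ (𝔪 : Ideal (integralClosure (Algebra.adjoin O ({v} : Set F)) F)) (h𝔪 : 𝔪.IsMaximal),
        algebraMap O (integralClosure (Algebra.adjoin O ({v} : Set F)) F) ϖ ∈ 𝔪 →
        ∃ y, R y ≤ DepthHenselExit.locAt (Algebra.adjoin O ({v} : Set F)) 𝔪 h𝔪.isPrime := by
  intro v hv
  rcases hv with rfl | rfl
  · intro 𝔪 h𝔪 hϖ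
    obtain ⟨y, hy⟩ := h.1 𝔪 h𝔪 hϖ
    exact ⟨y, hy.le⟩
  · intro 𝔪 h𝔪 hϖ
    by_cases hc : ∃ t : integralClosure (Algebra.adjoin O ({u⁻¹} : Set F)) F,
        (t : F) = u⁻¹ ∧ t ∈ 𝔪
    · obtain ⟨y, hy⟩ := h.2 𝔪 h𝔪 hϖ hc
      exact ⟨y, hy.le⟩
    · have huv : u * u⁻¹ = 1 := mul_inv_cancel₀ hu
      obtain ⟨𝔫, h𝔫, hle⟩ := Ideal.exists_le_maximal (contr u u⁻¹ huv 𝔪)
        (contr_ne_top u u⁻¹ huv 𝔪 h𝔪.isPrime hc)
      obtain ⟨y, hy⟩ := h.1 𝔫 h𝔫 (hle (algebraMap_mem_contr u u⁻¹ huv 𝔪 ϖ hϖ))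
      refine ⟨y, ?_⟩
      rw [hy]
      exact locAt_le_of_contr_le u u⁻¹ huv 𝔪 h𝔪.isPrime 𝔫 h𝔫.isPrime hle

end Cover

end Fermat.Agent.S33.Geo.CoverWeak
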