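/-
S33 / COV' row C4, vertical seam: the adapter from the exit of the tame depth chain (row Z)
to the integral Kummer form the discriminant rows consume.

The tame depth chain ends with forms `f = c * g ^ p * (1 + lam ^ p * r)` with
`r ∈ TameModel.adj lam₁ V = V[lam₁]`, the subring of `F₁` generated by the image of the
generic ring `V ⊆ F` and `lam₁`.  The vertical discriminant rows (`AsDvrSeam`, `CoverUnr*`,
`DepthUnr`) take `r` INTEGRAL over `V`, spelled with the composite ring homomorphism
`(algebraMap F F₁).comp V.subtype`.  This file is that bridge, level-free: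

* `isIntegralElem_of_mem_adj`   : `x ∈ V[lam₁]`, `lam₁` integral over `V` ⟹ `x` integral over `V`;
* `isIntegralElem_of_one_add_pow` : `(1 + lam₁) ^ p = 1` ⟹ `lam₁` integral over `V`;
* `exists_form_of_depthIn`      : depth `p` with constant `d ^ p` along `V[lam₁]` ⟹
                                  `f = G ^ p * (1 + lam₁ ^ p * r)`, `G ≠ 0`, `r` integral over `V`;
* `exists_form_of_depthIn_one`  : the same for the constant `1`;
* `exists_root_form_of_depthIn_one` : the same read on a `p`-th root `t` of `f` in an extension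
                                  ring, with `lam₁` written `ζ - 1`.
-/
import Mathlib
import Fermat.Agent.S33.Geo.Top
import Fermat.Agent.S33.Geo.TameModel

set_option autoImplicit false

namespace Fermat.Agent.S33.Geo.DepthAdapt

open Polynomial

variable {F F₁ : Type*} [Field F] [Field F₁] [Algebra F F₁]

/-- Every element of `V[lam₁]` is integral over `V` when `lam₁` is. -/
theorem isIntegralElem_of_mem_adj (V : Subring F) (lam₁ : F₁)
    (hlam : ((algebraMap F F₁).comp V.subtype).IsIntegralElem lam₁) {x : F₁}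
    (hx : x ∈ TameModel.adj lam₁ V) : ((algebraMap F F₁).comp V.subtype).IsIntegralElem x := by
  unfold TameModel.adj at hx
  induction hx using Subring.closure_induction with
  | mem y hy =>
    rcases hy with ⟨v, hv, rfl⟩ | rfl
    · exact ((algebraMap F F₁).comp V.subtype).isIntegralElem_map (x := ⟨v, hv⟩)
    · exact hlam
  | zero => exact RingHom.isIntegralElem_zero _
  | one => exact RingHom.isIntegralElem_one _
  | add x y _ _ hx hy => exact RingHom.IsIntegralElem.add _ hx hy
  | neg x _ hx => exact RingHom.IsIntegralElem.neg _ hx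
  | mul x y _ _ hx hy => exact RingHom.IsIntegralElem.mul _ hx hy

/-- `lam₁` is integral over any subring `V` of `F` when `(1 + lam₁) ^ p = 1`, `p ≠ 0`. -/
theorem isIntegralElem_of_one_add_pow (V : Subring F) {lam₁ : F₁} {p : ℕ} (hp : p ≠ 0)
    (hζ : (1 + lam₁) ^ p = 1) : ((algebraMap F F₁).comp V.subtype).IsIntegralElem lam₁ := by
  have h1 : ((algebraMap F F₁).comp V.subtype).IsIntegralElem (1 + lam₁) :=
    ⟨X ^ p - C 1, monic_X_pow_sub_C 1 hp, by simp [hζ]⟩
  have h2 := RingHom.IsIntegralElem.sub _ h1 (RingHom.isIntegralElem_one _)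
  simpa using h2

variable {O₁ : Type*} [CommRing O₁] [Algebra O₁ F₁]

/-- **Depth `p` along `V[lam₁]` with a `p`-th power constant gives the integral Kummer form.** -/
theorem exists_form_of_depthIn (V : Subring F) (lam : O₁) {p : ℕ} (hp : p ≠ 0)
    (hζ : (1 + lam) ^ p = 1) {f : F₁} (hf : f ≠ 0) (d : O₁)
    (h : Top.DepthIn (TameModel.adj (algebraMap O₁ F₁ lam) V) p lam p f (d ^ p)) :
    ∃ G r : F₁, G ≠ 0 ∧ ((algebraMap F F₁).comp V.subtype).IsIntegralElem r ∧
      f = G ^ p * (1 + algebraMap O₁ F₁ lam ^ p * r) := by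
  have hlam : ((algebraMap F F₁).comp V.subtype).IsIntegralElem (algebraMap O₁ F₁ lam) := by
    refine isIntegralElem_of_one_add_pow V hp ?_
    rw [← map_one (algebraMap O₁ F₁), ← map_add, ← map_pow, hζ]
  obtain ⟨g, r, hr, hfg⟩ := h
  refine ⟨algebraMap O₁ F₁ d * g, r, ?_, isIntegralElem_of_mem_adj V _ hlam hr, ?_⟩
  · intro h0
    apply hf
    rw [hfg, map_pow, ← mul_pow, h0]
    simp [hp]
  · rw [hfg, map_pow, mul_pow]

/-- The same with the constant `1` (the exit of record of the tame depth chain). -/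
theorem exists_form_of_depthIn_one (V : Subring F) (lam : O₁) {p : ℕ} (hp : p ≠ 0)
    (hζ : (1 + lam) ^ p = 1) {f : F₁} (hf : f ≠ 0)
    (h : Top.DepthIn (TameModel.adj (algebraMap O₁ F₁ lam) V) p lam p f 1) :
    ∃ G r : F₁, G ≠ 0 ∧ ((algebraMap F F₁).comp V.subtype).IsIntegralElem r ∧
      f = G ^ p * (1 + algebraMap O₁ F₁ lam ^ p * r) := by
  refine exists_form_of_depthIn V lam hp hζ hf 1 ?_
  rwa [one_pow]

/-- **The hypothesis form of the vertical discriminant rows.**  `t` a `p`-th root of `f` in an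
extension ring `L₁` of `F₁`, `ζ = 1 + lam₁`: depth `p` with constant `1` along `V[lam₁]` gives
`t ^ p = G ^ p * (1 + (ζ - 1) ^ p * r)` with `G ≠ 0` and `r` integral over `V`. -/
theorem exists_root_form_of_depthIn_one {L₁ : Type*} [CommRing L₁] [Algebra F₁ L₁]
    (V : Subring F) (lam : O₁) {p : ℕ} (hp : p ≠ 0) (hζ : (1 + lam) ^ p = 1) (ζ : F₁)
    (hζlam : ζ = 1 + algebraMap O₁ F₁ lam) {f : F₁} (hf : f ≠ 0)
    (h : Top.DepthIn (TameModel.adj (algebraMap O₁ F₁ lam) V) p lam p f 1) (t : L₁)
    (ht : t ^ p = algebraMap F₁ L₁ f) :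
    ∃ G r : F₁, G ≠ 0 ∧ ((algebraMap F F₁).comp V.subtype).IsIntegralElem r ∧
      t ^ p = algebraMap F₁ L₁ (G ^ p * (1 + (ζ - 1) ^ p * r)) := by
  obtain ⟨G, r, hG, hr, hfG⟩ := exists_form_of_depthIn_one V lam hp hζ hf h
  refine ⟨G, r, hG, hr, ?_⟩
  rw [ht, hfG, hζlam, add_sub_cancel_left]

end Fermat.Agent.S33.Geo.DepthAdapt
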