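import Mathlib
import Fermat.Agent.S44.L.DiscrLoc

/-!
# S33 (GEO, COV'): the discriminant seam at a prime element (level-free)

`R` a domain, `g` a prime element of `R`, `L` a field containing `R`, `S := integralClosure R L`.
Let `A` be the localisation of `R` at `(g)` (any model, mapped into `L`) and
`C₀ := integralClosure A L`.  The codimension-one bricks of the cover (tame tower +
Artin-Schreier step) are proved over the discrete valuation ring `A`, at the maximal ideals of
`C₀`; the purity bricks (`S44/L/DiscrLoc`, `UnrPur`) consume statements at the primes of `S` over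
`(g)`.  This file is the adapter:

* `unr_of_local` : `UNR` at every maximal ideal of `C₀` over `A`  ⟹  the `hU` binder of
  `DiscrLoc.not_dvd_discr_of_separable` at the primes of `S` over `(g)`;
* `sep_of_local` : the same for the elementwise separability binder `hsep`;
* `not_dvd_discr_of_local` : hence `¬ g ∣ Algebra.discr R b` for every `R`-basis `b` of `S`;
* `not_dvd_discr_of_local_charZero` : the same from `UNR` alone when no nonzero natural number
  lies in `(g)` (horizontal primes).
-/

set_option autoImplicit false
set_option linter.unusedSectionVars false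
set_option linter.style.haveILetI false

namespace Fermat.Agent.S33.Geo.DiscrSeam

open IsLocalRing Module
open Fermat.Agent.S44.L

section Seam

variable {R : Type*} [CommRing R] {L : Type*} [Field L] [Algebra R L]
  (A : Type*) [CommRing A] [Algebra R A] [Algebra A L] [IsScalarTower R A L]

/-- The inclusion of the integral closure of `R` in `L` into the integral closure of `A` in
`L`. -/
noncomputable def incl : integralClosure R L →+* integralClosure A L :=
  RingHom.codRestrict (algebraMap (integralClosure R L) L) (integralClosure A L)
    (fun x => (IsIntegral.tower_top x.2 : IsIntegral A (x : L)))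

theorem coe_incl (x : integralClosure R L) : ((incl A x : integralClosure A L) : L) = (x : L) :=
  rfl

theorem incl_injective : Function.Injective (incl (R := R) (L := L) A) := by
  intro x y h
  apply Subtype.ext
  have := congrArg (fun z : integralClosure A L => (z : L)) h
  simpa [coe_incl] using this

theorem incl_algebraMap (r : R) :
    incl A (algebraMap R (integralClosure R L) r) =
      algebraMap A (integralClosure A L) (algebraMap R A r) := by
  apply Subtype.ext
  show algebraMap R L r = algebraMap A L (algebraMap R A r)
  exact IsScalarTower.algebraMap_apply R A L r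

variable {g : R} [FaithfulSMul R L]

/-- The localisation statement: `integralClosure A L` is the localisation of
`integralClosure R L` at the image of the complement of `(g)`. -/
theorem isLocalization_incl (q : Ideal R) [q.IsPrime] [IsLocalization.AtPrime A q]
    (hq0 : ∀ r : R, r ∉ q → r ≠ 0) :
    letI : Algebra (integralClosure R L) (integralClosure A L) := (incl A).toAlgebra
    IsLocalization (Algebra.algebraMapSubmonoid (integralClosure R L) q.primeCompl)
      (integralClosure A L) := by
  letI : Algebra (integralClosure R L) (integralClosure A L) := (incl A).toAlgebra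
  haveI : IsScalarTower (integralClosure R L) (integralClosure A L) L :=
    IsScalarTower.of_algebraMap_eq fun x => rfl
  haveI : IsScalarTower R (integralClosure R L) (integralClosure A L) :=
    IsScalarTower.of_algebraMap_eq fun r => Subtype.ext rfl
  haveI : IsLocalization (Algebra.algebraMapSubmonoid L q.primeCompl) L := by
    apply IsLocalization.of_le_isUnit
    rintro _ ⟨r, hr, rfl⟩
    have : algebraMap R L r ≠ 0 := by
      intro h
      exact hq0 r hr ((FaithfulSMul.algebraMap_injective R L) (by rw [h, map_zero]))
    exact this.isUnit
  exact IsLocalization.integralClosure (S := L) (Rf := A) (Sf := L) q.primeCompl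

end Seam

section Main

variable {R : Type*} [CommRing R] [IsDomain R] {L : Type*} [Field L] [Algebra R L]
  [FaithfulSMul R L]
  (A : Type*) [CommRing A] [Algebra R A] [Algebra A L] [IsScalarTower R A L]
  {g : R} [hq : (Ideal.span {g}).IsPrime] [IsLocalization.AtPrime A (Ideal.span {g})]
  [IsLocalRing A]

/-- No element of the image of the complement of `(g)` lies in a prime of the integral closure
over `(g)`. -/
theorem notMem_of_mem_submonoid (Q : Ideal (integralClosure R L))
    (hQg : Q.comap (algebraMap R (integralClosure R L)) = Ideal.span {g})
    (t : Algebra.algebraMapSubmonoid (integralClosure R L) (Ideal.span {g}).primeCompl) :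
    (t : integralClosure R L) ∉ Q := by
  obtain ⟨r, hr, hrt⟩ := t.2
  intro h
  apply hr
  show r ∈ Ideal.span {g}
  rw [← hQg, Ideal.mem_comap, hrt]
  exact h

/-- Over a prime `Q` of `integralClosure R L` lying over `(g)` there is a maximal ideal `P` of
`integralClosure A L` contracting to `Q`. -/
theorem exists_maximal_over (Q : Ideal (integralClosure R L)) (hQ : Q.IsPrime)
    (hQg : Q.comap (algebraMap R (integralClosure R L)) = Ideal.span {g}) :
    ∃ P : Ideal (integralClosure A L), P.IsMaximal ∧ P.comap (incl A) = Q := by
  letI : Algebra (integralClosure R L) (integralClosure A L) := (incl A).toAlgebra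
  haveI := isLocalization_incl (L := L) A (Ideal.span {g})
    (fun r hr h => hr (by rw [h]; exact Ideal.zero_mem _))
  have hdisj : Disjoint
      (↑(Algebra.algebraMapSubmonoid (integralClosure R L) (Ideal.span {g}).primeCompl) :
        Set (integralClosure R L)) ↑Q := by
    rw [Set.disjoint_left]
    intro t ht htQ
    exact notMem_of_mem_submonoid Q hQg ⟨t, ht⟩ htQ
  have hPprime : (Q.map (algebraMap (integralClosure R L) (integralClosure A L))).IsPrime :=
    IsLocalization.isPrime_of_isPrime_disjoint _ _ Q hQ hdisj
  have hcomap : (Q.map (algebraMap (integralClosure R L) (integralClosure A L))).comap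
      (algebraMap (integralClosure R L) (integralClosure A L)) = Q :=
    IsLocalization.under_map_of_isPrime_disjoint _ _ hQ hdisj
  refine ⟨Q.map (algebraMap (integralClosure R L) (integralClosure A L)), ?_, hcomap⟩
  have hgQ : algebraMap R (integralClosure R L) g ∈ Q := by
    rw [← Ideal.mem_comap, hQg]
    exact Ideal.mem_span_singleton_self g
  have hgP : algebraMap A (integralClosure A L) (algebraMap R A g) ∈
      Q.map (algebraMap (integralClosure R L) (integralClosure A L)) := by
    rw [← incl_algebraMap]
    exact Ideal.mem_map_of_mem _ hgQ
  have hle : maximalIdeal A ≤ (Q.map (algebraMap (integralClosure R L)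
      (integralClosure A L))).comap (algebraMap A (integralClosure A L)) := by
    rw [← IsLocalization.AtPrime.map_eq_maximalIdeal (Ideal.span {g}) A, Ideal.map_span,
      Set.image_singleton, Ideal.span_singleton_le_iff_mem]
    exact hgP
  have hne : (Q.map (algebraMap (integralClosure R L) (integralClosure A L))).comap
      (algebraMap A (integralClosure A L)) ≠ ⊤ := (Ideal.comap_isPrime _ _).ne_top
  have hmax : ((Q.map (algebraMap (integralClosure R L) (integralClosure A L))).comap
      (algebraMap A (integralClosure A L))).IsMaximal := by
    rw [← (maximalIdeal.isMaximal A).eq_of_le hne hle]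
    exact maximalIdeal.isMaximal A
  exact Ideal.isMaximal_of_isIntegral_of_isMaximal_comap (R := A) _ hmax

/-- **`UNR`, from the local ring to the primes over `(g)`.** -/
theorem unr_of_local
    (hunr : ∀ P : Ideal (integralClosure A L), P.IsMaximal → ∀ x ∈ P,
      ∃ s : integralClosure A L, s ∉ P ∧
        s * x ∈ (maximalIdeal A).map (algebraMap A (integralClosure A L)))
    (Q : Ideal (integralClosure R L)) (hQ : Q.IsPrime)
    (hQg : Q.comap (algebraMap R (integralClosure R L)) = Ideal.span {g}) :
    ∀ x ∈ Q, ∃ s : integralClosure R L, s ∉ Q ∧
      s * x ∈ (Ideal.span {g}).map (algebraMap R (integralClosure R L)) := by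
  obtain ⟨P, hP, hPQ⟩ := exists_maximal_over A Q hQ hQg
  intro x hx
  have hxP : incl A x ∈ P := by
    rw [← hPQ] at hx
    exact hx
  obtain ⟨c, hc, hcx⟩ := hunr P hP _ hxP
  have hmap : (maximalIdeal A).map (algebraMap A (integralClosure A L)) =
      Ideal.span {incl A (algebraMap R (integralClosure R L) g)} := by
    rw [← IsLocalization.AtPrime.map_eq_maximalIdeal (Ideal.span {g}) A, Ideal.map_span,
      Set.image_singleton, Ideal.map_span, Set.image_singleton, incl_algebraMap]
  rw [hmap, Ideal.mem_span_singleton'] at hcx
  obtain ⟨d, hd⟩ := hcx
  letI : Algebra (integralClosure R L) (integralClosure A L) := (incl A).toAlgebra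
  haveI := isLocalization_incl (L := L) A (Ideal.span {g})
    (fun r hr h => hr (by rw [h]; exact Ideal.zero_mem _))
  obtain ⟨⟨s₁, t₁⟩, h1⟩ := IsLocalization.surj
    (Algebra.algebraMapSubmonoid (integralClosure R L) (Ideal.span {g}).primeCompl) c
  obtain ⟨⟨s₂, t₂⟩, h2⟩ := IsLocalization.surj
    (Algebra.algebraMapSubmonoid (integralClosure R L) (Ideal.span {g}).primeCompl) d
  have h1' : c * incl A (t₁ : integralClosure R L) = incl A s₁ := h1
  have h2' : d * incl A (t₂ : integralClosure R L) = incl A s₂ := h2
  have key : s₁ * (t₂ : integralClosure R L) * x =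
      algebraMap R (integralClosure R L) g * (s₂ * (t₁ : integralClosure R L)) := by
    apply incl_injective A
    simp only [map_mul]
    rw [← h1', ← h2']
    linear_combination (-(incl A (t₁ : integralClosure R L) *
      incl A (t₂ : integralClosure R L))) * hd
  refine ⟨s₁ * (t₂ : integralClosure R L), ?_, ?_⟩
  · intro hmem
    rcases hQ.mem_or_mem hmem with h | h
    · have h3 : incl A s₁ ∈ P := by
        rw [← hPQ] at h
        exact h
      rw [← h1'] at h3
      rcases hP.isPrime.mem_or_mem h3 with h' | h'
      · exact hc h'
      · have h4 : (t₁ : integralClosure R L) ∈ Q := by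
          rw [← hPQ]
          exact h'
        exact notMem_of_mem_submonoid Q hQg t₁ h4
    · exact notMem_of_mem_submonoid Q hQg t₂ h
  · rw [key]
    exact Ideal.mul_mem_right _ _ (Ideal.mem_map_of_mem _ (Ideal.mem_span_singleton_self g))

/-- `incl` commutes with evaluation of polynomials over `R`. -/
theorem incl_aeval (c : integralClosure R L) (h : Polynomial R) :
    incl A (Polynomial.aeval c h) =
      Polynomial.aeval (incl A c) (h.map (algebraMap R A)) := by
  rw [Polynomial.aeval_def, Polynomial.aeval_def, Polynomial.eval₂_map, Polynomial.hom_eval₂]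
  congr 1
  exact RingHom.ext fun r => incl_algebraMap A r

/-- **Elementwise separability, from the local ring to the primes over `(g)`.** -/
theorem sep_of_local
    (hsep : ∀ P : Ideal (integralClosure A L), P.IsMaximal → ∀ c : integralClosure A L,
      ∃ f : Polynomial A, Polynomial.aeval c f ∈ P ∧
        Polynomial.aeval c (Polynomial.derivative f) ∉ P)
    (Q : Ideal (integralClosure R L)) (hQ : Q.IsPrime)
    (hQg : Q.comap (algebraMap R (integralClosure R L)) = Ideal.span {g}) :
    ∀ c : integralClosure R L, ∃ f : Polynomial R, Polynomial.aeval c f ∈ Q ∧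
      Polynomial.aeval c (Polynomial.derivative f) ∉ Q := by
  obtain ⟨P, hP, hPQ⟩ := exists_maximal_over A Q hQ hQg
  intro c
  obtain ⟨f, hf0, hf1⟩ := hsep P hP (incl A c)
  obtain ⟨b, hbM, hb⟩ := IsLocalization.integerNormalization_spec
    (Ideal.span {g}).primeCompl f
  have hb' : (IsLocalization.integerNormalization (Ideal.span {g}).primeCompl f).map
      (algebraMap R A) = Polynomial.C (algebraMap R A b) * f := by
    rw [hb, Algebra.smul_def, Polynomial.algebraMap_apply]
  refine ⟨IsLocalization.integerNormalization (Ideal.span {g}).primeCompl f, ?_, ?_⟩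
  · rw [← hPQ, Ideal.mem_comap, incl_aeval, hb', map_mul, Polynomial.aeval_C]
    exact P.mul_mem_left _ hf0
  · intro hmem
    have h3 : incl A (Polynomial.aeval c (Polynomial.derivative
        (IsLocalization.integerNormalization (Ideal.span {g}).primeCompl f))) ∈ P := by
      rw [← hPQ] at hmem
      exact hmem
    rw [incl_aeval, ← Polynomial.derivative_map, hb', Polynomial.derivative_C_mul, map_mul,
      Polynomial.aeval_C] at h3
    rcases hP.isPrime.mem_or_mem h3 with h | h
    · rw [← incl_algebraMap] at h
      have h4 : algebraMap R (integralClosure R L) b ∈ Q := by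
        rw [← hPQ]
        exact h
      have h5 : b ∈ Q.comap (algebraMap R (integralClosure R L)) := h4
      rw [hQg] at h5
      exact hbM h5
    · exact hf1 h

variable {ι : Type*} [Fintype ι] [DecidableEq ι]

/-- **The seam, vertical form.**  `UNR` and elementwise separability at every maximal ideal of
`integralClosure A L` over the local ring `A = R_(g)` give `¬ g ∣ Algebra.discr R b` for every
`R`-basis `b` of `integralClosure R L`. -/
theorem not_dvd_discr_of_local (b : Module.Basis ι R (integralClosure R L)) (hg : Prime g)
    (hunr : ∀ P : Ideal (integralClosure A L), P.IsMaximal → ∀ x ∈ P,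
      ∃ s : integralClosure A L, s ∉ P ∧
        s * x ∈ (maximalIdeal A).map (algebraMap A (integralClosure A L)))
    (hsep : ∀ P : Ideal (integralClosure A L), P.IsMaximal → ∀ c : integralClosure A L,
      ∃ f : Polynomial A, Polynomial.aeval c f ∈ P ∧
        Polynomial.aeval c (Polynomial.derivative f) ∉ P) :
    ¬ g ∣ Algebra.discr R b :=
  DiscrLoc.not_dvd_discr_of_separable b hg
    (fun Q hQ hQg => unr_of_local A hunr Q hQ hQg)
    (fun Q hQ hQg => sep_of_local A hsep Q hQ hQg)

/-- **The seam, horizontal form.**  `UNR` at every maximal ideal of `integralClosure A L` over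
the local ring `A = R_(g)`, when no nonzero natural number lies in `(g)`, gives
`¬ g ∣ Algebra.discr R b`. -/
theorem not_dvd_discr_of_local_charZero (b : Module.Basis ι R (integralClosure R L))
    (hg : Prime g)
    (hunr : ∀ P : Ideal (integralClosure A L), P.IsMaximal → ∀ x ∈ P,
      ∃ s : integralClosure A L, s ∉ P ∧
        s * x ∈ (maximalIdeal A).map (algebraMap A (integralClosure A L)))
    (hchar : ∀ n : ℕ, n ≠ 0 → (n : R) ∉ Ideal.span {g}) :
    ¬ g ∣ Algebra.discr R b := by
  apply DiscrLoc.not_dvd_discr_of_isUnit_localization b hg
  have hfin : Module.Finite (Localization.AtPrime (Ideal.span {g}))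
      (Localization (Algebra.algebraMapSubmonoid (integralClosure R L)
        (Ideal.span {g}).primeCompl)) :=
    Module.Finite.of_basis (b.localizationLocalization _ (Ideal.span {g}).primeCompl _)
  refine DiscrUnr.isUnit_discr_of_unr_of_charZero _
    (fun P hP x hx => DiscrLoc.unr_localization (Ideal.span {g})
      (fun Q hQ hQg => unr_of_local A hunr Q hQ hQg) P hP x hx) (fun n hn => ?_)
  have h := IsLocalization.map_units (Localization.AtPrime (Ideal.span {g}))
    (⟨(n : R), hchar n hn⟩ : (Ideal.span {g}).primeCompl)
  simpa using h

end Main

section Packaged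

universe u v w

variable {R : Type u} [CommRing R] [IsDomain R] [IsNoetherianRing R]
  (K : Type v) [Field K] [Algebra R K] [IsFractionRing R K]
  {L : Type w} [Field L] [Algebra K L] [Algebra R L] [IsScalarTower R K L]
  {ι : Type*} [Fintype ι] [DecidableEq ι]

/-- The data of the localisation at `(g)` inside the fraction field, in the form the packaged
seams hand to their hypothesis. -/
theorem exists_dvr_data {g : R} (hg : Prime g)
    (P : ∀ (A : Type u) [CommRing A] [IsDomain A] [IsDiscreteValuationRing A] [Algebra R A]
      [Algebra A K] [IsScalarTower R A K] [IsFractionRing A K] [Algebra A L]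
      [IsScalarTower A K L] [IsScalarTower R A L], Prop)
    (Q : Prop)
    (hPQ : ∀ (A : Type u) [CommRing A] [IsDomain A] [IsDiscreteValuationRing A] [Algebra R A]
      [Algebra A K] [IsScalarTower R A K] [IsFractionRing A K] [Algebra A L]
      [IsScalarTower A K L] [IsScalarTower R A L] [hq : (Ideal.span {g}).IsPrime]
      [IsLocalization.AtPrime A (Ideal.span {g})],
      maximalIdeal A = Ideal.span {algebraMap R A g} → P A → Q)
    (H : ∀ (A : Type u) [CommRing A] [IsDomain A] [IsDiscreteValuationRing A] [Algebra R A]
      [Algebra A K] [IsScalarTower R A K] [IsFractionRing A K] [Algebra A L]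
      [IsScalarTower A K L] [IsScalarTower R A L],
      maximalIdeal A = Ideal.span {algebraMap R A g} → P A) : Q := by
  haveI hq : (Ideal.span {g}).IsPrime := (Ideal.span_singleton_prime hg.ne_zero).mpr hg
  have hinj : Function.Injective (algebraMap R K) := IsFractionRing.injective R K
  have hunits : ∀ y : (Ideal.span {g}).primeCompl, IsUnit (algebraMap R K (y : R)) := by
    intro y
    have hy0 : (y : R) ≠ 0 := fun h => y.2 (by rw [h]; exact Ideal.zero_mem _)
    exact ((map_ne_zero_iff _ hinj).mpr hy0).isUnit
  letI algAK : Algebra (Localization.AtPrime (Ideal.span {g})) K :=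
    (IsLocalization.lift (M := (Ideal.span {g}).primeCompl)
      (S := Localization.AtPrime (Ideal.span {g})) (g := algebraMap R K) hunits).toAlgebra
  haveI : IsScalarTower R (Localization.AtPrime (Ideal.span {g})) K :=
    IsScalarTower.of_algebraMap_eq fun r => (IsLocalization.lift_eq hunits r).symm
  haveI : IsFractionRing (Localization.AtPrime (Ideal.span {g})) K :=
    IsFractionRing.isFractionRing_of_isDomain_of_isLocalization (Ideal.span {g}).primeCompl
      (Localization.AtPrime (Ideal.span {g})) K
  letI : Algebra (Localization.AtPrime (Ideal.span {g})) L :=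
    ((algebraMap K L).comp (algebraMap (Localization.AtPrime (Ideal.span {g})) K)).toAlgebra
  haveI : IsScalarTower (Localization.AtPrime (Ideal.span {g})) K L :=
    IsScalarTower.of_algebraMap_eq fun _ => rfl
  haveI : IsScalarTower R (Localization.AtPrime (Ideal.span {g})) L :=
    IsScalarTower.of_algebraMap_eq fun r => by
      rw [IsScalarTower.algebraMap_apply R K L,
        IsScalarTower.algebraMap_apply R (Localization.AtPrime (Ideal.span {g})) K]
      rfl
  haveI : IsNoetherianRing (Localization.AtPrime (Ideal.span {g})) :=
    IsLocalization.isNoetherianRing (Ideal.span {g}).primeCompl _ inferInstance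
  have hmax : maximalIdeal (Localization.AtPrime (Ideal.span {g})) =
      Ideal.span {algebraMap R (Localization.AtPrime (Ideal.span {g})) g} := by
    rw [← IsLocalization.AtPrime.map_eq_maximalIdeal (Ideal.span {g})
      (Localization.AtPrime (Ideal.span {g})), Ideal.map_span, Set.image_singleton]
  have hg0 : algebraMap R (Localization.AtPrime (Ideal.span {g})) g ≠ 0 := by
    intro h
    have h2 : algebraMap R K g = 0 := by
      rw [IsScalarTower.algebraMap_apply R (Localization.AtPrime (Ideal.span {g})) K, h,
        map_zero]
    exact hg.ne_zero (hinj (by rw [h2, map_zero]))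
  have hprin : (maximalIdeal (Localization.AtPrime (Ideal.span {g}))).IsPrincipal :=
    ⟨⟨_, hmax⟩⟩
  haveI : IsPrincipalIdealRing (Localization.AtPrime (Ideal.span {g})) :=
    ((tfae_of_isNoetherianRing_of_isLocalRing_of_isDomain
      (R := Localization.AtPrime (Ideal.span {g}))).out 4 0).mp hprin
  haveI : IsDiscreteValuationRing (Localization.AtPrime (Ideal.span {g})) :=
    { not_a_field' := by
        rw [hmax]
        intro h
        rw [Ideal.span_singleton_eq_bot] at h
        exact hg0 h }
  exact hPQ (Localization.AtPrime (Ideal.span {g})) hmax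
    (H (Localization.AtPrime (Ideal.span {g})) hmax)

/-- **The seam, vertical form, packaged.**  To prove `¬ g ∣ Algebra.discr R b` for a basis `b`
of the integral closure of `R` in `L` it suffices to prove `UNR` and elementwise separability at
the maximal ideals of `integralClosure A L` for ANY discrete valuation ring `A` between `R` and
`K = Frac R` whose maximal ideal is generated by `g`. -/
theorem not_dvd_discr_of_forall_dvr (b : Module.Basis ι R (integralClosure R L)) {g : R}
    (hg : Prime g)
    (H : ∀ (A : Type u) [CommRing A] [IsDomain A] [IsDiscreteValuationRing A] [Algebra R A]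
      [Algebra A K] [IsScalarTower R A K] [IsFractionRing A K] [Algebra A L]
      [IsScalarTower A K L] [IsScalarTower R A L],
      maximalIdeal A = Ideal.span {algebraMap R A g} →
      (∀ P : Ideal (integralClosure A L), P.IsMaximal → ∀ x ∈ P,
        ∃ s : integralClosure A L, s ∉ P ∧
          s * x ∈ (maximalIdeal A).map (algebraMap A (integralClosure A L))) ∧
      (∀ P : Ideal (integralClosure A L), P.IsMaximal → ∀ c : integralClosure A L,
        ∃ f : Polynomial A, Polynomial.aeval c f ∈ P ∧
          Polynomial.aeval c (Polynomial.derivative f) ∉ P)) :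
    ¬ g ∣ Algebra.discr R b := by
  haveI : FaithfulSMul R L := by
    rw [faithfulSMul_iff_algebraMap_injective, IsScalarTower.algebraMap_eq R K L]
    exact (algebraMap K L).injective.comp (IsFractionRing.injective R K)
  refine exists_dvr_data (L := L) K hg _ _ ?_ H
  intro A _ _ _ _ _ _ _ _ _ _ hq _ _ h
  exact not_dvd_discr_of_local A b hg h.1 h.2

/-- **The seam, horizontal form, packaged.**  When no nonzero natural number lies in `(g)`,
`UNR` alone suffices. -/
theorem not_dvd_discr_of_forall_dvr_charZero (b : Module.Basis ι R (integralClosure R L))
    {g : R} (hg : Prime g) (hchar : ∀ n : ℕ, n ≠ 0 → (n : R) ∉ Ideal.span {g})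
    (H : ∀ (A : Type u) [CommRing A] [IsDomain A] [IsDiscreteValuationRing A] [Algebra R A]
      [Algebra A K] [IsScalarTower R A K] [IsFractionRing A K] [Algebra A L]
      [IsScalarTower A K L] [IsScalarTower R A L],
      maximalIdeal A = Ideal.span {algebraMap R A g} →
      ∀ P : Ideal (integralClosure A L), P.IsMaximal → ∀ x ∈ P,
        ∃ s : integralClosure A L, s ∉ P ∧
          s * x ∈ (maximalIdeal A).map (algebraMap A (integralClosure A L))) :
    ¬ g ∣ Algebra.discr R b := by
  haveI : FaithfulSMul R L := by
    rw [faithfulSMul_iff_algebraMap_injective, IsScalarTower.algebraMap_eq R K L]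
    exact (algebraMap K L).injective.comp (IsFractionRing.injective R K)
  refine exists_dvr_data (L := L) K hg _ _ ?_ H
  intro A _ _ _ _ _ _ _ _ _ _ hq _ _ h
  exact not_dvd_discr_of_local_charZero A b hg h hchar

end Packaged

end Fermat.Agent.S33.Geo.DiscrSeam
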