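/-
S33 (helper19), GEO / COV', row C4 (vertical half), level-free: THE DISCRIMINANT HYPOTHESIS OF
THE COVER AT A VERTICAL PRIME ELEMENT, AMBIENT FORM.

`R` a noetherian domain (the block ring of a closed point of the model), `K = Frac R`, `g` a
prime element of `R` dividing the prime number `p` (a vertical prime), `V ⊆ R_(g)` a subring of
`K` (the generic ring of the component of `g`).  Inside ONE ambient field `Ω ⊇ K`:
`L / K` finite Galois of degree `p ^ s`, contained in `K(ζ, T_1, …, T_n)`, `ζ` a primitive `p`-th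
root of unity, and every `T_i` has the depth-`p` form
`T_i ^ p = G_i ^ p (1 + (ζ - 1) ^ p r_i)`, `G_i, r_i ∈ K(ζ)`, `G_i ≠ 0`, `r_i` integral over `V`.

* `not_dvd_discr_of_depth_family` : then `¬ g ∣ Algebra.discr R b` for every `R`-basis `b` of
  the integral closure of `R` in `L`  (= the hypothesis of `S44/L/UnrPur` at `g`).
* `unr_sep_of_depth_family` : the statement over the discrete valuation ring `A = R_(g)`
  (`hunr` and `hsep` at every maximal ideal of `integralClosure A L`).

Proof: `DiscrSeam.exists_dvr_data` (the localisation of `R` at `(g)` as a discrete valuation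
ring inside `K`), `AsDvrKummer.unr_sep_of_depth_aklb` with `A1 := integralClosure A K(ζ)`,
`L1 := K(ζ)(T_i)`, `C0 := integralClosure A L`, `C1 := integralClosure A1 L1`, and
`DiscrSeam.not_dvd_discr_of_local`.

Helpers for the hypothesis `IsIntegral V r`: `isIntegral_of_mem_closure`,
`isIntegral_map_of_mem_closure` (elements of `V[λ]`), `isIntegral_sub_one_of_pow_eq_one`.
-/
import Mathlib
import Fermat.Agent.S33.Geo.AsDvrKummer
import Fermat.Agent.S33.Geo.DiscrSeam

set_option autoImplicit false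
set_option linter.style.haveILetI false

namespace Fermat.Agent.S33.Geo.DepthUnr

open IsLocalRing Polynomial IntermediateField

universe u v w

section Aux

/-- Integrality over a subring `V` of `K` contained in the image of `A` gives integrality over
`A` (as an integral element of the ring homomorphism `A → K → Ω`). -/
theorem isIntegralElem_of_subring {A K Ω : Type*} [CommRing A] [Field K] [Field Ω] [Algebra A K]
    [Algebra K Ω] (V : Subring K) (hV : ∀ x ∈ V, x ∈ (algebraMap A K).range) {r : Ω}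
    (hr : IsIntegral V r) : ((algebraMap K Ω).comp (algebraMap A K)).IsIntegralElem r := by
  obtain ⟨f, hfm, hf0⟩ := hr
  have hlift : f.map V.subtype ∈ Polynomial.lifts (algebraMap A K) := by
    rw [Polynomial.lifts_iff_coeff_lifts]
    intro i
    rw [Polynomial.coeff_map]
    exact hV _ (f.coeff i).2
  obtain ⟨q, hqmap, -, hqmonic⟩ :=
    Polynomial.lifts_and_natDegree_eq_and_monic hlift (hfm.map _)
  refine ⟨q, hqmonic, ?_⟩
  rw [← Polynomial.eval_map, ← Polynomial.map_map, hqmap, Polynomial.map_map,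
    Polynomial.eval_map]
  exact hf0

/-- Every element of `V[λ]` (the subring of `Ω` generated by the image of `V` and `λ`) is
integral over `V` when `λ` is. -/
theorem isIntegral_of_mem_closure {K Ω : Type*} [Field K] [Field Ω] [Algebra K Ω] (V : Subring K)
    (lam : Ω) (hlam : IsIntegral V lam) {x : Ω}
    (hx : x ∈ Subring.closure (algebraMap K Ω '' (V : Set K) ∪ {lam})) : IsIntegral V x := by
  induction hx using Subring.closure_induction with
  | mem y hy =>
    rcases hy with ⟨v, hv, rfl⟩ | rfl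
    · exact isIntegral_algebraMap (R := V) (A := Ω) (x := ⟨v, hv⟩)
    · exact hlam
  | zero => exact isIntegral_zero
  | one => exact isIntegral_one
  | add x y _ _ hx hy => exact hx.add hy
  | neg x _ hx => exact hx.neg
  | mul x y _ _ hx hy => exact hx.mul hy

/-- The same through a ring homomorphism `ι : F1 → Ω` over `K`: the image of an element of
`V[λ] ⊆ F1` is integral over `V`. -/
theorem isIntegral_map_of_mem_closure {K F1 Ω : Type*} [Field K] [CommRing F1] [Algebra K F1]
    [Field Ω] [Algebra K Ω] (ι : F1 →+* Ω) (hι : ∀ a : K, ι (algebraMap K F1 a) = algebraMap K Ω a)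
    (V : Subring K) (lam : F1) (hlam : IsIntegral V (ι lam)) {x : F1}
    (hx : x ∈ Subring.closure (algebraMap K F1 '' (V : Set K) ∪ {lam})) : IsIntegral V (ι x) := by
  induction hx using Subring.closure_induction with
  | mem y hy =>
    rcases hy with ⟨v, hv, rfl⟩ | rfl
    · rw [hι]
      exact isIntegral_algebraMap (R := V) (A := Ω) (x := ⟨v, hv⟩)
    · exact hlam
  | zero => rw [map_zero]; exact isIntegral_zero
  | one => rw [map_one]; exact isIntegral_one
  | add x y _ _ hx hy => rw [map_add]; exact hx.add hy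
  | neg x _ hx => rw [map_neg]; exact hx.neg
  | mul x y _ _ hx hy => rw [map_mul]; exact hx.mul hy

/-- `ζ - 1` is integral over any subring when `ζ ^ p = 1`, `p ≠ 0`. -/
theorem isIntegral_sub_one_of_pow_eq_one {K Ω : Type*} [Field K] [Field Ω] [Algebra K Ω]
    (V : Subring K) {ζ : Ω} {p : ℕ} (hp : p ≠ 0) (hζ : ζ ^ p = 1) : IsIntegral V (ζ - 1) := by
  have h1 : IsIntegral V ζ :=
    ⟨X ^ p - 1, monic_X_pow_sub_C 1 hp, by simp [hζ]⟩
  exact h1.sub isIntegral_one

end Aux

section Core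

variable {A : Type*} [CommRing A] [IsDomain A] [IsDiscreteValuationRing A]
  {K : Type*} [Field K] [CharZero K] [Algebra A K] [IsFractionRing A K]
  {Ω : Type*} [Field Ω] [Algebra K Ω]

set_option synthInstance.maxHeartbeats 400000 in
set_option maxHeartbeats 1600000 in
/-- **The vertical DVR exit, ambient form.**  `A` a discrete valuation ring with `p ∈ 𝔪_A`,
`K = Frac A`; inside one ambient field `Ω ⊇ K`: `L / K` finite Galois of degree `p ^ s`,
contained in `K(ζ, T_1, …, T_n)`, `ζ` a primitive `p`-th root of unity,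
`T_i ^ p = G_i ^ p (1 + (ζ - 1) ^ p r_i)` with `G_i, r_i ∈ K(ζ)`, `G_i ≠ 0`, `r_i` integral over
`A`.  Then `hunr` and `hsep` hold at every maximal ideal of `integralClosure A L`. -/
theorem unr_sep_of_depth_family (L : IntermediateField K Ω) [Algebra A L] [IsScalarTower A K L]
    [FiniteDimensional K L] [IsGalois K L] {p s : ℕ} (hp : p.Prime)
    (hL0 : Module.finrank K L = p ^ s) (hpA : (p : A) ∈ maximalIdeal A)
    (ζ : Ω) (hζ : IsPrimitiveRoot ζ p) {n : ℕ} (T : Fin n → Ω)
    (hT : ∀ i, ∃ G r : Ω, G ∈ K⟮ζ⟯ ∧ G ≠ 0 ∧ r ∈ K⟮ζ⟯ ∧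
      ((algebraMap K Ω).comp (algebraMap A K)).IsIntegralElem r ∧
      T i ^ p = G ^ p * (1 + (ζ - 1) ^ p * r))
    (hL : L ≤ IntermediateField.adjoin K (insert ζ (Set.range T))) :
    (∀ P : Ideal (integralClosure A L), P.IsMaximal → ∀ x ∈ P,
      ∃ s : integralClosure A L, s ∉ P ∧
        s * x ∈ (maximalIdeal A).map (algebraMap A (integralClosure A L))) ∧
    (∀ P : Ideal (integralClosure A L), P.IsMaximal → ∀ c : integralClosure A L,
      ∃ f : Polynomial A, Polynomial.aeval c f ∈ P ∧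
        Polynomial.aeval c (Polynomial.derivative f) ∉ P) := by
  classical
  -- the field `K(ζ)`
  have hζint : IsIntegral K ζ :=
    ⟨X ^ p - 1, monic_X_pow_sub_C 1 hp.ne_zero, by simp [hζ.pow_eq_one]⟩
  haveI : FiniteDimensional K K⟮ζ⟯ := adjoin.finiteDimensional hζint
  letI algAF : Algebra A K⟮ζ⟯ := ((algebraMap K K⟮ζ⟯).comp (algebraMap A K)).toAlgebra
  haveI := IsScalarTower.of_algebraMap_eq (R := A) (S := K) (A := K⟮ζ⟯) (fun _ => rfl)
  haveI : IsDedekindDomain (integralClosure A K⟮ζ⟯) :=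
    integralClosure.isDedekindDomain A K K⟮ζ⟯
  haveI : Module.Finite A (integralClosure A K⟮ζ⟯) :=
    IsIntegralClosure.finite A K K⟮ζ⟯ (integralClosure A K⟮ζ⟯)
  haveI : IsFractionRing (integralClosure A K⟮ζ⟯) K⟮ζ⟯ :=
    IsIntegralClosure.isFractionRing_of_finite_extension A K K⟮ζ⟯ (integralClosure A K⟮ζ⟯)
  haveI : CharZero K⟮ζ⟯ := charZero_of_injective_algebraMap (algebraMap K K⟮ζ⟯).injective
  have hinjAF : Function.Injective (algebraMap A K⟮ζ⟯) :=
    (algebraMap K K⟮ζ⟯).injective.comp (IsFractionRing.injective A K)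
  haveI : FaithfulSMul A (integralClosure A K⟮ζ⟯) := by
    rw [faithfulSMul_iff_algebraMap_injective]
    intro x y h
    exact hinjAF (congrArg (fun z : integralClosure A K⟮ζ⟯ => (z : K⟮ζ⟯)) h)
  haveI : Module.IsTorsionFree A K⟮ζ⟯ := Module.isTorsionFree_iff_algebraMap_injective.mpr hinjAF
  -- the rank of `A1` over `A`
  have hdeg : Module.finrank A (integralClosure A K⟮ζ⟯) < p := by
    rw [IsIntegralClosure.rank A K K⟮ζ⟯ (integralClosure A K⟮ζ⟯), adjoin.finrank hζint]
    have hroot : aeval ζ (cyclotomic p K) = 0 := by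
      rw [aeval_def, ← eval_map, map_cyclotomic]
      exact hζ.isRoot_cyclotomic hp.pos
    have hle := natDegree_le_of_dvd (minpoly.dvd K ζ hroot) (cyclotomic_ne_zero p K)
    rw [natDegree_cyclotomic, Nat.totient_prime hp] at hle
    exact lt_of_le_of_lt hle (Nat.sub_lt hp.pos Nat.one_pos)
  -- the data of the Kummer generators
  choose G r hG hG0 hr hrint hTi using hT
  -- the field `L1 = K(ζ)(T_i)`
  have hTpow : ∀ i, T i ^ p = algebraMap K⟮ζ⟯ Ω
      (⟨G i, hG i⟩ ^ p * (1 + (⟨ζ, mem_adjoin_simple_self K ζ⟩ - 1) ^ p * ⟨r i, hr i⟩)) := by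
    intro i
    rw [hTi i]
    rfl
  have hTint : ∀ i, IsIntegral K⟮ζ⟯ (T i) := fun i =>
    IsIntegral.of_pow hp.pos (by rw [hTpow i]; exact isIntegral_algebraMap)
  obtain ⟨L1, hL1⟩ : ∃ L1 : IntermediateField K⟮ζ⟯ Ω,
      L1 = IntermediateField.adjoin K⟮ζ⟯ (Set.range T) := ⟨_, rfl⟩
  haveI : FiniteDimensional K⟮ζ⟯ L1 := by
    rw [hL1]
    exact finiteDimensional_adjoin (by rintro _ ⟨i, rfl⟩; exact hTint i)
  have hTL1 : ∀ i, T i ∈ L1 := fun i => by
    rw [hL1]; exact IntermediateField.subset_adjoin _ _ ⟨i, rfl⟩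
  -- `L ⊆ L1` inside `Ω`
  have hLL1 : ∀ x : Ω, x ∈ L → x ∈ L1 := by
    intro x hx
    have h2 : IntermediateField.adjoin K (insert ζ (Set.range T)) ≤ L1.restrictScalars K := by
      rw [IntermediateField.adjoin_le_iff]
      rintro y (rfl | ⟨i, rfl⟩)
      · exact L1.algebraMap_mem ⟨y, mem_adjoin_simple_self K y⟩
      · exact hTL1 i
    exact h2 (hL hx)
  -- the `A1`-algebra `L1` and `C1`
  letI algA1L1 : Algebra (integralClosure A K⟮ζ⟯) L1 :=
    ((algebraMap K⟮ζ⟯ L1).comp (algebraMap (integralClosure A K⟮ζ⟯) K⟮ζ⟯)).toAlgebra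
  haveI := IsScalarTower.of_algebraMap_eq (R := integralClosure A K⟮ζ⟯) (S := K⟮ζ⟯) (A := L1)
    (fun _ => rfl)
  letI algAC1 : Algebra A (integralClosure (integralClosure A K⟮ζ⟯) L1) :=
    ((algebraMap (integralClosure A K⟮ζ⟯) (integralClosure (integralClosure A K⟮ζ⟯) L1)).comp
      (algebraMap A (integralClosure A K⟮ζ⟯))).toAlgebra
  haveI := IsScalarTower.of_algebraMap_eq (R := A) (S := integralClosure A K⟮ζ⟯)
    (A := integralClosure (integralClosure A K⟮ζ⟯) L1) (fun _ => rfl)
  -- compatibility of the two paths `A → Ω`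
  have hcompat : ∀ a : A, ((algebraMap A L a : L) : Ω) = algebraMap K Ω (algebraMap A K a) := by
    intro a
    rw [IsScalarTower.algebraMap_apply A K L]
    rfl
  -- the map `C0 → C1`
  let ψ : integralClosure A L →+* L1 :=
    RingHom.codRestrict ((algebraMap L Ω).comp (algebraMap (integralClosure A L) L)) L1
      (fun x => hLL1 _ (SetLike.coe_mem (x : L)))
  have hψ : ∀ x : integralClosure A L, ((ψ x : L1) : Ω) = ((x : L) : Ω) := fun _ => rfl
  have hψint : ∀ x : integralClosure A L, IsIntegral (integralClosure A K⟮ζ⟯) (ψ x) := by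
    intro x
    obtain ⟨f, hfm, hf0⟩ := x.2
    refine ⟨f.map (algebraMap A (integralClosure A K⟮ζ⟯)), hfm.map _, ?_⟩
    rw [eval₂_map]
    apply Subtype.val_injective
    rw [ZeroMemClass.coe_zero]
    have h1 := congrArg (fun z : L => (z : Ω)) hf0
    simp only [ZeroMemClass.coe_zero] at h1
    rw [← h1]
    have e1 : ((eval₂ ((algebraMap (integralClosure A K⟮ζ⟯) L1).comp
        (algebraMap A (integralClosure A K⟮ζ⟯))) (ψ x) f : L1) : Ω) =
        eval₂ ((algebraMap K Ω).comp (algebraMap A K)) ((x : L) : Ω) f := by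
      have := hom_eval₂ f ((algebraMap (integralClosure A K⟮ζ⟯) L1).comp
        (algebraMap A (integralClosure A K⟮ζ⟯))) (algebraMap L1 Ω) (ψ x)
      exact this
    have e2 : ((eval₂ (algebraMap A L) (x : L) f : L) : Ω) =
        eval₂ ((algebraMap K Ω).comp (algebraMap A K)) ((x : L) : Ω) f := by
      have := hom_eval₂ f (algebraMap A L) (algebraMap L Ω) (x : L)
      rw [show (algebraMap L Ω).comp (algebraMap A L) = (algebraMap K Ω).comp (algebraMap A K)
        from RingHom.ext fun a => hcompat a] at this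
      exact this
    rw [e1, e2]
  let φ : integralClosure A L →+* integralClosure (integralClosure A K⟮ζ⟯) L1 :=
    RingHom.codRestrict ψ (integralClosure (integralClosure A K⟮ζ⟯) L1) hψint
  have hφ : ∀ x : integralClosure A L,
      (((φ x : integralClosure (integralClosure A K⟮ζ⟯) L1) : L1) : Ω) = ((x : L) : Ω) :=
    fun _ => rfl
  letI algC0C1 : Algebra (integralClosure A L) (integralClosure (integralClosure A K⟮ζ⟯) L1) :=
    φ.toAlgebra
  haveI := IsScalarTower.of_algebraMap_eq (R := A) (S := integralClosure A L)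
    (A := integralClosure (integralClosure A K⟮ζ⟯) L1) (fun a => by
      apply Subtype.val_injective
      apply Subtype.val_injective
      show algebraMap K Ω (algebraMap A K a) = ((algebraMap A L a : L) : Ω)
      exact (hcompat a).symm)
  haveI : FaithfulSMul (integralClosure A L) (integralClosure (integralClosure A K⟮ζ⟯) L1) := by
    rw [faithfulSMul_iff_algebraMap_injective]
    intro x y h
    apply Subtype.val_injective
    apply Subtype.val_injective
    have h1 := congrArg (fun z : integralClosure (integralClosure A K⟮ζ⟯) L1 => ((z : L1) : Ω)) h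
    exact h1
  -- `ζ` as an element of `A1`
  have hζA : IsIntegral A (⟨ζ, mem_adjoin_simple_self K ζ⟩ : K⟮ζ⟯) := by
    refine ⟨X ^ p - 1, monic_X_pow_sub_C 1 hp.ne_zero, ?_⟩
    apply Subtype.val_injective
    simp [hζ.pow_eq_one]
  have hζ' : IsPrimitiveRoot
      (⟨⟨ζ, mem_adjoin_simple_self K ζ⟩, hζA⟩ : integralClosure A K⟮ζ⟯) p := by
    have hinj : Function.Injective
        ((algebraMap K⟮ζ⟯ Ω).comp (algebraMap (integralClosure A K⟮ζ⟯) K⟮ζ⟯)) :=
      (algebraMap K⟮ζ⟯ Ω).injective.comp Subtype.val_injective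
    exact IsPrimitiveRoot.of_map_of_injective (f := (algebraMap K⟮ζ⟯ Ω).comp
      (algebraMap (integralClosure A K⟮ζ⟯) K⟮ζ⟯)) hζ hinj
  -- the `r i` as elements of `A1`
  have hrA : ∀ i, IsIntegral A (⟨r i, hr i⟩ : K⟮ζ⟯) := by
    intro i
    obtain ⟨f, hfm, hf0⟩ := hrint i
    refine ⟨f, hfm, ?_⟩
    apply Subtype.val_injective
    rw [ZeroMemClass.coe_zero, ← hf0]
    exact hom_eval₂ f (algebraMap A K⟮ζ⟯) (algebraMap K⟮ζ⟯ Ω) ⟨r i, hr i⟩
  -- the Kummer equations in `L1`
  have hT' : ∀ i, (⟨T i, hTL1 i⟩ : L1) ^ p = algebraMap K⟮ζ⟯ L1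
      ((⟨G i, hG i⟩ : K⟮ζ⟯) ^ p * (1 + algebraMap (integralClosure A K⟮ζ⟯) K⟮ζ⟯
        (((⟨⟨ζ, mem_adjoin_simple_self K ζ⟩, hζA⟩ : integralClosure A K⟮ζ⟯) - 1) ^ p *
          ⟨⟨r i, hr i⟩, hrA i⟩))) := by
    intro i
    apply Subtype.val_injective
    show T i ^ p = _
    rw [hTpow i]
    rfl
  have hGk : ∀ i, (⟨G i, hG i⟩ : K⟮ζ⟯) ≠ 0 := fun i h => hG0 i (congrArg Subtype.val h)
  -- `L1` is generated by the `T i` as a `K(ζ)`-algebra
  have hgen : Algebra.adjoin K⟮ζ⟯ (Set.range fun i => (⟨T i, hTL1 i⟩ : L1)) = ⊤ := by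
    apply Subalgebra.map_injective (f := L1.val) Subtype.val_injective
    rw [Algebra.map_top, AlgHom.map_adjoin, ← Set.range_comp]
    have h1 : (⇑L1.val ∘ fun i => (⟨T i, hTL1 i⟩ : L1)) = T := rfl
    rw [h1, IntermediateField.range_val, hL1]
    exact (IntermediateField.adjoin_toSubalgebra_of_isAlgebraic
      (by rintro _ ⟨i, rfl⟩; exact (hTint i).isAlgebraic)).symm
  exact AsDvrKummer.unr_sep_of_depth_aklb (A := A) (K := K) (L0 := L)
    (C0 := integralClosure A L) (A1 := integralClosure A K⟮ζ⟯) (K1 := K⟮ζ⟯) (L1 := L1)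
    (integralClosure (integralClosure A K⟮ζ⟯) L1) hp hL0 hdeg hpA
    ⟨⟨ζ, mem_adjoin_simple_self K ζ⟩, hζA⟩ hζ' (fun i => (⟨T i, hTL1 i⟩ : L1))
    (fun i => (⟨G i, hG i⟩ : K⟮ζ⟯)) (fun i => ⟨⟨r i, hr i⟩, hrA i⟩) hGk hT' hgen

end Core

section Main

variable {R : Type u} [CommRing R] [IsDomain R] [IsNoetherianRing R]
  {K : Type v} [Field K] [CharZero K] [Algebra R K] [IsFractionRing R K]
  {Ω : Type w} [Field Ω] [Algebra K Ω]

/-- **The discriminant hypothesis of the cover at a VERTICAL prime element** (`g ∣ p`), ambient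
form.  `R` a noetherian domain (the block ring), `K = Frac R`, `g` a prime element of `R`
dividing `p`; `V ⊆ R_(g)` a subring of `K` (the generic ring of the component); inside one
ambient field `Ω ⊇ K`: `L / K` finite Galois of degree `p ^ s`, contained in
`K(ζ, T_1, …, T_n)`, `T_i ^ p = G_i ^ p (1 + (ζ - 1) ^ p r_i)` with `G_i, r_i ∈ K(ζ)`,
`G_i ≠ 0`, `r_i` integral over `V` (depth `p` along `V[ζ]`).  Then `g` does not divide the
discriminant of any `R`-basis of the integral closure of `R` in `L`. -/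
theorem not_dvd_discr_of_depth_family (L : IntermediateField K Ω) [Algebra R L]
    [IsScalarTower R K L] [FiniteDimensional K L] [IsGalois K L] {g : R} (hg : Prime g)
    {p s : ℕ} (hp : p.Prime) (hL0 : Module.finrank K L = p ^ s) (hpg : g ∣ (p : R))
    (ζ : Ω) (hζ : IsPrimitiveRoot ζ p) {n : ℕ} (T : Fin n → Ω) (V : Subring K)
    (hV : ∀ x ∈ V, ∃ a b : R, ¬ g ∣ b ∧ x * algebraMap R K b = algebraMap R K a)
    (hT : ∀ i, ∃ G r : Ω, G ∈ K⟮ζ⟯ ∧ G ≠ 0 ∧ r ∈ K⟮ζ⟯ ∧ IsIntegral V r ∧
      T i ^ p = G ^ p * (1 + (ζ - 1) ^ p * r))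
    (hL : L ≤ IntermediateField.adjoin K (insert ζ (Set.range T)))
    {κ : Type*} [Fintype κ] [DecidableEq κ] (b : Module.Basis κ R (integralClosure R L)) :
    ¬ g ∣ Algebra.discr R b := by
  haveI : FaithfulSMul R L := by
    rw [faithfulSMul_iff_algebraMap_injective, IsScalarTower.algebraMap_eq R K L]
    exact (algebraMap K L).injective.comp (IsFractionRing.injective R K)
  refine DiscrSeam.exists_dvr_data (L := L) K hg (fun _ _ _ _ _ _ _ _ _ _ _ => True) _ ?_
    (fun _ _ _ _ _ _ _ _ _ _ _ _ => trivial)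
  intro A _ _ _ _ _ _ _ _ _ _ hq _ hmax _
  -- `p ∈ 𝔪_A`
  have hpA : (p : A) ∈ maximalIdeal A := by
    obtain ⟨c, hc⟩ := hpg
    rw [hmax, Ideal.mem_span_singleton]
    exact ⟨algebraMap R A c, by rw [← map_mul, ← hc, map_natCast]⟩
  -- `V` lies in the image of `A`
  have hVA : ∀ x ∈ V, x ∈ (algebraMap A K).range := by
    intro x hx
    obtain ⟨a, c, hc, hxc⟩ := hV x hx
    have hcmem : c ∈ (Ideal.span {g}).primeCompl := fun h => hc (Ideal.mem_span_singleton.mp h)
    refine ⟨IsLocalization.mk' A a (⟨c, hcmem⟩ : (Ideal.span {g}).primeCompl), ?_⟩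
    have h1 := IsLocalization.mk'_spec A a (⟨c, hcmem⟩ : (Ideal.span {g}).primeCompl)
    have h2 := congrArg (algebraMap A K) h1
    rw [map_mul, ← IsScalarTower.algebraMap_apply, ← IsScalarTower.algebraMap_apply] at h2
    have hc0 : algebraMap R K c ≠ 0 := by
      intro h0
      apply hc
      have : c = 0 := IsFractionRing.injective R K (by rw [h0, map_zero])
      rw [this]; exact dvd_zero g
    exact mul_right_cancel₀ hc0 (h2.trans hxc.symm)
  obtain ⟨hunr, hsep⟩ := unr_sep_of_depth_family (A := A) L hp hL0 hpA ζ hζ T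
    (fun i => by
      obtain ⟨G, r, hG, hG0, hr, hrint, hTi⟩ := hT i
      exact ⟨G, r, hG, hG0, hr, isIntegralElem_of_subring V hVA hrint, hTi⟩) hL
  exact DiscrSeam.not_dvd_discr_of_local A b hg hunr hsep

end Main

end Fermat.Agent.S33.Geo.DepthUnr
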