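import Mathlib
import Fermat.Agent.S33.Geo.Top

/-!
# S33 / GEO / Stage B, row Z2: the eigen-trick along one Gauss ring (depth `2` ⟹ depth `p`)

Level-free (Mathlib + `S33/Geo/Top` only; helper251).

`O` a discrete valuation ring with uniformiser `lam` and perfect residue field (`hperf`; in the
application `O = O₁ = O[ζ_p]`, `lam = ζ_p - 1`, `lam ^ (p - 1) ∣ p`), `F` a field over `O`, and
`V` a subring of `F` which is, elementwise, a valuation ring with maximal ideal `lam V`: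

* `constV : ∀ a : O, algebraMap O F a ∈ V`,
* `hval   : ∀ z : F, z ∈ V ∨ z⁻¹ ∈ V`,
* `hloc   : ∀ z ∈ V, z⁻¹ ∈ V ∨ Top.MemPi V lam z`,
* `hL     : (algebraMap O F lam)⁻¹ ∉ V`.

`τ : F →+* F` a ring endomorphism preserving the constants (`hτc`) with

* `hτlam : ∃ v ∈ V, τ lam = lam * (a + lam * v)`   (`τ ζ = ζ ^ a`: `tau_lam_of_zeta`),
* `hτV   : ∀ r ∈ V, Top.MemPi V lam (τ r - r)`     (`τ` is trivial on `V / lam V`).

Let `f ≠ 0` be an eigenfunction of `τ` modulo constants and `p`-th powers: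
`c₂ * τ f = c₁ * f ^ a * k ^ p`.  Then

* `cmp_two_forms` : two forms `C * G₁ ^ p * (1 + lam ^ j * ρ₁) = C' * G₂ ^ p * (1 + lam ^ j * ρ₂)`
  of the same depth `j`, `1 ≤ j`, `j + 1 ≤ p`, `lam ^ j ∣ p`, `ρ₁, ρ₂ ∈ V`, have leading terms
  differing by a constant modulo `lam V` (the valuation-ring form of `HDCmp.cmp_lead`; no
  closed point, no noetherian hypothesis);
* `eigen_lead` : if `f = c * g ^ p * (1 + lam ^ j * r)`, `r ∈ V`, and `a ^ j - a` is a unit of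
  `O`, then `r` is a constant modulo `lam V` (apply `τ` to the form, raise the form to the
  power `a`, compare: `(a ^ j - a) r` is a constant);
* `eigen_step` : depth `≥ j` ⟹ depth `≥ j + 1` (`Top.DepthIn`);
* `eigen_depth`, `eigen_depth_of_orderOf` : depth `≥ 2` ⟹ depth `≥ p`, for `a` a primitive root
  modulo `p` (`orderOf (a : ZMod p) = p - 1`).

The step `1 → 2` is NOT covered (`a ^ 1 - a = 0`): it needs the closed points (row Z1).
-/

set_option autoImplicit false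
set_option linter.unusedSectionVars false
set_option linter.unusedVariables false

namespace Fermat.Agent.S33.Geo.EigenDepth

open Fermat.Agent.S33.Geo.Top

/-! ### Expansions inside a subring of a field -/

section Expansions

variable {F : Type*} [Field F]

/-- `(A + L w) ^ n = A ^ n + L v` with `v ∈ V`. -/
theorem exists_add_mul_pow (V : Subring F) {A L w : F} (hA : A ∈ V) (hL : L ∈ V) (hw : w ∈ V)
    (n : ℕ) : ∃ v : F, v ∈ V ∧ (A + L * w) ^ n = A ^ n + L * v := by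
  induction n with
  | zero => exact ⟨0, V.zero_mem, by rw [pow_zero, pow_zero, mul_zero, add_zero]⟩
  | succ n ih =>
    obtain ⟨v, hv, e⟩ := ih
    refine ⟨A ^ n * w + v * A + L * v * w, ?_, ?_⟩
    · exact V.add_mem (V.add_mem (V.mul_mem (V.pow_mem hA n) hw) (V.mul_mem hv hA))
        (V.mul_mem (V.mul_mem hL hv) hw)
    · rw [pow_succ, e]
      ring

/-- `(1 + M r) ^ n = 1 + n M r + M ^ 2 v` with `v ∈ V`. -/
theorem exists_one_add_mul_pow (V : Subring F) {M r : F} (hM : M ∈ V) (hr : r ∈ V) (n : ℕ) :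
    ∃ v : F, v ∈ V ∧ (1 + M * r) ^ n = 1 + (n : F) * M * r + M ^ 2 * v := by
  induction n with
  | zero =>
    exact ⟨0, V.zero_mem, by rw [pow_zero, Nat.cast_zero, zero_mul, zero_mul, mul_zero,
      add_zero, add_zero]⟩
  | succ n ih =>
    obtain ⟨v, hv, e⟩ := ih
    refine ⟨(n : F) * r ^ 2 + v + M * v * r, ?_, ?_⟩
    · exact V.add_mem (V.add_mem (V.mul_mem (natCast_mem V n) (V.pow_mem hr 2)) hv)
        (V.mul_mem (V.mul_mem hM hv) hr)
    · rw [pow_succ, e]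
      push_cast
      ring

/-- The binomial formula for a prime exponent, inside `V`. -/
theorem exists_add_pow_prime_mem (V : Subring F) {p : ℕ} (hp : p.Prime) {x y : F} (hx : x ∈ V)
    (hy : y ∈ V) : ∃ ρ : F, ρ ∈ V ∧ (x + y) ^ p = x ^ p + y ^ p + (p : F) * (x * y * ρ) := by
  obtain ⟨ρ, hρ⟩ := exists_add_pow_prime_eq hp (⟨x, hx⟩ : V) ⟨y, hy⟩
  refine ⟨ρ, ρ.2, ?_⟩
  have h1 := congrArg (fun z : V => (z : F)) hρ
  simp only [Subring.coe_add, Subring.coe_mul, Subring.coe_pow, Subring.coe_natCast] at h1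
  rw [h1]
  ring

/-- `τ ζ = ζ ^ a` for `ζ = 1 + L` gives `τ L = L * (a + L * v)` with `v ∈ V`. -/
theorem tau_lam_of_zeta (V : Subring F) {L : F} (hL : L ∈ V) (τ : F →+* F) (a : ℕ)
    (hζ : τ (1 + L) = (1 + L) ^ a) : ∃ v : F, v ∈ V ∧ τ L = L * ((a : F) + L * v) := by
  obtain ⟨v, hv, e⟩ := exists_one_add_mul_pow V (M := L) (r := 1) hL V.one_mem a
  refine ⟨v, hv, ?_⟩
  rw [mul_one, mul_one] at e
  have h1 : τ L = (1 + L) ^ a - 1 := by
    rw [← hζ, map_add, map_one]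
    ring
  rw [h1, e]
  ring

end Expansions

/-! ### A local subring with maximal ideal `lam V` -/

section Local

variable {O F : Type*} [CommRing O] [Field F] [Algebra O F]

/-- `L ≠ 0`. -/
theorem algebraMap_ne_zero_of_inv_notMem {V : Subring F} {lam : O}
    (hL : (algebraMap O F lam)⁻¹ ∉ V) : algebraMap O F lam ≠ 0 := by
  intro h0
  apply hL
  rw [h0, inv_zero]
  exact V.zero_mem

/-- A unit of `V` does not lie in `lam V`. -/
theorem not_memPi_of_inv_mem {V : Subring F} {lam : O} (hL : (algebraMap O F lam)⁻¹ ∉ V)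
    {z : F} (hz0 : z ≠ 0) (hz : z⁻¹ ∈ V) : ¬ MemPi V lam z := by
  rintro ⟨v, hv, e⟩
  apply hL
  have hv0 : v ≠ 0 := by
    rintro rfl
    rw [mul_zero] at e
    exact hz0 e
  have h1 : (algebraMap O F lam)⁻¹ = v * z⁻¹ := by
    rw [e, mul_inv, mul_comm (algebraMap O F lam)⁻¹ v⁻¹, ← mul_assoc, mul_inv_cancel₀ hv0,
      one_mul]
  rw [h1]
  exact V.mul_mem hv hz

/-- `1 + x ≠ 0` for `x ∈ lam V`. -/
theorem one_add_ne_zero_of_memPi {V : Subring F} {lam : O} (hL : (algebraMap O F lam)⁻¹ ∉ V)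
    {x : F} (hx : MemPi V lam x) : 1 + x ≠ 0 := by
  obtain ⟨v, hv, rfl⟩ := hx
  intro h0
  apply hL
  have h1 : algebraMap O F lam * (-v) = 1 := by linear_combination -h0
  rw [inv_eq_of_mul_eq_one_right h1]
  exact V.neg_mem hv

/-- `1 + x` is a unit of `V` for `x ∈ lam V`. -/
theorem inv_one_add_mem {V : Subring F} {lam : O} (constV : ∀ a : O, algebraMap O F a ∈ V)
    (hloc : ∀ z : F, z ∈ V → z⁻¹ ∈ V ∨ MemPi V lam z) (hL : (algebraMap O F lam)⁻¹ ∉ V)
    {x : F} (hx : MemPi V lam x) : (1 + x)⁻¹ ∈ V := by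
  have hx' := hx
  obtain ⟨v, hv, rfl⟩ := hx
  rcases hloc (1 + algebraMap O F lam * v)
      (V.add_mem V.one_mem (V.mul_mem (constV lam) hv)) with h | ⟨v', hv', e⟩
  · exact h
  · exfalso
    apply hL
    have h1 : algebraMap O F lam * (v' - v) = 1 := by linear_combination -e
    rw [inv_eq_of_mul_eq_one_right h1]
    exact V.sub_mem hv' hv

/-- `lam V` is a radical ideal of `V`. -/
theorem memPi_of_pow {V : Subring F} {lam : O}
    (hloc : ∀ z : F, z ∈ V → z⁻¹ ∈ V ∨ MemPi V lam z) (hL : (algebraMap O F lam)⁻¹ ∉ V)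
    {z : F} (hz : z ∈ V) {n : ℕ} (h : MemPi V lam (z ^ n)) : MemPi V lam z := by
  rcases hloc z hz with hinv | h'
  · by_cases hz0 : z = 0
    · exact ⟨0, V.zero_mem, by rw [hz0, mul_zero]⟩
    · exact absurd h (not_memPi_of_inv_mem hL (pow_ne_zero n hz0)
        (by rw [← inv_pow]; exact V.pow_mem hinv n))
  · exact h'

/-- **Roots of units.**  If `G ∈ V`, `G ≠ 0` and `G ^ p * L ^ m = L ^ m' * u` with `u` a unit of
`V`, then `u` is the `p`-th power of a unit of `V`. -/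
theorem exists_unit_root_of_mem {V : Subring F} {lam : O}
    (constV : ∀ a : O, algebraMap O F a ∈ V)
    (hloc : ∀ z : F, z ∈ V → z⁻¹ ∈ V ∨ MemPi V lam z) (hL : (algebraMap O F lam)⁻¹ ∉ V)
    {p : ℕ} (hp0 : 0 < p) :
    ∀ (m' m : ℕ) (G u : F), G ∈ V → G ≠ 0 → u ∈ V → u⁻¹ ∈ V → u ≠ 0 →
      G ^ p * algebraMap O F lam ^ m = algebraMap O F lam ^ m' * u →
      ∃ G₀ : F, G₀ ∈ V ∧ G₀⁻¹ ∈ V ∧ G₀ ^ p = u := by
  have hL0 := algebraMap_ne_zero_of_inv_notMem hL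
  have hLV := constV lam
  intro m'
  induction m' using Nat.strong_induction_on with
  | _ m' ih =>
    intro m G u hG hG0 hu hui hu0 e
    rcases hloc G hG with hGi | ⟨G', hG', eG⟩
    · -- `G` is a unit of `V`: then `m = m'`
      rcases lt_trichotomy m m' with h | h | h
      · exfalso
        obtain ⟨d, rfl⟩ := Nat.exists_eq_add_of_lt h
        have h1 : G ^ p = algebraMap O F lam * (algebraMap O F lam ^ d * u) := by
          apply mul_right_cancel₀ (pow_ne_zero m hL0)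
          rw [e]
          ring
        exact not_memPi_of_inv_mem hL (pow_ne_zero p hG0)
          (by rw [← inv_pow]; exact V.pow_mem hGi p)
          ⟨_, V.mul_mem (V.pow_mem hLV d) hu, h1⟩
      · subst h
        refine ⟨G, hG, hGi, ?_⟩
        apply mul_right_cancel₀ (pow_ne_zero m hL0)
        rw [e]
        ring
      · exfalso
        obtain ⟨d, rfl⟩ := Nat.exists_eq_add_of_lt h
        have h1 : u = algebraMap O F lam * (algebraMap O F lam ^ d * G ^ p) := by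
          apply mul_left_cancel₀ (pow_ne_zero m' hL0)
          rw [← e]
          ring
        exact not_memPi_of_inv_mem hL hu0 hui
          ⟨_, V.mul_mem (V.pow_mem hLV d) (V.pow_mem hG p), h1⟩
    · -- `G = L * G'`
      have hG'0 : G' ≠ 0 := by
        rintro rfl
        rw [mul_zero] at eG
        exact hG0 eG
      rcases lt_or_ge m' (p + m) with h | h
      · exfalso
        obtain ⟨d, hd⟩ := Nat.exists_eq_add_of_lt h
        have h1 : u = algebraMap O F lam * (algebraMap O F lam ^ d * G' ^ p) := by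
          apply mul_left_cancel₀ (pow_ne_zero m' hL0)
          rw [← e, eG, mul_pow, mul_assoc, mul_comm (G' ^ p), ← mul_assoc, ← pow_add, hd]
          ring
        exact not_memPi_of_inv_mem hL hu0 hui
          ⟨_, V.mul_mem (V.pow_mem hLV d) (V.pow_mem hG' p), h1⟩
      · obtain ⟨d, hd⟩ := Nat.exists_eq_add_of_le h
        have h1 : G' ^ p * algebraMap O F lam ^ 0 = algebraMap O F lam ^ d * u := by
          apply mul_left_cancel₀ (pow_ne_zero (p + m) hL0)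
          rw [pow_zero, mul_one, ← mul_assoc, ← pow_add, ← hd, ← e, eG, mul_pow, pow_add]
          ring
        exact ih d (by omega) 0 G' u hG' hG'0 hu hui hu0 h1

/-- **Roots of units**, for an arbitrary `G ≠ 0` of the field (`V` a valuation ring). -/
theorem exists_unit_root {V : Subring F} {lam : O} (constV : ∀ a : O, algebraMap O F a ∈ V)
    (hval : ∀ z : F, z ∈ V ∨ z⁻¹ ∈ V)
    (hloc : ∀ z : F, z ∈ V → z⁻¹ ∈ V ∨ MemPi V lam z) (hL : (algebraMap O F lam)⁻¹ ∉ V)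
    {p : ℕ} (hp0 : 0 < p) (m' m : ℕ) (G u : F) (hG0 : G ≠ 0) (hu : u ∈ V) (hui : u⁻¹ ∈ V)
    (hu0 : u ≠ 0)
    (e : G ^ p * algebraMap O F lam ^ m = algebraMap O F lam ^ m' * u) :
    ∃ G₀ : F, G₀ ∈ V ∧ G₀⁻¹ ∈ V ∧ G₀ ^ p = u := by
  rcases hval G with hG | hG
  · exact exists_unit_root_of_mem constV hloc hL hp0 m' m G u hG hG0 hu hui hu0 e
  · have e' : G⁻¹ ^ p * algebraMap O F lam ^ m' = algebraMap O F lam ^ m * u⁻¹ := by
      have hGp : G ^ p ≠ 0 := pow_ne_zero p hG0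
      rw [inv_pow, inv_mul_eq_iff_eq_mul₀ hGp, ← mul_assoc, e, mul_assoc, mul_inv_cancel₀ hu0,
        mul_one]
    obtain ⟨G₀, hG₀, hG₀i, h⟩ := exists_unit_root_of_mem constV hloc hL hp0 m m' G⁻¹ u⁻¹ hG
      (inv_ne_zero hG0) hui (by rwa [inv_inv]) (inv_ne_zero hu0) e'
    refine ⟨G₀⁻¹, hG₀i, by rwa [inv_inv], ?_⟩
    rw [inv_pow, h, inv_inv]

end Local

/-! ### Constants -/

section Constants

variable {O : Type*} [CommRing O] [IsDomain O] [IsDiscreteValuationRing O]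
  {F : Type*} [Field F] [Algebra O F]

/-- The image of a unit of `O` is a unit of `V`. -/
theorem inv_algebraMap_unit_mem {V : Subring F} (constV : ∀ a : O, algebraMap O F a ∈ V)
    (ε : Oˣ) : (algebraMap O F (ε : O))⁻¹ ∈ V := by
  have h1 : algebraMap O F (ε : O) * algebraMap O F ((ε⁻¹ : Oˣ) : O) = 1 := by
    rw [← map_mul, Units.mul_inv, map_one]
  rw [inv_eq_of_mul_eq_one_right h1]
  exact constV _

/-- A constant lying in `lam ^ n V` is divisible by `lam ^ n` in `O`. -/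
theorem pow_dvd_of_algebraMap_eq {V : Subring F} {lam : O} (hlam : Irreducible lam)
    (hinj : Function.Injective (algebraMap O F)) (constV : ∀ a : O, algebraMap O F a ∈ V)
    (hL : (algebraMap O F lam)⁻¹ ∉ V) {e : O} {n : ℕ} {v : F} (hv : v ∈ V)
    (h : algebraMap O F e = algebraMap O F lam ^ n * v) : lam ^ n ∣ e := by
  have hL0 := algebraMap_ne_zero_of_inv_notMem hL
  by_cases he : e = 0
  · rw [he]
    exact dvd_zero _
  obtain ⟨t, ε, rfl⟩ := IsDiscreteValuationRing.eq_unit_mul_pow_irreducible he hlam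
  rcases le_or_gt n t with hnt | htn
  · exact Dvd.dvd.mul_left (pow_dvd_pow lam hnt) _
  · exfalso
    obtain ⟨d, rfl⟩ := Nat.exists_eq_add_of_lt htn
    have hε0 : algebraMap O F (ε : O) ≠ 0 := (map_ne_zero_iff _ hinj).mpr ε.ne_zero
    have h1 : algebraMap O F (ε : O) = algebraMap O F lam * (algebraMap O F lam ^ d * v) := by
      apply mul_right_cancel₀ (pow_ne_zero t hL0)
      rw [← map_pow, ← map_mul, h, map_pow]
      ring
    exact not_memPi_of_inv_mem hL hε0 (inv_algebraMap_unit_mem constV ε)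
      ⟨_, V.mul_mem (V.pow_mem (constV lam) d) hv, h1⟩

end Constants

/-! ### Two forms of the same depth along a valuation ring -/

section Main

variable {O : Type*} [CommRing O] [IsDomain O] [IsDiscreteValuationRing O]
  {F : Type*} [Field F] [Algebra O F]

/-- **Two generic forms of the same depth** (the valuation-ring form of `HDCmp.cmp_lead`).
Let `V` be a valuation ring of `F` with maximal ideal `lam V`, containing the constants.  If
`C * G₁ ^ p * (1 + lam ^ j * ρ₁) = C' * G₂ ^ p * (1 + lam ^ j * ρ₂)` with `ρ₁, ρ₂ ∈ V`,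
`1 ≤ j`, `j + 1 ≤ p`, `lam ^ j ∣ p`, then `ρ₁ - ρ₂` is a constant modulo `lam V`. -/
theorem cmp_two_forms (p : ℕ) (hp : p.Prime) (lam : O) (hlam : Irreducible lam)
    (hperf : ∀ a : O, ∃ b : O, lam ∣ a - b ^ p)
    (hinj : Function.Injective (algebraMap O F))
    (V : Subring F) (constV : ∀ a : O, algebraMap O F a ∈ V)
    (hval : ∀ z : F, z ∈ V ∨ z⁻¹ ∈ V)
    (hloc : ∀ z : F, z ∈ V → z⁻¹ ∈ V ∨ MemPi V lam z)
    (hL : (algebraMap O F lam)⁻¹ ∉ V)
    (j : ℕ) (hj1 : 1 ≤ j) (hjp : j + 1 ≤ p) (hpl : lam ^ j ∣ (p : O))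
    (C C' : O) (hC : C ≠ 0) (hC' : C' ≠ 0) (G₁ G₂ : F) (hG₁ : G₁ ≠ 0)
    (ρ₁ ρ₂ : F) (hρ₁ : ρ₁ ∈ V) (hρ₂ : ρ₂ ∈ V)
    (h : algebraMap O F C * G₁ ^ p * (1 + algebraMap O F lam ^ j * ρ₁)
      = algebraMap O F C' * G₂ ^ p * (1 + algebraMap O F lam ^ j * ρ₂)) :
    ∃ e : O, MemPi V lam (ρ₁ - ρ₂ - algebraMap O F e) := by
  obtain ⟨j', rfl⟩ : ∃ j', j = j' + 1 := ⟨j - 1, by omega⟩
  have hL0 := algebraMap_ne_zero_of_inv_notMem hL
  have hLV := constV lam
  set L := algebraMap O F lam with hLdef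
  -- the two units `1 + L ^ (j' + 1) * ρ`
  have hM₁ : MemPi V lam (L ^ (j' + 1) * ρ₁) :=
    ⟨L ^ j' * ρ₁, V.mul_mem (V.pow_mem hLV j') hρ₁, by rw [pow_succ]; ring⟩
  have hM₂ : MemPi V lam (L ^ (j' + 1) * ρ₂) :=
    ⟨L ^ j' * ρ₂, V.mul_mem (V.pow_mem hLV j') hρ₂, by rw [pow_succ]; ring⟩
  have hP₁0 := one_add_ne_zero_of_memPi hL hM₁
  have hP₂0 := one_add_ne_zero_of_memPi hL hM₂
  have hP₁i := inv_one_add_mem constV hloc hL hM₁
  have hP₂i := inv_one_add_mem constV hloc hL hM₂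
  have hP₁V : 1 + L ^ (j' + 1) * ρ₁ ∈ V :=
    V.add_mem V.one_mem (V.mul_mem (V.pow_mem hLV _) hρ₁)
  have hP₂V : 1 + L ^ (j' + 1) * ρ₂ ∈ V :=
    V.add_mem V.one_mem (V.mul_mem (V.pow_mem hLV _) hρ₂)
  -- the constants
  obtain ⟨m, ε, rfl⟩ := IsDiscreteValuationRing.eq_unit_mul_pow_irreducible hC hlam
  obtain ⟨m', ε', rfl⟩ := IsDiscreteValuationRing.eq_unit_mul_pow_irreducible hC' hlam
  have hε0 : algebraMap O F (ε : O) ≠ 0 := (map_ne_zero_iff _ hinj).mpr ε.ne_zero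
  have hε'0 : algebraMap O F (ε' : O) ≠ 0 := (map_ne_zero_iff _ hinj).mpr ε'.ne_zero
  have hεi := inv_algebraMap_unit_mem constV ε
  have hε'i := inv_algebraMap_unit_mem constV ε'
  have h' : algebraMap O F (ε : O) * L ^ m * G₁ ^ p * (1 + L ^ (j' + 1) * ρ₁)
      = algebraMap O F (ε' : O) * L ^ m' * G₂ ^ p * (1 + L ^ (j' + 1) * ρ₂) := by
    simpa only [map_mul, map_pow] using h
  have hG₂ : G₂ ≠ 0 := by
    rintro rfl
    rw [zero_pow hp.ne_zero, mul_zero, zero_mul] at h'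
    exact mul_ne_zero (mul_ne_zero (mul_ne_zero hε0 (pow_ne_zero m hL0)) (pow_ne_zero p hG₁))
      hP₁0 h'
  -- the `p`-th root of the unit
  have hden : algebraMap O F (ε : O) * (1 + L ^ (j' + 1) * ρ₁) ≠ 0 := mul_ne_zero hε0 hP₁0
  have hnum : algebraMap O F (ε' : O) * (1 + L ^ (j' + 1) * ρ₂) ≠ 0 := mul_ne_zero hε'0 hP₂0
  set u : F := (algebraMap O F (ε' : O) * (1 + L ^ (j' + 1) * ρ₂))
    / (algebraMap O F (ε : O) * (1 + L ^ (j' + 1) * ρ₁)) with hu
  have huV : u ∈ V := by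
    rw [hu, div_eq_mul_inv, mul_inv]
    exact V.mul_mem (V.mul_mem (constV _) hP₂V) (V.mul_mem hεi hP₁i)
  have huiV : u⁻¹ ∈ V := by
    rw [hu, inv_div, div_eq_mul_inv, mul_inv]
    exact V.mul_mem (V.mul_mem (constV _) hP₁V) (V.mul_mem hε'i hP₂i)
  have hu0 : u ≠ 0 := div_ne_zero hnum hden
  have key : (G₁ / G₂) ^ p * L ^ m = L ^ m' * u := by
    rw [hu, div_pow, div_mul_eq_mul_div, mul_div_assoc',
      div_eq_div_iff (pow_ne_zero p hG₂) hden]
    linear_combination h'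
  obtain ⟨G₀, hG₀, hG₀i, hG₀p⟩ := exists_unit_root constV hval hloc hL hp.pos m' m (G₁ / G₂) u
    (div_ne_zero hG₁ hG₂) huV huiV hu0 key
  have e₁ : G₀ ^ p * (algebraMap O F (ε : O) * (1 + L ^ (j' + 1) * ρ₁))
      = algebraMap O F (ε' : O) * (1 + L ^ (j' + 1) * ρ₂) := by
    rw [hG₀p, hu, div_mul_cancel₀ _ hden]
  -- the quotient of the unit constants is a `p`-th power times `1 + lam * e₁`
  obtain ⟨β, e₀, he₀⟩ := hperf ((ε' * ε⁻¹ : Oˣ) : O)
  have hβ : IsUnit β := by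
    by_contra hβ
    have h1 : β ∈ IsLocalRing.maximalIdeal O := (IsLocalRing.mem_maximalIdeal _).mpr hβ
    rw [hlam.maximalIdeal_eq, Ideal.mem_span_singleton] at h1
    have h2 : lam ∣ ((ε' * ε⁻¹ : Oˣ) : O) := by
      have h3 : ((ε' * ε⁻¹ : Oˣ) : O) = (((ε' * ε⁻¹ : Oˣ) : O) - β ^ p) + β ^ p := by ring
      rw [h3]
      exact dvd_add ⟨e₀, he₀⟩ (dvd_pow h1 hp.ne_zero)
    exact hlam.not_isUnit (isUnit_of_dvd_unit h2 (ε' * ε⁻¹ : Oˣ).isUnit)
  obtain ⟨βu, rfl⟩ := hβ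
  -- `ε' = βu ^ p * (1 + lam * e₁) * ε`
  have hεε : (ε' : O) = (βu : O) ^ p * (1 + lam * (e₀ * ((βu⁻¹ : Oˣ) : O) ^ p)) * (ε : O) := by
    have h1 : (βu : O) ^ p * ((βu⁻¹ : Oˣ) : O) ^ p = 1 := by
      rw [← mul_pow, Units.mul_inv, one_pow]
    have h2 : ((ε' * ε⁻¹ : Oˣ) : O) * (ε : O) = (ε' : O) := by
      rw [Units.val_mul, mul_assoc, Units.inv_mul, mul_one]
    rw [← h2]
    linear_combination (ε : O) * he₀ - (lam * e₀ * (ε : O)) * h1
  set e₁' : O := e₀ * ((βu⁻¹ : Oˣ) : O) ^ p with he₁'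
  have hεεF : algebraMap O F (ε' : O) = algebraMap O F (βu : O) ^ p
      * (1 + L * algebraMap O F e₁') * algebraMap O F (ε : O) := by
    rw [hεε]
    simp only [map_mul, map_pow, map_add, map_one, ← hLdef]
  have hβ0 : algebraMap O F (βu : O) ≠ 0 := (map_ne_zero_iff _ hinj).mpr βu.ne_zero
  have hββ : algebraMap O F ((βu⁻¹ : Oˣ) : O) * algebraMap O F (βu : O) = 1 := by
    rw [← map_mul, Units.inv_mul, map_one]
  -- `X := G₀ / β`
  set X : F := G₀ * algebraMap O F ((βu⁻¹ : Oˣ) : O) with hX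
  have hXV : X ∈ V := V.mul_mem hG₀ (constV _)
  have eqX : X ^ p * (1 + L ^ (j' + 1) * ρ₁)
      = (1 + L * algebraMap O F e₁') * (1 + L ^ (j' + 1) * ρ₂) := by
    have h1 : algebraMap O F ((βu⁻¹ : Oˣ) : O) ^ p * algebraMap O F (βu : O) ^ p = 1 := by
      rw [← mul_pow, hββ, one_pow]
    apply mul_left_cancel₀ hε0
    rw [hX, mul_pow]
    rw [hεεF] at e₁
    linear_combination (algebraMap O F ((βu⁻¹ : Oˣ) : O) ^ p) * e₁
      + (algebraMap O F (ε : O) * (1 + L * algebraMap O F e₁') * (1 + L ^ (j' + 1) * ρ₂)) * h1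
  -- `p` in `F`
  obtain ⟨q, hq⟩ := hpl
  have hpF : (p : F) = L ^ (j' + 1) * algebraMap O F q := by
    have h1 := congrArg (algebraMap O F) hq
    rw [map_natCast, map_mul, map_pow] at h1
    exact h1
  -- `X ≡ 1` modulo `lam V`
  obtain ⟨ρ, hρV, hρ⟩ := exists_add_pow_prime_mem V hp (x := X - 1) (y := 1)
    (V.sub_mem hXV V.one_mem) V.one_mem
  have hX1 : MemPi V lam ((X - 1) ^ p) := by
    refine ⟨algebraMap O F e₁' + L ^ j' * ρ₂ + algebraMap O F e₁' * L ^ (j' + 1) * ρ₂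
      - X ^ p * L ^ j' * ρ₁ - L ^ j' * algebraMap O F q * ((X - 1) * ρ), ?_, ?_⟩
    · refine V.sub_mem (V.sub_mem (V.add_mem (V.add_mem (constV _)
        (V.mul_mem (V.pow_mem hLV _) hρ₂))
        (V.mul_mem (V.mul_mem (constV _) (V.pow_mem hLV _)) hρ₂))
        (V.mul_mem (V.mul_mem (V.pow_mem hXV _) (V.pow_mem hLV _)) hρ₁))
        (V.mul_mem (V.mul_mem (V.pow_mem hLV _) (constV _))
          (V.mul_mem (V.sub_mem hXV V.one_mem) hρV))
    · rw [sub_add_cancel, one_pow, hpF] at hρ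
      linear_combination eqX - hρ
  obtain ⟨w, hw, hXw⟩ := memPi_of_pow hloc hL (V.sub_mem hXV V.one_mem) hX1
  have hXw' : X = 1 + L * w := by linear_combination hXw
  -- `X ^ p ≡ 1` modulo `lam ^ (j' + 2) V`
  obtain ⟨ρ', hρ'V, hρ'⟩ := exists_add_pow_prime_mem V hp (x := 1) (y := L * w) V.one_mem
    (V.mul_mem hLV hw)
  obtain ⟨d, hd⟩ := Nat.exists_eq_add_of_le hjp
  have hLp : L ^ p = L ^ (j' + 2) * L ^ d := by
    rw [← pow_add]
    congr 1
  have hXp : X ^ p = 1 + L ^ (j' + 2) * (L ^ d * w ^ p + algebraMap O F q * w * ρ') := by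
    rw [hXw', hρ', one_pow, mul_pow, hLp, hpF]
    ring
  set w' : F := L ^ d * w ^ p + algebraMap O F q * w * ρ' with hw'
  have hw'V : w' ∈ V :=
    V.add_mem (V.mul_mem (V.pow_mem hLV d) (V.pow_mem hw p))
      (V.mul_mem (V.mul_mem (constV q) hw) hρ'V)
  -- the constant `e₁'` is divisible by `lam ^ j'`
  set w'' : F := w' * (1 + L ^ (j' + 1) * ρ₁) - algebraMap O F e₁' * ρ₂ with hw''
  have hw''V : w'' ∈ V := V.sub_mem (V.mul_mem hw'V hP₁V) (V.mul_mem (constV _) hρ₂)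
  have he₁F : algebraMap O F e₁' = L ^ j' * (ρ₁ - ρ₂ + L * w'') := by
    apply mul_left_cancel₀ hL0
    rw [hXp] at eqX
    rw [hw'']
    linear_combination -eqX
  obtain ⟨e₂, he₂⟩ := pow_dvd_of_algebraMap_eq hlam hinj constV hL
    (V.add_mem (V.sub_mem hρ₁ hρ₂) (V.mul_mem hLV hw''V)) he₁F
  refine ⟨e₂, -w'', V.neg_mem hw''V, ?_⟩
  have h3 : L ^ j' * algebraMap O F e₂ = L ^ j' * (ρ₁ - ρ₂ + L * w'') := by
    rw [← he₁F, he₂, map_mul, map_pow]
  have h4 := mul_left_cancel₀ (pow_ne_zero j' hL0) h3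
  linear_combination -h4

/-- **The eigen-trick, leading terms.**  Let `τ` be a ring endomorphism of `F` preserving the
constants, with `τ lam = lam * (a + lam * v)` and `τ r ≡ r` modulo `lam V` on `V`.  Let `f ≠ 0`
satisfy `c₂ * τ f = c₁ * f ^ a * k ^ p`.  If `f = c * g ^ p * (1 + lam ^ j * r)` with `r ∈ V`,
`1 ≤ j`, `j + 1 ≤ p`, `lam ^ j ∣ p`, and `a ^ j - a` is a unit of `O`, then `r` is a constant
modulo `lam V`. -/
theorem eigen_lead (p : ℕ) (hp : p.Prime) (lam : O) (hlam : Irreducible lam)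
    (hperf : ∀ a : O, ∃ b : O, lam ∣ a - b ^ p)
    (hinj : Function.Injective (algebraMap O F))
    (V : Subring F) (constV : ∀ a : O, algebraMap O F a ∈ V)
    (hval : ∀ z : F, z ∈ V ∨ z⁻¹ ∈ V)
    (hloc : ∀ z : F, z ∈ V → z⁻¹ ∈ V ∨ MemPi V lam z)
    (hL : (algebraMap O F lam)⁻¹ ∉ V)
    (τ : F →+* F) (hτc : ∀ c : O, ∃ c' : O, τ (algebraMap O F c) = algebraMap O F c')
    (a : ℕ)
    (hτlam : ∃ v : F, v ∈ V ∧
      τ (algebraMap O F lam) = algebraMap O F lam * ((a : F) + algebraMap O F lam * v))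
    (hτV : ∀ r : F, r ∈ V → MemPi V lam (τ r - r))
    (j : ℕ) (hj1 : 1 ≤ j) (hjp : j + 1 ≤ p) (hpl : lam ^ j ∣ (p : O))
    (haj : IsUnit ((a : O) ^ j - (a : O)))
    (f : F) (hf : f ≠ 0)
    (heig : ∃ (c₁ c₂ : O) (k : F), c₁ ≠ 0 ∧ c₂ ≠ 0 ∧
      algebraMap O F c₂ * τ f = algebraMap O F c₁ * f ^ a * k ^ p)
    (c : O) (hc : c ≠ 0) (g r : F) (hr : r ∈ V)
    (hform : f = algebraMap O F c * g ^ p * (1 + algebraMap O F lam ^ j * r)) :
    ∃ κ : O, MemPi V lam (r - algebraMap O F κ) := by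
  obtain ⟨j', rfl⟩ : ∃ j', j = j' + 1 := ⟨j - 1, by omega⟩
  have hLV := constV lam
  obtain ⟨c₁, c₂, k, hc₁, hc₂, heig⟩ := heig
  obtain ⟨v₀, hv₀, hτL⟩ := hτlam
  obtain ⟨v₁, hv₁, hτr⟩ := hτV r hr
  obtain ⟨cτ, hcτ⟩ := hτc c
  set L := algebraMap O F lam with hLdef
  have hg : g ≠ 0 := by
    rintro rfl
    rw [zero_pow hp.ne_zero, mul_zero, zero_mul] at hform
    exact hf hform
  have hcF : algebraMap O F c ≠ 0 := (map_ne_zero_iff _ hinj).mpr hc
  have hcτ0 : cτ ≠ 0 := by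
    rintro rfl
    rw [map_zero] at hcτ
    exact hcF ((map_eq_zero τ).mp hcτ)
  have haV : (a : F) ∈ V := natCast_mem V a
  -- the form of `τ f`
  obtain ⟨v₂, hv₂, e₂⟩ := exists_add_mul_pow V (A := (a : F)) (L := L) (w := v₀) haV hLV hv₀
    (j' + 1)
  set v₃ : F := (a : F) ^ (j' + 1) * v₁ + v₂ * r + L * v₂ * v₁ with hv₃
  have hv₃V : v₃ ∈ V :=
    V.add_mem (V.add_mem (V.mul_mem (V.pow_mem haV _) hv₁) (V.mul_mem hv₂ hr))
      (V.mul_mem (V.mul_mem hLV hv₂) hv₁)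
  set ρ₁ : F := (a : F) ^ (j' + 1) * r + L * v₃ with hρ₁
  have hρ₁V : ρ₁ ∈ V := V.add_mem (V.mul_mem (V.pow_mem haV _) hr) (V.mul_mem hLV hv₃V)
  have hτf : τ f = algebraMap O F cτ * τ g ^ p * (1 + L ^ (j' + 1) * ρ₁) := by
    have hτr' : τ r = r + L * v₁ := by linear_combination hτr
    rw [hform, map_mul, map_mul, map_pow, map_add, map_one, map_mul, map_pow, hcτ, hτL, hτr',
      mul_pow, e₂, hρ₁, hv₃]
    ring
  -- the form of `f ^ a`
  obtain ⟨v₄, hv₄, e₄⟩ := exists_one_add_mul_pow V (M := L ^ (j' + 1)) (r := r)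
    (V.pow_mem hLV _) hr a
  set ρ₂ : F := (a : F) * r + L * (L ^ j' * v₄) with hρ₂
  have hρ₂V : ρ₂ ∈ V :=
    V.add_mem (V.mul_mem haV hr) (V.mul_mem hLV (V.mul_mem (V.pow_mem hLV _) hv₄))
  have hfa : f ^ a = algebraMap O F (c ^ a) * (g ^ a) ^ p * (1 + L ^ (j' + 1) * ρ₂) := by
    rw [hform, mul_pow, mul_pow, e₄, hρ₂, map_pow, ← pow_mul, ← pow_mul, mul_comm p a]
    ring
  -- compare
  have hcmp : algebraMap O F (c₂ * cτ) * τ g ^ p * (1 + L ^ (j' + 1) * ρ₁)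
      = algebraMap O F (c₁ * c ^ a) * (g ^ a * k) ^ p * (1 + L ^ (j' + 1) * ρ₂) := by
    rw [hτf, hfa] at heig
    rw [map_mul, map_mul, mul_pow]
    linear_combination heig
  obtain ⟨e, w, hw, he⟩ := cmp_two_forms p hp lam hlam hperf hinj V constV hval hloc hL (j' + 1)
    hj1 hjp hpl (c₂ * cτ) (c₁ * c ^ a) (mul_ne_zero hc₂ hcτ0) (mul_ne_zero hc₁ (pow_ne_zero a hc))
    (τ g) (g ^ a * k) ((map_ne_zero τ).mpr hg) ρ₁ ρ₂ hρ₁V hρ₂V hcmp
  -- divide by the unit `a ^ (j' + 1) - a`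
  obtain ⟨μ, hμ⟩ := haj.exists_left_inv
  have hμF : algebraMap O F μ * ((a : F) ^ (j' + 1) - (a : F)) = 1 := by
    have h1 := congrArg (algebraMap O F) hμ
    rw [map_mul, map_sub, map_pow, map_natCast, map_one] at h1
    exact h1
  refine ⟨μ * e, algebraMap O F μ * (w - v₃ + L ^ j' * v₄), ?_, ?_⟩
  · exact V.mul_mem (constV μ) (V.add_mem (V.sub_mem hw hv₃V) (V.mul_mem (V.pow_mem hLV _) hv₄))
  · rw [hρ₁, hρ₂] at he
    rw [map_mul]
    linear_combination (-r) * hμF + algebraMap O F μ * he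

/-- **The eigen-trick, one depth step**: depth `≥ j` ⟹ depth `≥ j + 1` along `V`
(`1 ≤ j`, `j + 1 ≤ p`, `lam ^ j ∣ p`, `a ^ j - a` a unit of `O`). -/
theorem eigen_step (p : ℕ) (hp : p.Prime) (lam : O) (hlam : Irreducible lam)
    (hperf : ∀ a : O, ∃ b : O, lam ∣ a - b ^ p)
    (hinj : Function.Injective (algebraMap O F))
    (V : Subring F) (constV : ∀ a : O, algebraMap O F a ∈ V)
    (hval : ∀ z : F, z ∈ V ∨ z⁻¹ ∈ V)
    (hloc : ∀ z : F, z ∈ V → z⁻¹ ∈ V ∨ MemPi V lam z)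
    (hL : (algebraMap O F lam)⁻¹ ∉ V)
    (τ : F →+* F) (hτc : ∀ c : O, ∃ c' : O, τ (algebraMap O F c) = algebraMap O F c')
    (a : ℕ)
    (hτlam : ∃ v : F, v ∈ V ∧
      τ (algebraMap O F lam) = algebraMap O F lam * ((a : F) + algebraMap O F lam * v))
    (hτV : ∀ r : F, r ∈ V → MemPi V lam (τ r - r))
    (j : ℕ) (hj1 : 1 ≤ j) (hjp : j + 1 ≤ p) (hpl : lam ^ j ∣ (p : O))
    (haj : IsUnit ((a : O) ^ j - (a : O)))
    (f : F) (hf : f ≠ 0)
    (heig : ∃ (c₁ c₂ : O) (k : F), c₁ ≠ 0 ∧ c₂ ≠ 0 ∧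
      algebraMap O F c₂ * τ f = algebraMap O F c₁ * f ^ a * k ^ p)
    (hD : ∃ c : O, c ≠ 0 ∧ DepthIn V p lam j f c) :
    ∃ c : O, c ≠ 0 ∧ DepthIn V p lam (j + 1) f c := by
  obtain ⟨c, hc, g, r, hr, hform⟩ := hD
  obtain ⟨κ, hκ⟩ := eigen_lead p hp lam hlam hperf hinj V constV hval hloc hL τ hτc a hτlam hτV
    j hj1 hjp hpl haj f hf heig c hc g r hr hform
  exact DepthIn.succ constV hlam.not_isUnit hj1 hc hform hκ

/-- **The eigen-trick, exit**: depth `≥ 2` ⟹ depth `≥ p` along `V`, when `lam ^ (p - 1) ∣ p` and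
`a ^ j - a` is a unit of `O` for `2 ≤ j < p`. -/
theorem eigen_depth (p : ℕ) (hp : p.Prime) (lam : O) (hlam : Irreducible lam)
    (hperf : ∀ a : O, ∃ b : O, lam ∣ a - b ^ p) (hpl : lam ^ (p - 1) ∣ (p : O))
    (hinj : Function.Injective (algebraMap O F))
    (V : Subring F) (constV : ∀ a : O, algebraMap O F a ∈ V)
    (hval : ∀ z : F, z ∈ V ∨ z⁻¹ ∈ V)
    (hloc : ∀ z : F, z ∈ V → z⁻¹ ∈ V ∨ MemPi V lam z)
    (hL : (algebraMap O F lam)⁻¹ ∉ V)
    (τ : F →+* F) (hτc : ∀ c : O, ∃ c' : O, τ (algebraMap O F c) = algebraMap O F c')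
    (a : ℕ)
    (hτlam : ∃ v : F, v ∈ V ∧
      τ (algebraMap O F lam) = algebraMap O F lam * ((a : F) + algebraMap O F lam * v))
    (hτV : ∀ r : F, r ∈ V → MemPi V lam (τ r - r))
    (haj : ∀ j : ℕ, 2 ≤ j → j < p → IsUnit ((a : O) ^ j - (a : O)))
    (f : F) (hf : f ≠ 0)
    (heig : ∃ (c₁ c₂ : O) (k : F), c₁ ≠ 0 ∧ c₂ ≠ 0 ∧
      algebraMap O F c₂ * τ f = algebraMap O F c₁ * f ^ a * k ^ p)
    (h2 : ∃ c : O, c ≠ 0 ∧ DepthIn V p lam 2 f c) :
    ∃ c : O, c ≠ 0 ∧ DepthIn V p lam p f c := by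
  have key : ∀ j : ℕ, 2 ≤ j → j ≤ p → ∃ c : O, c ≠ 0 ∧ DepthIn V p lam j f c := by
    intro j hj
    induction j, hj using Nat.le_induction with
    | base => intro _; exact h2
    | succ j hj ih =>
      intro hjp
      exact eigen_step p hp lam hlam hperf hinj V constV hval hloc hL τ hτc a hτlam hτV j
        (by omega) hjp ((pow_dvd_pow lam (by omega)).trans hpl) (haj j hj (by omega)) f hf heig
        (ih (by omega))
  exact key p hp.two_le le_rfl

end Main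

/-! ### Primitive roots -/

section PrimitiveRoot

variable {O : Type*} [CommRing O] [IsLocalRing O]

/-- For a primitive root `a` modulo `p` and `2 ≤ j < p`, the integer `a ^ j - a` is a unit of
every local ring in which `p` is not a unit. -/
theorem isUnit_pow_sub_of_orderOf {p : ℕ} (hp : p.Prime) (hpO : ¬ IsUnit (p : O)) {a : ℕ}
    (ha : orderOf (a : ZMod p) = p - 1) {j : ℕ} (hj2 : 2 ≤ j) (hjp : j < p) :
    IsUnit ((a : O) ^ j - (a : O)) := by
  have : Fact p.Prime := ⟨hp⟩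
  have hnd : ¬ (p : ℤ) ∣ (a : ℤ) ^ j - (a : ℤ) := by
    intro hd
    have h1 : (((a : ℤ) ^ j - (a : ℤ) : ℤ) : ZMod p) = 0 :=
      (ZMod.intCast_zmod_eq_zero_iff_dvd _ p).mpr hd
    push_cast at h1
    have hx1 : (a : ZMod p) ^ (p - 1) = 1 := by
      rw [← ha]
      exact pow_orderOf_eq_one _
    have hx0 : (a : ZMod p) ≠ 0 := by
      intro h0
      rw [h0, zero_pow (by have := hp.two_le; omega)] at hx1
      exact zero_ne_one hx1
    have h2 : (a : ZMod p) ^ (j - 1) = 1 := by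
      apply mul_left_cancel₀ hx0
      rw [mul_one, ← pow_succ', Nat.sub_add_cancel (by omega)]
      exact sub_eq_zero.mp h1
    have h3 : p - 1 ∣ j - 1 := by
      rw [← ha]
      exact orderOf_dvd_of_pow_eq_one h2
    have h4 := Nat.le_of_dvd (by omega) h3
    omega
  have hcop : IsCoprime ((a : ℤ) ^ j - (a : ℤ)) (p : ℤ) :=
    ((Nat.prime_iff_prime_int.mp hp).coprime_iff_not_dvd.mpr hnd).symm
  obtain ⟨s, t, hst⟩ := hcop
  have h5 : ((s : O)) * ((a : O) ^ j - (a : O)) = 1 - (t : O) * (p : O) := by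
    have h6 := congrArg (fun z : ℤ => (z : O)) hst
    push_cast at h6
    linear_combination h6
  have h7 : IsUnit (1 - (t : O) * (p : O)) := by
    apply IsLocalRing.isUnit_one_sub_self_of_mem_nonunits
    rw [mem_nonunits_iff]
    intro hu
    exact hpO (isUnit_of_mul_isUnit_right hu)
  rw [← h5] at h7
  exact isUnit_of_mul_isUnit_right h7

end PrimitiveRoot

section Exit

variable {O : Type*} [CommRing O] [IsDomain O] [IsDiscreteValuationRing O]
  {F : Type*} [Field F] [Algebra O F]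

/-- **The eigen-trick, exit for a primitive root `a` modulo `p`**: depth `≥ 2` ⟹ depth `≥ p`
along `V`. -/
theorem eigen_depth_of_orderOf (p : ℕ) (hp : p.Prime) (lam : O) (hlam : Irreducible lam)
    (hperf : ∀ a : O, ∃ b : O, lam ∣ a - b ^ p) (hpl : lam ^ (p - 1) ∣ (p : O))
    (hinj : Function.Injective (algebraMap O F))
    (V : Subring F) (constV : ∀ a : O, algebraMap O F a ∈ V)
    (hval : ∀ z : F, z ∈ V ∨ z⁻¹ ∈ V)
    (hloc : ∀ z : F, z ∈ V → z⁻¹ ∈ V ∨ MemPi V lam z)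
    (hL : (algebraMap O F lam)⁻¹ ∉ V)
    (τ : F →+* F) (hτc : ∀ c : O, ∃ c' : O, τ (algebraMap O F c) = algebraMap O F c')
    (a : ℕ) (ha : orderOf (a : ZMod p) = p - 1)
    (hτlam : ∃ v : F, v ∈ V ∧
      τ (algebraMap O F lam) = algebraMap O F lam * ((a : F) + algebraMap O F lam * v))
    (hτV : ∀ r : F, r ∈ V → MemPi V lam (τ r - r))
    (f : F) (hf : f ≠ 0)
    (heig : ∃ (c₁ c₂ : O) (k : F), c₁ ≠ 0 ∧ c₂ ≠ 0 ∧
      algebraMap O F c₂ * τ f = algebraMap O F c₁ * f ^ a * k ^ p)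
    (h2 : ∃ c : O, c ≠ 0 ∧ DepthIn V p lam 2 f c) :
    ∃ c : O, c ≠ 0 ∧ DepthIn V p lam p f c := by
  have hpO : ¬ IsUnit (p : O) := by
    intro hu
    have h1 : lam ∣ (p : O) :=
      (dvd_pow_self lam (by have := hp.two_le; omega : p - 1 ≠ 0)).trans hpl
    exact hlam.not_isUnit (isUnit_of_dvd_unit h1 hu)
  exact eigen_depth p hp lam hlam hperf hpl hinj V constV hval hloc hL τ hτc a hτlam hτV
    (fun j hj2 hjp => isUnit_pow_sub_of_orderOf hp hpO ha hj2 hjp) f hf heig h2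

end Exit

end Fermat.Agent.S33.Geo.EigenDepth
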