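/-
S33 (ordinary at `p ∥ N`), strand GEO, Stage B (helper140): the hole `?FunI`, closed.

`funIStatement_of_four` : `FunLevel.FunIStatement M p` for every level `M` with `4 ∣ M`;
`funIStatement`         : `FunLevel.FunIStatement (N' * 2 * 2) p`, the first hole of
                          `S33/Exit.result_of_fun`.

`FunIBlocks.funIStatement_of_blocks` at the local blocks of the two-chart model of
`LE (M p) K` over `OE A K`: the points of the chart of `U = α u₄` are
`ModelInstU.block_inl_u4_OE` (helper120: node or smooth point), the points over `u₄ = ∞` are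
`ModelInstInf.block_inr_u4_OE` (helper129: smooth points).
-/
import Mathlib
import Fermat.Agent.S33.Geo.FunIBlocks
import Fermat.Agent.S33.Geo.ModelChart
import Fermat.Agent.S33.Geo.ModelInstU
import Fermat.Agent.S33.Geo.ModelInstInf

set_option autoImplicit false
set_option linter.unusedSectionVars false
set_option linter.unusedVariables false
set_option linter.style.haveILetI false
set_option synthInstance.maxHeartbeats 400000
set_option maxHeartbeats 1000000

open ModularCurve

noncomputable section

namespace Fermat.Agent.S33.Geo.FunIClose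

open Fermat.Agent.S18.K1Defs Fermat.Agent.S18.K1Main Fermat.Agent.S30
open Fermat.Agent.S34.TwoPrimesRank Fermat.Agent.S34.HauptU.Plug Fermat.Agent.S36.Haupt4

local notation "Qb" => AlgebraicClosure ℚ

/-- **The hole `?FunI` at every level `M` with `4 ∣ M`** (no hypothesis left). -/
theorem funIStatement_of_four (M p : ℕ) [NeZero M] [NeZero p] (h4 : 4 ∣ M) :
    Fermat.Agent.S33.Geo.FunLevel.FunIStatement M p := by
  refine Fermat.Agent.S33.Geo.FunIBlocks.funIStatement_of_blocks M p h4 ?_
  intro hp hodd hpM A hA K _ _ z hz hzK hπ
  letI := algebraOL (OE A K) K (LE (M * p) K)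
  intro y
  rcases y with y | y
  · exact Fermat.Agent.S33.Geo.ModelInstU.block_inl_u4_OE A M p hp hodd hpM h4 hA K z hz hzK
      hπ p _ (fun f h => Fermat.Agent.S33.Geo.ModelChart.horIdeal_of_horChart h.1) y
  · exact Or.inr
      (Fermat.Agent.S33.Geo.ModelInstInf.block_inr_u4_OE A M p hp hodd hpM h4 hA K z hz hzK
        hπ y)

/-- **The hole `?FunI` of `S33/Exit.result_of_fun`**: `FunIStatement` at the auxiliary level
`N' * 2 * 2`. -/
theorem funIStatement (N' p : ℕ) [NeZero N'] [NeZero p] :
    Fermat.Agent.S33.Geo.FunLevel.FunIStatement (N' * 2 * 2) p :=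
  funIStatement_of_four (N' * 2 * 2) p ⟨N', by ring⟩

end Fermat.Agent.S33.Geo.FunIClose
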