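/-
S33 (ordinary at `p ∥ N`), strand GEO, Stage B, row B5 (helper140): the hole `?FunI` from its two
E-level leaves.

`FunLevel.FunIStatement (N' * 2 * 2) p` (the first of the two holes of `S33/Exit.result_of_fun`)
from

* `hB3` (row B3, the model instance): for every base field `K` of the block of the landed
  `S44/L` instances, a model `Model.IsModelI p p (VB ..) R On Hor` of `LE (M p) K` over `OE A K`
  on the two Gauss rings `V∞`, `V0` (`GaussRings.VB`), with `Hor` the horizontal hypothesis on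
  the two charts of `U = α u₄`, covering the charts in the cusp form (`Model.CoversCusp`);
* `hB4` (row B4, the unit instance): for every `A` over `p` and every swap `w` a finite set `S₀`
  of inertia-fixed numbers such that over every `K` of the geometric class
  `GeomClass A M S₀ K`, a nonzero `y ∈ LE (M p) K` which is `1`-trivial at the Gauss valuation
  together with `w y` has depth `≥ 1` along `V∞` and `V0`;

through `FunI.funIE_of_model` (B5), `FunDesc.funIStatement_of_funIE` (DESC), and the accessors of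
`S36/GeomClass`.
-/
import Mathlib
import Fermat.Agent.S33.Geo.FunI
import Fermat.Agent.S33.Geo.GaussRings

set_option autoImplicit false
set_option linter.unusedSectionVars false
set_option linter.unusedVariables false
set_option linter.style.haveILetI false
set_option synthInstance.maxHeartbeats 400000
set_option maxHeartbeats 1000000

open ModularCurve

noncomputable section

namespace Fermat.Agent.S33.Geo.FunIFinal

open Fermat.Agent.S18.K1Defs Fermat.Agent.S18.K1Main Fermat.Agent.S30 Fermat.Agent.S30.E4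
open Fermat.Agent.S30.Producer
open Fermat.Agent.S34.TwoPrimesRank Fermat.Agent.S34.HauptU.Plug Fermat.Agent.S36.Haupt4
open Fermat.Agent.S36.HorizAdapter Fermat.Agent.S36.GeomClass
open Fermat.Agent.S33.Geo.Contract Fermat.Agent.S33.Geo.GaussRings

local notation "Qb" => AlgebraicClosure ℚ

/-- **`FunDesc.FunIEStatement (N' * 2 * 2) p` from the model instance (B3) and the unit instance
(B4).** -/
theorem funIEStatement_of_leaves {N' p : ℕ} [NeZero N'] [NeZero p]
    (hB3 : ∀ (hp : p.Prime) (hodd : p ≠ 2) (hpM : ¬ p ∣ N' * 2 * 2) (h4 : 4 ∣ N' * 2 * 2)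
        (A : ValuationSubring Qb) (hA : A.LiesOverPrime p)
        (K : IntermediateField ℚ Qb) [FiniteDimensional ℚ K] [IsDiscreteValuationRing (OE A K)]
        (z : Qb) (hz : IsPrimitiveRoot z (N' * 2 * 2)) (hzK : z ∈ K)
        (hπ : Irreducible ((p : ℕ) : OE A K)),
        letI := algebraOL (OE A K) K (LE (N' * 2 * 2 * p) K)
        ∃ (Y : Type) (R : Y → Subring (LE (N' * 2 * 2 * p) K)) (On : Y → Bool → Prop),
          Fermat.Agent.S33.Geo.Model.IsModelI p ((p : ℕ) : OE A K)
            (VB (N' * 2 * 2) p K (OE A K) hp hpM) R On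
            (fun f => Horiz ((p : ℕ) : OE A K) p
                (alphaHom (N' * 2 * 2) p K (u4E (N' * 2 * 2) K h4)) f ∧
              Horiz ((p : ℕ) : OE A K) p
                (alphaHom (N' * 2 * 2) p K (u4E (N' * 2 * 2) K h4))⁻¹ f) ∧
          Fermat.Agent.S33.Geo.Model.CoversCusp ((p : ℕ) : OE A K)
            (alphaHom (N' * 2 * 2) p K (u4E (N' * 2 * 2) K h4)) R)
    (hB4 : ∀ (hp : p.Prime) (hodd : p ≠ 2) (hpM : ¬ p ∣ N' * 2 * 2)
        (A : ValuationSubring Qb) (hA : A.LiesOverPrime p)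
        (w : FN (N' * 2 * 2 * p) ≃ₐ[Qb] FN (N' * 2 * 2 * p)), IsSwap (N' * 2 * 2) p w →
        ∃ S₀ : Finset Qb, (∀ s ∈ S₀, ∀ τ ∈ A.inertiaSubgroupIn ℚ, τ s = s) ∧
          ∀ (K : IntermediateField ℚ Qb), GeomClass A (N' * 2 * 2) S₀ K →
            ∀ [FiniteDimensional ℚ K] [IsDiscreteValuationRing (OE A K)],
            letI := algebraOL (OE A K) K (LE (N' * 2 * 2 * p) K)
            ∀ y : LE (N' * 2 * 2 * p) K, y ≠ 0 →
              TrivAt (N' * 2 * 2 * p) A p 1 (Fermat.Agent.S36.InvFun.upF (N' * 2 * 2 * p) K y) →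
              TrivAt (N' * 2 * 2 * p) A p 1
                (w (Fermat.Agent.S36.InvFun.upF (N' * 2 * 2 * p) K y)) →
              ∀ W : Bool, ∃ c : OE A K, c ≠ 0 ∧
                Fermat.Agent.S33.Geo.Top.DepthIn (VB (N' * 2 * 2) p K (OE A K) hp hpM W) p
                  ((p : ℕ) : OE A K) 1 y c) :
    Fermat.Agent.S33.Geo.FunDesc.FunIEStatement (N' * 2 * 2) p := by
  intro hp hp2 hpM A hA w hw
  obtain ⟨S₀, hS₀, hunit⟩ := hB4 hp hp2 hpM A hA w hw
  refine ⟨S₀, hS₀, fun K hK => ?_⟩
  haveI : FiniteDimensional ℚ K := hK.finiteDimensional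
  haveI : IsDiscreteValuationRing (OE A K) := hK.isDiscreteValuationRing hp hA
  obtain ⟨z, hzK, hz⟩ := hK.exists_primitiveRoot
  have hπ : Irreducible ((p : ℕ) : OE A K) := hK.irreducible_natCast hp hA
  have h4 : 4 ∣ N' * 2 * 2 := ⟨N', by ring⟩
  have hp3 : 3 ≤ p := by
    have := hp.two_le
    omega
  obtain ⟨Y, R, On, hD, hcov⟩ := hB3 hp hp2 hpM h4 A hA K z hz hzK hπ
  exact Fermat.Agent.S33.Geo.FunI.funIE_of_model A (N' * 2 * 2) p hp hp3 hpM h4 hA K z hz hzK hπ
    (fun x => w x) (VB (N' * 2 * 2) p K (OE A K) hp hpM) R On _ (fun f h1 h2 => ⟨h1, h2⟩) hD hcov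
    (fun y hy ht htw W => hunit K hK y hy ht htw W)

/-- **The hole `?FunI` of `S33/Exit.result_of_fun` from the two E-level leaves B3 and B4.** -/
theorem funIStatement_of_leaves {N' p : ℕ} [NeZero N'] [NeZero p]
    (hB3 : ∀ (hp : p.Prime) (hodd : p ≠ 2) (hpM : ¬ p ∣ N' * 2 * 2) (h4 : 4 ∣ N' * 2 * 2)
        (A : ValuationSubring Qb) (hA : A.LiesOverPrime p)
        (K : IntermediateField ℚ Qb) [FiniteDimensional ℚ K] [IsDiscreteValuationRing (OE A K)]
        (z : Qb) (hz : IsPrimitiveRoot z (N' * 2 * 2)) (hzK : z ∈ K)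
        (hπ : Irreducible ((p : ℕ) : OE A K)),
        letI := algebraOL (OE A K) K (LE (N' * 2 * 2 * p) K)
        ∃ (Y : Type) (R : Y → Subring (LE (N' * 2 * 2 * p) K)) (On : Y → Bool → Prop),
          Fermat.Agent.S33.Geo.Model.IsModelI p ((p : ℕ) : OE A K)
            (VB (N' * 2 * 2) p K (OE A K) hp hpM) R On
            (fun f => Horiz ((p : ℕ) : OE A K) p
                (alphaHom (N' * 2 * 2) p K (u4E (N' * 2 * 2) K h4)) f ∧
              Horiz ((p : ℕ) : OE A K) p
                (alphaHom (N' * 2 * 2) p K (u4E (N' * 2 * 2) K h4))⁻¹ f) ∧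
          Fermat.Agent.S33.Geo.Model.CoversCusp ((p : ℕ) : OE A K)
            (alphaHom (N' * 2 * 2) p K (u4E (N' * 2 * 2) K h4)) R)
    (hB4 : ∀ (hp : p.Prime) (hodd : p ≠ 2) (hpM : ¬ p ∣ N' * 2 * 2)
        (A : ValuationSubring Qb) (hA : A.LiesOverPrime p)
        (w : FN (N' * 2 * 2 * p) ≃ₐ[Qb] FN (N' * 2 * 2 * p)), IsSwap (N' * 2 * 2) p w →
        ∃ S₀ : Finset Qb, (∀ s ∈ S₀, ∀ τ ∈ A.inertiaSubgroupIn ℚ, τ s = s) ∧
          ∀ (K : IntermediateField ℚ Qb), GeomClass A (N' * 2 * 2) S₀ K →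
            ∀ [FiniteDimensional ℚ K] [IsDiscreteValuationRing (OE A K)],
            letI := algebraOL (OE A K) K (LE (N' * 2 * 2 * p) K)
            ∀ y : LE (N' * 2 * 2 * p) K, y ≠ 0 →
              TrivAt (N' * 2 * 2 * p) A p 1 (Fermat.Agent.S36.InvFun.upF (N' * 2 * 2 * p) K y) →
              TrivAt (N' * 2 * 2 * p) A p 1
                (w (Fermat.Agent.S36.InvFun.upF (N' * 2 * 2 * p) K y)) →
              ∀ W : Bool, ∃ c : OE A K, c ≠ 0 ∧
                Fermat.Agent.S33.Geo.Top.DepthIn (VB (N' * 2 * 2) p K (OE A K) hp hpM W) p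
                  ((p : ℕ) : OE A K) 1 y c) :
    Fermat.Agent.S33.Geo.FunLevel.FunIStatement (N' * 2 * 2) p :=
  Fermat.Agent.S33.Geo.FunDesc.funIStatement_of_funIE (funIEStatement_of_leaves hB3 hB4)

end Fermat.Agent.S33.Geo.FunIFinal
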