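import Mathlib
import Fermat.Agent.S44.L.NZ.ExitCore
import Fermat.Agent.S44.L.PthPoint
import Fermat.Agent.S44.L.AltChartRed
import Fermat.Agent.S36.Haupt4.LevelQ

/-!
# S33 GEO, Stage B, row B5 (c): the exit glue of `FunI`

`E ⊆ ℚ̄` a subfield with `O_E = A ∩ E` a discrete valuation ring in which `p` is a PRIME element
(the unramified base of the geometric class), `F = LE N E`, `U ∈ F` a coordinate, `H ∈ F`.

* `exists_upF_pow_of_powAt_unr` : the unramified twin of
  `S44/L/NZ/ExitCore.exists_upF_pow_of_powAt`: reduced fibres at `p` of the two charts of `U`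
  and the datum `PthPoint.PowAt` for `H` at every maximal ideal over `p` of the two chart rings
  give a `p`-th root of `H` over `ℚ̄` (`ExitCore.exists_upF_pow_of_exit` +
  `PthPoint.exists_pow_eq_of_pointwise`; the "new constants" branch is inside the landed Kummer
  field provider, no hypothesis on constants is left).
* `exists_const_mul_pow_of_powAt` : the same at the level `M p`, `U = α u₄`, over `O_E = OE A K`
  for `K` with a primitive `M`-th root of unity, with the reduced fibres discharged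
  (`AltChartRed.hred0_OE`, `hredinf_OE`), in the exit shape of `FunDesc.FunIE`:
  `PowAt` for `f / c` (`c ∈ O_E`, `c ≠ 0`: the conclusion of `TopExit.exists_const_powAt`) gives
  `upF f = c' * k ^ p` with `c' ∈ ℚ̄`, `k ∈ FN (M p)`.
-/

set_option autoImplicit false
set_option linter.unusedSectionVars false
set_option linter.unusedVariables false
set_option linter.style.haveILetI false
set_option synthInstance.maxHeartbeats 400000
set_option maxHeartbeats 1000000

open ModularCurve

noncomputable section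

namespace Fermat.Agent.S33.Geo.FunIGlue

open Fermat.Agent.S18.K1Defs Fermat.Agent.S18.K1Main Fermat.Agent.S30 Fermat.Agent.S30.E4
open Fermat.Agent.S34.TwoPrimesRank Fermat.Agent.S36.Haupt4
open Fermat.Agent.S44.L Fermat.Agent.S44.L.NZ Fermat.Agent.S34.Descend

local notation "Qb" => AlgebraicClosure ℚ

/-- **The unramified exit over `ℚ̄`.**  `p` a prime element of `O_E`, reduced fibres at `p` of
the two charts of the coordinate `U`, and the datum `PthPoint.PowAt` for `H` at every maximal
ideal over `p` of the two chart rings: `H` is a `p`-th power in `Fb N`. -/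
theorem exists_upF_pow_of_powAt_unr (N : ℕ) [NeZero N] (A : ValuationSubring Qb)
    (E : IntermediateField ℚ Qb) [IsDiscreteValuationRing (OE A E)] (p : ℕ) (hp : p.Prime)
    (hp3 : 3 ≤ p) (hπ : Prime ((p : ℕ) : OE A E))
    (U : LE N E) (hU : Transcendental E U)
    [FiniteDimensional (IntermediateField.adjoin E {U}) (LE N E)] (H : LE N E) :
    letI := algebraOL (OE A E) E (LE N E)
    (∀ x : LE N E, IsIntegral (Algebra.adjoin (OE A E) ({U} : Set (LE N E))) x →
      IsIntegral (Algebra.adjoin (OE A E) ({U} : Set (LE N E)))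
        (x ^ p / ((p : ℕ) : LE N E)) →
      IsIntegral (Algebra.adjoin (OE A E) ({U} : Set (LE N E)))
        (x / ((p : ℕ) : LE N E))) →
    (∀ x : LE N E, IsIntegral (Algebra.adjoin (OE A E) ({U⁻¹} : Set (LE N E))) x →
      IsIntegral (Algebra.adjoin (OE A E) ({U⁻¹} : Set (LE N E)))
        (x ^ p / ((p : ℕ) : LE N E)) →
      IsIntegral (Algebra.adjoin (OE A E) ({U⁻¹} : Set (LE N E)))
        (x / ((p : ℕ) : LE N E))) →
    (∀ 𝔪 : Ideal (integralClosure (Algebra.adjoin (OE A E) ({U} : Set (LE N E))) (LE N E)),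
      𝔪.IsMaximal →
      (p : integralClosure (Algebra.adjoin (OE A E) ({U} : Set (LE N E))) (LE N E)) ∈ 𝔪 →
      PthPoint.PowAt (Algebra.adjoin (OE A E) ({U} : Set (LE N E))) p H 𝔪) →
    (∀ 𝔪 : Ideal (integralClosure (Algebra.adjoin (OE A E) ({U⁻¹} : Set (LE N E))) (LE N E)),
      𝔪.IsMaximal →
      (p : integralClosure (Algebra.adjoin (OE A E) ({U⁻¹} : Set (LE N E))) (LE N E)) ∈ 𝔪 →
      PthPoint.PowAt (Algebra.adjoin (OE A E) ({U⁻¹} : Set (LE N E))) p H 𝔪) →
    ∃ G : Fb N, upF N E H = G ^ p := by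
  letI := algebraOL (OE A E) E (LE N E)
  haveI := isScalarTower_OL (OE A E) E (LE N E)
  intro hred0 hredinf h0 hinf
  have hU0 : U ≠ 0 := fun h => hU (h ▸ isAlgebraic_zero)
  refine ExitCore.exists_upF_pow_of_exit N A E p hp U hU H ?_
  intro L _ _ _ _ hinjL hOL hfin z hz
  haveI := hfin
  exact PthPoint.exists_pow_eq_of_pointwise p hp hp3 hπ hinjL hOL U hU0
    hred0 hredinf H z hz h0 hinf

/-- **The exit glue of `FunI` at the level `M p`** (`4 ∣ M`, `p ∤ M` an odd prime, `p` a prime
element of `OE A K`, `ζ_M ∈ K`): if `f / c` (`c ∈ OE A K`, `c ≠ 0`) has the datum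
`PthPoint.PowAt` at every maximal ideal over `p` of the two chart rings of `U = α u₄` and
`U⁻¹`, then `upF f` is a constant of `ℚ̄` times a `p`-th power. -/
theorem exists_const_mul_pow_of_powAt (A : ValuationSubring Qb) (M p : ℕ) [NeZero M] [NeZero p]
    (hp : p.Prime) (hp3 : 3 ≤ p) (hpM : ¬ p ∣ M) (h4 : 4 ∣ M) (hA : A.LiesOverPrime p)
    (K : IntermediateField ℚ Qb) [FiniteDimensional ℚ K] [IsDiscreteValuationRing (OE A K)]
    (z : Qb) (hz : IsPrimitiveRoot z M) (hzK : z ∈ K)
    (hπ : Irreducible ((p : ℕ) : OE A K)) (f : LE (M * p) K) (c : OE A K) (hc : c ≠ 0) :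
    letI := algebraOL (OE A K) K (LE (M * p) K)
    ((∀ 𝔪 : Ideal (integralClosure (Algebra.adjoin (OE A K)
          ({alphaHom M p K (u4E M K h4)} : Set (LE (M * p) K))) (LE (M * p) K)),
        𝔪.IsMaximal →
        ((p : ℕ) : integralClosure (Algebra.adjoin (OE A K)
          ({alphaHom M p K (u4E M K h4)} : Set (LE (M * p) K))) (LE (M * p) K)) ∈ 𝔪 →
        PthPoint.PowAt (Algebra.adjoin (OE A K)
          ({alphaHom M p K (u4E M K h4)} : Set (LE (M * p) K))) p
          (f / algebraMap (OE A K) (LE (M * p) K) c) 𝔪) ∧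
      (∀ 𝔪 : Ideal (integralClosure (Algebra.adjoin (OE A K)
          ({(alphaHom M p K (u4E M K h4))⁻¹} : Set (LE (M * p) K))) (LE (M * p) K)),
        𝔪.IsMaximal →
        ((p : ℕ) : integralClosure (Algebra.adjoin (OE A K)
          ({(alphaHom M p K (u4E M K h4))⁻¹} : Set (LE (M * p) K))) (LE (M * p) K)) ∈ 𝔪 →
        PthPoint.PowAt (Algebra.adjoin (OE A K)
          ({(alphaHom M p K (u4E M K h4))⁻¹} : Set (LE (M * p) K))) p
          (f / algebraMap (OE A K) (LE (M * p) K) c) 𝔪)) →
    ∃ (c' : Qb) (k : Fb (M * p)),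
      Fermat.Agent.S36.InvFun.upF (M * p) K f = algebraMap Qb (Fb (M * p)) c' * k ^ p := by
  letI := algebraOL (OE A K) K (LE (M * p) K)
  haveI := isScalarTower_OL (OE A K) K (LE (M * p) K)
  rintro ⟨h0, hinf⟩
  have hodd : p ≠ 2 := by omega
  haveI := LevelQ.finiteDimensional_alpha_u4E M p K h4
  have hcast : algebraMap (OE A K) (LE (M * p) K) ((p : ℕ) : OE A K) = ((p : ℕ) : LE (M * p) K) :=
    map_natCast _ p
  have hred0 := AltChartRed.hred0_OE A M p hp hodd hpM h4 hA K z hz hzK ((p : ℕ) : OE A K) hπ p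
  have hredinf := AltChartRed.hredinf_OE A M p hp hodd hpM h4 hA K z hz hzK
    ((p : ℕ) : OE A K) hπ p
  rw [hcast] at hred0 hredinf
  obtain ⟨G, hG⟩ := exists_upF_pow_of_powAt_unr (M * p) A K p hp hp3 hπ.prime
    (alphaHom M p K (u4E M K h4)) (LevelQ.transcendental_alpha_u4E M p K h4)
    (f / algebraMap (OE A K) (LE (M * p) K) c) hred0 hredinf h0 hinf
  have hcK : algebraMap (OE A K) (LE (M * p) K) c = algebraMap K (LE (M * p) K) (c : K) :=
    IsScalarTower.algebraMap_apply (OE A K) K (LE (M * p) K) c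
  have hc0 : algebraMap (OE A K) (LE (M * p) K) c ≠ 0 := by
    rw [hcK]
    exact (_root_.map_ne_zero _).mpr (fun h => hc (Subtype.ext h))
  refine ⟨((c : K) : Qb), G, ?_⟩
  have h1 : f = algebraMap (OE A K) (LE (M * p) K) c *
      (f / algebraMap (OE A K) (LE (M * p) K) c) := by
    field_simp
  have h2 := congrArg (upF (M * p) K) h1
  rw [map_mul, hG, hcK, upF_algebraMap] at h2
  rw [ExitCore.invFun_upF_eq]
  exact h2

end Fermat.Agent.S33.Geo.FunIGlue
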