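import Mathlib

/-!
# S33 (GEO, COV'), row C8: the level-free core of the final assembly

`F` is the cover field (over the constant field `k = Frac O`), `Ω` an ambient field (the
`q`-series over `ℚ̄` at the call), `S` a subfield of `Ω` (the geometric cover field) containing
`F` and the elements of `Ω` algebraic over `k`, together with their `p`-th roots.

`hexit` is the conclusion of the exit of a model (`ModelExitI.modelI_exit` /
`ModelExit.model_exit`) at the ambient field `Ω`: for every `p`-th root `z` of `f / c`, either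
`f = c * g ^ p` in `F`, or `z` lies in `F(x)` with `x` algebraic over `k`.

Conclusion: if `X ^ p = f * H ^ p` with `H ∈ S`, `H ≠ 0`, then `X ^ p` is the `p`-th power of
an element of `S`.
-/

set_option autoImplicit false

namespace Fermat.Agent.S33.Geo.FunII0Core

/-- **The level-free core of row C8.** -/
theorem exists_root_of_exit {O k F Ω : Type*} [CommRing O] [Field k] [Field F] [Field Ω]
    [Algebra O k] [Algebra O F] [Algebra F Ω] [Algebra O Ω] [IsScalarTower O F Ω]
    [Algebra k Ω] [IsScalarTower O k Ω]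
    (p : ℕ) (hp : p ≠ 0) (f : F) (c : O) (hc : algebraMap O Ω c ≠ 0)
    (hexit : ∀ z : Ω, z ^ p = algebraMap F Ω (f / algebraMap O F c) →
      (∃ g : F, f = algebraMap O F c * g ^ p) ∨
        ∃ x : Ω, IsAlgebraic k x ∧ z ∈ IntermediateField.adjoin F {x})
    (S : Subfield Ω) (hFS : ∀ a : F, algebraMap F Ω a ∈ S)
    (halg : ∀ x : Ω, IsAlgebraic k x → x ∈ S ∧ ∃ d ∈ S, d ^ p = x)
    (X H : Ω) (hH : H ∈ S) (hH0 : H ≠ 0) (hX : X ^ p = algebraMap F Ω f * H ^ p) :
    ∃ e ∈ S, X ^ p = e ^ p := by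
  have hcalg : IsAlgebraic k (algebraMap O Ω c) := by
    rw [IsScalarTower.algebraMap_apply O k Ω]
    exact isAlgebraic_algebraMap _
  obtain ⟨-, d, hdS, hd⟩ := halg _ hcalg
  have hd0 : d ≠ 0 := by
    rintro rfl
    rw [zero_pow hp] at hd
    exact hc hd.symm
  have hz : (X * H⁻¹ * d⁻¹) ^ p = algebraMap F Ω (f / algebraMap O F c) := by
    rw [mul_pow, mul_pow, hX, map_div₀, ← IsScalarTower.algebraMap_apply O F Ω, inv_pow, inv_pow,
      hd, mul_assoc (algebraMap F Ω f), mul_inv_cancel₀ (pow_ne_zero p hH0), mul_one,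
      div_eq_mul_inv]
  rcases hexit _ hz with ⟨g, hg⟩ | ⟨x, hx, hzx⟩
  · refine ⟨d * algebraMap F Ω g * H, mul_mem (mul_mem hdS (hFS g)) hH, ?_⟩
    rw [hX, hg, map_mul, map_pow, ← IsScalarTower.algebraMap_apply O F Ω, mul_pow, mul_pow, hd]
  · have hxS : x ∈ S := (halg x hx).1
    have hle : IntermediateField.adjoin F {x} ≤ S.toIntermediateField hFS := by
      rw [IntermediateField.adjoin_le_iff]
      rintro _ rfl
      exact hxS
    have hzS : X * H⁻¹ * d⁻¹ ∈ S := hle hzx
    refine ⟨X * H⁻¹ * d⁻¹ * H * d, mul_mem (mul_mem hzS hH) hdS, ?_⟩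
    have e1 : X * H⁻¹ * d⁻¹ * H * d = X := by
      field_simp
    rw [e1]

end Fermat.Agent.S33.Geo.FunII0Core
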