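/-
S33 / GEO, Stage B, brick C7 (K): the KUMMER KERNEL of a multi-Kummer extension (helper185).

`K` a field containing a primitive `p`-th root of unity, `L ⊇ K`, `b i ∈ L` with
`b i ^ p = u i ∈ K`.  If `c ∈ K` is a `p`-th power in `K(b i : i ∈ s)`, then
`c = (∏ i ∈ s, u i ^ a i) * k ^ p` with `k ∈ K`: the kernel of `Kˣ/p → K(b)ˣ/p` is generated by
the classes of the `u i`.

Induction on `s` over the landed one-step lemma `S44/L/KummerConst.kummer_step`
(applied over the intermediate field `K(b i : i ∈ t)`).

* `kummer_step_mid`     : the one-step lemma over an intermediate field `F`, `K ≤ F ≤ L`;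
* `kummer_kernel`       : `Finset` form;
* `kummer_kernel_fintype` : family indexed by a `Fintype`, `Set.range b`;
* `kummer_kernel_subfield` : inside one ambient field `Ω`, `F` a `Subfield Ω`
  (the shape of the landed `kummer_const_subfield`).

No hypothesis `u i ≠ 0` or `c ≠ 0`.
-/
import Mathlib
import Fermat.Agent.S44.L.KummerConst

set_option autoImplicit false

namespace Fermat.Agent.S33.Geo.KummerKernel

open Fermat.Agent.S44.L

/-- The Kummer step over an intermediate field `F` of `L / K`: if `c ∈ K` is a `p`-th power in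
`F(b)`, `b ^ p = u ∈ K`, then `c = u ^ i * k ^ p` with `k ∈ F`. -/
theorem kummer_step_mid {K L : Type*} [Field K] [Field L] [Algebra K L] {p : ℕ} (hp : p.Prime)
    {ζ : K} (hζ : IsPrimitiveRoot ζ p) (F : IntermediateField K L) {b : L} {u c : K}
    (hbu : b ^ p = algebraMap K L u) {e : L}
    (he : e ∈ IntermediateField.adjoin F ({b} : Set L)) (hce : algebraMap K L c = e ^ p) :
    ∃ (i : ℕ) (k : L), k ∈ F ∧ algebraMap K L c = algebraMap K L u ^ i * k ^ p := by
  have hζF : IsPrimitiveRoot (algebraMap K F ζ) p :=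
    hζ.map_of_injective (algebraMap K F).injective
  obtain ⟨i, k, hk⟩ := KummerConst.kummer_step (K := F) (L := L) hp hζF
    (u := algebraMap K F u) (c := algebraMap K F c) (b := b) (e := e)
    (by rw [hbu]; rfl) he (by rw [← hce]; rfl)
  refine ⟨i, (k : L), k.2, ?_⟩
  have h1 := congrArg (algebraMap F L) hk
  rw [map_mul, map_pow, map_pow] at h1
  have h3 : algebraMap F L (algebraMap K F c) = algebraMap K L c := rfl
  have h4 : algebraMap F L (algebraMap K F u) = algebraMap K L u := rfl
  have h5 : algebraMap F L k = (k : L) := rfl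
  rw [h3, h4, h5] at h1
  exact h1

/-- **Kummer kernel, `Finset` form.**  `K ∋ ζ` a primitive `p`-th root of unity,
`b i ^ p = u i ∈ K` for `i ∈ s`.  If `c ∈ K` is a `p`-th power in `K(b i : i ∈ s)`, then
`c = (∏ i ∈ s, u i ^ a i) * k ^ p` with `k ∈ K`. -/
theorem kummer_kernel {K L : Type*} [Field K] [Field L] [Algebra K L] {p : ℕ} (hp : p.Prime)
    {ζ : K} (hζ : IsPrimitiveRoot ζ p) {ι : Type*} (s : Finset ι) (b : ι → L) (u : ι → K)
    (hbu : ∀ i ∈ s, b i ^ p = algebraMap K L (u i)) {c : K} {e : L}
    (he : e ∈ IntermediateField.adjoin K (b '' (s : Set ι)))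
    (hce : algebraMap K L c = e ^ p) :
    ∃ (a : ι → ℕ) (k : K), c = (∏ i ∈ s, u i ^ a i) * k ^ p := by
  classical
  induction s using Finset.induction_on generalizing c e with
  | empty =>
    have he' : e ∈ (⊥ : IntermediateField K L) := by
      have h : IntermediateField.adjoin K (b '' ((∅ : Finset ι) : Set ι)) = ⊥ := by
        rw [Finset.coe_empty, Set.image_empty, IntermediateField.adjoin_empty]
      rwa [h] at he
    obtain ⟨k, rfl⟩ := IntermediateField.mem_bot.1 he'
    refine ⟨fun _ => 0, k, ?_⟩
    apply (algebraMap K L).injective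
    rw [Finset.prod_empty, one_mul, map_pow, hce]
  | insert j t hjt ih =>
    by_cases hc0 : c = 0
    · exact ⟨fun _ => 0, 0, by rw [hc0, zero_pow hp.ne_zero, mul_zero]⟩
    have heF : e ∈ IntermediateField.adjoin (IntermediateField.adjoin K (b '' (t : Set ι)))
        ({b j} : Set L) := by
      have h := IntermediateField.adjoin_adjoin_left K (b '' (t : Set ι)) ({b j} : Set L)
      have h2 : e ∈ (IntermediateField.adjoin (IntermediateField.adjoin K (b '' (t : Set ι)))
          ({b j} : Set L)).restrictScalars K := by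
        rw [h]
        have h3 : b '' ((insert j t : Finset ι) : Set ι) = b '' (t : Set ι) ∪ {b j} := by
          rw [Finset.coe_insert, Set.image_insert_eq, Set.union_singleton]
        rwa [h3] at he
      exact h2
    obtain ⟨i, k', hk'F, hk'⟩ := kummer_step_mid hp hζ
      (IntermediateField.adjoin K (b '' (t : Set ι))) (hbu j (Finset.mem_insert_self j t)) heF hce
    have hbu' : ∀ x ∈ t, b x ^ p = algebraMap K L (u x) :=
      fun x hx => hbu x (Finset.mem_insert_of_mem hx)
    have hupd : ∀ (a : ι → ℕ) (m : ℕ),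
        ∏ x ∈ t, u x ^ Function.update a j m x = ∏ x ∈ t, u x ^ a x := by
      intro a m
      apply Finset.prod_congr rfl
      intro x hx
      have hxj : x ≠ j := fun h => hjt (h ▸ hx)
      rw [Function.update_of_ne hxj]
    by_cases hu0 : u j = 0
    · -- then `i = 0`
      have hi : i = 0 := by
        by_contra hi
        apply hc0
        apply (algebraMap K L).injective
        rw [hk', hu0, map_zero, zero_pow hi, zero_mul]
      have hck : algebraMap K L c = k' ^ p := by
        rw [hk', hi, pow_zero, one_mul]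
      obtain ⟨a, k, hk⟩ := ih hbu' hk'F hck
      refine ⟨Function.update a j 0, k, ?_⟩
      rw [Finset.prod_insert hjt, Function.update_self, pow_zero, one_mul, hupd, hk]
    · have hui : u j ^ i ≠ 0 := pow_ne_zero i hu0
      have hui' : algebraMap K L (u j) ^ i ≠ 0 := by
        rw [← map_pow]
        exact (map_ne_zero _).2 hui
      have hck : algebraMap K L (c / u j ^ i) = k' ^ p := by
        rw [map_div₀, map_pow, hk', mul_comm, mul_div_assoc, div_self hui', mul_one]
      obtain ⟨a, k, hk⟩ := ih hbu' hk'F hck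
      refine ⟨Function.update a j i, k, ?_⟩
      rw [Finset.prod_insert hjt, Function.update_self, hupd, mul_assoc, ← hk, mul_comm,
        div_mul_cancel₀ _ hui]

/-- **Kummer kernel, family form.**  `b : ι → L`, `ι` finite, `b i ^ p = u i ∈ K`.  If `c ∈ K`
is a `p`-th power in `K(b i : i)`, then `c = (∏ i, u i ^ a i) * k ^ p` with `k ∈ K`. -/
theorem kummer_kernel_fintype {K L : Type*} [Field K] [Field L] [Algebra K L] {p : ℕ}
    (hp : p.Prime) {ζ : K} (hζ : IsPrimitiveRoot ζ p) {ι : Type*} [Fintype ι] (b : ι → L)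
    (u : ι → K) (hbu : ∀ i, b i ^ p = algebraMap K L (u i)) {c : K} {e : L}
    (he : e ∈ IntermediateField.adjoin K (Set.range b)) (hce : algebraMap K L c = e ^ p) :
    ∃ (a : ι → ℕ) (k : K), c = (∏ i, u i ^ a i) * k ^ p := by
  have he' : e ∈ IntermediateField.adjoin K
      (b '' ((Finset.univ : Finset ι) : Set ι)) := by
    rw [Finset.coe_univ, Set.image_univ]
    exact he
  exact kummer_kernel hp hζ Finset.univ b u (fun i _ => hbu i) he' hce

/-- **Kummer kernel, subfield form.**  Inside one ambient field `Ω`: `F` a subfield containing a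
primitive `p`-th root of unity `ζ`, `b i ^ p = u i ∈ F`.  If `c ∈ F` is the `p`-th power of an
element of the subfield generated by `F` and the `b i`, then `c = (∏ i, u i ^ a i) * d ^ p` with
`d ∈ F`. -/
theorem kummer_kernel_subfield {Ω : Type*} [Field Ω] (F : Subfield Ω) {p : ℕ} (hp : p.Prime)
    {ζ : Ω} (hζ : IsPrimitiveRoot ζ p) (hζF : ζ ∈ F) {ι : Type*} [Fintype ι] (b u : ι → Ω)
    (hu : ∀ i, u i ∈ F) (hbu : ∀ i, b i ^ p = u i) {c e : Ω} (hc : c ∈ F)
    (he : e ∈ Subfield.closure ((F : Set Ω) ∪ Set.range b)) (hce : c = e ^ p) :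
    ∃ (a : ι → ℕ) (d : Ω), d ∈ F ∧ c = (∏ i, u i ^ a i) * d ^ p := by
  have he' : e ∈ IntermediateField.adjoin F (Set.range b) := by
    have h : (IntermediateField.adjoin F (Set.range b)).toSubfield =
        Subfield.closure (Set.range (algebraMap F Ω) ∪ Set.range b) :=
      IntermediateField.adjoin_toSubfield _ _
    have hr : Set.range (algebraMap F Ω) = (F : Set Ω) := by
      ext x
      constructor
      · rintro ⟨y, rfl⟩
        exact y.2
      · intro hx
        exact ⟨⟨x, hx⟩, rfl⟩
    rw [hr] at h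
    change e ∈ (IntermediateField.adjoin F (Set.range b)).toSubfield
    rw [h]
    exact he
  have hζ' : IsPrimitiveRoot (⟨ζ, hζF⟩ : F) p :=
    IsPrimitiveRoot.of_map_of_injective (f := algebraMap F Ω) hζ (algebraMap F Ω).injective
  obtain ⟨a, d, hd⟩ := kummer_kernel_fintype (K := F) (L := Ω) hp hζ' b
    (fun i => (⟨u i, hu i⟩ : F)) (fun i => hbu i) (c := ⟨c, hc⟩) he' hce
  refine ⟨a, (d : Ω), d.2, ?_⟩
  have h1 := congrArg (algebraMap F Ω) hd
  rw [map_mul, map_prod, map_pow] at h1
  have h2 : ∀ i, algebraMap F Ω ((⟨u i, hu i⟩ : F) ^ a i) = u i ^ a i := by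
    intro i
    rw [map_pow]
    rfl
  rw [Finset.prod_congr rfl (fun i _ => h2 i)] at h1
  exact h1

end Fermat.Agent.S33.Geo.KummerKernel
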