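import Mathlib
import Fermat.Agent.S33.Geo.FunLevel
import Fermat.Agent.S33.Geo.KummerKernel

/-!
# S33 (GEO, COV'), row C8, the exit: `FunII0` from the cover exit

Function level, over `ℚ̄` (no model, no number field).  Let `x` satisfy the hypotheses
`FunLevel.GoodII0`.  The cover chain (rows Z, C1-C4, C3, DESC / UNIT upstairs, B5x) produces
finitely many functions `y i` of the level whose classes are fixed by the elements of inertia
acting trivially on the `p`-th roots of unity, and shows that `x` becomes a `p`-th power in the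
field generated by `p`-th roots of the `y i`.  The Kummer kernel (`KummerKernel`, landed) then
puts the class of `x` in the span of the classes of the `y i`, which is the conclusion of
`FunLevel.FunII0`.

* `CoverExit L A p x` : the exit of the cover chain for one function `x`;
* `funII0_of_coverExit` : `(∀ x, GoodII0 x → CoverExit x) → FunII0`;
* `funII0Statement_of_coverExit` : the statement-level form.
-/

set_option autoImplicit false

open HahnSeries ModularCurve AlgebraicCurve

noncomputable section

namespace Fermat.Agent.S33.Geo.FunII0Exit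

open Fermat.Agent.S30 Fermat.Agent.S30.Producer
open Fermat.Agent.S33.Geo.Contract Fermat.Agent.S33.Geo.FunLevel

/-- **The exit of the cover chain** for a function `x` of level `L`: finitely many functions
`y i` whose classes are fixed by the elements of the inertia group of `A` that fix the `p`-th
roots of unity, `p`-th roots `b i` of the `y i` among the `q`-series, and a `p`-th root `e` of
`x` in the field generated by the `b i` over the function field. -/
def CoverExit (L : ℕ) (A : ValuationSubring Qb) (p : ℕ) (x : FN L) : Prop :=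
  ∃ (n : ℕ) (y : Fin n → FN L) (b : Fin n → LaurentSeries Qb) (e : LaurentSeries Qb),
    (∀ i, b i ^ p = (y i : LaurentSeries Qb)) ∧
    (∀ i, ∀ σ : GQ, σ ∈ A.inertiaSubgroupIn ℚ → (∀ μ : Qb, μ ^ p = 1 → σ μ = μ) →
      ∃ k : FN L, galF L σ (y i) = y i * k ^ p) ∧
    e ∈ IntermediateField.adjoin (FN L) (Set.range b) ∧ (x : LaurentSeries Qb) = e ^ p

/-- A primitive `p`-th root of unity in the function field. -/
theorem exists_primitiveRoot (L : ℕ) {p : ℕ} (hp : p.Prime) :
    ∃ ζ : FN L, IsPrimitiveRoot ζ p := by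
  have : NeZero (p : Qb) := ⟨by exact_mod_cast hp.ne_zero⟩
  have : NeZero p := ⟨hp.ne_zero⟩
  obtain ⟨ζ, hζ⟩ := HasEnoughRootsOfUnity.exists_primitiveRoot Qb p
  exact ⟨algebraMap Qb (FN L) ζ, hζ.map_of_injective (algebraMap Qb (FN L)).injective⟩

/-- **`FunII0` from the cover exit.** -/
theorem funII0_of_coverExit {L p : ℕ} (hp : p.Prime) {A : ValuationSubring Qb}
    {w : FN L → FN L} (h : ∀ x : FN L, GoodII0 L A p w x → CoverExit L A p x) :
    FunII0 L A p w := by
  intro x hx σ hσ hσμ
  obtain ⟨n, y, b, e, hb, hy, he, hxe⟩ := h x hx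
  obtain ⟨ζ, hζ⟩ := exists_primitiveRoot L hp
  obtain ⟨a, k, hk⟩ := KummerKernel.kummer_kernel_fintype (K := FN L)
    (L := LaurentSeries Qb) hp hζ b y (fun i => hb i) (c := x) (e := e) he hxe
  have hx0 : x ≠ 0 := hx.1
  have hk0 : k ≠ 0 := by
    rintro rfl
    rw [zero_pow hp.ne_zero, mul_zero] at hk
    exact hx0 hk
  choose kk hkk using fun i => hy i σ hσ hσμ
  refine ⟨(∏ i, kk i ^ a i) * galF L σ k * k⁻¹, ?_⟩
  have h1 : galF L σ x = (∏ i, (y i * kk i ^ p) ^ a i) * galF L σ k ^ p := by
    rw [hk, map_mul, map_prod, map_pow]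
    congr 1
    refine Finset.prod_congr rfl fun i _ => ?_
    rw [map_pow, hkk]
  have h2 : (∏ i, (y i * kk i ^ p) ^ a i) = (∏ i, y i ^ a i) * (∏ i, kk i ^ a i) ^ p := by
    rw [← Finset.prod_pow, ← Finset.prod_mul_distrib]
    refine Finset.prod_congr rfl fun i _ => ?_
    rw [mul_pow, ← pow_mul, ← pow_mul, mul_comm p (a i)]
  have hkp : k ^ p ≠ 0 := pow_ne_zero p hk0
  have h3 : x * ((∏ i, kk i ^ a i) * galF L σ k * k⁻¹) ^ p =
      (∏ i, y i ^ a i) * (∏ i, kk i ^ a i) ^ p * galF L σ k ^ p := by
    conv_lhs => rw [hk]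
    rw [mul_pow, mul_pow, inv_pow]
    field_simp
  rw [h1, h2, h3]

/-- **The statement-level form**: the function-level target of the row GEO-ii₀ at the level
`L' * p` from the cover exit at every `A` over `p` and every swap. -/
theorem funII0Statement_of_coverExit {L' p : ℕ} [NeZero L'] [NeZero p]
    (h : p.Prime → p ≠ 2 → ¬ p ∣ L' → ∀ A : ValuationSubring Qb, A.LiesOverPrime p →
      ∀ w : FN (L' * p) ≃ₐ[Qb] FN (L' * p), IsSwap L' p w →
        ∀ x : FN (L' * p), GoodII0 (L' * p) A p w x → CoverExit (L' * p) A p x) :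
    FunII0Statement L' p :=
  fun hp hp2 hpL A hA w hw => funII0_of_coverExit hp (h hp hp2 hpL A hA w hw)

end Fermat.Agent.S33.Geo.FunII0Exit
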