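/-
S33 (ordinary at `p ∥ N`), strand GEO, Stage B, chain `?FunII0`: THE ROW `hField`, composed
(helper257, C1-E second; a compiled composition of landed rows - no new mathematics).

`A` a valuation subring of `ℚ̄` with inertia group `I`, `E ⊆ ℚ̄` finite over `ℚ` containing a
primitive `p`-th root of unity `ζ`, `K = inertiaFixed A E`, `K₁ = cyclo K ζ`, and the cover data
of `FunII0Data` descended to `K₁` (`FunII0Base.exists_baseData`: `y₁ i ∈ LE L K₁` with
`upF (y₁ i) = y i`, `T₁ i ^ p = y₁ i`).  Then, with NO further hypothesis, the cover field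
`L0 = F₁(T₁ i) ∩ K((q))` of `CoverFieldDefs` satisfies the four exits of row C1-E:

* (a) `L0 / LE L K` is finite Galois of `p`-power degree;
* (b) `L0 · F₁ = L1` in its three spellings (b1) `F₁(range emb) = ⊤`, (b2) `T₁ i ∈ L0 · F₁`
  (the binder `hgen` of `CoverDescent`), (b3) `F₁(L0) = L1`;
* (c) `K` is algebraically closed in `L0` (the binder `hconst` of `FunII0Red.coverExit_of_model`).

`field_row` = `FunII0Tau.exists_tau` (helper197: a generator `τ ∈ I` of `Gal(K₁/K)` with the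
eigen relation over `K₁`) ∘ `CoverFieldInst.cover_gal` (helper117) ∘ `CoverFieldExits.hconst`.
-/
import Mathlib
import Fermat.Agent.S33.Geo.FunII0Tau
import Fermat.Agent.S33.Geo.CoverFieldInst
import Fermat.Agent.S33.Geo.CoverFieldExits

set_option autoImplicit false

open HahnSeries ModularCurve AlgebraicCurve

noncomputable section

namespace Fermat.Agent.S33.Geo.FunII0Field

open Fermat.Agent.S30 Fermat.Agent.S30.Producer
open Fermat.Agent.S18.K1Defs (LE)
open Fermat.Agent.S36.InvFun (upF)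
open Fermat.Agent.S36.CycloBase (cyclo)
open Fermat.Agent.Lib.InertiaField (inertiaFixed)
open Fermat.Agent.S33.Geo.FunII0Data
open Fermat.Agent.S33.Geo.CoverFieldDefs

/-- **The row `hField` of the `?FunII0` chain**, hypothesis-free given the cover data descended
to `K₁ = K(ζ)`, `K = inertiaFixed A E`: the cover field `L0 L K ζ T₁` is finite Galois of
`p`-power degree over `LE L K`, `L0 · F₁ = L1` (three spellings), and `K` is algebraically
closed in `L0`. -/
theorem field_row {L p : ℕ} [NeZero L] (hp : p.Prime) {A : ValuationSubring Qb}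
    {w : FN L → FN L} {x : FN L} {n : ℕ} {y : Fin n → FN L} {T : Fin n → LaurentSeries Qb}
    {F' H : LaurentSeries Qb} (h : CoverData L A p w x y T F' H)
    (E : IntermediateField ℚ Qb) [FiniteDimensional ℚ E] {ζ : Qb} (hζE : ζ ∈ E)
    (hζ : IsPrimitiveRoot ζ p)
    (y₁ : Fin n → LE L (cyclo (inertiaFixed A E) ζ))
    (T₁ : Fin n → LaurentSeries (cyclo (inertiaFixed A E) ζ))
    (hy₁ : ∀ i, upF L (cyclo (inertiaFixed A E) ζ) (y₁ i) = y i)
    (hTy : ∀ i, T₁ i ^ p = ((y₁ i : LE L (cyclo (inertiaFixed A E) ζ)) :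
      LaurentSeries (cyclo (inertiaFixed A E) ζ))) :
    FiniteDimensional (LE L (inertiaFixed A E)) (L0 L (inertiaFixed A E) ζ T₁) ∧
    IsGalois (LE L (inertiaFixed A E)) (L0 L (inertiaFixed A E) ζ T₁) ∧
    (∃ m : ℕ, Module.finrank (LE L (inertiaFixed A E)) (L0 L (inertiaFixed A E) ζ T₁) = p ^ m) ∧
    IntermediateField.adjoin (LE L (cyclo (inertiaFixed A E) ζ))
      (Set.range (emb L (inertiaFixed A E) ζ T₁)) = ⊤ ∧
    (∀ i, T₁ i ∈ (L0 L (inertiaFixed A E) ζ T₁).toSubfield.map (inclLS (inertiaFixed A E) ζ) ⊔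
      (LE L (cyclo (inertiaFixed A E) ζ)).toSubfield) ∧
    IntermediateField.adjoin (LE L (cyclo (inertiaFixed A E) ζ))
      (⇑(inclLS (inertiaFixed A E) ζ) '' (L0 L (inertiaFixed A E) ζ T₁ :
        Set (LaurentSeries (inertiaFixed A E)))) = L1 L (inertiaFixed A E) ζ T₁ ∧
    (∀ z : L0 L (inertiaFixed A E) ζ T₁, IsAlgebraic (inertiaFixed A E) z →
      z ∈ (algebraMap (inertiaFixed A E) (L0 L (inertiaFixed A E) ζ T₁)).range) := by
  obtain ⟨τ, a, -, hτK, hτfix, hτζ, h₁, heig⟩ :=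
    Fermat.Agent.S33.Geo.FunII0Tau.exists_tau hp h E hζE hζ y₁ hy₁
  obtain ⟨h1, h2, h3, h4, h5, h6⟩ :=
    Fermat.Agent.S33.Geo.CoverFieldInst.cover_gal L (inertiaFixed A E) ζ T₁ hp hζ τ h₁ hτK hτfix
      a hτζ y₁ hTy heig
  exact ⟨h1, h2, h3, h4, h5, h6,
    Fermat.Agent.S33.Geo.CoverFieldExits.hconst L (inertiaFixed A E) ζ T₁⟩

end Fermat.Agent.S33.Geo.FunII0Field
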