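import Mathlib
import Fermat.Agent.S33.Geo.Top
import Fermat.Agent.S44.L.PthPoint
import Fermat.Agent.S44.L.NoNewConst
import Fermat.Agent.S44.L.DepthHenselExit

/-!
# S33 / GEO / TOP: the exit of `Top.top_core` at `ϖ = p`, `top = 2`

Level-free (Mathlib + `S33/Geo/Top` + `S44/L/PthPoint`, `NoNewConst`, `DepthHenselExit`).

`O` an unramified base (`p` a prime element), `k = Frac O`, `F` the function field, `u ∈ F` the
coordinate; the two charts are `integralClosure (Algebra.adjoin O {u}) F` and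
`integralClosure (Algebra.adjoin O {u⁻¹}) F`.  A pointwise model datum
`Top.IsDatum p (p : O) 2 V R On Hor` COVERS the charts when every maximal ideal `𝔪 ∋ p` of either
chart ring is a point `y` of the datum, `R y ≤ DepthHenselExit.locAt _ 𝔪 _` (`hcov0`, `hcov1`).

* `powAt_of_depthIn_locAt` : a point form with `r ∈ R y ≤ locAt S 𝔪` is `PthPoint.PowAt`.
* `exists_const_powAt` : `top_core` + covering: ONE constant `c` with depth `≥ 2` on every
  component and `PthPoint.PowAt` for `f / c` at every closed point of the fibre of both charts.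
* `pow_or_const_of_powAt` : `PthPoint.exists_pow_eq_of_pointwise` +
  `NoNewConst.hOL_or_exists_mem_adjoin`: with such data, a `p`-th root `z` of `H` in an extension
  `Ω` of `F` either lies in `F` (`H = g ^ p`), or in `F(x)` for some `x` algebraic over `k`.
* `exit_of_datum` : the composition: if `f` has horizontal orders divisible by `p` and depth
  `≥ 1` on every component, then for ONE constant `c`, `f = c * g ^ p` or `f / c` becomes a
  `p`-th power after a constant field extension.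
-/

set_option autoImplicit false
set_option linter.unusedSectionVars false
set_option linter.unusedVariables false
set_option linter.style.haveILetI false

universe v

namespace Fermat.Agent.S33.Geo.TopExit

open Polynomial IntermediateField
open Fermat.Agent.S33.Geo.Top Fermat.Agent.S44.L

/-! ### Point forms are `PowAt` -/

section PowAt

variable {O F : Type*} [CommRing O] [Field F] [Algebra O F]

/-- A point form of depth `2` at `ϖ = p` with `r` in a subring of the local ring `locAt S 𝔪` of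
the chart is the datum `PthPoint.PowAt` for `f / c` at `𝔪`. -/
theorem powAt_of_depthIn_locAt (S : Subalgebra O F) (p : ℕ) (𝔪 : Ideal (integralClosure S F))
    (h𝔪 : 𝔪.IsPrime) {Ry : Subring F} (hR : Ry ≤ DepthHenselExit.locAt S 𝔪 h𝔪) {f : F} {c : O}
    (hc : algebraMap O F c ≠ 0) (h : DepthIn Ry p (p : O) 2 f c) :
    PthPoint.PowAt S p (f / algebraMap O F c) 𝔪 := by
  obtain ⟨g, r, hr, hf⟩ := h
  obtain ⟨s, hs, hint⟩ := hR hr
  refine ⟨s, g, r, hs, hint, ?_⟩
  rw [hf, map_natCast, mul_assoc, mul_div_cancel_left₀ _ hc]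

end PowAt

/-! ### One constant, at every closed point of the two charts -/

section Const

variable {O F : Type*} [CommRing O] [IsDomain O] [IsLocalRing O] [Field F] [Algebra O F]
  {ι Y : Type*} {V : ι → Subring F} {R : Y → Subring F} {On : Y → ι → Prop}
  {Hor : Y → F → Prop}

/-- **`top_core` on a datum covering the two charts**: ONE constant `c` such that `f` has depth
`≥ 2` with constant `c` on every component, and `f / c` has the datum `PthPoint.PowAt` at every
closed point of the fibre `p = 0` of both charts. -/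
theorem exists_const_powAt (p : ℕ) (hπ : Prime (p : O))
    (hinj : Function.Injective (algebraMap O F)) (D : IsDatum p (p : O) 2 V R On Hor) (u : F)
    (hcov0 : ∀ (𝔪 : Ideal (integralClosure (Algebra.adjoin O ({u} : Set F)) F))
      (h𝔪 : 𝔪.IsMaximal), (p : integralClosure (Algebra.adjoin O ({u} : Set F)) F) ∈ 𝔪 →
      ∃ y, R y ≤ DepthHenselExit.locAt (Algebra.adjoin O ({u} : Set F)) 𝔪 h𝔪.isPrime)
    (hcov1 : ∀ (𝔪 : Ideal (integralClosure (Algebra.adjoin O ({u⁻¹} : Set F)) F))
      (h𝔪 : 𝔪.IsMaximal), (p : integralClosure (Algebra.adjoin O ({u⁻¹} : Set F)) F) ∈ 𝔪 →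
      ∃ y, R y ≤ DepthHenselExit.locAt (Algebra.adjoin O ({u⁻¹} : Set F)) 𝔪 h𝔪.isPrime)
    (f : F) (hf : f ≠ 0) (hHor : ∀ y, Hor y f)
    (h1 : ∀ W, ∃ c : O, c ≠ 0 ∧ DepthIn (V W) p (p : O) 1 f c) :
    ∃ c : O, c ≠ 0 ∧ (∀ W, DepthIn (V W) p (p : O) 2 f c) ∧
      (∀ 𝔪 : Ideal (integralClosure (Algebra.adjoin O ({u} : Set F)) F), 𝔪.IsMaximal →
        (p : integralClosure (Algebra.adjoin O ({u} : Set F)) F) ∈ 𝔪 →
        PthPoint.PowAt (Algebra.adjoin O ({u} : Set F)) p (f / algebraMap O F c) 𝔪) ∧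
      (∀ 𝔪 : Ideal (integralClosure (Algebra.adjoin O ({u⁻¹} : Set F)) F), 𝔪.IsMaximal →
        (p : integralClosure (Algebra.adjoin O ({u⁻¹} : Set F)) F) ∈ 𝔪 →
        PthPoint.PowAt (Algebra.adjoin O ({u⁻¹} : Set F)) p (f / algebraMap O F c) 𝔪) := by
  obtain ⟨c, hc, hW, hY⟩ := top_core hπ.not_isUnit (by norm_num) hinj D f hf hHor h1
  have hcF : algebraMap O F c ≠ 0 := (map_ne_zero_iff _ hinj).mpr hc
  refine ⟨c, hc, hW, fun 𝔪 h𝔪 hp𝔪 => ?_, fun 𝔪 h𝔪 hp𝔪 => ?_⟩
  · obtain ⟨y, hy⟩ := hcov0 𝔪 h𝔪 hp𝔪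
    exact powAt_of_depthIn_locAt _ p 𝔪 h𝔪.isPrime hy hcF (hY y)
  · obtain ⟨y, hy⟩ := hcov1 𝔪 h𝔪 hp𝔪
    exact powAt_of_depthIn_locAt _ p 𝔪 h𝔪.isPrime hy hcF (hY y)

end Const

/-! ### A `p`-th power, or a root over the constants -/

section Dichotomy

variable {O k F : Type*} [CommRing O] [IsDomain O] [IsNoetherianRing O] [IsIntegrallyClosed O]
  [Field k] [Algebra O k] [IsFractionRing O k] [Field F] [Algebra O F] [Algebra k F]
  {Ω : Type*} [Field Ω] [Algebra F Ω] [Algebra O Ω] [IsScalarTower O F Ω] [Algebra k Ω]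
  [IsScalarTower k F Ω] [IsScalarTower O k Ω]

/-- **Pointwise `p`-th powers are global, or a root over the constants.**  `k = Frac O`
algebraically closed in `F`; `H ∈ F` with the datum `PthPoint.PowAt` at every closed point of the
fibre `p = 0` of the two charts; `z ^ p = H` in an extension `Ω` of `F`.  Then `H = g ^ p` in
`F`, or `z ∈ F(x)` for some `x ∈ Ω` algebraic over `k`. -/
theorem pow_or_const_of_powAt (p : ℕ) (hp : p.Prime) (hp3 : 3 ≤ p) (hπ : Prime (p : O))
    (hinj : Function.Injective (algebraMap O F))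
    (hconst : ∀ y : F, IsAlgebraic k y → y ∈ (algebraMap k F).range)
    (u : F) (hu : u ≠ 0)
    (hfin : ∀ L : IntermediateField F Ω, FiniteDimensional F L →
      Module.Finite (Algebra.adjoin O ({algebraMap F L u} : Set L))
        (integralClosure (Algebra.adjoin O ({algebraMap F L u} : Set L)) L))
    (hred0 : ∀ x : F, IsIntegral (Algebra.adjoin O ({u} : Set F)) x →
      IsIntegral (Algebra.adjoin O ({u} : Set F)) (x ^ p / (p : F)) →
      IsIntegral (Algebra.adjoin O ({u} : Set F)) (x / (p : F)))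
    (hredinf : ∀ x : F, IsIntegral (Algebra.adjoin O ({u⁻¹} : Set F)) x →
      IsIntegral (Algebra.adjoin O ({u⁻¹} : Set F)) (x ^ p / (p : F)) →
      IsIntegral (Algebra.adjoin O ({u⁻¹} : Set F)) (x / (p : F)))
    (H : F) (z : Ω) (hz : z ^ p = algebraMap F Ω H)
    (h0 : ∀ 𝔪 : Ideal (integralClosure (Algebra.adjoin O ({u} : Set F)) F), 𝔪.IsMaximal →
      (p : integralClosure (Algebra.adjoin O ({u} : Set F)) F) ∈ 𝔪 →
      PthPoint.PowAt (Algebra.adjoin O ({u} : Set F)) p H 𝔪)
    (hinf : ∀ 𝔪 : Ideal (integralClosure (Algebra.adjoin O ({u⁻¹} : Set F)) F), 𝔪.IsMaximal →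
      (p : integralClosure (Algebra.adjoin O ({u⁻¹} : Set F)) F) ∈ 𝔪 →
      PthPoint.PowAt (Algebra.adjoin O ({u⁻¹} : Set F)) p H 𝔪) :
    (∃ g : F, H = g ^ p) ∨ ∃ x : Ω, IsAlgebraic k x ∧ z ∈ IntermediateField.adjoin F {x} := by
  rcases NoNewConst.hOL_or_exists_mem_adjoin (O := O) (k := k) hp H z hz hconst with h | h
  · left
    have hzint : IsIntegral F z :=
      ⟨X ^ p - C H, monic_X_pow_sub_C H hp.ne_zero, by simp [hz]⟩
    haveI : FiniteDimensional F F⟮z⟯ := IntermediateField.adjoin.finiteDimensional hzint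
    haveI := hfin F⟮z⟯ inferInstance
    have hinjΩ : Function.Injective (algebraMap O Ω) := by
      rw [IsScalarTower.algebraMap_eq O F Ω]
      exact (algebraMap F Ω).injective.comp hinj
    have hinjL : Function.Injective (algebraMap O F⟮z⟯) := by
      intro a b hab
      apply hinjΩ
      exact congrArg (fun x : F⟮z⟯ => (x : Ω)) hab
    have hOL : ∀ x : F⟮z⟯, IsIntegral O x → ∃ a : O, algebraMap O F⟮z⟯ a = x := by
      intro x hx
      have hx' : IsIntegral O (x : Ω) :=
        hx.map ((IntermediateField.val F⟮z⟯).restrictScalars O)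
      obtain ⟨a, ha⟩ := h (x : Ω) x.2 hx'
      exact ⟨a, Subtype.ext ha⟩
    exact PthPoint.exists_pow_eq_of_pointwise (L := F⟮z⟯) p hp hp3 hπ hinjL hOL u hu hred0 hredinf
      H ⟨z, mem_adjoin_simple_self F z⟩ (Subtype.ext hz) h0 hinf
  · exact Or.inr h

end Dichotomy

/-! ### The exit -/

section Exit

variable {O k F : Type*} [CommRing O] [IsDomain O] [IsLocalRing O] [IsNoetherianRing O]
  [IsIntegrallyClosed O] [Field k] [Algebra O k] [IsFractionRing O k] [Field F] [Algebra O F]
  [Algebra k F]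
  {ι Y : Type*} {V : ι → Subring F} {R : Y → Subring F} {On : Y → ι → Prop}
  {Hor : Y → F → Prop}

/-- **The exit of `TOP` at `ϖ = p`, `top = 2`.**  A pointwise model datum covering the two charts
of the coordinate `u`, with `k = Frac O` algebraically closed in `F`.  If `f ∈ Fˣ` has horizontal
orders divisible by `p` at every closed point and depth `≥ 1` on every component, then there is
ONE constant `c ≠ 0` of `O` such that `f` has depth `≥ 2` with constant `c` on every component
and, for every extension `Ω` of `F` and every `z ∈ Ω` with `z ^ p = f / c`: either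
`f = c * g ^ p` with `g ∈ F`, or `z ∈ F(x)` for some `x ∈ Ω` algebraic over `k`. -/
theorem exit_of_datum (p : ℕ) (hp : p.Prime) (hp3 : 3 ≤ p) (hπ : Prime (p : O))
    (hinj : Function.Injective (algebraMap O F))
    (hconst : ∀ y : F, IsAlgebraic k y → y ∈ (algebraMap k F).range)
    (D : IsDatum p (p : O) 2 V R On Hor) (u : F) (hu : u ≠ 0)
    (hred0 : ∀ x : F, IsIntegral (Algebra.adjoin O ({u} : Set F)) x →
      IsIntegral (Algebra.adjoin O ({u} : Set F)) (x ^ p / (p : F)) →
      IsIntegral (Algebra.adjoin O ({u} : Set F)) (x / (p : F)))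
    (hredinf : ∀ x : F, IsIntegral (Algebra.adjoin O ({u⁻¹} : Set F)) x →
      IsIntegral (Algebra.adjoin O ({u⁻¹} : Set F)) (x ^ p / (p : F)) →
      IsIntegral (Algebra.adjoin O ({u⁻¹} : Set F)) (x / (p : F)))
    (hcov0 : ∀ (𝔪 : Ideal (integralClosure (Algebra.adjoin O ({u} : Set F)) F))
      (h𝔪 : 𝔪.IsMaximal), (p : integralClosure (Algebra.adjoin O ({u} : Set F)) F) ∈ 𝔪 →
      ∃ y, R y ≤ DepthHenselExit.locAt (Algebra.adjoin O ({u} : Set F)) 𝔪 h𝔪.isPrime)
    (hcov1 : ∀ (𝔪 : Ideal (integralClosure (Algebra.adjoin O ({u⁻¹} : Set F)) F))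
      (h𝔪 : 𝔪.IsMaximal), (p : integralClosure (Algebra.adjoin O ({u⁻¹} : Set F)) F) ∈ 𝔪 →
      ∃ y, R y ≤ DepthHenselExit.locAt (Algebra.adjoin O ({u⁻¹} : Set F)) 𝔪 h𝔪.isPrime)
    (f : F) (hf : f ≠ 0) (hHor : ∀ y, Hor y f)
    (h1 : ∀ W, ∃ c : O, c ≠ 0 ∧ DepthIn (V W) p (p : O) 1 f c) :
    ∃ c : O, c ≠ 0 ∧ (∀ W, DepthIn (V W) p (p : O) 2 f c) ∧
      ∀ (Ω : Type v) [Field Ω] [Algebra F Ω] [Algebra O Ω] [IsScalarTower O F Ω] [Algebra k Ω]
        [IsScalarTower k F Ω] [IsScalarTower O k Ω],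
        (∀ L : IntermediateField F Ω, FiniteDimensional F L →
          Module.Finite (Algebra.adjoin O ({algebraMap F L u} : Set L))
            (integralClosure (Algebra.adjoin O ({algebraMap F L u} : Set L)) L)) →
        ∀ z : Ω, z ^ p = algebraMap F Ω (f / algebraMap O F c) →
          (∃ g : F, f = algebraMap O F c * g ^ p) ∨
            ∃ x : Ω, IsAlgebraic k x ∧ z ∈ IntermediateField.adjoin F {x} := by
  obtain ⟨c, hc, hW, h0, hinf⟩ := exists_const_powAt p hπ hinj D u hcov0 hcov1 f hf hHor h1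
  have hcF : algebraMap O F c ≠ 0 := (map_ne_zero_iff _ hinj).mpr hc
  refine ⟨c, hc, hW, ?_⟩
  intro Ω _ _ _ _ _ _ _ hfin z hz
  rcases pow_or_const_of_powAt (k := k) p hp hp3 hπ hinj hconst u hu hfin hred0 hredinf _ z hz
    h0 hinf with ⟨g, hg⟩ | h
  · left
    exact ⟨g, by rw [← hg, mul_div_cancel₀ _ hcF]⟩
  · exact Or.inr h

end Exit

end Fermat.Agent.S33.Geo.TopExit
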