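import Mathlib
import Fermat.Agent.S33.Geo.ModelI
import Fermat.Agent.S33.Geo.TopExit
import Fermat.Agent.S44.L.NZ.ChartChange

/-!
# S33 / GEO / Stage B, row B5x (form of record): the level-free exit of a model

Level-free (Mathlib + `S33/Geo/ModelI` + `S33/Geo/TopExit` + `S44/L/NZ/ChartChange`).  The exit
of `S33/Geo/ModelExit` for the hub of record: a model `Model.IsModelI p (p : O) V R On Hor`
(blocks with the horizontal clause in prime-ideal form) whose points are the closed points of
the fibre of the chart of `u` and the closed points over `u = ∞` of the fibre of the chart of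
`u⁻¹` (`Model.CoversCusp (p : O) u R`).

`O` an unramified discrete valuation ring (`p ≥ 3` a prime element, perfect residue field),
`k = Frac O` algebraically closed in the function field `F`.

* `exists_const_powAt_cusp` : a horizontal `f ≠ 0` of depth `≥ 1` on every component has ONE
  constant `c` with depth `≥ 2` on every component and `PthPoint.PowAt` for `f / c` at every
  closed point of the fibre of both charts (the points of the second chart off `u = ∞` through
  `ChartChange.hinf_of_h0`).
* `modelI_exit` : for this `c`, for every extension `Ω` of `F` (with finite charts in the finite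
  subextensions) and every `z ∈ Ω` with `z ^ p = f / c`: either `f = c * g ^ p` with `g ∈ F`, or
  `z ∈ F(x)` for some `x ∈ Ω` algebraic over `k`.
-/

set_option autoImplicit false
set_option linter.unusedSectionVars false
set_option linter.unusedVariables false

universe u v

namespace Fermat.Agent.S33.Geo.ModelExitI

open Fermat.Agent.S33.Geo.Top Fermat.Agent.S33.Geo.Model Fermat.Agent.S44.L

section Exit

variable {O : Type*} [CommRing O] [IsDomain O] [IsDiscreteValuationRing O]
  {F : Type u} [Field F] [Algebra O F]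
  {ι Y : Type*} {V : ι → Subring F} {R : Y → Subring F} {On : Y → ι → Prop} {Hor : F → Prop}

/-- **`TOP` on a model of record covering the two charts in cusp form, `ϖ = p`, `top = 2`**:
ONE constant `c` such that the horizontal function `f` has depth `≥ 2` with constant `c` on
every component, and `f / c` has the datum `PthPoint.PowAt` at every closed point of the fibre
`p = 0` of both charts. -/
theorem exists_const_powAt_cusp (p : ℕ) (hp : p.Prime) (hπ : Prime (p : O))
    (hperf : ∀ a : O, ∃ b : O, (p : O) ∣ a - b ^ p)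
    (hinj : Function.Injective (algebraMap O F)) (D : IsModelI p (p : O) V R On Hor) (u : F)
    (hu : u ≠ 0) (hcov : CoversCusp (p : O) u R) (f : F) (hf : f ≠ 0) (hHor : Hor f)
    (h1 : ∀ W, ∃ c : O, c ≠ 0 ∧ DepthIn (V W) p (p : O) 1 f c) :
    ∃ c : O, c ≠ 0 ∧ (∀ W, DepthIn (V W) p (p : O) 2 f c) ∧
      (∀ 𝔪 : Ideal (integralClosure (Algebra.adjoin O ({u} : Set F)) F), 𝔪.IsMaximal →
        (p : integralClosure (Algebra.adjoin O ({u} : Set F)) F) ∈ 𝔪 →
        PthPoint.PowAt (Algebra.adjoin O ({u} : Set F)) p (f / algebraMap O F c) 𝔪) ∧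
      (∀ 𝔪 : Ideal (integralClosure (Algebra.adjoin O ({u⁻¹} : Set F)) F), 𝔪.IsMaximal →
        (p : integralClosure (Algebra.adjoin O ({u⁻¹} : Set F)) F) ∈ 𝔪 →
        PthPoint.PowAt (Algebra.adjoin O ({u⁻¹} : Set F)) p (f / algebraMap O F c) 𝔪) := by
  obtain ⟨c, hc, hW, hY⟩ := D.top_core hp hπ.irreducible hperf (top := 2) le_rfl hp.two_le
    (by simp) hinj f hf hHor h1
  have hcF : algebraMap O F c ≠ 0 := (map_ne_zero_iff _ hinj).mpr hc
  have h0 : ∀ 𝔪 : Ideal (integralClosure (Algebra.adjoin O ({u} : Set F)) F), 𝔪.IsMaximal →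
      (p : integralClosure (Algebra.adjoin O ({u} : Set F)) F) ∈ 𝔪 →
      PthPoint.PowAt (Algebra.adjoin O ({u} : Set F)) p (f / algebraMap O F c) 𝔪 := by
    intro 𝔪 h𝔪 hp𝔪
    obtain ⟨y, hy⟩ := hcov.1 𝔪 h𝔪 (by rw [map_natCast]; exact hp𝔪)
    exact TopExit.powAt_of_depthIn_locAt _ p 𝔪 h𝔪.isPrime (le_of_eq hy) hcF (hY y)
  refine ⟨c, hc, hW, h0, NZ.ChartChange.hinf_of_h0 u hu p _ h0 ?_⟩
  intro 𝔪 h𝔪 hp𝔪 hcusp
  obtain ⟨y, hy⟩ := hcov.2 𝔪 h𝔪 (by rw [map_natCast]; exact hp𝔪) hcusp
  exact TopExit.powAt_of_depthIn_locAt _ p 𝔪 h𝔪.isPrime (le_of_eq hy) hcF (hY y)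

variable {k : Type*} [Field k] [Algebra O k] [IsFractionRing O k] [Algebra k F]

/-- **Row B5x, form of record: the level-free exit of a model.**  `p ≥ 3` a prime element of `O`
with perfect residue field, `k = Frac O` algebraically closed in `F`, a model of record covering
the two charts of `u` in cusp form, and the binders `hred0`, `hredinf` of
`PthPoint.exists_pow_eq_of_pointwise`.  If `f ≠ 0` is horizontal and has depth `≥ 1` on every
component, then there is a constant `c ≠ 0` of `O` such that for every extension `Ω` of `F`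
(whose finite subextensions have finite charts) and every `z ∈ Ω` with `z ^ p = f / c`: either
`f = c * g ^ p` with `g ∈ F`, or `z ∈ F(x)` for some `x ∈ Ω` algebraic over `k`. -/
theorem modelI_exit (p : ℕ) (hp : p.Prime) (hp3 : 3 ≤ p) (hπ : Prime (p : O))
    (hperf : ∀ a : O, ∃ b : O, (p : O) ∣ a - b ^ p)
    (hinj : Function.Injective (algebraMap O F))
    (hconst : ∀ y : F, IsAlgebraic k y → y ∈ (algebraMap k F).range)
    (D : IsModelI p (p : O) V R On Hor) (u : F) (hu : u ≠ 0) (hcov : CoversCusp (p : O) u R)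
    (hred0 : ∀ x : F, IsIntegral (Algebra.adjoin O ({u} : Set F)) x →
      IsIntegral (Algebra.adjoin O ({u} : Set F)) (x ^ p / (p : F)) →
      IsIntegral (Algebra.adjoin O ({u} : Set F)) (x / (p : F)))
    (hredinf : ∀ x : F, IsIntegral (Algebra.adjoin O ({u⁻¹} : Set F)) x →
      IsIntegral (Algebra.adjoin O ({u⁻¹} : Set F)) (x ^ p / (p : F)) →
      IsIntegral (Algebra.adjoin O ({u⁻¹} : Set F)) (x / (p : F)))
    (f : F) (hf : f ≠ 0) (hHor : Hor f)
    (h1 : ∀ W, ∃ c : O, c ≠ 0 ∧ DepthIn (V W) p (p : O) 1 f c) :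
    ∃ c : O, c ≠ 0 ∧
      ∀ (Ω : Type v) [Field Ω] [Algebra F Ω] [Algebra O Ω] [IsScalarTower O F Ω] [Algebra k Ω]
        [IsScalarTower k F Ω] [IsScalarTower O k Ω],
        (∀ L : IntermediateField F Ω, FiniteDimensional F L →
          Module.Finite (Algebra.adjoin O ({algebraMap F L u} : Set L))
            (integralClosure (Algebra.adjoin O ({algebraMap F L u} : Set L)) L)) →
        ∀ z : Ω, z ^ p = algebraMap F Ω (f / algebraMap O F c) →
          (∃ g : F, f = algebraMap O F c * g ^ p) ∨
            ∃ x : Ω, IsAlgebraic k x ∧ z ∈ IntermediateField.adjoin F {x} := by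
  obtain ⟨c, hc, -, h0, hinf⟩ := exists_const_powAt_cusp p hp hπ hperf hinj D u hu hcov f hf
    hHor h1
  have hcF : algebraMap O F c ≠ 0 := (map_ne_zero_iff _ hinj).mpr hc
  refine ⟨c, hc, ?_⟩
  intro Ω _ _ _ _ _ _ _ hfin z hz
  rcases TopExit.pow_or_const_of_powAt (k := k) p hp hp3 hπ hinj hconst u hu hfin hred0 hredinf
    _ z hz h0 hinf with ⟨g, hg⟩ | h
  · left
    exact ⟨g, by rw [← hg, mul_div_cancel₀ _ hcF]⟩
  · exact Or.inr h

end Exit

end Fermat.Agent.S33.Geo.ModelExitI
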