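import Mathlib
import Fermat.Agent.S33.Geo.CoverDescent
import Fermat.Agent.S33.Geo.ModelExitI
import Fermat.Agent.S33.Geo.FunII0Core
import Fermat.Agent.S30.Model.ChartProv
import Fermat.Agent.S30.Model.LaurentConst

/-!
# S33 (GEO, COV'), row C8: the exit of a model of the cover field, at the `q`-series over `ℚ̄`

`K ⊆ ℚ̄`, `ζ ∈ ℚ̄`, `T : ι → K(ζ)((q))`, `L0 = CoverFieldDefs.L0 N K ζ T` the cover field inside
`K((q))`, `b i` the image of `T i` in `ℚ̄((q))` and `L̄ = ℚ̄(X₀(N))(b i)` (the spelling of
`FunII0Exit.CoverExit`).  `O` is any discrete valuation ring with fraction field `K` acting on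
`L0` through `K`.

* `finite_chart_of_adjoin` : finiteness of the chart ring of a finite extension (the binder
  `hfin` of `ModelExitI.modelI_exit`), from `S30/Model/ChartProv.chart_finite`;
* `up_mem_of_mem_L1`, `up_mem_of_mem_L0` : the coefficientwise images of the top field and of
  the cover field lie in `L̄`;
* `exists_root_of_model` : **the instance of `ModelExitI.modelI_exit` + `FunII0Core`** at
  `F := L0`, `Ω := ℚ̄((q))`: for a model of record of `L0` over `O` (cusp cover of the two charts
  of `u`), a horizontal `f ∈ L0` of depth `≥ 1` on every component, and `X ^ p = f * H ^ p` with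
  `H ∈ L̄`, `H ≠ 0`: `X ^ p` is the `p`-th power of an element of `L̄`.
-/

set_option autoImplicit false
set_option linter.unusedSectionVars false
set_option linter.style.haveILetI false

open ModularCurve

noncomputable section

namespace Fermat.Agent.S33.Geo.FunII0Inst

open Fermat.Agent.S18.K1Defs Fermat.Agent.S18.K1Top Fermat.Agent.S36.CycloBase
open Fermat.Agent.S33.Geo.CoverFieldDefs Fermat.Agent.S30.Model

local notation "Qb" => AlgebraicClosure ℚ

/-! ### Finiteness of the charts of a finite extension -/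

/-- Finiteness of the chart ring of a finite extension `M` of `L`, in the shape of the binder
`hfin` of `ModelExitI.modelI_exit`. -/
theorem finite_chart_of_adjoin {O E L : Type*} [CommRing O] [IsDomain O]
    [IsDiscreteValuationRing O] [Field E] [CharZero E] [Algebra O E] [IsFractionRing O E]
    [Field L] [Algebra E L] [Algebra O L] [IsScalarTower O E L]
    (u : L) (hu : Transcendental E u)
    [FiniteDimensional (IntermediateField.adjoin E {u}) L]
    (M : Type*) [Field M] [Algebra L M] [Algebra O M] [IsScalarTower O L M]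
    [FiniteDimensional L M] :
    Module.Finite (Algebra.adjoin O ({algebraMap L M u} : Set M))
      (integralClosure (Algebra.adjoin O ({algebraMap L M u} : Set M)) M) := by
  let _ : Algebra E M := ((algebraMap L M).comp (algebraMap E L)).toAlgebra
  have : IsScalarTower E L M := IsScalarTower.of_algebraMap_eq (fun _ => rfl)
  have : IsScalarTower O E M := IsScalarTower.of_algebraMap_eq (fun x => by
    rw [IsScalarTower.algebraMap_apply O L M, IsScalarTower.algebraMap_apply O E L]
    rfl)
  have hu' : Transcendental E (algebraMap L M u) :=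
    (transcendental_algebraMap_iff (algebraMap L M).injective).mpr hu
  set K : IntermediateField E L := IntermediateField.adjoin E {u} with hK
  set φ : L →ₐ[E] M := IsScalarTower.toAlgHom E L M with hφ
  have hKmap : IntermediateField.adjoin E {algebraMap L M u} = K.map φ := by
    rw [hK, IntermediateField.adjoin_map, Set.image_singleton]
    rfl
  have : Module.Finite K M := Module.Finite.trans L M
  have hfd : FiniteDimensional (K.map φ) M :=
    Module.Finite.of_equiv_equiv (K.equivMap φ).toRingEquiv (RingEquiv.refl M)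
      (RingHom.ext fun k => rfl)
  have : FiniteDimensional (IntermediateField.adjoin E {algebraMap L M u}) M := by
    rw [hKmap]; exact hfd
  exact ChartProv.chart_finite (O := O) (E := E) (algebraMap L M u) hu'

/-! ### The cover field inside the geometric cover field -/

section Image

variable (N : ℕ) (K : IntermediateField ℚ Qb) (ζ : Qb) {ι : Type*}
  (T : ι → LaurentSeries (cyclo K ζ)) (b : ι → LaurentSeries Qb)

/-- The coefficientwise image of the top field `F₁(T_i)` lies in `L̄`. -/
theorem up_mem_of_mem_L1 (hb : ∀ i, coeffMap (algebraMap (cyclo K ζ) Qb) (T i) = b i)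
    {w : LaurentSeries (cyclo K ζ)} (hw : w ∈ L1 N K ζ T) :
    coeffMap (algebraMap (cyclo K ζ) Qb) w ∈
      IntermediateField.adjoin ↥(modularFunctionFieldBar N) (Set.range b) := by
  unfold L1 at hw
  induction hw using IntermediateField.adjoin_induction with
  | mem z hz =>
    obtain ⟨i, rfl⟩ := hz
    rw [hb i]
    exact IntermediateField.subset_adjoin _ _ ⟨i, rfl⟩
  | algebraMap z =>
    exact (IntermediateField.adjoin ↥(modularFunctionFieldBar N) (Set.range b)).algebraMap_mem
      (⟨_, coeffMap_mem_laurentBaseChange_hom (algebraMap (cyclo K ζ) Qb) z.2⟩ :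
        ↥(modularFunctionFieldBar N))
  | add x y _ _ hx hy =>
    rw [map_add]
    exact add_mem hx hy
  | inv x _ hx =>
    rw [map_inv₀]
    exact inv_mem hx
  | mul x y _ _ hx hy =>
    rw [map_mul]
    exact mul_mem hx hy

/-- The coefficientwise image of the cover field `L0` lies in `L̄`. -/
theorem up_mem_of_mem_L0 (hb : ∀ i, coeffMap (algebraMap (cyclo K ζ) Qb) (T i) = b i)
    {z : LaurentSeries K} (hz : z ∈ L0 N K ζ T) :
    coeffMap (algebraMap K Qb) z ∈
      IntermediateField.adjoin ↥(modularFunctionFieldBar N) (Set.range b) := by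
  rw [← CoverDescent.coeffMap_inclLS K ζ z]
  exact up_mem_of_mem_L1 N K ζ T b hb ((mem_L0_iff N K ζ T).mp hz)

/-- The constants lie in `L̄`. -/
theorem const_mem (c : Qb) :
    algebraMap Qb (LaurentSeries Qb) c ∈
      IntermediateField.adjoin ↥(modularFunctionFieldBar N) (Set.range b) :=
  (IntermediateField.adjoin ↥(modularFunctionFieldBar N) (Set.range b)).algebraMap_mem
    (algebraMap Qb ↥(modularFunctionFieldBar N) c)

end Image

/-! ### The exit -/

section Exit

variable (N : ℕ) (K : IntermediateField ℚ Qb) (ζ : Qb) {ι : Type*}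
  (T : ι → LaurentSeries (cyclo K ζ)) (b : ι → LaurentSeries Qb)

/-- **Row C8, instance of the model exit at the cover field.** -/
theorem exists_root_of_model {O : Type*} [CommRing O] [IsDomain O] [IsDiscreteValuationRing O]
    [Algebra O K] [IsFractionRing O K] [Algebra O ↥(L0 N K ζ T)]
    [IsScalarTower O K ↥(L0 N K ζ T)]
    (hb : ∀ i, coeffMap (algebraMap (cyclo K ζ) Qb) (T i) = b i)
    (p : ℕ) (hp : p.Prime) (hp3 : 3 ≤ p) (hπ : Prime (p : O))
    (hperf : ∀ a : O, ∃ c : O, (p : O) ∣ a - c ^ p)
    (hconst : ∀ y : ↥(L0 N K ζ T), IsAlgebraic K y → y ∈ (algebraMap K ↥(L0 N K ζ T)).range)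
    {ι' Y : Type*} {V : ι' → Subring ↥(L0 N K ζ T)} {R : Y → Subring ↥(L0 N K ζ T)}
    {On : Y → ι' → Prop} {Hor : ↥(L0 N K ζ T) → Prop}
    (D : Model.IsModelI p (p : O) V R On Hor) (u : ↥(L0 N K ζ T)) (hu : u ≠ 0)
    (hutr : Transcendental K u)
    [FiniteDimensional (IntermediateField.adjoin K {u}) ↥(L0 N K ζ T)]
    (hcov : Model.CoversCusp (p : O) u R)
    (hred0 : ∀ x : ↥(L0 N K ζ T), IsIntegral (Algebra.adjoin O ({u} : Set ↥(L0 N K ζ T))) x →
      IsIntegral (Algebra.adjoin O ({u} : Set ↥(L0 N K ζ T))) (x ^ p / (p : ↥(L0 N K ζ T))) →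
      IsIntegral (Algebra.adjoin O ({u} : Set ↥(L0 N K ζ T))) (x / (p : ↥(L0 N K ζ T))))
    (hredinf : ∀ x : ↥(L0 N K ζ T),
      IsIntegral (Algebra.adjoin O ({u⁻¹} : Set ↥(L0 N K ζ T))) x →
      IsIntegral (Algebra.adjoin O ({u⁻¹} : Set ↥(L0 N K ζ T))) (x ^ p / (p : ↥(L0 N K ζ T))) →
      IsIntegral (Algebra.adjoin O ({u⁻¹} : Set ↥(L0 N K ζ T))) (x / (p : ↥(L0 N K ζ T))))
    (f : ↥(L0 N K ζ T)) (hf : f ≠ 0) (hHor : Hor f)
    (h1 : ∀ W, ∃ c : O, c ≠ 0 ∧ Top.DepthIn (V W) p (p : O) 1 f c)
    (X H : LaurentSeries Qb)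
    (hH : H ∈ IntermediateField.adjoin ↥(modularFunctionFieldBar N) (Set.range b))
    (hH0 : H ≠ 0)
    (hX : X ^ p = coeffMap (algebraMap K Qb) (f : LaurentSeries K) * H ^ p) :
    ∃ e ∈ IntermediateField.adjoin ↥(modularFunctionFieldBar N) (Set.range b),
      X ^ p = e ^ p := by
  classical
  have hinj : Function.Injective (algebraMap O ↥(L0 N K ζ T)) :=
    ChartProv.algebraMap_injective_base O K ↥(L0 N K ζ T)
  obtain ⟨c, hc, hexit⟩ := ModelExitI.modelI_exit (k := K) p hp hp3 hπ hperf hinj hconst D u hu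
    hcov hred0 hredinf f hf hHor h1
  -- the ambient structures on `ℚ̄((q))`
  let j : ↥(L0 N K ζ T) →+* LaurentSeries Qb :=
    (coeffMap (algebraMap K Qb)).comp (algebraMap ↥(L0 N K ζ T) (LaurentSeries K))
  letI algF : Algebra ↥(L0 N K ζ T) (LaurentSeries Qb) := j.toAlgebra
  letI algO : Algebra O (LaurentSeries Qb) := (j.comp (algebraMap O ↥(L0 N K ζ T))).toAlgebra
  have hKconst : ∀ a : K, algebraMap K (LaurentSeries Qb) a
      = j (algebraMap K ↥(L0 N K ζ T) a) := by
    intro a
    show algebraMap Qb (LaurentSeries Qb) (algebraMap K Qb a)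
      = coeffMap (algebraMap K Qb) (algebraMap K (LaurentSeries K) a)
    rw [algebraMap_laurentSeries_eq_single, algebraMap_laurentSeries_eq_single, coeffMap_single]
  haveI t1 := IsScalarTower.of_algebraMap_eq (R := O) (S := ↥(L0 N K ζ T))
    (A := LaurentSeries Qb) fun _ => rfl
  haveI t2 := IsScalarTower.of_algebraMap_eq (R := K) (S := ↥(L0 N K ζ T))
    (A := LaurentSeries Qb) fun a => hKconst a
  haveI t3 := IsScalarTower.of_algebraMap_eq (R := O) (S := K) (A := LaurentSeries Qb)
    fun a => by
      rw [hKconst, ← IsScalarTower.algebraMap_apply O K ↥(L0 N K ζ T)]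
      rfl
  have hfin : ∀ L' : IntermediateField ↥(L0 N K ζ T) (LaurentSeries Qb),
      FiniteDimensional ↥(L0 N K ζ T) L' →
      Module.Finite (Algebra.adjoin O ({algebraMap ↥(L0 N K ζ T) L' u} : Set L'))
        (integralClosure (Algebra.adjoin O ({algebraMap ↥(L0 N K ζ T) L' u} : Set L')) L') := by
    intro L' hL'
    exact finite_chart_of_adjoin (O := O) (E := K) u hutr L'
  have hexitΩ := hexit (LaurentSeries Qb) hfin
  -- the constants
  have halg : ∀ x : LaurentSeries Qb, IsAlgebraic K x →
      x ∈ (IntermediateField.adjoin ↥(modularFunctionFieldBar N) (Set.range b)).toSubfield ∧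
        ∃ d ∈ (IntermediateField.adjoin ↥(modularFunctionFieldBar N) (Set.range b)).toSubfield,
          d ^ p = x := by
    intro x hx
    have hxQ : IsAlgebraic Qb x := by
      obtain ⟨P, hP0, hP⟩ := hx
      refine ⟨P.map (algebraMap K Qb), ?_, ?_⟩
      · exact (Polynomial.map_ne_zero_iff (algebraMap K Qb).injective).mpr hP0
      · rw [Polynomial.aeval_def, Polynomial.eval₂_map]
        have h2 : (algebraMap Qb (LaurentSeries Qb)).comp (algebraMap K Qb)
            = algebraMap K (LaurentSeries Qb) := RingHom.ext fun a => rfl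
        rw [h2]
        exact hP
    obtain ⟨c₀, rfl⟩ := LaurentConst.exists_eq_algebraMap_of_isAlgebraic x hxQ
    obtain ⟨d, hd⟩ := IsAlgClosed.exists_pow_nat_eq c₀ hp.pos
    exact ⟨const_mem N b c₀, algebraMap Qb (LaurentSeries Qb) d, const_mem N b d, by
      rw [← map_pow, hd]⟩
  have hFS : ∀ a : ↥(L0 N K ζ T), algebraMap ↥(L0 N K ζ T) (LaurentSeries Qb) a ∈
      (IntermediateField.adjoin ↥(modularFunctionFieldBar N) (Set.range b)).toSubfield :=
    fun a => up_mem_of_mem_L0 N K ζ T b hb a.2
  have hcΩ : algebraMap O (LaurentSeries Qb) c ≠ 0 := by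
    show j (algebraMap O ↥(L0 N K ζ T) c) ≠ 0
    exact (map_ne_zero j).mpr ((map_ne_zero_iff _ hinj).mpr hc)
  exact FunII0Core.exists_root_of_exit (k := K) p hp.ne_zero f c hcΩ hexitΩ
    (IntermediateField.adjoin ↥(modularFunctionFieldBar N) (Set.range b)).toSubfield hFS halg
    X H hH hH0 hX

end Exit

end Fermat.Agent.S33.Geo.FunII0Inst
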