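import Mathlib
import Fermat.Agent.S33.Geo.FunII0Data
import Fermat.Agent.S33.Geo.FunII0Exit
import Fermat.Agent.S33.Geo.FunII0Inst

/-!
# S33 (GEO, COV'), row C8: from the model of the cover field to the cover exit

* `exists_pow_eq` : a function of level `L` whose divisor is divisible by `p` is a `p`-th power
  among the `q`-series over `ℚ̄`;
* `coverExit_of_root` : the cover data (`FunII0Data.CoverData`) and a `p`-th root of `x` in the
  field generated by the `T i` give `FunII0Exit.CoverExit`;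
* `coverExit_of_model` : **the last step of row C8**: the cover data of `x`, a base field `K`,
  series `T₁ i` over `K(ζ)` lifting the `T i`, an element `f` of the cover field
  `CoverFieldDefs.L0 L K ζ T₁` lifting `F'`, and a model of record of the cover field over a
  discrete valuation ring `O` of `K` on which `f` is horizontal of depth `≥ 1` on every
  component, give `FunII0Exit.CoverExit L A p x`.
-/

set_option autoImplicit false
set_option linter.unusedSectionVars false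
set_option linter.style.haveILetI false

open HahnSeries ModularCurve AlgebraicCurve

noncomputable section

namespace Fermat.Agent.S33.Geo.FunII0Red

open Fermat.Agent.S30 Fermat.Agent.S30.Producer
open Fermat.Agent.S18.K1Defs Fermat.Agent.S36.CycloBase
open Fermat.Agent.S33.Geo.Contract Fermat.Agent.S33.Geo.FunLevel
open Fermat.Agent.S33.Geo.FunII0Data Fermat.Agent.S33.Geo.FunII0Exit
open Fermat.Agent.S33.Geo.CoverFieldDefs

/-- A function whose divisor is divisible by `p` is a `p`-th power among the `q`-series. -/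
theorem exists_pow_eq {L p : ℕ} (hp : p.Prime) {x : FN L} (hx0 : x ≠ 0)
    (hdiv : E4.DivBy L p x) : ∃ X : LaurentSeries Qb, X ^ p = (x : LaurentSeries Qb) := by
  have hxL : (x : LaurentSeries Qb) ≠ 0 := GaSat.coe_ne_zero_FN L hx0
  obtain ⟨c, hc⟩ : ∃ c : Qb, c = (x : LaurentSeries Qb).leadingCoeff := ⟨_, rfl⟩
  have hc0 : c ≠ 0 := by
    rw [hc]
    exact leadingCoeff_ne_zero.mpr hxL
  obtain ⟨x₁, hx₁⟩ : ∃ x₁ : LaurentSeries Qb,
      x₁ = (x : LaurentSeries Qb) * algebraMap Qb (LaurentSeries Qb) c⁻¹ := ⟨_, rfl⟩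
  have hconst0 : algebraMap Qb (LaurentSeries Qb) c⁻¹ ≠ 0 :=
    (map_ne_zero _).mpr (inv_ne_zero hc0)
  have hlc : x₁.leadingCoeff = 1 := by
    rw [hx₁, leadingCoeff_mul, Fermat.Agent.S36.Descent.leadingCoeff_algebraMap, ← hc,
      mul_inv_cancel₀ hc0]
  have hord : (p : ℤ) ∣ x₁.order := by
    have h1 : x₁.order = (x : LaurentSeries Qb).order := by
      rw [hx₁, HahnSeries.order_mul hxL hconst0, algebraMap_laurentSeries_eq_single,
        HahnSeries.order_single (inv_ne_zero hc0), add_zero]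
    rw [h1]
    exact dvd_order_of_divBy hx0 hdiv
  obtain ⟨z, hz, -, -⟩ := Fermat.Agent.S44.L.RootLS.exists_root hp.ne_zero x₁ hord hlc
  obtain ⟨d, hd⟩ := IsAlgClosed.exists_pow_nat_eq c hp.pos
  refine ⟨algebraMap Qb (LaurentSeries Qb) d * z, ?_⟩
  rw [mul_pow, hz, ← map_pow, hd, hx₁, mul_comm (x : LaurentSeries Qb), ← mul_assoc, ← map_mul,
    mul_inv_cancel₀ hc0, map_one, one_mul]

/-- The cover data and a `p`-th root of `x` in the field generated by the `T i` give the exit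
of the cover chain. -/
theorem coverExit_of_root {L p : ℕ} {A : ValuationSubring Qb} {w : FN L → FN L} {x : FN L}
    {n : ℕ} {y : Fin n → FN L} {T : Fin n → LaurentSeries Qb} {F' H : LaurentSeries Qb}
    (D : CoverData L A p w x y T F' H) {e : LaurentSeries Qb}
    (he : e ∈ IntermediateField.adjoin (FN L) (Set.range T))
    (hxe : (x : LaurentSeries Qb) = e ^ p) : CoverExit L A p x :=
  ⟨n, y, T, e, D.root, fun i σ hσ hμ => ⟨1, by rw [D.fix i σ hσ hμ, one_pow, mul_one]⟩, he, hxe⟩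

/-- **The last step of row C8.** -/
theorem coverExit_of_model {L p : ℕ} (hp : p.Prime) (hp3 : 3 ≤ p) {A : ValuationSubring Qb}
    {w : FN L → FN L} {x : FN L} (hx0 : x ≠ 0) (hdiv : E4.DivBy L p x)
    {n : ℕ} {y : Fin n → FN L} {T : Fin n → LaurentSeries Qb} {F' H : LaurentSeries Qb}
    (D : CoverData L A p w x y T F' H)
    (K : IntermediateField ℚ Qb) (ζ : Qb) (T₁ : Fin n → LaurentSeries (cyclo K ζ))
    (hb : ∀ i, coeffMap (algebraMap (cyclo K ζ) Qb) (T₁ i) = T i)
    {O : Type*} [CommRing O] [IsDomain O] [IsDiscreteValuationRing O]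
    [Algebra O K] [IsFractionRing O K] [Algebra O ↥(L0 L K ζ T₁)]
    [IsScalarTower O K ↥(L0 L K ζ T₁)]
    (hπ : Prime (p : O)) (hperf : ∀ a : O, ∃ c : O, (p : O) ∣ a - c ^ p)
    (hconst : ∀ z : ↥(L0 L K ζ T₁), IsAlgebraic K z → z ∈ (algebraMap K ↥(L0 L K ζ T₁)).range)
    {ι' Y : Type*} {V : ι' → Subring ↥(L0 L K ζ T₁)} {R : Y → Subring ↥(L0 L K ζ T₁)}
    {On : Y → ι' → Prop} {Hor : ↥(L0 L K ζ T₁) → Prop}
    (Dm : Model.IsModelI p (p : O) V R On Hor) (u : ↥(L0 L K ζ T₁)) (hu : u ≠ 0)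
    (hutr : Transcendental K u)
    [FiniteDimensional (IntermediateField.adjoin K {u}) ↥(L0 L K ζ T₁)]
    (hcov : Model.CoversCusp (p : O) u R)
    (hred0 : ∀ z : ↥(L0 L K ζ T₁), IsIntegral (Algebra.adjoin O ({u} : Set ↥(L0 L K ζ T₁))) z →
      IsIntegral (Algebra.adjoin O ({u} : Set ↥(L0 L K ζ T₁))) (z ^ p / (p : ↥(L0 L K ζ T₁))) →
      IsIntegral (Algebra.adjoin O ({u} : Set ↥(L0 L K ζ T₁))) (z / (p : ↥(L0 L K ζ T₁))))
    (hredinf : ∀ z : ↥(L0 L K ζ T₁),
      IsIntegral (Algebra.adjoin O ({u⁻¹} : Set ↥(L0 L K ζ T₁))) z →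
      IsIntegral (Algebra.adjoin O ({u⁻¹} : Set ↥(L0 L K ζ T₁)))
        (z ^ p / (p : ↥(L0 L K ζ T₁))) →
      IsIntegral (Algebra.adjoin O ({u⁻¹} : Set ↥(L0 L K ζ T₁))) (z / (p : ↥(L0 L K ζ T₁))))
    (f : ↥(L0 L K ζ T₁)) (hfF : coeffMap (algebraMap K Qb) (f : LaurentSeries K) = F')
    (hHor : Hor f) (h1 : ∀ W, ∃ c : O, c ≠ 0 ∧ Top.DepthIn (V W) p (p : O) 1 f c) :
    CoverExit L A p x := by
  obtain ⟨X, hX⟩ := exists_pow_eq hp hx0 hdiv
  have hf : f ≠ 0 := by
    rintro rfl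
    apply D.neF
    rw [← hfF]
    exact map_zero _
  obtain ⟨e, he, hXe⟩ := FunII0Inst.exists_root_of_model L K ζ T₁ T hb p hp hp3 hπ hperf hconst
    Dm u hu hutr hcov hred0 hredinf f hf hHor h1 X H D.memH D.neH (by rw [hX, hfF]; exact D.eq)
  exact coverExit_of_root D he (by rw [← hX, hXe])

end Fermat.Agent.S33.Geo.FunII0Red
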