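import Mathlib
import Fermat.Agent.S33.Geo.ModelI
import Fermat.Agent.S33.Geo.TopExit
import Fermat.Agent.S44.L.NZ.ChartChange

/-!
# S33 / GEO / Stage B: the level-free exit of a model, ELEMENT form of the blocks, cusp covering

Level-free (Mathlib + `S33/Geo/ModelI` + `S33/Geo/TopExit` + `S44/L/NZ/ChartChange`).

The two landed exits are `ModelExit.model_exit` (`Model.IsModel` with the FULL covering
`Model.Covers`) and `ModelExitI.modelI_exit` (`Model.IsModelI` with `Model.CoversCusp`).  The
cover model of the row C3 is a `Model.IsModel` (blocks with the horizontal clause in ELEMENT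
form, supplied by `HorPlace`) together with `Model.CoversCusp`.  This file is the exit for that
combination; the proofs are those of `ModelExitI` with `Model.IsModel.top_core`.

* `exists_const_powAt_cusp` : ONE constant `c` with depth `≥ 2` on every component and
  `PthPoint.PowAt` for `f / c` at every closed point of the fibre of both charts.
* `model_exit_cusp` : for this `c`, for every extension `Ω` of `F` (with finite charts in the
  finite subextensions) and every `z ∈ Ω` with `z ^ p = f / c`: either `f = c * g ^ p` with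
  `g ∈ F`, or `z ∈ F(x)` for some `x ∈ Ω` algebraic over `k`.
-/

set_option autoImplicit false
set_option linter.unusedSectionVars false
set_option linter.unusedVariables false

universe u v

namespace Fermat.Agent.S33.Geo.ModelExitC

open Fermat.Agent.S33.Geo.Top Fermat.Agent.S33.Geo.Model Fermat.Agent.S44.L

section Exit

variable {O : Type*} [CommRing O] [IsDomain O] [IsDiscreteValuationRing O]
  {F : Type u} [Field F] [Algebra O F]
  {ι Y : Type*} {V : ι → Subring F} {R : Y → Subring F} {On : Y → ι → Prop} {Hor : F → Prop}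

/-- **`TOP` on a model (element form of the blocks) covering the two charts in cusp form,
`ϖ = p`, `top = 2`**: ONE constant `c` such that the horizontal function `f` has depth `≥ 2`
with constant `c` on every component, and `f / c` has the datum `PthPoint.PowAt` at every closed
point of the fibre `p = 0` of both charts. -/
theorem exists_const_powAt_cusp (p : ℕ) (hp : p.Prime) (hπ : Prime (p : O))
    (hperf : ∀ a : O, ∃ b : O, (p : O) ∣ a - b ^ p)
    (hinj : Function.Injective (algebraMap O F)) (D : IsModel p (p : O) V R On Hor) (u : F)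
    (hu : u ≠ 0) (hcov : CoversCusp (p : O) u R) (f : F) (hf : f ≠ 0) (hHor : Hor f)
    (h1 : ∀ W, ∃ c : O, c ≠ 0 ∧ DepthIn (V W) p (p : O) 1 f c) :
    ∃ c : O, c ≠ 0 ∧ (∀ W, DepthIn (V W) p (p : O) 2 f c) ∧
      (∀ 𝔪 : Ideal (integralClosure (Algebra.adjoin O ({u} : Set F)) F), 𝔪.IsMaximal →
        (p : integralClosure (Algebra.adjoin O ({u} : Set F)) F) ∈ 𝔪 →
        PthPoint.PowAt (Algebra.adjoin O ({u} : Set F)) p (f / algebraMap O F c) 𝔪) ∧
      (∀ 𝔪 : Ideal (integralClosure (Algebra.adjoin O ({u⁻¹} : Set F)) F), 𝔪.IsMaximal →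
        (p : integralClosure (Algebra.adjoin O ({u⁻¹} : Set F)) F) ∈ 𝔪 →
        PthPoint.PowAt (Algebra.adjoin O ({u⁻¹} : Set F)) p (f / algebraMap O F c) 𝔪) := by
  obtain ⟨c, hc, hW, hY⟩ := D.top_core hp hπ.irreducible hperf (top := 2) le_rfl hp.two_le
    (by simp) hinj f hf hHor h1
  have hcF : algebraMap O F c ≠ 0 := (map_ne_zero_iff _ hinj).mpr hc
  have h0 : ∀ 𝔪 : Ideal (integralClosure (Algebra.adjoin O ({u} : Set F)) F), 𝔪.IsMaximal →
      (p : integralClosure (Algebra.adjoin O ({u} : Set F)) F) ∈ 𝔪 →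
      PthPoint.PowAt (Algebra.adjoin O ({u} : Set F)) p (f / algebraMap O F c) 𝔪 := by
    intro 𝔪 h𝔪 hp𝔪
    obtain ⟨y, hy⟩ := hcov.1 𝔪 h𝔪 (by rw [map_natCast]; exact hp𝔪)
    exact TopExit.powAt_of_depthIn_locAt _ p 𝔪 h𝔪.isPrime (le_of_eq hy) hcF (hY y)
  refine ⟨c, hc, hW, h0, NZ.ChartChange.hinf_of_h0 u hu p _ h0 ?_⟩
  intro 𝔪 h𝔪 hp𝔪 hcusp
  obtain ⟨y, hy⟩ := hcov.2 𝔪 h𝔪 (by rw [map_natCast]; exact hp𝔪) hcusp
  exact TopExit.powAt_of_depthIn_locAt _ p 𝔪 h𝔪.isPrime (le_of_eq hy) hcF (hY y)

variable {k : Type*} [Field k] [Algebra O k] [IsFractionRing O k] [Algebra k F]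

/-- **The level-free exit of a model, element form of the blocks, cusp covering.**  `p ≥ 3` a
prime element of `O` with perfect residue field, `k = Frac O` algebraically closed in `F`, a
model `Model.IsModel` covering the two charts of `u` in cusp form, and the binders `hred0`,
`hredinf` of `PthPoint.exists_pow_eq_of_pointwise`.  If `f ≠ 0` is horizontal and has depth
`≥ 1` on every component, then there is a constant `c ≠ 0` of `O` such that for every extension
`Ω` of `F` (whose finite subextensions have finite charts) and every `z ∈ Ω` with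
`z ^ p = f / c`: either `f = c * g ^ p` with `g ∈ F`, or `z ∈ F(x)` for some `x ∈ Ω` algebraic
over `k`. -/
theorem model_exit_cusp (p : ℕ) (hp : p.Prime) (hp3 : 3 ≤ p) (hπ : Prime (p : O))
    (hperf : ∀ a : O, ∃ b : O, (p : O) ∣ a - b ^ p)
    (hinj : Function.Injective (algebraMap O F))
    (hconst : ∀ y : F, IsAlgebraic k y → y ∈ (algebraMap k F).range)
    (D : IsModel p (p : O) V R On Hor) (u : F) (hu : u ≠ 0) (hcov : CoversCusp (p : O) u R)
    (hred0 : ∀ x : F, IsIntegral (Algebra.adjoin O ({u} : Set F)) x →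
      IsIntegral (Algebra.adjoin O ({u} : Set F)) (x ^ p / (p : F)) →
      IsIntegral (Algebra.adjoin O ({u} : Set F)) (x / (p : F)))
    (hredinf : ∀ x : F, IsIntegral (Algebra.adjoin O ({u⁻¹} : Set F)) x →
      IsIntegral (Algebra.adjoin O ({u⁻¹} : Set F)) (x ^ p / (p : F)) →
      IsIntegral (Algebra.adjoin O ({u⁻¹} : Set F)) (x / (p : F)))
    (f : F) (hf : f ≠ 0) (hHor : Hor f)
    (h1 : ∀ W, ∃ c : O, c ≠ 0 ∧ DepthIn (V W) p (p : O) 1 f c) :
    ∃ c : O, c ≠ 0 ∧ (∀ W, DepthIn (V W) p (p : O) 2 f c) ∧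
      ∀ (Ω : Type v) [Field Ω] [Algebra F Ω] [Algebra O Ω] [IsScalarTower O F Ω] [Algebra k Ω]
        [IsScalarTower k F Ω] [IsScalarTower O k Ω],
        (∀ L : IntermediateField F Ω, FiniteDimensional F L →
          Module.Finite (Algebra.adjoin O ({algebraMap F L u} : Set L))
            (integralClosure (Algebra.adjoin O ({algebraMap F L u} : Set L)) L)) →
        ∀ z : Ω, z ^ p = algebraMap F Ω (f / algebraMap O F c) →
          (∃ g : F, f = algebraMap O F c * g ^ p) ∨
            ∃ x : Ω, IsAlgebraic k x ∧ z ∈ IntermediateField.adjoin F {x} := by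
  obtain ⟨c, hc, hW, h0, hinf⟩ := exists_const_powAt_cusp p hp hπ hperf hinj D u hu hcov f hf
    hHor h1
  have hcF : algebraMap O F c ≠ 0 := (map_ne_zero_iff _ hinj).mpr hc
  refine ⟨c, hc, hW, ?_⟩
  intro Ω _ _ _ _ _ _ _ hfin z hz
  rcases TopExit.pow_or_const_of_powAt (k := k) p hp hp3 hπ hinj hconst u hu hfin hred0 hredinf
    _ z hz h0 hinf with ⟨g, hg⟩ | h
  · left
    exact ⟨g, by rw [← hg, mul_div_cancel₀ _ hcF]⟩
  · exact Or.inr h

end Exit

end Fermat.Agent.S33.Geo.ModelExitC
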