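import Mathlib
import Fermat.Agent.S33.Geo.FunII0Red
import Fermat.Agent.S33.Geo.ModelExitC

/-!
# S33 (GEO, COV'), row C8: the last step for a model in the element form (`Model.IsModel`)

The output of row C3 (`CoverModel.cover_model_exit`) is a model of the cover field in the
ELEMENT form of the blocks, `Model.IsModel` (the ideal form `Model.IsModelI` is not available on
the cover), together with `Model.CoversCusp`.  The level-free exit for this pair is
`ModelExitC.model_exit_cusp`.  This file is the twin of `FunII0Inst.exists_root_of_model` and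
`FunII0Red.coverExit_of_model` for `Model.IsModel`; every other binder is verbatim.

* `exists_root_of_modelC` : `FunII0Inst.exists_root_of_model` with `D : Model.IsModel ..`;
* `coverExit_of_modelC` : `FunII0Red.coverExit_of_model` with `Dm : Model.IsModel ..`.
-/

set_option autoImplicit false
set_option linter.unusedSectionVars false
set_option linter.style.haveILetI false

noncomputable section

namespace Fermat.Agent.S33.Geo.FunII0RedC

local notation "Qb" => AlgebraicClosure ℚ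

section Exit

open ModularCurve
open Fermat.Agent.S18.K1Defs Fermat.Agent.S18.K1Top Fermat.Agent.S36.CycloBase
open Fermat.Agent.S33.Geo.CoverFieldDefs Fermat.Agent.S30.Model
open Fermat.Agent.S33.Geo.FunII0Inst

variable (N : ℕ) (K : IntermediateField ℚ Qb) (ζ : Qb) {ι : Type*}
  (T : ι → LaurentSeries (cyclo K ζ)) (b : ι → LaurentSeries Qb)

/-- **Row C8, instance of the model exit at the cover field, element form of the blocks**
(`Model.IsModel`, the output of row C3): `FunII0Inst.exists_root_of_model` with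
`ModelExitC.model_exit_cusp` in place of `ModelExitI.modelI_exit`. -/
theorem exists_root_of_modelC {O : Type*} [CommRing O] [IsDomain O] [IsDiscreteValuationRing O]
    [Algebra O K] [IsFractionRing O K] [Algebra O ↥(L0 N K ζ T)]
    [IsScalarTower O K ↥(L0 N K ζ T)]
    (hb : ∀ i, coeffMap (algebraMap (cyclo K ζ) Qb) (T i) = b i)
    (p : ℕ) (hp : p.Prime) (hp3 : 3 ≤ p) (hπ : Prime (p : O))
    (hperf : ∀ a : O, ∃ c : O, (p : O) ∣ a - c ^ p)
    (hconst : ∀ y : ↥(L0 N K ζ T), IsAlgebraic K y → y ∈ (algebraMap K ↥(L0 N K ζ T)).range)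
    {ι' Y : Type*} {V : ι' → Subring ↥(L0 N K ζ T)} {R : Y → Subring ↥(L0 N K ζ T)}
    {On : Y → ι' → Prop} {Hor : ↥(L0 N K ζ T) → Prop}
    (D : Model.IsModel p (p : O) V R On Hor) (u : ↥(L0 N K ζ T)) (hu : u ≠ 0)
    (hutr : Transcendental K u)
    [FiniteDimensional (IntermediateField.adjoin K {u}) ↥(L0 N K ζ T)]
    (hcov : Model.CoversCusp (p : O) u R)
    (hred0 : ∀ x : ↥(L0 N K ζ T), IsIntegral (Algebra.adjoin O ({u} : Set ↥(L0 N K ζ T))) x →
      IsIntegral (Algebra.adjoin O ({u} : Set ↥(L0 N K ζ T))) (x ^ p / (p : ↥(L0 N K ζ T))) →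
      IsIntegral (Algebra.adjoin O ({u} : Set ↥(L0 N K ζ T))) (x / (p : ↥(L0 N K ζ T))))
    (hredinf : ∀ x : ↥(L0 N K ζ T),
      IsIntegral (Algebra.adjoin O ({u⁻¹} : Set ↥(L0 N K ζ T))) x →
      IsIntegral (Algebra.adjoin O ({u⁻¹} : Set ↥(L0 N K ζ T))) (x ^ p / (p : ↥(L0 N K ζ T))) →
      IsIntegral (Algebra.adjoin O ({u⁻¹} : Set ↥(L0 N K ζ T))) (x / (p : ↥(L0 N K ζ T))))
    (f : ↥(L0 N K ζ T)) (hf : f ≠ 0) (hHor : Hor f)
    (h1 : ∀ W, ∃ c : O, c ≠ 0 ∧ Top.DepthIn (V W) p (p : O) 1 f c)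
    (X H : LaurentSeries Qb)
    (hH : H ∈ IntermediateField.adjoin ↥(modularFunctionFieldBar N) (Set.range b))
    (hH0 : H ≠ 0)
    (hX : X ^ p = coeffMap (algebraMap K Qb) (f : LaurentSeries K) * H ^ p) :
    ∃ e ∈ IntermediateField.adjoin ↥(modularFunctionFieldBar N) (Set.range b),
      X ^ p = e ^ p := by
  classical
  have hinj : Function.Injective (algebraMap O ↥(L0 N K ζ T)) :=
    ChartProv.algebraMap_injective_base O K ↥(L0 N K ζ T)
  obtain ⟨c, hc, -, hexit⟩ := ModelExitC.model_exit_cusp (k := K) p hp hp3 hπ hperf hinj hconst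
    D u hu hcov hred0 hredinf f hf hHor h1
  -- the ambient structures on `ℚ̄((q))`
  let j : ↥(L0 N K ζ T) →+* LaurentSeries Qb :=
    (coeffMap (algebraMap K Qb)).comp (algebraMap ↥(L0 N K ζ T) (LaurentSeries K))
  letI algF : Algebra ↥(L0 N K ζ T) (LaurentSeries Qb) := j.toAlgebra
  letI algO : Algebra O (LaurentSeries Qb) := (j.comp (algebraMap O ↥(L0 N K ζ T))).toAlgebra
  have hKconst : ∀ a : K, algebraMap K (LaurentSeries Qb) a
      = j (algebraMap K ↥(L0 N K ζ T) a) := by
    intro a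
    show algebraMap Qb (LaurentSeries Qb) (algebraMap K Qb a)
      = coeffMap (algebraMap K Qb) (algebraMap K (LaurentSeries K) a)
    rw [algebraMap_laurentSeries_eq_single, algebraMap_laurentSeries_eq_single, coeffMap_single]
  haveI t1 := IsScalarTower.of_algebraMap_eq (R := O) (S := ↥(L0 N K ζ T))
    (A := LaurentSeries Qb) fun _ => rfl
  haveI t2 := IsScalarTower.of_algebraMap_eq (R := K) (S := ↥(L0 N K ζ T))
    (A := LaurentSeries Qb) fun a => hKconst a
  haveI t3 := IsScalarTower.of_algebraMap_eq (R := O) (S := K) (A := LaurentSeries Qb)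
    fun a => by
      rw [hKconst, ← IsScalarTower.algebraMap_apply O K ↥(L0 N K ζ T)]
      rfl
  have hfin : ∀ L' : IntermediateField ↥(L0 N K ζ T) (LaurentSeries Qb),
      FiniteDimensional ↥(L0 N K ζ T) L' →
      Module.Finite (Algebra.adjoin O ({algebraMap ↥(L0 N K ζ T) L' u} : Set L'))
        (integralClosure (Algebra.adjoin O ({algebraMap ↥(L0 N K ζ T) L' u} : Set L')) L') := by
    intro L' hL'
    exact finite_chart_of_adjoin (O := O) (E := K) u hutr L'
  have hexitΩ := hexit (LaurentSeries Qb) hfin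
  -- the constants
  have halg : ∀ x : LaurentSeries Qb, IsAlgebraic K x →
      x ∈ (IntermediateField.adjoin ↥(modularFunctionFieldBar N) (Set.range b)).toSubfield ∧
        ∃ d ∈ (IntermediateField.adjoin ↥(modularFunctionFieldBar N) (Set.range b)).toSubfield,
          d ^ p = x := by
    intro x hx
    have hxQ : IsAlgebraic Qb x := by
      obtain ⟨P, hP0, hP⟩ := hx
      refine ⟨P.map (algebraMap K Qb), ?_, ?_⟩
      · exact (Polynomial.map_ne_zero_iff (algebraMap K Qb).injective).mpr hP0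
      · rw [Polynomial.aeval_def, Polynomial.eval₂_map]
        have h2 : (algebraMap Qb (LaurentSeries Qb)).comp (algebraMap K Qb)
            = algebraMap K (LaurentSeries Qb) := RingHom.ext fun a => rfl
        rw [h2]
        exact hP
    obtain ⟨c₀, rfl⟩ := LaurentConst.exists_eq_algebraMap_of_isAlgebraic x hxQ
    obtain ⟨d, hd⟩ := IsAlgClosed.exists_pow_nat_eq c₀ hp.pos
    exact ⟨const_mem N b c₀, algebraMap Qb (LaurentSeries Qb) d, const_mem N b d, by
      rw [← map_pow, hd]⟩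
  have hFS : ∀ a : ↥(L0 N K ζ T), algebraMap ↥(L0 N K ζ T) (LaurentSeries Qb) a ∈
      (IntermediateField.adjoin ↥(modularFunctionFieldBar N) (Set.range b)).toSubfield :=
    fun a => up_mem_of_mem_L0 N K ζ T b hb a.2
  have hcΩ : algebraMap O (LaurentSeries Qb) c ≠ 0 := by
    show j (algebraMap O ↥(L0 N K ζ T) c) ≠ 0
    exact (map_ne_zero j).mpr ((map_ne_zero_iff _ hinj).mpr hc)
  exact FunII0Core.exists_root_of_exit (k := K) p hp.ne_zero f c hcΩ hexitΩ
    (IntermediateField.adjoin ↥(modularFunctionFieldBar N) (Set.range b)).toSubfield hFS halg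
    X H hH hH0 hX

end Exit

section Red

open HahnSeries ModularCurve AlgebraicCurve
open Fermat.Agent.S30 Fermat.Agent.S30.Producer
open Fermat.Agent.S18.K1Defs Fermat.Agent.S36.CycloBase
open Fermat.Agent.S33.Geo.Contract Fermat.Agent.S33.Geo.FunLevel
open Fermat.Agent.S33.Geo.FunII0Data Fermat.Agent.S33.Geo.FunII0Exit
open Fermat.Agent.S33.Geo.CoverFieldDefs Fermat.Agent.S33.Geo.FunII0Red

/-- **The last step of row C8, element form of the blocks** (`Model.IsModel`, the output of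
row C3): `FunII0Red.coverExit_of_model` for a model `Model.IsModel` of the cover field. -/
theorem coverExit_of_modelC {L p : ℕ} (hp : p.Prime) (hp3 : 3 ≤ p) {A : ValuationSubring Qb}
    {w : FN L → FN L} {x : FN L} (hx0 : x ≠ 0) (hdiv : E4.DivBy L p x)
    {n : ℕ} {y : Fin n → FN L} {T : Fin n → LaurentSeries Qb} {F' H : LaurentSeries Qb}
    (D : CoverData L A p w x y T F' H)
    (K : IntermediateField ℚ Qb) (ζ : Qb) (T₁ : Fin n → LaurentSeries (cyclo K ζ))
    (hb : ∀ i, coeffMap (algebraMap (cyclo K ζ) Qb) (T₁ i) = T i)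
    {O : Type*} [CommRing O] [IsDomain O] [IsDiscreteValuationRing O]
    [Algebra O K] [IsFractionRing O K] [Algebra O ↥(L0 L K ζ T₁)]
    [IsScalarTower O K ↥(L0 L K ζ T₁)]
    (hπ : Prime (p : O)) (hperf : ∀ a : O, ∃ c : O, (p : O) ∣ a - c ^ p)
    (hconst : ∀ z : ↥(L0 L K ζ T₁), IsAlgebraic K z → z ∈ (algebraMap K ↥(L0 L K ζ T₁)).range)
    {ι' Y : Type*} {V : ι' → Subring ↥(L0 L K ζ T₁)} {R : Y → Subring ↥(L0 L K ζ T₁)}
    {On : Y → ι' → Prop} {Hor : ↥(L0 L K ζ T₁) → Prop}
    (Dm : Model.IsModel p (p : O) V R On Hor) (u : ↥(L0 L K ζ T₁)) (hu : u ≠ 0)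
    (hutr : Transcendental K u)
    [FiniteDimensional (IntermediateField.adjoin K {u}) ↥(L0 L K ζ T₁)]
    (hcov : Model.CoversCusp (p : O) u R)
    (hred0 : ∀ z : ↥(L0 L K ζ T₁), IsIntegral (Algebra.adjoin O ({u} : Set ↥(L0 L K ζ T₁))) z →
      IsIntegral (Algebra.adjoin O ({u} : Set ↥(L0 L K ζ T₁))) (z ^ p / (p : ↥(L0 L K ζ T₁))) →
      IsIntegral (Algebra.adjoin O ({u} : Set ↥(L0 L K ζ T₁))) (z / (p : ↥(L0 L K ζ T₁))))
    (hredinf : ∀ z : ↥(L0 L K ζ T₁),
      IsIntegral (Algebra.adjoin O ({u⁻¹} : Set ↥(L0 L K ζ T₁))) z →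
      IsIntegral (Algebra.adjoin O ({u⁻¹} : Set ↥(L0 L K ζ T₁)))
        (z ^ p / (p : ↥(L0 L K ζ T₁))) →
      IsIntegral (Algebra.adjoin O ({u⁻¹} : Set ↥(L0 L K ζ T₁))) (z / (p : ↥(L0 L K ζ T₁))))
    (f : ↥(L0 L K ζ T₁)) (hfF : coeffMap (algebraMap K Qb) (f : LaurentSeries K) = F')
    (hHor : Hor f) (h1 : ∀ W, ∃ c : O, c ≠ 0 ∧ Top.DepthIn (V W) p (p : O) 1 f c) :
    CoverExit L A p x := by
  obtain ⟨X, hX⟩ := exists_pow_eq hp hx0 hdiv
  have hf : f ≠ 0 := by
    rintro rfl
    apply D.neF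
    rw [← hfF]
    exact map_zero _
  obtain ⟨e, he, hXe⟩ := exists_root_of_modelC L K ζ T₁ T hb p hp hp3 hπ hperf hconst
    Dm u hu hutr hcov hred0 hredinf f hf hHor h1 X H D.memH D.neH (by rw [hX, hfF]; exact D.eq)
  exact coverExit_of_root D he (by rw [← hX, hXe])

end Red

end Fermat.Agent.S33.Geo.FunII0RedC
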