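/-
S33 (ordinary at `p ∥ N`), strand GEO, chain ?FunII0, row C6-E: the leaf `hUnit` in the binder
shape of the glue (helper220; compiled on boxes 211-240 and 91-120).

`unitRow` : `Geo/UnitUpInst.unit_up_base` (helper117's file of record, literal helper220) read in
the shape of `FunII0Rows.UnitRow` (helper114, #9485 (3e)): `w` an abstract swap
(`Contract.IsSwap`, rewritten to `ToricSwap.wAL` by `SwapUnique.isSwap_eq_wAL`), `H = up H₁` with
`H₁ : E((q))` in the cover field over `ℚ̄` (`H ∈ L0 · E` by `CoverDescent.mem_sup_of_coeff_mem`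
from `L0 · F₁ ∋ T₁ i`), the (β) clause as an iff, `O = OE A K` acting on the cover field through
`K`.
-/
import Mathlib
import Fermat.Agent.S33.Geo.UnitUpInst
import Fermat.Agent.S33.Geo.CoverDescent
import Fermat.Agent.S33.Geo.SwapUnique

set_option autoImplicit false
set_option linter.unusedSectionVars false
set_option linter.unusedVariables false
set_option linter.style.haveILetI false
set_option synthInstance.maxHeartbeats 400000

open ModularCurve

noncomputable section

namespace Fermat.Agent.S33.Geo.UnitUpRow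

open Fermat.Agent.S30 Fermat.Agent.S30.Producer Fermat.Agent.S18.K1Defs Fermat.Agent.S18.K1Top
open Fermat.Agent.S36.InvFun Fermat.Agent.S33.Geo.Contract
open Fermat.Agent.S34.HauptU.Plug
open Fermat.Agent.S36.CycloBase (cyclo)
open Fermat.Agent.S33.Geo.CoverFieldDefs (L0 inclLS)
open Fermat.Agent.Lib.InertiaField (inertiaFixed inertiaFixed_le)

/-- **The leaf `hUnit` in the binder shape of the glue** (`FunII0Rows.UnitRow`): `w` an abstract
swap, `H = up H₁` in the cover field over `ℚ̄`, `L0 · F₁ ∋ T₁ i`, (β) as an iff, `O = OE A K`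
acting on the cover field through `K`. -/
theorem unitRow (M p : ℕ) [NeZero M] [NeZero p] (hp : p.Prime) (hpM : ¬ p ∣ M)
    (A : ValuationSubring Qb) (hA : A.LiesOverPrime p)
    (w : FN (M * p) ≃ₐ[Qb] FN (M * p)) (hw : IsSwap M p w) :
    ∀ x : FN (M * p), x ≠ 0 → TrivAt (M * p) A p 1 x → TrivAt (M * p) A p 1 (w x) →
    ∃ E₂ : IntermediateField ℚ Qb, FiniteDimensional ℚ E₂ ∧
      ∀ (E : IntermediateField ℚ Qb) [FiniteDimensional ℚ E] [Normal ℚ E], E₂ ≤ E →
      ∀ [IsDiscreteValuationRing (OE A (inertiaFixed A E))] (ζ : Qb) (n : ℕ)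
        (T₁ : Fin n → LaurentSeries (cyclo (inertiaFixed A E) ζ)),
        (∀ i, T₁ i ∈ (L0 (M * p) (inertiaFixed A E) ζ T₁).toSubfield.map
            (inclLS (inertiaFixed A E) ζ) ⊔
              (LE (M * p) (cyclo (inertiaFixed A E) ζ)).toSubfield) →
        ∀ (F₀ : L0 (M * p) (inertiaFixed A E) ζ T₁) (H₁ : LaurentSeries E), F₀ ≠ 0 → H₁ ≠ 0 →
        coeffMap (algebraMap E Qb) H₁ ∈ IntermediateField.adjoin (FN (M * p))
          (Set.range fun i => coeffMap (algebraMap (cyclo (inertiaFixed A E) ζ) Qb) (T₁ i)) →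
        (x : LaurentSeries Qb) = coeffMap (algebraMap (inertiaFixed A E) Qb)
          (F₀ : LaurentSeries (inertiaFixed A E)) * coeffMap (algebraMap E Qb) H₁ ^ p →
        letI : Algebra (OE A (inertiaFixed A E)) (L0 (M * p) (inertiaFixed A E) ζ T₁) :=
          ((algebraMap (inertiaFixed A E) (L0 (M * p) (inertiaFixed A E) ζ T₁)).comp
            (algebraMap (OE A (inertiaFixed A E)) (inertiaFixed A E))).toAlgebra
        ∀ (V' : Subring (L0 (M * p) (inertiaFixed A E) ζ T₁)) (b : Bool),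
          BranchDvr.IsPiDvr ((p : ℕ) : OE A (inertiaFixed A E)) V' →
          BranchPin.IsDisc ((p : ℕ) : OE A (inertiaFixed A E)) V' →
          (∀ f : LE (M * p) (inertiaFixed A E),
            algebraMap (LE (M * p) (inertiaFixed A E)) (L0 (M * p) (inertiaFixed A E) ζ T₁) f
                ∈ V' ↔
              f ∈ GaussRings.VB M p (inertiaFixed A E) (OE A (inertiaFixed A E)) hp hpM b) →
          ∃ c : OE A (inertiaFixed A E), c ≠ 0 ∧
            Top.DepthIn V' p ((p : ℕ) : OE A (inertiaFixed A E)) 1 F₀ c := by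
  intro x hx0 hx hxw
  rw [SwapUnique.isSwap_eq_wAL hp hpM hw x] at hxw
  obtain ⟨E₂, hE₂, h⟩ := UnitUpInst.unit_up_base M p hp hpM A hA x hx hxw
  refine ⟨E₂, hE₂, ?_⟩
  intro E _ _ hE _ ζ n T₁ hgen F₀ H₁ hF₀ hH₁ hHmem hxeq V' b hpi hdisc hβ
  have hH : coeffMap (algebraMap E Qb) H₁ ∈ UnitUpCover.supF (M * p) (inertiaFixed A E) E ζ T₁ :=
    CoverDescent.mem_sup_of_coeff_mem (M * p) (inertiaFixed A E) ζ T₁
      (fun i => coeffMap (algebraMap (cyclo (inertiaFixed A E) ζ) Qb) (T₁ i)) (fun i => rfl) E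
      (inertiaFixed_le A E) hgen hHmem (fun k => (H₁.coeff k).2)
  exact h E hE (inertiaFixed A E) rfl ζ T₁ F₀ hF₀ _ ((_root_.map_ne_zero _).mpr hH₁) hH hxeq V' hpi
    hdisc b (fun a ha => (hβ a).mpr ha)

end Fermat.Agent.S33.Geo.UnitUpRow
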