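/-
S33 (ordinary at `p ∥ N`), strand GEO, chain ?FunII0, row C8 ASSEMBLY (helper114, second of
helper31): the hole `?FunII0` from the ONE row of the cover chain which is not yet landed.

`coverExit_of_model` : for a level `M * p` (`4 ∣ M`, `p ∤ M` an odd prime), a valuation ring `A`
of `ℚ̄` over `p` and a swap `w`: every function `x` satisfying `FunLevel.GoodII0` has the cover
exit `FunII0Exit.CoverExit`, from the row

* `hModel` (C3-E, `ModelRow`) : the model of the cover field with (α), (β), (γ), in the binder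
  shape of the landed suppliers (`CoverUnrFinal.hN_of_model`, `hS_of_model`).

Every other row is a landed theorem and is called directly: `FunII0Data.exists_coverData` (C8q),
`FunII0Base.exists_baseData`, `exists_normal_field` (base datum), `InertiaCyclo` + `S36/GeomClass`
(the base `K = inertiaFixed A E`), `FunII0Field.field_row` (C1-E: `L0` finite Galois of `p`-power
degree over `LE (M p) K`, `L0 · F₁ = L1`, no new constants), `UnitUpRow.unitRow` (C6-E: (UNIT)
upstairs), `SwapUnique.isSwap_eq_wAL`, `S44/L/KummerPerf`,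
`HorUpGen.horUp_cover_of_adjoin_emb` (C8h), and the exit `FunII0RedC.coverExit_of_modelC`.
-/
import Mathlib
import Fermat.Agent.S33.Geo.FunII0Exit
import Fermat.Agent.S33.Geo.FunII0Data
import Fermat.Agent.S33.Geo.FunII0Base
import Fermat.Agent.S33.Geo.FunII0Field
import Fermat.Agent.S33.Geo.FunII0RedC
import Fermat.Agent.S33.Geo.CoverFieldDefs
import Fermat.Agent.S33.Geo.HorUpGen
import Fermat.Agent.S33.Geo.InertiaCyclo
import Fermat.Agent.S33.Geo.GaussRings
import Fermat.Agent.S33.Geo.BranchPin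
import Fermat.Agent.S33.Geo.SwapUnique
import Fermat.Agent.S33.Geo.UnitUpRow
import Fermat.Agent.S44.L.KummerPerf
import Fermat.Agent.S36.GeomClass
import Fermat.Agent.S36.InvFun
import Fermat.Agent.S30.GaussDescent
import Fermat.Agent.S34.ToricSwap
import Fermat.Agent.S34.HauptU.Plug

set_option autoImplicit false
set_option linter.unusedSectionVars false
set_option linter.unusedVariables false
set_option linter.style.haveILetI false

open HahnSeries ModularCurve AlgebraicCurve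

noncomputable section

namespace Fermat.Agent.S33.Geo.FunII0Rows

open Fermat.Agent.S18.K1Defs Fermat.Agent.S18.K1Main Fermat.Agent.S18.K1Top
open Fermat.Agent.S30 Fermat.Agent.S30.Producer
open Fermat.Agent.S36.CycloBase Fermat.Agent.Lib.InertiaField
open Fermat.Agent.S33.Geo.Contract Fermat.Agent.S33.Geo.FunLevel
open Fermat.Agent.S33.Geo.CoverFieldDefs Fermat.Agent.S33.Geo.GaussRings

/-! ### The instance of record on the cover field -/

/-- THE `OE A K`-algebra structure of record on the cover field `L0 N K ζ T`: through `K`.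
(Instance search for `Algebra (OE A K) ↥(L0 N K ζ T)` times out; every row states its exit under
`letI : Algebra (OE A K) ↥(L0 N K ζ T) :=
  ((algebraMap K ↥(L0 N K ζ T)).comp (algebraMap (OE A K) K)).toAlgebra`.) -/
@[reducible] def algO (N : ℕ) (A : ValuationSubring Qb) (K : IntermediateField ℚ Qb) (ζ : Qb)
    {ι : Type*} (T : ι → LaurentSeries (cyclo K ζ)) : Algebra (OE A K) (L0 N K ζ T) :=
  ((algebraMap K (L0 N K ζ T)).comp (algebraMap (OE A K) K)).toAlgebra

theorem isScalarTower_algO (N : ℕ) (A : ValuationSubring Qb) (K : IntermediateField ℚ Qb) (ζ : Qb)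
    {ι : Type*} (T : ι → LaurentSeries (cyclo K ζ)) :
    letI := algO N A K ζ T
    IsScalarTower (OE A K) K (L0 N K ζ T) :=
  letI := algO N A K ζ T
  IsScalarTower.of_algebraMap_eq (fun _ => rfl)

/-! ### The row -/

/-- **Row `hModel`** (C3-E): the model of the cover field `L0 (M p) K ζ T₁` over `OE A K`,
place form of the horizontal predicate, cusp form of the cover, with (α) `IsPiDvr ∧ IsDisc`,
(β) every generic ring lies over `V∞` or `V0`, (γ) `hred0`, `hredinf`, and the two inputs of the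
finiteness binder of the exit - for EVERY base `K` inside the inertia field of `A` in which `p` is
a uniformiser and which contains the `M`-th roots of unity, from the data of the Kummer functions
`y₁ i`, `T₁ i ^ p = y₁ i` (binder shape of `CoverUnrFinal.hN_of_model` / `hS_of_model`) and the
exits of row C1-E. -/
def ModelRow (M p : ℕ) [NeZero M] [NeZero p] (hp : p.Prime) (hpM : ¬ p ∣ M)
    (A : ValuationSubring Qb) : Prop :=
  ∀ (K : IntermediateField ℚ Qb) [FiniteDimensional ℚ K] [IsDiscreteValuationRing (OE A K)]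
    (hK : A.inertiaSubgroupIn ℚ ≤ K.fixingSubgroup)
    (z : Qb) (hz : IsPrimitiveRoot z M) (hzK : z ∈ K) (hπ : Irreducible ((p : ℕ) : OE A K))
    (ζ : Qb) (hζ : IsPrimitiveRoot ζ p) [IsDiscreteValuationRing (OE A (cyclo K ζ))]
    (n : ℕ) (y₁ : Fin n → LE (M * p) (cyclo K ζ)) (T₁ : Fin n → LaurentSeries (cyclo K ζ))
    [FiniteDimensional (LE (M * p) K) (L0 (M * p) K ζ T₁)]
    [IsGalois (LE (M * p) K) (L0 (M * p) K ζ T₁)] (k : ℕ),
    Module.finrank (LE (M * p) K) (L0 (M * p) K ζ T₁) = p ^ k →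
    (∀ i, T₁ i ^ p = ((y₁ i : LE (M * p) (cyclo K ζ)) : LaurentSeries (cyclo K ζ))) →
    (∀ i, y₁ i ≠ 0) →
    (∀ i, (Fermat.Agent.S34.HauptU.Plug.sigmaHom (M * p) (cyclo K ζ) (y₁ i)).leadingCoeff = 1) →
    (∀ i, E4.DivBy (M * p) p (Fermat.Agent.S36.InvFun.upF (M * p) (cyclo K ζ) (y₁ i))) →
    (∀ i, TrivAt (M * p) A p 1 (Fermat.Agent.S36.InvFun.upF (M * p) (cyclo K ζ) (y₁ i))) →
    (∀ i, TrivAt (M * p) A p 1 (Fermat.Agent.S34.ToricSwap.wAL M p hp hpM
      (Fermat.Agent.S36.InvFun.upF (M * p) (cyclo K ζ) (y₁ i)))) →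
    IntermediateField.adjoin (LE (M * p) (cyclo K ζ)) (Set.range (emb (M * p) K ζ T₁)) = ⊤ →
    (∀ c : L0 (M * p) K ζ T₁, IsAlgebraic K c → c ∈ (algebraMap K (L0 (M * p) K ζ T₁)).range) →
    letI := algO (M * p) A K ζ T₁
    ∃ (ι' Y' : Type) (V' : ι' → Subring (L0 (M * p) K ζ T₁))
      (R' : Y' → Subring (L0 (M * p) K ζ T₁)) (On' : Y' → ι' → Prop) (u' : L0 (M * p) K ζ T₁),
      Fermat.Agent.S33.Geo.Model.IsModel p ((p : ℕ) : OE A K) V' R' On'
        (fun f => ∀ P : Place K (L0 (M * p) K ζ T₁), (p : ℤ) ∣ P.ord f) ∧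
      Fermat.Agent.S33.Geo.Model.CoversCusp ((p : ℕ) : OE A K) u' R' ∧
      u' ≠ 0 ∧ Transcendental K u' ∧
      FiniteDimensional (IntermediateField.adjoin K ({u'} : Set (L0 (M * p) K ζ T₁)))
        (L0 (M * p) K ζ T₁) ∧
      (∀ x : L0 (M * p) K ζ T₁,
        IsIntegral (Algebra.adjoin (OE A K) ({u'} : Set (L0 (M * p) K ζ T₁))) x →
        IsIntegral (Algebra.adjoin (OE A K) ({u'} : Set (L0 (M * p) K ζ T₁)))
          (x ^ p / (p : L0 (M * p) K ζ T₁)) →
        IsIntegral (Algebra.adjoin (OE A K) ({u'} : Set (L0 (M * p) K ζ T₁)))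
          (x / (p : L0 (M * p) K ζ T₁))) ∧
      (∀ x : L0 (M * p) K ζ T₁,
        IsIntegral (Algebra.adjoin (OE A K) ({u'⁻¹} : Set (L0 (M * p) K ζ T₁))) x →
        IsIntegral (Algebra.adjoin (OE A K) ({u'⁻¹} : Set (L0 (M * p) K ζ T₁)))
          (x ^ p / (p : L0 (M * p) K ζ T₁)) →
        IsIntegral (Algebra.adjoin (OE A K) ({u'⁻¹} : Set (L0 (M * p) K ζ T₁)))
          (x / (p : L0 (M * p) K ζ T₁))) ∧
      ∀ W : ι', Fermat.Agent.S33.Geo.BranchDvr.IsPiDvr ((p : ℕ) : OE A K) (V' W) ∧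
        Fermat.Agent.S33.Geo.BranchPin.IsDisc ((p : ℕ) : OE A K) (V' W) ∧
        ∃ b : Bool, ∀ f : LE (M * p) K,
          algebraMap (LE (M * p) K) (L0 (M * p) K ζ T₁) f ∈ V' W ↔
            f ∈ VB M p K (OE A K) hp hpM b

/-! ### The assembly -/

/-- **Row C8: the cover exit from the model row.** -/
theorem coverExit_of_model (M p : ℕ) [NeZero M] [NeZero p] (h4 : 4 ∣ M) (hp : p.Prime)
    (hp2 : p ≠ 2) (hpM : ¬ p ∣ M) (A : ValuationSubring Qb) (hA : A.LiesOverPrime p)
    (w : FN (M * p) ≃ₐ[Qb] FN (M * p)) (hw : IsSwap M p w)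
    (hModel : ModelRow M p hp hpM A) :
    ∀ x : FN (M * p), GoodII0 (M * p) A p w x → FunII0Exit.CoverExit (M * p) A p x := by
  intro x hx
  have hp3 : 3 ≤ p := by
    have := hp.two_le
    omega
  have hx0 : x ≠ 0 := hx.1
  have hdiv : E4.DivBy (M * p) p x := hx.2.1
  have htriv : TrivAt (M * p) A p 1 x := hx.2.2.1
  have htrivw : TrivAt (M * p) A p 1 (w x) := hx.2.2.2.1
  -- the cover data (C8q) and the two finite fields
  obtain ⟨n, y, T, F', H, D⟩ := FunII0Data.exists_coverData hp hA w hw.gal hx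
  obtain ⟨E₁, hE₁, hbase⟩ := FunII0Base.exists_baseData hp D
  obtain ⟨E₂, hE₂, hunit⟩ :=
    Fermat.Agent.S33.Geo.UnitUpRow.unitRow M p hp hpM A hA w hw x hx0 htriv htrivw
  -- roots of unity
  haveI : NeZero (M : Qb) := ⟨by exact_mod_cast NeZero.ne M⟩
  haveI : NeZero (p : Qb) := ⟨by exact_mod_cast hp.ne_zero⟩
  obtain ⟨zM, hzM⟩ := HasEnoughRootsOfUnity.exists_primitiveRoot Qb M
  obtain ⟨ζ, hζ⟩ := HasEnoughRootsOfUnity.exists_primitiveRoot Qb p
  -- the finite normal field `E` and the base `K = inertiaFixed A E`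
  haveI := hE₁
  haveI := hE₂
  haveI : FiniteDimensional ℚ (E₁ ⊔ E₂ : IntermediateField ℚ Qb) :=
    IntermediateField.finiteDimensional_sup E₁ E₂
  obtain ⟨E, hEfin, hEnorm, hle, hS⟩ := FunII0Base.exists_normal_field (E₁ ⊔ E₂) {zM, ζ}
  haveI := hEfin
  haveI := hEnorm
  have hζE : ζ ∈ E := hS ζ (by simp)
  have hzE : zM ∈ E := hS zM (by simp)
  have hE₁E : E₁ ≤ E := le_trans le_sup_left hle
  have hE₂E : E₂ ≤ E := le_trans le_sup_right hle
  have hGC : Fermat.Agent.S36.GeomClass.GeomClass A M ∅ (inertiaFixed A E) :=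
    Fermat.Agent.S33.Geo.InertiaCyclo.geomClass_inertiaFixed A E hp hA hpM ∅ ⟨zM, hzE, hzM⟩
      (fun s hs => absurd hs (Finset.notMem_empty s))
      (fun s hs => absurd hs (Finset.notMem_empty s))
  haveI : FiniteDimensional ℚ (inertiaFixed A E) := hGC.finiteDimensional
  haveI : IsDiscreteValuationRing (OE A (inertiaFixed A E)) := hGC.isDiscreteValuationRing hp hA
  obtain ⟨z, hzK, hz⟩ := hGC.exists_primitiveRoot
  have hπ : Irreducible ((p : ℕ) : OE A (inertiaFixed A E)) := hGC.irreducible_natCast hp hA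
  have hK : A.inertiaSubgroupIn ℚ ≤ (inertiaFixed A E).fixingSubgroup := hGC.le_fixingSubgroup
  haveI : IsDiscreteValuationRing (OE A (cyclo (inertiaFixed A E) ζ)) :=
    Fermat.Agent.S30.GaussDescent.isDiscreteValuationRing_OE A (cyclo (inertiaFixed A E) ζ) hp hA
  -- the base datum
  obtain ⟨y₁, T₁, F₀, H₁, x₁, hy₁, hlc₁, hT₁, hTy, hTlc, hF₀mem, hF₀, hF₀ne, hH₁, hH₁ne, hx₁,
    hxFH⟩ := hbase E hE₁E ζ hζE hζ
  -- the field row (C1-E)
  obtain ⟨hfd, hgal, ⟨k, hdeg⟩, hb1, hb2, -, hconst⟩ :=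
    Fermat.Agent.S33.Geo.FunII0Field.field_row hp D E hζE hζ y₁ T₁ hy₁ hTy
  haveI := hfd
  haveI := hgal
  have hTmem : ∀ i, T₁ i ^ p ∈ LE (M * p) (cyclo (inertiaFixed A E) ζ) := fun i => by
    rw [hTy i]
    exact (y₁ i).2
  -- the data of the Kummer functions `y₁ i`
  have hy₁ne : ∀ i, y₁ i ≠ 0 := by
    intro i h0
    have h1 := hlc₁ i
    rw [h0] at h1
    simp at h1
  have hy₁div : ∀ i, E4.DivBy (M * p) p
      (Fermat.Agent.S36.InvFun.upF (M * p) (cyclo (inertiaFixed A E) ζ) (y₁ i)) := fun i => by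
    rw [hy₁ i]
    exact D.div i
  have hy₁triv : ∀ i, TrivAt (M * p) A p 1
      (Fermat.Agent.S36.InvFun.upF (M * p) (cyclo (inertiaFixed A E) ζ) (y₁ i)) := fun i => by
    rw [hy₁ i]
    exact D.triv i
  have hy₁trivw : ∀ i, TrivAt (M * p) A p 1 (Fermat.Agent.S34.ToricSwap.wAL M p hp hpM
      (Fermat.Agent.S36.InvFun.upF (M * p) (cyclo (inertiaFixed A E) ζ) (y₁ i))) :=
    fun i => by
      rw [hy₁ i, ← Fermat.Agent.S33.Geo.SwapUnique.isSwap_eq_wAL hp hpM hw (y i)]
      exact D.trivw i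
  -- the model of the cover field
  letI := algO (M * p) A (inertiaFixed A E) ζ T₁
  haveI := isScalarTower_algO (M * p) A (inertiaFixed A E) ζ T₁
  obtain ⟨ι', Y', V', R', On', u', Dm, hcov, hu', hutr, hfdu, hred0, hredinf, hV⟩ :=
    hModel (inertiaFixed A E) hK z hz hzK hπ ζ hζ n y₁ T₁ k hdeg hTy hy₁ne hlc₁ hy₁div
      hy₁triv hy₁trivw hb1 hconst
  haveI := hfdu
  -- (UNIT) upstairs
  have hLbar : (Set.range fun i => coeffMap (algebraMap (cyclo (inertiaFixed A E) ζ) Qb) (T₁ i))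
      = Set.range T := by
    congr 1
    funext i
    exact hT₁ i
  have hHmem : coeffMap (algebraMap E Qb) H₁ ∈ IntermediateField.adjoin (FN (M * p))
      (Set.range fun i => coeffMap (algebraMap (cyclo (inertiaFixed A E) ζ) Qb) (T₁ i)) := by
    rw [hLbar, hH₁]
    exact D.memH
  have hxeq : (x : LaurentSeries Qb) = coeffMap (algebraMap (inertiaFixed A E) Qb) F₀
      * coeffMap (algebraMap E Qb) H₁ ^ p := by
    rw [hF₀, hH₁]
    exact D.eq
  have hF₀ne' : (⟨F₀, hF₀mem⟩ : L0 (M * p) (inertiaFixed A E) ζ T₁) ≠ 0 := fun h =>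
    hF₀ne (congrArg Subtype.val h)
  have h1 : ∀ W, ∃ c : OE A (inertiaFixed A E), c ≠ 0 ∧
      Fermat.Agent.S33.Geo.Top.DepthIn (V' W) p ((p : ℕ) : OE A (inertiaFixed A E)) 1
        (⟨F₀, hF₀mem⟩ : L0 (M * p) (inertiaFixed A E) ζ T₁) c := by
    intro W
    obtain ⟨hPi, hDisc, b, hb⟩ := hV W
    exact hunit E hE₂E ζ n T₁ hb2 ⟨F₀, hF₀mem⟩ H₁ hF₀ne' hH₁ne hHmem hxeq (V' W) b hPi hDisc hb
  -- the horizontal condition (C8h)
  have hHor : ∀ P : Place (inertiaFixed A E) (L0 (M * p) (inertiaFixed A E) ζ T₁),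
      (p : ℤ) ∣ P.ord (⟨F₀, hF₀mem⟩ : L0 (M * p) (inertiaFixed A E) ζ T₁) :=
    Fermat.Agent.S33.Geo.HorUpGen.horUp_cover_of_adjoin_emb (M * p) (inertiaFixed A E) ζ T₁
      hp.ne_zero hTmem hb1 hx0 hdiv (by rw [hLbar]; exact D.memH) (by rw [hF₀]; exact D.eq)
  -- the exit
  have hmax : IsLocalRing.maximalIdeal (OE A (inertiaFixed A E))
      = Ideal.span {((p : ℕ) : OE A (inertiaFixed A E))} :=
    (IsDiscreteValuationRing.irreducible_iff_uniformizer _).mp hπ
  have hperf : ∀ c : OE A (inertiaFixed A E), ∃ d : OE A (inertiaFixed A E),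
      ((p : ℕ) : OE A (inertiaFixed A E)) ∣ c - d ^ p := fun c =>
    Fermat.Agent.S44.L.KummerPerf.exists_pow_sub_dvd A hp hA (inertiaFixed A E) hmax c
  exact Fermat.Agent.S33.Geo.FunII0RedC.coverExit_of_modelC hp hp3 hx0 hdiv D (inertiaFixed A E)
    ζ T₁ hT₁ hπ.prime hperf hconst Dm u' hu' hutr hcov hred0 hredinf ⟨F₀, hF₀mem⟩ hF₀ hHor h1

/-- **The hole `?FunII0` at a level `M` with `4 ∣ M`, from the model row.** -/
theorem funII0Statement_of_model (M p : ℕ) [NeZero M] [NeZero p] (h4 : 4 ∣ M)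
    (hModel : ∀ (hp : p.Prime) (hp2 : p ≠ 2) (hpM : ¬ p ∣ M) (A : ValuationSubring Qb),
      A.LiesOverPrime p → ModelRow M p hp hpM A) :
    FunII0Statement M p := by
  refine FunII0Exit.funII0Statement_of_coverExit ?_
  intro hp hp2 hpM A hA w hw
  exact coverExit_of_model M p h4 hp hp2 hpM A hA w hw (hModel hp hp2 hpM A hA)

end Fermat.Agent.S33.Geo.FunII0Rows
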