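/-
S33 (ordinary at `p ∥ N`), strand GEO, Stage B, row B5 (helper140): the hole `?FunI` at a general
level `M` with `4 ∣ M`, from its two E-level leaves in the shapes of the instance rows.

* `hB3` (row B3): the model instance on the two Gauss rings `GaussRings.VB`, cusp form of the
  cover, over every base field `K` of the `*_OE` block;
* `hB4` (row B4): the unit instance for the chosen Atkin–Lehner swap `ToricSwap.wAL`: a nonzero
  `y ∈ LE (M p) K` which is `1`-trivial at the Gauss valuation together with `wAL y` has depth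
  `≥ 1` along `V∞` and `V0` (no geometric class is needed: `K` is any base field of the block).

`funIStatement_of_leaves` : `hB3 → hB4 → FunLevel.FunIStatement M p`, for every `M` with `4 ∣ M`
(`SwapUnique.isSwap_eq_wAL` turns the given swap into `wAL`; `S₀ := ∅`).
-/
import Mathlib
import Fermat.Agent.S33.Geo.FunI
import Fermat.Agent.S33.Geo.GaussRings
import Fermat.Agent.S33.Geo.SwapUnique

set_option autoImplicit false
set_option linter.unusedSectionVars false
set_option linter.unusedVariables false
set_option linter.style.haveILetI false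
set_option synthInstance.maxHeartbeats 400000
set_option maxHeartbeats 1000000

open ModularCurve

noncomputable section

namespace Fermat.Agent.S33.Geo.FunILeaves

open Fermat.Agent.S18.K1Defs Fermat.Agent.S18.K1Main Fermat.Agent.S30 Fermat.Agent.S30.E4
open Fermat.Agent.S30.Producer
open Fermat.Agent.S34.TwoPrimesRank Fermat.Agent.S34.HauptU.Plug Fermat.Agent.S36.Haupt4
open Fermat.Agent.S36.HorizAdapter Fermat.Agent.S36.GeomClass
open Fermat.Agent.S33.Geo.Contract Fermat.Agent.S33.Geo.GaussRings

local notation "Qb" => AlgebraicClosure ℚ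

/-- **The hole `?FunI` at a level `M` with `4 ∣ M`, from the model instance (B3) and the unit
instance (B4, stated for the chosen Atkin–Lehner swap).** -/
theorem funIStatement_of_leaves (M p : ℕ) [NeZero M] [NeZero p] (h4 : 4 ∣ M)
    (hB3 : ∀ (hp : p.Prime) (hodd : p ≠ 2) (hpM : ¬ p ∣ M)
        (A : ValuationSubring Qb) (hA : A.LiesOverPrime p)
        (K : IntermediateField ℚ Qb) [FiniteDimensional ℚ K] [IsDiscreteValuationRing (OE A K)]
        (z : Qb) (hz : IsPrimitiveRoot z M) (hzK : z ∈ K)
        (hπ : Irreducible ((p : ℕ) : OE A K)),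
        letI := algebraOL (OE A K) K (LE (M * p) K)
        ∃ (Y : Type) (R : Y → Subring (LE (M * p) K)) (On : Y → Bool → Prop),
          Fermat.Agent.S33.Geo.Model.IsModelI p ((p : ℕ) : OE A K)
            (VB M p K (OE A K) hp hpM) R On
            (fun f => Horiz ((p : ℕ) : OE A K) p (alphaHom M p K (u4E M K h4)) f ∧
              Horiz ((p : ℕ) : OE A K) p (alphaHom M p K (u4E M K h4))⁻¹ f) ∧
          Fermat.Agent.S33.Geo.Model.CoversCusp ((p : ℕ) : OE A K)
            (alphaHom M p K (u4E M K h4)) R)
    (hB4 : ∀ (hp : p.Prime) (hodd : p ≠ 2) (hpM : ¬ p ∣ M)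
        (A : ValuationSubring Qb) (hA : A.LiesOverPrime p)
        (K : IntermediateField ℚ Qb) [FiniteDimensional ℚ K] [IsDiscreteValuationRing (OE A K)]
        (hπ : Irreducible ((p : ℕ) : OE A K)),
        letI := algebraOL (OE A K) K (LE (M * p) K)
        ∀ y : LE (M * p) K, y ≠ 0 →
          TrivAt (M * p) A p 1 (Fermat.Agent.S36.InvFun.upF (M * p) K y) →
          TrivAt (M * p) A p 1 (Fermat.Agent.S34.ToricSwap.wAL M p hp hpM
            (Fermat.Agent.S36.InvFun.upF (M * p) K y)) →
          ∀ W : Bool, ∃ c : OE A K, c ≠ 0 ∧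
            Fermat.Agent.S33.Geo.Top.DepthIn (VB M p K (OE A K) hp hpM W) p
              ((p : ℕ) : OE A K) 1 y c) :
    Fermat.Agent.S33.Geo.FunLevel.FunIStatement M p := by
  refine Fermat.Agent.S33.Geo.FunDesc.funIStatement_of_funIE ?_
  intro hp hp2 hpM A hA w hw
  refine ⟨∅, fun s hs => absurd hs (Finset.notMem_empty s), fun K hK => ?_⟩
  haveI : FiniteDimensional ℚ K := hK.finiteDimensional
  haveI : IsDiscreteValuationRing (OE A K) := hK.isDiscreteValuationRing hp hA
  obtain ⟨z, hzK, hz⟩ := hK.exists_primitiveRoot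
  have hπ : Irreducible ((p : ℕ) : OE A K) := hK.irreducible_natCast hp hA
  have hp3 : 3 ≤ p := by
    have := hp.two_le
    omega
  obtain ⟨Y, R, On, hD, hcov⟩ := hB3 hp hp2 hpM A hA K z hz hzK hπ
  refine Fermat.Agent.S33.Geo.FunI.funIE_of_model A M p hp hp3 hpM h4 hA K z hz hzK hπ
    (fun x => w x) (VB M p K (OE A K) hp hpM) R On _ (fun f h1 h2 => ⟨h1, h2⟩) hD hcov ?_
  intro y hy ht htw W
  have htw' : TrivAt (M * p) A p 1 (Fermat.Agent.S34.ToricSwap.wAL M p hp hpM
      (Fermat.Agent.S36.InvFun.upF (M * p) K y)) := by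
    rw [← Fermat.Agent.S33.Geo.SwapUnique.isSwap_eq_wAL hp hpM hw]
    exact htw
  exact hB4 hp hp2 hpM A hA K hπ y hy ht htw' W

end Fermat.Agent.S33.Geo.FunILeaves
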