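import Mathlib
import Fermat.Agent.S30.Model.ChartProv

/-!
# S33 / GEO / Stage B: the binder `hfin` of the level-free exits, for a cover

The level-free exits `TopExit.pow_or_const_of_powAt`, `ModelExit.model_exit`,
`ModelExitI.modelI_exit` and `ModelExitC.model_exit_cusp` carry the binder

    hfin : ∀ L : IntermediateField F Ω, FiniteDimensional F L →
      Module.Finite (Algebra.adjoin O ({algebraMap F L u} : Set L))
        (integralClosure (Algebra.adjoin O ({algebraMap F L u} : Set L)) L)

("the chart of `u` in every finite subextension of `Ω / F` is a finite module").  This file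
supplies it for every function field: `O` a discrete valuation ring, `k = Frac O` of
characteristic zero, `F` a field over `k` that is finite over `k(u)` with `u` transcendental
over `k`.  It is one call of the landed generic `S30.Model.ChartProv.chart_finite`.

* `finiteDimensional_adjoin_algebraMap` : the finiteness tower: `F₀` finite over `k(u₀)` and
  `F` finite over `F₀` give `F` finite over `k(algebraMap F₀ F u₀)`.
* `transcendental_algebraMap` : transcendence goes up a field extension.
* `hfin` : the binder, for `F` finite over `k(u)`.
* `hfin_of_tower` : the binder for a finite extension `F` of a base `F₀` finite over `k(u₀)`,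
  at `u := algebraMap F₀ F u₀` (the shape of a cover `F = L0` of `F₀ = LE N K`).
-/

set_option autoImplicit false
set_option linter.unusedSectionVars false
set_option linter.unusedVariables false

namespace Fermat.Agent.S33.Geo.HfinCover

open IntermediateField

/-- **The finiteness tower.**  If `F₀` is finite over `k(u₀)` and `F` is finite over `F₀`, then
`F` is finite over `k(u)`, `u` the image of `u₀`. -/
theorem finiteDimensional_adjoin_algebraMap {k F₀ F : Type*} [Field k] [Field F₀] [Field F]
    [Algebra k F₀] [Algebra F₀ F] [Algebra k F] [IsScalarTower k F₀ F] (u₀ : F₀)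
    (h₀ : FiniteDimensional (IntermediateField.adjoin k ({u₀} : Set F₀)) F₀)
    (h₁ : FiniteDimensional F₀ F) :
    FiniteDimensional (IntermediateField.adjoin k ({algebraMap F₀ F u₀} : Set F)) F := by
  classical
  -- the image of `k(u₀)` is `k(u)`
  have hmap : (IntermediateField.adjoin k ({u₀} : Set F₀)).map (IsScalarTower.toAlgHom k F₀ F) =
      IntermediateField.adjoin k ({algebraMap F₀ F u₀} : Set F) := by
    rw [IntermediateField.adjoin_map, Set.image_singleton]
    rfl
  have hmem : ∀ x : IntermediateField.adjoin k ({u₀} : Set F₀),
      algebraMap F₀ F (x : F₀) ∈ IntermediateField.adjoin k ({algebraMap F₀ F u₀} : Set F) := by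
    intro x
    rw [← hmap]
    exact ⟨x, x.2, rfl⟩
  -- `F` is finite over `k(u₀)` through `F₀`
  have hAF : Module.Finite (IntermediateField.adjoin k ({u₀} : Set F₀)) F :=
    Module.Finite.trans F₀ F
  -- the ring homomorphism `k(u₀) → k(u)`
  let φ : IntermediateField.adjoin k ({u₀} : Set F₀) →+*
      IntermediateField.adjoin k ({algebraMap F₀ F u₀} : Set F) :=
    { toFun := fun x => ⟨algebraMap F₀ F (x : F₀), hmem x⟩
      map_one' := Subtype.ext (by simp)
      map_mul' := fun x y => Subtype.ext (by simp)
      map_zero' := Subtype.ext (by simp)
      map_add' := fun x y => Subtype.ext (by simp) }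
  let algAB : Algebra (IntermediateField.adjoin k ({u₀} : Set F₀))
      (IntermediateField.adjoin k ({algebraMap F₀ F u₀} : Set F)) := φ.toAlgebra
  have : IsScalarTower (IntermediateField.adjoin k ({u₀} : Set F₀))
      (IntermediateField.adjoin k ({algebraMap F₀ F u₀} : Set F)) F :=
    IsScalarTower.of_algebraMap_eq (fun _ => rfl)
  exact Module.Finite.of_restrictScalars_finite (IntermediateField.adjoin k ({u₀} : Set F₀))
    (IntermediateField.adjoin k ({algebraMap F₀ F u₀} : Set F)) F

/-- Transcendence goes up a field extension. -/
theorem transcendental_algebraMap {k F₀ F : Type*} [Field k] [Field F₀] [Field F]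
    [Algebra k F₀] [Algebra F₀ F] [Algebra k F] [IsScalarTower k F₀ F] {u₀ : F₀}
    (hu₀ : Transcendental k u₀) : Transcendental k (algebraMap F₀ F u₀) :=
  (transcendental_algebraMap_iff (algebraMap F₀ F).injective).mpr hu₀

section Hfin

variable {O k F : Type*} [CommRing O] [IsDomain O] [IsDiscreteValuationRing O]
  [Field k] [Algebra O k] [IsFractionRing O k] [CharZero k] [Field F] [Algebra O F] [Algebra k F]
  {Ω : Type*} [Field Ω] [Algebra F Ω] [Algebra O Ω] [IsScalarTower O F Ω] [Algebra k Ω]
  [IsScalarTower k F Ω] [IsScalarTower O k Ω]

/-- **The binder `hfin`.**  `O` a discrete valuation ring with fraction field `k` of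
characteristic zero, `F` a field over `k`, finite over `k(u)` with `u` transcendental over `k`.
Then in every finite subextension `L` of `Ω / F` the integral closure of `O[u]` is a finite
`O[u]`-module. -/
theorem hfin (u : F) (hu : Transcendental k u)
    (hF : FiniteDimensional (IntermediateField.adjoin k ({u} : Set F)) F) :
    ∀ L : IntermediateField F Ω, FiniteDimensional F L →
      Module.Finite (Algebra.adjoin O ({algebraMap F L u} : Set L))
        (integralClosure (Algebra.adjoin O ({algebraMap F L u} : Set L)) L) := by
  intro L hL
  have : IsScalarTower k F L :=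
    IsScalarTower.of_algebraMap_eq (fun r => Subtype.ext (IsScalarTower.algebraMap_apply k F Ω r))
  have : IsScalarTower O k L :=
    IsScalarTower.of_algebraMap_eq (fun r => Subtype.ext (IsScalarTower.algebraMap_apply O k Ω r))
  have : FiniteDimensional (IntermediateField.adjoin k ({algebraMap F L u} : Set L)) L :=
    finiteDimensional_adjoin_algebraMap u hF hL
  exact Fermat.Agent.S30.Model.ChartProv.chart_finite (O := O) (E := k) (algebraMap F L u)
    (transcendental_algebraMap hu)

/-- **The binder `hfin` for a cover.**  `F₀` a field over `k`, finite over `k(u₀)` with `u₀`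
transcendental over `k`, and `F` a finite extension of `F₀` (a `k`-tower).  Then `hfin` holds
for `F` at the coordinate `u := algebraMap F₀ F u₀`. -/
theorem hfin_of_tower {F₀ : Type*} [Field F₀] [Algebra k F₀] [Algebra F₀ F]
    [IsScalarTower k F₀ F] (u₀ : F₀) (hu₀ : Transcendental k u₀)
    (h₀ : FiniteDimensional (IntermediateField.adjoin k ({u₀} : Set F₀)) F₀)
    (h₁ : FiniteDimensional F₀ F) :
    ∀ L : IntermediateField F Ω, FiniteDimensional F L →
      Module.Finite (Algebra.adjoin O ({algebraMap F L (algebraMap F₀ F u₀)} : Set L))
        (integralClosure (Algebra.adjoin O ({algebraMap F L (algebraMap F₀ F u₀)} : Set L)) L) :=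
  hfin (algebraMap F₀ F u₀) (transcendental_algebraMap hu₀)
    (finiteDimensional_adjoin_algebraMap u₀ h₀ h₁)

end Hfin

end Fermat.Agent.S33.Geo.HfinCover
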