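import Mathlib

/-!
# S33 / Geo : the Kummer tower facts (row C1 LF, second half)

Level-free field theory, Mathlib only.  `F1` is a field containing a primitive `p`-th root of
unity `ζ`, and `L = F1(S)` is generated by a set `S` of elements whose `p`-th powers lie in `F1`.

* `isIntegral_of_pow_mem`, `splits_minpoly_of_pow_mem` : one generator.
* `finiteDimensional_of_adjoin` : `L / F1` is finite when `S` is finite (no `ζ` needed).
* `normal_of_adjoin`, `isGalois_of_adjoin` : `L / F1` is normal, and Galois in characteristic zero.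
* `exists_pow_mul` : an `F1`-automorphism multiplies a generator by a power of `ζ`.
* `pow_eq_one`, `aut_comm`, `card_aut` : `Gal(L / F1)` is abelian of exponent `p`, of `p`-power
  order.
* `kummer_tower` : the three facts together, for a finite family of generators.
* `kummer_tower_adjoin` : the same for `IntermediateField.adjoin F1 (Set.range T)` inside an
  ambient field.
* `map_closure_le`, `map_sup_adjoin_le`, `eqOn_sup_adjoin` : stability / extensionality of ring
  homomorphisms on a field generated by a subfield and a set.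
-/

namespace Fermat.Agent.S33.Geo.KummerTower

open Polynomial IntermediateField

variable {F1 L : Type*} [Field F1] [Field L] [Algebra F1 L]

/-- An element whose `p`-th power lies in the base field is integral. -/
theorem isIntegral_of_pow_mem {p : ℕ} (hp : p ≠ 0) {t : L}
    (ht : t ^ p ∈ (algebraMap F1 L).range) : IsIntegral F1 t := by
  obtain ⟨y, hy⟩ := ht
  refine ⟨X ^ p - C y, monic_X_pow_sub_C y hp, ?_⟩
  simp [hy]

/-- If the base field has a primitive `p`-th root of unity, the minimal polynomial of an element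
whose `p`-th power lies in the base field splits upstairs. -/
theorem splits_minpoly_of_pow_mem {p : ℕ} (hp : p ≠ 0) {ζ : F1} (hζ : IsPrimitiveRoot ζ p) {t : L}
    (ht : t ^ p ∈ (algebraMap F1 L).range) :
    ((minpoly F1 t).map (algebraMap F1 L)).Splits := by
  obtain ⟨y, hy⟩ := ht
  have hζ' : IsPrimitiveRoot (algebraMap F1 L ζ) p :=
    hζ.map_of_injective (algebraMap F1 L).injective
  have hs : ((X ^ p - C y : F1[X]).map (algebraMap F1 L)).Splits := by
    have h := X_pow_sub_C_splits_of_isPrimitiveRoot hζ' (α := t) (a := algebraMap F1 L y) hy.symm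
    simpa using h
  have hdvd : minpoly F1 t ∣ X ^ p - C y := minpoly.dvd F1 t (by simp [hy])
  exact hs.of_dvd (Polynomial.map_ne_zero (X_pow_sub_C_ne_zero (Nat.pos_of_ne_zero hp) y))
    (Polynomial.map_dvd _ hdvd)

/-- Every element of `L = F1(S)` is integral. -/
theorem isIntegral_of_adjoin {p : ℕ} (hp : p ≠ 0) {S : Set L}
    (hS : ∀ t ∈ S, t ^ p ∈ (algebraMap F1 L).range) (htop : adjoin F1 S = ⊤) (x : L) :
    IsIntegral F1 x := by
  have hx : x ∈ adjoin F1 S := htop ▸ mem_top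
  have halg : Algebra.IsAlgebraic F1 (adjoin F1 S) :=
    isAlgebraic_adjoin fun t ht => isIntegral_of_pow_mem hp (hS t ht)
  exact IntermediateField.isIntegral_iff.1 (halg.isAlgebraic (⟨x, hx⟩ : adjoin F1 S)).isIntegral

/-- `L = F1(S)` with `S` finite is finite over `F1`. -/
theorem finiteDimensional_of_adjoin {p : ℕ} (hp : p ≠ 0) {S : Set L} (hfin : S.Finite)
    (hS : ∀ t ∈ S, t ^ p ∈ (algebraMap F1 L).range) (htop : adjoin F1 S = ⊤) :
    FiniteDimensional F1 L := by
  have : Finite S := hfin.to_subtype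
  have h : FiniteDimensional F1 (adjoin F1 S) :=
    finiteDimensional_adjoin fun t ht => isIntegral_of_pow_mem hp (hS t ht)
  rw [htop] at h
  exact (topEquiv (F := F1) (E := L)).toLinearEquiv.finiteDimensional

/-- `L = F1(S)` is normal over `F1` when `F1` has a primitive `p`-th root of unity. -/
theorem normal_of_adjoin {p : ℕ} (hp : p ≠ 0) {ζ : F1} (hζ : IsPrimitiveRoot ζ p) {S : Set L}
    (hS : ∀ t ∈ S, t ^ p ∈ (algebraMap F1 L).range) (htop : adjoin F1 S = ⊤) : Normal F1 L := by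
  rw [normal_iff]
  intro x
  have hx : x ∈ adjoin F1 S := htop ▸ mem_top
  exact ⟨isIntegral_of_adjoin hp hS htop x,
    splits_of_mem_adjoin F1 L (fun t ht => ⟨isIntegral_of_pow_mem hp (hS t ht),
      splits_minpoly_of_pow_mem hp hζ (hS t ht)⟩) hx⟩

/-- `L = F1(S)` is Galois over `F1` in characteristic zero. -/
theorem isGalois_of_adjoin [CharZero F1] {p : ℕ} (hp : p ≠ 0) {ζ : F1} (hζ : IsPrimitiveRoot ζ p)
    {S : Set L} (hS : ∀ t ∈ S, t ^ p ∈ (algebraMap F1 L).range) (htop : adjoin F1 S = ⊤) :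
    IsGalois F1 L := by
  have : Normal F1 L := normal_of_adjoin hp hζ hS htop
  exact ⟨⟩

/-- An `F1`-automorphism multiplies an element with `p`-th power in `F1` by a power of `ζ`. -/
theorem exists_pow_mul {p : ℕ} [NeZero p] {ζ : F1} (hζ : IsPrimitiveRoot ζ p) {t : L}
    (ht : t ^ p ∈ (algebraMap F1 L).range) (δ : L ≃ₐ[F1] L) :
    ∃ e < p, δ t = algebraMap F1 L (ζ ^ e) * t := by
  obtain ⟨y, hy⟩ := ht
  by_cases h0 : t = 0
  · exact ⟨0, NeZero.pos p, by simp [h0]⟩
  · have hζ' : IsPrimitiveRoot (algebraMap F1 L ζ) p :=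
      hζ.map_of_injective (algebraMap F1 L).injective
    have h2 : δ t ^ p = t ^ p :=
      calc δ t ^ p = δ (t ^ p) := (map_pow δ t p).symm
        _ = δ (algebraMap F1 L y) := by rw [hy]
        _ = algebraMap F1 L y := δ.commutes y
        _ = t ^ p := hy
    have h1 : (δ t / t) ^ p = 1 := by
      rw [div_pow, h2]
      exact div_self (pow_ne_zero _ h0)
    obtain ⟨e, he, hee⟩ := hζ'.eq_pow_of_pow_eq_one h1
    refine ⟨e, he, ?_⟩
    rw [map_pow, hee, div_mul_cancel₀ _ h0]

/-- Iterating an automorphism that scales `t` by a constant of `F1`. -/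
theorem pow_apply_of_apply_eq (δ : L ≃ₐ[F1] L) {z : F1} {t : L}
    (h : δ t = algebraMap F1 L z * t) (n : ℕ) : (δ ^ n) t = algebraMap F1 L (z ^ n) * t := by
  induction n with
  | zero => simp
  | succ n ih =>
    rw [pow_succ, AlgEquiv.mul_apply, h, map_mul, AlgEquiv.commutes, ih, pow_succ, map_mul]
    ring

/-- Two `F1`-automorphisms of `L = F1(S)` that agree on `S` are equal. -/
theorem algEquiv_ext_of_adjoin {S : Set L} (htop : adjoin F1 S = ⊤) {φ ψ : L ≃ₐ[F1] L}
    (h : ∀ t ∈ S, φ t = ψ t) : φ = ψ := by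
  apply AlgEquiv.ext
  intro x
  have hx : x ∈ adjoin F1 S := htop ▸ mem_top
  induction hx using adjoin_induction with
  | mem t ht => exact h t ht
  | algebraMap c => rw [AlgEquiv.commutes, AlgEquiv.commutes]
  | add a b _ _ ha hb => rw [map_add, map_add, ha, hb]
  | inv a _ ha => rw [map_inv₀, map_inv₀, ha]
  | mul a b _ _ ha hb => rw [map_mul, map_mul, ha, hb]

/-- `Gal(L / F1)` has exponent dividing `p`. -/
theorem pow_eq_one {p : ℕ} [NeZero p] {ζ : F1} (hζ : IsPrimitiveRoot ζ p) {S : Set L}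
    (hS : ∀ t ∈ S, t ^ p ∈ (algebraMap F1 L).range) (htop : adjoin F1 S = ⊤)
    (δ : L ≃ₐ[F1] L) : δ ^ p = 1 := by
  refine algEquiv_ext_of_adjoin htop fun t ht => ?_
  obtain ⟨e, -, he⟩ := exists_pow_mul hζ (hS t ht) δ
  rw [pow_apply_of_apply_eq δ he p, ← pow_mul, mul_comm e p, pow_mul, hζ.pow_eq_one, one_pow,
    map_one, one_mul, AlgEquiv.one_apply]

/-- `Gal(L / F1)` is commutative. -/
theorem aut_comm {p : ℕ} [NeZero p] {ζ : F1} (hζ : IsPrimitiveRoot ζ p) {S : Set L}
    (hS : ∀ t ∈ S, t ^ p ∈ (algebraMap F1 L).range) (htop : adjoin F1 S = ⊤)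
    (δ δ' : L ≃ₐ[F1] L) : δ * δ' = δ' * δ := by
  refine algEquiv_ext_of_adjoin htop fun t ht => ?_
  obtain ⟨e, -, he⟩ := exists_pow_mul hζ (hS t ht) δ
  obtain ⟨e', -, he'⟩ := exists_pow_mul hζ (hS t ht) δ'
  rw [AlgEquiv.mul_apply, AlgEquiv.mul_apply, he, he', map_mul, map_mul, AlgEquiv.commutes,
    AlgEquiv.commutes, he, he']
  ring

/-- `Gal(L / F1)` has `p`-power order. -/
theorem card_aut {p : ℕ} (hp : p.Prime) {ζ : F1} (hζ : IsPrimitiveRoot ζ p) {S : Set L}
    (hfin : S.Finite) (hS : ∀ t ∈ S, t ^ p ∈ (algebraMap F1 L).range) (htop : adjoin F1 S = ⊤) :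
    ∃ m : ℕ, Nat.card (L ≃ₐ[F1] L) = p ^ m := by
  have := Fact.mk hp
  have : NeZero p := ⟨hp.ne_zero⟩
  have : FiniteDimensional F1 L := finiteDimensional_of_adjoin hp.ne_zero hfin hS htop
  have hpg : IsPGroup p (L ≃ₐ[F1] L) := fun δ =>
    ⟨1, by rw [pow_one]; exact pow_eq_one hζ hS htop δ⟩
  exact IsPGroup.iff_card.1 hpg

/-- **Kummer tower**, set form.  `F1 ∋ ζ_p`, `L = F1(S)` with `S` finite and `t ^ p ∈ F1` for
`t ∈ S` : then `L / F1` is finite Galois of `p`-power degree. -/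
theorem kummer_tower_set [CharZero F1] {p : ℕ} (hp : p.Prime) {ζ : F1} (hζ : IsPrimitiveRoot ζ p)
    {S : Set L} (hfin : S.Finite) (hS : ∀ t ∈ S, t ^ p ∈ (algebraMap F1 L).range)
    (htop : IntermediateField.adjoin F1 S = ⊤) :
    FiniteDimensional F1 L ∧ IsGalois F1 L ∧ ∃ m : ℕ, Module.finrank F1 L = p ^ m := by
  have : FiniteDimensional F1 L := finiteDimensional_of_adjoin hp.ne_zero hfin hS htop
  have : IsGalois F1 L := isGalois_of_adjoin hp.ne_zero hζ hS htop
  refine ⟨inferInstance, inferInstance, ?_⟩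
  obtain ⟨m, hm⟩ := card_aut hp hζ hfin hS htop
  exact ⟨m, by rw [← IsGalois.card_aut_eq_finrank, hm]⟩

/-- **Kummer tower.**  `F1 ∋ ζ_p`, `L = F1(T_1, …, T_s)` with `T_i ^ p ∈ F1` : then `L / F1` is
finite Galois of `p`-power degree. -/
theorem kummer_tower [CharZero F1] {p : ℕ} (hp : p.Prime) {ζ : F1} (hζ : IsPrimitiveRoot ζ p)
    {ι : Type*} [Finite ι] (T : ι → L) (hT : ∀ i, T i ^ p ∈ (algebraMap F1 L).range)
    (htop : IntermediateField.adjoin F1 (Set.range T) = ⊤) :
    FiniteDimensional F1 L ∧ IsGalois F1 L ∧ ∃ m : ℕ, Module.finrank F1 L = p ^ m :=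
  kummer_tower_set hp hζ (Set.finite_range T) (by rintro _ ⟨i, rfl⟩; exact hT i) htop

section Ambient

variable {Ω : Type*} [Field Ω] [Algebra F1 Ω]

/-- The generators of `adjoin F1 S`, seen inside it, generate it. -/
theorem adjoin_preimage_eq_top (S : Set Ω) :
    adjoin F1 ((Subtype.val : adjoin F1 S → Ω) ⁻¹' S) = ⊤ := by
  apply lift_injective
  rw [lift_adjoin, lift_top]
  congr 1
  ext x
  constructor
  · rintro ⟨⟨y, hy⟩, hyS, rfl⟩
    exact hyS
  · intro hx
    exact ⟨⟨x, subset_adjoin F1 S hx⟩, hx, rfl⟩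

/-- The family of generators of `adjoin F1 (range T)`, seen inside it, generates it. -/
theorem adjoin_range_eq_top {ι : Type*} (T : ι → Ω) :
    adjoin F1 (Set.range fun i => (⟨T i, subset_adjoin F1 _ ⟨i, rfl⟩⟩ :
      adjoin F1 (Set.range T))) = ⊤ := by
  apply lift_injective
  rw [lift_adjoin, lift_top, ← Set.range_comp]
  rfl

/-- `t ^ p ∈ F1` descends to an intermediate field containing `t`. -/
theorem pow_mem_range_of_val {p : ℕ} {E : IntermediateField F1 Ω} {t : E}
    (ht : (t : Ω) ^ p ∈ (algebraMap F1 Ω).range) : t ^ p ∈ (algebraMap F1 E).range := by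
  obtain ⟨y, hy⟩ := ht
  exact ⟨y, Subtype.ext (by simpa using hy)⟩

/-- **Kummer tower inside an ambient field**, set form : `F1(S) / F1` is finite Galois of
`p`-power degree when `F1 ∋ ζ_p`, `S` is finite and `t ^ p ∈ F1` for `t ∈ S`. -/
theorem kummer_tower_adjoin_set [CharZero F1] {p : ℕ} (hp : p.Prime) {ζ : F1}
    (hζ : IsPrimitiveRoot ζ p) {S : Set Ω} (hfin : S.Finite)
    (hS : ∀ t ∈ S, t ^ p ∈ (algebraMap F1 Ω).range) :
    FiniteDimensional F1 (adjoin F1 S) ∧ IsGalois F1 (adjoin F1 S) ∧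
      ∃ m : ℕ, Module.finrank F1 (adjoin F1 S) = p ^ m :=
  kummer_tower_set hp hζ (hfin.preimage Subtype.val_injective.injOn)
    (fun _ ht => pow_mem_range_of_val (hS _ ht)) (adjoin_preimage_eq_top S)

/-- **Kummer tower inside an ambient field** : `F1(T_1, …, T_s) / F1` is finite Galois of
`p`-power degree when `F1 ∋ ζ_p` and `T_i ^ p ∈ F1`. -/
theorem kummer_tower_adjoin [CharZero F1] {p : ℕ} (hp : p.Prime) {ζ : F1}
    (hζ : IsPrimitiveRoot ζ p) {ι : Type*} [Finite ι] (T : ι → Ω)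
    (hT : ∀ i, T i ^ p ∈ (algebraMap F1 Ω).range) :
    FiniteDimensional F1 (adjoin F1 (Set.range T)) ∧ IsGalois F1 (adjoin F1 (Set.range T)) ∧
      ∃ m : ℕ, Module.finrank F1 (adjoin F1 (Set.range T)) = p ^ m :=
  kummer_tower_adjoin_set hp hζ (Set.finite_range T) (by rintro _ ⟨i, rfl⟩; exact hT i)

end Ambient

section Stability

/-- A ring endomorphism of a field maps the subfield generated by `X` into itself as soon as it
maps `X` into it. -/
theorem map_closure_le {Ω : Type*} [Field Ω] (τ : Ω →+* Ω) (X : Set Ω)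
    (h : ∀ x ∈ X, τ x ∈ Subfield.closure X) : ∀ x ∈ Subfield.closure X, τ x ∈ Subfield.closure X := by
  have hle : Subfield.closure X ≤ (Subfield.closure X).comap τ :=
    Subfield.closure_le.2 fun x hx => h x hx
  exact fun x hx => hle hx

variable {F Ω : Type*} [Field F] [Field Ω] [Algebra F Ω]

/-- An `F`-endomorphism maps `E(S)` into itself as soon as it maps `E` and `S` into it. -/
theorem map_sup_adjoin_le (σ : Ω →ₐ[F] Ω) (E : IntermediateField F Ω) (S : Set Ω)
    (hE : ∀ x ∈ E, σ x ∈ E ⊔ adjoin F S) (hS : ∀ t ∈ S, σ t ∈ E ⊔ adjoin F S) :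
    ∀ x ∈ E ⊔ adjoin F S, σ x ∈ E ⊔ adjoin F S := by
  have hle : E ⊔ adjoin F S ≤ (E ⊔ adjoin F S).comap σ :=
    sup_le (fun x hx => hE x hx) (adjoin_le_iff.2 fun t ht => hS t ht)
  exact fun x hx => hle hx

/-- Two `F`-homomorphisms that agree on a set agree on the field it generates. -/
theorem eqOn_adjoin {K : Type*} [Field K] [Algebra F K] (φ ψ : Ω →ₐ[F] K) (X : Set Ω)
    (h : ∀ x ∈ X, φ x = ψ x) : ∀ x ∈ adjoin F X, φ x = ψ x := by
  intro x hx
  induction hx using adjoin_induction with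
  | mem t ht => exact h t ht
  | algebraMap c => rw [AlgHom.commutes, AlgHom.commutes]
  | add a b _ _ ha hb => rw [map_add, map_add, ha, hb]
  | inv a _ ha => rw [map_inv₀, map_inv₀, ha]
  | mul a b _ _ ha hb => rw [map_mul, map_mul, ha, hb]

/-- Two `F`-homomorphisms that agree on `E` and on `S` agree on `E(S)`. -/
theorem eqOn_sup_adjoin {K : Type*} [Field K] [Algebra F K] (φ ψ : Ω →ₐ[F] K)
    (E : IntermediateField F Ω) (S : Set Ω) (hE : ∀ x ∈ E, φ x = ψ x) (hS : ∀ t ∈ S, φ t = ψ t) :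
    ∀ x ∈ E ⊔ adjoin F S, φ x = ψ x := by
  have hle : E ⊔ adjoin F S ≤ adjoin F ((E : Set Ω) ∪ S) :=
    sup_le (fun x hx => subset_adjoin F _ (Or.inl hx)) (adjoin.mono F _ _ Set.subset_union_right)
  exact fun x hx => eqOn_adjoin φ ψ _
    (fun y hy => hy.elim (fun h => hE y h) (fun h => hS y h)) x (hle hx)

end Stability

end Fermat.Agent.S33.Geo.KummerTower
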