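import Mathlib
import Fermat.Agent.S33.Geo.Model
import Fermat.Agent.S33.Geo.TopExit

/-!
# S33 / GEO / Stage B, row B5x: the level-free exit of a model

Level-free (Mathlib + `S33/Geo/Model` + `S33/Geo/TopExit`).

`O` an unramified discrete valuation ring (`p` a prime element, perfect residue field),
`k = Frac O` algebraically closed in the function field `F`, `u ∈ F` the coordinate.  For a
model `Model.IsModel p (p : O) V R On Hor` whose points are the closed points of the fibre of the
two charts of `u` (`Model.Covers (p : O) u R`), and the chart binders `hred0`, `hredinf` of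
`PthPoint.exists_pow_eq_of_pointwise`:

* `exists_const_powAt` : a horizontal `f ≠ 0` of depth `≥ 1` on every component has ONE constant
  `c` with depth `≥ 2` on every component and `PthPoint.PowAt` for `f / c` at every closed point
  of the fibre of both charts;
* `model_exit` : for this `c`, for every extension `Ω` of `F` (with finite charts in the finite
  subextensions) and every `z ∈ Ω` with `z ^ p = f / c`: either `f = c * g ^ p` with `g ∈ F`, or
  `z ∈ F(x)` for some `x ∈ Ω` algebraic over `k`.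
-/

set_option autoImplicit false
set_option linter.unusedSectionVars false
set_option linter.unusedVariables false

universe u v

namespace Fermat.Agent.S33.Geo.ModelExit

open Fermat.Agent.S33.Geo.Top Fermat.Agent.S33.Geo.Model Fermat.Agent.S44.L

section Exit

variable {O : Type*} [CommRing O] [IsDomain O] [IsDiscreteValuationRing O]
  {F : Type u} [Field F] [Algebra O F]
  {ι Y : Type*} {V : ι → Subring F} {R : Y → Subring F} {On : Y → ι → Prop} {Hor : F → Prop}

/-- The covering hypothesis of `TopExit` at one chart of a model covering the charts of `u`. -/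
theorem hcov_of_covers {p : ℕ} {u : F} (hcov : Covers (p : O) u R) (v : F)
    (hv : v = u ∨ v = u⁻¹)
    (𝔪 : Ideal (integralClosure (Algebra.adjoin O ({v} : Set F)) F)) (h𝔪 : 𝔪.IsMaximal)
    (hp𝔪 : (p : integralClosure (Algebra.adjoin O ({v} : Set F)) F) ∈ 𝔪) :
    ∃ y, R y ≤ DepthHenselExit.locAt (Algebra.adjoin O ({v} : Set F)) 𝔪 h𝔪.isPrime := by
  obtain ⟨y, hy⟩ := hcov v hv 𝔪 h𝔪 (by rw [map_natCast]; exact hp𝔪)
  exact ⟨y, le_of_eq hy⟩

/-- **`TOP` on a model covering the two charts, `ϖ = p`, `top = 2`**: ONE constant `c` such that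
the horizontal function `f` has depth `≥ 2` with constant `c` on every component, and `f / c`
has the datum `PthPoint.PowAt` at every closed point of the fibre `p = 0` of both charts. -/
theorem exists_const_powAt (p : ℕ) (hp : p.Prime) (hπ : Prime (p : O))
    (hperf : ∀ a : O, ∃ b : O, (p : O) ∣ a - b ^ p)
    (hinj : Function.Injective (algebraMap O F)) (D : IsModel p (p : O) V R On Hor) (u : F)
    (hcov : Covers (p : O) u R) (f : F) (hf : f ≠ 0) (hHor : Hor f)
    (h1 : ∀ W, ∃ c : O, c ≠ 0 ∧ DepthIn (V W) p (p : O) 1 f c) :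
    ∃ c : O, c ≠ 0 ∧ (∀ W, DepthIn (V W) p (p : O) 2 f c) ∧
      (∀ 𝔪 : Ideal (integralClosure (Algebra.adjoin O ({u} : Set F)) F), 𝔪.IsMaximal →
        (p : integralClosure (Algebra.adjoin O ({u} : Set F)) F) ∈ 𝔪 →
        PthPoint.PowAt (Algebra.adjoin O ({u} : Set F)) p (f / algebraMap O F c) 𝔪) ∧
      (∀ 𝔪 : Ideal (integralClosure (Algebra.adjoin O ({u⁻¹} : Set F)) F), 𝔪.IsMaximal →
        (p : integralClosure (Algebra.adjoin O ({u⁻¹} : Set F)) F) ∈ 𝔪 →
        PthPoint.PowAt (Algebra.adjoin O ({u⁻¹} : Set F)) p (f / algebraMap O F c) 𝔪) :=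
  TopExit.exists_const_powAt p hπ hinj
    (D.isDatum hp hπ.irreducible hperf (top := 2) le_rfl hp.two_le (by simp)) u
    (fun 𝔪 h𝔪 hp𝔪 => hcov_of_covers hcov u (Or.inl rfl) 𝔪 h𝔪 hp𝔪)
    (fun 𝔪 h𝔪 hp𝔪 => hcov_of_covers hcov u⁻¹ (Or.inr rfl) 𝔪 h𝔪 hp𝔪) f hf (fun _ => hHor) h1

variable {k : Type*} [Field k] [Algebra O k] [IsFractionRing O k] [Algebra k F]

/-- **Row B5x: the level-free exit of a model.**  `p ≥ 3` a prime element of `O` with perfect
residue field, `k = Frac O` algebraically closed in `F`, a model covering the two charts of `u`,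
and the binders `hred0`, `hredinf` of `PthPoint.exists_pow_eq_of_pointwise`.  If `f ≠ 0` is
horizontal and has depth `≥ 1` on every component, then there is a constant `c ≠ 0` of `O`
such that for every extension `Ω` of `F` (whose finite subextensions have finite charts) and
every `z ∈ Ω` with `z ^ p = f / c`: either `f = c * g ^ p` with `g ∈ F`, or `z ∈ F(x)` for some
`x ∈ Ω` algebraic over `k`. -/
theorem model_exit (p : ℕ) (hp : p.Prime) (hp3 : 3 ≤ p) (hπ : Prime (p : O))
    (hperf : ∀ a : O, ∃ b : O, (p : O) ∣ a - b ^ p)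
    (hinj : Function.Injective (algebraMap O F))
    (hconst : ∀ y : F, IsAlgebraic k y → y ∈ (algebraMap k F).range)
    (D : IsModel p (p : O) V R On Hor) (u : F) (hu : u ≠ 0) (hcov : Covers (p : O) u R)
    (hred0 : ∀ x : F, IsIntegral (Algebra.adjoin O ({u} : Set F)) x →
      IsIntegral (Algebra.adjoin O ({u} : Set F)) (x ^ p / (p : F)) →
      IsIntegral (Algebra.adjoin O ({u} : Set F)) (x / (p : F)))
    (hredinf : ∀ x : F, IsIntegral (Algebra.adjoin O ({u⁻¹} : Set F)) x →
      IsIntegral (Algebra.adjoin O ({u⁻¹} : Set F)) (x ^ p / (p : F)) →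
      IsIntegral (Algebra.adjoin O ({u⁻¹} : Set F)) (x / (p : F)))
    (f : F) (hf : f ≠ 0) (hHor : Hor f)
    (h1 : ∀ W, ∃ c : O, c ≠ 0 ∧ DepthIn (V W) p (p : O) 1 f c) :
    ∃ c : O, c ≠ 0 ∧
      ∀ (Ω : Type v) [Field Ω] [Algebra F Ω] [Algebra O Ω] [IsScalarTower O F Ω] [Algebra k Ω]
        [IsScalarTower k F Ω] [IsScalarTower O k Ω],
        (∀ L : IntermediateField F Ω, FiniteDimensional F L →
          Module.Finite (Algebra.adjoin O ({algebraMap F L u} : Set L))
            (integralClosure (Algebra.adjoin O ({algebraMap F L u} : Set L)) L)) →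
        ∀ z : Ω, z ^ p = algebraMap F Ω (f / algebraMap O F c) →
          (∃ g : F, f = algebraMap O F c * g ^ p) ∨
            ∃ x : Ω, IsAlgebraic k x ∧ z ∈ IntermediateField.adjoin F {x} := by
  obtain ⟨c, hc, -, h⟩ := TopExit.exit_of_datum.{v} (k := k) p hp hp3 hπ hinj hconst
    (D.isDatum hp hπ.irreducible hperf (top := 2) le_rfl hp.two_le (by simp)) u hu hred0 hredinf
    (fun 𝔪 h𝔪 hp𝔪 => hcov_of_covers hcov u (Or.inl rfl) 𝔪 h𝔪 hp𝔪)
    (fun 𝔪 h𝔪 hp𝔪 => hcov_of_covers hcov u⁻¹ (Or.inr rfl) 𝔪 h𝔪 hp𝔪) f hf (fun _ => hHor) h1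
  exact ⟨c, hc, h⟩

end Exit

end Fermat.Agent.S33.Geo.ModelExit
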