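import Mathlib
import Fermat.Agent.S44.L.CrossingInst

/-!
# S33, Stage B, row B3 (sub-row `conn`): a crossing point of the level-`M p` chart at `u₄`,
# uniformiser `p`

The `conn` clause of the model package at the instance of row B3 (`S33/Geo/ModelInst`): the
chart ring `C = Chart O (α u₄)` of level `M p` (`4 ∣ M`, `p` an odd prime, `p ∤ M`) has a maximal
ideal containing both vertical primes `p_∞ = ker redInf` and `p_0 = ker redZero`, stated with the
uniformiser `ϖ = (p : O)` (so that no unit `e` with `p = π e` and no inertia hypothesis appears in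
the binder block).

* `piC_mem_of_ker_redInf_le`, `algebraMap_mem_of_ker_redInf_le` (level-free, binder block of
  `S34/TwoPrimesGauss`, section `Main`): an ideal containing `ker redInf` contains `ϖ`
  (in the two spellings `piC (α u') ϖ` and `algebraMap O (Chart O (α u')) ϖ`).
* `exists_crossing_u4_nat` : the crossing point for a generic discrete valuation ring `O` with
  fraction field `E ⊆ ℚ̄` in which `(p : O)` is irreducible.
* `exists_crossing_u4_nat_OE` : the same over `O = A ∩ K`, in the binder block of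
  `S33/Geo/UnrExit` (no inertia hypothesis: `hπ : Irreducible ((p : ℕ) : OE A K)`).

Source: `S44/L/CrossingInst.exists_crossing_u4` at `π := (p : O)`, `e := 1`.
-/

set_option autoImplicit false
set_option linter.unusedSectionVars false
set_option linter.unusedVariables false
set_option linter.style.haveILetI false
set_option synthInstance.maxHeartbeats 400000
set_option maxHeartbeats 1000000

open ModularCurve Polynomial IntermediateField

noncomputable section

namespace Fermat.Agent.S33.Geo.ModelInstConn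

open Fermat.Agent.S30 Fermat.Agent.S34 Fermat.Agent.S34.TwoPrimesGauss
open Fermat.Agent.S30.Model
open Fermat.Agent.S18.K1Defs Fermat.Agent.S18.K1Main
open Fermat.Agent.S34.TwoPrimesRank Fermat.Agent.S34.HauptU.Plug
open Fermat.Agent.S34.HauptU.LevelMAux
open Fermat.Agent.S36.Haupt4 Fermat.Agent.S36.LevelQInstAlt

local notation "Qb" => AlgebraicClosure ℚ

/-! ### Level-free: a prime through `p_∞` contains the uniformiser -/

section Main

variable {O E : Type*} [CommRing O] [IsDomain O] [IsDiscreteValuationRing O] [Field E]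
  [Algebra O E] [FaithfulSMul O E]
  {L' L : Type*} [Field L'] [Field L] [Algebra O L'] [Algebra O L]
  (ϖ : O) (hϖ : Irreducible ϖ)
  (α : L' →+* L)
  (σ : L →+* LaurentSeries E)
  (hσO : ∀ r : O, σ (algebraMap O L r) = HahnSeries.C (algebraMap O E r))
  (hσfrac : ∀ x : L, σ x ∈ GaussDVR.fracField O E)
  (u' : L') (U : LaurentSeries O) (hσu : σ (α u') = GaussDVR.iota O E U)

/-- The uniformiser lies in `p_∞ = ker redInf`. -/
theorem piC_mem_ker_redInf :
    piC (α u') ϖ ∈ RingHom.ker (redInf ϖ hϖ α σ hσO hσfrac u' U hσu) :=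
  (RingHom.mem_ker).mpr (redHom_piC σ hσO ϖ hϖ hσfrac (α u') U hσu)

/-- An ideal containing `p_∞ = ker redInf` contains the uniformiser (spelling `piC`). -/
theorem piC_mem_of_ker_redInf_le (𝔪 : Ideal (Chart O (α u')))
    (h : RingHom.ker (redInf ϖ hϖ α σ hσO hσfrac u' U hσu) ≤ 𝔪) : piC (α u') ϖ ∈ 𝔪 :=
  h (piC_mem_ker_redInf ϖ hϖ α σ hσO hσfrac u' U hσu)

/-- An ideal containing `p_∞ = ker redInf` contains the uniformiser (spelling `algebraMap`). -/
theorem algebraMap_mem_of_ker_redInf_le (𝔪 : Ideal (Chart O (α u')))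
    (h : RingHom.ker (redInf ϖ hϖ α σ hσO hσfrac u' U hσu) ≤ 𝔪) :
    algebraMap O (Chart O (α u')) ϖ ∈ 𝔪 := by
  have h1 : algebraMap O (Chart O (α u')) ϖ = piC (α u') ϖ := Subtype.ext rfl
  rw [h1]
  exact piC_mem_of_ker_redInf_le ϖ hϖ α σ hσO hσfrac u' U hσu 𝔪 h

end Main

/-! ### Generic base with uniformiser `p` -/

section Generic

variable (M q : ℕ) [NeZero M] [NeZero q] (E : IntermediateField ℚ Qb)
  {O : Type} [CommRing O] [IsDomain O] [IsDiscreteValuationRing O]
  [Algebra O E] [IsFractionRing O E]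

/-- **The crossing point at `u₄`, uniformiser `q`**: the level-`q` chart ring at `u₄` has a
maximal ideal containing both vertical primes `p_∞ = ker redInf` and `p_0 = ker redZero`. -/
theorem exists_crossing_u4_nat (hq : q.Prime) (hodd : q ≠ 2) (hqM : ¬ q ∣ M) (h4 : 4 ∣ M)
    (h2 : IsUnit (2 : O)) (hFG : FinGaussC M O E) (hπ : Irreducible ((q : ℕ) : O))
    (hσfrac : ∀ x : LE (M * q) E, sigmaHom (M * q) E x ∈ GaussDVR.fracField O E) :
    letI := algebraOL O E (LE M E)
    letI := algebraOL O E (LE (M * q) E)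
    haveI := isScalarTower_OL O E (LE M E)
    haveI := isScalarTower_OL O E (LE (M * q) E)
    ∃ 𝔪 : Ideal (Chart O (alphaHom M q E (u4E M E h4))), 𝔪.IsMaximal ∧
      RingHom.ker (redInf ((q : ℕ) : O) hπ (alphaHom M q E) (sigmaHom (M * q) E)
        (sigmaHom_algebraMap (M * q) E) hσfrac (u4E M E h4) (u4 O) (hσu_u4 M q E h4)) ≤ 𝔪 ∧
      RingHom.ker (redZero ((q : ℕ) : O) hπ (alphaHom M q E) (sigmaHom (M * q) E)
        (sigmaHom_algebraMap (M * q) E) hσfrac (u4E M E h4) (u4 O) (hσu_u4 M q E h4)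
        (wHom M q E hq hqM) (wHom_algebraMap M q E hq hqM) q
        (sigmaHom_wHom_alpha M q E hq hqM)) ≤ 𝔪 :=
  Fermat.Agent.S44.L.CrossingInst.exists_crossing_u4 M q E hq hodd hqM h4 h2 hFG
    ((q : ℕ) : O) hπ 1 isUnit_one (mul_one _).symm hσfrac

end Generic

/-! ### The arithmetic instance `O = A ∩ K` -/

section Arithmetic

/-- **The crossing point at `u₄` over `O = A ∩ K`, uniformiser `p`** (binder block of
`S33/Geo/UnrExit`): `A` a valuation ring of `ℚ̄` over the odd prime `p ∤ M`, `4 ∣ M`, `K` a number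
field containing a primitive `M`-th root of unity in which `p` is a uniformiser of `A ∩ K`. -/
theorem exists_crossing_u4_nat_OE (A : ValuationSubring Qb) (M p : ℕ) [NeZero M] [NeZero p]
    (hp : p.Prime) (hodd : p ≠ 2) (hpM : ¬ p ∣ M) (h4 : 4 ∣ M) (hA : A.LiesOverPrime p)
    (K : IntermediateField ℚ Qb) [FiniteDimensional ℚ K] [IsDiscreteValuationRing (OE A K)]
    (z : Qb) (hz : IsPrimitiveRoot z M) (hzK : z ∈ K)
    (hπ : Irreducible ((p : ℕ) : OE A K)) :
    letI := algebraOL (OE A K) K (LE M K)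
    letI := algebraOL (OE A K) K (LE (M * p) K)
    haveI := isScalarTower_OL (OE A K) K (LE M K)
    haveI := isScalarTower_OL (OE A K) K (LE (M * p) K)
    ∃ 𝔪 : Ideal (Chart (OE A K) (alphaHom M p K (u4E M K h4))), 𝔪.IsMaximal ∧
      RingHom.ker (redInf ((p : ℕ) : OE A K) hπ (alphaHom M p K) (sigmaHom (M * p) K)
        (sigmaHom_algebraMap (M * p) K) (sigmaHom_mem_fracField (M * p) K A) (u4E M K h4)
        (u4 (OE A K)) (hσu_u4 M p K h4)) ≤ 𝔪 ∧
      RingHom.ker (redZero ((p : ℕ) : OE A K) hπ (alphaHom M p K) (sigmaHom (M * p) K)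
        (sigmaHom_algebraMap (M * p) K) (sigmaHom_mem_fracField (M * p) K A) (u4E M K h4)
        (u4 (OE A K)) (hσu_u4 M p K h4) (wHom M p K hp hpM) (wHom_algebraMap M p K hp hpM) p
        (sigmaHom_wHom_alpha M p K hp hpM)) ≤ 𝔪 := by
  haveI : Fact p.Prime := ⟨hp⟩
  exact exists_crossing_u4_nat (O := OE A K) M p K hp hodd hpM h4 (isUnit_two_OE A hA hodd K)
    (Fermat.Agent.S36.Haupt4.Fibre.finGaussC_OE A M hpM hA K z hz hzK) hπ
    (sigmaHom_mem_fracField (M * p) K A)

end Arithmetic

end Fermat.Agent.S33.Geo.ModelInstConn
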