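import Mathlib
import Fermat.Agent.S33.Geo.ModelInstConn
import Fermat.Agent.S33.Geo.ChartPointsBool
import Fermat.Agent.S33.Geo.GaussConst
import Fermat.Agent.S33.Geo.GaussRings

/-!
# S33, Stage B, row B3 (sub-row `conn`, second file): centre `⟺` kernel for the Gauss rings,
# and the hypothesis `hcross` of `ChartPointsBool.isModelI_bool_of_crossing` at `u₄`

* `memPi_iff_redHom` (level-free, binder block of `S34/TwoPrimesGauss`, section `Chart`): for a
  chart element `b`, `b ∈ ϖ V_σ` (`V_σ = GaussConst.VG O σ` the Gauss ring of the `q`-expansion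
  embedding `σ`) iff `redHom σ .. b = 0`.  This is the hypothesis `hr` of
  `ChartPoints.cen_iff_ker_le`, for any chart coordinate `u` with `σ u` integral (so for `u₄`
  and for `u₄⁻¹`, for `σ` and for `σ ∘ w`).
* `cen_iff_ker_redHom_le` : the centre of `V_σ` on the chart lies in `𝔪` iff `ker redHom ≤ 𝔪`.
* `memPi_iff_redInf`, `memPi_iff_redZero`, `cen_iff_ker_redInf_le`, `cen_iff_ker_redZero_le` :
  the two components of the level-`ℓ M'` chart (`section Main` of `S34/TwoPrimesGauss`).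
* `ptOn_true_iff_u4`, `ptOn_false_iff_u4` : at the instance (`GaussRings.VB`, chart of `α u₄`,
  generic base `O`), a point `Sum.inl 𝔪` of `ChartPoints.Pt` lies on the component `true` (`∞`)
  iff `ker redInf ≤ 𝔪`, on the component `false` (`0`) iff `ker redZero ≤ 𝔪`.
* `hcross_u4`, `hcross_u4_OE` : **the hypothesis `hcross`** of
  `ChartPointsBool.isModelI_bool_of_crossing` at the instance:
  `∃ y : Pt ϖ U, ptOn ϖ U VB y true ∧ ptOn ϖ U VB y false`, `ϖ = (p : O)`, `U = α u₄`.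
-/

set_option autoImplicit false
set_option linter.unusedSectionVars false
set_option linter.unusedVariables false
set_option linter.style.haveILetI false
set_option synthInstance.maxHeartbeats 400000
set_option maxHeartbeats 1000000

open ModularCurve Polynomial IntermediateField

noncomputable section

namespace Fermat.Agent.S33.Geo.ModelInstCross

open Fermat.Agent.S30 Fermat.Agent.S34 Fermat.Agent.S34.TwoPrimesGauss
open Fermat.Agent.S30.Model
open Fermat.Agent.S18.K1Defs Fermat.Agent.S18.K1Main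
open Fermat.Agent.S34.TwoPrimesRank Fermat.Agent.S34.HauptU.Plug
open Fermat.Agent.S34.HauptU.LevelMAux
open Fermat.Agent.S36.Haupt4 Fermat.Agent.S36.LevelQInstAlt
open Fermat.Agent.S33.Geo Fermat.Agent.S33.Geo.Top Fermat.Agent.S33.Geo.ChartPoints

local notation "Qb" => AlgebraicClosure ℚ

/-! ### Level-free: one chart, one `q`-expansion embedding -/

section Chart

variable {O E : Type*} [CommRing O] [IsDomain O] [IsDiscreteValuationRing O] [Field E]
  [Algebra O E] [FaithfulSMul O E] {L : Type*} [Field L] [Algebra O L]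
  (σ : L →+* LaurentSeries E)
  (hσO : ∀ r : O, σ (algebraMap O L r) = HahnSeries.C (algebraMap O E r))
  (ϖ : O) (hϖ : Irreducible ϖ) (hσfrac : ∀ x : L, σ x ∈ GaussDVR.fracField O E)

/-- **Centre `=` kernel, elementwise**: a chart element lies in `ϖ V_σ` iff its reduction
vanishes. -/
theorem memPi_iff_redHom (u : L) (U : LaurentSeries O) (hσu : σ u = GaussDVR.iota O E U)
    (b : Chart O u) :
    MemPi (GaussConst.VG O σ) ϖ (b : L) ↔ redHom σ hσO ϖ hϖ hσfrac u U hσu b = 0 := by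
  constructor
  · intro hb
    refine GaussConst.redHom_eq_zero_of_memPi σ hσO ϖ hϖ hσfrac u U hσu (b : L) b 1 ?_ hb
    rw [map_one, mul_one]
    rfl
  · intro hb
    exact GaussConst.memPi_of_redG_eq_zero σ hσO ϖ hϖ
      ⟨(b : L), GaussConst.chart_mem_VG σ hσO ϖ hϖ hσfrac u U hσu b⟩ hb

/-- **Centre `⟺` kernel**: the centre of `V_σ` on the chart lies in `𝔪` iff
`ker redHom ≤ 𝔪`. -/
theorem cen_iff_ker_redHom_le (u : L) (U : LaurentSeries O) (hσu : σ u = GaussDVR.iota O E U)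
    (𝔪 : Ideal (Chart O u)) :
    (∀ b : Chart O u, MemPi (GaussConst.VG O σ) ϖ (b : L) → b ∈ 𝔪) ↔
      RingHom.ker (redHom σ hσO ϖ hϖ hσfrac u U hσu) ≤ 𝔪 :=
  ⟨fun h b hb => h b ((memPi_iff_redHom σ hσO ϖ hϖ hσfrac u U hσu b).mpr hb),
    fun h b hb => h ((memPi_iff_redHom σ hσO ϖ hϖ hσfrac u U hσu b).mp hb)⟩

end Chart

/-! ### Level-free: the two components of the level-`ℓ M'` chart -/

section Main

variable {O E : Type*} [CommRing O] [IsDomain O] [IsDiscreteValuationRing O] [Field E]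
  [Algebra O E] [FaithfulSMul O E]
  {L' L : Type*} [Field L'] [Field L] [Algebra O L'] [Algebra O L]
  (ϖ : O) (hϖ : Irreducible ϖ)
  (α : L' →+* L)
  (σ : L →+* LaurentSeries E)
  (hσO : ∀ r : O, σ (algebraMap O L r) = HahnSeries.C (algebraMap O E r))
  (hσfrac : ∀ x : L, σ x ∈ GaussDVR.fracField O E)
  (u' : L') (U : LaurentSeries O) (hσu : σ (α u') = GaussDVR.iota O E U)
  (w : L ≃+* L) (hwO : ∀ r : O, w (algebraMap O L r) = algebraMap O L r)
  (ℓ : ℕ) [NeZero ℓ]
  (hwα : ∀ x : L', σ (w (α x)) = qExpand E ℓ (σ (α x)))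

/-- The component `∞`: `b ∈ ϖ V_∞` iff `redInf b = 0`. -/
theorem memPi_iff_redInf (b : Chart O (α u')) :
    MemPi ((GaussDVR.V O E).comap σ) ϖ (b : L) ↔
      redInf ϖ hϖ α σ hσO hσfrac u' U hσu b = 0 :=
  memPi_iff_redHom σ hσO ϖ hϖ hσfrac (α u') U hσu b

/-- The component `0`: `b ∈ ϖ V_0` iff `redZero b = 0`. -/
theorem memPi_iff_redZero (b : Chart O (α u')) :
    MemPi ((GaussDVR.V O E).comap (σ.comp (w : L →+* L))) ϖ (b : L) ↔
      redZero ϖ hϖ α σ hσO hσfrac u' U hσu w hwO ℓ hwα b = 0 :=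
  memPi_iff_redHom (σ.comp (w : L →+* L)) (sigmaW_O σ hσO w hwO) ϖ hϖ
    (fun x => hσfrac (w x)) (α u') (qExpand O ℓ U) (sigmaW_u α σ u' U hσu w ℓ hwα) b

/-- The centre of `V_∞` lies in `𝔪` iff `ker redInf ≤ 𝔪`. -/
theorem cen_iff_ker_redInf_le (𝔪 : Ideal (Chart O (α u'))) :
    (∀ b : Chart O (α u'), MemPi ((GaussDVR.V O E).comap σ) ϖ (b : L) → b ∈ 𝔪) ↔
      RingHom.ker (redInf ϖ hϖ α σ hσO hσfrac u' U hσu) ≤ 𝔪 :=
  ⟨fun h b hb => h b ((memPi_iff_redInf ϖ hϖ α σ hσO hσfrac u' U hσu b).mpr hb),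
    fun h b hb => h ((memPi_iff_redInf ϖ hϖ α σ hσO hσfrac u' U hσu b).mp hb)⟩

/-- The centre of `V_0` lies in `𝔪` iff `ker redZero ≤ 𝔪`. -/
theorem cen_iff_ker_redZero_le (𝔪 : Ideal (Chart O (α u'))) :
    (∀ b : Chart O (α u'),
        MemPi ((GaussDVR.V O E).comap (σ.comp (w : L →+* L))) ϖ (b : L) → b ∈ 𝔪) ↔
      RingHom.ker (redZero ϖ hϖ α σ hσO hσfrac u' U hσu w hwO ℓ hwα) ≤ 𝔪 :=
  ⟨fun h b hb => h b ((memPi_iff_redZero ϖ hϖ α σ hσO hσfrac u' U hσu w hwO ℓ hwα b).mpr hb),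
    fun h b hb => h ((memPi_iff_redZero ϖ hϖ α σ hσO hσfrac u' U hσu w hwO ℓ hwα b).mp hb)⟩

end Main

/-! ### The instance at `u₄`, generic base -/

section Generic

variable (M q : ℕ) [NeZero M] [NeZero q] (E : IntermediateField ℚ Qb)
  {O : Type} [CommRing O] [IsDomain O] [IsDiscreteValuationRing O]
  [Algebra O E] [IsFractionRing O E]

/-- On the chart of `α u₄`: the point `Sum.inl 𝔪` lies on the component `∞` (`true`) iff
`ker redInf ≤ 𝔪`. -/
theorem ptOn_true_iff_u4 (hq : q.Prime) (hqM : ¬ q ∣ M) (h4 : 4 ∣ M) (π : O)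
    (hπ : Irreducible π)
    (hσfrac : ∀ x : LE (M * q) E, sigmaHom (M * q) E x ∈ GaussDVR.fracField O E) :
    letI := algebraOL O E (LE M E)
    letI := algebraOL O E (LE (M * q) E)
    haveI := isScalarTower_OL O E (LE M E)
    haveI := isScalarTower_OL O E (LE (M * q) E)
    ∀ 𝔪 : {𝔪 : Ideal (Chart O (alphaHom M q E (u4E M E h4))) //
        𝔪.IsMaximal ∧ algebraMap O (Chart O (alphaHom M q E (u4E M E h4))) π ∈ 𝔪},
      ptOn π (alphaHom M q E (u4E M E h4)) (GaussRings.VB M q E O hq hqM) (Sum.inl 𝔪) true ↔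
        RingHom.ker (redInf π hπ (alphaHom M q E) (sigmaHom (M * q) E)
          (sigmaHom_algebraMap (M * q) E) hσfrac (u4E M E h4) (u4 O) (hσu_u4 M q E h4)) ≤ 𝔪.1 := by
  letI := algebraOL O E (LE M E)
  letI := algebraOL O E (LE (M * q) E)
  haveI := isScalarTower_OL O E (LE M E)
  haveI := isScalarTower_OL O E (LE (M * q) E)
  intro 𝔪
  exact cen_iff_ker_redInf_le π hπ (alphaHom M q E) (sigmaHom (M * q) E)
    (sigmaHom_algebraMap (M * q) E) hσfrac (u4E M E h4) (u4 O) (hσu_u4 M q E h4) 𝔪.1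

/-- On the chart of `α u₄`: the point `Sum.inl 𝔪` lies on the component `0` (`false`) iff
`ker redZero ≤ 𝔪`. -/
theorem ptOn_false_iff_u4 (hq : q.Prime) (hqM : ¬ q ∣ M) (h4 : 4 ∣ M) (π : O)
    (hπ : Irreducible π)
    (hσfrac : ∀ x : LE (M * q) E, sigmaHom (M * q) E x ∈ GaussDVR.fracField O E) :
    letI := algebraOL O E (LE M E)
    letI := algebraOL O E (LE (M * q) E)
    haveI := isScalarTower_OL O E (LE M E)
    haveI := isScalarTower_OL O E (LE (M * q) E)
    ∀ 𝔪 : {𝔪 : Ideal (Chart O (alphaHom M q E (u4E M E h4))) //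
        𝔪.IsMaximal ∧ algebraMap O (Chart O (alphaHom M q E (u4E M E h4))) π ∈ 𝔪},
      ptOn π (alphaHom M q E (u4E M E h4)) (GaussRings.VB M q E O hq hqM) (Sum.inl 𝔪) false ↔
        RingHom.ker (redZero π hπ (alphaHom M q E) (sigmaHom (M * q) E)
          (sigmaHom_algebraMap (M * q) E) hσfrac (u4E M E h4) (u4 O) (hσu_u4 M q E h4)
          (wHom M q E hq hqM) (wHom_algebraMap M q E hq hqM) q
          (sigmaHom_wHom_alpha M q E hq hqM)) ≤ 𝔪.1 := by
  letI := algebraOL O E (LE M E)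
  letI := algebraOL O E (LE (M * q) E)
  haveI := isScalarTower_OL O E (LE M E)
  haveI := isScalarTower_OL O E (LE (M * q) E)
  intro 𝔪
  exact cen_iff_ker_redZero_le π hπ (alphaHom M q E) (sigmaHom (M * q) E)
    (sigmaHom_algebraMap (M * q) E) hσfrac (u4E M E h4) (u4 O) (hσu_u4 M q E h4)
    (wHom M q E hq hqM) (wHom_algebraMap M q E hq hqM) q (sigmaHom_wHom_alpha M q E hq hqM) 𝔪.1

/-- **`hcross` at `u₄`, generic base with uniformiser `q`**: a closed point of the chart of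
`α u₄` lying on both components. -/
theorem hcross_u4 (hq : q.Prime) (hodd : q ≠ 2) (hqM : ¬ q ∣ M) (h4 : 4 ∣ M)
    (h2 : IsUnit (2 : O)) (hFG : FinGaussC M O E) (hπ : Irreducible ((q : ℕ) : O))
    (hσfrac : ∀ x : LE (M * q) E, sigmaHom (M * q) E x ∈ GaussDVR.fracField O E) :
    letI := algebraOL O E (LE (M * q) E)
    ∃ y : Pt ((q : ℕ) : O) (alphaHom M q E (u4E M E h4)),
      ptOn ((q : ℕ) : O) (alphaHom M q E (u4E M E h4)) (GaussRings.VB M q E O hq hqM) y true ∧
      ptOn ((q : ℕ) : O) (alphaHom M q E (u4E M E h4)) (GaussRings.VB M q E O hq hqM) y false := by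
  letI := algebraOL O E (LE M E)
  letI := algebraOL O E (LE (M * q) E)
  haveI := isScalarTower_OL O E (LE M E)
  haveI := isScalarTower_OL O E (LE (M * q) E)
  obtain ⟨𝔪, h𝔪, hI, hZ⟩ :=
    ModelInstConn.exists_crossing_u4_nat M q E hq hodd hqM h4 h2 hFG hπ hσfrac
  exact ChartPointsBool.crossing_of_ideal ((q : ℕ) : O) (alphaHom M q E (u4E M E h4))
    (GaussRings.VB M q E O hq hqM) 𝔪 h𝔪
    ((cen_iff_ker_redInf_le ((q : ℕ) : O) hπ (alphaHom M q E) (sigmaHom (M * q) E)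
      (sigmaHom_algebraMap (M * q) E) hσfrac (u4E M E h4) (u4 O) (hσu_u4 M q E h4) 𝔪).mpr hI)
    ((cen_iff_ker_redZero_le ((q : ℕ) : O) hπ (alphaHom M q E) (sigmaHom (M * q) E)
      (sigmaHom_algebraMap (M * q) E) hσfrac (u4E M E h4) (u4 O) (hσu_u4 M q E h4)
      (wHom M q E hq hqM) (wHom_algebraMap M q E hq hqM) q
      (sigmaHom_wHom_alpha M q E hq hqM) 𝔪).mpr hZ)

end Generic

/-! ### The arithmetic instance `O = A ∩ K` -/

section Arithmetic

/-- **`hcross` at `u₄` over `O = A ∩ K`, uniformiser `p`** (binder block of `S33/Geo/UnrExit`):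
the hypothesis `hcross` of `ChartPointsBool.isModelI_bool_of_crossing` at the instance. -/
theorem hcross_u4_OE (A : ValuationSubring Qb) (M p : ℕ) [NeZero M] [NeZero p]
    (hp : p.Prime) (hodd : p ≠ 2) (hpM : ¬ p ∣ M) (h4 : 4 ∣ M) (hA : A.LiesOverPrime p)
    (K : IntermediateField ℚ Qb) [FiniteDimensional ℚ K] [IsDiscreteValuationRing (OE A K)]
    (z : Qb) (hz : IsPrimitiveRoot z M) (hzK : z ∈ K)
    (hπ : Irreducible ((p : ℕ) : OE A K)) :
    letI := algebraOL (OE A K) K (LE (M * p) K)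
    ∃ y : Pt ((p : ℕ) : OE A K) (alphaHom M p K (u4E M K h4)),
      ptOn ((p : ℕ) : OE A K) (alphaHom M p K (u4E M K h4))
        (GaussRings.VB M p K (OE A K) hp hpM) y true ∧
      ptOn ((p : ℕ) : OE A K) (alphaHom M p K (u4E M K h4))
        (GaussRings.VB M p K (OE A K) hp hpM) y false := by
  haveI : Fact p.Prime := ⟨hp⟩
  exact hcross_u4 (O := OE A K) M p K hp hodd hpM h4 (isUnit_two_OE A hA hodd K)
    (Fermat.Agent.S36.Haupt4.Fibre.finGaussC_OE A M hpM hA K z hz hzK) hπ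
    (sigmaHom_mem_fracField (M * p) K A)

end Arithmetic

end Fermat.Agent.S33.Geo.ModelInstCross
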