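import Mathlib
import Fermat.Agent.S33.Geo.ModelI
import Fermat.Agent.S33.Geo.ChartGlobal

/-!
# S33 / GEO / Stage B, row B3: the canonical points of a two-chart model

Level-free (Mathlib + `S33/Geo/ModelI` + `S33/Geo/ChartGlobal`).  `O` a ring, `F` a field over
`O`, `π : O`, `u : F`; the two charts are `integralClosure (Algebra.adjoin O {t}) F` for
`t = u, u⁻¹`.

* `Pt π u` : the closed points of the fibre of the chart of `u`, and the closed points over
  `u = ∞` of the fibre of the chart of `u⁻¹` (exactly the points of `Model.CoversCusp`).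
* `ptR π u y` : the local ring `DepthHenselExit.locAt` of the chart at the point.
* `ptOn π u V y W` : the centre of the generic ring `V W` lies in the point, in the spelling of
  `ChartGlobal` (`∀ b, Top.MemPi (V W) π (b : F) → b ∈ 𝔪`).
* `coversCusp_ptR`, and the chart hypotheses `hY0`, `hY1`, `hpoint` of `ChartGlobal` for these
  points (`hY0_pt`, `hY1_pt`, `hpoint_pt`); `van_pt` (`ChartGlobal.van_of_points`).
* `conn_bool` : with two components, one common point gives (CONN).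
* `isModelI_pt` : the assembly `Model.IsModelI ∧ Model.CoversCusp` from the blocks at the
  maximal ideals of the two charts, (CONN), (CONST0) and (VAN).
-/

set_option autoImplicit false
set_option linter.unusedSectionVars false
set_option linter.unusedVariables false

universe u

namespace Fermat.Agent.S33.Geo.ModelPts

open Fermat.Agent.S33.Geo.Top Fermat.Agent.S33.Geo.Model Fermat.Agent.S44.L
open Fermat.Agent.S30.Model

section Defs

variable {O : Type*} [CommRing O] {F : Type u} [Field F] [Algebra O F]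

/-- The closed points of the model: the maximal ideals containing `π` of the chart of `u`, and
the maximal ideals containing `π` and `u⁻¹` of the chart of `u⁻¹`. -/
def Pt (π : O) (u : F) : Type u :=
  {𝔪 : Ideal (integralClosure (Algebra.adjoin O ({u} : Set F)) F) //
    𝔪.IsMaximal ∧ algebraMap O (integralClosure (Algebra.adjoin O ({u} : Set F)) F) π ∈ 𝔪} ⊕
  {𝔪 : Ideal (integralClosure (Algebra.adjoin O ({u⁻¹} : Set F)) F) //
    𝔪.IsMaximal ∧ algebraMap O (integralClosure (Algebra.adjoin O ({u⁻¹} : Set F)) F) π ∈ 𝔪 ∧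
      ∃ t : integralClosure (Algebra.adjoin O ({u⁻¹} : Set F)) F, (t : F) = u⁻¹ ∧ t ∈ 𝔪}

/-- The local ring of the model at a closed point. -/
def ptR (π : O) (u : F) : Pt π u → Subring F
  | Sum.inl y => DepthHenselExit.locAt (Algebra.adjoin O ({u} : Set F)) y.1 y.2.1.isPrime
  | Sum.inr y => DepthHenselExit.locAt (Algebra.adjoin O ({u⁻¹} : Set F)) y.1 y.2.1.isPrime

/-- The closed point `y` lies on the component `W`: the centre of `V W` lies in `y`. -/
def ptOn (π : O) (u : F) {ι : Type*} (V : ι → Subring F) : Pt π u → ι → Prop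
  | Sum.inl y, W => ∀ b : integralClosure (Algebra.adjoin O ({u} : Set F)) F,
      MemPi (V W) π (b : F) → b ∈ y.1
  | Sum.inr y, W => ∀ b : integralClosure (Algebra.adjoin O ({u⁻¹} : Set F)) F,
      MemPi (V W) π (b : F) → b ∈ y.1

theorem ptR_inl (π : O) (u : F)
    (𝔪 : Ideal (integralClosure (Algebra.adjoin O ({u} : Set F)) F)) (h𝔪 : 𝔪.IsMaximal)
    (hπ : algebraMap O (integralClosure (Algebra.adjoin O ({u} : Set F)) F) π ∈ 𝔪) :
    ptR π u (Sum.inl ⟨𝔪, h𝔪, hπ⟩) =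
      DepthHenselExit.locAt (Algebra.adjoin O ({u} : Set F)) 𝔪 h𝔪.isPrime := rfl

theorem ptR_inr (π : O) (u : F)
    (𝔪 : Ideal (integralClosure (Algebra.adjoin O ({u⁻¹} : Set F)) F)) (h𝔪 : 𝔪.IsMaximal)
    (hπ : algebraMap O (integralClosure (Algebra.adjoin O ({u⁻¹} : Set F)) F) π ∈ 𝔪)
    (ht : ∃ t : integralClosure (Algebra.adjoin O ({u⁻¹} : Set F)) F, (t : F) = u⁻¹ ∧ t ∈ 𝔪) :
    ptR π u (Sum.inr ⟨𝔪, h𝔪, hπ, ht⟩) =
      DepthHenselExit.locAt (Algebra.adjoin O ({u⁻¹} : Set F)) 𝔪 h𝔪.isPrime := rfl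

theorem ptOn_inl (π : O) (u : F) {ι : Type*} (V : ι → Subring F)
    (𝔪 : Ideal (integralClosure (Algebra.adjoin O ({u} : Set F)) F)) (h𝔪 : 𝔪.IsMaximal)
    (hπ : algebraMap O (integralClosure (Algebra.adjoin O ({u} : Set F)) F) π ∈ 𝔪) (W : ι) :
    ptOn π u V (Sum.inl ⟨𝔪, h𝔪, hπ⟩) W ↔
      ∀ b : integralClosure (Algebra.adjoin O ({u} : Set F)) F,
        MemPi (V W) π (b : F) → b ∈ 𝔪 := Iff.rfl

theorem ptOn_inr (π : O) (u : F) {ι : Type*} (V : ι → Subring F)
    (𝔪 : Ideal (integralClosure (Algebra.adjoin O ({u⁻¹} : Set F)) F)) (h𝔪 : 𝔪.IsMaximal)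
    (hπ : algebraMap O (integralClosure (Algebra.adjoin O ({u⁻¹} : Set F)) F) π ∈ 𝔪)
    (ht : ∃ t : integralClosure (Algebra.adjoin O ({u⁻¹} : Set F)) F, (t : F) = u⁻¹ ∧ t ∈ 𝔪)
    (W : ι) :
    ptOn π u V (Sum.inr ⟨𝔪, h𝔪, hπ, ht⟩) W ↔
      ∀ b : integralClosure (Algebra.adjoin O ({u⁻¹} : Set F)) F,
        MemPi (V W) π (b : F) → b ∈ 𝔪 := Iff.rfl

/-- `π` lies in every maximal ideal containing the centre of a component. -/
theorem pi_mem_of_cen (π : O) (S : Subalgebra O F) (V : Subring F)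
    (𝔪 : Ideal (integralClosure S F))
    (hcen : ∀ b : integralClosure S F, MemPi V π (b : F) → b ∈ 𝔪) :
    algebraMap O (integralClosure S F) π ∈ 𝔪 :=
  hcen _ ⟨1, V.one_mem, (mul_one (algebraMap O F π)).symm⟩

/-- An element of the local ring of a chart at a prime is a fraction of the chart with
denominator off the prime. -/
theorem exists_frac_of_mem_locAt (S : Subalgebra O F) (𝔪 : Ideal (integralClosure S F))
    (h𝔪 : 𝔪.IsPrime) {a : F} (ha : a ∈ DepthHenselExit.locAt S 𝔪 h𝔪) :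
    ∃ b c : integralClosure S F, b ∉ 𝔪 ∧ a * (b : F) = (c : F) := by
  obtain ⟨s, hs, hint⟩ := ha
  exact ⟨s, ⟨(s : F) * a, hint⟩, hs, mul_comm _ _⟩

/-- The hypothesis `hY0` of `ChartGlobal` for the canonical points. -/
theorem hY0_pt (π : O) (u : F) {ι : Type*} (V : ι → Subring F) :
    ∀ W (𝔪 : Ideal (integralClosure (Algebra.adjoin O ({u} : Set F)) F)), 𝔪.IsMaximal →
      (∀ b : integralClosure (Algebra.adjoin O ({u} : Set F)) F,
        MemPi (V W) π (b : F) → b ∈ 𝔪) →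
      ∃ y, ptOn π u V y W ∧ ∀ a : F, a ∈ ptR π u y →
        ∃ b c : integralClosure (Algebra.adjoin O ({u} : Set F)) F,
          b ∉ 𝔪 ∧ a * (b : F) = (c : F) := by
  intro W 𝔪 h𝔪 hcen
  exact ⟨Sum.inl ⟨𝔪, h𝔪, pi_mem_of_cen π _ (V W) 𝔪 hcen⟩, hcen,
    fun a ha => exists_frac_of_mem_locAt _ 𝔪 h𝔪.isPrime ha⟩

/-- The hypothesis `hY1` of `ChartGlobal` for the canonical points. -/
theorem hY1_pt (π : O) (u : F) {ι : Type*} (V : ι → Subring F) :
    ∀ W (𝔪 : Ideal (integralClosure (Algebra.adjoin O ({u⁻¹} : Set F)) F)), 𝔪.IsMaximal →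
      (∀ s : integralClosure (Algebra.adjoin O ({u⁻¹} : Set F)) F, (s : F) = u⁻¹ → s ∈ 𝔪) →
      (∀ b : integralClosure (Algebra.adjoin O ({u⁻¹} : Set F)) F,
        MemPi (V W) π (b : F) → b ∈ 𝔪) →
      ∃ y, ptOn π u V y W ∧ ∀ a : F, a ∈ ptR π u y →
        ∃ b c : integralClosure (Algebra.adjoin O ({u⁻¹} : Set F)) F,
          b ∉ 𝔪 ∧ a * (b : F) = (c : F) := by
  intro W 𝔪 h𝔪 hs hcen
  have hint : IsIntegral (Algebra.adjoin O ({u⁻¹} : Set F)) u⁻¹ :=
    CechP1.isIntegral_adjoin_of_mem (Algebra.subset_adjoin (Set.mem_singleton _))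
  exact ⟨Sum.inr ⟨𝔪, h𝔪, pi_mem_of_cen π _ (V W) 𝔪 hcen, ⟨u⁻¹, hint⟩, rfl, hs ⟨u⁻¹, hint⟩ rfl⟩,
    hcen, fun a ha => exists_frac_of_mem_locAt _ 𝔪 h𝔪.isPrime ha⟩

/-- The hypothesis `hpoint` of `ChartGlobal` for the canonical points. -/
theorem hpoint_pt (π : O) (u : F) {ι : Type*} (V : ι → Subring F) :
    ∀ y : Pt π u, ∃ t : F, (t = u ∨ t = u⁻¹) ∧
      ∃ 𝔪 : Ideal (integralClosure (Algebra.adjoin O ({t} : Set F)) F), 𝔪.IsPrime ∧
        (∀ W, ptOn π u V y W → ∀ b : integralClosure (Algebra.adjoin O ({t} : Set F)) F,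
          MemPi (V W) π (b : F) → b ∈ 𝔪) ∧
        ∀ a : F, a ∈ ptR π u y → ∃ b c : integralClosure (Algebra.adjoin O ({t} : Set F)) F,
          b ∉ 𝔪 ∧ a * (b : F) = (c : F) := by
  rintro (y | y)
  · exact ⟨u, Or.inl rfl, y.1, y.2.1.isPrime, fun W h => h,
      fun a ha => exists_frac_of_mem_locAt _ y.1 y.2.1.isPrime ha⟩
  · exact ⟨u⁻¹, Or.inr rfl, y.1, y.2.1.isPrime, fun W h => h,
      fun a ha => exists_frac_of_mem_locAt _ y.1 y.2.1.isPrime ha⟩

/-- **(VAN) for the canonical points**, from the chart facts on the generic rings. -/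
theorem van_pt (π : O) (u : F) {ι : Type*} (V : ι → Subring F)
    (hloc : ∀ a : O, ¬ π ∣ a → IsUnit a) (hu : u ≠ 0)
    (hV : ∀ W (x : F), IsIntegral (Algebra.adjoin O ({u, u⁻¹} : Set F)) x → x ∈ V W)
    (hne : ∀ W, ¬ MemPi (V W) π 1)
    (hunit : ∀ W (a : F), a ∈ V W → ¬ MemPi (V W) π a → a⁻¹ ∈ V W) :
    Van V (ptR π u) (ptOn π u V) π :=
  ChartGlobal.van_of_points π u V (ptR π u) (ptOn π u V) hloc hu hV hne hunit
    (hY0_pt π u V) (hY1_pt π u V) (hpoint_pt π u V)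

/-- **(CONN) with two components**: one common point. -/
theorem conn_bool (π : O) (u : F) (V : Bool → Subring F)
    (h : ∃ y, ptOn π u V y true ∧ ptOn π u V y false) :
    ∀ W W' : Bool,
      Relation.ReflTransGen (fun a b => ∃ y, ptOn π u V y a ∧ ptOn π u V y b) W W' := by
  obtain ⟨y, h1, h2⟩ := h
  intro W W'
  cases W <;> cases W'
  · exact Relation.ReflTransGen.refl
  · exact Relation.ReflTransGen.single ⟨y, h2, h1⟩
  · exact Relation.ReflTransGen.single ⟨y, h1, h2⟩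
  · exact Relation.ReflTransGen.refl

end Defs

section Assembly

variable {O : Type*} [CommRing O] [IsDomain O] [IsDiscreteValuationRing O]
  {F : Type u} [Field F] [Algebra O F]

/-- The canonical points cover the fibre of the two charts, cusp form. -/
theorem coversCusp_ptR (π : O) (u : F) : CoversCusp π u (ptR π u) :=
  ⟨fun 𝔪 h𝔪 hπ => ⟨Sum.inl ⟨𝔪, h𝔪, hπ⟩, rfl⟩,
    fun 𝔪 h𝔪 hπ ht => ⟨Sum.inr ⟨𝔪, h𝔪, hπ, ht⟩, rfl⟩⟩

/-- **The model package on the canonical points of two charts**: the blocks at the maximal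
ideals containing `π` of the chart of `u` and at the maximal ideals containing `π` and `u⁻¹`
of the chart of `u⁻¹` (the component clause in the centre spelling), (CONN), (CONST0) and
(VAN). -/
theorem isModelI_pt (p : ℕ) (π : O) (u : F) {ι : Type*} (V : ι → Subring F) (Hor : F → Prop)
    (hconstV : ∀ W (a : O), algebraMap O F a ∈ V W)
    (hblock0 : ∀ (𝔪 : Ideal (integralClosure (Algebra.adjoin O ({u} : Set F)) F))
      (h𝔪 : 𝔪.IsMaximal),
      algebraMap O (integralClosure (Algebra.adjoin O ({u} : Set F)) F) π ∈ 𝔪 →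
      (∃ W₁ W₂, (∀ W, (∀ b : integralClosure (Algebra.adjoin O ({u} : Set F)) F,
            MemPi (V W) π (b : F) → b ∈ 𝔪) ↔ W = W₁ ∨ W = W₂) ∧
          NodeBlockI p π Hor
            (DepthHenselExit.locAt (Algebra.adjoin O ({u} : Set F)) 𝔪 h𝔪.isPrime)
            (V W₁) (V W₂)) ∨
      (∃ W₁, (∀ W, (∀ b : integralClosure (Algebra.adjoin O ({u} : Set F)) F,
            MemPi (V W) π (b : F) → b ∈ 𝔪) ↔ W = W₁) ∧
          SmoothBlockI p π Hor
            (DepthHenselExit.locAt (Algebra.adjoin O ({u} : Set F)) 𝔪 h𝔪.isPrime) (V W₁)))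
    (hblock1 : ∀ (𝔪 : Ideal (integralClosure (Algebra.adjoin O ({u⁻¹} : Set F)) F))
      (h𝔪 : 𝔪.IsMaximal),
      algebraMap O (integralClosure (Algebra.adjoin O ({u⁻¹} : Set F)) F) π ∈ 𝔪 →
      (∃ t : integralClosure (Algebra.adjoin O ({u⁻¹} : Set F)) F, (t : F) = u⁻¹ ∧ t ∈ 𝔪) →
      (∃ W₁ W₂, (∀ W, (∀ b : integralClosure (Algebra.adjoin O ({u⁻¹} : Set F)) F,
            MemPi (V W) π (b : F) → b ∈ 𝔪) ↔ W = W₁ ∨ W = W₂) ∧
          NodeBlockI p π Hor
            (DepthHenselExit.locAt (Algebra.adjoin O ({u⁻¹} : Set F)) 𝔪 h𝔪.isPrime)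
            (V W₁) (V W₂)) ∨
      (∃ W₁, (∀ W, (∀ b : integralClosure (Algebra.adjoin O ({u⁻¹} : Set F)) F,
            MemPi (V W) π (b : F) → b ∈ 𝔪) ↔ W = W₁) ∧
          SmoothBlockI p π Hor
            (DepthHenselExit.locAt (Algebra.adjoin O ({u⁻¹} : Set F)) 𝔪 h𝔪.isPrime) (V W₁)))
    (hconn : ∀ W W' : ι,
      Relation.ReflTransGen (fun a b => ∃ y, ptOn π u V y a ∧ ptOn π u V y b) W W')
    (hconst0 : ∃ W₀ : ι, ConstAt V (ptR π u) (ptOn π u V) π W₀)
    (hvan : Van V (ptR π u) (ptOn π u V) π) :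
    IsModelI p π V (ptR π u) (ptOn π u V) Hor ∧ CoversCusp π u (ptR π u) := by
  refine ⟨⟨hconstV, ?_, hconn, hconst0, ?_⟩, coversCusp_ptR π u⟩
  · rintro (y | y)
    · exact hblock0 y.1 y.2.1 y.2.2
    · exact hblock1 y.1 y.2.1 y.2.2.1 y.2.2.2
  · rintro W x hx hreg y hy a ha hxa ⟨W', hW', haW'⟩
    exact hvan W x hx hreg y W' hy hW' a ha haW' hxa

end Assembly

end Fermat.Agent.S33.Geo.ModelPts
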