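/-
S33 (ordinary at `p ∥ N`), strand GEO, Stage B, row B4 (unit instance), leaf (L5)
(helper109, second of B4; consumers: B4 `UnitInst` and C6-E `UnitUp`).

`A` a valuation ring of `ℚ̄`, `E ⊆ ℚ̄` with `O = OE A E = A ∩ E` a discrete valuation ring,
`π` a uniformiser of `O`, `σ = sigmaHom N E` the `q`-expansion embedding of `LE N E`,
`V∞ = GaussRings.VInf N E O`, `V0 = GaussRings.VZero M ℓ E O hℓ hℓM`.

**A one-unit of `ℚ̄`-level which is rational over `E` is `≡ 1` modulo the maximal ideal of the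
Gauss ring of `LE N E`.**

* `red_eq_one_of_oneUnit`  : `OneUnit N A (upF N E u)` ⟹ `σ u` is Gauss-integral over `O` with
  reduction `1`;
* `sub_one_eq_unif_mul`    : ... ⟹ `u - 1 = π * v` with `v ∈ V∞`;
* `memPi_inf_of_oneUnit`   : the same as `Top.MemPi V∞ π (u - 1)` (for the `O`-algebra structure
  `algebraOL`);
* `sub_one_eq_unif_mul_zero`, `memPi_zero_of_oneUnit` : the `w`-twins: if the swap
  `ToricSwap.wAL` of `upF u` is a one-unit then `u - 1 = π * v` with `v ∈ V0`;
* `memPi_VB_of_oneUnit`    : both, indexed by `Bool` (`true = ∞`, `false = 0`) as in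
  `GaussRings.VB`.
-/
import Mathlib
import Fermat.Agent.S33.Geo.Contract
import Fermat.Agent.S33.Geo.GaussRings
import Fermat.Agent.S33.Geo.Top
import Fermat.Agent.S36.InvFun
import Fermat.Agent.S44.L.R3Base
import Fermat.Agent.S44.L.Alt.DescHoriz

set_option autoImplicit false
set_option linter.unusedSectionVars false
set_option linter.unusedVariables false
set_option linter.style.haveILetI false
set_option synthInstance.maxHeartbeats 400000

open ModularCurve

noncomputable section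

namespace Fermat.Agent.S33.Geo.OneUnitGauss

open Fermat.Agent.S18.K1Defs Fermat.Agent.S18.K1Main Fermat.Agent.S30
open Fermat.Agent.S34.HauptU.Plug
open Fermat.Agent.S33.Geo.Contract Fermat.Agent.S33.Geo.GaussRings

local notation "Qb" => AlgebraicClosure ℚ

/-! ### The component `∞` -/

section Inf

variable (N : ℕ) [NeZero N] (A : ValuationSubring Qb) (E : IntermediateField ℚ Qb)
  [IsDiscreteValuationRing (OE A E)]

/-- **(L5), reduction form.**  If the extension of constants of `u : LE N E` is a one-unit at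
`A`, then the `q`-expansion of `u` is Gauss-integral over `O = A ∩ E` with reduction `1`. -/
theorem red_eq_one_of_oneUnit (u : LE N E)
    (h : OneUnit N A (Fermat.Agent.S36.InvFun.upF N E u)) :
    ∃ hV : (u : LaurentSeries E) ∈ GaussDVR.V (OE A E) E,
      GaussDVR.red (OE A E) E ⟨(u : LaurentSeries E), hV⟩ = 1 := by
  obtain ⟨U, V, hV0, hUV, hmul⟩ := h
  have hU0 : Congr.red A U ≠ 0 := by rw [hUV]; exact hV0
  have hfrac : (u : LaurentSeries E) ∈ GaussDVR.fracField (OE A E) E :=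
    sigmaHom_mem_fracField N E A u
  have hmul' : GaussDescent.up E (u : LaurentSeries E) * Congr.incl A V = Congr.incl A U :=
    hmul
  obtain ⟨hzV, hred⟩ := Fermat.Agent.S44.L.R3Base.mem_V_of_up A E (u : LaurentSeries E) hfrac
    U V hU0 hV0 hmul'
  refine ⟨hzV, ?_⟩
  apply Fermat.Agent.S44.L.RedTransfer.kmap_injective A E
  rw [map_one]
  apply mul_right_cancel₀ hV0
  rw [hred, hUV, one_mul]

/-- **(L5), element form.**  `u - 1 = π * v` with `v` in the generic ring `V∞` of `LE N E`. -/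
theorem sub_one_eq_unif_mul (π : OE A E) (hπ : Irreducible π) (u : LE N E)
    (h : OneUnit N A (Fermat.Agent.S36.InvFun.upF N E u)) :
    ∃ v : LE N E, v ∈ VInf N E (OE A E) ∧ u - 1 = algebraMap E (LE N E) (π : E) * v := by
  obtain ⟨hV, hred⟩ := red_eq_one_of_oneUnit N A E u h
  have hx : GaussDVR.red (OE A E) E
      ((⟨(u : LaurentSeries E), hV⟩ : GaussDVR.V (OE A E) E) - 1) = 0 := by
    rw [map_sub, hred, map_one, sub_self]
  obtain ⟨y, hy⟩ := GaussDVR.ker' E π hπ _ hx
  have hπ0 : (π : E) ≠ 0 := fun h0 => hπ.ne_zero (Subtype.ext h0)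
  have hc0 : algebraMap E (LE N E) (π : E) ≠ 0 := (_root_.map_ne_zero _).mpr hπ0
  have hcoe : ((algebraMap E (LE N E) (π : E) : LE N E) : LaurentSeries E)
      = HahnSeries.C (algebraMap (OE A E) E π) := by
    rw [Fermat.Agent.S18.Wiring.C_eq_algebraMap]
    rfl
  refine ⟨(algebraMap E (LE N E) (π : E))⁻¹ * (u - 1), ?_, ?_⟩
  · show sigmaHom N E ((algebraMap E (LE N E) (π : E))⁻¹ * (u - 1)) ∈ GaussDVR.V (OE A E) E
    have hval : sigmaHom N E ((algebraMap E (LE N E) (π : E))⁻¹ * (u - 1))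
        = (y : LaurentSeries E) := by
      have h1 : sigmaHom N E (u - 1)
          = HahnSeries.C (algebraMap (OE A E) E π) * (y : LaurentSeries E) := by
        rw [← hy]
        rfl
      have h2 : sigmaHom N E (algebraMap E (LE N E) (π : E))
          = HahnSeries.C (algebraMap (OE A E) E π) := hcoe
      have h3 : (HahnSeries.C (algebraMap (OE A E) E π) : LaurentSeries E) ≠ 0 := by
        rw [← h2]
        exact (_root_.map_ne_zero _).mpr hc0
      rw [map_mul, map_inv₀, h1, h2, ← mul_assoc, inv_mul_cancel₀ h3, one_mul]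
    rw [hval]
    exact y.2
  · rw [← mul_assoc, mul_inv_cancel₀ hc0, one_mul]

/-- **(L5), `MemPi` form** (for the `O`-algebra structure `algebraOL` on `LE N E`):
`u - 1 ∈ π V∞`. -/
theorem memPi_inf_of_oneUnit (π : OE A E) (hπ : Irreducible π) (u : LE N E)
    (h : OneUnit N A (Fermat.Agent.S36.InvFun.upF N E u)) :
    letI := algebraOL (OE A E) E (LE N E)
    Fermat.Agent.S33.Geo.Top.MemPi (VInf N E (OE A E)) π (u - 1) := by
  letI := algebraOL (OE A E) E (LE N E)
  obtain ⟨v, hv, huv⟩ := sub_one_eq_unif_mul N A E π hπ u h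
  exact ⟨v, hv, huv⟩

end Inf

/-! ### The component `0` -/

section Zero

variable (M ℓ : ℕ) [NeZero M] [NeZero ℓ] (hℓ : ℓ.Prime) (hℓM : ¬ ℓ ∣ M)
  (A : ValuationSubring Qb) (E : IntermediateField ℚ Qb) [IsDiscreteValuationRing (OE A E)]

/-- **(L5), `w`-twin, element form.**  If the Atkin–Lehner swap of the extension of constants
of `u : LE (M ℓ) E` is a one-unit at `A`, then `u - 1 = π * v` with `v` in the generic ring `V0`
of the component `0`. -/
theorem sub_one_eq_unif_mul_zero (π : OE A E) (hπ : Irreducible π) (u : LE (M * ℓ) E)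
    (h : OneUnit (M * ℓ) A (Fermat.Agent.S34.ToricSwap.wAL M ℓ hℓ hℓM
      (Fermat.Agent.S36.InvFun.upF (M * ℓ) E u))) :
    ∃ v : LE (M * ℓ) E, v ∈ VZero M ℓ E (OE A E) hℓ hℓM ∧
      u - 1 = algebraMap E (LE (M * ℓ) E) (π : E) * v := by
  rw [← Fermat.Agent.S44.L.Alt.DescHoriz.upF_wHom M ℓ E hℓ hℓM u] at h
  obtain ⟨v', hv', h'⟩ := sub_one_eq_unif_mul (M * ℓ) A E π hπ (wHom M ℓ E hℓ hℓM u) h
  refine ⟨wHom M ℓ E hℓ hℓM v', ?_, ?_⟩
  · show sigmaHom (M * ℓ) E (wHom M ℓ E hℓ hℓM (wHom M ℓ E hℓ hℓM v')) ∈ GaussDVR.V (OE A E) E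
    rw [wHom_wHom]
    exact hv'
  · have h1 := congrArg (wHom M ℓ E hℓ hℓM) h'
    rw [map_sub, map_one, wHom_wHom, map_mul] at h1
    rw [h1]
    congr 1
    exact (wE M ℓ E hℓ hℓM).commutes _

/-- **(L5), `w`-twin, `MemPi` form**: `u - 1 ∈ π V0`. -/
theorem memPi_zero_of_oneUnit (π : OE A E) (hπ : Irreducible π) (u : LE (M * ℓ) E)
    (h : OneUnit (M * ℓ) A (Fermat.Agent.S34.ToricSwap.wAL M ℓ hℓ hℓM
      (Fermat.Agent.S36.InvFun.upF (M * ℓ) E u))) :
    letI := algebraOL (OE A E) E (LE (M * ℓ) E)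
    Fermat.Agent.S33.Geo.Top.MemPi (VZero M ℓ E (OE A E) hℓ hℓM) π (u - 1) := by
  letI := algebraOL (OE A E) E (LE (M * ℓ) E)
  obtain ⟨v, hv, huv⟩ := sub_one_eq_unif_mul_zero M ℓ hℓ hℓM A E π hπ u h
  exact ⟨v, hv, huv⟩

/-- **(L5) at both components**, indexed by `Bool` as in `GaussRings.VB` (`true = ∞`,
`false = 0`). -/
theorem memPi_VB_of_oneUnit (π : OE A E) (hπ : Irreducible π) (u : LE (M * ℓ) E)
    (hinf : OneUnit (M * ℓ) A (Fermat.Agent.S36.InvFun.upF (M * ℓ) E u))
    (hzero : OneUnit (M * ℓ) A (Fermat.Agent.S34.ToricSwap.wAL M ℓ hℓ hℓM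
      (Fermat.Agent.S36.InvFun.upF (M * ℓ) E u))) :
    letI := algebraOL (OE A E) E (LE (M * ℓ) E)
    ∀ W : Bool, Fermat.Agent.S33.Geo.Top.MemPi (VB M ℓ E (OE A E) hℓ hℓM W) π (u - 1) := by
  letI := algebraOL (OE A E) E (LE (M * ℓ) E)
  intro W
  cases W
  · exact memPi_zero_of_oneUnit M ℓ hℓ hℓM A E π hπ u hzero
  · exact memPi_inf_of_oneUnit (M * ℓ) A E π hπ u hinf

end Zero

end Fermat.Agent.S33.Geo.OneUnitGauss
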