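import Mathlib
import Fermat.Agent.S44.L.EisUnif

/-!
# S33 / GEO, row C6 (UNIT): depth `≥ 1` at an arbitrary DVR, through a totally ramified
extension of the constants (level-free)

`L' ⊆ L''` fields, `v` a valuation of `L''`, `ϖ : L'` with `v (L'ˣ) = (v ϖ) ^ ℤ`
(`hdisc`: the valuation ring of `L'` under `v` is a DVR with uniformiser `ϖ`), and `π : L''`
with `v π ^ e = v ϖ` (in the application `L'' = L' · K''`, `K'' / K` totally ramified of degree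
`e`, `π` a uniformiser of `K''`, `L'' = ∑_{i < e} L' π ^ i`).

* `orth`           : if `v (∑_{i < e} cᵢ π ^ i) ≤ 1` with `cᵢ ∈ L'`, then `v cᵢ ≤ 1` for all `i`
                     and `v (cᵢ π ^ i) < 1` for `i ≠ 0` (corollary of the landed
                     `S44/L/EisUnif.coeff_le_one`): the sum is congruent to `c₀`.
* `unit_form`      : `z ∈ L'` with `v z = 1`, `z = (∑ cᵢ π ^ i) ^ p * u`, `v (u - 1) < 1`
                     ⟹ `z = c₀ ^ p * (1 + ϖ r)`, `v r ≤ 1`, `v c₀ = 1`.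
* `depth_form`     : `f ∈ L'ˣ`, `f = G ^ p * u` in `L''`, `v (u - 1) < 1`, with `L''` spanned by
                     the `π ^ i` over `L'` and a `p`-th root `ρ` of `ϖ` in `L''`
                     ⟹ `f = ϖ ^ a * g ^ p * (1 + ϖ r)`, `a : ℤ`, `v g = 1`, `v r ≤ 1`.
* `depth_form_nat` : the same with `ϖ ^ m`, `m < p` a natural number (`g ≠ 0`).
* `depth_form_of_finrank`, `depth_form_nat_of_finrank` : the spanning hypothesis replaced by
                     `finrank L' L'' ≤ e` (`EisUnif.exists_expansion`).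
* `depthIn_form`   : the subring form consumed by `TOP` (`Geo/Top.DepthIn V p ϖ 1 f (ϖ ^ m)`
                     unfolded): `V` a valuation ring of `L'` dominated by `v`, with uniformiser
                     `ϖ`; conclusion `r ∈ V`.

So "depth `≥ 1`" holds at EVERY valuation ring `V` of `L'` with uniformiser `ϖ` under a
valuation of `L''` at which the given `u` is a one-unit: no `q`-expansion, no conjugation.
-/

set_option autoImplicit false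

namespace Fermat.Agent.S33.Geo.Orth

open Fermat.Agent.S44.L

variable {L' L'' Γ₀ : Type*} [Field L'] [Field L''] [Algebra L' L'']
  [LinearOrderedCommGroupWithZero Γ₀] (v : Valuation L'' Γ₀)

/-! ### The three elementary consequences of `v π ^ e = v ϖ < 1` -/

section Basic

variable {v} {ϖ : L'} {π : L''} {e : ℕ}

theorem exp_pos (hπ : v π ^ e = v (algebraMap L' L'' ϖ)) (hϖ : v (algebraMap L' L'' ϖ) < 1) :
    0 < e := by
  rcases Nat.eq_zero_or_pos e with h | h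
  · rw [h, pow_zero] at hπ
    rw [← hπ] at hϖ
    exact absurd hϖ (lt_irrefl _)
  · exact h

theorem val_unif_ne_zero (hϖ0 : ϖ ≠ 0) : v (algebraMap L' L'' ϖ) ≠ 0 :=
  (v.ne_zero_iff).mpr ((map_ne_zero (algebraMap L' L'')).mpr hϖ0)

theorem pi_ne_zero (hπ : v π ^ e = v (algebraMap L' L'' ϖ)) (hϖ : v (algebraMap L' L'' ϖ) < 1)
    (hϖ0 : ϖ ≠ 0) : π ≠ 0 := by
  intro h0
  have he := exp_pos hπ hϖ
  rw [h0, map_zero, zero_pow he.ne'] at hπ
  exact val_unif_ne_zero hϖ0 hπ.symm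

theorem val_pi_lt_one (hπ : v π ^ e = v (algebraMap L' L'' ϖ))
    (hϖ : v (algebraMap L' L'' ϖ) < 1) : v π < 1 := by
  by_contra h
  rw [not_lt] at h
  have h1 : 1 ≤ v π ^ e := one_le_pow₀ h
  rw [hπ] at h1
  exact absurd hϖ (not_lt.mpr h1)

end Basic

/-! ### ORTH -/

/-- **ORTH.**  If `∑_{i < e} cᵢ π ^ i` is `v`-integral (`cᵢ ∈ L'`, `v (L'ˣ) = (v ϖ) ^ ℤ`,
`v π ^ e = v ϖ < 1`), then every `cᵢ` is `v`-integral and every term with `i ≠ 0` lies in the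
maximal ideal. -/
theorem orth (ϖ : L') (π : L'') (e : ℕ)
    (hπ : v π ^ e = v (algebraMap L' L'' ϖ)) (hϖ : v (algebraMap L' L'' ϖ) < 1) (hϖ0 : ϖ ≠ 0)
    (hdisc : ∀ a : L', a ≠ 0 → ∃ n : ℤ, v (algebraMap L' L'' a) = v (algebraMap L' L'' ϖ) ^ n)
    (c : Fin e → L') (h : v (∑ i : Fin e, algebraMap L' L'' (c i) * π ^ (i : ℕ)) ≤ 1) :
    (∀ i, v (algebraMap L' L'' (c i)) ≤ 1) ∧
      ∀ i : Fin e, (i : ℕ) ≠ 0 → v (algebraMap L' L'' (c i) * π ^ (i : ℕ)) < 1 := by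
  have hπ0 : π ≠ 0 := pi_ne_zero hπ hϖ hϖ0
  have hπ1 : v π < 1 := val_pi_lt_one hπ hϖ
  have h1 : ∀ i, v (algebraMap L' L'' (c i)) ≤ 1 :=
    fun i => EisUnif.coeff_le_one v hdisc hπ0 hπ1 hπ c h i
  refine ⟨h1, fun i hi => ?_⟩
  rw [map_mul, map_pow]
  have h2 : v π ^ (i : ℕ) < 1 := pow_lt_one₀ zero_le hπ1 hi
  calc v (algebraMap L' L'' (c i)) * v π ^ (i : ℕ) ≤ 1 * v π ^ (i : ℕ) :=
        mul_le_mul' (h1 i) le_rfl
    _ = v π ^ (i : ℕ) := one_mul _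
    _ < 1 := h2

/-! ### The unit form -/

/-- **(UNIT), unit form.**  `z ∈ L'` a `v`-unit with `z = (∑_{i < e} cᵢ π ^ i) ^ p * u` in `L''`,
`u` a one-unit: then `z = c₀ ^ p * (1 + ϖ r)` with `r ∈ L'` `v`-integral and `c₀` a `v`-unit. -/
theorem unit_form (p : ℕ) (hp : p ≠ 0) (ϖ : L') (π : L'') (e : ℕ)
    (hπ : v π ^ e = v (algebraMap L' L'' ϖ)) (hϖ : v (algebraMap L' L'' ϖ) < 1) (hϖ0 : ϖ ≠ 0)
    (hdisc : ∀ a : L', a ≠ 0 → ∃ n : ℤ, v (algebraMap L' L'' a) = v (algebraMap L' L'' ϖ) ^ n)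
    (z : L') (c : Fin e → L') (u : L'') (hz : v (algebraMap L' L'' z) = 1)
    (hzu : algebraMap L' L'' z
      = (∑ i : Fin e, algebraMap L' L'' (c i) * π ^ (i : ℕ)) ^ p * u)
    (hu : v (u - 1) < 1) :
    ∃ r : L', v (algebraMap L' L'' r) ≤ 1 ∧
      v (algebraMap L' L'' (c ⟨0, exp_pos hπ hϖ⟩)) = 1 ∧
      z = c ⟨0, exp_pos hπ hϖ⟩ ^ p * (1 + ϖ * r) := by
  classical
  have he : 0 < e := exp_pos hπ hϖ
  set G : L'' := ∑ i : Fin e, algebraMap L' L'' (c i) * π ^ (i : ℕ) with hG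
  set g : L' := c ⟨0, he⟩ with hg
  -- `u` is a unit
  have hvu : v u = 1 := by
    have h1 := Valuation.map_one_add_of_lt (v := v) hu
    rwa [add_sub_cancel] at h1
  -- `G` is a unit
  have hvGp : v G ^ p = 1 := by
    have h1 : v (algebraMap L' L'' z) = v G ^ p * v u := by rw [hzu, map_mul, map_pow]
    rw [hz, hvu, mul_one] at h1
    exact h1.symm
  have hvG : v G = 1 := by
    rcases lt_trichotomy (v G) 1 with h | h | h
    · exact absurd hvGp (ne_of_lt (pow_lt_one₀ zero_le h hp))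
    · exact h
    · exact absurd hvGp (ne_of_gt (one_lt_pow₀ h hp))
  obtain ⟨hc, hlt⟩ := orth v ϖ π e hπ hϖ hϖ0 hdisc c hvG.le
  -- `G ≡ c₀`
  have hsplit : G = algebraMap L' L'' g
      + ∑ i ∈ Finset.univ.erase (⟨0, he⟩ : Fin e), algebraMap L' L'' (c i) * π ^ (i : ℕ) := by
    rw [hG, ← Finset.add_sum_erase Finset.univ _ (Finset.mem_univ (⟨0, he⟩ : Fin e))]
    simp [hg]
  have hG0 : v (G - algebraMap L' L'' g) < 1 := by
    have h1 : G - algebraMap L' L'' g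
        = ∑ i ∈ Finset.univ.erase (⟨0, he⟩ : Fin e), algebraMap L' L'' (c i) * π ^ (i : ℕ) := by
      rw [hsplit, add_sub_cancel_left]
    rw [h1]
    apply Valuation.map_sum_lt v one_ne_zero
    intro i hi
    refine hlt i (fun h0 => (Finset.ne_of_mem_erase hi) (Fin.ext h0))
  have hvg : v (algebraMap L' L'' g) = 1 := by
    refine le_antisymm (hc _) ?_
    by_contra hcon
    rw [not_le] at hcon
    have h1 : v G < 1 := by
      have h2 : G = algebraMap L' L'' g + (G - algebraMap L' L'' g) := by ring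
      rw [h2]
      exact Valuation.map_add_lt v hcon hG0
    exact absurd hvG (ne_of_lt h1)
  -- `G ^ p ≡ c₀ ^ p`
  have hdiff : v (G ^ p - algebraMap L' L'' g ^ p) < 1 := by
    have hfac : G ^ p - algebraMap L' L'' g ^ p
        = (∑ k ∈ Finset.range p, G ^ k * algebraMap L' L'' g ^ (p - 1 - k))
          * (G - algebraMap L' L'' g) := (geom_sum₂_mul G (algebraMap L' L'' g) p).symm
    have hsum : v (∑ k ∈ Finset.range p, G ^ k * algebraMap L' L'' g ^ (p - 1 - k)) ≤ 1 := by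
      apply Valuation.map_sum_le
      intro k _
      rw [map_mul, map_pow, map_pow, hvG, hvg, one_pow, one_pow, one_mul]
    rw [hfac, map_mul]
    calc v (∑ k ∈ Finset.range p, G ^ k * algebraMap L' L'' g ^ (p - 1 - k))
          * v (G - algebraMap L' L'' g) ≤ 1 * v (G - algebraMap L' L'' g) :=
          mul_le_mul' hsum le_rfl
      _ = v (G - algebraMap L' L'' g) := one_mul _
      _ < 1 := hG0
  have hzg : v (algebraMap L' L'' (z - g ^ p)) < 1 := by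
    have h1 : algebraMap L' L'' (z - g ^ p)
        = G ^ p * (u - 1) + (G ^ p - algebraMap L' L'' g ^ p) := by
      rw [map_sub, map_pow, hzu]
      ring
    rw [h1]
    refine Valuation.map_add_lt v ?_ hdiff
    rw [map_mul, map_pow, hvG, one_pow, one_mul]
    exact hu
  have hg0 : g ≠ 0 := by
    intro h0
    rw [h0, map_zero, map_zero] at hvg
    exact zero_ne_one hvg
  rcases eq_or_ne (z - g ^ p) 0 with h0 | h0
  · refine ⟨0, ?_, hvg, ?_⟩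
    · rw [map_zero, map_zero]
      exact zero_le
    · rw [mul_zero, add_zero, mul_one]
      exact sub_eq_zero.mp h0
  · obtain ⟨n, hn⟩ := hdisc (z - g ^ p) h0
    have hw0 : v (algebraMap L' L'' ϖ) ≠ 0 := val_unif_ne_zero hϖ0
    have hwpos : 0 < v (algebraMap L' L'' ϖ) := zero_lt_iff.mpr hw0
    have hn1 : 1 ≤ n := by
      by_contra hcon
      have hn0 : n ≤ 0 := by omega
      have h1 : 1 ≤ v (algebraMap L' L'' ϖ) ^ n := by
        rcases eq_or_lt_of_le hn0 with h2 | h2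
        · rw [h2, zpow_zero]
        · have h3 := zpow_lt_zpow_right_of_lt_one₀ hwpos hϖ h2
          rw [zpow_zero] at h3
          exact h3.le
      rw [hn] at hzg
      exact absurd hzg (not_lt.mpr h1)
    refine ⟨(z - g ^ p) / (ϖ * g ^ p), ?_, hvg, ?_⟩
    · rw [map_div₀, map_div₀, map_mul, map_mul, map_pow, map_pow, hn, hvg, one_pow, mul_one,
        div_eq_mul_inv, ← zpow_sub_one₀ hw0]
      exact zpow_le_one₀ hwpos hϖ.le (by omega)
    · have hgp : g ^ p ≠ 0 := pow_ne_zero p hg0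
      field_simp
      ring

/-! ### The depth forms -/

/-- **(UNIT), depth form.**  `f ∈ L'ˣ` with `f = G ^ p * u` in `L''`, `u` a one-unit; `L''` is
spanned over `L'` by `1, π, …, π ^ (e - 1)` and contains a `p`-th root `ρ` of `ϖ`.  Then
`f = ϖ ^ a * g ^ p * (1 + ϖ r)` with `g, r ∈ L'`, `g` a `v`-unit and `r` `v`-integral. -/
theorem depth_form (p : ℕ) (hp : p ≠ 0) (ϖ : L') (π ρ : L'') (e : ℕ)
    (hπ : v π ^ e = v (algebraMap L' L'' ϖ)) (hϖ : v (algebraMap L' L'' ϖ) < 1) (hϖ0 : ϖ ≠ 0)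
    (hdisc : ∀ a : L', a ≠ 0 → ∃ n : ℤ, v (algebraMap L' L'' a) = v (algebraMap L' L'' ϖ) ^ n)
    (hspan : ∀ G : L'', ∃ c : Fin e → L',
      G = ∑ i : Fin e, algebraMap L' L'' (c i) * π ^ (i : ℕ))
    (hρ : ρ ^ p = algebraMap L' L'' ϖ)
    (f : L') (hf : f ≠ 0) (G u : L'') (hfG : algebraMap L' L'' f = G ^ p * u)
    (hu : v (u - 1) < 1) :
    ∃ (a : ℤ) (g r : L'), v (algebraMap L' L'' g) = 1 ∧ v (algebraMap L' L'' r) ≤ 1 ∧
      f = ϖ ^ a * g ^ p * (1 + ϖ * r) := by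
  obtain ⟨a, ha⟩ := hdisc f hf
  have hw0 : v (algebraMap L' L'' ϖ) ≠ 0 := val_unif_ne_zero hϖ0
  have hϖa : ϖ ^ a ≠ 0 := zpow_ne_zero a hϖ0
  have hιϖ : algebraMap L' L'' ϖ ≠ 0 := (map_ne_zero (algebraMap L' L'')).mpr hϖ0
  have hρ0 : ρ ≠ 0 := by
    intro h0
    rw [h0, zero_pow hp] at hρ
    exact hιϖ hρ.symm
  -- the normalised element
  have hz : v (algebraMap L' L'' (f * (ϖ ^ a)⁻¹)) = 1 := by
    rw [map_mul, map_mul, map_inv₀, map_zpow₀, map_inv₀, map_zpow₀, ha]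
    exact mul_inv_cancel₀ (zpow_ne_zero a hw0)
  have hρa : (ρ ^ a) ^ p = algebraMap L' L'' ϖ ^ a := by
    rw [← hρ, ← zpow_natCast (ρ ^ a) p, ← zpow_mul, mul_comm, zpow_mul, zpow_natCast]
  obtain ⟨c, hc⟩ := hspan (G * (ρ ^ a)⁻¹)
  have hzu : algebraMap L' L'' (f * (ϖ ^ a)⁻¹)
      = (∑ i : Fin e, algebraMap L' L'' (c i) * π ^ (i : ℕ)) ^ p * u := by
    rw [← hc, mul_pow, inv_pow, hρa, map_mul, map_inv₀, map_zpow₀, hfG]
    ring
  obtain ⟨r, hr, hg, hzr⟩ := unit_form v p hp ϖ π e hπ hϖ hϖ0 hdisc (f * (ϖ ^ a)⁻¹) c u hz hzu hu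
  refine ⟨a, c ⟨0, exp_pos hπ hϖ⟩, r, hg, hr, ?_⟩
  rw [mul_assoc, ← hzr, mul_comm f, ← mul_assoc, mul_inv_cancel₀ hϖa, one_mul]

/-- **(UNIT), depth form with a natural exponent `m < p`** (the constant `ϖ ^ m` lies in the
base ring): `f = ϖ ^ m * g ^ p * (1 + ϖ r)`, `g ≠ 0`, `r` `v`-integral. -/
theorem depth_form_nat (p : ℕ) (hp : p ≠ 0) (ϖ : L') (π ρ : L'') (e : ℕ)
    (hπ : v π ^ e = v (algebraMap L' L'' ϖ)) (hϖ : v (algebraMap L' L'' ϖ) < 1) (hϖ0 : ϖ ≠ 0)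
    (hdisc : ∀ a : L', a ≠ 0 → ∃ n : ℤ, v (algebraMap L' L'' a) = v (algebraMap L' L'' ϖ) ^ n)
    (hspan : ∀ G : L'', ∃ c : Fin e → L',
      G = ∑ i : Fin e, algebraMap L' L'' (c i) * π ^ (i : ℕ))
    (hρ : ρ ^ p = algebraMap L' L'' ϖ)
    (f : L') (hf : f ≠ 0) (G u : L'') (hfG : algebraMap L' L'' f = G ^ p * u)
    (hu : v (u - 1) < 1) :
    ∃ (m : ℕ) (g r : L'), m < p ∧ g ≠ 0 ∧ v (algebraMap L' L'' r) ≤ 1 ∧
      f = ϖ ^ m * g ^ p * (1 + ϖ * r) := by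
  obtain ⟨a, g, r, hg, hr, hfr⟩ :=
    depth_form v p hp ϖ π ρ e hπ hϖ hϖ0 hdisc hspan hρ f hf G u hfG hu
  have hg0 : g ≠ 0 := by
    intro h0
    rw [h0, map_zero, map_zero] at hg
    exact zero_ne_one hg
  have hp' : (0 : ℤ) < (p : ℤ) := by exact_mod_cast Nat.pos_of_ne_zero hp
  have hm0 : 0 ≤ a % (p : ℤ) := Int.emod_nonneg a hp'.ne'
  have hmp : a % (p : ℤ) < (p : ℤ) := Int.emod_lt_of_pos a hp'
  have hm : ((a % (p : ℤ)).toNat : ℤ) = a % (p : ℤ) := Int.toNat_of_nonneg hm0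
  refine ⟨(a % (p : ℤ)).toNat, g * ϖ ^ (a / (p : ℤ)), r, ?_, ?_, hr, ?_⟩
  · have h1 : ((a % (p : ℤ)).toNat : ℤ) < (p : ℤ) := by rw [hm]; exact hmp
    exact_mod_cast h1
  · exact mul_ne_zero hg0 (zpow_ne_zero _ hϖ0)
  · have h1 : ϖ ^ a = ϖ ^ (a % (p : ℤ)).toNat * (ϖ ^ (a / (p : ℤ))) ^ p := by
      rw [← zpow_natCast ϖ (a % (p : ℤ)).toNat, hm, ← zpow_natCast (ϖ ^ (a / (p : ℤ))) p,
        ← zpow_mul, ← zpow_add₀ hϖ0]
      congr 1
      rw [mul_comm]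
      exact (Int.emod_add_mul_ediv a p).symm
    rw [hfr, h1]
    ring

/-- `depth_form` with the spanning hypothesis replaced by `[L'' : L'] ≤ e`. -/
theorem depth_form_of_finrank (p : ℕ) (hp : p ≠ 0) (ϖ : L') (π ρ : L'') (e : ℕ)
    [FiniteDimensional L' L''] (hdim : Module.finrank L' L'' ≤ e)
    (hπ : v π ^ e = v (algebraMap L' L'' ϖ)) (hϖ : v (algebraMap L' L'' ϖ) < 1) (hϖ0 : ϖ ≠ 0)
    (hdisc : ∀ a : L', a ≠ 0 → ∃ n : ℤ, v (algebraMap L' L'' a) = v (algebraMap L' L'' ϖ) ^ n)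
    (hρ : ρ ^ p = algebraMap L' L'' ϖ)
    (f : L') (hf : f ≠ 0) (G u : L'') (hfG : algebraMap L' L'' f = G ^ p * u)
    (hu : v (u - 1) < 1) :
    ∃ (a : ℤ) (g r : L'), v (algebraMap L' L'' g) = 1 ∧ v (algebraMap L' L'' r) ≤ 1 ∧
      f = ϖ ^ a * g ^ p * (1 + ϖ * r) :=
  depth_form v p hp ϖ π ρ e hπ hϖ hϖ0 hdisc
    (fun G => EisUnif.exists_expansion v hdim hdisc (pi_ne_zero hπ hϖ hϖ0)
      (val_pi_lt_one hπ hϖ) hπ G) hρ f hf G u hfG hu

/-- `depth_form_nat` with the spanning hypothesis replaced by `[L'' : L'] ≤ e`. -/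
theorem depth_form_nat_of_finrank (p : ℕ) (hp : p ≠ 0) (ϖ : L') (π ρ : L'') (e : ℕ)
    [FiniteDimensional L' L''] (hdim : Module.finrank L' L'' ≤ e)
    (hπ : v π ^ e = v (algebraMap L' L'' ϖ)) (hϖ : v (algebraMap L' L'' ϖ) < 1) (hϖ0 : ϖ ≠ 0)
    (hdisc : ∀ a : L', a ≠ 0 → ∃ n : ℤ, v (algebraMap L' L'' a) = v (algebraMap L' L'' ϖ) ^ n)
    (hρ : ρ ^ p = algebraMap L' L'' ϖ)
    (f : L') (hf : f ≠ 0) (G u : L'') (hfG : algebraMap L' L'' f = G ^ p * u)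
    (hu : v (u - 1) < 1) :
    ∃ (m : ℕ) (g r : L'), m < p ∧ g ≠ 0 ∧ v (algebraMap L' L'' r) ≤ 1 ∧
      f = ϖ ^ m * g ^ p * (1 + ϖ * r) :=
  depth_form_nat v p hp ϖ π ρ e hπ hϖ hϖ0 hdisc
    (fun G => EisUnif.exists_expansion v hdim hdisc (pi_ne_zero hπ hϖ hϖ0)
      (val_pi_lt_one hπ hϖ) hπ G) hρ f hf G u hfG hu

/-! ### The subring form (what `TOP` consumes) -/

section Subring

variable {v}

/-- A valuation ring `V` of `L'` dominated by `v` is `{x | v x ≤ 1}`. -/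
theorem mem_of_val_le_one (V : Subring L') (hVval : ∀ x : L', x ∈ V ∨ x⁻¹ ∈ V)
    (hVlt : ∀ x ∈ V, x⁻¹ ∉ V → v (algebraMap L' L'' x) < 1) {r : L'}
    (hr : v (algebraMap L' L'' r) ≤ 1) : r ∈ V := by
  by_contra hrV
  have hinv : r⁻¹ ∈ V := (hVval r).resolve_left hrV
  have h1 : v (algebraMap L' L'' r⁻¹) < 1 := hVlt r⁻¹ hinv (by rwa [inv_inv])
  have hr0 : r ≠ 0 := fun h0 => hrV (by rw [h0]; exact V.zero_mem)
  have hιr : v (algebraMap L' L'' r) ≠ 0 :=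
    (v.ne_zero_iff).mpr ((map_ne_zero (algebraMap L' L'')).mpr hr0)
  have h2 : v (algebraMap L' L'' r) * v (algebraMap L' L'' r⁻¹) = 1 := by
    rw [map_inv₀, map_inv₀]
    exact mul_inv_cancel₀ hιr
  have h3 : v (algebraMap L' L'' r) * v (algebraMap L' L'' r⁻¹) < 1 := by
    calc v (algebraMap L' L'' r) * v (algebraMap L' L'' r⁻¹)
          ≤ 1 * v (algebraMap L' L'' r⁻¹) := mul_le_mul' hr le_rfl
      _ = v (algebraMap L' L'' r⁻¹) := one_mul _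
      _ < 1 := h1
  exact absurd h2 (ne_of_lt h3)

/-- `hdisc` from "`V` is a valuation ring of `L'` with uniformiser `ϖ`, dominated by `v`". -/
theorem hdisc_of_unif (V : Subring L') (hVle : ∀ x ∈ V, v (algebraMap L' L'' x) ≤ 1) (ϖ : L')
    (hunif : ∀ a : L', a ≠ 0 → ∃ (n : ℤ) (w : L'), w ∈ V ∧ w⁻¹ ∈ V ∧ a = ϖ ^ n * w) :
    ∀ a : L', a ≠ 0 → ∃ n : ℤ, v (algebraMap L' L'' a) = v (algebraMap L' L'' ϖ) ^ n := by
  intro a ha
  obtain ⟨n, w, hw, hwi, rfl⟩ := hunif a ha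
  have hw0 : w ≠ 0 := fun h0 => ha (by rw [h0, mul_zero])
  have hιw : v (algebraMap L' L'' w) ≠ 0 :=
    (v.ne_zero_iff).mpr ((map_ne_zero (algebraMap L' L'')).mpr hw0)
  have h1 : v (algebraMap L' L'' w) ≤ 1 := hVle w hw
  have h2 : (v (algebraMap L' L'' w))⁻¹ ≤ 1 := by
    have h3 := hVle w⁻¹ hwi
    rwa [map_inv₀, map_inv₀] at h3
  have h4 : 1 ≤ v (algebraMap L' L'' w) := by
    by_contra hcon
    rw [not_le] at hcon
    have h5 : 1 < (v (algebraMap L' L'' w))⁻¹ := (one_lt_inv₀ (zero_lt_iff.mpr hιw)).mpr hcon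
    exact absurd h2 (not_le.mpr h5)
  refine ⟨n, ?_⟩
  rw [map_mul, map_mul, map_zpow₀, map_zpow₀, le_antisymm h1 h4, mul_one]

/-- **(UNIT), subring form** (`Geo/Top.DepthIn V p ϖ 1 f (ϖ ^ m)` unfolded).  `V` a valuation
ring of `L'` with uniformiser `ϖ` (`hunif`), dominated by the valuation `v` of `L''`
(`hVle`, `hVlt`); `π : L''` with `v π ^ e = v ϖ`, `L''` spanned by the `π ^ i` (`i < e`) over
`L'`, `ρ ^ p = ϖ` in `L''`.  If `f ∈ L'ˣ` is `G ^ p * u` in `L''` with `u` a one-unit of `v`,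
then `f = ϖ ^ m * g ^ p * (1 + ϖ r)` with `m < p`, `g ∈ L'ˣ`, `r ∈ V`. -/
theorem depthIn_form (V : Subring L') (hVval : ∀ x : L', x ∈ V ∨ x⁻¹ ∈ V)
    (hVle : ∀ x ∈ V, v (algebraMap L' L'' x) ≤ 1)
    (hVlt : ∀ x ∈ V, x⁻¹ ∉ V → v (algebraMap L' L'' x) < 1)
    (p : ℕ) (hp : p ≠ 0) (ϖ : L') (hϖV : ϖ ∈ V) (hϖinv : ϖ⁻¹ ∉ V)
    (hunif : ∀ a : L', a ≠ 0 → ∃ (n : ℤ) (w : L'), w ∈ V ∧ w⁻¹ ∈ V ∧ a = ϖ ^ n * w)
    (π ρ : L'') (e : ℕ) (hπ : v π ^ e = v (algebraMap L' L'' ϖ))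
    (hspan : ∀ G : L'', ∃ c : Fin e → L',
      G = ∑ i : Fin e, algebraMap L' L'' (c i) * π ^ (i : ℕ))
    (hρ : ρ ^ p = algebraMap L' L'' ϖ)
    (f : L') (hf : f ≠ 0) (G u : L'') (hfG : algebraMap L' L'' f = G ^ p * u)
    (hu : v (u - 1) < 1) :
    ∃ (m : ℕ) (g r : L'), m < p ∧ g ≠ 0 ∧ r ∈ V ∧ f = ϖ ^ m * g ^ p * (1 + ϖ * r) := by
  have hϖ : v (algebraMap L' L'' ϖ) < 1 := hVlt ϖ hϖV hϖinv
  have hϖ0 : ϖ ≠ 0 := by
    intro h0
    apply hϖinv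
    rw [h0, inv_zero]
    exact V.zero_mem
  obtain ⟨m, g, r, hm, hg, hr, hfr⟩ :=
    depth_form_nat v p hp ϖ π ρ e hπ hϖ hϖ0 (hdisc_of_unif V hVle ϖ hunif) hspan hρ f hf G u
      hfG hu
  exact ⟨m, g, r, hm, hg, mem_of_val_le_one V hVval hVlt hr, hfr⟩

end Subring

end Fermat.Agent.S33.Geo.Orth
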