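import Mathlib
import Fermat.Agent.S44.L.EisUnif
import Fermat.Agent.S33.Geo.Orth

/-!
# S33 / GEO, row C6 (UNIT), transfer: a valuation over the base sees the valuation upstairs

Level-free (Mathlib + `S44/L/EisUnif` + `S33/Geo/Orth`), binders of `Orth` (helper91).

`L' ⊆ L''` fields, `v` a valuation of `L''`, `ϖ : L'` with `v (L'ˣ) = (v ϖ) ^ ℤ` (`hdisc`),
`π : L''` with `v π ^ e = v ϖ < 1`, and `L'' = ∑_{i < e} L' π ^ i` (`hspan`): `L'' / L'` is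
totally ramified at `v`.  Let `M` be a field with `φ : L'' →+* M` and `w` a valuation of `M`
which is integral on the `v`-integers of `L'` (`hle`) and has `w ϖ < 1` (`hwϖ`).  Then `w ∘ φ`
and `v` have the same valuation ring and the same maximal ideal on `L''`:

* `map_lt_one_base`      : `v a < 1 → w a < 1` for `a ∈ L'`;
* `map_pi_lt_one`        : `w π < 1`;
* `map_le_one_of_le_one` : `v x ≤ 1 → w x ≤ 1` for `x ∈ L''`;
* `map_lt_one_of_lt_one` : `v x < 1 → w x < 1` for `x ∈ L''`;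
* `map_le_one_iff`, `map_lt_one_iff`, `map_eq_one_iff`, `dom` : the equivalences;
* `map_sub_one_lt_one`   : a one-unit of `v` is a one-unit of `w` (the form the consumer calls:
  `(L', L'', v) = (LE K, LE K'', Gauss)`, `M = L0 · K''`, `w` ANY valuation of `M` whose ring
  dominates the component ring `V'` of `L0`; the output is the binder `hu` of
  `Orth.depthIn_form`);
* `comap_valuationSubring` : `w.valuationSubring.comap φ = v.valuationSubring`;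
* `hspan_of_finrank`, `dom_of_finrank` : the spanning hypothesis from `finrank L' L'' ≤ e`.

Proof: `x = ∑ cᵢ π ^ i`; by `Orth.orth` the `cᵢ` are `v`-integral and the terms with `i ≠ 0` are
non-units, so `w x ≤ 1` termwise once `w π ≤ 1`; and `w π < 1` because
`π ^ e = ϖ * (a v-unit = ∑ cᵢ π ^ i)` is an integral equation of `π` over the `w`-integers with
constant term divisible by `ϖ`.  The converses follow by applying this to `x⁻¹`.
-/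

set_option autoImplicit false

namespace Fermat.Agent.S33.Geo.OrthDom

open Fermat.Agent.S44.L

variable {L' L'' M Γ₀ Γ₁ : Type*} [Field L'] [Field L''] [Algebra L' L''] [Field M]
  [LinearOrderedCommGroupWithZero Γ₀] [LinearOrderedCommGroupWithZero Γ₁]
  (v : Valuation L'' Γ₀) (w : Valuation M Γ₁) (φ : L'' →+* M)

/-! ### The base field -/

/-- A `v`-non-unit of `L'` is a `w`-non-unit: it is `ϖ` times a `v`-integer of `L'`. -/
theorem map_lt_one_base (ϖ : L') (hϖ : v (algebraMap L' L'' ϖ) < 1) (hϖ0 : ϖ ≠ 0)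
    (hdisc : ∀ a : L', a ≠ 0 → ∃ n : ℤ, v (algebraMap L' L'' a) = v (algebraMap L' L'' ϖ) ^ n)
    (hle : ∀ a : L', v (algebraMap L' L'' a) ≤ 1 → w (φ (algebraMap L' L'' a)) ≤ 1)
    (hwϖ : w (φ (algebraMap L' L'' ϖ)) < 1) {a : L'} (ha : v (algebraMap L' L'' a) < 1) :
    w (φ (algebraMap L' L'' a)) < 1 := by
  rcases eq_or_ne a 0 with h0 | ha0
  · rw [h0, map_zero, map_zero, map_zero]
    exact zero_lt_one
  obtain ⟨n, hn⟩ := hdisc a ha0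
  have hw0 : v (algebraMap L' L'' ϖ) ≠ 0 := Orth.val_unif_ne_zero hϖ0
  have hwpos : 0 < v (algebraMap L' L'' ϖ) := zero_lt_iff.mpr hw0
  have hιϖ : algebraMap L' L'' ϖ ≠ 0 := (map_ne_zero (algebraMap L' L'')).mpr hϖ0
  have hn1 : 1 ≤ n := by
    by_contra hcon
    have hn0 : n ≤ 0 := by omega
    have h1 : v (algebraMap L' L'' ϖ) ^ (0 : ℤ) ≤ v (algebraMap L' L'' ϖ) ^ n :=
      zpow_le_zpow_right_of_le_one₀ hwpos hϖ.le hn0
    rw [zpow_zero, ← hn] at h1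
    exact absurd ha (not_lt.mpr h1)
  have hb : v (algebraMap L' L'' (a * ϖ⁻¹)) ≤ 1 := by
    rw [map_mul, map_mul, map_inv₀, map_inv₀, hn, ← zpow_sub_one₀ hw0]
    exact zpow_le_one₀ hwpos hϖ.le (by omega)
  have hwb : w (φ (algebraMap L' L'' (a * ϖ⁻¹))) ≤ 1 := hle _ hb
  have e1 : algebraMap L' L'' a = algebraMap L' L'' (a * ϖ⁻¹) * algebraMap L' L'' ϖ := by
    rw [map_mul, map_inv₀, mul_assoc, inv_mul_cancel₀ hιϖ, mul_one]
  rw [e1, map_mul, map_mul]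
  calc w (φ (algebraMap L' L'' (a * ϖ⁻¹))) * w (φ (algebraMap L' L'' ϖ))
        ≤ 1 * w (φ (algebraMap L' L'' ϖ)) := mul_le_mul' hwb le_rfl
    _ = w (φ (algebraMap L' L'' ϖ)) := one_mul _
    _ < 1 := hwϖ

/-! ### The uniformiser upstairs -/

/-- `w π < 1`: `π ^ e = ϖ * ∑ cᵢ π ^ i` with `v`-integral `cᵢ ∈ L'`. -/
theorem map_pi_lt_one (ϖ : L') (π : L'') (e : ℕ)
    (hπ : v π ^ e = v (algebraMap L' L'' ϖ)) (hϖ : v (algebraMap L' L'' ϖ) < 1) (hϖ0 : ϖ ≠ 0)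
    (hdisc : ∀ a : L', a ≠ 0 → ∃ n : ℤ, v (algebraMap L' L'' a) = v (algebraMap L' L'' ϖ) ^ n)
    (hspan : ∀ G : L'', ∃ c : Fin e → L',
      G = ∑ i : Fin e, algebraMap L' L'' (c i) * π ^ (i : ℕ))
    (hle : ∀ a : L', v (algebraMap L' L'' a) ≤ 1 → w (φ (algebraMap L' L'' a)) ≤ 1)
    (hwϖ : w (φ (algebraMap L' L'' ϖ)) < 1) : w (φ π) < 1 := by
  have hιϖ : algebraMap L' L'' ϖ ≠ 0 := (map_ne_zero (algebraMap L' L'')).mpr hϖ0
  have hw0 : v (algebraMap L' L'' ϖ) ≠ 0 := Orth.val_unif_ne_zero hϖ0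
  obtain ⟨c, hc⟩ := hspan (π ^ e * (algebraMap L' L'' ϖ)⁻¹)
  have hε : v (∑ i : Fin e, algebraMap L' L'' (c i) * π ^ (i : ℕ)) = 1 := by
    rw [← hc, map_mul, map_pow, map_inv₀, hπ, mul_inv_cancel₀ hw0]
  obtain ⟨hcle, -⟩ := Orth.orth v ϖ π e hπ hϖ hϖ0 hdisc c hε.le
  have hpow : π ^ e
      = algebraMap L' L'' ϖ * ∑ i : Fin e, algebraMap L' L'' (c i) * π ^ (i : ℕ) := by
    rw [← hc, mul_comm (π ^ e), ← mul_assoc, mul_inv_cancel₀ hιϖ, one_mul]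
  by_contra hcon
  have hW : 1 ≤ w (φ π) := not_lt.mp hcon
  have hWe : 0 < w (φ π) ^ e := pow_pos (lt_of_lt_of_le zero_lt_one hW) e
  have hsum : w (φ (∑ i : Fin e, algebraMap L' L'' (c i) * π ^ (i : ℕ))) ≤ w (φ π) ^ e := by
    rw [map_sum]
    apply w.map_sum_le
    intro i _
    rw [map_mul, map_pow, map_mul, map_pow]
    calc w (φ (algebraMap L' L'' (c i))) * w (φ π) ^ (i : ℕ) ≤ 1 * w (φ π) ^ e :=
          mul_le_mul' (hle _ (hcle i)) (pow_le_pow_right₀ hW i.2.le)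
      _ = w (φ π) ^ e := one_mul _
  have h1 : w (φ (π ^ e)) = w (φ (algebraMap L' L'' ϖ))
      * w (φ (∑ i : Fin e, algebraMap L' L'' (c i) * π ^ (i : ℕ))) := by
    rw [hpow, map_mul, map_mul]
  rw [map_pow, map_pow] at h1
  have h2 : w (φ π) ^ e < 1 * w (φ π) ^ e := by
    calc w (φ π) ^ e = w (φ (algebraMap L' L'' ϖ))
          * w (φ (∑ i : Fin e, algebraMap L' L'' (c i) * π ^ (i : ℕ))) := h1
      _ ≤ w (φ (algebraMap L' L'' ϖ)) * w (φ π) ^ e := mul_le_mul' le_rfl hsum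
      _ < 1 * w (φ π) ^ e := mul_lt_mul_of_pos_right hwϖ hWe
  rw [one_mul] at h2
  exact lt_irrefl _ h2

/-! ### The transfer -/

/-- **Integers**: `v x ≤ 1 → w (φ x) ≤ 1` on `L''`. -/
theorem map_le_one_of_le_one (ϖ : L') (π : L'') (e : ℕ)
    (hπ : v π ^ e = v (algebraMap L' L'' ϖ)) (hϖ : v (algebraMap L' L'' ϖ) < 1) (hϖ0 : ϖ ≠ 0)
    (hdisc : ∀ a : L', a ≠ 0 → ∃ n : ℤ, v (algebraMap L' L'' a) = v (algebraMap L' L'' ϖ) ^ n)
    (hspan : ∀ G : L'', ∃ c : Fin e → L',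
      G = ∑ i : Fin e, algebraMap L' L'' (c i) * π ^ (i : ℕ))
    (hle : ∀ a : L', v (algebraMap L' L'' a) ≤ 1 → w (φ (algebraMap L' L'' a)) ≤ 1)
    (hwϖ : w (φ (algebraMap L' L'' ϖ)) < 1) {x : L''} (hx : v x ≤ 1) : w (φ x) ≤ 1 := by
  have hwπ : w (φ π) < 1 := map_pi_lt_one v w φ ϖ π e hπ hϖ hϖ0 hdisc hspan hle hwϖ
  obtain ⟨c, hc⟩ := hspan x
  have hsum : v (∑ i : Fin e, algebraMap L' L'' (c i) * π ^ (i : ℕ)) ≤ 1 := by
    rw [← hc]; exact hx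
  obtain ⟨hcle, -⟩ := Orth.orth v ϖ π e hπ hϖ hϖ0 hdisc c hsum
  rw [hc, map_sum]
  apply w.map_sum_le
  intro i _
  rw [map_mul, map_pow, map_mul, map_pow]
  calc w (φ (algebraMap L' L'' (c i))) * w (φ π) ^ (i : ℕ) ≤ 1 * 1 :=
        mul_le_mul' (hle _ (hcle i)) (pow_le_one₀ zero_le hwπ.le)
    _ = 1 := one_mul 1

/-- **Maximal ideals**: `v x < 1 → w (φ x) < 1` on `L''`. -/
theorem map_lt_one_of_lt_one (ϖ : L') (π : L'') (e : ℕ)
    (hπ : v π ^ e = v (algebraMap L' L'' ϖ)) (hϖ : v (algebraMap L' L'' ϖ) < 1) (hϖ0 : ϖ ≠ 0)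
    (hdisc : ∀ a : L', a ≠ 0 → ∃ n : ℤ, v (algebraMap L' L'' a) = v (algebraMap L' L'' ϖ) ^ n)
    (hspan : ∀ G : L'', ∃ c : Fin e → L',
      G = ∑ i : Fin e, algebraMap L' L'' (c i) * π ^ (i : ℕ))
    (hle : ∀ a : L', v (algebraMap L' L'' a) ≤ 1 → w (φ (algebraMap L' L'' a)) ≤ 1)
    (hwϖ : w (φ (algebraMap L' L'' ϖ)) < 1) {x : L''} (hx : v x < 1) : w (φ x) < 1 := by
  classical
  have he : 0 < e := Orth.exp_pos hπ hϖ
  have hwπ : w (φ π) < 1 := map_pi_lt_one v w φ ϖ π e hπ hϖ hϖ0 hdisc hspan hle hwϖ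
  obtain ⟨c, hc⟩ := hspan x
  have hsum : v (∑ i : Fin e, algebraMap L' L'' (c i) * π ^ (i : ℕ)) < 1 := by
    rw [← hc]; exact hx
  obtain ⟨hcle, hclt⟩ := Orth.orth v ϖ π e hπ hϖ hϖ0 hdisc c hsum.le
  -- the constant coefficient is a non-unit
  have hrest : v (∑ i ∈ Finset.univ.erase (⟨0, he⟩ : Fin e),
      algebraMap L' L'' (c i) * π ^ (i : ℕ)) < 1 := by
    apply v.map_sum_lt one_ne_zero
    intro i hi
    exact hclt i (fun h0 => (Finset.ne_of_mem_erase hi) (Fin.ext h0))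
  have hc0 : v (algebraMap L' L'' (c ⟨0, he⟩)) < 1 := by
    have e1 : algebraMap L' L'' (c ⟨0, he⟩)
        = (∑ i : Fin e, algebraMap L' L'' (c i) * π ^ (i : ℕ))
          - ∑ i ∈ Finset.univ.erase (⟨0, he⟩ : Fin e),
              algebraMap L' L'' (c i) * π ^ (i : ℕ) := by
      rw [← Finset.add_sum_erase Finset.univ _ (Finset.mem_univ (⟨0, he⟩ : Fin e)),
        add_sub_cancel_right, pow_zero, mul_one]
    rw [e1]
    exact v.map_sub_lt hsum hrest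
  have hwc0 : w (φ (algebraMap L' L'' (c ⟨0, he⟩))) < 1 :=
    map_lt_one_base v w φ ϖ hϖ hϖ0 hdisc hle hwϖ hc0
  rw [hc, map_sum]
  apply w.map_sum_lt one_ne_zero
  intro i _
  rw [map_mul, map_pow, map_mul, map_pow]
  rcases Nat.eq_zero_or_pos (i : ℕ) with hi | hi
  · have hi' : i = ⟨0, he⟩ := Fin.ext hi
    rw [hi', pow_zero, mul_one]
    exact hwc0
  · calc w (φ (algebraMap L' L'' (c i))) * w (φ π) ^ (i : ℕ) ≤ 1 * w (φ π) ^ (i : ℕ) :=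
          mul_le_mul' (hle _ (hcle i)) le_rfl
      _ = w (φ π) ^ (i : ℕ) := one_mul _
      _ < 1 := pow_lt_one₀ zero_le hwπ hi.ne'

/-- **Uniqueness, integers**: `w ∘ φ` and `v` have the same valuation ring on `L''`. -/
theorem map_le_one_iff (ϖ : L') (π : L'') (e : ℕ)
    (hπ : v π ^ e = v (algebraMap L' L'' ϖ)) (hϖ : v (algebraMap L' L'' ϖ) < 1) (hϖ0 : ϖ ≠ 0)
    (hdisc : ∀ a : L', a ≠ 0 → ∃ n : ℤ, v (algebraMap L' L'' a) = v (algebraMap L' L'' ϖ) ^ n)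
    (hspan : ∀ G : L'', ∃ c : Fin e → L',
      G = ∑ i : Fin e, algebraMap L' L'' (c i) * π ^ (i : ℕ))
    (hle : ∀ a : L', v (algebraMap L' L'' a) ≤ 1 → w (φ (algebraMap L' L'' a)) ≤ 1)
    (hwϖ : w (φ (algebraMap L' L'' ϖ)) < 1) (x : L'') : w (φ x) ≤ 1 ↔ v x ≤ 1 := by
  constructor
  · intro h
    by_contra hcon
    have hx1 : 1 < v x := not_le.mp hcon
    have hvx0 : v x ≠ 0 := fun h0 => by
      rw [h0] at hx1
      exact absurd hx1 (not_lt.mpr zero_le)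
    have hx0 : x ≠ 0 := (v.ne_zero_iff).mp hvx0
    have hinv : v x⁻¹ < 1 := by
      rw [map_inv₀]
      by_contra hge
      have h6 : 1 ≤ (v x)⁻¹ := not_lt.mp hge
      have h7 : v x * 1 ≤ v x * (v x)⁻¹ := mul_le_mul' le_rfl h6
      rw [mul_one, mul_inv_cancel₀ hvx0] at h7
      exact absurd hx1 (not_lt.mpr h7)
    have h2 := map_lt_one_of_lt_one v w φ ϖ π e hπ hϖ hϖ0 hdisc hspan hle hwϖ hinv
    rw [map_inv₀, map_inv₀] at h2
    have hwx0 : w (φ x) ≠ 0 := (w.ne_zero_iff).mpr ((map_ne_zero φ).mpr hx0)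
    have h5 : w (φ x) * (w (φ x))⁻¹ ≤ 1 * (w (φ x))⁻¹ := mul_le_mul' h le_rfl
    rw [mul_inv_cancel₀ hwx0, one_mul] at h5
    exact absurd h2 (not_lt.mpr h5)
  · exact map_le_one_of_le_one v w φ ϖ π e hπ hϖ hϖ0 hdisc hspan hle hwϖ

/-- **Uniqueness, maximal ideals**: `w ∘ φ` and `v` have the same non-units on `L''`. -/
theorem map_lt_one_iff (ϖ : L') (π : L'') (e : ℕ)
    (hπ : v π ^ e = v (algebraMap L' L'' ϖ)) (hϖ : v (algebraMap L' L'' ϖ) < 1) (hϖ0 : ϖ ≠ 0)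
    (hdisc : ∀ a : L', a ≠ 0 → ∃ n : ℤ, v (algebraMap L' L'' a) = v (algebraMap L' L'' ϖ) ^ n)
    (hspan : ∀ G : L'', ∃ c : Fin e → L',
      G = ∑ i : Fin e, algebraMap L' L'' (c i) * π ^ (i : ℕ))
    (hle : ∀ a : L', v (algebraMap L' L'' a) ≤ 1 → w (φ (algebraMap L' L'' a)) ≤ 1)
    (hwϖ : w (φ (algebraMap L' L'' ϖ)) < 1) (x : L'') : w (φ x) < 1 ↔ v x < 1 := by
  constructor
  · intro h
    by_contra hcon
    have hx1 : 1 ≤ v x := not_lt.mp hcon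
    have hvx0 : v x ≠ 0 := fun h0 => by
      rw [h0] at hx1
      exact absurd hx1 (not_le.mpr zero_lt_one)
    have hx0 : x ≠ 0 := (v.ne_zero_iff).mp hvx0
    have hinv : v x⁻¹ ≤ 1 := by
      rw [map_inv₀]
      by_contra hgt
      have h6 : 1 < (v x)⁻¹ := not_le.mp hgt
      have h8 : v x * 1 < v x * (v x)⁻¹ :=
        mul_lt_mul_of_pos_left h6 (zero_lt_iff.mpr hvx0)
      rw [mul_one, mul_inv_cancel₀ hvx0] at h8
      exact absurd hx1 (not_le.mpr h8)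
    have h2 := map_le_one_of_le_one v w φ ϖ π e hπ hϖ hϖ0 hdisc hspan hle hwϖ hinv
    rw [map_inv₀, map_inv₀] at h2
    have hwx0 : w (φ x) ≠ 0 := (w.ne_zero_iff).mpr ((map_ne_zero φ).mpr hx0)
    have h5 : w (φ x) * (w (φ x))⁻¹ < 1 * (w (φ x))⁻¹ :=
      mul_lt_mul_of_pos_right h (zero_lt_iff.mpr (inv_ne_zero hwx0))
    rw [mul_inv_cancel₀ hwx0, one_mul] at h5
    exact absurd h2 (not_le.mpr h5)
  · exact map_lt_one_of_lt_one v w φ ϖ π e hπ hϖ hϖ0 hdisc hspan hle hwϖ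

/-- **Uniqueness, units.** -/
theorem map_eq_one_iff (ϖ : L') (π : L'') (e : ℕ)
    (hπ : v π ^ e = v (algebraMap L' L'' ϖ)) (hϖ : v (algebraMap L' L'' ϖ) < 1) (hϖ0 : ϖ ≠ 0)
    (hdisc : ∀ a : L', a ≠ 0 → ∃ n : ℤ, v (algebraMap L' L'' a) = v (algebraMap L' L'' ϖ) ^ n)
    (hspan : ∀ G : L'', ∃ c : Fin e → L',
      G = ∑ i : Fin e, algebraMap L' L'' (c i) * π ^ (i : ℕ))
    (hle : ∀ a : L', v (algebraMap L' L'' a) ≤ 1 → w (φ (algebraMap L' L'' a)) ≤ 1)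
    (hwϖ : w (φ (algebraMap L' L'' ϖ)) < 1) (x : L'') : w (φ x) = 1 ↔ v x = 1 := by
  have hle' := map_le_one_iff v w φ ϖ π e hπ hϖ hϖ0 hdisc hspan hle hwϖ x
  have hlt' := map_lt_one_iff v w φ ϖ π e hπ hϖ hϖ0 hdisc hspan hle hwϖ x
  constructor
  · intro h
    exact le_antisymm (hle'.mp h.le) (not_lt.mp (fun h1 => absurd (hlt'.mpr h1) (not_lt.mpr h.ge)))
  · intro h
    exact le_antisymm (hle'.mpr h.le) (not_lt.mp (fun h1 => absurd (hlt'.mp h1) (not_lt.mpr h.ge)))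

/-- **The transfer (DOM).**  `w ∘ φ` and `v` have the same valuation ring and the same maximal
ideal on `L''`. -/
theorem dom (ϖ : L') (π : L'') (e : ℕ)
    (hπ : v π ^ e = v (algebraMap L' L'' ϖ)) (hϖ : v (algebraMap L' L'' ϖ) < 1) (hϖ0 : ϖ ≠ 0)
    (hdisc : ∀ a : L', a ≠ 0 → ∃ n : ℤ, v (algebraMap L' L'' a) = v (algebraMap L' L'' ϖ) ^ n)
    (hspan : ∀ G : L'', ∃ c : Fin e → L',
      G = ∑ i : Fin e, algebraMap L' L'' (c i) * π ^ (i : ℕ))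
    (hle : ∀ a : L', v (algebraMap L' L'' a) ≤ 1 → w (φ (algebraMap L' L'' a)) ≤ 1)
    (hwϖ : w (φ (algebraMap L' L'' ϖ)) < 1) :
    ∀ x : L'', (w (φ x) ≤ 1 ↔ v x ≤ 1) ∧ (w (φ x) < 1 ↔ v x < 1) :=
  fun x => ⟨map_le_one_iff v w φ ϖ π e hπ hϖ hϖ0 hdisc hspan hle hwϖ x,
    map_lt_one_iff v w φ ϖ π e hπ hϖ hϖ0 hdisc hspan hle hwϖ x⟩

/-- **One-units** (the binder `hu` of `Orth.depthIn_form` at `w`): a one-unit of `v` is a
one-unit of `w`. -/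
theorem map_sub_one_lt_one (ϖ : L') (π : L'') (e : ℕ)
    (hπ : v π ^ e = v (algebraMap L' L'' ϖ)) (hϖ : v (algebraMap L' L'' ϖ) < 1) (hϖ0 : ϖ ≠ 0)
    (hdisc : ∀ a : L', a ≠ 0 → ∃ n : ℤ, v (algebraMap L' L'' a) = v (algebraMap L' L'' ϖ) ^ n)
    (hspan : ∀ G : L'', ∃ c : Fin e → L',
      G = ∑ i : Fin e, algebraMap L' L'' (c i) * π ^ (i : ℕ))
    (hle : ∀ a : L', v (algebraMap L' L'' a) ≤ 1 → w (φ (algebraMap L' L'' a)) ≤ 1)
    (hwϖ : w (φ (algebraMap L' L'' ϖ)) < 1) {u : L''} (hu : v (u - 1) < 1) :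
    w (φ u - 1) < 1 := by
  have h1 := map_lt_one_of_lt_one v w φ ϖ π e hπ hϖ hϖ0 hdisc hspan hle hwϖ hu
  rwa [map_sub, map_one] at h1

/-- The valuation subring of `w` pulls back to the valuation subring of `v`. -/
theorem comap_valuationSubring (ϖ : L') (π : L'') (e : ℕ)
    (hπ : v π ^ e = v (algebraMap L' L'' ϖ)) (hϖ : v (algebraMap L' L'' ϖ) < 1) (hϖ0 : ϖ ≠ 0)
    (hdisc : ∀ a : L', a ≠ 0 → ∃ n : ℤ, v (algebraMap L' L'' a) = v (algebraMap L' L'' ϖ) ^ n)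
    (hspan : ∀ G : L'', ∃ c : Fin e → L',
      G = ∑ i : Fin e, algebraMap L' L'' (c i) * π ^ (i : ℕ))
    (hle : ∀ a : L', v (algebraMap L' L'' a) ≤ 1 → w (φ (algebraMap L' L'' a)) ≤ 1)
    (hwϖ : w (φ (algebraMap L' L'' ϖ)) < 1) :
    w.valuationSubring.comap φ = v.valuationSubring := by
  ext x
  rw [ValuationSubring.mem_comap, Valuation.mem_valuationSubring_iff,
    Valuation.mem_valuationSubring_iff]
  exact map_le_one_iff v w φ ϖ π e hπ hϖ hϖ0 hdisc hspan hle hwϖ x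

/-! ### The spanning hypothesis from the degree -/

/-- `hspan` from `[L'' : L'] ≤ e` (`EisUnif.exists_expansion`). -/
theorem hspan_of_finrank (ϖ : L') (π : L'') (e : ℕ) [FiniteDimensional L' L'']
    (hdim : Module.finrank L' L'' ≤ e)
    (hπ : v π ^ e = v (algebraMap L' L'' ϖ)) (hϖ : v (algebraMap L' L'' ϖ) < 1) (hϖ0 : ϖ ≠ 0)
    (hdisc : ∀ a : L', a ≠ 0 → ∃ n : ℤ, v (algebraMap L' L'' a) = v (algebraMap L' L'' ϖ) ^ n) :
    ∀ G : L'', ∃ c : Fin e → L', G = ∑ i : Fin e, algebraMap L' L'' (c i) * π ^ (i : ℕ) :=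
  fun G => EisUnif.exists_expansion v hdim hdisc (Orth.pi_ne_zero hπ hϖ hϖ0)
    (Orth.val_pi_lt_one hπ hϖ) hπ G

/-- `dom` with the spanning hypothesis replaced by `[L'' : L'] ≤ e`. -/
theorem dom_of_finrank (ϖ : L') (π : L'') (e : ℕ) [FiniteDimensional L' L'']
    (hdim : Module.finrank L' L'' ≤ e)
    (hπ : v π ^ e = v (algebraMap L' L'' ϖ)) (hϖ : v (algebraMap L' L'' ϖ) < 1) (hϖ0 : ϖ ≠ 0)
    (hdisc : ∀ a : L', a ≠ 0 → ∃ n : ℤ, v (algebraMap L' L'' a) = v (algebraMap L' L'' ϖ) ^ n)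
    (hle : ∀ a : L', v (algebraMap L' L'' a) ≤ 1 → w (φ (algebraMap L' L'' a)) ≤ 1)
    (hwϖ : w (φ (algebraMap L' L'' ϖ)) < 1) :
    ∀ x : L'', (w (φ x) ≤ 1 ↔ v x ≤ 1) ∧ (w (φ x) < 1 ↔ v x < 1) :=
  dom v w φ ϖ π e hπ hϖ hϖ0 hdisc (hspan_of_finrank v ϖ π e hdim hπ hϖ hϖ0 hdisc) hle hwϖ

end Fermat.Agent.S33.Geo.OrthDom
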