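import Mathlib
import Fermat.Agent.S33.Geo.Top
import Fermat.Agent.S33.Geo.Model

/-!
# S33 / GEO / Z1 : the global half of the tame base change, abstractly

Level-free.  `(O, ϖ, F, V, R, On)` is the model datum over the unramified base, `(O1, lam, F1,
V1, R1, On)` the datum over the tamely ramified base `O1 = O[lam]` (same components `ι`, same
closed points `Y`, same incidence `On`), `F ⊆ F1`.  The two are related elementwise:

* `hresV` : every element of `V1 W` is congruent modulo `lam V1 W` to an element of `V W`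
  (the residue fields agree);
* `hresR` : every element of `R1 y` is an element of `R y` plus `lam` times an element of
  `R1 y` (`R1 y = R y [lam]`);
* `hsub` : `R1 y ⊆ V1 W` for `y` on `W`;
* `hcap` : `lam V1 W ∩ F ⊆ ϖ V W`;
* `hup` : `ϖ V W ⊆ lam V1 W`;
* `hconst` : the constants of `O` are constants of `O1`.

Then (CONST) on a root component and (VAN) pass from `O` to `O1` (`constAt_of_tame`,
`van_of_tame`), and with a bare `reg` statement at every depth `1 ≤ j < top` over `O1` the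
depth of `f` climbs from `1` to `top` on every component (`depth_of_reg`, `tame_depth`): the
landed `Model.depth_step_of_reg` and `Model.glob_of_root`, iterated.
-/

set_option autoImplicit false
set_option linter.unusedSectionVars false
set_option linter.unusedVariables false

namespace Fermat.Agent.S33.Geo.TameGlob

open Fermat.Agent.S33.Geo.Top Fermat.Agent.S33.Geo.Model

universe u

section Add

variable {O F : Type*} [CommRing O] [Field F] [Algebra O F]

/-- `x, x' ∈ ϖ V ⟹ x + x' ∈ ϖ V`. -/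
theorem memPi_add {V : Subring F} {ϖ : O} {x x' : F} (h : MemPi V ϖ x) (h' : MemPi V ϖ x') :
    MemPi V ϖ (x + x') := by
  obtain ⟨v, hv, rfl⟩ := h
  obtain ⟨v', hv', rfl⟩ := h'
  exact ⟨v + v', V.add_mem hv hv', by ring⟩

end Add

section Iter

variable {O F : Type*} [CommRing O] [IsDomain O] [IsLocalRing O] [Field F] [Algebra O F]
  {ι Y : Type*} {V : ι → Subring F} {R : Y → Subring F} {On : Y → ι → Prop}

/-- **Depth `1 → top` from bare `reg` statements** at every depth `1 ≤ j < top`, given (CONST)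
on one root component, (VAN) and the connectedness of the dual graph. -/
theorem depth_of_reg {p : ℕ} {ϖ : O} (hϖ : ¬ IsUnit ϖ)
    (constV : ∀ W (a : O), algebraMap O F a ∈ V W)
    (constR : ∀ y (a : O), algebraMap O F a ∈ R y)
    (conn : ∀ W W' : ι, Relation.ReflTransGen (fun a b => ∃ y, On y a ∧ On y b) W W')
    (W₀ : ι) (hconst : ConstAt V R On ϖ W₀) (hvan : Van V R On ϖ)
    (f : F) (top : ℕ)
    (hreg : ∀ j, 1 ≤ j → j < top → ∀ y,
      (∀ W, On y W → ∃ c : O, c ≠ 0 ∧ DepthIn (V W) p ϖ j f c) →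
      ∃ ry : F, ry ∈ R y ∧ ∀ W, On y W → ∀ (c : O) (g r : F), c ≠ 0 → r ∈ V W →
        f = algebraMap O F c * g ^ p * (1 + algebraMap O F ϖ ^ j * r) →
        ∃ κ : O, MemPi (V W) ϖ (r - ry + algebraMap O F κ))
    (h1 : ∀ W, ∃ c : O, c ≠ 0 ∧ DepthIn (V W) p ϖ 1 f c) :
    ∀ j, 1 ≤ j → j ≤ top → ∀ W, ∃ c : O, c ≠ 0 ∧ DepthIn (V W) p ϖ j f c := by
  intro j hj1
  induction j, hj1 using Nat.le_induction with
  | base => exact fun _ => h1
  | succ j hj ih =>
    intro hjt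
    exact depth_step_of_reg hϖ constV f j hj (hreg j hj (by omega))
      (fun r hr ry hry hk => glob_of_root constV constR conn W₀ hconst hvan r hr ry hry hk)
      (ih (by omega))

end Iter

section Transfer

variable {O O1 F F1 : Type*} [CommRing O] [CommRing O1] [Field F] [Field F1]
  [Algebra O F] [Algebra O1 F1] [Algebra F F1]
  {ι Y : Type*} {V : ι → Subring F} {R : Y → Subring F}
  {V1 : ι → Subring F1} {R1 : Y → Subring F1} {On : Y → ι → Prop}
  {ϖ : O} {lam : O1}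

/-- Regularity at the closed points of `W` descends from `V1 W` to `V W`. -/
theorem reg_of_tame
    (hresR : ∀ y, ∀ a ∈ R1 y, ∃ a0 ∈ R y, ∃ a1 ∈ R1 y,
      a = algebraMap F F1 a0 + algebraMap O1 F1 lam * a1)
    (hsub : ∀ y W, On y W → ∀ a ∈ R1 y, a ∈ V1 W)
    (hcap : ∀ W (x : F), MemPi (V1 W) lam (algebraMap F F1 x) → MemPi (V W) ϖ x)
    (W : ι) (x : F1) (x0 : F) (hxx0 : MemPi (V1 W) lam (x - algebraMap F F1 x0))
    (hreg : ∀ y, On y W → ∃ a : F1, a ∈ R1 y ∧ MemPi (V1 W) lam (x - a)) :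
    ∀ y, On y W → ∃ a : F, a ∈ R y ∧ MemPi (V W) ϖ (x0 - a) := by
  intro y hy
  obtain ⟨a, ha, hxa⟩ := hreg y hy
  obtain ⟨a0, ha0, a1, ha1, rfl⟩ := hresR y a ha
  refine ⟨a0, ha0, hcap W _ ?_⟩
  have h1 : MemPi (V1 W) lam (algebraMap O1 F1 lam * a1) := ⟨a1, hsub y W hy a1 ha1, rfl⟩
  exact (memPi_add (hxa.sub hxx0) h1).congr (by rw [map_sub]; ring)

/-- **(CONST) on a root component passes to the tame base change.** -/
theorem constAt_of_tame
    (hresV : ∀ W, ∀ x ∈ V1 W, ∃ x0 ∈ V W, MemPi (V1 W) lam (x - algebraMap F F1 x0))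
    (hresR : ∀ y, ∀ a ∈ R1 y, ∃ a0 ∈ R y, ∃ a1 ∈ R1 y,
      a = algebraMap F F1 a0 + algebraMap O1 F1 lam * a1)
    (hsub : ∀ y W, On y W → ∀ a ∈ R1 y, a ∈ V1 W)
    (hcap : ∀ W (x : F), MemPi (V1 W) lam (algebraMap F F1 x) → MemPi (V W) ϖ x)
    (hup : ∀ W (x : F), MemPi (V W) ϖ x → MemPi (V1 W) lam (algebraMap F F1 x))
    (hconst : ∀ κ : O, ∃ κ1 : O1, algebraMap O1 F1 κ1 = algebraMap F F1 (algebraMap O F κ))
    (W₀ : ι) (h : ConstAt V R On ϖ W₀) : ConstAt V1 R1 On lam W₀ := by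
  intro x hx hreg
  obtain ⟨x0, hx0, hxx0⟩ := hresV W₀ x hx
  obtain ⟨κ, hκ⟩ := h x0 hx0 (reg_of_tame hresR hsub hcap W₀ x x0 hxx0 hreg)
  obtain ⟨κ1, hκ1⟩ := hconst κ
  exact ⟨κ1, (memPi_add hxx0 (hup W₀ _ hκ)).congr (by rw [hκ1, map_sub]; ring)⟩

/-- **(VAN) passes to the tame base change.** -/
theorem van_of_tame
    (hresV : ∀ W, ∀ x ∈ V1 W, ∃ x0 ∈ V W, MemPi (V1 W) lam (x - algebraMap F F1 x0))
    (hresR : ∀ y, ∀ a ∈ R1 y, ∃ a0 ∈ R y, ∃ a1 ∈ R1 y,
      a = algebraMap F F1 a0 + algebraMap O1 F1 lam * a1)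
    (hsub : ∀ y W, On y W → ∀ a ∈ R1 y, a ∈ V1 W)
    (hcap : ∀ W (x : F), MemPi (V1 W) lam (algebraMap F F1 x) → MemPi (V W) ϖ x)
    (hup : ∀ W (x : F), MemPi (V W) ϖ x → MemPi (V1 W) lam (algebraMap F F1 x))
    (h : Van V R On ϖ) : Van V1 R1 On lam := by
  intro W x hx hreg y W' hy hy' a ha hma hxa
  obtain ⟨x0, hx0, hxx0⟩ := hresV W x hx
  have hreg0 := reg_of_tame hresR hsub hcap W x x0 hxx0 hreg
  obtain ⟨a0, ha0, a1, ha1, rfl⟩ := hresR y a ha
  have hl : MemPi (V1 W) lam (algebraMap O1 F1 lam * a1) := ⟨a1, hsub y W hy a1 ha1, rfl⟩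
  have hl' : MemPi (V1 W') lam (algebraMap O1 F1 lam * a1) := ⟨a1, hsub y W' hy' a1 ha1, rfl⟩
  have hma0 : MemPi (V W') ϖ a0 := hcap W' a0 ((hma.sub hl').congr (by ring))
  have hxa0 : MemPi (V W) ϖ (x0 - a0) :=
    hcap W _ ((memPi_add (hxa.sub hxx0) hl).congr (by rw [map_sub]; ring))
  have hfin := h W x0 hx0 hreg0 y W' hy hy' a0 ha0 hma0 hxa0
  exact (memPi_add hxx0 (hup W x0 hfin)).congr (by ring)

end Transfer

section Main

variable {O : Type*} [CommRing O] [IsDomain O] [IsDiscreteValuationRing O]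
  {O1 : Type*} [CommRing O1] [IsDomain O1] [IsLocalRing O1]
  {F : Type u} [Field F] [Algebra O F] {F1 : Type*} [Field F1] [Algebra O1 F1] [Algebra F F1]
  {ι Y : Type*} {V : ι → Subring F} {R : Y → Subring F}
  {V1 : ι → Subring F1} {R1 : Y → Subring F1} {On : Y → ι → Prop}
  {ϖ : O} {lam : O1}

/-- **The tame base change of a model, global half + iteration.**  `D` a level-free model over
`O`; `(O1, lam, F1, V1, R1)` related to it by the six elementwise hypotheses; a bare `reg`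
statement over `O1` at every closed point and every depth `1 ≤ j < top`.  Then depth `≥ 1` on
every component of the base change gives depth `≥ top` on every component. -/
theorem tame_depth {p : ℕ} {Hor : F → Prop} (D : IsModel p ϖ V R On Hor) (hlam : ¬ IsUnit lam)
    (constV1 : ∀ W (a : O1), algebraMap O1 F1 a ∈ V1 W)
    (constR1 : ∀ y (a : O1), algebraMap O1 F1 a ∈ R1 y)
    (hresV : ∀ W, ∀ x ∈ V1 W, ∃ x0 ∈ V W, MemPi (V1 W) lam (x - algebraMap F F1 x0))
    (hresR : ∀ y, ∀ a ∈ R1 y, ∃ a0 ∈ R y, ∃ a1 ∈ R1 y,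
      a = algebraMap F F1 a0 + algebraMap O1 F1 lam * a1)
    (hsub : ∀ y W, On y W → ∀ a ∈ R1 y, a ∈ V1 W)
    (hcap : ∀ W (x : F), MemPi (V1 W) lam (algebraMap F F1 x) → MemPi (V W) ϖ x)
    (hup : ∀ W (x : F), MemPi (V W) ϖ x → MemPi (V1 W) lam (algebraMap F F1 x))
    (hconst : ∀ κ : O, ∃ κ1 : O1, algebraMap O1 F1 κ1 = algebraMap F F1 (algebraMap O F κ))
    (f : F1) (top : ℕ) (htop : 1 ≤ top)
    (hreg : ∀ j, 1 ≤ j → j < top → ∀ y,
      (∀ W, On y W → ∃ c : O1, c ≠ 0 ∧ DepthIn (V1 W) p lam j f c) →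
      ∃ ry : F1, ry ∈ R1 y ∧ ∀ W, On y W → ∀ (c : O1) (g r : F1), c ≠ 0 → r ∈ V1 W →
        f = algebraMap O1 F1 c * g ^ p * (1 + algebraMap O1 F1 lam ^ j * r) →
        ∃ κ : O1, MemPi (V1 W) lam (r - ry + algebraMap O1 F1 κ))
    (h1 : ∀ W, ∃ c : O1, c ≠ 0 ∧ DepthIn (V1 W) p lam 1 f c) :
    ∀ W, ∃ c : O1, c ≠ 0 ∧ DepthIn (V1 W) p lam top f c := by
  obtain ⟨W₀, h0⟩ := D.const0
  have hvan : Van V R On ϖ := fun W x hx hreg y W' hy hy' a ha hma hxa =>
    D.van W x hx hreg y hy a ha hxa ⟨W', hy', hma⟩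
  exact depth_of_reg hlam constV1 constR1 D.conn W₀
    (constAt_of_tame hresV hresR hsub hcap hup hconst W₀ h0)
    (van_of_tame hresV hresR hsub hcap hup hvan) f top hreg h1 top htop le_rfl

end Main

end Fermat.Agent.S33.Geo.TameGlob
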