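import Mathlib
import Fermat.Agent.S33.Geo.Top
import Fermat.Agent.S33.Geo.HDCore
import Fermat.Agent.S44.L.NodeNFCover
import Fermat.Agent.S44.L.NodeNFEmb
import Fermat.Agent.S44.L.LocalPrincipal
import Fermat.Agent.S44.L.Node

/-!
# S33 / GEO / row Z1a: closed points over the tame base `O1 = O[ζ_p]` (level-free)

Level-free commutative algebra (helper198).  `O1` a discrete valuation ring with uniformiser
`lam`, `(1 + lam) ^ p = 1` (so `lam ^ (p - 1) ∼ p`), perfect residue field.  `B` is the local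
presentation of a closed point of the model over the unramified base (a noetherian local domain),
`F1` the function field over `O1`; `F1` is generated by `lam` over `Frac B` (`hF`) and
`O1 ⊆ B[lam]` (`hO`).

* `HorVal lam p B f` : `f` is a unit times a `p`-th power at every valuation subring of `F1`
  which contains `B` and the inverse of `lam` (the horizontal orders of `f` at the point are
  divisible by `p`).
* `IsBranch1 lam x V` : `V ⊆ B_(x)[lam]`, `V ⊇ B, O1`, and `V` is local with maximal ideal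
  `lam V` (the generic ring over `O1` of the branch `x = 0`).
* `thick_node_reg` : at a thick node (`𝔪_B = (x, y)`, `x y ∼ p`), for EVERY depth `1 ≤ j < p`
  there is ONE `q ∈ B[X]` such that the leading term of every depth-`j` form of `f` on either
  branch is `q(lam) - κ` modulo `lam V`, `κ ∈ O1`.
* `tame_smooth_reg` : the same at a smooth point of the fibre (`𝔪_B = (w, z)`, `w ∼ p`).

Proof: the tame cover `R` of the node (`S44/L/NodeNFCover.exists_graded_node_cover` at the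
modulus `p - 1`: `𝔪_R = (r, s)`, `r s = lam`), `HDCore.hd_node` in `R` at `top := p`, the
comparison `HDCore.branch_cmp` on each branch, and the degree-`0` projection of the grading.
-/

set_option autoImplicit false
set_option linter.unusedSectionVars false
set_option linter.unusedVariables false
set_option linter.style.haveILetI false

namespace Fermat.Agent.S33.Geo.TameLocal

open Polynomial IsLocalRing

universe u

/-! ### Definitions -/

section Defs

variable {O1 : Type*} [CommRing O1] {F1 : Type*} [Field F1] [Algebra O1 F1]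

/-- `f` is a unit times a `p`-th power at every valuation subring of `F1` containing `B` and
the inverse of `lam`: the horizontal orders of `f` at the point presented by `B` are divisible
by `p`. -/
def HorVal (lam : O1) (p : ℕ) (B : Type u) [CommRing B] [Algebra B F1] (f : F1) : Prop :=
  ∀ 𝒪 : ValuationSubring F1, (∀ b : B, algebraMap B F1 b ∈ 𝒪) →
    (algebraMap O1 F1 lam)⁻¹ ∈ 𝒪 → ∃ u h : F1, u ∈ 𝒪 ∧ u⁻¹ ∈ 𝒪 ∧ f = u * h ^ p

/-- The generic ring over `O1` of the branch `x = 0` through the point presented by `B`: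
`V ⊇ B, O1`, `V ⊆ B_(x)[lam]`, and `V` is local with maximal ideal `lam V`. -/
def IsBranch1 {B : Type u} [CommRing B] [Algebra B F1] (lam : O1) (x : B) (V : Subring F1) :
    Prop :=
  (∀ b : B, algebraMap B F1 b ∈ V) ∧ (∀ a : O1, algebraMap O1 F1 a ∈ V) ∧
  (∀ z ∈ V, ∃ (q : B[X]) (b : B), ¬ x ∣ b ∧
    z * algebraMap B F1 b = aeval (algebraMap O1 F1 lam) q) ∧
  (∀ z ∈ V, z⁻¹ ∈ V ∨ Top.MemPi V lam z)

end Defs

/-! ### The cyclotomic relation -/

section Cyc

open Fermat.Agent.S44.L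

/-- `(1 + l) ^ (q + 1) = 1` with `l ≠ 0` in a domain gives
`l ^ q = - (q + 1) ∑_{j<q} (C(q+1, j+1) / (q+1)) l ^ j`. -/
theorem pow_eq_of_one_add_pow_eq_one {D : Type*} [CommRing D] [IsDomain D] (q : ℕ)
    (hp : (q + 1).Prime) (l : D) (hl : l ≠ 0) (h : (1 + l) ^ (q + 1) = 1) :
    l ^ q = -(((q + 1 : ℕ) : D) *
      ∑ j ∈ Finset.range q, (((q + 1).choose (j + 1) / (q + 1) : ℕ) : D) * l ^ j) := by
  have hsum : ∑ j ∈ Finset.range q, l ^ (j + 1) * (((q + 1).choose (j + 1) : ℕ) : D)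
      = ((q + 1 : ℕ) : D) * l *
        ∑ j ∈ Finset.range q, (((q + 1).choose (j + 1) / (q + 1) : ℕ) : D) * l ^ j := by
    rw [Finset.mul_sum]
    refine Finset.sum_congr rfl fun j hj => ?_
    have hj' : j < q := Finset.mem_range.mp hj
    have hdiv : (q + 1) * ((q + 1).choose (j + 1) / (q + 1)) = (q + 1).choose (j + 1) :=
      Nat.mul_div_cancel' (hp.dvd_choose_self (Nat.succ_ne_zero j) (by omega))
    have hcast : (((q + 1).choose (j + 1) : ℕ) : D)
        = ((q + 1 : ℕ) : D) * (((q + 1).choose (j + 1) / (q + 1) : ℕ) : D) := by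
      rw [← Nat.cast_mul, hdiv]
    rw [hcast]
    ring
  have h' : (l + 1) ^ (q + 1) = 1 := by rw [add_comm l 1]; exact h
  rw [add_pow, Finset.sum_range_succ, Finset.sum_range_succ'] at h'
  simp only [one_pow, mul_one, pow_zero, Nat.choose_zero_right, Nat.choose_self,
    Nat.cast_one] at h'
  rw [hsum] at h'
  have h2 : l * (l ^ q + ((q + 1 : ℕ) : D) *
      ∑ j ∈ Finset.range q, (((q + 1).choose (j + 1) / (q + 1) : ℕ) : D) * l ^ j) = 0 := by
    linear_combination h'
  rcases mul_eq_zero.mp h2 with h3 | h3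
  · exact absurd h3 hl
  · linear_combination h3

/-- The value of `NodeCover.thetaPoly q 1`. -/
theorem aeval_thetaPoly_one {B D : Type*} [CommRing B] [CommRing D] [Algebra B D] (q : ℕ)
    (l : D) : aeval l (NodeCover.thetaPoly q (1 : B)) =
      ∑ j ∈ Finset.range q, (((q + 1).choose (j + 1) / (q + 1) : ℕ) : D) * l ^ j := by
  rw [NodeCover.thetaPoly, map_sum]
  refine Finset.sum_congr rfl fun j _ => ?_
  rw [map_mul, map_pow, aeval_X, aeval_C, one_pow, mul_one, map_natCast]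

/-- `lam ^ (p - 1) ∣ p` in a local domain in which `1 + lam` is a `p`-th root of unity. -/
theorem pow_dvd_prime_of_one_add_pow {O1 : Type*} [CommRing O1] [IsDomain O1] [IsLocalRing O1]
    (q : ℕ) (hp : (q + 1).Prime) (lam : O1) (hlam : ¬ IsUnit lam) (hlam0 : lam ≠ 0)
    (hz : (1 + lam) ^ (q + 1) = 1) : lam ^ q ∣ ((q + 1 : ℕ) : O1) := by
  have hq : q ≠ 0 := by
    rintro rfl
    exact Nat.not_prime_one hp
  have h := pow_eq_of_one_add_pow_eq_one q hp lam hlam0 hz
  rw [← aeval_thetaPoly_one (B := O1) q lam] at h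
  have h0 : (NodeCover.thetaPoly q (1 : O1)).eval 0 = 1 := NodeCover.thetaPoly_eval_zero hq 1
  obtain ⟨t, ht⟩ := Polynomial.sub_dvd_eval_sub lam 0 (NodeCover.thetaPoly q (1 : O1))
  rw [h0, sub_zero] at ht
  have hS : aeval lam (NodeCover.thetaPoly q (1 : O1)) = 1 + lam ^ 1 * t := by
    rw [pow_one, ← ht, Polynomial.coe_aeval_eq_eval]
    ring
  have hu : IsUnit (aeval lam (NodeCover.thetaPoly q (1 : O1))) := by
    rw [hS]
    exact Top.isUnit_one_add_pow_mul hlam le_rfl t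
  obtain ⟨S', hS'⟩ := hu.exists_right_inv
  refine ⟨-S', ?_⟩
  linear_combination S' * h - ((q + 1 : ℕ) : O1) * hS'

end Cyc

/-! ### The localisation at a prime element as a valuation subring -/

section LocVal

variable {R : Type*} [CommRing R] [IsDomain R] [WfDvdMonoid R]
  {K : Type*} [Field K] [Algebra R K] [IsFractionRing R K]

/-- The localisation of `R` at a prime element `q`, as a valuation subring of `K = Frac R`. -/
noncomputable def locVal (q : R) (hq : Prime q) : ValuationSubring K where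
  carrier := {z | ∃ a b : R, ¬ q ∣ b ∧ z * algebraMap R K b = algebraMap R K a}
  mul_mem' := by
    rintro z z' ⟨a, b, hb, e⟩ ⟨a', b', hb', e'⟩
    refine ⟨a * a', b * b', fun h => (hq.dvd_or_dvd h).elim hb hb', ?_⟩
    rw [map_mul, map_mul, ← e, ← e']
    ring
  one_mem' := ⟨1, 1, hq.not_dvd_one, by rw [map_one, mul_one]⟩
  add_mem' := by
    rintro z z' ⟨a, b, hb, e⟩ ⟨a', b', hb', e'⟩
    refine ⟨a * b' + a' * b, b * b', fun h => (hq.dvd_or_dvd h).elim hb hb', ?_⟩
    rw [map_add, map_mul, map_mul, map_mul, ← e, ← e']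
    ring
  zero_mem' := ⟨0, 1, hq.not_dvd_one, by rw [map_zero, zero_mul]⟩
  neg_mem' := by
    rintro z ⟨a, b, hb, e⟩
    exact ⟨-a, b, hb, by rw [map_neg, ← e]; ring⟩
  mem_or_inv_mem' := by
    intro z
    obtain ⟨a, b, hb, rfl⟩ := IsFractionRing.div_surjective R z
    have hb0 : b ≠ 0 := nonZeroDivisors.ne_zero hb
    have hinj := IsFractionRing.injective R K
    by_cases ha0 : a = 0
    · left
      exact ⟨0, 1, hq.not_dvd_one, by rw [ha0, map_zero, zero_div, zero_mul]⟩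
    obtain ⟨m, a', ha', rfl⟩ := WfDvdMonoid.max_power_factor' ha0 hq.not_isUnit
    obtain ⟨n, b', hb', rfl⟩ := WfDvdMonoid.max_power_factor' hb0 hq.not_isUnit
    have hqK : algebraMap R K q ≠ 0 := (map_ne_zero_iff _ hinj).mpr hq.ne_zero
    have ha'K : algebraMap R K a' ≠ 0 :=
      (map_ne_zero_iff _ hinj).mpr fun h0 => ha' (h0 ▸ dvd_zero q)
    have hb'K : algebraMap R K b' ≠ 0 :=
      (map_ne_zero_iff _ hinj).mpr fun h0 => hb' (h0 ▸ dvd_zero q)
    rcases le_total n m with h | h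
    · left
      obtain ⟨d, rfl⟩ := Nat.exists_eq_add_of_le h
      refine ⟨q ^ d * a', b', hb', ?_⟩
      simp only [map_mul, map_pow]
      field_simp
      ring
    · right
      obtain ⟨d, rfl⟩ := Nat.exists_eq_add_of_le h
      refine ⟨q ^ d * b', a', ha', ?_⟩
      simp only [map_mul, map_pow]
      field_simp
      ring

theorem mem_locVal {q : R} (hq : Prime q) {z : K} :
    z ∈ locVal (K := K) q hq ↔
      ∃ a b : R, ¬ q ∣ b ∧ z * algebraMap R K b = algebraMap R K a := Iff.rfl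

end LocVal

/-! ### Pulling the horizontal condition back to a cover -/

section Pullback

variable {O1 : Type*} [CommRing O1] {B : Type u} [CommRing B]
  {F1 : Type*} [Field F1] [Algebra O1 F1] [Algebra B F1]
  {R : Type*} [CommRing R] [IsDomain R] [WfDvdMonoid R] [Algebra B R]
  {K : Type*} [Field K] [Algebra R K] [IsFractionRing R K]

/-- `HorVal` gives the horizontal hypothesis of `HDCore.hd_node` / `hd_smooth` in any cover
ring `R` of `B` with `F1 → Frac R`. -/
theorem hor_pullback (ψ : F1 →+* K) (lam : O1) (lamR : R)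
    (hψB : ∀ b : B, ψ (algebraMap B F1 b) = algebraMap R K (algebraMap B R b))
    (hψL : ψ (algebraMap O1 F1 lam) = algebraMap R K lamR)
    (p : ℕ) (f : F1) (hf : f ≠ 0) (hhor : HorVal lam p B f) :
    ∀ q : R, Prime q → ¬ q ∣ lamR →
      ∃ (a b : R) (h : K), ¬ q ∣ a ∧ ¬ q ∣ b ∧
        algebraMap R K b * ψ f = algebraMap R K a * h ^ p := by
  intro q hq hql
  have hinj := IsFractionRing.injective R K
  have hlam0 : lamR ≠ 0 := fun h => hql (h ▸ dvd_zero q)
  have hlamK : algebraMap R K lamR ≠ 0 := (map_ne_zero_iff _ hinj).mpr hlam0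
  obtain ⟨u, h, hu, hu', hfe⟩ := hhor ((locVal (K := K) q hq).comap ψ)
    (fun b => (mem_locVal hq).mpr
      ⟨algebraMap B R b, 1, hq.not_dvd_one, by rw [hψB, map_one, mul_one]⟩)
    ((mem_locVal hq).mpr ⟨1, lamR, hql, by
      rw [map_inv₀, hψL, map_one]
      exact inv_mul_cancel₀ hlamK⟩)
  obtain ⟨a, b, hb, e⟩ := (mem_locVal hq).mp hu
  obtain ⟨a', b', hb', e'⟩ := (mem_locVal hq).mp hu'
  have hu0 : u ≠ 0 := by
    rintro rfl
    exact hf (by rw [hfe, zero_mul])
  have hψu : ψ u ≠ 0 := (map_ne_zero ψ).mpr hu0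
  refine ⟨a, b, ψ h, ?_, hb, ?_⟩
  · intro hqa
    have h1 : a * a' = b * b' := by
      apply hinj
      rw [map_mul, map_mul, ← e, ← e', map_inv₀]
      field_simp
    have h2 : q ∣ b * b' := h1 ▸ Dvd.dvd.mul_right hqa a'
    exact (hq.dvd_or_dvd h2).elim hb hb'
  · rw [hfe, map_mul, map_pow, ← e]
    ring

end Pullback

/-! ### The embedding `F1 → Frac R` and the structure map `O1 → R` -/

section Setup

open Fermat.Agent.S44.L

/-- `F1 = Frac B[lam]`, `B[lam] = B[X] / (E)` with `E` monic and prime: for every domain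
`R ⊇ B` with a root `ϱ` of `E` there are `g : O1 → R`, `lam ↦ ϱ`, and `ψ : F1 → Frac R`
compatible with `g` and with `B → R`. -/
theorem exists_setup {O1 : Type*} [CommRing O1] {B : Type u} [CommRing B] [IsDomain B]
    {F1 : Type*} [Field F1] [Algebra O1 F1] [Algebra B F1] (lam : O1)
    (hB : Function.Injective (algebraMap B F1))
    (hO : ∀ c : O1, ∃ q : B[X], algebraMap O1 F1 c = aeval (algebraMap O1 F1 lam) q)
    (hF : ∀ z : F1, ∃ (q : B[X]) (b : B), b ≠ 0 ∧
      z * algebraMap B F1 b = aeval (algebraMap O1 F1 lam) q)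
    (E : B[X]) (hEp : Prime E) (hEm : E.Monic) (hE1 : aeval (algebraMap O1 F1 lam) E = 0)
    {R : Type*} [CommRing R] [IsDomain R] [Algebra B R]
    (hBR : Function.Injective (algebraMap B R))
    {K : Type*} [Field K] [Algebra R K] [IsFractionRing R K]
    (ϱ : R) (hER : aeval ϱ E = 0) :
    ∃ (g : O1 →+* R) (ψ : F1 →+* K), g lam = ϱ ∧
      (∀ c, ψ (algebraMap O1 F1 c) = algebraMap R K (g c)) ∧
      (∀ b, ψ (algebraMap B F1 b) = algebraMap R K (algebraMap B R b)) := by
  have hdom : IsDomain (AdjoinRoot E) := AdjoinRoot.isDomain_of_prime hEp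
  obtain ⟨φ1, hφ1def⟩ : ∃ φ : AdjoinRoot E →ₐ[B] F1,
      φ = AdjoinRoot.liftAlgHom E (Algebra.ofId B F1) (algebraMap O1 F1 lam) hE1 := ⟨_, rfl⟩
  obtain ⟨φR, hφRdef⟩ : ∃ φ : AdjoinRoot E →ₐ[B] R,
      φ = AdjoinRoot.liftAlgHom E (Algebra.ofId B R) ϱ hER := ⟨_, rfl⟩
  have hφ1 : Function.Injective φ1 := NodeNFEmb.algHom_injective_of_prime hEp hEm hB φ1
  have hφR : Function.Injective φR := NodeNFEmb.algHom_injective_of_prime hEp hEm hBR φR
  have hφ1mk : ∀ q : B[X], φ1 (AdjoinRoot.mk E q) = aeval (algebraMap O1 F1 lam) q := by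
    intro q
    rw [hφ1def]
    rfl
  have hφRmk : ∀ q : B[X], φR (AdjoinRoot.mk E q) = aeval ϱ q := by
    intro q
    rw [hφRdef]
    rfl
  have hinjK := IsFractionRing.injective R K
  letI : Algebra (AdjoinRoot E) F1 := φ1.toRingHom.toAlgebra
  have halg : ∀ a : AdjoinRoot E, algebraMap (AdjoinRoot E) F1 a = φ1 a := fun a => rfl
  haveI : FaithfulSMul (AdjoinRoot E) F1 :=
    (faithfulSMul_iff_algebraMap_injective _ _).mpr hφ1
  haveI : IsFractionRing (AdjoinRoot E) F1 := IsFractionRing.of_field (AdjoinRoot E) F1 (by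
    intro z
    obtain ⟨q, b, hb, e⟩ := hF z
    refine ⟨AdjoinRoot.mk E q, AdjoinRoot.mk E (C b), ?_⟩
    have hbF : algebraMap B F1 b ≠ 0 := (map_ne_zero_iff _ hB).mpr hb
    rw [halg, halg, hφ1mk, hφ1mk, aeval_C, ← e]
    field_simp)
  obtain ⟨γ, hγdef⟩ : ∃ γ : AdjoinRoot E →+* K, γ = (algebraMap R K).comp φR.toRingHom :=
    ⟨_, rfl⟩
  have hγ : Function.Injective γ := by
    rw [hγdef]
    exact hinjK.comp hφR
  obtain ⟨ψ, hψdef⟩ : ∃ ψ : F1 →+* K, ψ = IsFractionRing.lift hγ := ⟨_, rfl⟩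
  have hψ : ∀ a : AdjoinRoot E, ψ (φ1 a) = algebraMap R K (φR a) := by
    intro a
    rw [hψdef, ← halg, IsFractionRing.lift_algebraMap hγ a, hγdef]
    rfl
  have hψq : ∀ q : B[X],
      ψ (aeval (algebraMap O1 F1 lam) q) = algebraMap R K (aeval ϱ q) := by
    intro q
    rw [← hφ1mk, hψ, hφRmk]
  have hex : ∀ c : O1, ∃ y : R, algebraMap R K y = ψ (algebraMap O1 F1 c) := by
    intro c
    obtain ⟨q, hq⟩ := hO c
    exact ⟨aeval ϱ q, by rw [hq, hψq]⟩
  choose g0 hg0 using hex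
  let g : O1 →+* R :=
    { toFun := g0
      map_one' := hinjK (by rw [hg0, map_one, map_one, map_one])
      map_mul' := fun a b => hinjK (by rw [hg0, map_mul, map_mul, map_mul, hg0, hg0])
      map_zero' := hinjK (by rw [hg0, map_zero, map_zero, map_zero])
      map_add' := fun a b => hinjK (by rw [hg0, map_add, map_add, map_add, hg0, hg0]) }
  refine ⟨g, ψ, ?_, fun c => (hg0 c).symm, ?_⟩
  · apply hinjK
    show algebraMap R K (g0 lam) = _
    rw [hg0]
    have h1 := hψq X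
    rw [aeval_X, aeval_X] at h1
    exact h1
  · intro b
    have h1 := hψq (C b)
    rw [aeval_C, aeval_C] at h1
    exact h1

end Setup

/-! ### One branch -/

section Branch

variable {O1 : Type*} [CommRing O1] {B : Type u} [CommRing B]
  {F1 : Type*} [Field F1] [Algebra O1 F1] [Algebra B F1]
  {R : Type*} [CommRing R] [Algebra O1 R] [Algebra B R]
  {K : Type*} [Field K] [Algebra R K]

/-- `ψ` commutes with the evaluation at `lam` of polynomials over `B`. -/
theorem psi_aeval (ψ : F1 →+* K) (lam : O1)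
    (hψO : ∀ c : O1, ψ (algebraMap O1 F1 c) = algebraMap R K (algebraMap O1 R c))
    (hψB : ∀ b : B, ψ (algebraMap B F1 b) = algebraMap R K (algebraMap B R b)) (q : B[X]) :
    ψ (aeval (algebraMap O1 F1 lam) q) = algebraMap R K (aeval (algebraMap O1 R lam) q) := by
  induction q using Polynomial.induction_on' with
  | add P Q hP hQ => rw [map_add, map_add, map_add, map_add, hP, hQ]
  | monomial n a =>
    rw [← C_mul_X_pow_eq_monomial]
    simp only [map_mul, map_pow, aeval_C, aeval_X, hψB, hψO]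

/-- Polynomials in `lam` over `B` lie in the branch ring. -/
theorem aeval_mem_of_isBranch1 {lam : O1} {x : B} {V : Subring F1} (hV : IsBranch1 lam x V)
    (q : B[X]) : aeval (algebraMap O1 F1 lam) q ∈ V := by
  induction q using Polynomial.induction_on' with
  | add P Q hP hQ =>
    rw [map_add]
    exact V.add_mem hP hQ
  | monomial n a =>
    rw [← C_mul_X_pow_eq_monomial, map_mul, map_pow, aeval_C, aeval_X]
    exact V.mul_mem (hV.1 a) (V.pow_mem (hV.2.1 lam) n)

/-- A generic form on a branch, transported to the cover. -/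
theorem gen_form (ψ : F1 →+* K) (lam : O1)
    (hψO : ∀ c : O1, ψ (algebraMap O1 F1 c) = algebraMap R K (algebraMap O1 R c))
    (hψB : ∀ b : B, ψ (algebraMap B F1 b) = algebraMap R K (algebraMap B R b))
    {p j : ℕ} {f g ρ : F1} {c : O1} {b : B} {q : B[X]}
    (hfe : f = algebraMap O1 F1 c * g ^ p * (1 + algebraMap O1 F1 lam ^ j * ρ))
    (hρb : ρ * algebraMap B F1 b = aeval (algebraMap O1 F1 lam) q) :
    algebraMap R K (algebraMap B R b) * ψ f =
      algebraMap R K (algebraMap O1 R c) * (ψ g) ^ p *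
        algebraMap R K (algebraMap B R b +
          algebraMap O1 R lam ^ j * aeval (algebraMap O1 R lam) q) := by
  have h1 := congrArg ψ hfe
  have h2 := congrArg ψ hρb
  rw [map_mul, hψB, psi_aeval ψ lam hψO hψB] at h2
  simp only [map_mul, map_pow, map_add, map_one, hψO] at h1 ⊢
  rw [h1, ← h2]
  ring

end Branch

section BranchReg

variable {O1 : Type*} [CommRing O1] [IsDomain O1] [IsDiscreteValuationRing O1]
  {B : Type u} [CommRing B]
  {F1 : Type*} [Field F1] [Algebra O1 F1] [Algebra B F1]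
  {R : Type*} [CommRing R] [IsDomain R] [IsNoetherianRing R] [Algebra O1 R] [Algebra B R]
  {K : Type*} [Field K] [Algebra R K] [IsFractionRing R K]

/-- **One branch**: from a point form `ψ f = c₀ H ^ p (1 + lam ^ j ρ₀)` in the cover ring `R`
whose leading term `ρ₀` projects to `q₀(lam)` modulo the branch prime `ϱ` (`hproj`), the
leading term of every generic form of depth `j < p` on the branch is `q₀(lam) - κ` modulo
`lam V`. -/
theorem branch_reg (ψ : F1 →+* K)
    (hψO : ∀ c : O1, ψ (algebraMap O1 F1 c) = algebraMap R K (algebraMap O1 R c))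
    (hψB : ∀ b : B, ψ (algebraMap B F1 b) = algebraMap R K (algebraMap B R b))
    (p : ℕ) (hp : p.Prime) (lam : O1) (hlam : Irreducible lam)
    (hpl : lam ^ (p - 1) ∣ (p : O1)) (hperf : ∀ a : O1, ∃ b : O1, lam ∣ a - b ^ p)
    (hO : ∀ c : O1, ∃ q : B[X], algebraMap O1 F1 c = aeval (algebraMap O1 F1 lam) q)
    (ϱ w : R) (hϱ : Prime ϱ) (hϱw : algebraMap O1 R lam = ϱ * w) (hw : ¬ ϱ ∣ w)
    (x : B) (hx : Prime x) (hxdvd : ∀ b : B, ϱ ∣ algebraMap B R b → x ∣ b)
    (V : Subring F1) (hV : IsBranch1 lam x V)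
    (f : F1) (hf : f ≠ 0) (j : ℕ) (hj1 : 1 ≤ j) (hjp : j < p)
    (c₀ : O1) (hc₀ : c₀ ≠ 0) (H : K) (ρ₀ : R)
    (hpt : ψ f = algebraMap R K (algebraMap O1 R c₀) * H ^ p *
      algebraMap R K (1 + algebraMap O1 R lam ^ j * ρ₀))
    (q₀ : B[X])
    (hproj : ∀ (b : B) (P : B[X]),
      ϱ ∣ ρ₀ * algebraMap B R b - aeval (algebraMap O1 R lam) P →
      ϱ ∣ aeval (algebraMap O1 R lam) (C b * q₀ - P)) :
    ∀ (c : O1) (g r : F1), c ≠ 0 → r ∈ V →
      f = algebraMap O1 F1 c * g ^ p * (1 + algebraMap O1 F1 lam ^ j * r) →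
      ∃ κ : O1, Top.MemPi V lam
        (r - aeval (algebraMap O1 F1 lam) q₀ + algebraMap O1 F1 κ) := by
  intro c g ρ hc hρ hfe
  have hinj := IsFractionRing.injective R K
  have hψq : ∀ P : B[X], ψ (aeval (algebraMap O1 F1 lam) P) =
      algebraMap R K (aeval (algebraMap O1 R lam) P) := psi_aeval ψ lam hψO hψB
  -- a polynomial in `lam` which is divisible by `ϱ` in the cover lies in `lam V`
  have key : ∀ P : B[X], ϱ ∣ aeval (algebraMap O1 R lam) P →
      Top.MemPi V lam (aeval (algebraMap O1 F1 lam) P) := by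
    intro P hP
    by_cases h0 : aeval (algebraMap O1 F1 lam) P = 0
    · exact ⟨0, V.zero_mem, by rw [h0, mul_zero]⟩
    rcases hV.2.2.2 _ (aeval_mem_of_isBranch1 hV P) with hinv | hmem
    · exfalso
      obtain ⟨q', b', hxb', e'⟩ := hV.2.2.1 _ hinv
      have h1 : algebraMap B F1 b' =
          aeval (algebraMap O1 F1 lam) P * aeval (algebraMap O1 F1 lam) q' := by
        rw [← e']
        field_simp
      have h2 := congrArg ψ h1
      rw [hψB, map_mul ψ, hψq, hψq, ← map_mul] at h2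
      have h3 := hinj h2
      exact hxb' (hxdvd b' (h3 ▸ Dvd.dvd.mul_right hP _))
    · exact hmem
  -- elements of `B` prime to `x` are units of `V`
  have hunit : ∀ b : B, ¬ x ∣ b → (algebraMap B F1 b)⁻¹ ∈ V := by
    intro b hxb
    rcases hV.2.2.2 _ (hV.1 b) with hinv | ⟨v, hv, hbv⟩
    · exact hinv
    · exfalso
      obtain ⟨q', b', hxb', e'⟩ := hV.2.2.1 v hv
      have h1 : algebraMap B F1 (b * b') =
          algebraMap O1 F1 lam * aeval (algebraMap O1 F1 lam) q' := by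
        rw [map_mul, hbv, ← e']
        ring
      have h2 := congrArg ψ h1
      rw [hψB, map_mul ψ, hψO, hψq, ← map_mul] at h2
      have h3 := hinj h2
      have h4 : ϱ ∣ algebraMap B R (b * b') := by
        rw [h3, hϱw, mul_assoc]
        exact dvd_mul_right _ _
      exact (hx.dvd_or_dvd (hxdvd _ h4)).elim hxb hxb'
  obtain ⟨q, b, hxb, hρb⟩ := hV.2.2.1 ρ hρ
  have hβ : ¬ ϱ ∣ algebraMap B R b := fun h => hxb (hxdvd b h)
  have hbF : algebraMap B F1 b ≠ 0 := by
    intro h0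
    have h1 := hψB b
    rw [h0, map_zero] at h1
    have h2 : algebraMap B R b = 0 := hinj (by rw [← h1, map_zero])
    exact hβ (h2 ▸ dvd_zero ϱ)
  have hψf : ψ f ≠ 0 := (map_ne_zero ψ).mpr hf
  have e : algebraMap R K 1 * ψ f = algebraMap R K (algebraMap O1 R c₀) * H ^ p *
      algebraMap R K (1 + algebraMap O1 R lam ^ j * ρ₀) := by
    rw [map_one, one_mul, hpt]
  have e' := gen_form ψ lam hψO hψB hfe hρb
  obtain ⟨d, d', κ, -, -, -, hκ⟩ := HDCore.branch_cmp p hp p hp.two_le lam hlam hpl le_rfl hperf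
    ϱ w hϱ hϱw hw (ψ f) hψf j hj1 hjp.le c₀ c hc₀ hc H (ψ g) ρ₀ 1
    (aeval (algebraMap O1 R lam) q) (algebraMap B R b) hϱ.not_dvd_one hβ e e'
  have hκ' := hκ hjp
  obtain ⟨qκ, hqκ⟩ := hO κ
  have hκR : algebraMap O1 R κ = aeval (algebraMap O1 R lam) qκ := by
    apply hinj
    rw [← hψO, hqκ, hψq]
  have h3 : ϱ ∣ ρ₀ * algebraMap B R b - aeval (algebraMap O1 R lam) (q - C b * qκ) := by
    have h4 : ρ₀ * algebraMap B R b - aeval (algebraMap O1 R lam) (q - C b * qκ) =
        ρ₀ * algebraMap B R b - aeval (algebraMap O1 R lam) q * 1 +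
          algebraMap O1 R κ * (1 * algebraMap B R b) := by
      rw [map_sub, map_mul, aeval_C, hκR]
      ring
    rw [h4]
    exact hκ'
  obtain ⟨v, hv, hv'⟩ := key _ (hproj b _ h3)
  have hbinv := hunit b hxb
  have hinvb : (algebraMap B F1 b)⁻¹ * algebraMap B F1 b = 1 := inv_mul_cancel₀ hbF
  rw [map_sub, map_mul, map_sub, map_mul, aeval_C, ← hqκ, ← hρb] at hv'
  refine ⟨-κ, -(v * (algebraMap B F1 b)⁻¹), V.neg_mem (V.mul_mem hv hbinv), ?_⟩
  apply mul_right_cancel₀ hbF
  rw [map_neg]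
  linear_combination (-1 : F1) * hv' + (algebraMap O1 F1 lam * v) * hinvb

end BranchReg

/-! ### The grading of the tame cover -/

section Grading

variable {R : Type*} [CommRing R] {n : ℕ} [NeZero n] (c : ZMod n → R →+ R)

theorem gr_eq_of_homog (hidem : ∀ d e y, c e (c d y) = if e = d then c d y else 0)
    {d₀ : ZMod n} {y : R} (hy : c d₀ y = y) (e : ZMod n) :
    c e y = if e = d₀ then y else 0 := by
  have h := hidem d₀ e y
  rw [hy] at h
  exact h

theorem gr_mul_of_homog (hidem : ∀ d e y, c e (c d y) = if e = d then c d y else 0)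
    (hmul : ∀ d y z, c d (y * z) = ∑ e, c e y * c (d - e) z)
    {d₀ : ZMod n} {y : R} (hy : c d₀ y = y) (d : ZMod n) (z : R) :
    c d (y * z) = y * c (d - d₀) z := by
  rw [hmul, Finset.sum_eq_single d₀]
  · rw [hy]
  · intro e _ he
    rw [gr_eq_of_homog c hidem hy e, if_neg he, zero_mul]
  · intro h
    exact absurd (Finset.mem_univ d₀) h

theorem gr_zero_aeval (hidem : ∀ d e y, c e (c d y) = if e = d then c d y else 0)
    (hmul : ∀ d y z, c d (y * z) = ∑ e, c e y * c (d - e) z)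
    {B : Type*} [CommRing B] [Algebra B R]
    (hcB : ∀ b : B, c 0 (algebraMap B R b) = algebraMap B R b) {ϱ : R} (hϱ : c 0 ϱ = ϱ)
    (P : B[X]) : c 0 (aeval ϱ P) = aeval ϱ P := by
  have hpow : ∀ k : ℕ, c 0 (ϱ ^ k) = ϱ ^ k := by
    intro k
    induction k with
    | zero =>
      rw [pow_zero]
      have h1 := hcB 1
      rwa [map_one] at h1
    | succ k ih => rw [pow_succ', gr_mul_of_homog c hidem hmul hϱ, sub_zero, ih]
  induction P using Polynomial.induction_on' with
  | add P Q hP hQ => rw [map_add, map_add, hP, hQ]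
  | monomial k a =>
    rw [← C_mul_X_pow_eq_monomial, map_mul, map_pow, aeval_C, aeval_X,
      gr_mul_of_homog c hidem hmul (hcB a), sub_zero, hpow]

end Grading

/-! ### The two statements -/

section Main

open Fermat.Agent.S44.L Fermat.Agent.S44.L.LocalPrincipal Fermat.Agent.S44.L.Node

variable {O1 : Type*} [CommRing O1] [IsDomain O1] [IsDiscreteValuationRing O1]
  {B : Type u} [CommRing B] [IsDomain B] [IsLocalRing B] [IsNoetherianRing B]
  {F1 : Type*} [Field F1] [Algebra O1 F1] [Algebra B F1]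

/-- **Closed points over `O1`, thick node.** -/
theorem thick_node_reg (p : ℕ) (hp : p.Prime) (lam : O1) (hlam : Irreducible lam)
    (hperf : ∀ a : O1, ∃ b : O1, lam ∣ a - b ^ p) (hz : (1 + lam) ^ p = 1)
    (hO1 : Function.Injective (algebraMap O1 F1)) (hB : Function.Injective (algebraMap B F1))
    (hO : ∀ c : O1, ∃ q : B[X], algebraMap O1 F1 c = aeval (algebraMap O1 F1 lam) q)
    (hF : ∀ z : F1, ∃ (q : B[X]) (b : B), b ≠ 0 ∧
      z * algebraMap B F1 b = aeval (algebraMap O1 F1 lam) q)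
    (x y : B) (hx : Prime x) (hy : Prime y) (hne : ¬ Associated x y)
    (hm : maximalIdeal B = Ideal.span {x, y}) (hxy : Associated (x * y) (p : B))
    (V1 V2 : Subring F1) (hV1 : IsBranch1 lam x V1) (hV2 : IsBranch1 lam y V2)
    (f : F1) (hf : f ≠ 0) (hhor : HorVal lam p B f) (j : ℕ) (hj1 : 1 ≤ j) (hjp : j < p)
    (hD1 : ∃ c : O1, c ≠ 0 ∧ Top.DepthIn V1 p lam j f c)
    (hD2 : ∃ c : O1, c ≠ 0 ∧ Top.DepthIn V2 p lam j f c) :
    ∃ q : B[X], ∀ V, (V = V1 ∨ V = V2) → ∀ (c : O1) (g r : F1), c ≠ 0 → r ∈ V →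
      f = algebraMap O1 F1 c * g ^ p * (1 + algebraMap O1 F1 lam ^ j * r) →
      ∃ κ : O1, Top.MemPi V lam (r - aeval (algebraMap O1 F1 lam) q + algebraMap O1 F1 κ) := by
  obtain ⟨q, rfl⟩ := Nat.exists_eq_add_one_of_ne_zero hp.ne_zero
  have hq : q ≠ 0 := by
    rintro rfl
    exact Nat.not_prime_one hp
  haveI : NeZero q := ⟨hq⟩
  have hlam0 : lam ≠ 0 := hlam.ne_zero
  have hL0 : algebraMap O1 F1 lam ≠ 0 := (map_ne_zero_iff _ hO1).mpr hlam0
  have hpl : lam ^ (q + 1 - 1) ∣ ((q + 1 : ℕ) : O1) := by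
    rw [Nat.add_sub_cancel]
    exact pow_dvd_prime_of_one_add_pow q hp lam hlam.not_isUnit hlam0 hz
  -- `B` is factorial
  haveI : IsDomain (B ⧸ Ideal.span {x}) := isDomain_quot hx
  haveI : IsPrincipalIdealRing (B ⧸ Ideal.span {x}) := isPrincipalIdealRing_quot hx hm
  haveI : UniqueFactorizationMonoid B := quot_ufm hx.ne_zero
  obtain ⟨u, hu⟩ := hxy
  -- the Eisenstein polynomial of `lam` over `B`
  obtain ⟨τ, hτ⟩ : ∃ τ : B[X], τ = NodeCover.thetaPoly q (1 : B) := ⟨_, rfl⟩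
  have hτdeg : τ.natDegree < q := hτ ▸ NodeCover.thetaPoly_natDegree_lt hq 1
  have hτ0 : τ.eval 0 = 1 := hτ ▸ NodeCover.thetaPoly_eval_zero hq 1
  have hxc : ¬ x ∣ y * -(u : B) := by
    intro h
    rcases hx.dvd_or_dvd h with h1 | h1
    · exact hne (hx.associated_of_dvd hy h1)
    · exact hx.not_isUnit (isUnit_of_dvd_unit h1 u.isUnit.neg)
  have hEp : Prime (NodeNFEmb.eisPoly q (x * (y * -(u : B))) τ) :=
    NodeNFEmb.eisPoly_prime hq hx hxc hτdeg (by rw [hτ0]; exact isUnit_one)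
  have hEm := NodeNFEmb.eisPoly_monic (x * (y * -(u : B))) hτdeg
  have hzF : (1 + algebraMap O1 F1 lam) ^ (q + 1) = 1 := by
    have h1 := congrArg (algebraMap O1 F1) hz
    simpa only [map_pow, map_add, map_one] using h1
  have hLq := pow_eq_of_one_add_pow_eq_one q hp (algebraMap O1 F1 lam) hL0 hzF
  rw [← aeval_thetaPoly_one (B := B) q (algebraMap O1 F1 lam), ← hτ] at hLq
  have hE1 : aeval (algebraMap O1 F1 lam) (NodeNFEmb.eisPoly q (x * (y * -(u : B))) τ) = 0 := by
    have hu' := congrArg (algebraMap B F1) hu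
    rw [map_natCast] at hu'
    rw [NodeNFEmb.aeval_eisPoly, hLq, ← hu']
    simp only [map_mul, map_neg]
    ring
  -- the graded tame cover
  have hθdeg : (C (-(u : B)) * τ).natDegree < q := (natDegree_C_mul_le _ _).trans_lt hτdeg
  have hθ0 : IsUnit ((C (-(u : B)) * τ).eval 0) := by
    rw [eval_mul, eval_C, hτ0, mul_one]
    exact u.isUnit.neg
  obtain ⟨R, _, _, _, _, _, r, s, c, hBR, -, hr, hs, hrs, hmR, hsq, hrq, hsdvd, hrdvd, -, hidem,
    hmul, hcB, hcs, hcr, -, hc0, -⟩ := NodeNFCover.exists_graded_node_cover q x y hx hy hne hm 1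
      isUnit_one (C (-(u : B)) * τ) hθdeg hθ0
  have hER : aeval (r * s) (NodeNFEmb.eisPoly q (x * (y * -(u : B))) τ) = 0 := by
    rw [map_one, one_mul] at hrq
    rw [NodeNFEmb.aeval_eisPoly, mul_pow, hsq, hrq]
    simp only [map_mul, map_neg, aeval_C]
    ring
  obtain ⟨g, ψ, hglam, hψO', hψB⟩ := exists_setup lam hB hO hF _ hEp hEm hE1 hBR
    (K := FractionRing R) (r * s) hER
  letI : Algebra O1 R := g.toAlgebra
  have hψO : ∀ c : O1, ψ (algebraMap O1 F1 c) =
      algebraMap R (FractionRing R) (algebraMap O1 R c) := hψO'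
  have hlamR : algebraMap O1 R lam = r * s := hglam
  have hrs' : ¬ r ∣ s := fun h => hrs (hr.associated_of_dvd hs h)
  have hsr' : ¬ s ∣ r := fun h => hrs (hs.associated_of_dvd hr h).symm
  have hψf : ψ f ≠ 0 := (map_ne_zero ψ).mpr hf
  have hhor' : ∀ q' : R, Prime q' → ¬ q' ∣ algebraMap O1 R lam →
      ∃ (a b : R) (h : FractionRing R), ¬ q' ∣ a ∧ ¬ q' ∣ b ∧
        algebraMap R (FractionRing R) b * ψ f = algebraMap R (FractionRing R) a * h ^ (q + 1) :=
    hor_pullback ψ lam (algebraMap O1 R lam) hψB (hψO lam) (q + 1) f hf hhor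
  -- the two branch forms in the cover
  obtain ⟨c1, hc1, g1, ρ1, hρ1, hf1⟩ := hD1
  obtain ⟨q1, b1, hxb1, e1⟩ := hV1.2.2.1 ρ1 hρ1
  obtain ⟨c2, hc2, g2, ρ2, hρ2, hf2⟩ := hD2
  obtain ⟨q2, b2, hxb2, e2⟩ := hV2.2.2.1 ρ2 hρ2
  obtain ⟨c₀, H, ρ₀, hc₀, hpt⟩ := HDCore.hd_node (q + 1) hp (q + 1) hp.two_le lam hlam hpl le_rfl
    hperf r s hr hs hrs hmR (hlamR ▸ Associated.refl _) (ψ f) hψf hhor' j hj1 hjp.le c1 c2 hc1 hc2
    ⟨ψ g1, aeval (algebraMap O1 R lam) q1, algebraMap B R b1, fun h => hxb1 (hrdvd b1 h),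
      gen_form ψ lam hψO hψB hf1 e1⟩
    ⟨ψ g2, aeval (algebraMap O1 R lam) q2, algebraMap B R b2, fun h => hxb2 (hsdvd b2 h),
      gen_form ψ lam hψO hψB hf2 e2⟩
  -- the degree-zero part of the leading term
  have hc00 : c 0 (c 0 ρ₀) = c 0 ρ₀ := by
    have h1 := hidem 0 0 ρ₀
    rwa [if_pos rfl] at h1
  obtain ⟨q₀, -, hq₀⟩ := hc0 (c 0 ρ₀) hc00
  have hrs0 : c 0 (r * s) = r * s := by
    rw [gr_mul_of_homog c hidem hmul hcr, sub_neg_eq_add, zero_add, hcs]
  have hprojr : ∀ (b : B) (P : B[X]),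
      r ∣ ρ₀ * algebraMap B R b - aeval (algebraMap O1 R lam) P →
      r ∣ aeval (algebraMap O1 R lam) (C b * q₀ - P) := by
    rintro b P ⟨w', hw'⟩
    have h1 := congrArg (c 0) hw'
    rw [map_sub, mul_comm ρ₀, gr_mul_of_homog c hidem hmul (hcB b), sub_zero, hlamR,
      gr_zero_aeval c hidem hmul hcB hrs0 P, gr_mul_of_homog c hidem hmul hcr, hq₀] at h1
    refine ⟨c (0 - -1) w', ?_⟩
    rw [map_sub, map_mul, aeval_C, hlamR]
    exact h1
  have hprojs : ∀ (b : B) (P : B[X]),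
      s ∣ ρ₀ * algebraMap B R b - aeval (algebraMap O1 R lam) P →
      s ∣ aeval (algebraMap O1 R lam) (C b * q₀ - P) := by
    rintro b P ⟨w', hw'⟩
    have h1 := congrArg (c 0) hw'
    rw [map_sub, mul_comm ρ₀, gr_mul_of_homog c hidem hmul (hcB b), sub_zero, hlamR,
      gr_zero_aeval c hidem hmul hcB hrs0 P, gr_mul_of_homog c hidem hmul hcs, hq₀] at h1
    refine ⟨c (0 - 1) w', ?_⟩
    rw [map_sub, map_mul, aeval_C, hlamR]
    exact h1
  refine ⟨q₀, ?_⟩
  rintro V (rfl | rfl)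
  · exact branch_reg ψ hψO hψB (q + 1) hp lam hlam hpl hperf hO r s hr hlamR hrs' x hx hrdvd V hV1
      f hf j hj1 hjp c₀ hc₀ H ρ₀ hpt q₀ hprojr
  · exact branch_reg ψ hψO hψB (q + 1) hp lam hlam hpl hperf hO s r hs
      (hlamR.trans (mul_comm r s)) hsr' y hy hsdvd V hV2 f hf j hj1 hjp c₀ hc₀ H ρ₀ hpt q₀ hprojs

/-- **Closed points over `O1`, smooth point of the fibre.** -/
theorem tame_smooth_reg (p : ℕ) (hp : p.Prime) (lam : O1) (hlam : Irreducible lam)
    (hperf : ∀ a : O1, ∃ b : O1, lam ∣ a - b ^ p) (hz : (1 + lam) ^ p = 1)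
    (hO1 : Function.Injective (algebraMap O1 F1)) (hB : Function.Injective (algebraMap B F1))
    (hO : ∀ c : O1, ∃ q : B[X], algebraMap O1 F1 c = aeval (algebraMap O1 F1 lam) q)
    (hF : ∀ z : F1, ∃ (q : B[X]) (b : B), b ≠ 0 ∧
      z * algebraMap B F1 b = aeval (algebraMap O1 F1 lam) q)
    (w z : B) (hw : Prime w) (hwp : Associated w (p : B))
    (hm : maximalIdeal B = Ideal.span {w, z})
    (V1 : Subring F1) (hV1 : IsBranch1 lam w V1)
    (f : F1) (hf : f ≠ 0) (hhor : HorVal lam p B f) (j : ℕ) (hj1 : 1 ≤ j) (hjp : j < p)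
    (hD1 : ∃ c : O1, c ≠ 0 ∧ Top.DepthIn V1 p lam j f c) :
    ∃ q : B[X], ∀ (c : O1) (g r : F1), c ≠ 0 → r ∈ V1 →
      f = algebraMap O1 F1 c * g ^ p * (1 + algebraMap O1 F1 lam ^ j * r) →
      ∃ κ : O1, Top.MemPi V1 lam (r - aeval (algebraMap O1 F1 lam) q + algebraMap O1 F1 κ) := by
  obtain ⟨q, rfl⟩ := Nat.exists_eq_add_one_of_ne_zero hp.ne_zero
  have hq : q ≠ 0 := by
    rintro rfl
    exact Nat.not_prime_one hp
  have hlam0 : lam ≠ 0 := hlam.ne_zero
  have hL0 : algebraMap O1 F1 lam ≠ 0 := (map_ne_zero_iff _ hO1).mpr hlam0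
  have hpl : lam ^ (q + 1 - 1) ∣ ((q + 1 : ℕ) : O1) := by
    rw [Nat.add_sub_cancel]
    exact pow_dvd_prime_of_one_add_pow q hp lam hlam.not_isUnit hlam0 hz
  -- `B` is factorial
  haveI : IsDomain (B ⧸ Ideal.span {w}) := isDomain_quot hw
  haveI : IsPrincipalIdealRing (B ⧸ Ideal.span {w}) := isPrincipalIdealRing_quot hw hm
  haveI : UniqueFactorizationMonoid B := quot_ufm hw.ne_zero
  obtain ⟨u, hu⟩ := hwp
  -- the Eisenstein polynomial of `lam` over `B`
  obtain ⟨τ, hτ⟩ : ∃ τ : B[X], τ = NodeCover.thetaPoly q (1 : B) := ⟨_, rfl⟩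
  have hτdeg : τ.natDegree < q := hτ ▸ NodeCover.thetaPoly_natDegree_lt hq 1
  have hτ0 : τ.eval 0 = 1 := hτ ▸ NodeCover.thetaPoly_eval_zero hq 1
  have hwc : ¬ w ∣ -(u : B) := fun h => hw.not_isUnit (isUnit_of_dvd_unit h u.isUnit.neg)
  have hEp : Prime (NodeNFEmb.eisPoly q (w * -(u : B)) τ) :=
    NodeNFEmb.eisPoly_prime hq hw hwc hτdeg (by rw [hτ0]; exact isUnit_one)
  have hEm := NodeNFEmb.eisPoly_monic (w * -(u : B)) hτdeg
  have hzF : (1 + algebraMap O1 F1 lam) ^ (q + 1) = 1 := by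
    have h1 := congrArg (algebraMap O1 F1) hz
    simpa only [map_pow, map_add, map_one] using h1
  have hLq := pow_eq_of_one_add_pow_eq_one q hp (algebraMap O1 F1 lam) hL0 hzF
  rw [← aeval_thetaPoly_one (B := B) q (algebraMap O1 F1 lam), ← hτ] at hLq
  have hE1 : aeval (algebraMap O1 F1 lam) (NodeNFEmb.eisPoly q (w * -(u : B)) τ) = 0 := by
    have hu' := congrArg (algebraMap B F1) hu
    rw [map_natCast] at hu'
    rw [NodeNFEmb.aeval_eisPoly, hLq, ← hu']
    simp only [map_mul, map_neg]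
    ring
  -- the tame cover `B[X] / (X ^ q + w u τ)`
  have hk : (C (u : B) * τ).natDegree < q := (natDegree_C_mul_le _ _).trans_lt hτdeg
  have hk0 : IsUnit ((C (u : B) * τ).eval 0) := by
    rw [eval_mul, eval_C, hτ0, mul_one]
    exact u.isUnit
  obtain ⟨hh, hhdef⟩ : ∃ hh : B[X], hh = X ^ q + C w * (C (u : B) * τ) := ⟨_, rfl⟩
  haveI hdomR : IsDomain (AdjoinRoot hh) := NodeCover.eis_isDomain hhdef hk hq hw hk0
  haveI hlocR : IsLocalRing (AdjoinRoot hh) := NodeCover.eis_isLocalRing hhdef hk hq hw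
  have hroot : Prime (AdjoinRoot.root hh) := NodeCover.eis_root_prime hhdef hk hq hw hk0
  have hass : Associated (AdjoinRoot.root hh ^ q) (AdjoinRoot.of hh w) :=
    NodeCover.eis_associated hhdef hk hw hk0
  have hBR : Function.Injective (algebraMap B (AdjoinRoot hh)) :=
    NodeCover.eis_of_injective hhdef hk hq
  have hrdvd : ∀ b : B, AdjoinRoot.root hh ∣ algebraMap B (AdjoinRoot hh) b → w ∣ b :=
    fun b hb => NodeCover.eis_dvd_of_root_dvd hhdef hq hb
  have hrootw : AdjoinRoot.root hh ∣ AdjoinRoot.of hh w := (dvd_pow_self _ hq).trans hass.dvd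
  have hmR : maximalIdeal (AdjoinRoot hh) =
      Ideal.span {AdjoinRoot.root hh, AdjoinRoot.of hh z} := by
    rw [NodeCover.eis_maximalIdeal hhdef hk hq hw, hm, Ideal.map_span, Set.image_pair]
    apply le_antisymm
    · refine sup_le (Ideal.span_le.mpr ?_)
        (Ideal.span_mono (Set.singleton_subset_iff.mpr (Set.mem_insert _ _)))
      rintro z' (rfl | rfl)
      · exact Ideal.span_mono (Set.singleton_subset_iff.mpr (Set.mem_insert _ _))
          (Ideal.mem_span_singleton.mpr hrootw)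
      · exact Ideal.subset_span (Set.mem_insert_of_mem _ (Set.mem_singleton _))
    · refine Ideal.span_le.mpr ?_
      rintro z' (rfl | rfl)
      · exact Ideal.mem_sup_right (Ideal.subset_span rfl)
      · exact Ideal.mem_sup_left (Ideal.subset_span (Set.mem_insert_of_mem _ (Set.mem_singleton _)))
  have hER : aeval (AdjoinRoot.root hh) (NodeNFEmb.eisPoly q (w * -(u : B)) τ) = 0 := by
    have h1 : aeval (AdjoinRoot.root hh) hh = 0 := by
      rw [AdjoinRoot.aeval_eq, AdjoinRoot.mk_self]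
    rw [← h1, hhdef, NodeNFEmb.eisPoly]
    congr 1
    rw [C_mul, C_neg]
    ring
  obtain ⟨g, ψ, hglam, hψO', hψB⟩ := exists_setup lam hB hO hF _ hEp hEm hE1 hBR
    (K := FractionRing (AdjoinRoot hh)) (AdjoinRoot.root hh) hER
  letI : Algebra O1 (AdjoinRoot hh) := g.toAlgebra
  have hψO : ∀ c : O1, ψ (algebraMap O1 F1 c) =
      algebraMap (AdjoinRoot hh) (FractionRing (AdjoinRoot hh))
        (algebraMap O1 (AdjoinRoot hh) c) := hψO'
  have hlamR : algebraMap O1 (AdjoinRoot hh) lam = AdjoinRoot.root hh := hglam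
  have hψf : ψ f ≠ 0 := (map_ne_zero ψ).mpr hf
  have hhor' : ∀ q' : AdjoinRoot hh, Prime q' → ¬ q' ∣ algebraMap O1 (AdjoinRoot hh) lam →
      ∃ (a b : AdjoinRoot hh) (h : FractionRing (AdjoinRoot hh)), ¬ q' ∣ a ∧ ¬ q' ∣ b ∧
        algebraMap (AdjoinRoot hh) (FractionRing (AdjoinRoot hh)) b * ψ f =
          algebraMap (AdjoinRoot hh) (FractionRing (AdjoinRoot hh)) a * h ^ (q + 1) :=
    hor_pullback ψ lam (algebraMap O1 (AdjoinRoot hh) lam) hψB (hψO lam) (q + 1) f hf hhor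
  obtain ⟨c1, hc1, g1, ρ1, hρ1, hf1⟩ := hD1
  obtain ⟨q1, b1, hxb1, e1⟩ := hV1.2.2.1 ρ1 hρ1
  obtain ⟨c₀, H, ρ₀, hc₀, hpt⟩ := HDCore.hd_smooth (q + 1) hp (q + 1) hp.two_le lam hlam hpl
    le_rfl hperf (AdjoinRoot.of hh z) (hlamR ▸ hroot) (hlamR ▸ hmR) (ψ f) hψf hhor' j hj1 hjp.le
    c1 hc1
    ⟨ψ g1, aeval (algebraMap O1 (AdjoinRoot hh) lam) q1, algebraMap B (AdjoinRoot hh) b1,
      fun h => hxb1 (hrdvd b1 (hlamR ▸ h)), gen_form ψ lam hψO hψB hf1 e1⟩
  obtain ⟨q₀, rfl⟩ := AdjoinRoot.mk_surjective ρ₀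
  have hproj : ∀ (b : B) (P : B[X]),
      AdjoinRoot.root hh ∣ AdjoinRoot.mk hh q₀ * algebraMap B (AdjoinRoot hh) b -
        aeval (algebraMap O1 (AdjoinRoot hh) lam) P →
      AdjoinRoot.root hh ∣ aeval (algebraMap O1 (AdjoinRoot hh) lam) (C b * q₀ - P) := by
    intro b P h
    have h1 : aeval (algebraMap O1 (AdjoinRoot hh) lam) (C b * q₀ - P) =
        AdjoinRoot.mk hh q₀ * algebraMap B (AdjoinRoot hh) b -
          aeval (algebraMap O1 (AdjoinRoot hh) lam) P := by
      rw [map_sub, map_mul, aeval_C, hlamR, AdjoinRoot.aeval_eq q₀]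
      ring
    rw [h1]
    exact h
  refine ⟨q₀, ?_⟩
  exact branch_reg ψ hψO hψB (q + 1) hp lam hlam hpl hperf hO (AdjoinRoot.root hh) 1 hroot
    (by rw [hlamR, mul_one]) hroot.not_dvd_one w hw hrdvd V1 hV1 f hf j hj1 hjp c₀ hc₀ H
    (AdjoinRoot.mk hh q₀) hpt q₀ hproj

end Main

end Fermat.Agent.S33.Geo.TameLocal
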