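import Mathlib
import Fermat.Agent.S33.Geo.TameTopCusp
import Fermat.Agent.S33.Geo.ZCuspPt
import Fermat.Agent.S33.Geo.ModelI

/-!
# S33 / GEO / rows Z1 + Z3c: constant ONE on every component of an ABSTRACT model

Level-free; fix-forward of `S33/Geo/TameTopCusp` (exit `tame_depth_one_cusp`).  Setting of
`TameModel` / `TameDepth` / `TameTop`: `D : Model.IsModel p ϖ V R On Hor` a model of `F` over
`O`, `O₁ = O[lam]`, `F₁ = F(lam)`; `σ` a `q`-expansion of `F` with coefficients in a field `K`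
over `O`, `σ₁` a `q`-expansion of `F₁` with coefficients in `K₁ = Frac O₁`, compatible with `σ`.

The model is only asked to cover the cusp of its coordinate `u` (`Model.CoversCusp ϖ u R`, the
second conjunct of the exit of row B3), with `u⁻¹` regular and vanishing at the cusp of `σ`:

* `exists_cusp_point` : then the model has a closed point `y` whose local ring `R y` lies in
  the cusp ring of `σ` (the point of `CoversCusp` at the maximal ideal `ZCusp.cuspIdeal`);
* `tame_depth_one_covers` : **constant `1` at depth `p` on every `V W[lam]`**, for `f ∈ F₁ˣ`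
  horizontal, of depth `≥ 1` along every `V W[lam]`, with leading coefficient `1` in `σ₁` - no
  hypothesis on the closed points of the model beyond `IsModel` and `CoversCusp` (no concrete
  set of points, no block at the cusp: `TameTopPt.not_nodeBlock_of_section`).
-/

set_option autoImplicit false
set_option linter.unusedSectionVars false
set_option linter.unusedVariables false

open Polynomial IsLocalRing

namespace Fermat.Agent.S33.Geo.TameTopCov

open Fermat.Agent.S33.Geo.Top Fermat.Agent.S33.Geo.Model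
open Fermat.Agent.S33.Geo.TameModel

universe u

/-- **The cusp point of a model covering the cusp.**  If `u⁻¹` is regular at the cusp of the
expansion `σ` and vanishes there, a model with `CoversCusp ϖ u R` has a closed point `y` whose
local ring `R y` lies in the cusp ring of `σ`. -/
theorem exists_cusp_point {O K : Type*} {F : Type u} [CommRing O] [IsLocalRing O] [Field K]
    [Algebra O K] [Field F] [Algebra O F] (σ : F →+* LaurentSeries K)
    (hσO : ∀ a : O, σ (algebraMap O F a) = HahnSeries.C (algebraMap O K a))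
    (hinj : Function.Injective (algebraMap O K))
    (hint : ∀ x : K, IsIntegral O x → x ∈ (algebraMap O K).range)
    (ϖ : O) (hϖ : ¬ IsUnit ϖ) (u : F) (hs : u⁻¹ ∈ ZCusp.cuspRing O σ)
    (hs0 : (σ u⁻¹).coeff 0 = 0)
    {Y : Type*} {R : Y → Subring F} (hcov : CoversCusp ϖ u R) :
    ∃ y : Y, ∀ a ∈ R y, a ∈ ZCusp.cuspRing O σ := by
  obtain ⟨y, hy⟩ := hcov.2 (ZCusp.cuspIdeal σ hσO hinj hint u⁻¹ hs)
    (ZCusp.cuspIdeal_isMaximal σ hσO hinj hint u⁻¹ hs)
    (ZCusp.unif_mem_cuspIdeal σ hσO hinj hint u⁻¹ hs ϖ hϖ _ rfl)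
    ⟨algebraMap (Algebra.adjoin O ({u⁻¹} : Set F))
        (integralClosure (Algebra.adjoin O ({u⁻¹} : Set F)) F)
        ⟨u⁻¹, Algebra.subset_adjoin (Set.mem_singleton _)⟩, rfl,
      ZCusp.coord_mem_cuspIdeal σ hσO hinj hint u⁻¹ hs hs0 _ rfl⟩
  refine ⟨y, fun a ha => ?_⟩
  rw [hy] at ha
  exact ZCusp.mem_cuspRing_of_frac σ hσO hinj hint u⁻¹ hs a ha

variable {O : Type*} [CommRing O] [IsDomain O] [IsDiscreteValuationRing O]
  {F : Type u} [Field F] [Algebra O F]
  {O₁ : Type*} [CommRing O₁] [IsDomain O₁] [IsDiscreteValuationRing O₁] [Algebra O O₁]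
  {F₁ : Type*} [Field F₁] [Algebra F F₁] [Algebra O₁ F₁]
  {p : ℕ} {ϖ : O} {lam : O₁}
  {ι Y : Type*} {V : ι → Subring F} {R : Y → Subring F} {On : Y → ι → Prop} {Hor : F → Prop}
  {K₁ : Type*} [Field K₁] [Algebra O₁ K₁] [IsFractionRing O₁ K₁]

/-- **Rows Z1 + Z3c, exit on an abstract model covering the cusp: constant ONE.**  `D` a model
of `F` over `O` covering the cusp of its coordinate `u` (`CoversCusp`), `σ` / `σ₁` compatible
`q`-expansions of `F` / `F₁ = F(lam)` with `u⁻¹` regular and vanishing at the cusp of `σ`.  If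
`f ∈ F₁ˣ` is horizontal (`TameModel.HorVal`), has depth `≥ 1` along every `V W[lam]` and
leading coefficient `1` in `σ₁`, then it has depth `≥ p` with the constant `1` along every
`V W[lam]`. -/
theorem tame_depth_one_covers (hp : p.Prime) (hϖ : Irreducible ϖ)
    (hϖp : Associated ϖ (p : O))
    (hperf : ∀ a : O, ∃ b : O, ϖ ∣ a - b ^ p)
    (hlam : Irreducible lam) (hζ : (1 + lam) ^ p = 1)
    (hO₁ : ∀ a : O₁, ∃ P : O[X], a = P.eval₂ (algebraMap O O₁) lam)
    (hcomm : ∀ c : O, algebraMap F F₁ (algebraMap O F c) = algebraMap O₁ F₁ (algebraMap O O₁ c))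
    (hinj₁ : Function.Injective (algebraMap O₁ F₁))
    (hgen : Algebra.adjoin F {algebraMap O₁ F₁ lam} = ⊤)
    (hmin : ∀ G : F[X], aeval (algebraMap O₁ F₁ lam) G = 0 →
      (psi p).map (algebraMap ℤ F) ∣ G)
    (D : IsModel p ϖ V R On Hor) (u : F) (hcov : CoversCusp ϖ u R)
    (f : F₁) (hf : f ≠ 0) (hHor : HorVal p lam f)
    (h1 : ∀ W, ∃ c : O₁, c ≠ 0 ∧ DepthIn (adj (algebraMap O₁ F₁ lam) (V W)) p lam 1 f c)
    (σ₁ : F₁ →+* LaurentSeries K₁)
    (hσO : ∀ a : O₁, σ₁ (algebraMap O₁ F₁ a) = HahnSeries.C (algebraMap O₁ K₁ a))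
    {K : Type*} [Field K] [Algebra O K] (σ : F →+* LaurentSeries K)
    (hσO₀ : ∀ a : O, σ (algebraMap O F a) = HahnSeries.C (algebraMap O K a))
    (hinjK : Function.Injective (algebraMap O K))
    (hint : ∀ x : K, IsIntegral O x → x ∈ (algebraMap O K).range)
    (hs : u⁻¹ ∈ ZCusp.cuspRing O σ) (hs0 : (σ u⁻¹).coeff 0 = 0)
    (φ : K →+* K₁)
    (hcoeff : ∀ (x : F) (n : ℤ), (σ₁ (algebraMap F F₁ x)).coeff n = φ ((σ x).coeff n))
    (hO : ∀ a : O, φ (algebraMap O K a) ∈ (algebraMap O₁ K₁).range)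
    (hlc : (σ₁ f).leadingCoeff = 1) :
    ∀ W, DepthIn (adj (algebraMap O₁ F₁ lam) (V W)) p lam p f 1 := by
  obtain ⟨y, hR⟩ := exists_cusp_point σ hσO₀ hinjK hint ϖ hϖ.not_isUnit u hs hs0 hcov
  exact TameTopCusp.tame_depth_one_cusp hp hϖ hϖp hperf hlam hζ hO₁ hcomm hinj₁ hgen hmin D f hf
    hHor h1 σ₁ hσO σ hσO₀ hinjK y hR
    (fun a ha => ZCuspPt.closure_le_cuspRing σ σ₁ hσO φ hcoeff hO lam (R y) hR a ha) hlc

end Fermat.Agent.S33.Geo.TameTopCov
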