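import Mathlib
import Fermat.Agent.S33.Geo.TameDepth

/-!
# S33 / GEO / Stage B, row Z (constants): the point form at a smooth point at the TOP depth `p`

Level-free (helper198); fix-forward of `S33/Geo/TameDepth` in its vocabulary (`TameModel.adj`,
`TopLocal.IsBranch`, `TameModel.HorVal`).  Setting of `TameDepth.reg_smooth_tame_at`: `O` a
discrete valuation ring with uniformiser `ϖ ∼ p`, `A` the presentation of a smooth point of the
fibre of the model over `O` (`ϖ` prime in `A`, `𝔪_A = (ϖ, z)`), `O₁ = O[lam]`, `(1 + lam) ^ p = 1`,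
`F₁ = F(lam)`.

* `form_smooth_at` : the abstract cover form (binders of `TameDepth.reg_smooth_at`, the cover `R`
  being generated by `lam` over `A`);
* `form_smooth_tame_top` : if `f ∈ F₁ˣ` with `HorVal p lam f` has depth `≥ p` with constant `c₁`
  along `V₁[lam]`, then it has a POINT form of depth `p`,
  `f = cy * h ^ p * (1 + lam ^ p * ρ)` with `ρ ∈ A[lam]`, and `ConstRel p lam p cy c₁`.

Proof: `HDLocal.hd_smooth` at `j = p` in `R = A[X] / (X ^ (p - 1) + p θ)` (`lam ^ (p - 1) ∣ p`),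
`HDCmp.branch_cmp_top` on the one branch, and `Frac R = φ(F₁)` because `R = A[lam]`.
-/

set_option autoImplicit false
set_option linter.unusedSectionVars false
set_option linter.unusedVariables false
set_option linter.style.haveILetI false

namespace Fermat.Agent.S33.Geo.TameTopSmooth

open Polynomial IsLocalRing
open Fermat.Agent.S33.Geo.Top Fermat.Agent.S33.Geo.TopLocal Fermat.Agent.S33.Geo.Model
open Fermat.Agent.S33.Geo.TameModel Fermat.Agent.S33.Geo.TameDepth

universe u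

/-! ### The abstract cover -/

section Cover

variable {O₁ : Type*} [CommRing O₁] [IsDomain O₁] [IsDiscreteValuationRing O₁]
  {R : Type*} [CommRing R] [IsDomain R] [IsLocalRing R] [IsNoetherianRing R] [Algebra O₁ R]
  {E : Type*} [Field E] [Algebra R E] [IsFractionRing R E] [Algebra O₁ E] [IsScalarTower O₁ R E]
  {F₁ : Type*} [Field F₁] [Algebra O₁ F₁]
  (φ : F₁ →+* E) (hφO : ∀ a : O₁, φ (algebraMap O₁ F₁ a) = algebraMap O₁ E a)

variable {A : Type*} [CommRing A] [IsDomain A] [Algebra A R]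
  {F : Type*} [Field F] [Algebra A F] [IsFractionRing A F] [Algebra F F₁]
  (hφA : ∀ a : A, φ (algebraMap F F₁ (algebraMap A F a)) = algebraMap R E (algebraMap A R a))

include hφO hφA in
/-- The value at `lam` of a polynomial over `A`, in `F₁` and in the cover. -/
theorem phi_eval₂ (lam : O₁) (P : A[X]) :
    φ (P.eval₂ ((algebraMap F F₁).comp (algebraMap A F)) (algebraMap O₁ F₁ lam)) =
      algebraMap R E (P.eval₂ (algebraMap A R) (algebraMap O₁ R lam)) := by
  rw [Polynomial.hom_eval₂, Polynomial.hom_eval₂, hφO, IsScalarTower.algebraMap_apply O₁ R E]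
  congr 1
  exact RingHom.ext fun a => hφA a

/-- The value at `lam` of a polynomial over `A` lies in `A[lam]`. -/
theorem eval₂_mem_adj (lam₁ : F₁) (P : A[X]) :
    P.eval₂ ((algebraMap F F₁).comp (algebraMap A F)) lam₁ ∈ adj lam₁ (algebraMap A F).range := by
  rw [eval₂_eq_sum_range]
  refine Subring.sum_mem _ fun i _ => Subring.mul_mem _ ?_
    (Subring.pow_mem _ (lam_mem_adj lam₁ _) i)
  exact algebraMap_mem_adj lam₁ _ (RingHom.mem_range_self _ _)

include hφO hφA in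
/-- **The point form at the top depth at a smooth point, in the cover.**  The cover `R` is
generated by `lam` over `A` (`hgenR`). -/
theorem form_smooth_at {p : ℕ} (hp : p.Prime)
    {lam : O₁} (hlam : Irreducible lam) (hlp : lam ∣ (p : O₁))
    (hlpp : lam ^ (p - 1) ∣ (p : O₁))
    (hperf₁ : ∀ a : O₁, ∃ b : O₁, lam ∣ a - b ^ p)
    {x : A} {V₁ : Subring F} (hV₁ : IsBranch x V₁)
    (z' : R) (hlamP : Prime (algebraMap O₁ R lam))
    (hmR : maximalIdeal R = Ideal.span {algebraMap O₁ R lam, z'})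
    (hdx : ∀ b : A, algebraMap O₁ R lam ∣ algebraMap A R b → x ∣ b)
    (hgenR : ∀ c : R, ∃ P : A[X], c = P.eval₂ (algebraMap A R) (algebraMap O₁ R lam))
    {f : F₁} (hf : f ≠ 0) (hHor : HorVal p lam f)
    (c₁ : O₁) (hc₁ : c₁ ≠ 0)
    (hD₁ : DepthIn (adj (algebraMap O₁ F₁ lam) V₁) p lam p f c₁) :
    ∃ cy : O₁, cy ≠ 0 ∧
      DepthIn (adj (algebraMap O₁ F₁ lam) (algebraMap A F).range) p lam p f cy ∧
      ConstRel p lam p cy c₁ := by
  have hinjRE := IsFractionRing.injective R E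
  have hφf : φ f ≠ 0 := (map_ne_zero φ).mpr hf
  have hbr₁ : HDCmp.DepthAt p lam p (algebraMap O₁ R lam) (φ f) c₁ :=
    depthAt_of_depthIn_cover φ hφO hlamP
      (fun y hy => map_adj_mem φ hφO hφA hV₁ hlamP hdx hy) hD₁
  obtain ⟨cy, h, rR, hcy, hh0, hpt⟩ := HDLocal.hd_smooth p hp lam hlam hlp hperf₁ p hp.one_le
    le_rfl hlpp (φ f) hφf (fun q hq hql => hhor_of_horVal φ hφO hf hHor q hq hql)
    z' hlamP hmR c₁ hc₁ hbr₁
  -- the constants
  obtain ⟨g, a₁, b₁, hb₁, hA⟩ := hbr₁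
  obtain ⟨e, d, d', hd, hd', hrel⟩ := HDCmp.branch_cmp_top p hp lam hlam hlp hperf₁ p hp.one_le
    le_rfl hlpp (algebraMap O₁ R lam) 1 hlamP hlamP.not_dvd_one (mul_one _).symm (φ f) hφf
    cy c₁ hcy hc₁ h g rR a₁ b₁ hb₁ hpt hA
  -- `Frac R = φ(F₁)`
  have hsurj : ∀ y : E, ∃ y' : F₁, φ y' = y := by
    intro y
    obtain ⟨a, b, -, rfl⟩ := IsFractionRing.div_surjective R y
    obtain ⟨Pa, rfl⟩ := hgenR a
    obtain ⟨Pb, rfl⟩ := hgenR b
    refine ⟨Pa.eval₂ ((algebraMap F F₁).comp (algebraMap A F)) (algebraMap O₁ F₁ lam) /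
      Pb.eval₂ ((algebraMap F F₁).comp (algebraMap A F)) (algebraMap O₁ F₁ lam), ?_⟩
    rw [map_div₀, phi_eval₂ φ hφO hφA, phi_eval₂ φ hφO hφA]
  obtain ⟨h', rfl⟩ := hsurj h
  obtain ⟨P, rfl⟩ := hgenR rR
  refine ⟨cy, hcy, ⟨h', P.eval₂ ((algebraMap F F₁).comp (algebraMap A F)) (algebraMap O₁ F₁ lam),
    eval₂_mem_adj _ P, ?_⟩, ⟨e, d, d', hd, hd', hrel⟩⟩
  apply φ.injective
  rw [hpt]
  simp only [map_mul, map_pow, map_add, map_one, hφO, phi_eval₂ φ hφO hφA,
    IsScalarTower.algebraMap_apply O₁ R E]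

end Cover

/-! ### The smooth block -/

section Blocks

variable {O : Type*} [CommRing O] [IsDomain O] [IsDiscreteValuationRing O]
  {A : Type u} [CommRing A] [IsDomain A] [IsLocalRing A] [IsNoetherianRing A] [Algebra O A]
  {F : Type*} [Field F] [Algebra A F] [IsFractionRing A F] [Algebra O F] [IsScalarTower O A F]
  {O₁ : Type*} [CommRing O₁] [IsDomain O₁] [IsDiscreteValuationRing O₁] [Algebra O O₁]
  {F₁ : Type*} [Field F₁] [Algebra F F₁] [Algebra O₁ F₁]

/-- **The point form at the top depth `p` over `O₁ = O[ζ_p]` at a smooth point of the fibre of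
the model over `O`**: depth `≥ p` with constant `c₁` along `V₁[lam]` gives
`f = cy * h ^ p * (1 + lam ^ p * ρ)` with `ρ ∈ A[lam]`, and the constants `cy`, `c₁` agree
modulo `p`-th powers and `1 + lam ^ p O₁`. -/
theorem form_smooth_tame_top {p : ℕ} (hp : p.Prime) {ϖ : O} (hϖp : Associated ϖ (p : O))
    {lam : O₁} (hlam : Irreducible lam) (hζ : (1 + lam) ^ p = 1)
    (hperf₁ : ∀ a : O₁, ∃ b : O₁, lam ∣ a - b ^ p)
    (hO₁ : ∀ a : O₁, ∃ P : O[X], a = P.eval₂ (algebraMap O O₁) lam)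
    (hcomm : ∀ c : O, algebraMap F F₁ (algebraMap O F c) = algebraMap O₁ F₁ (algebraMap O O₁ c))
    (hinj₁ : Function.Injective (algebraMap O₁ F₁))
    (hgen : Algebra.adjoin F {algebraMap O₁ F₁ lam} = ⊤)
    (hmin : ∀ G : F[X], aeval (algebraMap O₁ F₁ lam) G = 0 →
      (psi p).map (algebraMap ℤ F) ∣ G)
    (hϖA : Prime (algebraMap O A ϖ)) {z : A}
    (hm : maximalIdeal A = Ideal.span {algebraMap O A ϖ, z})
    {V₁ : Subring F} (hV₁ : IsBranch (algebraMap O A ϖ) V₁)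
    (hO₁V₁ : ∀ a : O₁, algebraMap O₁ F₁ a ∈ adj (algebraMap O₁ F₁ lam) V₁)
    {f : F₁} (hf : f ≠ 0) (hHor : HorVal p lam f)
    (c₁ : O₁) (hc₁ : c₁ ≠ 0)
    (hD₁ : DepthIn (adj (algebraMap O₁ F₁ lam) V₁) p lam p f c₁) :
    ∃ cy : O₁, cy ≠ 0 ∧
      DepthIn (adj (algebraMap O₁ F₁ lam) (algebraMap A F).range) p lam p f cy ∧
      ConstRel p lam p cy c₁ := by
  haveI : Fact p.Prime := ⟨hp⟩
  have hlp : lam ∣ (p : O₁) := dvd_p_of_root p hlam.ne_zero hζ
  have hlpp : lam ^ (p - 1) ∣ (p : O₁) := pow_pred_dvd_p p hlam.not_isUnit hlam.ne_zero hζ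
  obtain ⟨q, rfl⟩ : ∃ q, p = q + 1 := Nat.exists_eq_add_one_of_ne_zero hp.ne_zero
  have hq : q ≠ 0 := by
    rintro rfl
    exact Nat.not_prime_one hp
  obtain ⟨u₂, hu₂⟩ := hϖp
  have hpA : ((q + 1 : ℕ) : A) = algebraMap O A ϖ * algebraMap O A (u₂ : O) := by
    rw [← map_mul, hu₂, map_natCast]
  have hu₂A : IsUnit (algebraMap O A (u₂ : O)) := u₂.isUnit.map _
  have hπ : Prime ((q + 1 : ℕ) : A) := by
    rw [hpA]
    exact (associated_mul_unit_right _ _ hu₂A).prime hϖA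
  obtain ⟨h, hh⟩ : ∃ h : A[X], h = X ^ q + C ((q + 1 : ℕ) : A)
      * Fermat.Agent.S44.L.NodeCover.thetaPoly q (1 : A) := ⟨_, rfl⟩
  have hk := Fermat.Agent.S44.L.NodeCover.thetaPoly_natDegree_lt hq (1 : A)
  have hk0 : IsUnit ((Fermat.Agent.S44.L.NodeCover.thetaPoly q (1 : A)).eval 0) := by
    rw [Fermat.Agent.S44.L.NodeCover.thetaPoly_eval_zero hq]
    exact isUnit_one
  haveI hdom : IsDomain (AdjoinRoot h) :=
    Fermat.Agent.S44.L.NodeCover.eis_isDomain hh hk hq hπ hk0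
  haveI hloc : IsLocalRing (AdjoinRoot h) :=
    Fermat.Agent.S44.L.NodeCover.eis_isLocalRing hh hk hq hπ
  have hinjAR : Function.Injective (algebraMap A (AdjoinRoot h)) :=
    Fermat.Agent.S44.L.NodeCover.eis_of_injective hh hk hq
  have hroot : Prime (AdjoinRoot.root h) :=
    Fermat.Agent.S44.L.NodeCover.eis_root_prime hh hk hq hπ hk0
  have hrootdvd : AdjoinRoot.root h ∣ AdjoinRoot.of h ((q + 1 : ℕ) : A) :=
    Fermat.Agent.S44.L.NodeCover.eis_root_dvd_of hh hk hq hπ hk0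
  have hdvd : ∀ b : A, AdjoinRoot.root h ∣ AdjoinRoot.of h b → ((q + 1 : ℕ) : A) ∣ b :=
    fun b hb => Fermat.Agent.S44.L.NodeCover.eis_dvd_of_root_dvd hh hq hb
  have hmax := Fermat.Agent.S44.L.NodeCover.eis_maximalIdeal hh hk hq hπ
  have hζR : (1 + AdjoinRoot.root h) ^ (q + 1) = 1 := by
    refine Fermat.Agent.S44.L.NodeCover.one_add_pow_eq_one q hp _ ?_
    have hpow := Fermat.Agent.S44.L.NodeCover.eis_root_pow hh
    rw [pow_succ, hpow, Fermat.Agent.S44.L.NodeCover.mk_thetaPoly, map_natCast]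
    simp only [map_one, mul_one]
    ring
  obtain ⟨φ, ψ, hφA, hφψ, hψlam⟩ := exists_embed (A := A) (F := F) (R := AdjoinRoot h) (q + 1)
    hlam.ne_zero hζ hO₁ hcomm hinj₁ hgen hmin hinjAR hroot.ne_zero hζR
  letI : Algebra O₁ (AdjoinRoot h) := ψ.toAlgebra
  have hφO : ∀ a : O₁, φ (algebraMap O₁ F₁ a)
      = algebraMap O₁ (FractionRing (AdjoinRoot h)) a :=
    fun a => (hφψ a).trans
      (IsScalarTower.algebraMap_apply O₁ (AdjoinRoot h) (FractionRing (AdjoinRoot h)) a).symm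
  have hlamR : algebraMap O₁ (AdjoinRoot h) lam = AdjoinRoot.root h := hψlam
  have hϖroot : AdjoinRoot.root h ∣ AdjoinRoot.of h (algebraMap O A ϖ) := by
    rw [hpA, map_mul] at hrootdvd
    exact (IsUnit.dvd_mul_right (hu₂A.map (AdjoinRoot.of h))).mp hrootdvd
  have hmR : maximalIdeal (AdjoinRoot h)
      = Ideal.span {algebraMap O₁ (AdjoinRoot h) lam, AdjoinRoot.of h z} := by
    rw [hmax, hm, Ideal.map_span, Set.image_pair, hlamR]
    apply le_antisymm
    · refine sup_le (Ideal.span_le.mpr ?_) (Ideal.span_mono (by simp))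
      rintro w (rfl | rfl)
      · exact Ideal.span_mono (by simp) (Ideal.mem_span_singleton.mpr hϖroot)
      · exact Ideal.subset_span (by simp)
    · refine Ideal.span_le.mpr ?_
      rintro w (rfl | rfl)
      · exact Ideal.mem_sup_right (Ideal.subset_span rfl)
      · exact Ideal.mem_sup_left (Ideal.subset_span (by simp))
  have hdx : ∀ b : A, algebraMap O₁ (AdjoinRoot h) lam ∣ algebraMap A (AdjoinRoot h) b →
      algebraMap O A ϖ ∣ b := by
    intro b hb
    rw [hlamR, AdjoinRoot.algebraMap_eq] at hb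
    exact (Dvd.intro _ hpA.symm).trans (hdvd b hb)
  have hgenR : ∀ c : AdjoinRoot h, ∃ P : A[X],
      c = P.eval₂ (algebraMap A (AdjoinRoot h)) (algebraMap O₁ (AdjoinRoot h) lam) := by
    intro c
    obtain ⟨P, rfl⟩ := AdjoinRoot.mk_surjective c
    refine ⟨P, ?_⟩
    rw [hlamR, ← AdjoinRoot.aeval_eq P, aeval_def]
  exact form_smooth_at φ hφO hφA hp hlam hlp hlpp hperf₁ hV₁ (AdjoinRoot.of h z)
    (hlamR ▸ hroot) hmR hdx hgenR hf hHor c₁ hc₁ hD₁

end Blocks

end Fermat.Agent.S33.Geo.TameTopSmooth
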