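import Mathlib
import Fermat.Agent.S33.Geo.Top
import Fermat.Agent.S44.L.NodeCover
import Fermat.Agent.S44.L.NodeNFEmb
import Fermat.Agent.S44.L.LocalPrincipal
import Fermat.Agent.S44.L.Node

/-!
# S33 / GEO / row Z3c (spare): the constants at a thick node over `O1 = O[ζ_p]`, depth `p`

Level-free (Mathlib + `S33/Geo/Top` + `S44/L/{NodeCover, NodeNFEmb, LocalPrincipal, Node}`);
self-contained twin, in the binder block `(O1, B, F1)` of the statement `TameLocal`, of the node
comparison of constants in the vocabulary of `S33/Geo/TameModel`.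

`O1` a discrete valuation ring with uniformiser `lam`, `(1 + lam) ^ p = 1` (`lam = ζ_p - 1`);
`B` the local ring of the model over the unramified base at a closed point which is a regular
node `𝔪_B = (x, y)`, `x y ∼ p`; `F1` the function field over `O1`, generated by `B` and
`L = lam` (`hO`, `hF`).  The node of the model over `O1` is a thick node (`x y ∼ lam ^ (p - 1)`).

* `thick_node_constRel` : if `f ≠ 0` is horizontal at the point (valuation form: a unit times a
  `p`-th power in every valuation ring of `F1` containing `B` in which `L` is a unit) and has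
  depth `p` with the constants `c₁`, `c₂` on the two branches through the node, then
  `c₁ d ^ p = c₂ e ^ p (1 + lam ^ p a)` in `O1` (`Top.ConstRel p lam p c₂ c₁`).

  Proof: the regular cover `R ⊇ B` of `NodeCover.exists_node_cover` (`𝔪_R = (s, t)`,
  `(1 + s t) ^ p = 1`), the embedding `B[L] → R`, `L ↦ s t`
  (`NodeNFEmb.exists_algHom_of_eisenstein`), extended to `F1 → Frac R`, and
  `Node.node_lemma` at `(O1, lam)`.  No descent from `R` is needed, since only constants of `O1`
  are compared.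
* `exists_thick_cover` : the cover with its transport data, for reuse; `hhor_of_horVal`,
  `hbr_of_depthIn` : the transport of the horizontal and of the branch hypotheses.
* `pow_pred_dvd_prime` : `lam ^ (p - 1) ∣ p`.
* `constRel_one_of_eq_pow`, `depth_const_one` : a constant `c = d ^ p (1 + lam ^ n e)` is
  related to `1`, and related constants can be exchanged in the generic forms
  (`Top.DepthIn.of_constRel`).
-/

set_option autoImplicit false
set_option linter.unusedSectionVars false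
set_option linter.unusedVariables false
set_option linter.style.haveILetI false

open Polynomial IsLocalRing

namespace Fermat.Agent.S33.Geo.ThickNode

open Fermat.Agent.S33.Geo.Top
open Fermat.Agent.S44.L

universe u

/-! ### The equation of `ζ_p - 1` -/

section Identity

variable {A : Type*} [CommRing A]

/-- `(1 + a) ^ p = 1 + a (a ^ (p - 1) + p θ(a))`, `θ(Y) = ∑_{j<p-1} (C(p,j+1)/p) Y^j`. -/
theorem one_add_pow_eq (q : ℕ) (hp : (q + 1).Prime) (a : A) :
    (1 + a) ^ (q + 1) = 1 + a * (a ^ q + ((q + 1 : ℕ) : A) *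
      ∑ j ∈ Finset.range q, (((q + 1).choose (j + 1) / (q + 1) : ℕ) : A) * a ^ j) := by
  have hsum : ∑ j ∈ Finset.range q, a ^ (j + 1) * (((q + 1).choose (j + 1) : ℕ) : A)
      = ((q + 1 : ℕ) : A) * a *
        ∑ j ∈ Finset.range q, (((q + 1).choose (j + 1) / (q + 1) : ℕ) : A) * a ^ j := by
    rw [Finset.mul_sum]
    refine Finset.sum_congr rfl fun j hj => ?_
    have hj' : j < q := Finset.mem_range.mp hj
    have hdiv : (q + 1) * ((q + 1).choose (j + 1) / (q + 1)) = (q + 1).choose (j + 1) :=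
      Nat.mul_div_cancel' (hp.dvd_choose_self (Nat.succ_ne_zero j) (by omega))
    have hcast : (((q + 1).choose (j + 1) : ℕ) : A)
        = ((q + 1 : ℕ) : A) * (((q + 1).choose (j + 1) / (q + 1) : ℕ) : A) := by
      rw [← Nat.cast_mul, hdiv]
    rw [hcast]
    ring
  rw [add_comm, add_pow, Finset.sum_range_succ, Finset.sum_range_succ']
  simp only [one_pow, mul_one, pow_zero, Nat.choose_zero_right, Nat.choose_self, Nat.cast_one]
  rw [hsum]
  ring

/-- In a domain, a nonzero `a` with `(1 + a) ^ p = 1` satisfies `a ^ (p - 1) = - p θ(a)`. -/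
theorem pow_eq_of_one_add_pow_eq_one [IsDomain A] (q : ℕ) (hp : (q + 1).Prime) {a : A}
    (ha : a ≠ 0) (h : (1 + a) ^ (q + 1) = 1) :
    a ^ q = -(((q + 1 : ℕ) : A) *
      ∑ j ∈ Finset.range q, (((q + 1).choose (j + 1) / (q + 1) : ℕ) : A) * a ^ j) := by
  have h1 := one_add_pow_eq q hp a
  rw [h] at h1
  have h2 : a * (a ^ q + ((q + 1 : ℕ) : A) *
      ∑ j ∈ Finset.range q, (((q + 1).choose (j + 1) / (q + 1) : ℕ) : A) * a ^ j) = 0 := by
    linear_combination -h1
  rcases mul_eq_zero.mp h2 with h3 | h3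
  · exact absurd h3 ha
  · linear_combination h3

/-- `θ(a) = 1 + a w`. -/
theorem exists_theta_eq_one_add {q : ℕ} (hq : q ≠ 0) (a : A) :
    ∃ w : A, ∑ j ∈ Finset.range q, (((q + 1).choose (j + 1) / (q + 1) : ℕ) : A) * a ^ j
      = 1 + a * w := by
  obtain ⟨q', rfl⟩ := Nat.exists_eq_add_one_of_ne_zero hq
  refine ⟨∑ j ∈ Finset.range q',
    (((q' + 1 + 1).choose (j + 1 + 1) / (q' + 1 + 1) : ℕ) : A) * a ^ j, ?_⟩
  rw [Finset.sum_range_succ', Finset.mul_sum, pow_zero, mul_one, Nat.choose_one_right,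
    Nat.div_self (Nat.succ_pos _), Nat.cast_one, add_comm]
  congr 1
  exact Finset.sum_congr rfl fun j _ => by ring

/-- The value of `NodeCover.thetaPoly q 1`. -/
theorem aeval_thetaPoly_one {B : Type*} [CommRing B] [Algebra B A] (q : ℕ) (a : A) :
    aeval a (NodeCover.thetaPoly q (1 : B))
      = ∑ j ∈ Finset.range q, (((q + 1).choose (j + 1) / (q + 1) : ℕ) : A) * a ^ j := by
  rw [NodeCover.thetaPoly, map_sum]
  refine Finset.sum_congr rfl fun j _ => ?_
  rw [one_pow, mul_one, map_mul, map_pow, aeval_X, aeval_C, map_natCast]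

/-- The Eisenstein equation of a nonzero `a` with `(1 + a) ^ p = 1` over a ring `B` in which
`c = p`: `a ^ (p - 1) = c * (-θ)(a)`. -/
theorem root_relation {B : Type*} [CommRing B] [IsDomain A] [Algebra B A] (q : ℕ)
    (hp : (q + 1).Prime) {c : B} (hc : c = ((q + 1 : ℕ) : B)) {a : A} (ha : a ≠ 0)
    (h : (1 + a) ^ (q + 1) = 1) :
    a ^ q = algebraMap B A c * aeval a (-NodeCover.thetaPoly q (1 : B)) := by
  rw [hc, map_natCast, map_neg, aeval_thetaPoly_one, pow_eq_of_one_add_pow_eq_one q hp ha h]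
  ring

/-- `lam ^ (p - 1) ∣ p` in a local domain in which `lam` is a nonzero non-unit with
`(1 + lam) ^ p = 1`. -/
theorem pow_pred_dvd_prime [IsDomain A] [IsLocalRing A] (p : ℕ) (hp : p.Prime) {lam : A}
    (hlam0 : lam ≠ 0) (hlam : ¬ IsUnit lam) (hz : (1 + lam) ^ p = 1) :
    lam ^ (p - 1) ∣ (p : A) := by
  obtain ⟨q, rfl⟩ := Nat.exists_eq_add_one_of_ne_zero hp.ne_zero
  have hq : q ≠ 0 := by
    rintro rfl
    exact Nat.not_prime_one hp
  rw [Nat.add_sub_cancel]
  have h1 := pow_eq_of_one_add_pow_eq_one q hp hlam0 hz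
  obtain ⟨w, hw⟩ := exists_theta_eq_one_add (A := A) hq lam
  rw [hw] at h1
  have hu : IsUnit (1 + lam * w) := by
    rcases IsLocalRing.isUnit_or_isUnit_of_add_one
      (show (1 + lam * w) + (-(lam * w)) = 1 by ring) with h | h
    · exact h
    · exact absurd (isUnit_of_mul_isUnit_left ((IsUnit.neg_iff _).mp h)) hlam
  obtain ⟨v, hv⟩ := hu.exists_right_inv
  exact ⟨-v, by linear_combination v * h1 - ((q + 1 : ℕ) : A) * hv⟩

end Identity

/-! ### Transport along a map of function fields -/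

section Transfer

variable {O1 : Type*} [CommRing O1] {B : Type*} [CommRing B]
  {F1 : Type*} [Field F1] [Algebra O1 F1] [Algebra B F1]
  {R : Type*} [CommRing R] [IsDomain R] [Algebra O1 R] [Algebra B R]
  {K : Type*} [Field K] [Algebra R K] [IsFractionRing R K]

/-- Polynomial expressions in `L = lam` over `B` are transported by `ι`. -/
theorem map_aeval_lam (ι : F1 →+* K) (lam : O1)
    (hιO : ∀ c : O1, ι (algebraMap O1 F1 c) = algebraMap R K (algebraMap O1 R c))
    (hιB : ∀ b : B, ι (algebraMap B F1 b) = algebraMap R K (algebraMap B R b)) (q : B[X]) :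
    ι (aeval (algebraMap O1 F1 lam) q) = algebraMap R K (aeval (algebraMap O1 R lam) q) := by
  induction q using Polynomial.induction_on' with
  | add q₁ q₂ h₁ h₂ => simp only [map_add, h₁, h₂]
  | monomial n b => simp only [aeval_monomial, map_mul, map_pow, hιB, hιO]

/-- **Branch transport.**  A generic form of depth `j` along a branch ring `V ⊆ B_(x)[L]` gives
the branch hypothesis of the node lemma at a prime `s` of `R` lying over `x`. -/
theorem hbr_of_depthIn (ι : F1 →+* K) (lam : O1)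
    (hιO : ∀ c : O1, ι (algebraMap O1 F1 c) = algebraMap R K (algebraMap O1 R c))
    (hιB : ∀ b : B, ι (algebraMap B F1 b) = algebraMap R K (algebraMap B R b))
    {p j : ℕ} {x : B} {s : R} (hs : ∀ b : B, s ∣ algebraMap B R b → x ∣ b) {V : Subring F1}
    (hQ : ∀ z ∈ V, ∃ (q : B[X]) (b : B), ¬ x ∣ b ∧
      z * algebraMap B F1 b = aeval (algebraMap O1 F1 lam) q)
    {f : F1} {c : O1} (h : DepthIn V p lam j f c) :
    ∃ (g : K) (a b : R), ¬ s ∣ b ∧ algebraMap R K b * ι f =
      algebraMap R K (algebraMap O1 R c) * g ^ p *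
        algebraMap R K (b + algebraMap O1 R lam ^ j * a) := by
  obtain ⟨g, r, hr, hf⟩ := h
  obtain ⟨q, b, hb, e⟩ := hQ r hr
  refine ⟨ι g, aeval (algebraMap O1 R lam) q, algebraMap B R b, fun hd => hb (hs b hd), ?_⟩
  have e' := congrArg ι e
  rw [map_mul, hιB, map_aeval_lam ι lam hιO hιB] at e'
  rw [hf]
  simp only [map_mul, map_pow, map_add, map_one, hιO]
  linear_combination (algebraMap R K (algebraMap O1 R c) * ι g ^ p *
    algebraMap R K (algebraMap O1 R lam) ^ j) * e'

/-- **Horizontal transport.**  The valuation form of horizontality on `F1` (at the valuation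
rings containing `B` in which `L` is a unit) gives the horizontal hypothesis of the node lemma
on a factorial `R`. -/
theorem hhor_of_horVal [UniqueFactorizationMonoid R] (ι : F1 →+* K) (lam : O1)
    (hιO : ∀ c : O1, ι (algebraMap O1 F1 c) = algebraMap R K (algebraMap O1 R c))
    (hιB : ∀ b : B, ι (algebraMap B F1 b) = algebraMap R K (algebraMap B R b))
    {p : ℕ} {f : F1} (hf : f ≠ 0)
    (hhor : ∀ 𝒪 : ValuationSubring F1, (∀ b : B, algebraMap B F1 b ∈ 𝒪) →
      (algebraMap O1 F1 lam)⁻¹ ∈ 𝒪 → ∃ u h : F1, u ∈ 𝒪 ∧ u⁻¹ ∈ 𝒪 ∧ f = u * h ^ p) :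
    ∀ q : R, Prime q → ¬ q ∣ algebraMap O1 R lam →
      ∃ (a b : R) (h : K), ¬ q ∣ a ∧ ¬ q ∣ b ∧
        algebraMap R K b * ι f = algebraMap R K a * h ^ p := by
  intro q hq hqlam
  obtain ⟨u, h, hu, hu', hfe⟩ := hhor ((LocalPrincipal.primeValuationSubring K q hq).comap ι)
    (fun b => by
      rw [ValuationSubring.mem_comap, hιB]
      exact LocalPrincipal.algebraMap_mem_primeValuationSubring q hq _)
    (by
      rw [ValuationSubring.mem_comap, map_inv₀, hιO]
      exact LocalPrincipal.inv_algebraMap_mem_primeValuationSubring q hq hqlam)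
  rw [ValuationSubring.mem_comap] at hu hu'
  have hu0 : u ≠ 0 := by
    rintro rfl
    exact hf (by rw [hfe, zero_mul])
  have hιu0 : ι u ≠ 0 := (map_ne_zero ι).mpr hu0
  obtain ⟨n, a, b, ha, hb, e⟩ := LocalPrincipal.exists_eq_zpow_mul_div q hq hιu0
  have hinj := IsFractionRing.injective R K
  have haK : algebraMap R K a ≠ 0 := (map_ne_zero_iff _ hinj).mpr fun h0 => ha (h0 ▸ dvd_zero q)
  have hbK : algebraMap R K b ≠ 0 := (map_ne_zero_iff _ hinj).mpr fun h0 => hb (h0 ▸ dvd_zero q)
  have hn1 : 0 ≤ n := by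
    rw [e] at hu
    exact (LocalPrincipal.zpow_mul_div_mem_primeValuationSubring_iff q hq ha hb).mp hu
  have hn2 : 0 ≤ -n := by
    rw [map_inv₀, e] at hu'
    have hinv : (algebraMap R K q ^ n * (algebraMap R K a / algebraMap R K b))⁻¹
        = algebraMap R K q ^ (-n) * (algebraMap R K b / algebraMap R K a) := by
      rw [mul_inv, zpow_neg, inv_div]
    rw [hinv] at hu'
    exact (LocalPrincipal.zpow_mul_div_mem_primeValuationSubring_iff q hq hb ha).mp hu'
  have hn : n = 0 := by omega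
  rw [hn, zpow_zero, one_mul] at e
  refine ⟨a, b, ι h, ha, hb, ?_⟩
  rw [hfe, map_mul, map_pow, e]
  field_simp

end Transfer

/-! ### The regular cover of a thick node, with its transport data -/

section Cover

variable {O1 : Type*} [CommRing O1] [IsDomain O1]
  {B : Type u} [CommRing B] [IsDomain B] [IsLocalRing B] [IsNoetherianRing B]
  {F1 : Type*} [Field F1] [Algebra O1 F1] [Algebra B F1]

/-- **The regular cover of a thick node.**  `B` a noetherian local domain with `𝔪_B = (x, y)`,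
`x`, `y` non-associated primes, `x y ∼ p`; `F1` a field generated by `B` and `L = lam`
(`hF`), `lam ≠ 0`, `(1 + lam) ^ p = 1`, `O1 ⊆ B[L]` (`hO`).  Then there are a noetherian local
domain `R` with `𝔪_R = (s, t)`, `s`, `t` non-associated primes, which is an `O1`-algebra with
`lam ↦ s t` and a `B`-algebra, and a ring homomorphism `ι : F1 → Frac R` compatible with both
structures, such that `s` lies over `x` and `t` lies over `y`. -/
theorem exists_thick_cover (p : ℕ) (hp : p.Prime) (lam : O1) (hlam0 : lam ≠ 0)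
    (hz : (1 + lam) ^ p = 1)
    (hO1 : Function.Injective (algebraMap O1 F1)) (hB : Function.Injective (algebraMap B F1))
    (hO : ∀ c : O1, ∃ q : B[X], algebraMap O1 F1 c = aeval (algebraMap O1 F1 lam) q)
    (hF : ∀ z : F1, ∃ (q : B[X]) (b : B), b ≠ 0 ∧
      z * algebraMap B F1 b = aeval (algebraMap O1 F1 lam) q)
    (x y : B) (hx : Prime x) (hy : Prime y) (hne : ¬ Associated x y)
    (hm : maximalIdeal B = Ideal.span {x, y}) (hxy : Associated (x * y) (p : B)) :
    ∃ (R : Type u) (_ : CommRing R) (_ : IsDomain R) (_ : IsLocalRing R) (_ : IsNoetherianRing R)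
      (_ : Algebra O1 R) (_ : Algebra B R) (s t : R) (ι : F1 →+* FractionRing R),
      Prime s ∧ Prime t ∧ ¬ Associated s t ∧ maximalIdeal R = Ideal.span {s, t} ∧
      algebraMap O1 R lam = s * t ∧
      (∀ c : O1, ι (algebraMap O1 F1 c) = algebraMap R (FractionRing R) (algebraMap O1 R c)) ∧
      (∀ b : B, ι (algebraMap B F1 b) = algebraMap R (FractionRing R) (algebraMap B R b)) ∧
      (∀ b : B, s ∣ algebraMap B R b → x ∣ b) ∧ (∀ b : B, t ∣ algebraMap B R b → y ∣ b) := by
  classical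
  obtain ⟨q, rfl⟩ := Nat.exists_eq_add_one_of_ne_zero hp.ne_zero
  have hq : q ≠ 0 := by
    rintro rfl
    exact Nat.not_prime_one hp
  -- normalisation `x' y = p`
  obtain ⟨u, hu⟩ := hxy
  obtain ⟨x', hx'⟩ : ∃ x' : B, x' = x * u := ⟨_, rfl⟩
  have hass : Associated x x' := ⟨u, hx'.symm⟩
  have hx'p : Prime x' := hass.prime hx
  have hne' : ¬ Associated x' y := fun h => hne (hass.trans h)
  have hm' : maximalIdeal B = Ideal.span {x', y} := by
    rw [hm, Ideal.span_insert, Ideal.span_insert x', hx',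
      Ideal.span_singleton_mul_right_unit u.isUnit]
  have hxy' : x' * y = ((q + 1 : ℕ) : B) := by
    rw [← hu, hx']
    ring
  have hdvd : ∀ b : B, x' ∣ b → x ∣ b := fun b h => (hx' ▸ Dvd.intro _ rfl : x ∣ x').trans h
  have hc : ¬ x' ∣ y := fun hd => hne' (hx'p.associated_of_dvd hy hd)
  -- the cover
  obtain ⟨R, iR, iDom, iLoc, iNoeth, iAlg, s, t, hBR, -, hs, ht, hst, hmR, hone, -, -, hsx,
    hty⟩ := NodeCover.exists_node_cover (q + 1) hp x' y hx'p hy hne' hm' hxy'
  -- `B` is factorial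
  haveI : IsDomain (B ⧸ Ideal.span {x}) := Node.isDomain_quot hx
  haveI : IsPrincipalIdealRing (B ⧸ Ideal.span {x}) := Node.isPrincipalIdealRing_quot hx hm
  haveI : UniqueFactorizationMonoid B := LocalPrincipal.quot_ufm hx.ne_zero
  -- the subalgebra `B[L]` of `F1`
  obtain ⟨L, hL⟩ : ∃ L : F1, L = algebraMap O1 F1 lam := ⟨_, rfl⟩
  rw [← hL] at hO hF
  have hL0 : L ≠ 0 := hL ▸ (map_ne_zero_iff _ hO1).mpr hlam0
  have hLz : (1 + L) ^ (q + 1) = 1 := by
    rw [hL, ← map_one (algebraMap O1 F1), ← map_add, ← map_pow, hz]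
  obtain ⟨A1, hA1⟩ : ∃ A1 : Subalgebra B F1, A1 = Algebra.adjoin B {L} := ⟨_, rfl⟩
  have hLmem : L ∈ A1 := hA1 ▸ Algebra.subset_adjoin (Set.mem_singleton L)
  have hqmem : ∀ q' : B[X], aeval L q' ∈ A1 := fun q' =>
    hA1 ▸ Polynomial.aeval_mem_adjoin_singleton B L
  have hBA : Function.Injective (algebraMap B A1) := fun a b h => hB (congrArg Subtype.val h)
  have hκ : (-NodeCover.thetaPoly q (1 : B)).natDegree < q := by
    rw [natDegree_neg]
    exact NodeCover.thetaPoly_natDegree_lt hq 1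
  have hκ0 : IsUnit ((-NodeCover.thetaPoly q (1 : B)).eval 0) := by
    rw [eval_neg, NodeCover.thetaPoly_eval_zero hq]
    exact isUnit_one.neg
  have hπ0 : (⟨L, hLmem⟩ : A1) ≠ 0 := fun h0 => hL0 (congrArg Subtype.val h0)
  have hπz : (1 + (⟨L, hLmem⟩ : A1)) ^ (q + 1) = 1 := Subtype.ext hLz
  have hπ : (⟨L, hLmem⟩ : A1) ^ q = algebraMap B A1 (x' * y) *
      aeval (⟨L, hLmem⟩ : A1) (-NodeCover.thetaPoly q (1 : B)) :=
    root_relation q hp hxy' hπ0 hπz
  have hgen : Algebra.adjoin B {(⟨L, hLmem⟩ : A1)} = ⊤ := by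
    have h1 := Algebra.adjoin_adjoin_coe_preimage (R := B) (s := ({L} : Set F1))
    subst hA1
    convert h1 using 2
    ext z
    simp only [Set.mem_singleton_iff, Set.mem_preimage, Subtype.ext_iff]
  have hϱ0 : s * t ≠ 0 := mul_ne_zero hs.ne_zero ht.ne_zero
  have hϱ : (s * t) ^ q = algebraMap B R (x' * y) *
      aeval (s * t) (-NodeCover.thetaPoly q (1 : B)) :=
    root_relation q hp hxy' hϱ0 hone
  obtain ⟨j, hjinj, hjπ⟩ := NodeNFEmb.exists_algHom_of_eisenstein hq hx'p hc hκ hκ0 hBA hπ hgen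
    hBR hϱ
  -- the `O1`-algebra structure of `R`
  have hOmem : ∀ c : O1, algebraMap O1 F1 c ∈ A1 := fun c => by
    obtain ⟨q', hq'⟩ := hO c
    rw [hq']
    exact hqmem q'
  obtain ⟨φ, hφ⟩ : ∃ φ : O1 →+* R, ∀ c : O1, φ c = j ⟨algebraMap O1 F1 c, hOmem c⟩ :=
    ⟨(j : A1 →+* R).comp ((algebraMap O1 F1).codRestrict A1 hOmem), fun c => rfl⟩
  letI : Algebra O1 R := φ.toAlgebra
  have halg : ∀ c : O1, algebraMap O1 R c = j ⟨algebraMap O1 F1 c, hOmem c⟩ := hφ
  -- the map of fraction fields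
  haveI : IsFractionRing A1 F1 :=
    { map_units := fun z => IsUnit.mk0 _ fun h0 =>
        nonZeroDivisors.ne_zero z.2 (Subtype.ext h0)
      surj := fun z => by
        obtain ⟨q', b, hb, e⟩ := hF z
        exact ⟨⟨⟨aeval L q', hqmem q'⟩, ⟨algebraMap B A1 b, mem_nonZeroDivisors_of_ne_zero
          fun h0 => hb (hBA (h0.trans (map_zero _).symm))⟩⟩, e⟩
      exists_of_eq := fun {a b} h => ⟨1, by rw [Subtype.ext h]⟩ }
  have hg : Function.Injective ((algebraMap R (FractionRing R)).comp (j : A1 →+* R)) :=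
    (IsFractionRing.injective R (FractionRing R)).comp hjinj
  have hιA : ∀ a : A1, IsFractionRing.lift hg (a : F1) = algebraMap R (FractionRing R) (j a) :=
    fun a => IsFractionRing.lift_algebraMap hg a
  refine ⟨R, iR, iDom, iLoc, iNoeth, φ.toAlgebra, iAlg, s, t, IsFractionRing.lift hg, hs, ht,
    hst, hmR, ?_, fun c => ?_, fun b => ?_, fun b h => hdvd b (hsx b h), hty⟩
  · rw [halg]
    have h2 : (⟨algebraMap O1 F1 lam, hOmem lam⟩ : A1) = ⟨L, hLmem⟩ := Subtype.ext hL.symm
    rw [h2, hjπ]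
  · rw [halg]
    exact hιA ⟨algebraMap O1 F1 c, hOmem c⟩
  · rw [← j.commutes b]
    exact hιA (algebraMap B A1 b)

end Cover

/-! ### The constants of the two branches through a thick node -/

section Main

variable {O1 : Type*} [CommRing O1] [IsDomain O1] [IsDiscreteValuationRing O1]
  {B : Type u} [CommRing B] [IsDomain B] [IsLocalRing B] [IsNoetherianRing B]
  {F1 : Type*} [Field F1] [Algebra O1 F1] [Algebra B F1]

/-- **The constants at a thick node, depth `p`.**  `O1` a discrete valuation ring with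
uniformiser `lam`, `(1 + lam) ^ p = 1`, perfect residue field; `B` a noetherian local domain
with `𝔪_B = (x, y)`, `x`, `y` non-associated primes, `x y ∼ p`; `F1` a field generated by `B`
and `L = lam` (`hF`), `O1 ⊆ B[L]` (`hO`); `V1 ⊆ B_(x)[L]`, `V2 ⊆ B_(y)[L]` the generic rings of
the two branches (`hQ1`, `hQ2`).  If `f ≠ 0` is a `p`-th power up to a unit at every valuation
ring of `F1` containing `B` in which `L` is a unit (`hhor`), and has depth `p` with the
constant `c₁` on `V1` and with the constant `c₂` on `V2`, then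
`c₁ d ^ p = c₂ e ^ p (1 + lam ^ p a)` in `O1`. -/
theorem thick_node_constRel (p : ℕ) (hp : p.Prime) (lam : O1) (hlam : Irreducible lam)
    (hperf : ∀ a : O1, ∃ b : O1, lam ∣ a - b ^ p) (hz : (1 + lam) ^ p = 1)
    (hO1 : Function.Injective (algebraMap O1 F1)) (hB : Function.Injective (algebraMap B F1))
    (hO : ∀ c : O1, ∃ q : B[X], algebraMap O1 F1 c = aeval (algebraMap O1 F1 lam) q)
    (hF : ∀ z : F1, ∃ (q : B[X]) (b : B), b ≠ 0 ∧
      z * algebraMap B F1 b = aeval (algebraMap O1 F1 lam) q)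
    (x y : B) (hx : Prime x) (hy : Prime y) (hne : ¬ Associated x y)
    (hm : maximalIdeal B = Ideal.span {x, y}) (hxy : Associated (x * y) (p : B))
    (V1 V2 : Subring F1)
    (hQ1 : ∀ z ∈ V1, ∃ (q : B[X]) (b : B), ¬ x ∣ b ∧
      z * algebraMap B F1 b = aeval (algebraMap O1 F1 lam) q)
    (hQ2 : ∀ z ∈ V2, ∃ (q : B[X]) (b : B), ¬ y ∣ b ∧
      z * algebraMap B F1 b = aeval (algebraMap O1 F1 lam) q)
    (f : F1) (hf : f ≠ 0)
    (hhor : ∀ 𝒪 : ValuationSubring F1, (∀ b : B, algebraMap B F1 b ∈ 𝒪) →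
      (algebraMap O1 F1 lam)⁻¹ ∈ 𝒪 → ∃ u h : F1, u ∈ 𝒪 ∧ u⁻¹ ∈ 𝒪 ∧ f = u * h ^ p)
    (c₁ c₂ : O1) (hc₁ : c₁ ≠ 0) (hc₂ : c₂ ≠ 0)
    (hD1 : DepthIn V1 p lam p f c₁) (hD2 : DepthIn V2 p lam p f c₂) :
    ConstRel p lam p c₂ c₁ := by
  obtain ⟨R, _, _, _, _, _, _, s, t, ι, hs, ht, hst, hmR, hφ, hιO, hιB, hsx, hty⟩ :=
    exists_thick_cover p hp lam hlam.ne_zero hz hO1 hB hO hF x y hx hy hne hm hxy
  haveI : IsDomain (R ⧸ Ideal.span {s}) := Node.isDomain_quot hs
  haveI : IsPrincipalIdealRing (R ⧸ Ideal.span {s}) := Node.isPrincipalIdealRing_quot hs hmR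
  haveI : UniqueFactorizationMonoid R := LocalPrincipal.quot_ufm hs.ne_zero
  have hpϖ : lam ^ (p - 1) ∣ (p : O1) :=
    pow_pred_dvd_prime p hp hlam.ne_zero hlam.not_isUnit hz
  obtain ⟨d, e, a, hd, he, h⟩ := Node.node_lemma (O := O1) (R := R) (F := FractionRing R) p hp
    lam hlam hpϖ hperf s t hs ht hst hmR (by rw [hφ]) (ι f) ((map_ne_zero ι).mpr hf)
    (hhor_of_horVal ι lam hιO hιB hf hhor) c₁ c₂ hc₁ hc₂
    (hbr_of_depthIn ι lam hιO hιB hsx hQ1 hD1) (hbr_of_depthIn ι lam hιO hιB hty hQ2 hD2)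
  exact ⟨a, d, e, hd, he, h⟩

end Main

/-! ### The assembly of the constant clause -/

section Assembly

variable {O1 : Type*} [CommRing O1] [IsDomain O1] [IsLocalRing O1]

/-- A constant `c = d ^ p (1 + lam ^ n e)` with `d` in the fraction field and `e ∈ O1` is
related to `1`. -/
theorem constRel_one_of_eq_pow {K1 : Type*} [Field K1] [Algebra O1 K1] [IsFractionRing O1 K1]
    {p n : ℕ} {lam c e : O1} {d : K1} (hd : d ≠ 0)
    (h : algebraMap O1 K1 c = d ^ p * (1 + algebraMap O1 K1 lam ^ n * algebraMap O1 K1 e)) :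
    ConstRel p lam n 1 c := by
  have hinj := IsFractionRing.injective O1 K1
  obtain ⟨a, b, hb, rfl⟩ := IsFractionRing.div_surjective O1 d
  have hb0 : b ≠ 0 := nonZeroDivisors.ne_zero hb
  have hbK : algebraMap O1 K1 b ≠ 0 := (map_ne_zero_iff _ hinj).mpr hb0
  have ha0 : a ≠ 0 := by
    rintro rfl
    exact hd (by simp)
  refine ⟨e, b, a, hb0, ha0, hinj ?_⟩
  simp only [map_mul, map_pow, map_add, map_one]
  rw [h, div_pow]
  field_simp

variable {F1 : Type*} [Field F1] [Algebra O1 F1]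

/-- **The constant clause.**  Depth `n` on two generic rings `V∞`, `V0` with the constants
`c∞`, `c0`; `c∞` related to `1` (the cusp), `c0` related to `c∞` (one crossing node): then
depth `n` with the constant `1` on both. -/
theorem depth_const_one (hinj : Function.Injective (algebraMap O1 F1)) {p : ℕ} {lam : O1}
    (hlam : ¬ IsUnit lam) {n : ℕ} (hn : 1 ≤ n) {Vinf V0 : Subring F1}
    (hVinf : ∀ a : O1, algebraMap O1 F1 a ∈ Vinf) (hV0 : ∀ a : O1, algebraMap O1 F1 a ∈ V0)
    {f : F1} {cinf c0 : O1} (hDinf : DepthIn Vinf p lam n f cinf)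
    (hD0 : DepthIn V0 p lam n f c0) (hcusp : ConstRel p lam n cinf 1)
    (hnode : ConstRel p lam n c0 cinf) :
    DepthIn Vinf p lam n f 1 ∧ DepthIn V0 p lam n f 1 :=
  ⟨hDinf.of_constRel hVinf hinj hlam hn hcusp,
    hD0.of_constRel hV0 hinj hlam hn (hnode.trans hcusp)⟩

end Assembly

end Fermat.Agent.S33.Geo.ThickNode
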