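import Mathlib
import Fermat.Agent.S33.Geo.TrivAtBase
import Fermat.Agent.S44.L.Alt.DescHoriz
import Fermat.Agent.S44.L.Alt.SeamField

/-!
# S33 (GEO, COV'), row C6-E, supplier: the `TrivAt` witnesses of the swap over a number field

The `w`-side of `Geo/TrivAtBase` (helper197), for the Atkin–Lehner swap
`w = S34.ToricSwap.wAL M p hp hpM` of level `M * p` and its `E`-level form
`wHom M p E hp hpM` (`S34/HauptU/Plug`; `upF ∘ wHom = wAL ∘ upF`, `DescHoriz.upF_wHom`).

If `w x` is `n`-trivial at `A`, then over every sufficiently large number field `E`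

* `exists_trivAt_base_swap` : `x = c * g ^ (p ^ n) * u` with `c = d ^ (p ^ n)` a constant of
  `E`, `g, u ∈ LE (M * p) E` and **`wHom u` a one-unit** at `A`;
* `exists_pow_mul_oneUnit_swap` : every `x₁ ∈ LE (M * p) E` lifting `x` is `g ^ (p ^ n) * u` in
  `LE (M * p) E` with `wHom u` a one-unit (constant absorbed).

These are the hypotheses `hu'` / `hfG` of `Geo/UnitUpCover.unit_up_cover_VB` at the component
`0` (`b = false`); the component `∞` is `TrivAtBase.exists_pow_mul_oneUnit` as it stands.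
-/

set_option autoImplicit false
set_option linter.style.haveILetI false
set_option synthInstance.maxHeartbeats 400000

open HahnSeries ModularCurve AlgebraicCurve

noncomputable section

namespace Fermat.Agent.S33.Geo.TrivAtSwap

open Fermat.Agent.S30 Fermat.Agent.S30.Producer
open Fermat.Agent.S18.K1Defs (LE)
open Fermat.Agent.S36.InvFun (upF)
open Fermat.Agent.S33.Geo.Contract
open Fermat.Agent.S34.HauptU.Plug (wHom wHom_wHom)

variable {M p : ℕ} [NeZero M] [NeZero p]

/-- The swap of a lift of `x` lifts the swap of `x`. -/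
theorem upF_wHom_of_eq (hp : p.Prime) (hpM : ¬ p ∣ M) (E : IntermediateField ℚ Qb)
    {x : FN (M * p)} {x₁ : LE (M * p) E} (hx₁ : upF (M * p) E x₁ = x) :
    upF (M * p) E (wHom M p E hp hpM x₁) = Fermat.Agent.S34.ToricSwap.wAL M p hp hpM x := by
  rw [Fermat.Agent.S44.L.Alt.DescHoriz.upF_wHom, hx₁]

/-- **The `TrivAt` witnesses of the swap over a number field**: if `w x` is `n`-trivial, then
over every large `E`, `x = c * g ^ (p ^ n) * u` with `c = d ^ (p ^ n)` and `wHom u` a one-unit. -/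
theorem exists_trivAt_base_swap (hp : p.Prime) (hpM : ¬ p ∣ M) {n : ℕ}
    {A : ValuationSubring Qb} {x : FN (M * p)}
    (hx : TrivAt (M * p) A p n (Fermat.Agent.S34.ToricSwap.wAL M p hp hpM x)) :
    ∃ E₁ : IntermediateField ℚ Qb, FiniteDimensional ℚ E₁ ∧
      ∀ E : IntermediateField ℚ Qb, E₁ ≤ E →
        ∃ (c d : E) (g u : LE (M * p) E), c ≠ 0 ∧ d ^ (p ^ n) = c ∧ g ≠ 0 ∧
          OneUnit (M * p) A (upF (M * p) E (wHom M p E hp hpM u)) ∧
          x = upF (M * p) E (algebraMap E (LE (M * p) E) c * g ^ (p ^ n) * u) := by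
  obtain ⟨E₁, hE₁, hbase⟩ := TrivAtBase.exists_trivAt_base hp.pos hx
  refine ⟨E₁, hE₁, fun E hE => ?_⟩
  obtain ⟨c, d, g, u, hc, hd, hg, hu, heq⟩ := hbase E hE
  refine ⟨c, d, wHom M p E hp hpM g, wHom M p E hp hpM u, hc, hd, ?_, ?_, ?_⟩
  · exact (map_ne_zero _).mpr hg
  · rw [wHom_wHom]
    exact hu
  · have h2 : wHom M p E hp hpM (algebraMap E (LE (M * p) E) c * g ^ (p ^ n) * u)
        = algebraMap E (LE (M * p) E) c * wHom M p E hp hpM g ^ (p ^ n)
          * wHom M p E hp hpM u := by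
      rw [map_mul, map_mul, map_pow, Fermat.Agent.S44.L.Alt.SeamField.wHom_algebraMap_field]
    rw [← h2, Fermat.Agent.S44.L.Alt.DescHoriz.upF_wHom, ← heq,
      Fermat.Agent.S34.ToricSwap.wAL_wAL]

/-- **The swap side, constant absorbed**: over every large `E`, every lift `x₁ ∈ LE (M * p) E`
of `x` is `g ^ (p ^ n) * u` with `wHom u` a one-unit at `A`. -/
theorem exists_pow_mul_oneUnit_swap (hp : p.Prime) (hpM : ¬ p ∣ M) {n : ℕ}
    {A : ValuationSubring Qb} {x : FN (M * p)}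
    (hx : TrivAt (M * p) A p n (Fermat.Agent.S34.ToricSwap.wAL M p hp hpM x)) :
    ∃ E₁ : IntermediateField ℚ Qb, FiniteDimensional ℚ E₁ ∧
      ∀ E : IntermediateField ℚ Qb, E₁ ≤ E → ∀ x₁ : LE (M * p) E, upF (M * p) E x₁ = x →
        ∃ g u : LE (M * p) E, g ≠ 0 ∧
          OneUnit (M * p) A (upF (M * p) E (wHom M p E hp hpM u)) ∧ x₁ = g ^ (p ^ n) * u := by
  obtain ⟨E₁, hE₁, hbase⟩ := TrivAtBase.exists_pow_mul_oneUnit hp.pos hx
  refine ⟨E₁, hE₁, fun E hE x₁ hx₁ => ?_⟩
  obtain ⟨g, u, hg, hu, heq⟩ :=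
    hbase E hE (wHom M p E hp hpM x₁) (upF_wHom_of_eq hp hpM E hx₁)
  refine ⟨wHom M p E hp hpM g, wHom M p E hp hpM u, (map_ne_zero _).mpr hg, ?_, ?_⟩
  · rw [wHom_wHom]
    exact hu
  · have h := congrArg (wHom M p E hp hpM) heq
    rw [wHom_wHom, map_mul, map_pow] at h
    exact h

end Fermat.Agent.S33.Geo.TrivAtSwap
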