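import Mathlib

/-!
# S33 / Geo, row B2: (UNIT) by a constant-field extension of a DVR ("UnitDescent")

Level-free, Mathlib only.  `B` is a valuation subring of a field `Lb`, `L0` and `K2` are
subfields of `Lb` ("functions" and "constants"), `p` is a prime with `p ∈ 𝔪_B`.  Assume

* `B ∩ L0` has a uniformiser `π₀` (`h1`),
* `B ∩ K2` has a uniformiser `π` (`h2`) and `π₀ = π ^ e * ε` with `ε ∈ K2` a unit of `B`,
* the residue field of `B ∩ K2` is algebraic over `𝔽_p` (`h3`),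
* `B` has rank one (`h4`).

Then an element `F ≠ 0` of `L0` of the shape `c * P ^ p * u`, with `c ∈ K2`, `P ∈ L0 ⊔ K2` and
`u` a one-unit of `B`, is `π₀ ^ a * g ^ p * (1 + π₀ * r)` with `a < p`, `g, r ∈ L0`, `r ∈ B`
(`unit_descent`, and `unit_descent_mem` in membership form).

Proof.  `S := (B ∩ L0)[B ∩ K2]`.  Key step `exists_unit_mul_eq`: for `s ∈ S` with `v s < 1`
there is a unit `t ∈ S` of `B` with `t * s ∈ π S` (the residues of the constants involved are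
powers of one root of unity `ϑ̄` of order `N` prime to `p`; `X ^ N - 1` is separable over the
residue field `k'` of `B ∩ L0`, so the gcd argument produces `t = c(ϑ)`).  Hence every nonzero
element of `L0 ⊔ K2` is `π ^ m * a / t` with `a, t ∈ S` units of `B`, the residues of
`B ∩ (L0 ⊔ K2)` are separable over `k'`, and a `p`-th root of an element of `k'` in a separable
extension lies in `k'` (characteristic `p`).
-/

set_option autoImplicit false

open Polynomial IsLocalRing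

namespace Fermat.Agent.S33.Geo.UnitDescent

variable {Lb : Type*} [Field Lb] (B : ValuationSubring Lb)

/-! ### The trace of `B` on a subfield -/

/-- The inclusion of `B ∩ M` into `B`. -/
noncomputable def incl (M : Subfield Lb) : ↥(B.comap M.subtype) →+* ↥B :=
  RingHom.codRestrict (M.subtype.comp (B.comap M.subtype).subtype) B (fun x => x.2)

theorem incl_coe (M : Subfield Lb) (x : ↥(B.comap M.subtype)) :
    ((incl B M x : ↥B) : Lb) = ((x : M) : Lb) := rfl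

theorem isUnit_comap_iff (M : Subfield Lb) (x : ↥(B.comap M.subtype)) :
    IsUnit x ↔ B.valuation ((x : M) : Lb) = 1 := by
  constructor
  · intro h
    have h' : IsUnit (incl B M x) := h.map (incl B M)
    exact (B.valuation_eq_one_iff _).1 h'
  · intro h
    have hx0 : (x : M) ≠ 0 := by
      intro h0
      rw [h0, Subfield.coe_zero, map_zero] at h
      exact zero_ne_one h
    have hinv : ((x : M))⁻¹ ∈ B.comap M.subtype := by
      rw [ValuationSubring.mem_comap, map_inv₀, ← B.valuation_le_one_iff, map_inv₀]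
      have : B.valuation (M.subtype (x : M)) = 1 := h
      rw [this, inv_one]
    refine isUnit_iff_exists_inv.2 ⟨⟨(x : M)⁻¹, hinv⟩, ?_⟩
    apply Subtype.ext
    show (x : M) * (x : M)⁻¹ = 1
    exact mul_inv_cancel₀ hx0

theorem mem_maximalIdeal_comap_iff (M : Subfield Lb) (x : ↥(B.comap M.subtype)) :
    x ∈ maximalIdeal ↥(B.comap M.subtype) ↔ B.valuation ((x : M) : Lb) < 1 := by
  rw [mem_maximalIdeal, mem_nonunits_iff, isUnit_comap_iff]
  have hle : B.valuation ((x : M) : Lb) ≤ 1 := (B.valuation_le_one_iff _).2 x.2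
  exact ⟨fun h => lt_of_le_of_ne hle h, fun h => ne_of_lt h⟩

instance instIsLocalHomIncl (M : Subfield Lb) : IsLocalHom (incl B M) where
  map_nonunit x hx := by
    rw [isUnit_comap_iff]
    exact (B.valuation_eq_one_iff _).1 hx

theorem residue_eq_zero_iff_val (x : ↥B) : residue ↥B x = 0 ↔ B.valuation (x : Lb) < 1 := by
  rw [residue_eq_zero_iff, B.valuation_lt_one_iff]

/-! ### Normal form in a subfield with a uniformiser -/

/-- If `B ∩ M` has uniformiser `π` and `B` has rank one, every nonzero element of `M` is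
`π ^ k * y` with `y ∈ M` a unit of `B`. -/
theorem exists_zpow_mul_unit (M : Subfield Lb) (π : Lb) (hπM : π ∈ M) (hπ0 : π ≠ 0)
    (hM : ∀ x ∈ M, B.valuation x < 1 → B.valuation x ≤ B.valuation π)
    (harch : ∀ x : Lb, x ≠ 0 → ∃ n : ℕ, B.valuation π ^ n < B.valuation x)
    (x : Lb) (hxM : x ∈ M) (hx0 : x ≠ 0) :
    ∃ (k : ℤ) (y : Lb), y ∈ M ∧ B.valuation y = 1 ∧ x = π ^ k * y := by
  have vπ0 : B.valuation π ≠ 0 := (Valuation.ne_zero_iff _).2 hπ0
  have aux : ∀ n : ℕ, ∀ x : Lb, x ∈ M → x ≠ 0 → B.valuation x ≤ 1 →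
      B.valuation π ^ n < B.valuation x →
      ∃ (k : ℕ) (y : Lb), y ∈ M ∧ B.valuation y = 1 ∧ x = π ^ k * y := by
    intro n
    induction n with
    | zero =>
      intro x _ _ hx1 hlt
      rw [pow_zero] at hlt
      exact absurd hx1 (not_le.2 hlt)
    | succ n ih =>
      intro x hxM hx0 hx1 hlt
      rcases lt_or_eq_of_le hx1 with h | h
      · have hle := hM x hxM h
        have hv : B.valuation x = B.valuation (x / π) * B.valuation π := by
          rw [← map_mul, div_mul_cancel₀ x hπ0]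
        have hy : B.valuation (x / π) ≤ 1 := by
          by_contra hcon
          have h1lt : 1 < B.valuation (x / π) := not_le.1 hcon
          have : B.valuation π < B.valuation (x / π) * B.valuation π := by
            calc B.valuation π = 1 * B.valuation π := (one_mul _).symm
              _ < B.valuation (x / π) * B.valuation π :=
                (mul_lt_mul_iff_of_pos_right (zero_lt_iff.2 vπ0)).2 h1lt
          rw [← hv] at this
          exact absurd hle (not_le.2 this)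
        have hlt' : B.valuation π ^ n < B.valuation (x / π) := by
          rw [hv, pow_succ] at hlt
          exact (mul_lt_mul_iff_of_pos_right (zero_lt_iff.2 vπ0)).1 hlt
        obtain ⟨k, y, hyM, hy1, hxy⟩ :=
          ih (x / π) (div_mem hxM hπM) (div_ne_zero hx0 hπ0) hy hlt'
        refine ⟨k + 1, y, hyM, hy1, ?_⟩
        calc x = π * (x / π) := by field_simp
          _ = π * (π ^ k * y) := by rw [hxy]
          _ = π ^ (k + 1) * y := by ring
      · exact ⟨0, x, hxM, h, by rw [pow_zero, one_mul]⟩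
  have hx1 : B.valuation x ≠ 0 := (Valuation.ne_zero_iff _).2 hx0
  rcases le_total (B.valuation x) 1 with h | h
  · obtain ⟨n, hn⟩ := harch x hx0
    obtain ⟨k, y, hyM, hy1, hxy⟩ := aux n x hxM hx0 h hn
    exact ⟨k, y, hyM, hy1, by rw [zpow_natCast]; exact hxy⟩
  · have hinv1 : B.valuation x⁻¹ ≤ 1 := by
      rw [map_inv₀]
      exact (inv_le_one₀ (zero_lt_iff.2 hx1)).2 h
    obtain ⟨n, hn⟩ := harch x⁻¹ (inv_ne_zero hx0)
    obtain ⟨k, y, hyM, hy1, hxy⟩ := aux n x⁻¹ (inv_mem hxM) (inv_ne_zero hx0) hinv1 hn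
    refine ⟨-(k : ℤ), y⁻¹, inv_mem hyM, by rw [map_inv₀, hy1, inv_one], ?_⟩
    rw [zpow_neg, zpow_natCast, ← mul_inv, ← hxy, inv_inv]

/-! ### The ring `S = (B ∩ L0)[B ∩ K2]` -/

/-- The subring generated by `B ∩ L0` and `B ∩ K2`. -/
def SS (L0 K2 : Subfield Lb) : Subring Lb :=
  Subring.closure ({x | x ∈ L0 ∧ x ∈ B} ∪ {x | x ∈ K2 ∧ x ∈ B})

variable {B}

theorem mem_SS_left {L0 K2 : Subfield Lb} {x : Lb} (h1 : x ∈ L0) (h2 : x ∈ B) :
    x ∈ SS B L0 K2 :=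
  Subring.subset_closure (Or.inl ⟨h1, h2⟩)

theorem mem_SS_right {L0 K2 : Subfield Lb} {x : Lb} (h1 : x ∈ K2) (h2 : x ∈ B) :
    x ∈ SS B L0 K2 :=
  Subring.subset_closure (Or.inr ⟨h1, h2⟩)

theorem SS_mem {L0 K2 : Subfield Lb} {x : Lb} (h : x ∈ SS B L0 K2) : x ∈ B := by
  have hle : SS B L0 K2 ≤ B.toSubring := by
    apply Subring.closure_le.2
    rintro y (⟨_, hy⟩ | ⟨_, hy⟩) <;> exact hy
  exact hle h

theorem SS_val_le {L0 K2 : Subfield Lb} {x : Lb} (h : x ∈ SS B L0 K2) : B.valuation x ≤ 1 :=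
  (B.valuation_le_one_iff x).2 (SS_mem h)

/-- Every element of `S` is a finite sum of products `a * θ`, `a ∈ B ∩ L0`, `θ ∈ B ∩ K2`. -/
theorem exists_rep {L0 K2 : Subfield Lb} {x : Lb} (hx : x ∈ SS B L0 K2) :
    ∃ (ι : Type) (_ : Fintype ι) (a θ : ι → Lb), (∀ i, a i ∈ L0 ∧ a i ∈ B) ∧
      (∀ i, θ i ∈ K2 ∧ θ i ∈ B) ∧ x = ∑ i, a i * θ i := by
  induction hx using Subring.closure_induction with
  | mem x hx =>
    rcases hx with ⟨h1, h2⟩ | ⟨h1, h2⟩
    · exact ⟨Unit, inferInstance, fun _ => x, fun _ => 1, fun _ => ⟨h1, h2⟩,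
        fun _ => ⟨one_mem _, one_mem _⟩, by simp⟩
    · exact ⟨Unit, inferInstance, fun _ => 1, fun _ => x, fun _ => ⟨one_mem _, one_mem _⟩,
        fun _ => ⟨h1, h2⟩, by simp⟩
  | zero =>
    exact ⟨Empty, inferInstance, fun _ => 0, fun _ => 0, fun i => i.elim, fun i => i.elim,
      by simp⟩
  | one =>
    exact ⟨Unit, inferInstance, fun _ => 1, fun _ => 1, fun _ => ⟨one_mem _, one_mem _⟩,
      fun _ => ⟨one_mem _, one_mem _⟩, by simp⟩
  | add x y _ _ hx hy =>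
    obtain ⟨ι, _, a, θ, ha, hθ, rfl⟩ := hx
    obtain ⟨κ, _, a', θ', ha', hθ', rfl⟩ := hy
    refine ⟨ι ⊕ κ, inferInstance, Sum.elim a a', Sum.elim θ θ', ?_, ?_, ?_⟩
    · rintro (i | i)
      · exact ha i
      · exact ha' i
    · rintro (i | i)
      · exact hθ i
      · exact hθ' i
    · rw [Fintype.sum_sum_type]
      simp
  | neg x _ hx =>
    obtain ⟨ι, _, a, θ, ha, hθ, rfl⟩ := hx
    refine ⟨ι, inferInstance, fun i => - a i, θ,
      fun i => ⟨neg_mem (ha i).1, neg_mem (ha i).2⟩, hθ, ?_⟩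
    rw [← Finset.sum_neg_distrib]
    exact Finset.sum_congr rfl fun i _ => (neg_mul _ _).symm
  | mul x y _ _ hx hy =>
    obtain ⟨ι, _, a, θ, ha, hθ, rfl⟩ := hx
    obtain ⟨κ, _, a', θ', ha', hθ', rfl⟩ := hy
    refine ⟨ι × κ, inferInstance, fun q => a q.1 * a' q.2, fun q => θ q.1 * θ' q.2,
      fun q => ⟨mul_mem (ha q.1).1 (ha' q.2).1, mul_mem (ha q.1).2 (ha' q.2).2⟩,
      fun q => ⟨mul_mem (hθ q.1).1 (hθ' q.2).1, mul_mem (hθ q.1).2 (hθ' q.2).2⟩, ?_⟩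
    rw [Finset.sum_mul_sum, Fintype.sum_prod_type]
    refine Finset.sum_congr rfl fun i _ => Finset.sum_congr rfl fun j _ => ?_
    ring

/-! ### Evaluating polynomials over `B ∩ L0` at an element of `S` -/

/-- The coefficient map `B ∩ L0 → Lb`. -/
noncomputable def cV (B : ValuationSubring Lb) (L0 : Subfield Lb) :
    ↥(B.comap L0.subtype) →+* Lb :=
  (B.subtype).comp (incl B L0)

theorem cV_apply (L0 : Subfield Lb) (x : ↥(B.comap L0.subtype)) :
    cV B L0 x = ((x : L0) : Lb) := rfl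

theorem eval₂_mem_SS {L0 K2 : Subfield Lb} (q : (↥(B.comap L0.subtype))[X]) {ϑ : Lb}
    (hϑ : ϑ ∈ SS B L0 K2) : eval₂ (cV B L0) ϑ q ∈ SS B L0 K2 := by
  rw [eval₂_eq_sum_range]
  refine sum_mem fun i _ => mul_mem ?_ (pow_mem hϑ i)
  exact mem_SS_left (q.coeff i : L0).2 (q.coeff i).2

theorem residue_eval₂ {L0 : Subfield Lb} (q : (↥(B.comap L0.subtype))[X]) (ϑ : ↥B) :
    residue ↥B (eval₂ (incl B L0) ϑ q) =
      eval₂ (ResidueField.map (incl B L0)) (residue ↥B ϑ)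
        (q.map (residue ↥(B.comap L0.subtype))) := by
  have hcomp : (residue ↥B).comp (incl B L0) =
      (ResidueField.map (incl B L0)).comp (residue ↥(B.comap L0.subtype)) :=
    RingHom.ext fun x => (ResidueField.map_residue (incl B L0) x).symm
  rw [hom_eval₂, eval₂_map, hcomp]

theorem coe_eval₂ {L0 : Subfield Lb} (q : (↥(B.comap L0.subtype))[X]) (ϑ : ↥B) :
    ((eval₂ (incl B L0) ϑ q : ↥B) : Lb) = eval₂ (cV B L0) (ϑ : Lb) q :=
  hom_eval₂ q (incl B L0) B.subtype ϑ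

/-- A polynomial over `B ∩ L0` with zero reduction takes values in `π S`. -/
theorem eval₂_mem_smul {L0 K2 : Subfield Lb} (π₀ : Lb) (hπ₀L : π₀ ∈ L0)
    (h1 : ∀ x ∈ L0, B.valuation x < 1 → B.valuation x ≤ B.valuation π₀)
    (hπ₀0 : π₀ ≠ 0) (π ρ : Lb) (hρK : ρ ∈ K2) (hρB : ρ ∈ B) (hπ₀π : π₀ = π * ρ)
    (D : (↥(B.comap L0.subtype))[X]) (hD : D.map (residue ↥(B.comap L0.subtype)) = 0)
    {ϑ : Lb} (hϑ : ϑ ∈ SS B L0 K2) :
    ∃ s ∈ SS B L0 K2, eval₂ (cV B L0) ϑ D = π * s := by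
  have hvp : B.valuation π₀ ≠ 0 := (Valuation.ne_zero_iff _).2 hπ₀0
  rw [eval₂_eq_sum_range]
  refine ⟨∑ i ∈ Finset.range (D.natDegree + 1), ρ * (cV B L0 (D.coeff i) / π₀) * ϑ ^ i, ?_, ?_⟩
  · refine sum_mem fun i _ => mul_mem (mul_mem (mem_SS_right hρK hρB) ?_) (pow_mem hϑ i)
    have hc : D.coeff i ∈ maximalIdeal ↥(B.comap L0.subtype) := by
      rw [← residue_eq_zero_iff, ← coeff_map, hD, coeff_zero]
    have hv : B.valuation (cV B L0 (D.coeff i)) < 1 :=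
      (mem_maximalIdeal_comap_iff B L0 _).1 hc
    have hmem : cV B L0 (D.coeff i) ∈ L0 := (D.coeff i : L0).2
    have hle := h1 _ hmem hv
    refine mem_SS_left (div_mem hmem hπ₀L) ?_
    rw [← B.valuation_le_one_iff, map_div₀]
    exact div_le_one_of_le₀ hle zero_le
  · rw [Finset.mul_sum]
    refine Finset.sum_congr rfl fun i _ => ?_
    have e1 : π * ρ * (cV B L0 (D.coeff i) / π₀) = cV B L0 (D.coeff i) := by
      rw [← hπ₀π]
      field_simp
    calc cV B L0 (D.coeff i) * ϑ ^ i = π * ρ * (cV B L0 (D.coeff i) / π₀) * ϑ ^ i := by rw [e1]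
      _ = π * (ρ * (cV B L0 (D.coeff i) / π₀) * ϑ ^ i) := by ring

/-! ### The key step -/

/-- **Key step.**  For `s ∈ S` in the maximal ideal of `B` there is `t ∈ S`, a unit of `B`,
with `t * s ∈ π S`. -/
theorem exists_unit_mul_eq {L0 K2 : Subfield Lb} (p : ℕ) [hp : Fact p.Prime]
    (hp1 : B.valuation (p : Lb) < 1) (π₀ : Lb) (hπ₀L : π₀ ∈ L0)
    (h1 : ∀ x ∈ L0, B.valuation x < 1 → B.valuation x ≤ B.valuation π₀)
    (hπ₀0 : π₀ ≠ 0)
    (π ρ : Lb) (hπK : π ∈ K2) (hπ0 : π ≠ 0) (hπ1 : B.valuation π < 1)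
    (hρK : ρ ∈ K2) (hρB : ρ ∈ B) (hπ₀π : π₀ = π * ρ)
    (h2 : ∀ x ∈ K2, B.valuation x < 1 → B.valuation x ≤ B.valuation π)
    (h3 : ∀ θ ∈ K2, θ ∈ B → ∃ f : ℕ, 0 < f ∧ B.valuation (θ ^ (p ^ f) - θ) < 1)
    {s : Lb} (hs : s ∈ SS B L0 K2) (hs1 : B.valuation s < 1) :
    ∃ t ∈ SS B L0 K2, B.valuation t = 1 ∧ ∃ s' ∈ SS B L0 K2, t * s = π * s' := by
  classical
  obtain ⟨ι, _, a, θ, ha, hθ, rfl⟩ := exists_rep hs
  have hvπ0 : B.valuation π ≠ 0 := (Valuation.ne_zero_iff _).2 hπ0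
  -- the elements as members of the two valuation rings
  let a' : ι → ↥(B.comap L0.subtype) := fun i => ⟨⟨a i, (ha i).1⟩, (ha i).2⟩
  let θ₂ : ι → ↥(B.comap K2.subtype) := fun i => ⟨⟨θ i, (hθ i).1⟩, (hθ i).2⟩
  -- the exponents
  choose f hf0 hf using fun i => h3 (θ i) (hθ i).1 (hθ i).2
  obtain ⟨N, hNdef⟩ : ∃ N : ℕ, N = ∏ i, (p ^ f i - 1) := ⟨_, rfl⟩
  have hone_le : ∀ i, 1 ≤ p ^ f i := fun i => Nat.one_le_pow _ _ hp.out.pos
  have hNpos : 0 < N := by
    rw [hNdef]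
    exact Finset.prod_pos fun i _ =>
      Nat.sub_pos_of_lt (Nat.one_lt_pow (hf0 i).ne' hp.out.one_lt)
  have : NeZero N := ⟨hNpos.ne'⟩
  have hpN : ¬ p ∣ N := by
    intro hdvd
    rw [hNdef] at hdvd
    obtain ⟨i, _, hi⟩ := (Nat.Prime.prime hp.out).exists_mem_finset_dvd hdvd
    have h2' : p ∣ p ^ f i := dvd_pow_self p (hf0 i).ne'
    have h3' : p ∣ 1 := by
      have h4' : p ∣ (p ^ f i - 1) + 1 := by rw [Nat.sub_add_cancel (hone_le i)]; exact h2'
      exact (Nat.dvd_add_right hi).1 h4'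
    exact hp.out.one_lt.ne' (Nat.dvd_one.1 h3')
  -- residues of the constants are `N`-th roots of unity or zero
  have hθpow : ∀ i, residue ↥(B.comap K2.subtype) (θ₂ i) ≠ 0 →
      residue ↥(B.comap K2.subtype) (θ₂ i) ^ N = 1 := by
    intro i hi
    have h1' : residue ↥(B.comap K2.subtype) (θ₂ i) ^ (p ^ f i) =
        residue ↥(B.comap K2.subtype) (θ₂ i) := by
      have hmem : θ₂ i ^ (p ^ f i) - θ₂ i ∈ maximalIdeal ↥(B.comap K2.subtype) := by
        rw [mem_maximalIdeal_comap_iff]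
        exact hf i
      have := (residue_eq_zero_iff _).2 hmem
      rwa [map_sub, map_pow, sub_eq_zero] at this
    have hpf : p ^ f i = (p ^ f i - 1) + 1 := (Nat.sub_add_cancel (hone_le i)).symm
    have h2' : residue ↥(B.comap K2.subtype) (θ₂ i) ^ (p ^ f i - 1) = 1 := by
      have h5 : residue ↥(B.comap K2.subtype) (θ₂ i) ^ (p ^ f i - 1) *
          residue ↥(B.comap K2.subtype) (θ₂ i) = 1 * residue ↥(B.comap K2.subtype) (θ₂ i) := by
        rw [← pow_succ, ← hpf, h1', one_mul]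
      exact mul_right_cancel₀ hi h5
    obtain ⟨d, hd⟩ : (p ^ f i - 1) ∣ N := by
      rw [hNdef]
      exact Finset.dvd_prod_of_mem _ (Finset.mem_univ i)
    rw [hd, pow_mul, h2', one_pow]
  -- one generator
  obtain ⟨ζ, hζ⟩ := IsCyclic.exists_monoid_generator
    (α := rootsOfUnity N (ResidueField ↥(B.comap K2.subtype)))
  obtain ⟨ϑ₂, hϑ₂⟩ := residue_surjective (R := ↥(B.comap K2.subtype))
    ((ζ : (ResidueField ↥(B.comap K2.subtype))ˣ) : ResidueField ↥(B.comap K2.subtype))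
  have hζN : ((ζ : (ResidueField ↥(B.comap K2.subtype))ˣ) :
      ResidueField ↥(B.comap K2.subtype)) ^ N = 1 := by
    have h6 := ζ.2
    rw [mem_rootsOfUnity] at h6
    rw [← Units.val_pow_eq_pow_val, h6, Units.val_one]
  have hn : ∀ i, ∃ n : ℕ, residue ↥(B.comap K2.subtype) (θ₂ i) ≠ 0 →
      ((ζ : (ResidueField ↥(B.comap K2.subtype))ˣ) : ResidueField ↥(B.comap K2.subtype)) ^ n =
        residue ↥(B.comap K2.subtype) (θ₂ i) := by
    intro i
    by_cases hi : residue ↥(B.comap K2.subtype) (θ₂ i) = 0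
    · exact ⟨0, fun h => absurd hi h⟩
    · have hu : Units.mk0 _ hi ∈ rootsOfUnity N (ResidueField ↥(B.comap K2.subtype)) := by
        rw [mem_rootsOfUnity]
        apply Units.ext
        rw [Units.val_pow_eq_pow_val, Units.val_mk0, Units.val_one]
        exact hθpow i hi
      obtain ⟨n, hn⟩ := (Submonoid.mem_powers_iff _ _).1 (hζ ⟨_, hu⟩)
      refine ⟨n, fun _ => ?_⟩
      have h7 := congrArg (fun z : rootsOfUnity N (ResidueField ↥(B.comap K2.subtype)) =>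
        ((z : (ResidueField ↥(B.comap K2.subtype))ˣ) : ResidueField ↥(B.comap K2.subtype))) hn
      simpa using h7
  choose n hn using hn
  -- the generator in `Lb`
  obtain ⟨ϑ, hϑdef⟩ : ∃ ϑ : Lb, ϑ = ((ϑ₂ : K2) : Lb) := ⟨_, rfl⟩
  have hϑK : ϑ ∈ K2 := by rw [hϑdef]; exact (ϑ₂ : K2).2
  have hϑB : ϑ ∈ B := by rw [hϑdef]; exact ϑ₂.2
  have hϑS : ϑ ∈ SS B L0 K2 := mem_SS_right hϑK hϑB
  have hϑN : B.valuation (ϑ ^ N - 1) < 1 := by
    have hmem : ϑ₂ ^ N - 1 ∈ maximalIdeal ↥(B.comap K2.subtype) := by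
      rw [← residue_eq_zero_iff, map_sub, map_pow, map_one, hϑ₂, hζN, sub_self]
    have := (mem_maximalIdeal_comap_iff B K2 _).1 hmem
    rw [hϑdef]
    exact this
  -- the error terms
  let δ : ι → Lb := fun i =>
    if residue ↥(B.comap K2.subtype) (θ₂ i) = 0 then θ i else θ i - ϑ ^ n i
  have hδK : ∀ i, δ i ∈ K2 := by
    intro i
    dsimp only [δ]
    split_ifs
    · exact (hθ i).1
    · exact sub_mem (hθ i).1 (pow_mem hϑK _)
  have hδ1 : ∀ i, B.valuation (δ i) < 1 := by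
    intro i
    dsimp only [δ]
    split_ifs with hi
    · exact (mem_maximalIdeal_comap_iff B K2 (θ₂ i)).1 ((residue_eq_zero_iff _).1 hi)
    · have hmem : θ₂ i - ϑ₂ ^ n i ∈ maximalIdeal ↥(B.comap K2.subtype) := by
        rw [← residue_eq_zero_iff, map_sub, map_pow, hϑ₂, hn i hi, sub_self]
      have := (mem_maximalIdeal_comap_iff B K2 _).1 hmem
      rw [hϑdef]
      exact this
  have hdiv : ∀ x : Lb, x ∈ K2 → B.valuation x < 1 → x / π ∈ K2 ∧ x / π ∈ B := by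
    intro x hxK hx1
    refine ⟨div_mem hxK hπK, ?_⟩
    rw [← B.valuation_le_one_iff, map_div₀]
    exact div_le_one_of_le₀ (h2 x hxK hx1) zero_le
  -- the polynomial `G`
  obtain ⟨G, hGdef⟩ : ∃ G : (↥(B.comap L0.subtype))[X], G = ∑ i,
      if residue ↥(B.comap K2.subtype) (θ₂ i) = 0 then 0 else C (a' i) * X ^ n i := ⟨_, rfl⟩
  have hevG : eval₂ (cV B L0) ϑ G =
      ∑ i, if residue ↥(B.comap K2.subtype) (θ₂ i) = 0 then 0 else a i * ϑ ^ n i := by
    rw [hGdef, eval₂_finsetSum]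
    refine Finset.sum_congr rfl fun i _ => ?_
    split_ifs
    · rw [eval₂_zero]
    · rw [eval₂_mul, eval₂_C, eval₂_X_pow]
      rfl
  obtain ⟨S1, hS1def⟩ : ∃ S1 : Lb, S1 = ∑ i, a i * (δ i / π) := ⟨_, rfl⟩
  have hsG : (∑ i, a i * θ i) = eval₂ (cV B L0) ϑ G + π * S1 := by
    rw [hevG, hS1def, Finset.mul_sum, ← Finset.sum_add_distrib]
    refine Finset.sum_congr rfl fun i _ => ?_
    have hkey : ∀ x y : Lb, π * (x * (y / π)) = x * y := by
      intro x y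
      calc π * (x * (y / π)) = x * (y / π * π) := by ring
        _ = x * y := by rw [div_mul_cancel₀ y hπ0]
    dsimp only [δ]
    split_ifs
    · rw [zero_add, hkey]
    · rw [hkey]
      ring
  have hS1 : S1 ∈ SS B L0 K2 := by
    rw [hS1def]
    exact sum_mem fun i _ => mul_mem (mem_SS_left (ha i).1 (ha i).2)
      (mem_SS_right (hdiv _ (hδK i) (hδ1 i)).1 (hdiv _ (hδK i) (hδ1 i)).2)
  have hvG : B.valuation (eval₂ (cV B L0) ϑ G) < 1 := by
    have e : eval₂ (cV B L0) ϑ G = (∑ i, a i * θ i) - π * S1 := by rw [hsG]; ring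
    rw [e]
    refine Valuation.map_sub_lt _ hs1 ?_
    rw [map_mul]
    exact mul_lt_one_of_lt_of_le hπ1 (SS_val_le hS1)
  -- the polynomial `X ^ N - 1`
  have hevm : eval₂ (cV B L0) ϑ (X ^ N - 1 : (↥(B.comap L0.subtype))[X]) = ϑ ^ N - 1 := by
    rw [eval₂_sub, eval₂_X_pow, eval₂_one]
  obtain ⟨hy₀K, hy₀B⟩ := hdiv (ϑ ^ N - 1) (sub_mem (pow_mem hϑK _) (one_mem _)) hϑN
  -- the residue field of `B ∩ L0`
  have hpk : (p : ResidueField ↥(B.comap L0.subtype)) = 0 := by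
    have hmem : (p : ↥(B.comap L0.subtype)) ∈ maximalIdeal ↥(B.comap L0.subtype) := by
      rw [mem_maximalIdeal_comap_iff]
      exact hp1
    have := (residue_eq_zero_iff _).2 hmem
    rwa [map_natCast] at this
  have hNk : (N : ResidueField ↥(B.comap L0.subtype)) ≠ 0 := by
    intro h0
    have hcop : Nat.Coprime p N := (Nat.Prime.coprime_iff_not_dvd hp.out).2 hpN
    obtain ⟨x, y, hxy⟩ := Nat.isCoprime_iff_coprime.2 hcop
    have h8 := congrArg (Int.cast : ℤ → ResidueField ↥(B.comap L0.subtype)) hxy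
    push_cast at h8
    rw [hpk, h0, mul_zero, mul_zero, add_zero] at h8
    exact zero_ne_one h8
  have hsep : (X ^ N - 1 : (ResidueField ↥(B.comap L0.subtype))[X]).Separable :=
    X_pow_sub_one_separable_iff.2 hNk
  -- gcd
  obtain ⟨hb, cb, g1b, A1, B1, hcb, hg1b, hbez⟩ :
      ∃ hb cb g1b A1 B1 : (ResidueField ↥(B.comap L0.subtype))[X],
        (X ^ N - 1 : (ResidueField ↥(B.comap L0.subtype))[X]) = hb * cb ∧
        G.map (residue ↥(B.comap L0.subtype)) = hb * g1b ∧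
        hb = (X ^ N - 1) * A1 + G.map (residue ↥(B.comap L0.subtype)) * B1 := by
    obtain ⟨cb, hcb⟩ := EuclideanDomain.gcd_dvd_left
      (X ^ N - 1 : (ResidueField ↥(B.comap L0.subtype))[X])
      (G.map (residue ↥(B.comap L0.subtype)))
    obtain ⟨g1b, hg1b⟩ := EuclideanDomain.gcd_dvd_right
      (X ^ N - 1 : (ResidueField ↥(B.comap L0.subtype))[X])
      (G.map (residue ↥(B.comap L0.subtype)))
    exact ⟨_, cb, g1b, _, _, hcb, hg1b, EuclideanDomain.gcd_eq_gcd_ab _ _⟩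
  have hcop : IsCoprime hb cb := by
    rw [hcb] at hsep
    exact hsep.isCoprime
  obtain ⟨α, β, hαβ⟩ := hcop
  -- evaluation at the residue of `ϑ`
  obtain ⟨ϑB, hϑBdef⟩ : ∃ ϑB : ↥B, ϑB = incl B K2 ϑ₂ := ⟨_, rfl⟩
  have hϑBcoe : (ϑB : Lb) = ϑ := by rw [hϑBdef, hϑdef]; rfl
  obtain ⟨evb, hevbdef⟩ : ∃ evb : (ResidueField ↥(B.comap L0.subtype))[X] →+* ResidueField ↥B,
      evb = eval₂RingHom (ResidueField.map (incl B L0)) (residue ↥B ϑB) := ⟨_, rfl⟩
  have hevb : ∀ q : (↥(B.comap L0.subtype))[X],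
      evb (q.map (residue ↥(B.comap L0.subtype))) = residue ↥B (eval₂ (incl B L0) ϑB q) := by
    intro q
    rw [hevbdef, coe_eval₂RingHom, residue_eval₂]
  have hval : ∀ q : (↥(B.comap L0.subtype))[X],
      residue ↥B (eval₂ (incl B L0) ϑB q) = 0 ↔ B.valuation (eval₂ (cV B L0) ϑ q) < 1 := by
    intro q
    rw [residue_eq_zero_iff_val, coe_eval₂, hϑBcoe]
  have hevb_m : evb (X ^ N - 1) = 0 := by
    have h9 : (X ^ N - 1 : (ResidueField ↥(B.comap L0.subtype))[X]) =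
        (X ^ N - 1 : (↥(B.comap L0.subtype))[X]).map (residue ↥(B.comap L0.subtype)) := by
      rw [Polynomial.map_sub, Polynomial.map_pow, Polynomial.map_X, Polynomial.map_one]
    rw [h9, hevb, hval, hevm]
    exact hϑN
  have hevb_G : evb (G.map (residue ↥(B.comap L0.subtype))) = 0 := by
    rw [hevb, hval]
    exact hvG
  have hevb_h : evb hb = 0 := by
    rw [hbez, map_add, map_mul, map_mul, hevb_m, hevb_G, zero_mul, zero_mul, add_zero]
  have hevb_c : evb cb ≠ 0 := by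
    intro h0
    have h10 := congrArg evb hαβ
    rw [map_add, map_mul, map_mul, hevb_h, h0, mul_zero, mul_zero, add_zero, map_one] at h10
    exact zero_ne_one h10
  -- lifts
  obtain ⟨c, hc⟩ := map_surjective (residue ↥(B.comap L0.subtype)) residue_surjective cb
  obtain ⟨g1, hg1⟩ := map_surjective (residue ↥(B.comap L0.subtype)) residue_surjective g1b
  refine ⟨eval₂ (cV B L0) ϑ c, eval₂_mem_SS c hϑS, ?_, ?_⟩
  · have h11 : residue ↥B (eval₂ (incl B L0) ϑB c) ≠ 0 := by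
      rw [← hevb, hc]
      exact hevb_c
    have h12 := (residue_ne_zero_iff_isUnit _).1 h11
    have h13 := (B.valuation_eq_one_iff _).1 h12
    rwa [coe_eval₂, hϑBcoe] at h13
  · have hD : (c * G - (X ^ N - 1) * g1).map (residue ↥(B.comap L0.subtype)) = 0 := by
      rw [Polynomial.map_sub, Polynomial.map_mul, Polynomial.map_mul, hc, hg1,
        Polynomial.map_sub, Polynomial.map_pow, Polynomial.map_X, Polynomial.map_one, hg1b, hcb]
      ring
    obtain ⟨sD, hsD, hevD⟩ :=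
      eval₂_mem_smul π₀ hπ₀L h1 hπ₀0 π ρ hρK hρB hπ₀π (c * G - (X ^ N - 1) * g1) hD hϑS
    rw [eval₂_sub, eval₂_mul, eval₂_mul, hevm] at hevD
    refine ⟨(ϑ ^ N - 1) / π * eval₂ (cV B L0) ϑ g1 + sD + eval₂ (cV B L0) ϑ c * S1, ?_, ?_⟩
    · exact add_mem (add_mem (mul_mem (mem_SS_right hy₀K hy₀B) (eval₂_mem_SS g1 hϑS)) hsD)
        (mul_mem (eval₂_mem_SS c hϑS) hS1)
    · have e3 : eval₂ (cV B L0) ϑ c * eval₂ (cV B L0) ϑ G =
          (ϑ ^ N - 1) * eval₂ (cV B L0) ϑ g1 + π * sD := by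
        rw [← hevD]
        ring
      have e4 : π * ((ϑ ^ N - 1) / π * eval₂ (cV B L0) ϑ g1) =
          (ϑ ^ N - 1) * eval₂ (cV B L0) ϑ g1 := by
        field_simp
      rw [hsG]
      calc eval₂ (cV B L0) ϑ c * (eval₂ (cV B L0) ϑ G + π * S1)
          = eval₂ (cV B L0) ϑ c * eval₂ (cV B L0) ϑ G + π * (eval₂ (cV B L0) ϑ c * S1) := by
            ring
        _ = (ϑ ^ N - 1) * eval₂ (cV B L0) ϑ g1 + π * sD + π * (eval₂ (cV B L0) ϑ c * S1) := by
            rw [e3]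
        _ = π * ((ϑ ^ N - 1) / π * eval₂ (cV B L0) ϑ g1) + π * sD +
              π * (eval₂ (cV B L0) ϑ c * S1) := by rw [e4]
        _ = π * ((ϑ ^ N - 1) / π * eval₂ (cV B L0) ϑ g1 + sD + eval₂ (cV B L0) ϑ c * S1) := by
            ring

/-! ### Normal forms in `S` and in `L0 ⊔ K2` -/

theorem exists_pow_mul_unit_SS {L0 K2 : Subfield Lb} (π : Lb)
    (hT : ∀ s ∈ SS B L0 K2, B.valuation s < 1 →
      ∃ t ∈ SS B L0 K2, B.valuation t = 1 ∧ ∃ s' ∈ SS B L0 K2, t * s = π * s') :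
    ∀ M : ℕ, ∀ x ∈ SS B L0 K2, x ≠ 0 → B.valuation π ^ M < B.valuation x →
      ∃ (i : ℕ) (a t : Lb), a ∈ SS B L0 K2 ∧ t ∈ SS B L0 K2 ∧ B.valuation a = 1 ∧
        B.valuation t = 1 ∧ t * x = π ^ i * a := by
  intro M
  induction M with
  | zero =>
    intro x hx _ hlt
    rw [pow_zero] at hlt
    exact absurd (SS_val_le hx) (not_le.2 hlt)
  | succ M ih =>
    intro x hx hx0 hlt
    rcases lt_or_eq_of_le (SS_val_le hx) with h | h
    · obtain ⟨t₁, ht₁, ht₁1, s', hs', hts⟩ := hT x hx h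
      have ht₁0 : t₁ ≠ 0 := by
        intro h0
        rw [h0, map_zero] at ht₁1
        exact zero_ne_one ht₁1
      have hs'0 : s' ≠ 0 := by
        rintro rfl
        rw [mul_zero] at hts
        exact hx0 ((mul_eq_zero.1 hts).resolve_left ht₁0)
      have hv : B.valuation x = B.valuation π * B.valuation s' := by
        have h14 := congrArg B.valuation hts
        rwa [map_mul, map_mul, ht₁1, one_mul] at h14
      have hlt' : B.valuation π ^ M < B.valuation s' := by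
        rw [hv, pow_succ'] at hlt
        exact lt_of_mul_lt_mul_left' hlt
      obtain ⟨i, a, t₂, ha, ht₂, ha1, ht₂1, hta⟩ := ih s' hs' hs'0 hlt'
      refine ⟨i + 1, a, t₁ * t₂, ha, mul_mem ht₁ ht₂, ha1,
        by rw [map_mul, ht₁1, ht₂1, one_mul], ?_⟩
      calc t₁ * t₂ * x = t₂ * (t₁ * x) := by ring
        _ = t₂ * (π * s') := by rw [hts]
        _ = π * (t₂ * s') := by ring
        _ = π * (π ^ i * a) := by rw [hta]
        _ = π ^ (i + 1) * a := by ring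
    · exact ⟨0, x, 1, hx, one_mem _, h, map_one _, by rw [pow_zero]⟩

theorem exists_zpow_mul_div {L0 K2 : Subfield Lb} (π : Lb) (hπ0 : π ≠ 0)
    (hπS : π ∈ SS B L0 K2)
    (hNS : ∀ x ∈ SS B L0 K2, x ≠ 0 → ∃ (i : ℕ) (a t : Lb), a ∈ SS B L0 K2 ∧ t ∈ SS B L0 K2 ∧
      B.valuation a = 1 ∧ B.valuation t = 1 ∧ t * x = π ^ i * a)
    (hL0 : ∀ x ∈ L0, x ≠ 0 → ∃ (k : ℤ) (y : Lb), y ∈ SS B L0 K2 ∧ B.valuation y = 1 ∧
      x = π ^ k * y)
    (hK2 : ∀ x ∈ K2, x ≠ 0 → ∃ (k : ℤ) (y : Lb), y ∈ SS B L0 K2 ∧ B.valuation y = 1 ∧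
      x = π ^ k * y)
    {P : Lb} (hP : P ∈ L0 ⊔ K2) (hP0 : P ≠ 0) :
    ∃ (m : ℤ) (a t : Lb), a ∈ SS B L0 K2 ∧ t ∈ SS B L0 K2 ∧ B.valuation a = 1 ∧
      B.valuation t = 1 ∧ P * t = π ^ m * a := by
  have hne : ∀ t : Lb, B.valuation t = 1 → t ≠ 0 := by
    intro t ht h0
    rw [h0, map_zero] at ht
    exact zero_ne_one ht
  have key : ∀ x ∈ Subfield.closure ((L0 : Set Lb) ∪ (K2 : Set Lb)), x = 0 ∨
      ∃ (m : ℤ) (a t : Lb), a ∈ SS B L0 K2 ∧ t ∈ SS B L0 K2 ∧ B.valuation a = 1 ∧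
        B.valuation t = 1 ∧ x * t = π ^ m * a := by
    intro x hx
    induction hx using Subfield.closure_induction with
    | mem x hx =>
      by_cases hx0 : x = 0
      · exact Or.inl hx0
      · right
        rcases hx with h | h
        · obtain ⟨k, y, hy, hy1, hxy⟩ := hL0 x h hx0
          exact ⟨k, y, 1, hy, one_mem _, hy1, map_one _, by rw [mul_one, hxy]⟩
        · obtain ⟨k, y, hy, hy1, hxy⟩ := hK2 x h hx0
          exact ⟨k, y, 1, hy, one_mem _, hy1, map_one _, by rw [mul_one, hxy]⟩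
    | one =>
      exact Or.inr ⟨0, 1, 1, one_mem _, one_mem _, map_one _, map_one _, by simp⟩
    | add x y _ _ hx hy =>
      by_cases hxy : x + y = 0
      · exact Or.inl hxy
      right
      rcases hx with rfl | ⟨m, a, t, ha, ht, ha1, ht1, hx⟩
      · rcases hy with rfl | hy
        · exact absurd (add_zero (0 : Lb)) hxy
        · rw [zero_add]
          exact hy
      rcases hy with rfl | ⟨m', a', t', ha', ht', ha'1, ht'1, hy⟩
      · rw [add_zero]
        exact ⟨m, a, t, ha, ht, ha1, ht1, hx⟩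
      obtain ⟨d, d', m₀, hm, hm'⟩ : ∃ (d d' : ℕ) (m₀ : ℤ), m = m₀ + d ∧ m' = m₀ + d' := by
        refine ⟨(m - min m m').toNat, (m' - min m m').toNat, min m m', ?_, ?_⟩
        · rw [Int.toNat_of_nonneg (sub_nonneg.2 (min_le_left _ _))]
          ring
        · rw [Int.toNat_of_nonneg (sub_nonneg.2 (min_le_right _ _))]
          ring
      have hn : π ^ d * a * t' + π ^ d' * a' * t ∈ SS B L0 K2 :=
        add_mem (mul_mem (mul_mem (pow_mem hπS d) ha) ht')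
          (mul_mem (mul_mem (pow_mem hπS d') ha') ht)
      have hsum : (x + y) * (t * t') = π ^ m₀ * (π ^ d * a * t' + π ^ d' * a' * t) := by
        have e1 : x * t * t' = π ^ m₀ * (π ^ d * a * t') := by
          rw [hx, hm, zpow_add₀ hπ0, zpow_natCast]
          ring
        have e2 : y * t' * t = π ^ m₀ * (π ^ d' * a' * t) := by
          rw [hy, hm', zpow_add₀ hπ0, zpow_natCast]
          ring
        calc (x + y) * (t * t') = x * t * t' + y * t' * t := by ring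
          _ = π ^ m₀ * (π ^ d * a * t') + π ^ m₀ * (π ^ d' * a' * t) := by rw [e1, e2]
          _ = π ^ m₀ * (π ^ d * a * t' + π ^ d' * a' * t) := by ring
      have hn0 : π ^ d * a * t' + π ^ d' * a' * t ≠ 0 := by
        intro h0
        rw [h0, mul_zero] at hsum
        exact hxy ((mul_eq_zero.1 hsum).resolve_right
          (mul_ne_zero (hne t ht1) (hne t' ht'1)))
      obtain ⟨i, a'', t'', ha'', ht'', ha''1, ht''1, htn⟩ := hNS _ hn hn0
      refine ⟨m₀ + i, a'', t * t' * t'', ha'', mul_mem (mul_mem ht ht') ht'', ha''1,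
        by rw [map_mul, map_mul, ht1, ht'1, ht''1, one_mul, one_mul], ?_⟩
      calc (x + y) * (t * t' * t'') = (x + y) * (t * t') * t'' := by ring
        _ = π ^ m₀ * (t'' * (π ^ d * a * t' + π ^ d' * a' * t)) := by rw [hsum]; ring
        _ = π ^ m₀ * (π ^ i * a'') := by rw [htn]
        _ = π ^ (m₀ + (i : ℤ)) * a'' := by rw [zpow_add₀ hπ0, zpow_natCast]; ring
    | neg x _ hx =>
      rcases hx with rfl | ⟨m, a, t, ha, ht, ha1, ht1, hx⟩
      · exact Or.inl neg_zero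
      · exact Or.inr ⟨m, -a, t, neg_mem ha, ht, by rw [Valuation.map_neg, ha1], ht1,
          by rw [neg_mul, hx, mul_neg]⟩
    | inv x _ hx =>
      rcases hx with rfl | ⟨m, a, t, ha, ht, ha1, ht1, hx⟩
      · exact Or.inl inv_zero
      · by_cases hx0 : x = 0
        · exact Or.inl (by rw [hx0, inv_zero])
        · refine Or.inr ⟨-m, t, a, ht, ha, ht1, ha1, ?_⟩
          have hπm : π ^ m ≠ 0 := zpow_ne_zero m hπ0
          rw [zpow_neg]
          field_simp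
          rw [hx]
          ring
    | mul x y _ _ hx hy =>
      rcases hx with rfl | ⟨m, a, t, ha, ht, ha1, ht1, hx⟩
      · exact Or.inl (zero_mul _)
      rcases hy with rfl | ⟨m', a', t', ha', ht', ha'1, ht'1, hy⟩
      · exact Or.inl (mul_zero _)
      refine Or.inr ⟨m + m', a * a', t * t', mul_mem ha ha', mul_mem ht ht',
        by rw [map_mul, ha1, ha'1, one_mul], by rw [map_mul, ht1, ht'1, one_mul], ?_⟩
      calc x * y * (t * t') = x * t * (y * t') := by ring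
        _ = π ^ m * a * (π ^ m' * a') := by rw [hx, hy]
        _ = π ^ (m + m') * (a * a') := by rw [zpow_add₀ hπ0]; ring
  have hP' : P ∈ Subfield.closure ((L0 : Set Lb) ∪ (K2 : Set Lb)) := by
    rw [Subfield.closure_union, Subfield.closure_eq, Subfield.closure_eq]
    exact hP
  exact (key P hP').resolve_left hP0

/-! ### Residues of `S` are separable over the residue field of `B ∩ L0` -/

theorem residue_incl (M : Subfield Lb) (x : Lb) (h1 : x ∈ M) (h2 : x ∈ B) :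
    residue ↥B ⟨x, h2⟩ =
      ResidueField.map (incl B M) (residue ↥(B.comap M.subtype) ⟨⟨x, h1⟩, h2⟩) :=
  (ResidueField.map_residue (incl B M) ⟨⟨x, h1⟩, h2⟩).symm

theorem residue_mem_separableClosure {L0 K2 : Subfield Lb} (p : ℕ)
    (hpk : (p : ResidueField ↥(B.comap L0.subtype)) = 0)
    (h3 : ∀ θ ∈ K2, θ ∈ B → ∃ f : ℕ, 0 < f ∧ B.valuation (θ ^ (p ^ f) - θ) < 1)
    {x : Lb} (hx : x ∈ SS B L0 K2) :
    letI : Algebra (ResidueField ↥(B.comap L0.subtype)) (ResidueField ↥B) :=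
      (ResidueField.map (incl B L0)).toAlgebra
    residue ↥B ⟨x, SS_mem hx⟩ ∈
      separableClosure (ResidueField ↥(B.comap L0.subtype)) (ResidueField ↥B) := by
  let : Algebra (ResidueField ↥(B.comap L0.subtype)) (ResidueField ↥B) :=
    (ResidueField.map (incl B L0)).toAlgebra
  have hle : SS B L0 K2 ≤ Subring.map B.subtype (Subring.comap (residue ↥B)
      (separableClosure (ResidueField ↥(B.comap L0.subtype)) (ResidueField ↥B)).toSubring) := by
    apply Subring.closure_le.2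
    rintro x (⟨h1, h2⟩ | ⟨h1, h2⟩)
    · refine Subring.mem_map.2 ⟨⟨x, h2⟩, ?_, rfl⟩
      change residue ↥B ⟨x, h2⟩ ∈
        separableClosure (ResidueField ↥(B.comap L0.subtype)) (ResidueField ↥B)
      rw [residue_incl L0 x h1 h2]
      exact IntermediateField.algebraMap_mem
        (separableClosure (ResidueField ↥(B.comap L0.subtype)) (ResidueField ↥B))
        (residue ↥(B.comap L0.subtype) ⟨⟨x, h1⟩, h2⟩)
    · obtain ⟨f, hf0, hf⟩ := h3 x h1 h2
      have hroot : residue ↥B ⟨x, h2⟩ ^ (p ^ f) - residue ↥B ⟨x, h2⟩ = 0 := by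
        rw [← map_pow, ← map_sub, residue_eq_zero_iff_val]
        exact hf
      have hQ : (X ^ (p ^ f) - X : (ResidueField ↥(B.comap L0.subtype))[X]).Separable := by
        rw [separable_def, derivative_sub, derivative_X_pow, derivative_X, Nat.cast_pow, hpk,
          zero_pow hf0.ne', C_0, zero_mul, zero_sub]
        exact isCoprime_one_right.neg_right
      have haev : aeval (residue ↥B ⟨x, h2⟩)
          (X ^ (p ^ f) - X : (ResidueField ↥(B.comap L0.subtype))[X]) = 0 := by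
        rw [map_sub, map_pow, aeval_X]
        exact hroot
      refine Subring.mem_map.2 ⟨⟨x, h2⟩, ?_, rfl⟩
      change residue ↥B ⟨x, h2⟩ ∈
        separableClosure (ResidueField ↥(B.comap L0.subtype)) (ResidueField ↥B)
      exact mem_separableClosure_iff.2 (hQ.of_dvd (minpoly.dvd _ _ haev))
  obtain ⟨y, hy, hyx⟩ := Subring.mem_map.1 (hle hx)
  have e : (⟨x, SS_mem hx⟩ : ↥B) = y := Subtype.ext hyx.symm
  rw [e]
  exact hy

/-! ### The theorem -/

variable (B)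

/-- **(UNIT), level-free, row B2.**  See the file header. -/
theorem unit_descent (p : ℕ) (hp : p.Prime) (hpB : B.valuation (p : Lb) < 1)
    (L0 K2 : Subfield Lb) (π₀ : Lb) (hπ₀L : π₀ ∈ L0)
    (h1 : ∀ x ∈ L0, B.valuation x < 1 → B.valuation x ≤ B.valuation π₀)
    (π : Lb) (hπK : π ∈ K2) (hπ1 : B.valuation π < 1) (hπ0 : π ≠ 0)
    (h2 : ∀ x ∈ K2, B.valuation x < 1 → B.valuation x ≤ B.valuation π)
    (e : ℕ) (he : 0 < e) (ε : Lb) (hεK : ε ∈ K2) (hε : B.valuation ε = 1)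
    (hπe : π₀ = π ^ e * ε)
    (h3 : ∀ θ ∈ K2, θ ∈ B → ∃ f : ℕ, 0 < f ∧ B.valuation (θ ^ (p ^ f) - θ) < 1)
    (h4 : ∀ x : Lb, x ≠ 0 → ∃ n : ℕ, B.valuation π₀ ^ n < B.valuation x)
    (F : Lb) (hF : F ∈ L0) (hF0 : F ≠ 0)
    (c P u : Lb) (hc : c ∈ K2) (hP : P ∈ L0 ⊔ K2) (hu : B.valuation (u - 1) < 1)
    (h : F = c * P ^ p * u) :
    ∃ (a : ℕ) (g r : Lb), a < p ∧ g ∈ L0 ∧ r ∈ L0 ∧ g ≠ 0 ∧ r ∈ B ∧
      F = π₀ ^ a * g ^ p * (1 + π₀ * r) := by
  classical
  have : Fact p.Prime := ⟨hp⟩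
  have hne : ∀ t : Lb, B.valuation t = 1 → t ≠ 0 := by
    intro t ht h0
    rw [h0, map_zero] at ht
    exact zero_ne_one ht
  have hε0 : ε ≠ 0 := hne ε hε
  have hπ₀0 : π₀ ≠ 0 := by
    rw [hπe]
    exact mul_ne_zero (pow_ne_zero e hπ0) hε0
  have hvπ0 : B.valuation π ≠ 0 := (Valuation.ne_zero_iff _).2 hπ0
  have hvp : B.valuation π₀ = B.valuation π ^ e := by
    rw [hπe, map_mul, map_pow, hε, mul_one]
  obtain ⟨e', rfl⟩ : ∃ e', e = e' + 1 := ⟨e - 1, (Nat.sub_add_cancel he).symm⟩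
  have hπB : π ∈ B := (B.valuation_le_one_iff π).1 hπ1.le
  have hεB : ε ∈ B := (B.valuation_le_one_iff ε).1 hε.le
  have hρK : π ^ e' * ε ∈ K2 := mul_mem (pow_mem hπK _) hεK
  have hρB : π ^ e' * ε ∈ B := mul_mem (pow_mem hπB _) hεB
  have hπ₀π : π₀ = π * (π ^ e' * ε) := by
    rw [hπe, pow_succ']
    ring
  have h4π : ∀ x : Lb, x ≠ 0 → ∃ n : ℕ, B.valuation π ^ n < B.valuation x := by
    intro x hx
    obtain ⟨n, hn⟩ := h4 x hx
    exact ⟨(e' + 1) * n, by rwa [pow_mul, ← hvp]⟩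
  have hπS : π ∈ SS B L0 K2 := mem_SS_right hπK hπB
  -- the key step and the normal forms
  have hT : ∀ s ∈ SS B L0 K2, B.valuation s < 1 →
      ∃ t ∈ SS B L0 K2, B.valuation t = 1 ∧ ∃ s' ∈ SS B L0 K2, t * s = π * s' :=
    fun s hs hs1 =>
      exists_unit_mul_eq p hpB π₀ hπ₀L h1 hπ₀0 π (π ^ e' * ε) hπK hπ0 hπ1 hρK hρB hπ₀π h2 h3
        hs hs1
  have hNS : ∀ x ∈ SS B L0 K2, x ≠ 0 → ∃ (i : ℕ) (a t : Lb), a ∈ SS B L0 K2 ∧
      t ∈ SS B L0 K2 ∧ B.valuation a = 1 ∧ B.valuation t = 1 ∧ t * x = π ^ i * a := by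
    intro x hx hx0
    obtain ⟨M, hM⟩ := h4π x hx0
    exact exists_pow_mul_unit_SS π hT M x hx hx0 hM
  have hD1 := exists_zpow_mul_unit B L0 π₀ hπ₀L hπ₀0 h1 h4
  have hD2 := exists_zpow_mul_unit B K2 π hπK hπ0 h2 h4π
  have hL0 : ∀ x ∈ L0, x ≠ 0 → ∃ (k : ℤ) (y : Lb), y ∈ SS B L0 K2 ∧ B.valuation y = 1 ∧
      x = π ^ k * y := by
    intro x hx hx0
    obtain ⟨k, y, hyL, hy1, hxy⟩ := hD1 x hx hx0
    have hεk : B.valuation (ε ^ k) = 1 := by rw [map_zpow₀, hε, one_zpow]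
    refine ⟨((e' + 1 : ℕ) : ℤ) * k, ε ^ k * y, ?_, by rw [map_mul, hεk, hy1, one_mul], ?_⟩
    · exact mul_mem (mem_SS_right (zpow_mem hεK k) ((B.valuation_le_one_iff _).1 hεk.le))
        (mem_SS_left hyL ((B.valuation_le_one_iff _).1 hy1.le))
    · rw [hxy, hπe, mul_zpow, zpow_mul, zpow_natCast]
      ring
  have hK2 : ∀ x ∈ K2, x ≠ 0 → ∃ (k : ℤ) (y : Lb), y ∈ SS B L0 K2 ∧ B.valuation y = 1 ∧
      x = π ^ k * y := by
    intro x hx hx0
    obtain ⟨k, y, hyK, hy1, hxy⟩ := hD2 x hx hx0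
    exact ⟨k, y, mem_SS_right hyK ((B.valuation_le_one_iff _).1 hy1.le), hy1, hxy⟩
  -- decompose the data
  have hc0 : c ≠ 0 := by
    rintro rfl
    rw [zero_mul, zero_mul] at h
    exact hF0 h
  have hP0 : P ≠ 0 := by
    rintro rfl
    rw [zero_pow hp.ne_zero, mul_zero, zero_mul] at h
    exact hF0 h
  have hvu : B.valuation u = 1 := by
    have h15 := Valuation.map_one_add_of_lt (v := B.valuation) hu
    rwa [add_sub_cancel] at h15
  obtain ⟨a, F₁, hF₁L, hF₁1, hFa⟩ := hD1 F hF hF0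
  obtain ⟨b, c₁, hc₁K, hc₁1, hcb⟩ := hD2 c hc hc0
  obtain ⟨m, a₀, t₀, ha₀, ht₀, ha₀1, ht₀1, hPt⟩ :=
    exists_zpow_mul_div π hπ0 hπS hNS hL0 hK2 hP hP0
  have ht₀0 : t₀ ≠ 0 := hne t₀ ht₀1
  have ha₀0 : a₀ ≠ 0 := hne a₀ ha₀1
  have hPeq : P = π ^ m * (a₀ / t₀) := by
    rw [eq_comm, ← mul_div_assoc, div_eq_iff ht₀0]
    exact hPt.symm
  -- the exponents agree
  have hvq : B.valuation (a₀ / t₀) = 1 := by rw [map_div₀, ha₀1, ht₀1, div_one]
  have hexp : ((e' + 1 : ℕ) : ℤ) * a = b + (p : ℤ) * m := by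
    have hvF1 : B.valuation F = B.valuation π ^ (((e' + 1 : ℕ) : ℤ) * a) := by
      rw [hFa, map_mul, hF₁1, mul_one, map_zpow₀, hvp, zpow_mul, zpow_natCast]
    have hvc : B.valuation c = B.valuation π ^ b := by
      rw [hcb, map_mul, hc₁1, mul_one, map_zpow₀]
    have hvP : B.valuation P = B.valuation π ^ m := by
      rw [hPeq, map_mul, hvq, mul_one, map_zpow₀]
    have hvF2 : B.valuation F = B.valuation π ^ (b + (p : ℤ) * m) := by
      rw [h, map_mul, map_mul, map_pow, hvc, hvP, hvu, mul_one, zpow_add₀ hvπ0, zpow_mul',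
        zpow_natCast]
    have hinj := zpow_right_injective₀ (zero_lt_iff.2 hvπ0) (ne_of_lt hπ1)
    exact hinj (hvF1.symm.trans hvF2)
  -- `F₁ = c₂ * (a₀ / t₀) ^ p * u`
  obtain ⟨c₂, hc₂def⟩ : ∃ c₂ : Lb, c₂ = (ε ^ a)⁻¹ * c₁ := ⟨_, rfl⟩
  have hc₂K : c₂ ∈ K2 := by
    rw [hc₂def]
    exact mul_mem (inv_mem (zpow_mem hεK a)) hc₁K
  have hc₂1 : B.valuation c₂ = 1 := by
    rw [hc₂def, map_mul, map_inv₀, map_zpow₀, hε, one_zpow, inv_one, hc₁1, one_mul]
  have hc₂B : c₂ ∈ B := (B.valuation_le_one_iff _).1 hc₂1.le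
  have hF₁ : F₁ = c₂ * (a₀ / t₀) ^ p * u := by
    have hπa : π ^ (((e' + 1 : ℕ) : ℤ) * a) ≠ 0 := zpow_ne_zero _ hπ0
    have hεa : ε ^ a ≠ 0 := zpow_ne_zero _ hε0
    have e5 : π₀ ^ a = π ^ (((e' + 1 : ℕ) : ℤ) * a) * ε ^ a := by
      rw [hπe, mul_zpow, zpow_mul, zpow_natCast]
    have e6 : c * P ^ p = π ^ (((e' + 1 : ℕ) : ℤ) * a) * (c₁ * (a₀ / t₀) ^ p) := by
      rw [hcb, hPeq, mul_pow, hexp, zpow_add₀ hπ0, zpow_mul', zpow_natCast]
      ring
    have e7 : π ^ (((e' + 1 : ℕ) : ℤ) * a) * (ε ^ a * F₁) =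
        π ^ (((e' + 1 : ℕ) : ℤ) * a) * (c₁ * (a₀ / t₀) ^ p * u) := by
      calc π ^ (((e' + 1 : ℕ) : ℤ) * a) * (ε ^ a * F₁) = π₀ ^ a * F₁ := by rw [e5]; ring
        _ = F := hFa.symm
        _ = c * P ^ p * u := h
        _ = π ^ (((e' + 1 : ℕ) : ℤ) * a) * (c₁ * (a₀ / t₀) ^ p * u) := by rw [e6]; ring
    have e8 : ε ^ a * F₁ = c₁ * (a₀ / t₀) ^ p * u := mul_left_cancel₀ hπa e7
    rw [hc₂def]
    calc F₁ = (ε ^ a)⁻¹ * (ε ^ a * F₁) := by rw [← mul_assoc, inv_mul_cancel₀ hεa, one_mul]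
      _ = (ε ^ a)⁻¹ * (c₁ * (a₀ / t₀) ^ p * u) := by rw [e8]
      _ = (ε ^ a)⁻¹ * c₁ * (a₀ / t₀) ^ p * u := by ring
  -- a `p`-th root of the constant `c₂` modulo the maximal ideal
  obtain ⟨f, hf0, hf⟩ := h3 c₂ hc₂K hc₂B
  obtain ⟨f', rfl⟩ : ∃ f', f = f' + 1 := ⟨f - 1, (Nat.sub_add_cancel hf0).symm⟩
  obtain ⟨q, hqdef⟩ : ∃ q : Lb, q = a₀ / t₀ := ⟨_, rfl⟩
  rw [← hqdef] at hvq hF₁
  obtain ⟨z, hzdef⟩ : ∃ z : Lb, z = c₂ ^ (p ^ f') * q := ⟨_, rfl⟩
  have hz1 : B.valuation z = 1 := by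
    rw [hzdef, map_mul, map_pow, hc₂1, one_pow, hvq, one_mul]
  have hzB : z ∈ B := (B.valuation_le_one_iff _).1 hz1.le
  have hF₁B : F₁ ∈ B := (B.valuation_le_one_iff _).1 hF₁1.le
  have hFz : B.valuation (F₁ - z ^ p) < 1 := by
    have e9 : F₁ - z ^ p = q ^ p * (c₂ * (u - 1) - (c₂ ^ (p ^ (f' + 1)) - c₂)) := by
      rw [hF₁, hzdef, pow_succ, pow_mul]
      ring
    rw [e9, map_mul, map_pow, hvq, one_pow, one_mul]
    refine Valuation.map_sub_lt _ ?_ hf
    rw [map_mul, hc₂1, one_mul]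
    exact hu
  -- residue fields
  let : Algebra (ResidueField ↥(B.comap L0.subtype)) (ResidueField ↥B) :=
    (ResidueField.map (incl B L0)).toAlgebra
  have hpk : (p : ResidueField ↥(B.comap L0.subtype)) = 0 := by
    have hmem : (p : ↥(B.comap L0.subtype)) ∈ maximalIdeal ↥(B.comap L0.subtype) := by
      rw [mem_maximalIdeal_comap_iff]
      exact hpB
    have h16 := (residue_eq_zero_iff _).2 hmem
    rwa [map_natCast] at h16
  have : CharP (ResidueField ↥(B.comap L0.subtype)) p :=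
    (CharP.charP_iff_prime_eq_zero hp).2 hpk
  have : ExpChar (ResidueField ↥(B.comap L0.subtype)) p := ExpChar.prime hp
  -- the residue of `z` is separable over `k'`
  have hnum : c₂ ^ (p ^ f') * a₀ ∈ SS B L0 K2 :=
    mul_mem (pow_mem (mem_SS_right hc₂K hc₂B) _) ha₀
  have hzt : z * t₀ = c₂ ^ (p ^ f') * a₀ := by
    rw [hzdef, hqdef, mul_assoc, div_mul_cancel₀ a₀ ht₀0]
  have hres_t : residue ↥B ⟨t₀, SS_mem ht₀⟩ ≠ 0 := by
    rw [Ne, residue_eq_zero_iff_val]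
    exact not_lt.2 ht₀1.ge
  have hzres : residue ↥B ⟨z, hzB⟩ =
      residue ↥B ⟨c₂ ^ (p ^ f') * a₀, SS_mem hnum⟩ / residue ↥B ⟨t₀, SS_mem ht₀⟩ := by
    rw [eq_div_iff hres_t, ← map_mul]
    congr 1
    exact Subtype.ext hzt
  have hzsep : residue ↥B ⟨z, hzB⟩ ∈
      separableClosure (ResidueField ↥(B.comap L0.subtype)) (ResidueField ↥B) := by
    rw [hzres]
    exact div_mem (residue_mem_separableClosure p hpk h3 hnum)
      (residue_mem_separableClosure p hpk h3 ht₀)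
  -- and purely inseparable
  have e10 : algebraMap (ResidueField ↥(B.comap L0.subtype)) (ResidueField ↥B)
      (residue ↥(B.comap L0.subtype) ⟨⟨F₁, hF₁L⟩, hF₁B⟩) = residue ↥B ⟨F₁, hF₁B⟩ :=
    ResidueField.map_residue (incl B L0) _
  have hzpow : residue ↥B ⟨z, hzB⟩ ^ p = algebraMap (ResidueField ↥(B.comap L0.subtype))
      (ResidueField ↥B) (residue ↥(B.comap L0.subtype) ⟨⟨F₁, hF₁L⟩, hF₁B⟩) := by
    rw [e10, ← map_pow, eq_comm, ← sub_eq_zero, ← map_sub, residue_eq_zero_iff_val]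
    exact hFz
  have hzperf : residue ↥B ⟨z, hzB⟩ ∈
      perfectClosure (ResidueField ↥(B.comap L0.subtype)) (ResidueField ↥B) :=
    (mem_perfectClosure_iff_pow_mem p).2 ⟨1, by rw [pow_one]; exact ⟨_, hzpow.symm⟩⟩
  have hzbot : residue ↥B ⟨z, hzB⟩ ∈
      (⊥ : IntermediateField (ResidueField ↥(B.comap L0.subtype)) (ResidueField ↥B)) := by
    rw [← separableClosure_inf_perfectClosure]
    exact ⟨hzsep, hzperf⟩
  obtain ⟨gb, hgb⟩ := IntermediateField.mem_bot.1 hzbot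
  obtain ⟨gV, rfl⟩ := residue_surjective (R := ↥(B.comap L0.subtype)) gb
  have hgres : residue ↥B (incl B L0 gV) = residue ↥B ⟨z, hzB⟩ :=
    (ResidueField.map_residue (incl B L0) gV).symm.trans hgb
  -- the lift `g`
  obtain ⟨g, hgdef⟩ : ∃ g : Lb, g = ((gV : L0) : Lb) := ⟨_, rfl⟩
  have hgL : g ∈ L0 := by rw [hgdef]; exact (gV : L0).2
  have hg1 : B.valuation g = 1 := by
    have h17 : residue ↥B (incl B L0 gV) ≠ 0 := by
      rw [hgres, Ne, residue_eq_zero_iff_val]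
      exact not_lt.2 hz1.ge
    have h18 := (B.valuation_eq_one_iff _).1 ((residue_ne_zero_iff_isUnit _).1 h17)
    rw [hgdef]
    exact h18
  have hg0 : g ≠ 0 := hne g hg1
  have hFg : B.valuation (F₁ - g ^ p) < 1 := by
    have h19 : residue ↥B (⟨F₁, hF₁B⟩ - incl B L0 gV ^ p) = 0 := by
      rw [map_sub, map_pow, hgres, sub_eq_zero, ← e10, hzpow]
    have h20 := (residue_eq_zero_iff_val B _).1 h19
    rw [hgdef]
    exact h20
  -- conclusion
  have hle := h1 (F₁ - g ^ p) (sub_mem hF₁L (pow_mem hgL p)) hFg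
  have hgp0 : g ^ p ≠ 0 := pow_ne_zero p hg0
  have hpZ : (p : ℤ) ≠ 0 := Int.natCast_ne_zero.2 hp.ne_zero
  obtain ⟨a', ha'⟩ : ∃ a' : ℕ, (a' : ℤ) = a % (p : ℤ) :=
    ⟨(a % (p : ℤ)).toNat, Int.toNat_of_nonneg (Int.emod_nonneg a hpZ)⟩
  have ha'lt : a' < p := by
    have h21 : (a' : ℤ) < (p : ℤ) := by
      rw [ha']
      exact Int.emod_lt_of_pos a (Int.natCast_pos.2 hp.pos)
    exact_mod_cast h21
  obtain ⟨k, hk⟩ : ∃ k : ℤ, k = a / (p : ℤ) := ⟨_, rfl⟩
  have hsplit : a = (a' : ℤ) + (p : ℤ) * k := by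
    rw [ha', hk]
    exact (Int.emod_add_mul_ediv a p).symm
  have hπ₀a : π₀ ^ a = π₀ ^ a' * (π₀ ^ k) ^ p := by
    rw [hsplit, zpow_add₀ hπ₀0, zpow_natCast, zpow_mul', zpow_natCast]
  have e11 : g ^ p * (1 + π₀ * ((F₁ - g ^ p) / π₀ / g ^ p)) = F₁ := by
    have e12 : π₀ * ((F₁ - g ^ p) / π₀ / g ^ p) = (F₁ - g ^ p) / g ^ p := by
      rw [div_div, mul_div_assoc', mul_div_mul_left _ _ hπ₀0]
    rw [e12, mul_add, mul_one, mul_div_cancel₀ _ hgp0]
    ring
  refine ⟨a', π₀ ^ k * g, (F₁ - g ^ p) / π₀ / g ^ p, ha'lt, mul_mem (zpow_mem hπ₀L k) hgL,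
    div_mem (div_mem (sub_mem hF₁L (pow_mem hgL p)) hπ₀L) (pow_mem hgL p),
    mul_ne_zero (zpow_ne_zero k hπ₀0) hg0, ?_, ?_⟩
  · rw [← B.valuation_le_one_iff, map_div₀, map_div₀, map_pow, hg1, one_pow, div_one]
    exact div_le_one_of_le₀ hle zero_le
  · rw [hFa, hπ₀a, mul_pow]
    calc π₀ ^ a' * (π₀ ^ k) ^ p * F₁
        = π₀ ^ a' * (π₀ ^ k) ^ p * (g ^ p * (1 + π₀ * ((F₁ - g ^ p) / π₀ / g ^ p))) := by
          rw [e11]
      _ = π₀ ^ a' * ((π₀ ^ k) ^ p * g ^ p) * (1 + π₀ * ((F₁ - g ^ p) / π₀ / g ^ p)) := by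
          ring

/-- **(UNIT), row B2, membership form** (the words of GEO POST #3, B2, with the residue
characteristic hypothesis `hpB`): `B.nonunits` is the maximal ideal of `B` as a subset of
`Lb`. -/
theorem unit_descent_mem (p : ℕ) (hp : p.Prime) (hpB : (p : Lb) ∈ B.nonunits)
    (L0 K2 : Subfield Lb) (π₀ : Lb) (hπ₀L : π₀ ∈ L0)
    (h1 : ∀ x ∈ L0, x ∈ B.nonunits → x / π₀ ∈ B)
    (π : Lb) (hπK : π ∈ K2) (hπ1 : π ∈ B.nonunits) (hπ0 : π ≠ 0)
    (h2 : ∀ x ∈ K2, x ∈ B.nonunits → x / π ∈ B)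
    (e : ℕ) (he : 0 < e) (ε : Lb) (hεK : ε ∈ K2) (hεB : ε ∈ B) (hεB' : ε⁻¹ ∈ B)
    (hπe : π₀ = π ^ e * ε)
    (h3 : ∀ θ ∈ K2, θ ∈ B → ∃ f : ℕ, 0 < f ∧ θ ^ (p ^ f) - θ ∈ B.nonunits)
    (h4 : ∀ x : Lb, x ≠ 0 → ∃ n : ℕ, x / π₀ ^ n ∉ B)
    (F : Lb) (hF : F ∈ L0) (hF0 : F ≠ 0)
    (c P u : Lb) (hc : c ∈ K2) (hP : P ∈ L0 ⊔ K2) (hu : u - 1 ∈ B.nonunits)
    (h : F = c * P ^ p * u) :
    ∃ (a : ℕ) (g r : Lb), a < p ∧ g ∈ L0 ∧ r ∈ L0 ∧ g ≠ 0 ∧ r ∈ B ∧
      F = π₀ ^ a * g ^ p * (1 + π₀ * r) := by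
  have hπ₀0 : π₀ ≠ 0 := by
    intro h0
    obtain ⟨n, hn⟩ := h4 1 one_ne_zero
    apply hn
    rw [h0]
    rcases Nat.eq_zero_or_pos n with rfl | hn0
    · rw [pow_zero, div_one]
      exact one_mem _
    · rw [zero_pow hn0.ne', div_zero]
      exact zero_mem _
  have hε0 : ε ≠ 0 := by
    intro h0
    rw [h0, mul_zero] at hπe
    exact hπ₀0 hπe
  have hvπ₀ : 0 < B.valuation π₀ := zero_lt_iff.2 ((Valuation.ne_zero_iff _).2 hπ₀0)
  have hvπ : 0 < B.valuation π := zero_lt_iff.2 ((Valuation.ne_zero_iff _).2 hπ0)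
  have hε : B.valuation ε = 1 := by
    have ha := (B.valuation_le_one_iff _).2 hεB
    have hb := (B.valuation_le_one_iff _).2 hεB'
    rw [map_inv₀] at hb
    have hv0 : 0 < B.valuation ε := zero_lt_iff.2 ((Valuation.ne_zero_iff _).2 hε0)
    exact le_antisymm ha ((inv_le_one₀ hv0).1 hb)
  refine unit_descent B p hp (B.mem_nonunits_iff.1 hpB) L0 K2 π₀ hπ₀L ?_ π hπK
    (B.mem_nonunits_iff.1 hπ1) hπ0 ?_ e he ε hεK hε hπe ?_ ?_ F hF hF0 c P u hc hP
    (B.mem_nonunits_iff.1 hu) h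
  · intro x hx hx1
    have h5 := (B.valuation_le_one_iff _).2 (h1 x hx (B.mem_nonunits_iff.2 hx1))
    rw [map_div₀] at h5
    exact (div_le_one₀ hvπ₀).1 h5
  · intro x hx hx1
    have h5 := (B.valuation_le_one_iff _).2 (h2 x hx (B.mem_nonunits_iff.2 hx1))
    rw [map_div₀] at h5
    exact (div_le_one₀ hvπ).1 h5
  · intro θ hθK hθB
    obtain ⟨f, hf0, hf⟩ := h3 θ hθK hθB
    exact ⟨f, hf0, B.mem_nonunits_iff.1 hf⟩
  · intro x hx
    obtain ⟨n, hn⟩ := h4 x hx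
    refine ⟨n, ?_⟩
    rw [← B.valuation_le_one_iff, not_le, map_div₀, map_pow] at hn
    exact (one_lt_div₀ (pow_pos hvπ₀ n)).1 hn

end Fermat.Agent.S33.Geo.UnitDescent
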