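import Mathlib
import Fermat.Agent.S33.Geo.UnitGauss
import Fermat.Agent.S33.Geo.FunIFinal
import Fermat.Agent.S33.Geo.SwapUnique

/-!
# S33, strand GEO, Stage B: the exit of row B4 (the unit instance) in the form of `FunIFinal`

helper279.  `UnitGauss.hunit_VB` is stated for the chosen Atkin–Lehner swap `ToricSwap.wAL` and
any uniformiser; `FunIFinal.funIStatement_of_leaves` asks for every swap of the contract
(`Contract.IsSwap`), a finite set `S₀` and base fields of the class `GeomClass A M S₀ K` with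
uniformiser `p`.  The swap is unique (`SwapUnique.isSwap_eq_wAL`), the finite set is empty.

* `hunit_VB_of_isSwap` : the unit statement for every swap of the contract.
* `hB4` : the binder `hB4` of `FunIFinal.funIStatement_of_leaves`, verbatim.
* `funIStatement_of_model` : the hole `?FunI` from the model instance (row B3) alone.
-/

set_option autoImplicit false
set_option linter.unusedSectionVars false
set_option linter.unusedVariables false
set_option linter.style.haveILetI false
set_option synthInstance.maxHeartbeats 400000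
set_option maxHeartbeats 1000000

open ModularCurve

noncomputable section

namespace Fermat.Agent.S33.Geo.UnitGaussExit

open Fermat.Agent.S18.K1Defs Fermat.Agent.S18.K1Main Fermat.Agent.S30 Fermat.Agent.S30.E4
open Fermat.Agent.S30.Producer
open Fermat.Agent.S34.TwoPrimesRank Fermat.Agent.S34.HauptU.Plug Fermat.Agent.S36.Haupt4
open Fermat.Agent.S36.HorizAdapter Fermat.Agent.S36.GeomClass
open Fermat.Agent.S33.Geo.Contract Fermat.Agent.S33.Geo.GaussRings

local notation "Qb" => AlgebraicClosure ℚ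

/-- **The unit statement for every swap of the contract**, over any base field `K` with `A ∩ K`
a discrete valuation ring and any uniformiser `ϖ`. -/
theorem hunit_VB_of_isSwap (A : ValuationSubring Qb) (M p : ℕ) [NeZero M] [NeZero p]
    (hp : p.Prime) (hpM : ¬ p ∣ M) (hA : A.LiesOverPrime p)
    (w : FN (M * p) ≃ₐ[Qb] FN (M * p)) (hw : IsSwap M p w)
    (K : IntermediateField ℚ Qb) [IsDiscreteValuationRing (OE A K)]
    (ϖ : OE A K) (hϖ : Irreducible ϖ) :
    letI := algebraOL (OE A K) K (LE (M * p) K)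
    ∀ y : LE (M * p) K,
      TrivAt (M * p) A p 1 (Fermat.Agent.S36.InvFun.upF (M * p) K y) →
      TrivAt (M * p) A p 1 (w (Fermat.Agent.S36.InvFun.upF (M * p) K y)) →
      ∀ W : Bool, ∃ c : OE A K, c ≠ 0 ∧
        Fermat.Agent.S33.Geo.Top.DepthIn (VB M p K (OE A K) hp hpM W) p ϖ 1 y c := by
  intro y ht htw W
  rw [Fermat.Agent.S33.Geo.SwapUnique.isSwap_eq_wAL hp hpM hw] at htw
  exact Fermat.Agent.S33.Geo.UnitGauss.hunit_VB A M p hp hpM hA K ϖ hϖ y ht htw W

/-- **Row B4 in the form of `FunIFinal`**: the binder `hB4` of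
`FunIFinal.funIStatement_of_leaves`, verbatim (`S₀ = ∅`). -/
theorem hB4 {N' p : ℕ} [NeZero N'] [NeZero p] :
    ∀ (hp : p.Prime) (hodd : p ≠ 2) (hpM : ¬ p ∣ N' * 2 * 2)
        (A : ValuationSubring Qb) (hA : A.LiesOverPrime p)
        (w : FN (N' * 2 * 2 * p) ≃ₐ[Qb] FN (N' * 2 * 2 * p)), IsSwap (N' * 2 * 2) p w →
        ∃ S₀ : Finset Qb, (∀ s ∈ S₀, ∀ τ ∈ A.inertiaSubgroupIn ℚ, τ s = s) ∧
          ∀ (K : IntermediateField ℚ Qb), GeomClass A (N' * 2 * 2) S₀ K →
            ∀ [FiniteDimensional ℚ K] [IsDiscreteValuationRing (OE A K)],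
            letI := algebraOL (OE A K) K (LE (N' * 2 * 2 * p) K)
            ∀ y : LE (N' * 2 * 2 * p) K, y ≠ 0 →
              TrivAt (N' * 2 * 2 * p) A p 1 (Fermat.Agent.S36.InvFun.upF (N' * 2 * 2 * p) K y) →
              TrivAt (N' * 2 * 2 * p) A p 1
                (w (Fermat.Agent.S36.InvFun.upF (N' * 2 * 2 * p) K y)) →
              ∀ W : Bool, ∃ c : OE A K, c ≠ 0 ∧
                Fermat.Agent.S33.Geo.Top.DepthIn (VB (N' * 2 * 2) p K (OE A K) hp hpM W) p
                  ((p : ℕ) : OE A K) 1 y c := by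
  intro hp hodd hpM A hA w hw
  refine ⟨∅, fun s hs => by simp at hs, ?_⟩
  intro K hK _ _ y hy ht htw W
  exact hunit_VB_of_isSwap A (N' * 2 * 2) p hp hpM hA w hw K _ (hK.irreducible_natCast hp hA)
    y ht htw W

/-- **The hole `?FunI` of `S33/Exit.result_of_fun` from the model instance (row B3) alone.** -/
theorem funIStatement_of_model {N' p : ℕ} [NeZero N'] [NeZero p]
    (hB3 : ∀ (hp : p.Prime) (hodd : p ≠ 2) (hpM : ¬ p ∣ N' * 2 * 2) (h4 : 4 ∣ N' * 2 * 2)
        (A : ValuationSubring Qb) (hA : A.LiesOverPrime p)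
        (K : IntermediateField ℚ Qb) [FiniteDimensional ℚ K] [IsDiscreteValuationRing (OE A K)]
        (z : Qb) (hz : IsPrimitiveRoot z (N' * 2 * 2)) (hzK : z ∈ K)
        (hπ : Irreducible ((p : ℕ) : OE A K)),
        letI := algebraOL (OE A K) K (LE (N' * 2 * 2 * p) K)
        ∃ (Y : Type) (R : Y → Subring (LE (N' * 2 * 2 * p) K)) (On : Y → Bool → Prop),
          Fermat.Agent.S33.Geo.Model.IsModelI p ((p : ℕ) : OE A K)
            (VB (N' * 2 * 2) p K (OE A K) hp hpM) R On
            (fun f => Horiz ((p : ℕ) : OE A K) p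
                (alphaHom (N' * 2 * 2) p K (u4E (N' * 2 * 2) K h4)) f ∧
              Horiz ((p : ℕ) : OE A K) p
                (alphaHom (N' * 2 * 2) p K (u4E (N' * 2 * 2) K h4))⁻¹ f) ∧
          Fermat.Agent.S33.Geo.Model.CoversCusp ((p : ℕ) : OE A K)
            (alphaHom (N' * 2 * 2) p K (u4E (N' * 2 * 2) K h4)) R) :
    Fermat.Agent.S33.Geo.FunLevel.FunIStatement (N' * 2 * 2) p :=
  Fermat.Agent.S33.Geo.FunIFinal.funIStatement_of_leaves hB3 hB4

end Fermat.Agent.S33.Geo.UnitGaussExit
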