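import Mathlib
import Fermat.Agent.S33.Geo.Orth
import Fermat.Agent.S33.Geo.OrthDom
import Fermat.Agent.S33.Geo.Top

/-!
# S33 / GEO, row C6-E (UNIT upstairs), level-free core

Four fields in a commutative square

```
   F2 --φ--> L2          F  = function field over the base `K`            (`LE L K`)
   ^         ^           F2 = function field over the big constants `E''` (`LE L E''`)
   |         |           L0 = the cover field over `K`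
   F  -----> L0          L2 = `L0 · E''`
```

`v₂` a valuation of `F2` (the Gauss valuation at the component `W`), with the `Orth` binders over
`F` : `v₂ (Fˣ) = (v₂ ϖ) ^ ℤ`, `π₂ : F2` with `v₂ π₂ ^ e = v₂ ϖ < 1`, and `F2 = ∑_{i<e} F π₂ ^ i`
(`F2 / F` totally ramified at `v₂`: the base `K` is the inertia field of `E''`).

`V'` a valuation ring of `L0` with uniformiser `ϖ` (`hVval`, `hϖV`, `hϖinv`, `hunif`) lying over
the `v₂`-integers of `F` (`hβ`), and `L2 = ∑_{i<e} L0 π₂ ^ i` (`hspan`), `ρ ^ p = ϖ` in `L2`.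

* `exists_dominating` : a valuation subring `B` of `L2` dominating `V'`.
* `unit_up` : if `f ∈ L0ˣ` is `G ^ p * u` in `L2` with `u ∈ F2` a one-unit of `v₂`
  (`v₂ (u - 1) < 1`), then `f = ϖ ^ m * g ^ p * (1 + ϖ r)` with `m < p`, `g ∈ L0ˣ`, `r ∈ V'`.
* `unit_up_depthIn` : the same as `∃ c : O, c ≠ 0 ∧ Top.DepthIn V' p ϖO 1 f c` (`c = ϖO ^ m`).

Proof: `B` from `IsLocalRing.exists_factor_valuationRing`; `OrthDom` (at `(F, F2, v₂)`,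
`w := B.valuation ∘ φ`) turns the one-unit `u` of `v₂` into a one-unit of `B` and gives
`B.valuation (φ π₂) ^ e = B.valuation ϖ`; then `Orth.depthIn_form` at `(L0, L2, B.valuation)`.
No `q`-expansion of `L0`, no conjugation, no uniqueness of the extension of `V'`.
-/

set_option autoImplicit false

namespace Fermat.Agent.S33.Geo.UnitUpCore

variable {F F2 L0 L2 Γ₀ : Type*} [Field F] [Field F2] [Field L0] [Field L2]
  [Algebra F F2] [Algebra F L0] [Algebra L0 L2] [LinearOrderedCommGroupWithZero Γ₀]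

/-- The valuation subring with carrier `V'`. -/
def toVS (V' : Subring L0) (hVval : ∀ x : L0, x ∈ V' ∨ x⁻¹ ∈ V') : ValuationSubring L0 :=
  { V' with mem_or_inv_mem' := hVval }

theorem mem_toVS (V' : Subring L0) (hVval : ∀ x : L0, x ∈ V' ∨ x⁻¹ ∈ V') (x : L0) :
    x ∈ toVS V' hVval ↔ x ∈ V' := Iff.rfl

/-- **A valuation subring of `L2` dominating `V'`**: it contains the image of `V'`, and the
non-units of `V'` have valuation `< 1`. -/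
theorem exists_dominating (V' : Subring L0) (hVval : ∀ x : L0, x ∈ V' ∨ x⁻¹ ∈ V') :
    ∃ B : ValuationSubring L2, (∀ x ∈ V', B.valuation (algebraMap L0 L2 x) ≤ 1) ∧
      ∀ x ∈ V', x⁻¹ ∉ V' → B.valuation (algebraMap L0 L2 x) < 1 := by
  obtain ⟨B, h, hloc⟩ := IsLocalRing.exists_factor_valuationRing
    ((algebraMap L0 L2).comp (toVS V' hVval).subtype)
  have hmem : ∀ x (hx : x ∈ V'), algebraMap L0 L2 x ∈ B := fun x hx => h ⟨x, hx⟩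
  refine ⟨B, fun x hx => (B.valuation_le_one_iff _).mpr (hmem x hx), fun x hx hxinv => ?_⟩
  have hnu : ¬ IsUnit (⟨x, hx⟩ : toVS V' hVval) := by
    intro hu
    obtain ⟨y, hy⟩ := hu.exists_right_inv
    have h1 : x * (y : L0) = 1 := congrArg Subtype.val hy
    have h2 : (y : L0) = x⁻¹ := eq_inv_of_mul_eq_one_right h1
    exact hxinv (h2 ▸ y.2)
  have hnu' : ¬ IsUnit (⟨algebraMap L0 L2 x, hmem x hx⟩ : B) := by
    intro hu
    exact hnu (hloc.map_nonunit (⟨x, hx⟩ : toVS V' hVval) hu)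
  have hle : B.valuation (algebraMap L0 L2 x) ≤ 1 :=
    (B.valuation_le_one_iff _).mpr (hmem x hx)
  refine lt_of_le_of_ne hle (fun h1 => hnu' ?_)
  exact (B.valuation_eq_one_iff (⟨algebraMap L0 L2 x, hmem x hx⟩ : B)).mpr h1

/-- **(UNIT) upstairs, level-free core.** -/
theorem unit_up (φ : F2 →+* L2)
    (hsq : ∀ a : F, φ (algebraMap F F2 a) = algebraMap L0 L2 (algebraMap F L0 a))
    (v₂ : Valuation F2 Γ₀) (p : ℕ) (hp : p ≠ 0) (ϖ : F) (π₂ : F2) (e : ℕ)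
    (hπ₂ : v₂ π₂ ^ e = v₂ (algebraMap F F2 ϖ)) (hϖ : v₂ (algebraMap F F2 ϖ) < 1) (hϖ0 : ϖ ≠ 0)
    (hdisc : ∀ a : F, a ≠ 0 → ∃ n : ℤ, v₂ (algebraMap F F2 a) = v₂ (algebraMap F F2 ϖ) ^ n)
    (hspan₂ : ∀ G : F2, ∃ c : Fin e → F, G = ∑ i : Fin e, algebraMap F F2 (c i) * π₂ ^ (i : ℕ))
    (V' : Subring L0) (hVval : ∀ x : L0, x ∈ V' ∨ x⁻¹ ∈ V')
    (hβ : ∀ a : F, v₂ (algebraMap F F2 a) ≤ 1 → algebraMap F L0 a ∈ V')
    (hϖV : algebraMap F L0 ϖ ∈ V') (hϖinv : (algebraMap F L0 ϖ)⁻¹ ∉ V')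
    (hunif : ∀ a : L0, a ≠ 0 → ∃ (n : ℤ) (w : L0), w ∈ V' ∧ w⁻¹ ∈ V' ∧
      a = algebraMap F L0 ϖ ^ n * w)
    (hspan : ∀ G : L2, ∃ c : Fin e → L0,
      G = ∑ i : Fin e, algebraMap L0 L2 (c i) * φ π₂ ^ (i : ℕ))
    (ρ : L2) (hρ : ρ ^ p = algebraMap L0 L2 (algebraMap F L0 ϖ))
    (f : L0) (hf : f ≠ 0) (G : L2) (u : F2) (hfG : algebraMap L0 L2 f = G ^ p * φ u)
    (hu : v₂ (u - 1) < 1) :
    ∃ (m : ℕ) (g r : L0), m < p ∧ g ≠ 0 ∧ r ∈ V' ∧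
      f = algebraMap F L0 ϖ ^ m * g ^ p * (1 + algebraMap F L0 ϖ * r) := by
  obtain ⟨B, hVle, hVlt⟩ := exists_dominating (L2 := L2) V' hVval
  -- the hypotheses of `OrthDom` at `w := B.valuation`
  have hle : ∀ a : F, v₂ (algebraMap F F2 a) ≤ 1 → B.valuation (φ (algebraMap F F2 a)) ≤ 1 := by
    intro a ha
    rw [hsq]
    exact hVle _ (hβ a ha)
  have hwϖ : B.valuation (φ (algebraMap F F2 ϖ)) < 1 := by
    rw [hsq]
    exact hVlt _ hϖV hϖinv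
  -- the one-unit
  have hu' : B.valuation (φ u - 1) < 1 :=
    OrthDom.map_sub_one_lt_one v₂ B.valuation φ ϖ π₂ e hπ₂ hϖ hϖ0 hdisc hspan₂ hle hwϖ hu
  -- `B.valuation (φ π₂) ^ e = B.valuation ϖ`
  have hιϖ : algebraMap F F2 ϖ ≠ 0 := (map_ne_zero (algebraMap F F2)).mpr hϖ0
  have hv0 : v₂ (algebraMap F F2 ϖ) ≠ 0 := (v₂.ne_zero_iff).mpr hιϖ
  have hυ : v₂ (π₂ ^ e * (algebraMap F F2 ϖ)⁻¹) = 1 := by
    rw [map_mul, map_pow, map_inv₀, hπ₂]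
    exact mul_inv_cancel₀ hv0
  have hυ' : B.valuation (φ (π₂ ^ e * (algebraMap F F2 ϖ)⁻¹)) = 1 :=
    (OrthDom.map_eq_one_iff v₂ B.valuation φ ϖ π₂ e hπ₂ hϖ hϖ0 hdisc hspan₂ hle hwϖ _).mpr hυ
  have hφϖ : φ (algebraMap F F2 ϖ) ≠ 0 := (map_ne_zero φ).mpr hιϖ
  have hw0 : B.valuation (φ (algebraMap F F2 ϖ)) ≠ 0 := (B.valuation.ne_zero_iff).mpr hφϖ
  have hπ : B.valuation (φ π₂) ^ e
      = B.valuation (algebraMap L0 L2 (algebraMap F L0 ϖ)) := by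
    rw [← hsq]
    rw [map_mul, map_pow, map_inv₀, map_mul, map_pow, map_inv₀] at hυ'
    have h1 := congrArg (fun t => t * B.valuation (φ (algebraMap F F2 ϖ))) hυ'
    simp only [one_mul] at h1
    rw [mul_assoc, inv_mul_cancel₀ hw0, mul_one] at h1
    exact h1
  exact Orth.depthIn_form (v := B.valuation) V' hVval hVle hVlt p hp (algebraMap F L0 ϖ) hϖV
    hϖinv hunif (φ π₂) ρ e hπ hspan hρ f hf G (φ u) hfG hu'

/-- **(UNIT) upstairs, `DepthIn` form**: `∃ c ≠ 0, Top.DepthIn V' p ϖO 1 f c`, for a base ring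
`O` with `ϖO : O` mapping to `ϖ`.  The constant is `ϖO ^ m`, `m < p`. -/
theorem unit_up_depthIn {O : Type*} [CommRing O] [Algebra O L0] (ϖO : O) (φ : F2 →+* L2)
    (hsq : ∀ a : F, φ (algebraMap F F2 a) = algebraMap L0 L2 (algebraMap F L0 a))
    (v₂ : Valuation F2 Γ₀) (p : ℕ) (hp : p ≠ 0) (ϖ : F)
    (hϖO : algebraMap O L0 ϖO = algebraMap F L0 ϖ) (π₂ : F2) (e : ℕ)
    (hπ₂ : v₂ π₂ ^ e = v₂ (algebraMap F F2 ϖ)) (hϖ : v₂ (algebraMap F F2 ϖ) < 1) (hϖ0 : ϖ ≠ 0)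
    (hdisc : ∀ a : F, a ≠ 0 → ∃ n : ℤ, v₂ (algebraMap F F2 a) = v₂ (algebraMap F F2 ϖ) ^ n)
    (hspan₂ : ∀ G : F2, ∃ c : Fin e → F, G = ∑ i : Fin e, algebraMap F F2 (c i) * π₂ ^ (i : ℕ))
    (V' : Subring L0) (hVval : ∀ x : L0, x ∈ V' ∨ x⁻¹ ∈ V')
    (hβ : ∀ a : F, v₂ (algebraMap F F2 a) ≤ 1 → algebraMap F L0 a ∈ V')
    (hϖV : algebraMap F L0 ϖ ∈ V') (hϖinv : (algebraMap F L0 ϖ)⁻¹ ∉ V')
    (hunif : ∀ a : L0, a ≠ 0 → ∃ (n : ℤ) (w : L0), w ∈ V' ∧ w⁻¹ ∈ V' ∧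
      a = algebraMap F L0 ϖ ^ n * w)
    (hspan : ∀ G : L2, ∃ c : Fin e → L0,
      G = ∑ i : Fin e, algebraMap L0 L2 (c i) * φ π₂ ^ (i : ℕ))
    (ρ : L2) (hρ : ρ ^ p = algebraMap L0 L2 (algebraMap F L0 ϖ))
    (f : L0) (hf : f ≠ 0) (G : L2) (u : F2) (hfG : algebraMap L0 L2 f = G ^ p * φ u)
    (hu : v₂ (u - 1) < 1) :
    ∃ c : O, c ≠ 0 ∧ Top.DepthIn V' p ϖO 1 f c := by
  obtain ⟨m, g, r, -, -, hr, hfr⟩ := unit_up φ hsq v₂ p hp ϖ π₂ e hπ₂ hϖ hϖ0 hdisc hspan₂ V'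
    hVval hβ hϖV hϖinv hunif hspan ρ hρ f hf G u hfG hu
  have hϖL : algebraMap F L0 ϖ ≠ 0 := (map_ne_zero (algebraMap F L0)).mpr hϖ0
  refine ⟨ϖO ^ m, ?_, g, r, hr, ?_⟩
  · intro h0
    have h1 : algebraMap O L0 (ϖO ^ m) = 0 := by rw [h0, map_zero]
    rw [map_pow, hϖO] at h1
    exact pow_ne_zero m hϖL h1
  · rw [map_pow, hϖO, pow_one]
    exact hfr

end Fermat.Agent.S33.Geo.UnitUpCore
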