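/-
S33 (ordinary at `p ∥ N`), strand GEO, Stage B, row C6-E (helper220; second helper91):
**(UNIT) upstairs, the `E`-level instance** of `Geo/UnitUpCore.unit_up`.

`A` a valuation ring of `ℚ̄` over `p`, `E2 ⊆ ℚ̄` finite normal over `ℚ` (the big field of
constants `E''`), `K = inertiaFixed A E2` its inertia field, level `L`,

```
   LE L E2 --φ--> L2        L0 = the cover field over `K` (any field over `LE L K`),
      ^           ^         L2 = `L0 · E2` (any field over `L0` receiving `LE L E2`, generated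
      | lvl       |              by `L0` and the constants of `E2`: `hsq`, `hgen`).
   LE L K  -----> L0
```

`V'` a valuation ring of `L0` with uniformiser `p` (`hVval`, `hpV`, `hpinv`, `hunif`) lying over
the generic ring of a component of the level-`L` model over `A ∩ K` (`hβ`), `f ∈ L0ˣ` with
`f = G ^ p * φ u` in `L2`, `u : LE L E2` with `upF u` a one-unit at `A`.  Then
`f = p ^ m * g ^ p * (1 + p r)`, `m < p`, `g ∈ L0ˣ`, `r ∈ V'`, i.e.
`∃ c : O, c ≠ 0 ∧ Top.DepthIn V' p (p : O) 1 f c`.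

* Sections `QbLevel`, `Transfer`, `GaussVS` : the Gauss valuation ring `gaussVS A N E` of
  `LE N E` and its dictionary with `ℚ̄`-level Gauss integrality (text of helper83's B4 draft,
  origin/helper83 946cce64, reproduced with his namespace changed).
* Section `Lvl` : `lvl` (extension of constants) and `gaussVS`; the value group of `LE N E'`.
* `unit_up_twist` : the instance for a "twist" `τ` (`τ = id` at the component `∞`, `τ = wHom`
  at the component `0`);  `unit_up_inf`, `unit_up_zero` and their `DepthIn` forms;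
  `eq_pow_mul_of_mul_pow_eq` : the hypothesis `hfG` from `f * H ^ p = c ^ p * g ^ p * u`.
-/
import Mathlib
import Fermat.Agent.S33.Geo.Contract
import Fermat.Agent.S33.Geo.Top
import Fermat.Agent.S33.Geo.GaussRings
import Fermat.Agent.S33.Geo.InertiaPow
import Fermat.Agent.S33.Geo.UnitUpCore
import Fermat.Agent.S36.InvFun
import Fermat.Agent.S44.L.R3Base
import Fermat.Agent.S44.L.Alt.DescHoriz
import Fermat.Agent.S44.L.Alt.SeamField

set_option autoImplicit false
set_option linter.unusedSectionVars false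
set_option linter.unusedVariables false
set_option linter.style.haveILetI false
set_option synthInstance.maxHeartbeats 400000

open ModularCurve

noncomputable section

namespace Fermat.Agent.S33.Geo.UnitUp

open Fermat.Agent.S30 Fermat.Agent.S30.Producer Fermat.Agent.S18.K1Defs Fermat.Agent.S18.K1Top
open Fermat.Agent.S36.InvFun Fermat.Agent.S33.Geo.Contract
open Fermat.Agent.S34.HauptU.Plug
open Fermat.Agent.S44.L

/-! ### Gauss-integrality at `A` over `ℚ̄` -/

section QbLevel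

variable (A : ValuationSubring Qb)

/-- `w` is Gauss-integral at `A`: a fraction of `A`-integral series with denominator of nonzero
reduction. -/
def IntA (w : LaurentSeries Qb) : Prop :=
  ∃ U V : LaurentSeries A, Congr.red A V ≠ 0 ∧ w * Congr.incl A V = Congr.incl A U

/-- `w` lies in the maximal ideal of the Gauss ring at `A`. -/
def MaxA (w : LaurentSeries Qb) : Prop :=
  ∃ U V : LaurentSeries A, Congr.red A V ≠ 0 ∧ Congr.red A U = 0 ∧
    w * Congr.incl A V = Congr.incl A U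

variable {A}

theorem MaxA.intA {w : LaurentSeries Qb} (h : MaxA A w) : IntA A w := by
  obtain ⟨U, V, hV, -, h⟩ := h
  exact ⟨U, V, hV, h⟩

theorem maxA_sub_one_of_oneUnit {N : ℕ} {u : FN N} (hu : OneUnit N A u) :
    MaxA A ((u : LaurentSeries Qb) - 1) := by
  obtain ⟨U, V, hV, hUV, h⟩ := hu
  refine ⟨U - V, V, hV, ?_, ?_⟩
  · rw [map_sub, hUV, sub_self]
  · rw [sub_mul, one_mul, h, map_sub]

theorem mem_of_intA_C {c : Qb} (h : IntA A (HahnSeries.C c)) : c ∈ A := by
  obtain ⟨U, V, hV, hUV⟩ := h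
  by_contra hcA
  have hci : c⁻¹ ∈ A := (A.mem_or_inv_mem c).resolve_left hcA
  have hc0 : c ≠ 0 := fun h0 => hcA (by rw [h0]; exact A.zero_mem)
  have hres : IsLocalRing.residue A ⟨c⁻¹, hci⟩ = 0 := by
    rw [IsLocalRing.residue_eq_zero_iff, IsLocalRing.mem_maximalIdeal, mem_nonunits_iff]
    intro hu
    apply hcA
    have h1 := ((isUnit_iff_inv_mem A ⟨c⁻¹, hci⟩).mp hu).2
    simpa using h1
  have h3 : Congr.incl A V = Congr.incl A (HahnSeries.C ⟨c⁻¹, hci⟩ * U) := by
    rw [map_mul, RedTransfer.incl_C, ← hUV, ← mul_assoc, ← map_mul, inv_mul_cancel₀ hc0, map_one,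
      one_mul]
  have h5 := congrArg (Congr.red A) (Congr.incl_injective A h3)
  rw [map_mul, RedTransfer.red_C, hres, map_zero, zero_mul] at h5
  exact hV h5

theorem valuation_lt_one_of_maxA_C {c : Qb} (h : MaxA A (HahnSeries.C c)) :
    A.valuation c < 1 := by
  have hcA : c ∈ A := mem_of_intA_C h.intA
  obtain ⟨U, V, hV, hU, hUV⟩ := h
  have h3 : Congr.incl A (HahnSeries.C ⟨c, hcA⟩ * V) = Congr.incl A U := by
    rw [map_mul, RedTransfer.incl_C, hUV]
  have h5 := congrArg (Congr.red A) (Congr.incl_injective A h3)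
  rw [map_mul, RedTransfer.red_C, hU] at h5
  have h6 : (HahnSeries.C (IsLocalRing.residue A ⟨c, hcA⟩) :
      LaurentSeries (IsLocalRing.ResidueField A)) = 0 := (mul_eq_zero.mp h5).resolve_right hV
  have h7 : IsLocalRing.residue A ⟨c, hcA⟩ = 0 := by
    by_contra h
    exact HahnSeries.C_ne_zero h h6
  rw [IsLocalRing.residue_eq_zero_iff] at h7
  exact (A.valuation_lt_one_iff _).mp h7

theorem intA_C {c : Qb} (hc : c ∈ A) : IntA A (HahnSeries.C c) :=
  ⟨HahnSeries.C ⟨c, hc⟩, 1, by rw [map_one]; exact one_ne_zero,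
    by rw [map_one, mul_one, RedTransfer.incl_C]⟩

theorem maxA_C {c : Qb} (hc : A.valuation c < 1) : MaxA A (HahnSeries.C c) := by
  have hcA : c ∈ A := (A.valuation_le_one_iff c).mp hc.le
  refine ⟨HahnSeries.C ⟨c, hcA⟩, 1, by rw [map_one]; exact one_ne_zero, ?_,
    by rw [map_one, mul_one, RedTransfer.incl_C]⟩
  rw [RedTransfer.red_C]
  have h0 : IsLocalRing.residue A ⟨c, hcA⟩ = 0 := by
    rw [IsLocalRing.residue_eq_zero_iff]
    exact (A.valuation_lt_one_iff _).mpr hc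
  rw [h0, map_zero]

end QbLevel

/-! ### Transfer between the Gauss ring over `A ∩ E` and `ℚ̄` -/

section Transfer

variable (A : ValuationSubring Qb) (E : IntermediateField ℚ Qb)
  [IsDiscreteValuationRing (OE A E)]

theorem intA_of_mem_V {z : LaurentSeries E} (hz : z ∈ GaussDVR.V (OE A E) E) :
    IntA A (GaussDescent.up E z) := by
  obtain ⟨a, b, hb, hab⟩ := (GaussDVR.mem_V (OE A E) E).mp hz
  exact ⟨up A E a, up A E b, RedTransfer.red_up_ne_zero A E hb,
    RedTransfer.up_mul_incl_up A E z a b hab⟩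

theorem maxA_of_red_eq_zero {z : LaurentSeries E} (hz : z ∈ GaussDVR.V (OE A E) E)
    (h0 : GaussDVR.red (OE A E) E ⟨z, hz⟩ = 0) : MaxA A (GaussDescent.up E z) := by
  obtain ⟨a, b, hb, hab⟩ := (GaussDVR.mem_V (OE A E) E).mp hz
  have h1 := GaussDVR.red_mul_rho (OE A E) E ⟨z, hz⟩ a b hab
  rw [h0, zero_mul] at h1
  refine ⟨up A E a, up A E b, RedTransfer.red_up_ne_zero A E hb, ?_,
    RedTransfer.up_mul_incl_up A E z a b hab⟩
  rw [← RedTransfer.kmap_rho, ← h1, map_zero]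

theorem mem_V_of_intA {z : LaurentSeries E} (hz : z ∈ GaussDVR.fracField (OE A E) E)
    (h : IntA A (GaussDescent.up E z)) : z ∈ GaussDVR.V (OE A E) E := by
  obtain ⟨U, V, hV, hUV⟩ := h
  by_cases hU : Congr.red A U = 0
  · have h1 : GaussDescent.up E (z + 1) * Congr.incl A V = Congr.incl A (U + V) := by
      rw [map_add, map_one, add_mul, one_mul, hUV, map_add]
    have hUV' : Congr.red A (U + V) ≠ 0 := by
      rw [map_add, hU, zero_add]
      exact hV
    obtain ⟨h2, -⟩ := R3Base.mem_V_of_up A E (z + 1) (add_mem hz (one_mem _)) (U + V) V hUV' hV h1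
    have h3 : z = (z + 1) - 1 := by ring
    rw [h3]
    exact sub_mem h2 (one_mem _)
  · exact (R3Base.mem_V_of_up A E z hz U V hU hV hUV).1

theorem red_eq_zero_of_maxA {z : LaurentSeries E} (hz : z ∈ GaussDVR.V (OE A E) E)
    (h : MaxA A (GaussDescent.up E z)) : GaussDVR.red (OE A E) E ⟨z, hz⟩ = 0 := by
  obtain ⟨U, V, hV, hU, hUV⟩ := h
  have h1 := RedTransfer.kmap_red_mul A E z hz U V hUV
  rw [hU] at h1
  have h2 : RedTransfer.kmap A E (GaussDVR.red (OE A E) E ⟨z, hz⟩) = 0 :=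
    (mul_eq_zero.mp h1).resolve_right hV
  exact RedTransfer.kmap_injective A E (by rw [h2, map_zero])

end Transfer

/-! ### The Gauss valuation ring of `LE N E` -/

section GaussVS

variable (A : ValuationSubring Qb) (N : ℕ) [NeZero N] (E : IntermediateField ℚ Qb)
  [IsDiscreteValuationRing (OE A E)]

/-- The Gauss valuation ring of `LE N E` (with respect to `A ∩ E`). -/
def gaussVS : ValuationSubring (LE N E) where
  carrier := {x | (x : LaurentSeries E) ∈ GaussDVR.V (OE A E) E}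
  mul_mem' := fun {x y} hx hy => (GaussDVR.V (OE A E) E).mul_mem hx hy
  one_mem' := (GaussDVR.V (OE A E) E).one_mem
  add_mem' := fun {x y} hx hy => (GaussDVR.V (OE A E) E).add_mem hx hy
  zero_mem' := (GaussDVR.V (OE A E) E).zero_mem
  neg_mem' := fun {x} hx => (GaussDVR.V (OE A E) E).neg_mem hx
  mem_or_inv_mem' := fun x => by
    obtain ⟨π, hπ⟩ := IsDiscreteValuationRing.exists_irreducible (OE A E)
    exact GaussDVR.mem_or_inv_mem E π hπ (x : LaurentSeries E) (sigmaHom_mem_fracField N E A x)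

theorem mem_gaussVS_iff (x : LE N E) :
    x ∈ gaussVS A N E ↔ (x : LaurentSeries E) ∈ GaussDVR.V (OE A E) E := Iff.rfl

/-- The Gauss valuation ring is the generic ring `V∞` of `GaussRings`. -/
theorem mem_gaussVS_iff_mem_VInf (x : LE N E) :
    x ∈ gaussVS A N E ↔ x ∈ GaussRings.VInf N E (OE A E) := Iff.rfl

theorem mem_gaussVS_iff_intA (x : LE N E) :
    x ∈ gaussVS A N E ↔ IntA A ((upF N E x : FN N) : LaurentSeries Qb) :=
  ⟨fun h => intA_of_mem_V A E h,
    fun h => mem_V_of_intA A E (sigmaHom_mem_fracField N E A x) h⟩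

theorem valuation_lt_one_iff_maxA (x : LE N E) :
    (gaussVS A N E).valuation x < 1 ↔ MaxA A ((upF N E x : FN N) : LaurentSeries Qb) := by
  constructor
  · intro h
    have hx : x ∈ gaussVS A N E := ((gaussVS A N E).valuation_le_one_iff x).mp h.le
    have hred : GaussDVR.red (OE A E) E ⟨(x : LaurentSeries E), hx⟩ = 0 := by
      by_contra hne
      have hinv : x⁻¹ ∈ gaussVS A N E := GaussDVR.inv_mem (OE A E) E ⟨_, hx⟩ hne
      have h1 : (gaussVS A N E).valuation x⁻¹ ≤ 1 :=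
        ((gaussVS A N E).valuation_le_one_iff _).mpr hinv
      have hx0 : x ≠ 0 := by
        rintro rfl
        apply hne
        have : (⟨((0 : LE N E) : LaurentSeries E), hx⟩ : GaussDVR.V (OE A E) E) = 0 := rfl
        rw [this, map_zero]
      have h2 : (gaussVS A N E).valuation x * (gaussVS A N E).valuation x⁻¹ = 1 := by
        rw [← map_mul, mul_inv_cancel₀ hx0, map_one]
      have h3 : (gaussVS A N E).valuation x * (gaussVS A N E).valuation x⁻¹ < 1 := by
        calc (gaussVS A N E).valuation x * (gaussVS A N E).valuation x⁻¹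
            ≤ (gaussVS A N E).valuation x * 1 := mul_le_mul' le_rfl h1
          _ = (gaussVS A N E).valuation x := mul_one _
          _ < 1 := h
      exact absurd h2 (ne_of_lt h3)
    exact maxA_of_red_eq_zero A E hx hred
  · intro h
    have hx : x ∈ gaussVS A N E := (mem_gaussVS_iff_intA A N E x).mpr h.intA
    have hred := red_eq_zero_of_maxA A E hx h
    by_contra hnot
    rw [not_lt] at hnot
    have hle : (gaussVS A N E).valuation x ≤ 1 := ((gaussVS A N E).valuation_le_one_iff x).mpr hx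
    have h1 : (gaussVS A N E).valuation x = 1 := le_antisymm hle hnot
    have hx0 : x ≠ 0 := by
      rintro rfl
      rw [map_zero] at h1
      exact zero_ne_one h1
    have h2 : (gaussVS A N E).valuation x⁻¹ = 1 := by
      rw [map_inv₀, h1, inv_one]
    have hinv : x⁻¹ ∈ gaussVS A N E := ((gaussVS A N E).valuation_le_one_iff _).mp h2.le
    have hx0' : (x : LaurentSeries E) ≠ 0 := fun h0 => hx0 (Subtype.ext h0)
    have h3 : (⟨(x : LaurentSeries E), hx⟩ : GaussDVR.V (OE A E) E)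
        * ⟨((x⁻¹ : LE N E) : LaurentSeries E), hinv⟩ = 1 :=
      Subtype.ext (mul_inv_cancel₀ hx0')
    have h4 := congrArg (GaussDVR.red (OE A E) E) h3
    rw [map_mul, hred, zero_mul, map_one] at h4
    exact zero_ne_one h4

/-- Constants: Gauss-integral iff in `A`. -/
theorem const_mem_iff (c : E) :
    algebraMap E (LE N E) c ∈ gaussVS A N E ↔ (c : Qb) ∈ A := by
  rw [mem_gaussVS_iff_intA, upF_algebraMap]
  have h1 : ((algebraMap Qb (FN N) (c : Qb) : FN N) : LaurentSeries Qb)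
      = HahnSeries.C (c : Qb) := (Fermat.Agent.S18.Wiring.C_eq_algebraMap (c : Qb)).symm
  rw [h1]
  exact ⟨mem_of_intA_C, intA_C⟩

theorem const_lt_iff (c : E) :
    (gaussVS A N E).valuation (algebraMap E (LE N E) c) < 1 ↔ A.valuation (c : Qb) < 1 := by
  rw [valuation_lt_one_iff_maxA, upF_algebraMap]
  have h1 : ((algebraMap Qb (FN N) (c : Qb) : FN N) : LaurentSeries Qb)
      = HahnSeries.C (c : Qb) := (Fermat.Agent.S18.Wiring.C_eq_algebraMap (c : Qb)).symm
  rw [h1]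
  exact ⟨valuation_lt_one_of_maxA_C, maxA_C⟩

/-- A nonzero element of a valuation ring whose inverse is in the ring has valuation `1`. -/
theorem vs_valuation_eq_one {F : Type*} [Field F] (B : ValuationSubring F) {x : F} (hx0 : x ≠ 0)
    (hx : x ∈ B) (hxi : x⁻¹ ∈ B) : B.valuation x = 1 := by
  have h1 := (B.valuation_le_one_iff x).mpr hx
  have h2 := (B.valuation_le_one_iff x⁻¹).mpr hxi
  rw [map_inv₀] at h2
  have hpos : 0 < B.valuation x := zero_lt_iff.mpr ((B.valuation.ne_zero_iff).mpr hx0)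
  exact le_antisymm h1 ((inv_le_one₀ hpos).mp h2)

/-- Constants which are units of `A` have Gauss valuation `1`. -/
theorem valuation_const_eq_one (c : E) (hc : A.valuation (c : Qb) = 1) :
    (gaussVS A N E).valuation (algebraMap E (LE N E) c) = 1 := by
  have hc0 : c ≠ 0 := by
    rintro rfl
    rw [ZeroMemClass.coe_zero, map_zero] at hc
    exact zero_ne_one hc
  have hcA : (c : Qb) ∈ A := (A.valuation_le_one_iff _).mp hc.le
  have hciA : ((c⁻¹ : E) : Qb) ∈ A := by
    have h1 : ((c⁻¹ : E) : Qb) = (c : Qb)⁻¹ := rfl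
    rw [h1]
    exact (A.valuation_le_one_iff _).mp (by rw [map_inv₀, hc, inv_one])
  refine vs_valuation_eq_one _ ((_root_.map_ne_zero _).mpr hc0) ((const_mem_iff A N E c).mpr hcA) ?_
  rw [← map_inv₀]
  exact (const_mem_iff A N E c⁻¹).mpr hciA

/-- One-units: `upF u` a one-unit at `A` ⟹ `u - 1` has Gauss valuation `< 1`. -/
theorem valuation_sub_one_lt_one_of_oneUnit (u : LE N E) (hu : OneUnit N A (upF N E u)) :
    (gaussVS A N E).valuation (u - 1) < 1 := by
  rw [valuation_lt_one_iff_maxA, map_sub, map_one]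
  exact maxA_sub_one_of_oneUnit hu

end GaussVS

/-! ### Extension of constants -/

section Lvl

open Fermat.Agent.S19.Cech.BCChart

variable (A : ValuationSubring Qb) (N : ℕ) [NeZero N] {E' E : IntermediateField ℚ Qb}
  (h : E' ≤ E)

theorem upF_lvl (x : LE N E') : upF N E (lvl N h x) = upF N E' x :=
  Fermat.Agent.S44.L.Alt.SeamField.upE_lvl h N x

variable [IsDiscreteValuationRing (OE A E')] [IsDiscreteValuationRing (OE A E)]

/-- Extension of constants preserves and reflects Gauss-integrality. -/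
theorem lvl_mem_gaussVS_iff (x : LE N E') : lvl N h x ∈ gaussVS A N E ↔ x ∈ gaussVS A N E' := by
  rw [mem_gaussVS_iff_intA, mem_gaussVS_iff_intA, upF_lvl]

/-- The value group of `LE N E'` at the Gauss valuation (read in `LE N E`) is generated by the
value of a uniformiser `ϖ` of `A ∩ E'`. -/
theorem exists_valuation_lvl_eq_zpow (ϖ : OE A E') (hϖ : Irreducible ϖ) (a : LE N E')
    (ha : a ≠ 0) :
    ∃ n : ℤ, (gaussVS A N E).valuation (lvl N h a) =
      (gaussVS A N E).valuation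
        (algebraMap E (LE N E) (IntermediateField.inclusion h (ϖ : E'))) ^ n := by
  have hfrac : (a : LaurentSeries E') ∈ GaussDVR.fracField (OE A E') E' :=
    sigmaHom_mem_fracField N E' A a
  have ha0 : (a : LaurentSeries E') ≠ 0 := fun h0 => ha (Subtype.ext h0)
  obtain ⟨i, k, y, hy, hxy⟩ := GaussDVR.exists_unit_pow E' ϖ hϖ (a : LaurentSeries E') hfrac ha0
  have hϖ0 : (ϖ : E') ≠ 0 := fun h0 => hϖ.ne_zero (Subtype.ext h0)
  let c : LE N E' := algebraMap E' (LE N E') (ϖ : E')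
  have hc0 : c ≠ 0 := (_root_.map_ne_zero _).mpr hϖ0
  have hcoe : (c : LaurentSeries E')
      = ((GaussDVR.unif E' ϖ : GaussDVR.V (OE A E') E') : LaurentSeries E') := by
    rw [GaussDVR.coe_unif, Fermat.Agent.S18.Wiring.C_eq_algebraMap]
    rfl
  have hc0' : (c : LaurentSeries E') ≠ 0 := fun h0 => hc0 (Subtype.ext h0)
  let y' : LE N E' := a * c ^ k / c ^ i
  have hy' : (y' : LaurentSeries E') = (y : LaurentSeries E') := by
    have h1 : (y' : LaurentSeries E')
        = (a : LaurentSeries E') * (c : LaurentSeries E') ^ k / (c : LaurentSeries E') ^ i := rfl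
    rw [h1, hcoe, hxy, mul_div_cancel_left₀]
    rw [← hcoe]
    exact pow_ne_zero i hc0'
  have hy'0 : y' ≠ 0 := div_ne_zero (mul_ne_zero ha (pow_ne_zero k hc0)) (pow_ne_zero i hc0)
  have hy'mem : y' ∈ gaussVS A N E' := by
    show (y' : LaurentSeries E') ∈ GaussDVR.V (OE A E') E'
    rw [hy']
    exact y.2
  have hy'inv : y'⁻¹ ∈ gaussVS A N E' := by
    show ((y'⁻¹ : LE N E') : LaurentSeries E') ∈ GaussDVR.V (OE A E') E'
    have h1 : ((y'⁻¹ : LE N E') : LaurentSeries E') = (y : LaurentSeries E')⁻¹ := by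
      rw [← hy']
      rfl
    rw [h1]
    exact GaussDVR.inv_mem (OE A E') E' y hy
  have hv1 : (gaussVS A N E).valuation (lvl N h y') = 1 := by
    refine vs_valuation_eq_one _ ((_root_.map_ne_zero _).mpr hy'0)
      ((lvl_mem_gaussVS_iff A N h y').mpr hy'mem) ?_
    rw [← map_inv₀]
    exact (lvl_mem_gaussVS_iff A N h y'⁻¹).mpr hy'inv
  have ha' : a = y' * c ^ i / c ^ k := by
    have hck : c ^ k ≠ 0 := pow_ne_zero k hc0
    have hci : c ^ i ≠ 0 := pow_ne_zero i hc0
    show a = a * c ^ k / c ^ i * c ^ i / c ^ k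
    field_simp
  have hcE : lvl N h c = algebraMap E (LE N E) (IntermediateField.inclusion h (ϖ : E')) :=
    lvl_algebraMap N h (ϖ : E')
  have hvc0 : (gaussVS A N E).valuation
      (algebraMap E (LE N E) (IntermediateField.inclusion h (ϖ : E'))) ≠ 0 := by
    rw [← hcE]
    exact ((gaussVS A N E).valuation.ne_zero_iff).mpr ((_root_.map_ne_zero _).mpr hc0)
  refine ⟨(i : ℤ) - (k : ℤ), ?_⟩
  rw [ha', map_div₀, map_mul, map_pow, map_pow, map_div₀, map_mul, map_pow, map_pow, hv1, one_mul,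
    hcE, zpow_sub₀ hvc0, zpow_natCast, zpow_natCast]

end Lvl

/-! ### The instance -/

section Inst

open Fermat.Agent.S19.Cech.BCChart Fermat.Agent.Lib.InertiaField

variable (A : ValuationSubring Qb) (L : ℕ) [NeZero L]

/-- **(UNIT) upstairs, `E`-level, twisted form.**  `τ` a ring endomorphism of `LE L E2` fixing
the constants and compatible with `lvl` (`τ = id` for the component `∞`, `τ = wHom` for the
component `0`); the component is the Gauss valuation composed with `τ`. -/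
theorem unit_up_twist {p : ℕ} (hp : p.Prime) (hA : A.LiesOverPrime p)
    (K E2 : IntermediateField ℚ Qb) [FiniteDimensional ℚ E2] [Normal ℚ E2]
    (hK : K = inertiaFixed A E2) (hKE : K ≤ E2) [IsDiscreteValuationRing (OE A K)]
    (τ : LE L E2 →+* LE L E2) (τK : LE L K →+* LE L K)
    (hτlvl : ∀ a : LE L K, τ (lvl L hKE a) = lvl L hKE (τK a))
    (hτc : ∀ c : E2, τ (algebraMap E2 (LE L E2) c) = algebraMap E2 (LE L E2) c)
    {L0 L2 : Type*} [Field L0] [Field L2] [Algebra (LE L K) L0] [Algebra L0 L2]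
    (φ : LE L E2 →+* L2)
    (hsq : ∀ a : LE L K, φ (lvl L hKE a) = algebraMap L0 L2 (algebraMap (LE L K) L0 a))
    (hgen : ∀ G : L2, ∃ (n : ℕ) (c : Fin n → L0) (y : Fin n → E2),
      G = ∑ j : Fin n, algebraMap L0 L2 (c j) * φ (algebraMap E2 (LE L E2) (y j)))
    (V' : Subring L0) (hVval : ∀ x : L0, x ∈ V' ∨ x⁻¹ ∈ V')
    (hβ : ∀ a : LE L K, τK a ∈ gaussVS A L K → algebraMap (LE L K) L0 a ∈ V')
    (hpV : (p : L0) ∈ V') (hpinv : (p : L0)⁻¹ ∉ V')
    (hunif : ∀ a : L0, a ≠ 0 → ∃ (n : ℤ) (w : L0), w ∈ V' ∧ w⁻¹ ∈ V' ∧ a = (p : L0) ^ n * w)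
    (ρ : Qb) (hρE : ρ ∈ E2) (hρ : ρ ^ p = (p : Qb))
    (f : L0) (hf : f ≠ 0) (G : L2) (u : LE L E2)
    (hfG : algebraMap L0 L2 f = G ^ p * φ u)
    (hu : OneUnit L A (upF L E2 (τ u))) :
    ∃ (m : ℕ) (g r : L0), m < p ∧ g ≠ 0 ∧ r ∈ V' ∧
      f = (p : L0) ^ m * g ^ p * (1 + (p : L0) * r) := by
  subst hK
  haveI : IsDiscreteValuationRing (OE A E2) := GaussDescent.isDiscreteValuationRing_OE A E2 hp hA
  obtain ⟨e, π, u0, he, hπE, hπ0, hπ1, hu0E, hu01, hpu, hv, hfspan, -, -⟩ :=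
    InertiaPow.exists_uniformizer_pow A E2 hp hA
  letI : Algebra (LE L (inertiaFixed A E2)) (LE L E2) := (lvl L hKE).toAlgebra
  have halg : ∀ a : LE L (inertiaFixed A E2),
      algebraMap (LE L (inertiaFixed A E2)) (LE L E2) a = lvl L hKE a := fun a => rfl
  let v₂ : Valuation (LE L E2) (gaussVS A L E2).ValueGroup := (gaussVS A L E2).valuation.comap τ
  have hv₂ : ∀ x : LE L E2, v₂ x = (gaussVS A L E2).valuation (τ x) := fun x => rfl
  have hvc : ∀ c : E2, v₂ (algebraMap E2 (LE L E2) c)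
      = (gaussVS A L E2).valuation (algebraMap E2 (LE L E2) c) := fun c => by rw [hv₂, hτc]
  have hp1 : A.valuation (p : Qb) < 1 := A.mem_nonunits_iff.mp hA
  have hcast : algebraMap (LE L (inertiaFixed A E2)) (LE L E2) (p : LE L (inertiaFixed A E2))
      = algebraMap E2 (LE L E2) (p : E2) := by
    rw [map_natCast, map_natCast]
  have hcastL : algebraMap (LE L (inertiaFixed A E2)) L0 (p : LE L (inertiaFixed A E2))
      = (p : L0) := map_natCast _ p
  -- the uniformiser `p` of the base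
  have hϖ : v₂ (algebraMap (LE L (inertiaFixed A E2)) (LE L E2)
      (p : LE L (inertiaFixed A E2))) < 1 := by
    rw [hcast, hvc, const_lt_iff]
    have h1 : (((p : ℕ) : E2) : Qb) = (p : Qb) := by simp
    rw [h1]
    exact hp1
  have hϖ0 : (p : LE L (inertiaFixed A E2)) ≠ 0 := Nat.cast_ne_zero.mpr hp.ne_zero
  -- the uniformiser `π` of the big field of constants
  let πE : E2 := ⟨π, hπE⟩
  let uE : E2 := ⟨u0, hu0E⟩
  have hpuE : (p : E2) * uE = πE ^ e := Subtype.ext (by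
    show (((p : ℕ) : E2) : Qb) * u0 = π ^ e
    have h1 : (((p : ℕ) : E2) : Qb) = (p : Qb) := by simp
    rw [h1]
    exact hpu)
  have hπ₂ : v₂ (algebraMap E2 (LE L E2) πE) ^ e
      = v₂ (algebraMap (LE L (inertiaFixed A E2)) (LE L E2) (p : LE L (inertiaFixed A E2))) := by
    calc v₂ (algebraMap E2 (LE L E2) πE) ^ e
        = v₂ (algebraMap E2 (LE L E2) (πE ^ e)) := by rw [map_pow, map_pow]
      _ = v₂ (algebraMap E2 (LE L E2) (p : E2)) * v₂ (algebraMap E2 (LE L E2) uE) := by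
          rw [← hpuE, map_mul, map_mul]
      _ = v₂ (algebraMap E2 (LE L E2) (p : E2)) := by
          rw [hvc uE, valuation_const_eq_one A L E2 uE hu01, mul_one]
      _ = _ := by rw [hcast]
  -- the value group of the base
  have hirr : Irreducible ((p : ℕ) : OE A (inertiaFixed A E2)) :=
    InertiaPow.irreducible_natCast_OE_inertiaFixed A E2 hp hA
  have hdisc : ∀ a : LE L (inertiaFixed A E2), a ≠ 0 → ∃ n : ℤ,
      v₂ (algebraMap (LE L (inertiaFixed A E2)) (LE L E2) a)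
        = v₂ (algebraMap (LE L (inertiaFixed A E2)) (LE L E2)
            (p : LE L (inertiaFixed A E2))) ^ n := by
    intro a ha
    obtain ⟨n, hn⟩ := exists_valuation_lvl_eq_zpow A L hKE ((p : ℕ) : OE A (inertiaFixed A E2))
      hirr (τK a) ((_root_.map_ne_zero τK).mpr ha)
    refine ⟨n, ?_⟩
    have h1 : IntermediateField.inclusion hKE
        ((((p : ℕ) : OE A (inertiaFixed A E2)) : inertiaFixed A E2)) = ((p : ℕ) : E2) := by
      rw [show ((((p : ℕ) : OE A (inertiaFixed A E2)) : inertiaFixed A E2))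
        = ((p : ℕ) : inertiaFixed A E2) from rfl, map_natCast]
    rw [halg, hv₂, hτlvl, hn, h1, hcast, hvc]
  -- spanning by the powers of `π`
  have hspanE : ∀ x : E2, ∃ c : Fin e → inertiaFixed A E2,
      x = ∑ j : Fin e, πE ^ (j : ℕ) * IntermediateField.inclusion hKE (c j) := by
    intro x
    obtain ⟨c, hc, hx⟩ := hfspan (x : Qb) x.2
    refine ⟨fun j => ⟨c j, hc j⟩, Subtype.ext ?_⟩
    rw [hx, AddSubmonoidClass.coe_finsetSum]
    refine Finset.sum_congr rfl fun j _ => ?_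
    rw [mul_comm]
    rfl
  have hspan₂ : ∀ G : LE L E2, ∃ c : Fin e → LE L (inertiaFixed A E2),
      G = ∑ i : Fin e, algebraMap (LE L (inertiaFixed A E2)) (LE L E2) (c i)
        * algebraMap E2 (LE L E2) πE ^ (i : ℕ) := by
    intro G
    obtain ⟨c, hc⟩ := Fermat.Agent.S44.L.Alt.SeamField.exists_powerCoords hKE L πE e hspanE G
    refine ⟨c, ?_⟩
    rw [hc]
    refine Finset.sum_congr rfl fun j _ => ?_
    rw [mul_comm]
    rfl
  have hφc : ∀ κ : inertiaFixed A E2,
      φ (algebraMap E2 (LE L E2) (IntermediateField.inclusion hKE κ))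
        = algebraMap L0 L2 (algebraMap (LE L (inertiaFixed A E2)) L0
            (algebraMap (inertiaFixed A E2) (LE L (inertiaFixed A E2)) κ)) := by
    intro κ
    rw [← lvl_algebraMap L hKE κ]
    exact hsq _
  have hspan : ∀ G : L2, ∃ c : Fin e → L0,
      G = ∑ i : Fin e, algebraMap L0 L2 (c i) * φ (algebraMap E2 (LE L E2) πE) ^ (i : ℕ) := by
    intro G
    obtain ⟨n, c, y, hG⟩ := hgen G
    choose k hk using fun j => hspanE (y j)
    have hterm : ∀ j, φ (algebraMap E2 (LE L E2) (y j))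
        = ∑ i : Fin e, φ (algebraMap E2 (LE L E2) πE) ^ (i : ℕ)
          * algebraMap L0 L2 (algebraMap (LE L (inertiaFixed A E2)) L0
              (algebraMap (inertiaFixed A E2) (LE L (inertiaFixed A E2)) (k j i))) := by
      intro j
      conv_lhs => rw [hk j]
      rw [map_sum, map_sum]
      refine Finset.sum_congr rfl fun i _ => ?_
      rw [map_mul, map_mul, map_pow, map_pow, hφc]
    refine ⟨fun i => ∑ j : Fin n, c j * algebraMap (LE L (inertiaFixed A E2)) L0
      (algebraMap (inertiaFixed A E2) (LE L (inertiaFixed A E2)) (k j i)), ?_⟩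
    rw [hG]
    simp only [hterm, Finset.mul_sum, map_sum, map_mul, Finset.sum_mul]
    rw [Finset.sum_comm]
    refine Finset.sum_congr rfl fun i _ => Finset.sum_congr rfl fun j _ => ?_
    ring
  -- the valuation ring upstairs
  have hβ' : ∀ a : LE L (inertiaFixed A E2),
      v₂ (algebraMap (LE L (inertiaFixed A E2)) (LE L E2) a) ≤ 1 →
        algebraMap (LE L (inertiaFixed A E2)) L0 a ∈ V' := by
    intro a ha
    apply hβ
    have h1 : τ (lvl L hKE a) ∈ gaussVS A L E2 := ((gaussVS A L E2).valuation_le_one_iff _).mp ha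
    rw [hτlvl] at h1
    exact (lvl_mem_gaussVS_iff A L hKE _).mp h1
  have hϖV : algebraMap (LE L (inertiaFixed A E2)) L0 (p : LE L (inertiaFixed A E2)) ∈ V' := by
    rw [hcastL]
    exact hpV
  have hϖinv : (algebraMap (LE L (inertiaFixed A E2)) L0
      (p : LE L (inertiaFixed A E2)))⁻¹ ∉ V' := by
    rw [hcastL]
    exact hpinv
  have hunif' : ∀ a : L0, a ≠ 0 → ∃ (n : ℤ) (w : L0), w ∈ V' ∧ w⁻¹ ∈ V' ∧
      a = algebraMap (LE L (inertiaFixed A E2)) L0 (p : LE L (inertiaFixed A E2)) ^ n * w := by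
    rw [hcastL]
    exact hunif
  -- the `p`-th root of `p`
  have hρ' : φ (algebraMap E2 (LE L E2) (⟨ρ, hρE⟩ : E2)) ^ p
      = algebraMap L0 L2 (algebraMap (LE L (inertiaFixed A E2)) L0
          (p : LE L (inertiaFixed A E2))) := by
    have h1 : (⟨ρ, hρE⟩ : E2) ^ p = ((p : ℕ) : E2) := Subtype.ext (by
      show ρ ^ p = (((p : ℕ) : E2) : Qb)
      have h2 : (((p : ℕ) : E2) : Qb) = (p : Qb) := by simp
      rw [h2]
      exact hρ)
    rw [← map_pow, ← map_pow, h1, map_natCast, map_natCast, map_natCast, map_natCast]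
  -- the one-unit
  have hu' : v₂ (u - 1) < 1 := by
    rw [hv₂, map_sub, map_one]
    exact valuation_sub_one_lt_one_of_oneUnit A L E2 (τ u) hu
  obtain ⟨m, g, r, hm, hg, hr, hfr⟩ := UnitUpCore.unit_up φ (fun a => hsq a) v₂ p hp.ne_zero
    (p : LE L (inertiaFixed A E2)) (algebraMap E2 (LE L E2) πE) e hπ₂ hϖ hϖ0 hdisc hspan₂ V'
    hVval hβ' hϖV hϖinv hunif' hspan (φ (algebraMap E2 (LE L E2) (⟨ρ, hρE⟩ : E2))) hρ' f hf G u
    hfG hu'
  rw [hcastL] at hfr
  exact ⟨m, g, r, hm, hg, hr, hfr⟩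

/-- `unit_up_twist` in the `DepthIn` form: `c = p ^ m`. -/
theorem unit_up_twist_depthIn {O : Type*} [CommRing O] {p : ℕ} (hp : p.Prime)
    (hA : A.LiesOverPrime p)
    (K E2 : IntermediateField ℚ Qb) [FiniteDimensional ℚ E2] [Normal ℚ E2]
    (hK : K = inertiaFixed A E2) (hKE : K ≤ E2) [IsDiscreteValuationRing (OE A K)]
    (τ : LE L E2 →+* LE L E2) (τK : LE L K →+* LE L K)
    (hτlvl : ∀ a : LE L K, τ (lvl L hKE a) = lvl L hKE (τK a))
    (hτc : ∀ c : E2, τ (algebraMap E2 (LE L E2) c) = algebraMap E2 (LE L E2) c)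
    {L0 L2 : Type*} [Field L0] [Field L2] [Algebra (LE L K) L0] [Algebra L0 L2] [Algebra O L0]
    (φ : LE L E2 →+* L2)
    (hsq : ∀ a : LE L K, φ (lvl L hKE a) = algebraMap L0 L2 (algebraMap (LE L K) L0 a))
    (hgen : ∀ G : L2, ∃ (n : ℕ) (c : Fin n → L0) (y : Fin n → E2),
      G = ∑ j : Fin n, algebraMap L0 L2 (c j) * φ (algebraMap E2 (LE L E2) (y j)))
    (V' : Subring L0) (hVval : ∀ x : L0, x ∈ V' ∨ x⁻¹ ∈ V')
    (hβ : ∀ a : LE L K, τK a ∈ gaussVS A L K → algebraMap (LE L K) L0 a ∈ V')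
    (hpV : (p : L0) ∈ V') (hpinv : (p : L0)⁻¹ ∉ V')
    (hunif : ∀ a : L0, a ≠ 0 → ∃ (n : ℤ) (w : L0), w ∈ V' ∧ w⁻¹ ∈ V' ∧ a = (p : L0) ^ n * w)
    (ρ : Qb) (hρE : ρ ∈ E2) (hρ : ρ ^ p = (p : Qb))
    (f : L0) (hf : f ≠ 0) (G : L2) (u : LE L E2)
    (hfG : algebraMap L0 L2 f = G ^ p * φ u)
    (hu : OneUnit L A (upF L E2 (τ u))) :
    ∃ c : O, c ≠ 0 ∧ Top.DepthIn V' p (p : O) 1 f c := by
  obtain ⟨m, g, r, -, -, hr, hfr⟩ := unit_up_twist A L hp hA K E2 hK hKE τ τK hτlvl hτc φ hsq hgen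
    V' hVval hβ hpV hpinv hunif ρ hρE hρ f hf G u hfG hu
  have hpL : (p : L0) ≠ 0 := by
    intro h0
    apply hpinv
    rw [h0, inv_zero]
    exact V'.zero_mem
  refine ⟨(p : O) ^ m, ?_, g, r, hr, ?_⟩
  · intro h0
    have h1 : algebraMap O L0 ((p : O) ^ m) = 0 := by rw [h0, map_zero]
    rw [map_pow, map_natCast] at h1
    exact pow_ne_zero m hpL h1
  · rw [map_pow, map_natCast, pow_one]
    exact hfr

/-- **(UNIT) upstairs at the component `∞`**: `V'` lies over `GaussRings.VInf L K (OE A K)` and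
`upF u` is a one-unit. -/
theorem unit_up_inf {p : ℕ} (hp : p.Prime) (hA : A.LiesOverPrime p)
    (K E2 : IntermediateField ℚ Qb) [FiniteDimensional ℚ E2] [Normal ℚ E2]
    (hK : K = inertiaFixed A E2) (hKE : K ≤ E2) [IsDiscreteValuationRing (OE A K)]
    {L0 L2 : Type*} [Field L0] [Field L2] [Algebra (LE L K) L0] [Algebra L0 L2]
    (φ : LE L E2 →+* L2)
    (hsq : ∀ a : LE L K, φ (lvl L hKE a) = algebraMap L0 L2 (algebraMap (LE L K) L0 a))
    (hgen : ∀ G : L2, ∃ (n : ℕ) (c : Fin n → L0) (y : Fin n → E2),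
      G = ∑ j : Fin n, algebraMap L0 L2 (c j) * φ (algebraMap E2 (LE L E2) (y j)))
    (V' : Subring L0) (hVval : ∀ x : L0, x ∈ V' ∨ x⁻¹ ∈ V')
    (hβ : ∀ a : LE L K, a ∈ GaussRings.VInf L K (OE A K) → algebraMap (LE L K) L0 a ∈ V')
    (hpV : (p : L0) ∈ V') (hpinv : (p : L0)⁻¹ ∉ V')
    (hunif : ∀ a : L0, a ≠ 0 → ∃ (n : ℤ) (w : L0), w ∈ V' ∧ w⁻¹ ∈ V' ∧ a = (p : L0) ^ n * w)
    (ρ : Qb) (hρE : ρ ∈ E2) (hρ : ρ ^ p = (p : Qb))
    (f : L0) (hf : f ≠ 0) (G : L2) (u : LE L E2)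
    (hfG : algebraMap L0 L2 f = G ^ p * φ u)
    (hu : OneUnit L A (upF L E2 u)) :
    ∃ (m : ℕ) (g r : L0), m < p ∧ g ≠ 0 ∧ r ∈ V' ∧
      f = (p : L0) ^ m * g ^ p * (1 + (p : L0) * r) :=
  unit_up_twist A L hp hA K E2 hK hKE (RingHom.id _) (RingHom.id _) (fun _ => rfl) (fun _ => rfl)
    φ hsq hgen V' hVval (fun a ha => hβ a ha) hpV hpinv hunif ρ hρE hρ f hf G u hfG hu

/-- `unit_up_inf` in the `DepthIn` form. -/
theorem unit_up_inf_depthIn {O : Type*} [CommRing O] {p : ℕ} (hp : p.Prime)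
    (hA : A.LiesOverPrime p)
    (K E2 : IntermediateField ℚ Qb) [FiniteDimensional ℚ E2] [Normal ℚ E2]
    (hK : K = inertiaFixed A E2) (hKE : K ≤ E2) [IsDiscreteValuationRing (OE A K)]
    {L0 L2 : Type*} [Field L0] [Field L2] [Algebra (LE L K) L0] [Algebra L0 L2] [Algebra O L0]
    (φ : LE L E2 →+* L2)
    (hsq : ∀ a : LE L K, φ (lvl L hKE a) = algebraMap L0 L2 (algebraMap (LE L K) L0 a))
    (hgen : ∀ G : L2, ∃ (n : ℕ) (c : Fin n → L0) (y : Fin n → E2),
      G = ∑ j : Fin n, algebraMap L0 L2 (c j) * φ (algebraMap E2 (LE L E2) (y j)))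
    (V' : Subring L0) (hVval : ∀ x : L0, x ∈ V' ∨ x⁻¹ ∈ V')
    (hβ : ∀ a : LE L K, a ∈ GaussRings.VInf L K (OE A K) → algebraMap (LE L K) L0 a ∈ V')
    (hpV : (p : L0) ∈ V') (hpinv : (p : L0)⁻¹ ∉ V')
    (hunif : ∀ a : L0, a ≠ 0 → ∃ (n : ℤ) (w : L0), w ∈ V' ∧ w⁻¹ ∈ V' ∧ a = (p : L0) ^ n * w)
    (ρ : Qb) (hρE : ρ ∈ E2) (hρ : ρ ^ p = (p : Qb))
    (f : L0) (hf : f ≠ 0) (G : L2) (u : LE L E2)
    (hfG : algebraMap L0 L2 f = G ^ p * φ u)
    (hu : OneUnit L A (upF L E2 u)) :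
    ∃ c : O, c ≠ 0 ∧ Top.DepthIn V' p (p : O) 1 f c :=
  unit_up_twist_depthIn A L hp hA K E2 hK hKE (RingHom.id _) (RingHom.id _) (fun _ => rfl)
    (fun _ => rfl) φ hsq hgen V' hVval (fun a ha => hβ a ha) hpV hpinv hunif ρ hρE hρ f hf G u
    hfG hu

end Inst

section InstZero

open Fermat.Agent.S19.Cech.BCChart Fermat.Agent.Lib.InertiaField

variable (A : ValuationSubring Qb) (M : ℕ) [NeZero M]

/-- **(UNIT) upstairs at the component `0`** (level `M * p`): `V'` lies over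
`GaussRings.VZero M p K (OE A K)` and the Atkin–Lehner swap of `upF u` is a one-unit. -/
theorem unit_up_zero {p : ℕ} [NeZero p] (hp : p.Prime) (hpM : ¬ p ∣ M) (hA : A.LiesOverPrime p)
    (K E2 : IntermediateField ℚ Qb) [FiniteDimensional ℚ E2] [Normal ℚ E2]
    (hK : K = inertiaFixed A E2) (hKE : K ≤ E2) [IsDiscreteValuationRing (OE A K)]
    {L0 L2 : Type*} [Field L0] [Field L2] [Algebra (LE (M * p) K) L0] [Algebra L0 L2]
    (φ : LE (M * p) E2 →+* L2)
    (hsq : ∀ a : LE (M * p) K,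
      φ (lvl (M * p) hKE a) = algebraMap L0 L2 (algebraMap (LE (M * p) K) L0 a))
    (hgen : ∀ G : L2, ∃ (n : ℕ) (c : Fin n → L0) (y : Fin n → E2),
      G = ∑ j : Fin n, algebraMap L0 L2 (c j) * φ (algebraMap E2 (LE (M * p) E2) (y j)))
    (V' : Subring L0) (hVval : ∀ x : L0, x ∈ V' ∨ x⁻¹ ∈ V')
    (hβ : ∀ a : LE (M * p) K, a ∈ GaussRings.VZero M p K (OE A K) hp hpM →
      algebraMap (LE (M * p) K) L0 a ∈ V')
    (hpV : (p : L0) ∈ V') (hpinv : (p : L0)⁻¹ ∉ V')
    (hunif : ∀ a : L0, a ≠ 0 → ∃ (n : ℤ) (w : L0), w ∈ V' ∧ w⁻¹ ∈ V' ∧ a = (p : L0) ^ n * w)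
    (ρ : Qb) (hρE : ρ ∈ E2) (hρ : ρ ^ p = (p : Qb))
    (f : L0) (hf : f ≠ 0) (G : L2) (u : LE (M * p) E2)
    (hfG : algebraMap L0 L2 f = G ^ p * φ u)
    (hu : OneUnit (M * p) A
      (Fermat.Agent.S34.ToricSwap.wAL M p hp hpM (upF (M * p) E2 u))) :
    ∃ (m : ℕ) (g r : L0), m < p ∧ g ≠ 0 ∧ r ∈ V' ∧
      f = (p : L0) ^ m * g ^ p * (1 + (p : L0) * r) :=
  unit_up_twist A (M * p) hp hA K E2 hK hKE
    (wHom M p E2 hp hpM : LE (M * p) E2 →+* LE (M * p) E2)
    (wHom M p K hp hpM : LE (M * p) K →+* LE (M * p) K)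
    (fun a => (Fermat.Agent.S44.L.Alt.SeamField.lvl_wHom hKE M p hp hpM a).symm)
    (fun c => Fermat.Agent.S44.L.Alt.SeamField.wHom_algebraMap_field M p E2 hp hpM c)
    φ hsq hgen V' hVval (fun a ha => hβ a ha) hpV hpinv hunif ρ hρE hρ f hf G u hfG
    (by
      rw [← Fermat.Agent.S44.L.Alt.DescHoriz.upF_wHom M p E2 hp hpM u] at hu
      exact hu)

/-- `unit_up_zero` in the `DepthIn` form. -/
theorem unit_up_zero_depthIn {O : Type*} [CommRing O] {p : ℕ} [NeZero p] (hp : p.Prime)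
    (hpM : ¬ p ∣ M) (hA : A.LiesOverPrime p)
    (K E2 : IntermediateField ℚ Qb) [FiniteDimensional ℚ E2] [Normal ℚ E2]
    (hK : K = inertiaFixed A E2) (hKE : K ≤ E2) [IsDiscreteValuationRing (OE A K)]
    {L0 L2 : Type*} [Field L0] [Field L2] [Algebra (LE (M * p) K) L0] [Algebra L0 L2]
    [Algebra O L0] (φ : LE (M * p) E2 →+* L2)
    (hsq : ∀ a : LE (M * p) K,
      φ (lvl (M * p) hKE a) = algebraMap L0 L2 (algebraMap (LE (M * p) K) L0 a))
    (hgen : ∀ G : L2, ∃ (n : ℕ) (c : Fin n → L0) (y : Fin n → E2),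
      G = ∑ j : Fin n, algebraMap L0 L2 (c j) * φ (algebraMap E2 (LE (M * p) E2) (y j)))
    (V' : Subring L0) (hVval : ∀ x : L0, x ∈ V' ∨ x⁻¹ ∈ V')
    (hβ : ∀ a : LE (M * p) K, a ∈ GaussRings.VZero M p K (OE A K) hp hpM →
      algebraMap (LE (M * p) K) L0 a ∈ V')
    (hpV : (p : L0) ∈ V') (hpinv : (p : L0)⁻¹ ∉ V')
    (hunif : ∀ a : L0, a ≠ 0 → ∃ (n : ℤ) (w : L0), w ∈ V' ∧ w⁻¹ ∈ V' ∧ a = (p : L0) ^ n * w)
    (ρ : Qb) (hρE : ρ ∈ E2) (hρ : ρ ^ p = (p : Qb))
    (f : L0) (hf : f ≠ 0) (G : L2) (u : LE (M * p) E2)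
    (hfG : algebraMap L0 L2 f = G ^ p * φ u)
    (hu : OneUnit (M * p) A
      (Fermat.Agent.S34.ToricSwap.wAL M p hp hpM (upF (M * p) E2 u))) :
    ∃ c : O, c ≠ 0 ∧ Top.DepthIn V' p (p : O) 1 f c :=
  unit_up_twist_depthIn A (M * p) hp hA K E2 hK hKE
    (wHom M p E2 hp hpM : LE (M * p) E2 →+* LE (M * p) E2)
    (wHom M p K hp hpM : LE (M * p) K →+* LE (M * p) K)
    (fun a => (Fermat.Agent.S44.L.Alt.SeamField.lvl_wHom hKE M p hp hpM a).symm)
    (fun c => Fermat.Agent.S44.L.Alt.SeamField.wHom_algebraMap_field M p E2 hp hpM c)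
    φ hsq hgen V' hVval (fun a ha => hβ a ha) hpV hpinv hunif ρ hρE hρ f hf G u hfG
    (by
      rw [← Fermat.Agent.S44.L.Alt.DescHoriz.upF_wHom M p E2 hp hpM u] at hu
      exact hu)

end InstZero

/-! ### The shape of the call: from `f * H ^ p = c ^ p * g ^ p * u` to `f = G ^ p * u` -/

/-- If `f * H ^ p = φ (c ^ p * g ^ p * u)` in `L2` with `H ≠ 0`, then `f = G ^ p * φ u` for
`G = φ (c * g) / H` (the hypothesis `hfG` of the theorems above: `x = c₀ g ^ p u` a `TrivAt`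
decomposition with `c₀ = c ^ p`, and `x = f * H ^ p`). -/
theorem eq_pow_mul_of_mul_pow_eq {L0 L2 F2 : Type*} [Field L0] [Field L2] [Field F2]
    [Algebra L0 L2] (φ : F2 →+* L2) (p : ℕ) (f : L0) (H : L2) (hH : H ≠ 0) (c g u : F2)
    (hfH : algebraMap L0 L2 f * H ^ p = φ (c ^ p * g ^ p * u)) :
    algebraMap L0 L2 f = (φ (c * g) / H) ^ p * φ u := by
  rw [div_pow, div_mul_eq_mul_div, eq_div_iff (pow_ne_zero p hH), hfH, map_mul, map_mul, map_mul,
    map_pow, map_pow, mul_pow]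

end Fermat.Agent.S33.Geo.UnitUp
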