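import Mathlib

/-!
# S33 / GEO, row C6-E (UNIT) upstairs: the spanning binders of the level-free core

Level-free, Mathlib only (helper91, second of row C6-E).  The core `Geo/UnitUpCore.unit_up`
(helper220) takes two spanning hypotheses, `hspan₂ : F2 = ∑_{i < e} F π ^ i` and
`hspan : L2 = ∑_{i < e} L0 (φ π) ^ i`, and `hπ₂ : v₂ π ^ e = v₂ ϖ`.  The number-level supplier
(`Geo/InertiaPow`) gives `E'' = ∑_{i < e} K π ^ i` and `p * u = π ^ e` with `u` a unit.  This
file is the passage: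

* `hspan_of_span`  : four fields `F0 ⊆ FE`, `L0 ⊆ L''` with compatible `j : F0 →+* L0`,
  `φ : FE →+* L''`: if `FE = ∑_{i < e} F0 π ^ i` and `L''` is spanned over `L0` by `φ FE`, then
  `L'' = ∑_{i < e} L0 (φ π) ^ i`.  (Two calls: `(K, E'', LE L K, LE L E'')` and
  `(LE L K, LE L E'', L0, L2)`.)
* `hpi_of_unit`    : `ϖ * u0 = π ^ e` and `v u0 = 1` give `v π ^ e = v ϖ`.
* `mem_sup_expansion`, `mem_sup_iff_expansion` : inside one ambient field `Ω`, for subfields
  `L0`, `E` and `π ∈ E` with `E ⊆ ∑_{i < e} L0 π ^ i`: the compositum `L0 ⊔ E` IS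
  `∑_{i < e} L0 π ^ i` (the span is a subring, finite over `L0`, hence a field).
* `span_range_eq_top_of_sup` : hence, for `L'' = L0 ⊔ E` as a type, the hypothesis `hgen` of
  `hspan_of_span`.
-/

set_option autoImplicit false

namespace Fermat.Agent.S33.Geo.UnitUpSpan

section Four

variable {F0 FE L0 L'' : Type*} [Field F0] [Field FE] [Field L0] [Field L''] [Algebra F0 FE]
  [Algebra L0 L'']

/-- `L'' = ∑_{i < e} L0 (φ π) ^ i` from `FE = ∑_{i < e} F0 π ^ i`, when `L''` is spanned over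
`L0` by the image of `FE`. -/
theorem hspan_of_span (j : F0 →+* L0) (φ : FE →+* L'')
    (hφ : ∀ a : F0, φ (algebraMap F0 FE a) = algebraMap L0 L'' (j a))
    (π : FE) (e : ℕ)
    (hspanF : ∀ G : FE, ∃ c : Fin e → F0,
      G = ∑ i : Fin e, algebraMap F0 FE (c i) * π ^ (i : ℕ))
    (hgen : Submodule.span L0 (Set.range φ) = ⊤) :
    ∀ G : L'', ∃ c : Fin e → L0,
      G = ∑ i : Fin e, algebraMap L0 L'' (c i) * φ π ^ (i : ℕ) := by
  intro G
  have hG : G ∈ Submodule.span L0 (Set.range φ) := by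
    rw [hgen]
    exact Submodule.mem_top
  induction hG using Submodule.span_induction with
  | mem x hx =>
    obtain ⟨y, rfl⟩ := hx
    obtain ⟨c, hc⟩ := hspanF y
    refine ⟨fun i => j (c i), ?_⟩
    rw [hc, map_sum]
    refine Finset.sum_congr rfl (fun i _ => ?_)
    rw [map_mul, map_pow, hφ]
  | zero =>
    exact ⟨fun _ => 0, by simp⟩
  | add x y _ _ hx hy =>
    obtain ⟨c, hc⟩ := hx
    obtain ⟨d, hd⟩ := hy
    refine ⟨fun i => c i + d i, ?_⟩
    rw [hc, hd, ← Finset.sum_add_distrib]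
    refine Finset.sum_congr rfl (fun i _ => ?_)
    rw [map_add, add_mul]
  | smul a x _ hx =>
    obtain ⟨c, hc⟩ := hx
    refine ⟨fun i => a * c i, ?_⟩
    rw [hc, Finset.smul_sum]
    refine Finset.sum_congr rfl (fun i _ => ?_)
    rw [map_mul, Algebra.smul_def, mul_assoc]

/-- The binder `hπ₂` from `ϖ * u0 = π ^ e` with `u0` a unit of the valuation (the form of the
`InertiaPow` pack: `p * u = π ^ e`, `u` a unit). -/
theorem hpi_of_unit {Γ : Type*} [LinearOrderedCommGroupWithZero Γ] (v : Valuation FE Γ)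
    (ϖ : F0) (π u0 : FE) (e : ℕ) (hπe : algebraMap F0 FE ϖ * u0 = π ^ e) (hvu0 : v u0 = 1) :
    v π ^ e = v (algebraMap F0 FE ϖ) := by
  have h1 : v (π ^ e) = v (algebraMap F0 FE ϖ * u0) := by rw [hπe]
  rw [map_pow, map_mul, hvu0, mul_one] at h1
  exact h1

end Four

section Sup

open scoped Pointwise

variable {Ω : Type*} [Field Ω]

/-- **The compositum is the span of the powers of `π`.**  `L0`, `E` subfields of `Ω`, `π ∈ E`,
and every element of `E` is an `L0`-combination of `1, π, …, π ^ (e - 1)`.  Then so is every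
element of `L0 ⊔ E`. -/
theorem mem_sup_expansion (L0 E : Subfield Ω) (π : Ω) (hπE : π ∈ E) (e : ℕ)
    (hE : ∀ y ∈ E, ∃ c : Fin e → Ω, (∀ i, c i ∈ L0) ∧ y = ∑ i : Fin e, c i * π ^ (i : ℕ))
    {G : Ω} (hG : G ∈ L0 ⊔ E) :
    ∃ c : Fin e → Ω, (∀ i, c i ∈ L0) ∧ G = ∑ i : Fin e, c i * π ^ (i : ℕ) := by
  classical
  obtain ⟨M, hM⟩ : ∃ M : Submodule L0 Ω,
      M = Submodule.span L0 (Set.range fun i : Fin e => π ^ (i : ℕ)) := ⟨_, rfl⟩
  have hmemM : ∀ x : Ω, x ∈ M ↔
      ∃ c : Fin e → Ω, (∀ i, c i ∈ L0) ∧ x = ∑ i : Fin e, c i * π ^ (i : ℕ) := by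
    intro x
    constructor
    · intro hx
      rw [hM] at hx
      obtain ⟨c, hc⟩ := (Submodule.mem_span_range_iff_exists_fun L0).mp hx
      refine ⟨fun i => (c i : Ω), fun i => (c i).2, ?_⟩
      rw [← hc]
      refine Finset.sum_congr rfl (fun i _ => ?_)
      rw [Algebra.smul_def]
      rfl
    · rintro ⟨c, hc, rfl⟩
      refine Submodule.sum_mem _ (fun i _ => ?_)
      have h1 : c i * π ^ (i : ℕ) = (⟨c i, hc i⟩ : L0) • π ^ (i : ℕ) := by
        rw [Algebra.smul_def]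
        rfl
      rw [h1, hM]
      exact Submodule.smul_mem _ _ (Submodule.subset_span ⟨i, rfl⟩)
  have hEM : ∀ y ∈ E, y ∈ M := fun y hy => (hmemM y).mpr (hE y hy)
  have h1 : (1 : Ω) ∈ M := hEM 1 E.one_mem
  have hmul : ∀ x y, x ∈ M → y ∈ M → x * y ∈ M := by
    intro x y hx hy
    have h : M * M ≤ M := by
      have h2 : M * M = Submodule.span L0
          ((Set.range fun i : Fin e => π ^ (i : ℕ)) * (Set.range fun i : Fin e => π ^ (i : ℕ))) := by
        rw [hM, Submodule.span_mul_span]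
      rw [h2]
      apply Submodule.span_le.mpr
      rintro _ ⟨_, ⟨i, rfl⟩, _, ⟨k, rfl⟩, rfl⟩
      exact hEM _ (E.mul_mem (E.pow_mem hπE _) (E.pow_mem hπE _))
    exact h (Submodule.mul_mem_mul hx hy)
  have hfg : (M.toSubalgebra h1 hmul).toSubmodule.FG := by
    rw [Submodule.toSubalgebra_toSubmodule, hM]
    exact Submodule.fg_span (Set.finite_range _)
  have hinv : ∀ x : Ω, x ∈ M → x⁻¹ ∈ M := by
    intro x hx
    have hxS : x ∈ M.toSubalgebra h1 hmul := Submodule.mem_toSubalgebra.mpr hx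
    have hint : IsIntegral L0 x := IsIntegral.of_mem_of_fg _ hfg x hxS
    exact Submodule.mem_toSubalgebra.mp
      ((M.toSubalgebra h1 hmul).inv_mem_of_algebraic (x := ⟨x, hxS⟩) hint.isAlgebraic)
  have hL0M : ∀ l ∈ L0, l ∈ M := by
    intro l hl
    have h2 : (⟨l, hl⟩ : L0) • (1 : Ω) = l := by
      rw [Algebra.smul_def, mul_one]
      rfl
    rw [← h2]
    exact Submodule.smul_mem _ _ h1
  let T : Subfield Ω :=
    { carrier := M
      mul_mem' := fun hx hy => hmul _ _ hx hy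
      one_mem' := h1
      add_mem' := fun hx hy => M.add_mem hx hy
      zero_mem' := M.zero_mem
      neg_mem' := fun hx => M.neg_mem hx
      inv_mem' := hinv }
  have hle : L0 ⊔ E ≤ T := sup_le (fun l hl => hL0M l hl) (fun y hy => hEM y hy)
  exact (hmemM G).mp (hle hG)

/-- The compositum `L0 ⊔ E` is exactly `∑_{i < e} L0 π ^ i`. -/
theorem mem_sup_iff_expansion (L0 E : Subfield Ω) (π : Ω) (hπE : π ∈ E) (e : ℕ)
    (hE : ∀ y ∈ E, ∃ c : Fin e → Ω, (∀ i, c i ∈ L0) ∧ y = ∑ i : Fin e, c i * π ^ (i : ℕ))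
    (G : Ω) :
    G ∈ L0 ⊔ E ↔ ∃ c : Fin e → Ω, (∀ i, c i ∈ L0) ∧ G = ∑ i : Fin e, c i * π ^ (i : ℕ) := by
  constructor
  · exact mem_sup_expansion L0 E π hπE e hE
  · rintro ⟨c, hc, rfl⟩
    refine Subfield.sum_mem _ (fun i _ => ?_)
    exact Subfield.mul_mem _ ((le_sup_left : L0 ≤ L0 ⊔ E) (hc i))
      (Subfield.pow_mem _ ((le_sup_right : E ≤ L0 ⊔ E) hπE) _)

end Sup

end Fermat.Agent.S33.Geo.UnitUpSpan
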