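/-
S33 (ordinary at `p ∥ N`), strand GEO, Stage B, row C6-E (owner helper220; second helper91):
**(UNIT) upstairs for the cover field**: `Geo/UnitUpTwist.unit_up_twist` at the landed cover field
`L0 = CoverFieldDefs.L0 N K ζ T`, with the field `L2 = L0 · E2` made concrete.

`K ≤ E2 ⊆ ℚ̄`, `L0 ⊆ K((q))` the cover field.  Inside `ℚ̄((q))`:

* `supF N K E2 ζ T` : the compositum of the image of `L0` (coefficientwise) and the constants of
  `E2` — the spelling of `CoverDescent.mem_sup_of_coeff_mem` verbatim;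
* `ι0 : L0 →+* supF`, `φ : LE N E2 →+* supF` : the coefficientwise embeddings; `φ_lvl` (the square
  `hsq` of `unit_up_twist`), `exists_sum` (its `hgen`, from `E2 = ∑_{i < e} K π ^ i`);
* membership: `coeffMap_mem_supF_of_mem_L0`, `coeffMap_mem_supF_of_mem_LE`, `const_mem_supF`.

Exits (no `L2`, no `φ`: the hypothesis is an identity of `q`-series over `ℚ̄`,
`F = G ^ p * u` with `G ∈ supF`, `u : LE L E2`):

* `unit_up_cover`        : the twisted form, `f = p ^ m * g ^ p * (1 + p r)`;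
* `unit_up_cover_depthIn`: `∃ c : O, c ≠ 0 ∧ Top.DepthIn V' p (p : O) 1 f c` for `V'` with
  `BranchDvr.IsPiDvr (p : O) V'`, `BranchPin.IsDisc (p : O) V'`;
* `unit_up_cover_inf`, `unit_up_cover_zero` : the two components (`V'` over `GaussRings.VInf`,
  `u` a one-unit; `V'` over `GaussRings.VZero`, `wHom u` a one-unit);
  `unit_up_cover_VB` : both, over `GaussRings.VB .. b`.
-/
import Mathlib
import Fermat.Agent.S33.Geo.UnitUpTwist
import Fermat.Agent.S33.Geo.CoverFieldDefs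
import Fermat.Agent.S33.Geo.UnitUpSpan
import Fermat.Agent.S33.Geo.BranchPin

set_option autoImplicit false
set_option linter.unusedSectionVars false
set_option linter.unusedVariables false
set_option linter.style.haveILetI false
set_option synthInstance.maxHeartbeats 400000

open ModularCurve

noncomputable section

namespace Fermat.Agent.S33.Geo.UnitUpCover

open Fermat.Agent.S30 Fermat.Agent.S30.E4 Fermat.Agent.S30.Producer Fermat.Agent.S18.K1Defs
open Fermat.Agent.S18.K1Top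
open Fermat.Agent.S36.InvFun Fermat.Agent.S33.Geo.Contract
open Fermat.Agent.S34.HauptU.Plug
open Fermat.Agent.S36.CycloBase (cyclo)
open Fermat.Agent.S33.Geo.CoverFieldDefs (L0 mem_L0_of_mem_LE)
open Fermat.Agent.S19.Cech.BCChart (lvl coe_lvl lvl_algebraMap)
open Fermat.Agent.Lib.InertiaField (inertiaFixed)

/-! ### The compositum `L0 · E2` inside `ℚ̄((q))` -/

section Sup

variable (N : ℕ) (K E2 : IntermediateField ℚ Qb) (ζ : Qb) {ι : Type*}
  (T : ι → LaurentSeries (cyclo K ζ))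

/-- The compositum of the (coefficientwise) image of the cover field and the constants of `E2`,
inside `ℚ̄((q))`. -/
abbrev supF : Subfield (LaurentSeries Qb) :=
  (L0 N K ζ T).toSubfield.map (coeffMap (algebraMap K Qb)) ⊔
    E2.toSubfield.map (algebraMap Qb (LaurentSeries Qb))

theorem coeffMap_mem_supF_of_mem_L0 {x : LaurentSeries K} (hx : x ∈ L0 N K ζ T) :
    coeffMap (algebraMap K Qb) x ∈ supF N K E2 ζ T :=
  (le_sup_left : _ ≤ supF N K E2 ζ T) (Subfield.mem_map.mpr ⟨x, hx, rfl⟩)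

theorem const_mem_supF {c : Qb} (hc : c ∈ E2) :
    algebraMap Qb (LaurentSeries Qb) c ∈ supF N K E2 ζ T :=
  (le_sup_right : _ ≤ supF N K E2 ζ T) (Subfield.mem_map.mpr ⟨c, hc, rfl⟩)

theorem coeffMap_mem_supF_of_mem_LE {y : LaurentSeries E2} (hy : y ∈ LE N E2) :
    coeffMap (algebraMap E2 Qb) y ∈ supF N K E2 ζ T := by
  rw [mem_laurentBaseChange_iff] at hy
  induction hy using Subfield.closure_induction with
  | mem y hy =>
      rcases hy with ⟨a, rfl⟩ | ⟨z, hz, rfl⟩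
      · rw [coeffMap_algebraMap_hom]
        exact const_mem_supF N K E2 ζ T a.2
      · rw [coeffMap_coeffEmb_hom, ← coeffMap_coeffEmb_hom (algebraMap K Qb) z]
        exact coeffMap_mem_supF_of_mem_L0 N K E2 ζ T
          (mem_L0_of_mem_LE N K ζ T (coeffEmb_mem_laurentBaseChange K hz))
  | one =>
      rw [map_one]
      exact one_mem _
  | add x y _ _ hx hy =>
      rw [map_add]
      exact add_mem hx hy
  | neg x _ hx =>
      rw [map_neg]
      exact neg_mem hx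
  | inv x _ hx =>
      rw [map_inv₀]
      exact inv_mem hx
  | mul x y _ _ hx hy =>
      rw [map_mul]
      exact mul_mem hx hy

/-- The coefficientwise embedding of the cover field in the compositum. -/
def ι0 : ↥(L0 N K ζ T) →+* ↥(supF N K E2 ζ T) :=
  ((coeffMap (algebraMap K Qb)).comp
    (algebraMap ↥(L0 N K ζ T) (LaurentSeries K))).codRestrict (supF N K E2 ζ T)
    (fun x => coeffMap_mem_supF_of_mem_L0 N K E2 ζ T x.2)

theorem coe_ι0 (x : ↥(L0 N K ζ T)) :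
    ((ι0 N K E2 ζ T x : ↥(supF N K E2 ζ T)) : LaurentSeries Qb)
      = coeffMap (algebraMap K Qb) (x : LaurentSeries K) := rfl

/-- The coefficientwise embedding of `LE N E2` in the compositum. -/
def φ : LE N E2 →+* ↥(supF N K E2 ζ T) :=
  ((coeffMap (algebraMap E2 Qb)).comp
    (algebraMap (LE N E2) (LaurentSeries E2))).codRestrict (supF N K E2 ζ T)
    (fun y => coeffMap_mem_supF_of_mem_LE N K E2 ζ T y.2)

theorem coe_φ (y : LE N E2) :
    ((φ N K E2 ζ T y : ↥(supF N K E2 ζ T)) : LaurentSeries Qb)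
      = coeffMap (algebraMap E2 Qb) (y : LaurentSeries E2) := rfl

/-- **The square** (`hsq` of `unit_up_twist`). -/
theorem φ_lvl (hKE : K ≤ E2) (a : LE N K) :
    φ N K E2 ζ T (lvl N hKE a) = ι0 N K E2 ζ T (algebraMap (LE N K) ↥(L0 N K ζ T) a) := by
  apply Subtype.ext
  rw [coe_φ, coe_ι0, coe_lvl, coeffMap_coeffMap]
  exact coeffMap_congr (RingHom.ext fun _ => rfl) _

/-- **Generation** (`hgen` of `unit_up_twist`): if `E2 = ∑_{i < e} K π ^ i`, every element of the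
compositum is a finite sum of products (element of `L0`) · (constant of `E2`). -/
theorem exists_sum (π : Qb) (hπE : π ∈ E2) (e : ℕ)
    (hfspan : ∀ y : Qb, y ∈ E2 → ∃ c : Fin e → Qb, (∀ i, c i ∈ K) ∧
      y = ∑ i : Fin e, c i * π ^ (i : ℕ))
    (G : ↥(supF N K E2 ζ T)) :
    ∃ (n : ℕ) (c : Fin n → ↥(L0 N K ζ T)) (y : Fin n → E2),
      G = ∑ j : Fin n, ι0 N K E2 ζ T (c j) * φ N K E2 ζ T (algebraMap E2 (LE N E2) (y j)) := by
  have hE : ∀ y ∈ E2.toSubfield.map (algebraMap Qb (LaurentSeries Qb)),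
      ∃ c : Fin e → LaurentSeries Qb,
        (∀ i, c i ∈ (L0 N K ζ T).toSubfield.map (coeffMap (algebraMap K Qb))) ∧
          y = ∑ i : Fin e, c i * algebraMap Qb (LaurentSeries Qb) π ^ (i : ℕ) := by
    intro y hy
    obtain ⟨y₀, hy₀, rfl⟩ := Subfield.mem_map.mp hy
    obtain ⟨c, hc, hyc⟩ := hfspan y₀ hy₀
    refine ⟨fun i => algebraMap Qb (LaurentSeries Qb) (c i), fun i => ?_, ?_⟩
    · refine Subfield.mem_map.mpr ⟨algebraMap K (LaurentSeries K) ⟨c i, hc i⟩, ?_, ?_⟩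
      · exact mem_L0_of_mem_LE N K ζ T ((LE N K).algebraMap_mem ⟨c i, hc i⟩)
      · exact coeffMap_algebraMap_hom _ _
    · rw [hyc, map_sum]
      refine Finset.sum_congr rfl fun i _ => ?_
      rw [map_mul, map_pow]
  obtain ⟨c, hc, hG⟩ := UnitUpSpan.mem_sup_expansion _ _ (algebraMap Qb (LaurentSeries Qb) π)
    (Subfield.mem_map.mpr ⟨π, hπE, rfl⟩) e hE G.2
  choose x hx hxc using fun i => Subfield.mem_map.mp (hc i)
  refine ⟨e, fun i => ⟨x i, hx i⟩, fun i => (⟨π, hπE⟩ : E2) ^ (i : ℕ), Subtype.ext ?_⟩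
  rw [hG, AddSubmonoidClass.coe_finsetSum]
  refine Finset.sum_congr rfl fun i _ => ?_
  show c i * algebraMap Qb (LaurentSeries Qb) π ^ (i : ℕ)
    = coeffMap (algebraMap K Qb) (x i) * coeffMap (algebraMap E2 Qb)
        (algebraMap E2 (LaurentSeries E2) ((⟨π, hπE⟩ : E2) ^ (i : ℕ)))
  rw [hxc i, coeffMap_algebraMap_hom, map_pow, map_pow]
  rfl

end Sup

/-! ### The exits -/

section Exit

variable (A : ValuationSubring Qb) (L : ℕ) [NeZero L]

/-- **(UNIT) upstairs for the cover field, twisted form.**  `unit_up_twist` at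
`L0 := CoverFieldDefs.L0 L K ζ T`, `L2 := supF L K E2 ζ T`: the hypothesis is the identity
`F = G ^ p * u` of `q`-series over `ℚ̄`, `F` the image of `f`, `G ∈ supF`, `u : LE L E2`. -/
theorem unit_up_cover {p : ℕ} (hp : p.Prime) (hA : A.LiesOverPrime p)
    (K E2 : IntermediateField ℚ Qb) [FiniteDimensional ℚ E2] [Normal ℚ E2]
    (hK : K = inertiaFixed A E2) (hKE : K ≤ E2) [IsDiscreteValuationRing (OE A K)]
    (τ : LE L E2 →+* LE L E2) (τK : LE L K →+* LE L K)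
    (hτlvl : ∀ a : LE L K, τ (lvl L hKE a) = lvl L hKE (τK a))
    (hτc : ∀ c : E2, τ (algebraMap E2 (LE L E2) c) = algebraMap E2 (LE L E2) c)
    (ζ : Qb) {ι : Type*} (T : ι → LaurentSeries (cyclo K ζ))
    (V' : Subring ↥(L0 L K ζ T)) (hVval : ∀ x : ↥(L0 L K ζ T), x ∈ V' ∨ x⁻¹ ∈ V')
    (hβ : ∀ a : LE L K, τK a ∈ UnitUpTwist.gaussVS A L K →
      algebraMap (LE L K) ↥(L0 L K ζ T) a ∈ V')
    (hpV : (p : ↥(L0 L K ζ T)) ∈ V') (hpinv : (p : ↥(L0 L K ζ T))⁻¹ ∉ V')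
    (hunif : ∀ a : ↥(L0 L K ζ T), a ≠ 0 → ∃ (n : ℤ) (w : ↥(L0 L K ζ T)),
      w ∈ V' ∧ w⁻¹ ∈ V' ∧ a = (p : ↥(L0 L K ζ T)) ^ n * w)
    (ρ : Qb) (hρE : ρ ∈ E2) (hρ : ρ ^ p = (p : Qb))
    (f : ↥(L0 L K ζ T)) (hf : f ≠ 0) (G : LaurentSeries Qb) (hG : G ∈ supF L K E2 ζ T)
    (u : LE L E2)
    (hfG : coeffMap (algebraMap K Qb) (f : LaurentSeries K)
      = G ^ p * coeffMap (algebraMap E2 Qb) (u : LaurentSeries E2))
    (hu : OneUnit L A (upF L E2 (τ u))) :
    ∃ (m : ℕ) (g r : ↥(L0 L K ζ T)), m < p ∧ g ≠ 0 ∧ r ∈ V' ∧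
      f = (p : ↥(L0 L K ζ T)) ^ m * g ^ p * (1 + (p : ↥(L0 L K ζ T)) * r) := by
  obtain ⟨e, π, u0, he, hπE, hπ0, hπ1, hu0E, hu01, hpu, hv, hfspan, -, -⟩ :=
    InertiaPow.exists_uniformizer_pow A E2 hp hA
  have hfspan' : ∀ y : Qb, y ∈ E2 → ∃ c : Fin e → Qb, (∀ i, c i ∈ K) ∧
      y = ∑ i : Fin e, c i * π ^ (i : ℕ) := by
    intro y hy
    obtain ⟨c, hc, h⟩ := hfspan y hy
    refine ⟨c, fun i => ?_, h⟩
    rw [hK]
    exact hc i
  letI algL : Algebra ↥(L0 L K ζ T) ↥(supF L K E2 ζ T) := (ι0 L K E2 ζ T).toAlgebra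
  have hfG' : algebraMap ↥(L0 L K ζ T) ↥(supF L K E2 ζ T) f
      = (⟨G, hG⟩ : ↥(supF L K E2 ζ T)) ^ p * φ L K E2 ζ T u := Subtype.ext hfG
  exact UnitUpTwist.unit_up_twist A L hp hA K E2 hK hKE τ τK hτlvl hτc (φ L K E2 ζ T)
    (fun a => φ_lvl L K E2 ζ T hKE a) (exists_sum L K E2 ζ T π hπE e hfspan') V' hVval hβ hpV
    hpinv hunif ρ hρE hρ f hf ⟨G, hG⟩ u hfG' hu

/-- **(UNIT) upstairs for the cover field, `DepthIn` form**, for `V'` a valuation ring with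
uniformiser `p` in the binder shape of the model rows (`IsPiDvr`, `IsDisc`). -/
theorem unit_up_cover_depthIn {O : Type*} [CommRing O] {p : ℕ} (hp : p.Prime)
    (hA : A.LiesOverPrime p)
    (K E2 : IntermediateField ℚ Qb) [FiniteDimensional ℚ E2] [Normal ℚ E2]
    (hK : K = inertiaFixed A E2) (hKE : K ≤ E2) [IsDiscreteValuationRing (OE A K)]
    (τ : LE L E2 →+* LE L E2) (τK : LE L K →+* LE L K)
    (hτlvl : ∀ a : LE L K, τ (lvl L hKE a) = lvl L hKE (τK a))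
    (hτc : ∀ c : E2, τ (algebraMap E2 (LE L E2) c) = algebraMap E2 (LE L E2) c)
    (ζ : Qb) {ι : Type*} (T : ι → LaurentSeries (cyclo K ζ)) [Algebra O ↥(L0 L K ζ T)]
    (V' : Subring ↥(L0 L K ζ T)) (hpi : BranchDvr.IsPiDvr (p : O) V')
    (hdisc : BranchPin.IsDisc (p : O) V')
    (hβ : ∀ a : LE L K, τK a ∈ UnitUpTwist.gaussVS A L K →
      algebraMap (LE L K) ↥(L0 L K ζ T) a ∈ V')
    (ρ : Qb) (hρE : ρ ∈ E2) (hρ : ρ ^ p = (p : Qb))
    (f : ↥(L0 L K ζ T)) (hf : f ≠ 0) (G : LaurentSeries Qb) (hG : G ∈ supF L K E2 ζ T)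
    (u : LE L E2)
    (hfG : coeffMap (algebraMap K Qb) (f : LaurentSeries K)
      = G ^ p * coeffMap (algebraMap E2 Qb) (u : LaurentSeries E2))
    (hu : OneUnit L A (upF L E2 (τ u))) :
    ∃ c : O, c ≠ 0 ∧ Top.DepthIn V' p (p : O) 1 f c := by
  have hcast : algebraMap O ↥(L0 L K ζ T) (p : O) = (p : ↥(L0 L K ζ T)) := map_natCast _ p
  have hpV : (p : ↥(L0 L K ζ T)) ∈ V' := by
    rw [← hcast]
    exact hpi.pi_mem
  have hpinv : (p : ↥(L0 L K ζ T))⁻¹ ∉ V' := by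
    rw [← hcast]
    exact hpi.inv_pi_notMem
  have hpL : (p : ↥(L0 L K ζ T)) ≠ 0 := by
    rw [← hcast]
    exact hpi.pi_ne
  have hunif : ∀ a : ↥(L0 L K ζ T), a ≠ 0 → ∃ (n : ℤ) (w : ↥(L0 L K ζ T)),
      w ∈ V' ∧ w⁻¹ ∈ V' ∧ a = (p : ↥(L0 L K ζ T)) ^ n * w := by
    intro a ha
    obtain ⟨n, w, hw, hwi, h⟩ := hdisc a ha
    rw [hcast] at h
    exact ⟨n, w, hw, hwi, h⟩
  obtain ⟨m, g, r, -, -, hr, hfr⟩ := unit_up_cover A L hp hA K E2 hK hKE τ τK hτlvl hτc ζ T V'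
    hpi.val hβ hpV hpinv hunif ρ hρE hρ f hf G hG u hfG hu
  refine ⟨(p : O) ^ m, ?_, g, r, hr, ?_⟩
  · intro h0
    have h1 : algebraMap O ↥(L0 L K ζ T) ((p : O) ^ m) = 0 := by rw [h0, map_zero]
    rw [map_pow, hcast] at h1
    exact pow_ne_zero m hpL h1
  · rw [map_pow, hcast, pow_one]
    exact hfr

/-- **The component `∞`**: `V'` lies over `GaussRings.VInf`, `u` is a one-unit at `A`. -/
theorem unit_up_cover_inf {O : Type*} [CommRing O] {p : ℕ} (hp : p.Prime)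
    (hA : A.LiesOverPrime p)
    (K E2 : IntermediateField ℚ Qb) [FiniteDimensional ℚ E2] [Normal ℚ E2]
    (hK : K = inertiaFixed A E2) (hKE : K ≤ E2) [IsDiscreteValuationRing (OE A K)]
    (ζ : Qb) {ι : Type*} (T : ι → LaurentSeries (cyclo K ζ)) [Algebra O ↥(L0 L K ζ T)]
    (V' : Subring ↥(L0 L K ζ T)) (hpi : BranchDvr.IsPiDvr (p : O) V')
    (hdisc : BranchPin.IsDisc (p : O) V')
    (hV : ∀ a ∈ GaussRings.VInf L K (OE A K), algebraMap (LE L K) ↥(L0 L K ζ T) a ∈ V')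
    (ρ : Qb) (hρE : ρ ∈ E2) (hρ : ρ ^ p = (p : Qb))
    (f : ↥(L0 L K ζ T)) (hf : f ≠ 0) (G : LaurentSeries Qb) (hG : G ∈ supF L K E2 ζ T)
    (u : LE L E2)
    (hfG : coeffMap (algebraMap K Qb) (f : LaurentSeries K)
      = G ^ p * coeffMap (algebraMap E2 Qb) (u : LaurentSeries E2))
    (hu : OneUnit L A (upF L E2 u)) :
    ∃ c : O, c ≠ 0 ∧ Top.DepthIn V' p (p : O) 1 f c :=
  unit_up_cover_depthIn A L hp hA K E2 hK hKE (RingHom.id _) (RingHom.id _) (fun _ => rfl)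
    (fun _ => rfl) ζ T V' hpi hdisc (fun a ha => hV a ha) ρ hρE hρ f hf G hG u hfG hu

end Exit

section Zero

variable (A : ValuationSubring Qb) (M p : ℕ) [NeZero M] [NeZero p]

/-- **The component `0`**: `V'` lies over `GaussRings.VZero`, the swap of `u` is a one-unit
at `A`. -/
theorem unit_up_cover_zero {O : Type*} [CommRing O] (hp : p.Prime) (hpM : ¬ p ∣ M)
    (hA : A.LiesOverPrime p)
    (K E2 : IntermediateField ℚ Qb) [FiniteDimensional ℚ E2] [Normal ℚ E2]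
    (hK : K = inertiaFixed A E2) (hKE : K ≤ E2) [IsDiscreteValuationRing (OE A K)]
    (ζ : Qb) {ι : Type*} (T : ι → LaurentSeries (cyclo K ζ)) [Algebra O ↥(L0 (M * p) K ζ T)]
    (V' : Subring ↥(L0 (M * p) K ζ T)) (hpi : BranchDvr.IsPiDvr (p : O) V')
    (hdisc : BranchPin.IsDisc (p : O) V')
    (hV : ∀ a ∈ GaussRings.VZero M p K (OE A K) hp hpM,
      algebraMap (LE (M * p) K) ↥(L0 (M * p) K ζ T) a ∈ V')
    (ρ : Qb) (hρE : ρ ∈ E2) (hρ : ρ ^ p = (p : Qb))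
    (f : ↥(L0 (M * p) K ζ T)) (hf : f ≠ 0) (G : LaurentSeries Qb)
    (hG : G ∈ supF (M * p) K E2 ζ T) (u : LE (M * p) E2)
    (hfG : coeffMap (algebraMap K Qb) (f : LaurentSeries K)
      = G ^ p * coeffMap (algebraMap E2 Qb) (u : LaurentSeries E2))
    (hu : OneUnit (M * p) A (upF (M * p) E2 (wHom M p E2 hp hpM u))) :
    ∃ c : O, c ≠ 0 ∧ Top.DepthIn V' p (p : O) 1 f c :=
  unit_up_cover_depthIn A (M * p) hp hA K E2 hK hKE
    ((wHom M p E2 hp hpM : LE (M * p) E2 ≃+* LE (M * p) E2) : LE (M * p) E2 →+* LE (M * p) E2)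
    ((wHom M p K hp hpM : LE (M * p) K ≃+* LE (M * p) K) : LE (M * p) K →+* LE (M * p) K)
    (fun a => (Fermat.Agent.S44.L.Alt.SeamField.lvl_wHom hKE M p hp hpM a).symm)
    (fun c => Fermat.Agent.S44.L.Alt.SeamField.wHom_algebraMap_field M p E2 hp hpM c)
    ζ T V' hpi hdisc (fun a ha => hV a ha) ρ hρE hρ f hf G hG u hfG hu

/-- **Both components**: `V'` lies over `GaussRings.VB .. b`; the one-unit hypothesis is the one
of the component (`b = true`: `u`; `b = false`: the swap of `u`). -/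
theorem unit_up_cover_VB {O : Type*} [CommRing O] (hp : p.Prime) (hpM : ¬ p ∣ M)
    (hA : A.LiesOverPrime p)
    (K E2 : IntermediateField ℚ Qb) [FiniteDimensional ℚ E2] [Normal ℚ E2]
    (hK : K = inertiaFixed A E2) (hKE : K ≤ E2) [IsDiscreteValuationRing (OE A K)]
    (ζ : Qb) {ι : Type*} (T : ι → LaurentSeries (cyclo K ζ)) [Algebra O ↥(L0 (M * p) K ζ T)]
    (V' : Subring ↥(L0 (M * p) K ζ T)) (hpi : BranchDvr.IsPiDvr (p : O) V')
    (hdisc : BranchPin.IsDisc (p : O) V') (b : Bool)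
    (hV : ∀ a ∈ GaussRings.VB M p K (OE A K) hp hpM b,
      algebraMap (LE (M * p) K) ↥(L0 (M * p) K ζ T) a ∈ V')
    (ρ : Qb) (hρE : ρ ∈ E2) (hρ : ρ ^ p = (p : Qb))
    (f : ↥(L0 (M * p) K ζ T)) (hf : f ≠ 0) (G : LaurentSeries Qb)
    (hG : G ∈ supF (M * p) K E2 ζ T) (u : LE (M * p) E2)
    (hfG : coeffMap (algebraMap K Qb) (f : LaurentSeries K)
      = G ^ p * coeffMap (algebraMap E2 Qb) (u : LaurentSeries E2))
    (hu : b = true → OneUnit (M * p) A (upF (M * p) E2 u))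
    (hu' : b = false → OneUnit (M * p) A (upF (M * p) E2 (wHom M p E2 hp hpM u))) :
    ∃ c : O, c ≠ 0 ∧ Top.DepthIn V' p (p : O) 1 f c := by
  cases b with
  | true =>
    exact unit_up_cover_inf A (M * p) hp hA K E2 hK hKE ζ T V' hpi hdisc hV ρ hρE hρ f hf G hG u
      hfG (hu rfl)
  | false =>
    exact unit_up_cover_zero A M p hp hpM hA K E2 hK hKE ζ T V' hpi hdisc hV ρ hρE hρ f hf G hG u
      hfG (hu' rfl)

end Zero

end Fermat.Agent.S33.Geo.UnitUpCover
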