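import Mathlib
import Fermat.Agent.S33.Geo.UnitUpSpan

/-!
# S33 / GEO, row C6-E (UNIT) upstairs: the spanning binders, typed form

Level-free (Mathlib + `S33/Geo/UnitUpSpan`; helper91, second of row C6-E).

`UnitUpSpan.mem_sup_expansion` lives inside one ambient field `Ω`.  The core
`UnitUpCore.unit_up` wants its two spanning binders for field TYPES with an `Algebra` instance:
`∀ G : L2, ∃ c : Fin e → L0, G = ∑ i, algebraMap L0 L2 (c i) * π ^ i`.  This file is the bridge,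
for any field types `L0t`, `L2t` embedded in `Ω`:

* `hspan_typed` : `ι0 : L0t →+* Ω`, `κ : L2t →+* Ω` with `κ ∘ algebraMap = ι0`, `E` a subfield
  of `Ω` with `κ L2t ⊆ ι0 L0t ⊔ E`, `π : L2t` with `κ π ∈ E`, and every element of `E` an
  `ι0 L0t`-combination of `1, κ π, …, (κ π) ^ (e - 1)`.  Then
  `∀ G : L2t, ∃ c : Fin e → L0t, G = ∑ i, algebraMap L0t L2t (c i) * π ^ i`.

Two calls in the instance: `(L0t, L2t, Ω) = (LE L K, LE L E'', E''((q)))` with `E` the constants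
(`LE L E''` is generated by the image of `LE L K` and the constants: the binder `hspan₂`), and
`(L0t, L2t, Ω) = (L0, ↥(L0s ⊔ Es), ℚ̄((q)))` (the binder `hspan`).
-/

set_option autoImplicit false

namespace Fermat.Agent.S33.Geo.UnitUpSpanTyped

variable {Ω L0t L2t : Type*} [Field Ω] [Field L0t] [Field L2t] [Algebra L0t L2t]

/-- **The spanning binder of `UnitUpCore.unit_up`, from the compositum inside `Ω`.** -/
theorem hspan_typed (ι0 : L0t →+* Ω) (κ : L2t →+* Ω)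
    (hκ : ∀ x : L0t, κ (algebraMap L0t L2t x) = ι0 x)
    (E : Subfield Ω) (hL2 : ∀ G : L2t, κ G ∈ ι0.fieldRange ⊔ E)
    (π : L2t) (hπE : κ π ∈ E) (e : ℕ)
    (hE : ∀ y ∈ E, ∃ c : Fin e → Ω, (∀ i, c i ∈ ι0.fieldRange) ∧
      y = ∑ i : Fin e, c i * κ π ^ (i : ℕ)) :
    ∀ G : L2t, ∃ c : Fin e → L0t,
      G = ∑ i : Fin e, algebraMap L0t L2t (c i) * π ^ (i : ℕ) := by
  intro G
  obtain ⟨c, hc, hG⟩ := UnitUpSpan.mem_sup_expansion ι0.fieldRange E (κ π) hπE e hE (hL2 G)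
  have hc' : ∀ i, ∃ x : L0t, ι0 x = c i := fun i => RingHom.mem_fieldRange.mp (hc i)
  choose c' hc'' using hc'
  refine ⟨c', κ.injective ?_⟩
  rw [hG, map_sum]
  refine Finset.sum_congr rfl (fun i _ => ?_)
  rw [map_mul, map_pow, hκ, hc'']

/-- The same with `κ L2t ⊆ ι0 L0t ⊔ E` given as an inequality of subfields. -/
theorem hspan_typed_of_le (ι0 : L0t →+* Ω) (κ : L2t →+* Ω)
    (hκ : ∀ x : L0t, κ (algebraMap L0t L2t x) = ι0 x)
    (E : Subfield Ω) (hL2 : κ.fieldRange ≤ ι0.fieldRange ⊔ E)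
    (π : L2t) (hπE : κ π ∈ E) (e : ℕ)
    (hE : ∀ y ∈ E, ∃ c : Fin e → Ω, (∀ i, c i ∈ ι0.fieldRange) ∧
      y = ∑ i : Fin e, c i * κ π ^ (i : ℕ)) :
    ∀ G : L2t, ∃ c : Fin e → L0t,
      G = ∑ i : Fin e, algebraMap L0t L2t (c i) * π ^ (i : ℕ) :=
  hspan_typed ι0 κ hκ E (fun G => hL2 (RingHom.mem_fieldRange.mpr ⟨G, rfl⟩)) π hπE e hE

end Fermat.Agent.S33.Geo.UnitUpSpanTyped
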