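import Mathlib
import Fermat.Agent.S33.Geo.ZConst
import Fermat.Agent.S33.Geo.TameTop

/-!
# S33 / GEO / row Z3c: constant ONE on every component, the node comparison discharged

Level-free; fix-forward of `S33/Geo/ZConst` (exit `tame_depth_one`, with the comparison of the
branch constants at the nodes as a hypothesis `hnode`).  With `TameTop.tame_depth_const` (ONE
constant at depth `p` on every `V W[lam]`, the node lemma at the top depth proved at every
`NodeBlock` of the model) the hypothesis `hnode` disappears: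

* `tame_depth_one_top` : binders of `TameDepth.tame_depth`; `σ₁` a `q`-expansion of `F₁` with
  coefficients in `K₁ = Frac O₁`.  If `f ∈ F₁ˣ` is horizontal (`TameModel.HorVal`), has depth
  `≥ 1` along every `V W[lam]` and leading coefficient `1`, then it has depth `≥ p` with the
  constant `1` along every `V W[lam]` — given the point form of depth `p` at ONE closed point
  `yInf` of a component `Winf` whose local ring `R yInf[lam]` is regular at the cusp of `σ₁`
  (`hcusp`, `hpt`: at a smooth point of the fibre this is the point form of `HDLocal.hd_smooth`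
  at `j = p` in the Eisenstein extension of the block ring).
-/

set_option autoImplicit false
set_option linter.unusedSectionVars false
set_option linter.unusedVariables false

open Polynomial IsLocalRing

namespace Fermat.Agent.S33.Geo.ZConstTop

open Fermat.Agent.S33.Geo.Top Fermat.Agent.S33.Geo.Model
open Fermat.Agent.S33.Geo.TameModel

universe u

/-- **Row Z3c, exit with the node comparison discharged.** -/
theorem tame_depth_one_top
    {O : Type*} [CommRing O] [IsDomain O] [IsDiscreteValuationRing O]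
    {F : Type u} [Field F] [Algebra O F]
    {O₁ : Type*} [CommRing O₁] [IsDomain O₁] [IsDiscreteValuationRing O₁] [Algebra O O₁]
    {F₁ : Type*} [Field F₁] [Algebra F F₁] [Algebra O₁ F₁]
    {p : ℕ} (hp : p.Prime) {ϖ : O} (hϖp : Associated ϖ (p : O))
    (hperf : ∀ a : O, ∃ b : O, ϖ ∣ a - b ^ p)
    {lam : O₁} (hlam : Irreducible lam) (hζ : (1 + lam) ^ p = 1)
    (hO₁ : ∀ a : O₁, ∃ P : O[X], a = P.eval₂ (algebraMap O O₁) lam)
    (hcomm : ∀ c : O, algebraMap F F₁ (algebraMap O F c) = algebraMap O₁ F₁ (algebraMap O O₁ c))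
    (hinj₁ : Function.Injective (algebraMap O₁ F₁))
    (hgen : Algebra.adjoin F {algebraMap O₁ F₁ lam} = ⊤)
    (hmin : ∀ G : F[X], aeval (algebraMap O₁ F₁ lam) G = 0 →
      (psi p).map (algebraMap ℤ F) ∣ G)
    {ι Y : Type*} {V : ι → Subring F} {R : Y → Subring F} {On : Y → ι → Prop} {Hor : F → Prop}
    (D : IsModel p ϖ V R On Hor)
    (f : F₁) (hf : f ≠ 0) (hHor : HorVal p lam f)
    (h1 : ∀ W, ∃ c : O₁, c ≠ 0 ∧ DepthIn (adj (algebraMap O₁ F₁ lam) (V W)) p lam 1 f c)
    {K₁ : Type*} [Field K₁] [Algebra O₁ K₁] [IsFractionRing O₁ K₁]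
    (σ₁ : F₁ →+* LaurentSeries K₁)
    (hσO : ∀ a : O₁, σ₁ (algebraMap O₁ F₁ a) = HahnSeries.C (algebraMap O₁ K₁ a))
    (yInf : Y) (Winf : ι)
    (hcusp : ∀ a ∈ adj (algebraMap O₁ F₁ lam) (R yInf), a ∈ ZCusp.cuspRing O₁ σ₁)
    (hpt : ∀ c : O₁, c ≠ 0 → DepthIn (adj (algebraMap O₁ F₁ lam) (V Winf)) p lam p f c →
      ∃ cy : O₁, cy ≠ 0 ∧ DepthIn (adj (algebraMap O₁ F₁ lam) (R yInf)) p lam p f cy ∧
        ConstRel p lam p cy c)
    (hlc : (σ₁ f).leadingCoeff = 1) :
    ∀ W, DepthIn (adj (algebraMap O₁ F₁ lam) (V W)) p lam p f 1 := by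
  have hO₁V : ∀ W (a : O₁), algebraMap O₁ F₁ a ∈ adj (algebraMap O₁ F₁ lam) (V W) := by
    intro W a
    obtain ⟨P, rfl⟩ := hO₁ a
    rw [Polynomial.hom_eval₂, eval₂_eq_sum_range]
    refine Subring.sum_mem _ fun i _ =>
      Subring.mul_mem _ ?_ (Subring.pow_mem _ (lam_mem_adj _ _) i)
    rw [RingHom.comp_apply, ← hcomm]
    exact algebraMap_mem_adj _ _ (D.constV W _)
  obtain ⟨c, hc, hDc⟩ := TameTop.tame_depth_const hp hϖp hperf hlam hζ hO₁ hcomm hinj₁ hgen hmin
    D f hf hHor h1
  obtain ⟨cy, -, hDy, hrel⟩ := hpt c hc (hDc Winf)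
  exact ZConst.depth_one_of_const σ₁ hσO hinj₁ hlam.not_isUnit hp.ne_zero hO₁V hcusp hDc hDy
    hrel hlc

end Fermat.Agent.S33.Geo.ZConstTop
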