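import Mathlib
import Fermat.Agent.S33.Geo.ZConstTop
import Fermat.Agent.S33.Geo.TameTopSmooth

/-!
# S33 / GEO / row Z3c, exit: constant ONE on every component, from a smooth block at the cusp

Level-free; fix-forward of `S33/Geo/ZConstTop` (exit `tame_depth_one_top`, with the point form
at the cusp point as a hypothesis `hpt`).  With `TameTopSmooth.form_smooth_tame_top` (the point
form of depth `p` over `O₁ = O[ζ_p]` at a `SmoothBlock` presentation of the model over `O`)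
the hypothesis `hpt` becomes "the block at `yInf` is a smooth block on the component `Winf`":

* `perf_of_perf` : the residue field of `O₁ = O[lam]` is perfect if that of `O` is
  (`lam ∣ ϖ`);
* `tame_depth_one_smooth` : **the exit of row Z3c.**  Binders of `TameDepth.tame_depth`; `σ₁` a
  `q`-expansion of `F₁` with coefficients in `K₁ = Frac O₁`.  If `f ∈ F₁ˣ` is horizontal
  (`TameModel.HorVal`), has depth `≥ 1` along every `V W[lam]` and leading coefficient `1`, and
  the model has a smooth block at a closed point `yInf` whose local ring `R yInf[lam]` is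
  regular at the cusp of `σ₁`, then `f` has depth `≥ p` with the constant `1` along every
  `V W[lam]`.
-/

set_option autoImplicit false
set_option linter.unusedSectionVars false
set_option linter.unusedVariables false
set_option linter.style.haveILetI false

open Polynomial IsLocalRing

namespace Fermat.Agent.S33.Geo.ZConstPt

open Fermat.Agent.S33.Geo.Top Fermat.Agent.S33.Geo.Model
open Fermat.Agent.S33.Geo.TameModel

universe u

/-- The residue field of `O₁ = O[lam]` is perfect if that of `O` is and `lam ∣ ϖ`. -/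
theorem perf_of_perf {O O₁ : Type*} [CommRing O] [CommRing O₁] [Algebra O O₁] {p : ℕ} {ϖ : O}
    (hperf : ∀ a : O, ∃ b : O, ϖ ∣ a - b ^ p) {lam : O₁}
    (hO₁ : ∀ a : O₁, ∃ P : O[X], a = P.eval₂ (algebraMap O O₁) lam)
    (hϖlam : lam ∣ algebraMap O O₁ ϖ) : ∀ a : O₁, ∃ b : O₁, lam ∣ a - b ^ p := by
  intro a
  obtain ⟨P, rfl⟩ := hO₁ a
  obtain ⟨b, hb⟩ := hperf (P.coeff 0)
  refine ⟨algebraMap O O₁ b, ?_⟩
  have h1 : P.eval₂ (algebraMap O O₁) lam = algebraMap O O₁ (P.coeff 0)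
      + lam * P.divX.eval₂ (algebraMap O O₁) lam := by
    conv_lhs => rw [← X_mul_divX_add P]
    rw [eval₂_add, eval₂_mul, eval₂_X, eval₂_C, add_comm]
  have h2 : lam ∣ algebraMap O O₁ (P.coeff 0 - b ^ p) := hϖlam.trans (map_dvd _ hb)
  rw [map_sub, map_pow] at h2
  have h3 : P.eval₂ (algebraMap O O₁) lam - algebraMap O O₁ b ^ p
      = (algebraMap O O₁ (P.coeff 0) - algebraMap O O₁ b ^ p)
        + lam * P.divX.eval₂ (algebraMap O O₁) lam := by
    rw [h1]
    ring
  rw [h3]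
  exact dvd_add h2 (dvd_mul_right _ _)

/-- **Row Z3c, exit: depth `p` with the constant `1` over `O₁ = O[ζ_p]` on a model over `O`
with a smooth block at the cusp point.** -/
theorem tame_depth_one_smooth
    {O : Type*} [CommRing O] [IsDomain O] [IsDiscreteValuationRing O]
    {F : Type u} [Field F] [Algebra O F]
    {O₁ : Type*} [CommRing O₁] [IsDomain O₁] [IsDiscreteValuationRing O₁] [Algebra O O₁]
    {F₁ : Type*} [Field F₁] [Algebra F F₁] [Algebra O₁ F₁]
    {p : ℕ} (hp : p.Prime) {ϖ : O} (hϖp : Associated ϖ (p : O))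
    (hperf : ∀ a : O, ∃ b : O, ϖ ∣ a - b ^ p)
    {lam : O₁} (hlam : Irreducible lam) (hζ : (1 + lam) ^ p = 1)
    (hO₁ : ∀ a : O₁, ∃ P : O[X], a = P.eval₂ (algebraMap O O₁) lam)
    (hcomm : ∀ c : O, algebraMap F F₁ (algebraMap O F c) = algebraMap O₁ F₁ (algebraMap O O₁ c))
    (hinj₁ : Function.Injective (algebraMap O₁ F₁))
    (hgen : Algebra.adjoin F {algebraMap O₁ F₁ lam} = ⊤)
    (hmin : ∀ G : F[X], aeval (algebraMap O₁ F₁ lam) G = 0 →
      (psi p).map (algebraMap ℤ F) ∣ G)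
    {ι Y : Type*} {V : ι → Subring F} {R : Y → Subring F} {On : Y → ι → Prop} {Hor : F → Prop}
    (D : IsModel p ϖ V R On Hor)
    (f : F₁) (hf : f ≠ 0) (hHor : HorVal p lam f)
    (h1 : ∀ W, ∃ c : O₁, c ≠ 0 ∧ DepthIn (adj (algebraMap O₁ F₁ lam) (V W)) p lam 1 f c)
    {K₁ : Type*} [Field K₁] [Algebra O₁ K₁] [IsFractionRing O₁ K₁]
    (σ₁ : F₁ →+* LaurentSeries K₁)
    (hσO : ∀ a : O₁, σ₁ (algebraMap O₁ F₁ a) = HahnSeries.C (algebraMap O₁ K₁ a))
    (yInf : Y) (Winf : ι) {Hor' : F → Prop}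
    (hsm : SmoothBlock p ϖ Hor' (R yInf) (V Winf))
    (hcusp : ∀ a ∈ adj (algebraMap O₁ F₁ lam) (R yInf), a ∈ ZCusp.cuspRing O₁ σ₁)
    (hlc : (σ₁ f).leadingCoeff = 1) :
    ∀ W, DepthIn (adj (algebraMap O₁ F₁ lam) (V W)) p lam p f 1 := by
  haveI : Fact p.Prime := ⟨hp⟩
  have hlp : lam ∣ (p : O₁) := dvd_p_of_root p hlam.ne_zero hζ
  have hϖlam : lam ∣ algebraMap O O₁ ϖ := by
    obtain ⟨u₂, hu₂⟩ := hϖp
    have h1 : (p : O₁) = algebraMap O O₁ ϖ * algebraMap O O₁ (u₂ : O) := by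
      rw [← map_mul, hu₂, map_natCast]
    have h2 : IsUnit (algebraMap O O₁ (u₂ : O)) := u₂.isUnit.map _
    rw [h1] at hlp
    exact (IsUnit.dvd_mul_right h2).mp hlp
  have hperf₁ : ∀ a : O₁, ∃ b : O₁, lam ∣ a - b ^ p := perf_of_perf hperf hO₁ hϖlam
  have hO₁V : ∀ W (a : O₁), algebraMap O₁ F₁ a ∈ adj (algebraMap O₁ F₁ lam) (V W) := by
    intro W a
    obtain ⟨P, rfl⟩ := hO₁ a
    rw [Polynomial.hom_eval₂, eval₂_eq_sum_range]
    refine Subring.sum_mem _ fun i _ =>
      Subring.mul_mem _ ?_ (Subring.pow_mem _ (lam_mem_adj _ _) i)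
    rw [RingHom.comp_apply, ← hcomm]
    exact algebraMap_mem_adj _ _ (D.constV W _)
  obtain ⟨A, _, _, _, _, _, _, _, _, hrange, -, hϖA, z, hm, hV₁⟩ := hsm
  refine ZConstTop.tame_depth_one_top hp hϖp hperf hlam hζ hO₁ hcomm hinj₁ hgen hmin D f hf hHor
    h1 σ₁ hσO yInf Winf hcusp (fun c hc hDc => ?_) hlc
  have h := TameTopSmooth.form_smooth_tame_top hp hϖp hlam hζ hperf₁ hO₁ hcomm hinj₁ hgen hmin
    hϖA hm hV₁ (hO₁V Winf) hf hHor c hc hDc
  rwa [hrange] at h

end Fermat.Agent.S33.Geo.ZConstPt
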