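import Mathlib
import Fermat.Agent.S33.Geo.ZCuspInst
import Fermat.Agent.S33.Geo.ModelInstInf
import Fermat.Agent.S33.Geo.CoverFieldDefs
import Fermat.Agent.S33.Geo.TameModel

/-!
# S33 / GEO / Z3c: the two closed-point inputs of the constant clause at the cusp point

E-level composites for the assembly of row Z3 (`ZConstTop.tame_depth_one_top`), at the cusp
point `y∞ = ZCuspInst.yInf` of the level-`M q` model at `u₄`:

* `cusp_block_u4` : **the block at the cusp point is a smooth block** - `y∞` lies on exactly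
  one component `W₁` (`ptOn .. y∞ W ↔ W = W₁`), carries `Model.SmoothBlockI` with generic ring
  `VB W₁` (`ModelInstInf.block_inr_u4` at `y∞`), and its local ring lies in `ZCusp.cuspRing`;
  `cusp_block_u4_OE` over `O = OE A K`, `π = q` (binders of `ModelInstInf.block_inr_u4_OE`).
* `hcusp_u4` : **the hypothesis `hcusp` of `ZConst.tame_depth_one` / `ZConstTop`** over
  `K₁ = cyclo K ζ`: with `Algebra (LE N K) (LE N K₁) := (CoverFieldDefs.bcLE N K ζ).toAlgebra`,
  every element of `TameModel.adj (algebraMap O₁ F₁ lam) (ptR π U y∞)` is regular at the cusp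
  `∞` with value in `O₁ = OE A K₁` (`ZCuspPt.closure_le_cuspRing`), for every `lam : O₁`.
-/

set_option autoImplicit false
set_option linter.unusedSectionVars false
set_option linter.unusedVariables false
set_option linter.style.haveILetI false
set_option synthInstance.maxHeartbeats 400000
set_option maxHeartbeats 1000000

open ModularCurve Polynomial IntermediateField

noncomputable section

namespace Fermat.Agent.S33.Geo.ZCuspExit

open Fermat.Agent.S30 Fermat.Agent.S34 Fermat.Agent.S34.TwoPrimesGauss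
open Fermat.Agent.S36.PrinAt Fermat.Agent.S30.Model
open Fermat.Agent.S18.K1Defs Fermat.Agent.S18.K1Main
open Fermat.Agent.S34.TwoPrimesRank Fermat.Agent.S34.HauptU.Plug
open Fermat.Agent.S34.HauptU.LevelMAux
open Fermat.Agent.S36.Haupt4 Fermat.Agent.S36.LevelQInstAlt
open Fermat.Agent.S36.HorizAdapter Fermat.Agent.S36.CycloBase
open Fermat.Agent.S33.Geo.ChartPoints Fermat.Agent.S33.Geo.ZCusp Fermat.Agent.S33.Geo.ZCuspPt
open Fermat.Agent.S33.Geo.ZCuspInst Fermat.Agent.S33.Geo.CoverFieldDefs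

local notation "Qb" => AlgebraicClosure ℚ

/-! ### The smooth block at the cusp point -/

section Generic

variable (M q : ℕ) [NeZero M] [NeZero q] (E : IntermediateField ℚ Qb)
  {O : Type} [CommRing O] [IsDomain O] [IsDiscreteValuationRing O]
  [Algebra O E] [IsFractionRing O E]

/-- **The block at the cusp point `y∞`**: it lies on exactly one component `W₁`, carries a
smooth block with generic ring `VB W₁`, and its local ring consists of functions regular at the
cusp `∞` with value in `O`. -/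
theorem cusp_block_u4 (hq : q.Prime) (hodd : q ≠ 2) (hqM : ¬ q ∣ M) (h4 : 4 ∣ M)
    (h2 : IsUnit (2 : O)) (hFG : FinGaussC M O E) (π : O) (hπ : Irreducible π)
    (hchar : CharP (IsLocalRing.ResidueField O) q)
    (hσfrac : ∀ x : LE (M * q) E, sigmaHom (M * q) E x ∈ GaussDVR.fracField O E) (p : ℕ) :
    letI := algebraOL O E (LE (M * q) E)
    ∃ W₁ : Bool,
      (∀ W, ptOn π (alphaHom M q E (u4E M E h4))
        (Fermat.Agent.S33.Geo.GaussRings.VB M q E O hq hqM)
        (yInf M q E h4 π hπ.not_isUnit) W ↔ W = W₁) ∧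
      Fermat.Agent.S33.Geo.Model.SmoothBlockI p π
        (fun f => Horiz π p (alphaHom M q E (u4E M E h4)) f ∧
          Horiz π p (alphaHom M q E (u4E M E h4))⁻¹ f)
        (ptR π (alphaHom M q E (u4E M E h4)) (yInf M q E h4 π hπ.not_isUnit))
        (Fermat.Agent.S33.Geo.GaussRings.VB M q E O hq hqM W₁) ∧
      ∀ a : LE (M * q) E,
        a ∈ ptR π (alphaHom M q E (u4E M E h4)) (yInf M q E h4 π hπ.not_isUnit) →
          a ∈ cuspRing O (sigmaHom (M * q) E) := by
  letI := algebraOL O E (LE (M * q) E)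
  haveI := isScalarTower_OL O E (LE (M * q) E)
  obtain ⟨W₁, hW, hB⟩ := Fermat.Agent.S33.Geo.ModelInstInf.block_inr_u4 M q E hq hodd hqM h4 h2
    hFG π hπ hchar hσfrac p
    ⟨cuspIdeal (sigmaHom (M * q) E) (sigmaHom_algebraMap (M * q) E) (hinj_dvr E) (hint_dvr E)
        (alphaHom M q E (u4E M E h4))⁻¹ (s4_mem_cuspRing M q E h4),
      cuspIdeal_isMaximal (sigmaHom (M * q) E) (sigmaHom_algebraMap (M * q) E) (hinj_dvr E)
        (hint_dvr E) (alphaHom M q E (u4E M E h4))⁻¹ (s4_mem_cuspRing M q E h4),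
      unif_mem_cuspIdeal (sigmaHom (M * q) E) (sigmaHom_algebraMap (M * q) E) (hinj_dvr E)
        (hint_dvr E) (alphaHom M q E (u4E M E h4))⁻¹ (s4_mem_cuspRing M q E h4) π
        hπ.not_isUnit _ rfl,
      fun t ht => coord_mem_cuspIdeal (sigmaHom (M * q) E) (sigmaHom_algebraMap (M * q) E)
        (hinj_dvr E) (hint_dvr E) (alphaHom M q E (u4E M E h4))⁻¹ (s4_mem_cuspRing M q E h4)
        (coeff_zero_s4 M q E h4) t ht⟩
  exact ⟨W₁, hW, hB, ptR_yInf_le M q E h4 π hπ.not_isUnit⟩

end Generic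

section Arithmetic

variable (A : ValuationSubring Qb) (M q : ℕ) [NeZero M] [NeZero q]

/-- **The block at the cusp point, over `O = A ∩ K`, `π = q`** (binder block of
`ModelInstInf.block_inr_u4_OE`). -/
theorem cusp_block_u4_OE (hq : q.Prime) (hodd : q ≠ 2) (hqM : ¬ q ∣ M) (h4 : 4 ∣ M)
    (hA : A.LiesOverPrime q) (K : IntermediateField ℚ Qb) [FiniteDimensional ℚ K]
    [IsDiscreteValuationRing (OE A K)] (z : Qb) (hz : IsPrimitiveRoot z M) (hzK : z ∈ K)
    (hπ : Irreducible ((q : ℕ) : OE A K)) :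
    letI := algebraOL (OE A K) K (LE (M * q) K)
    ∃ W₁ : Bool,
      (∀ W, ptOn ((q : ℕ) : OE A K) (alphaHom M q K (u4E M K h4))
        (Fermat.Agent.S33.Geo.GaussRings.VB M q K (OE A K) hq hqM)
        (yInf M q K h4 ((q : ℕ) : OE A K) hπ.not_isUnit) W ↔ W = W₁) ∧
      Fermat.Agent.S33.Geo.Model.SmoothBlockI q ((q : ℕ) : OE A K)
        (fun f => Horiz ((q : ℕ) : OE A K) q (alphaHom M q K (u4E M K h4)) f ∧
          Horiz ((q : ℕ) : OE A K) q (alphaHom M q K (u4E M K h4))⁻¹ f)
        (ptR ((q : ℕ) : OE A K) (alphaHom M q K (u4E M K h4))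
          (yInf M q K h4 ((q : ℕ) : OE A K) hπ.not_isUnit))
        (Fermat.Agent.S33.Geo.GaussRings.VB M q K (OE A K) hq hqM W₁) ∧
      ∀ a : LE (M * q) K,
        a ∈ ptR ((q : ℕ) : OE A K) (alphaHom M q K (u4E M K h4))
          (yInf M q K h4 ((q : ℕ) : OE A K) hπ.not_isUnit) →
          a ∈ cuspRing (OE A K) (sigmaHom (M * q) K) := by
  haveI : Fact q.Prime := ⟨hq⟩
  exact cusp_block_u4 (O := OE A K) M q K hq hodd hqM h4 (isUnit_two_OE A hA hodd K)
    (Fermat.Agent.S36.Haupt4.Fibre.finGaussC_OE A M hqM hA K z hz hzK) ((q : ℕ) : OE A K) hπ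
    (Fermat.Agent.S34.Sat.charP_residue_OE' A K hq hA)
    (sigmaHom_mem_fracField (M * q) K A) q

/-! ### `hcusp` over `K₁ = K(ζ)` -/

/-- **The hypothesis `hcusp` of `ZConst.tame_depth_one` / `ZConstTop.tame_depth_one_top`** at
the cusp point: over `K₁ = cyclo K ζ`, `O₁ = OE A K₁`, with the base change
`CoverFieldDefs.bcLE` as the algebra structure `LE N K → LE N K₁`, every element of
`(ptR π U y∞)[lam]` is regular at the cusp `∞` with value in `O₁`. -/
theorem hcusp_u4 (h4 : 4 ∣ M) (K : IntermediateField ℚ Qb) [IsDiscreteValuationRing (OE A K)]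
    (ζ : Qb) (π : OE A K) (hπ : ¬ IsUnit π) (lam : OE A (cyclo K ζ)) :
    letI := algebraOL (OE A K) K (LE (M * q) K)
    letI := algebraOL (OE A (cyclo K ζ)) (cyclo K ζ) (LE (M * q) (cyclo K ζ))
    letI : Algebra (LE (M * q) K) (LE (M * q) (cyclo K ζ)) := (bcLE (M * q) K ζ).toAlgebra
    ∀ a : LE (M * q) (cyclo K ζ),
      a ∈ Fermat.Agent.S33.Geo.TameModel.adj
          (algebraMap (OE A (cyclo K ζ)) (LE (M * q) (cyclo K ζ)) lam)
          (ptR π (alphaHom M q K (u4E M K h4)) (yInf M q K h4 π hπ)) →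
        a ∈ cuspRing (OE A (cyclo K ζ)) (sigmaHom (M * q) (cyclo K ζ)) := by
  letI := algebraOL (OE A K) K (LE (M * q) K)
  letI := algebraOL (OE A (cyclo K ζ)) (cyclo K ζ) (LE (M * q) (cyclo K ζ))
  haveI := isScalarTower_OL (OE A (cyclo K ζ)) (cyclo K ζ) (LE (M * q) (cyclo K ζ))
  letI : Algebra (LE (M * q) K) (LE (M * q) (cyclo K ζ)) := (bcLE (M * q) K ζ).toAlgebra
  intro a ha
  exact closure_le_cuspRing (sigmaHom (M * q) K) (sigmaHom (M * q) (cyclo K ζ))
    (sigmaHom_algebraMap (M * q) (cyclo K ζ)) (inclE (le_cyclo K ζ))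
    (fun x n => rfl) (fun c => ⟨inclOE A (le_cyclo K ζ) c, rfl⟩) lam
    (ptR π (alphaHom M q K (u4E M K h4)) (yInf M q K h4 π hπ))
    (ptR_yInf_le M q K h4 π hπ) a ha

end Arithmetic

end Fermat.Agent.S33.Geo.ZCuspExit
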