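import Mathlib
import Fermat.Agent.S33.Geo.ZDepthInst
import Fermat.Agent.S33.Geo.ModelInst
import Fermat.Agent.S33.Geo.SwapUnique

/-!
# S33 / GEO / Stage B, row Z3: the depth-`p` exit over `K₁ = K(ζ_p)` as a THEOREM

`S33/Geo/ZDepthInst.zdepth_adj` takes any model of `LE (M p) K` over `O = A ∩ K` on the two
Gauss rings covering the charts of `α u₄`.  The model of record is now a theorem
(`ModelInstGlob.isModelI_u4_of_blocks` + `ModelInst.block_u4` + `ChartPoints.coversCusp_pt`), so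
the exit of row Z3 has no hypothesis left:

* `zdepth_u4` : for `K` a number field inside the inertia field of `A` containing a primitive
  `M`-th root of unity (`4 ∣ M`, `p` odd, `p ∤ M`), every nonzero `y ∈ LE (M p) K(ζ_p)` with
  leading coefficient `1`, divisor divisible by `p`, `1`-trivial at the Gauss valuation together
  with its swap, is `g ^ p * (1 + λ ^ p r)` with `r ∈ V W[λ]`, on both components `W`;
* `zdepth_u4_gauss` : the same read on the Gauss rings of `LE (M p) K(ζ_p)`;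
* `ZOut` : the exit predicate for a finite family (the `ZOut` of the C8 glue), in the literal
  consumed by `CoverUnrInst.hN_of_rows` / `hS_of_rows` (binder `hZ`);
* `zRow` : **row `hZ`** for every swap of the contract.
-/

set_option autoImplicit false
set_option linter.unusedSectionVars false
set_option linter.unusedVariables false
set_option linter.style.haveILetI false
set_option synthInstance.maxHeartbeats 400000
set_option maxHeartbeats 1000000

open ModularCurve Polynomial

noncomputable section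

namespace Fermat.Agent.S33.Geo.ZDepthRow

open Fermat.Agent.S18.K1Defs Fermat.Agent.S18.K1Main Fermat.Agent.S30
open Fermat.Agent.S30.Producer
open Fermat.Agent.S34.TwoPrimesRank Fermat.Agent.S34.HauptU.Plug Fermat.Agent.S36.Haupt4
open Fermat.Agent.S36.CycloBase Fermat.Agent.S36.UnramBase Fermat.Agent.S36.InvFun
open Fermat.Agent.S33.Geo.Contract Fermat.Agent.S33.Geo.GaussRings
open Fermat.Agent.S33.Geo.CoverFieldDefs Fermat.Agent.S33.Geo.CycloLE
open Fermat.Agent.S33.Geo.ZDepthInst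

local notation "Qb" => AlgebraicClosure ℚ

section Main

variable (A : ValuationSubring Qb) (M p : ℕ) [NeZero M] [NeZero p]
  (hp : p.Prime) (hodd : p ≠ 2) (hpM : ¬ p ∣ M) (h4 : 4 ∣ M) (hA : A.LiesOverPrime p)
  (K : IntermediateField ℚ Qb) [FiniteDimensional ℚ K]
  (hK : A.inertiaSubgroupIn ℚ ≤ K.fixingSubgroup) [IsDiscreteValuationRing (OE A K)]
  (z : Qb) (hz : IsPrimitiveRoot z M) (hzK : z ∈ K)
  {ζ : Qb} (hζ : IsPrimitiveRoot ζ p)

include hodd h4 hA hK hz hzK in
/-- **Row Z3 as a theorem, on `V W[λ]`.**  Over `K₁ = K(ζ_p)`, `K` inside the inertia field of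
`A` with a primitive `M`-th root of unity: a nonzero `y ∈ LE (M p) K₁` with leading coefficient
`1`, divisor divisible by `p`, `1`-trivial at the Gauss valuation together with its swap, has
depth `≥ p` with respect to `λ = ζ_p - 1` with the constant `1` along `V∞[λ]` and `V0[λ]`. -/
theorem zdepth_u4 (y : LE (M * p) (cyclo K ζ)) (hy : y ≠ 0)
    (hlc : (sigmaHom (M * p) (cyclo K ζ) y).leadingCoeff = 1)
    (hdiv : E4.DivBy (M * p) p (upF (M * p) (cyclo K ζ) y))
    (ht : TrivAt (M * p) A p 1 (upF (M * p) (cyclo K ζ) y))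
    (htw : TrivAt (M * p) A p 1
      (Fermat.Agent.S34.ToricSwap.wAL M p hp hpM (upF (M * p) (cyclo K ζ) y))) :
    letI := algebraOL (OE A (cyclo K ζ)) (cyclo K ζ) (LE (M * p) (cyclo K ζ))
    letI := algebraBC K ζ (M * p)
    ∀ W : Bool, Fermat.Agent.S33.Geo.Top.DepthIn
      (Fermat.Agent.S33.Geo.TameModel.adj
        (algebraMap (OE A (cyclo K ζ)) (LE (M * p) (cyclo K ζ)) (lam A hp K hζ))
        (VB M p K (OE A K) hp hpM W)) p (lam A hp K hζ) p y 1 := by
  haveI : IsDiscreteValuationRing (OE A (cyclo K ζ)) :=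
    Fermat.Agent.S30.GaussDescent.isDiscreteValuationRing_OE A (cyclo K ζ) hp hA
  letI aO : Algebra (OE A K) (LE (M * p) K) := algebraOL (OE A K) K (LE (M * p) K)
  have hπ : Irreducible ((p : ℕ) : OE A K) := irreducible_natCast_OE A K hp hA hK
  have D := (Fermat.Agent.S33.Geo.ModelInstGlob.isModelI_u4_of_blocks A M p hp hodd hpM h4 hA K
    z hz hzK hπ _
    (Fermat.Agent.S33.Geo.ModelInst.block_u4 A M p hp hodd hpM h4 hA K z hz hzK hπ)).isModel
  exact zdepth_adj A M p hp hpM h4 hA K hK hζ _ _ _ D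
    (Fermat.Agent.S33.Geo.ChartPoints.coversCusp_pt _ _) y hy hlc hdiv ht htw

include hodd h4 hA hK hz hzK in
/-- **Row Z3 as a theorem, on the Gauss rings of `LE (M p) K₁`.** -/
theorem zdepth_u4_gauss [IsDiscreteValuationRing (OE A (cyclo K ζ))]
    (y : LE (M * p) (cyclo K ζ)) (hy : y ≠ 0)
    (hlc : (sigmaHom (M * p) (cyclo K ζ) y).leadingCoeff = 1)
    (hdiv : E4.DivBy (M * p) p (upF (M * p) (cyclo K ζ) y))
    (ht : TrivAt (M * p) A p 1 (upF (M * p) (cyclo K ζ) y))
    (htw : TrivAt (M * p) A p 1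
      (Fermat.Agent.S34.ToricSwap.wAL M p hp hpM (upF (M * p) (cyclo K ζ) y))) :
    letI := algebraOL (OE A (cyclo K ζ)) (cyclo K ζ) (LE (M * p) (cyclo K ζ))
    Fermat.Agent.S33.Geo.Top.DepthIn (VInf (M * p) (cyclo K ζ) (OE A (cyclo K ζ))) p
        (lam A hp K hζ) p y 1 ∧
      Fermat.Agent.S33.Geo.Top.DepthIn (VZero M p (cyclo K ζ) (OE A (cyclo K ζ)) hp hpM) p
        (lam A hp K hζ) p y 1 := by
  letI aO : Algebra (OE A K) (LE (M * p) K) := algebraOL (OE A K) K (LE (M * p) K)
  have hπ : Irreducible ((p : ℕ) : OE A K) := irreducible_natCast_OE A K hp hA hK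
  have D := (Fermat.Agent.S33.Geo.ModelInstGlob.isModelI_u4_of_blocks A M p hp hodd hpM h4 hA K
    z hz hzK hπ _
    (Fermat.Agent.S33.Geo.ModelInst.block_u4 A M p hp hodd hpM h4 hA K z hz hzK hπ)).isModel
  exact zdepth_exit A M p hp hpM h4 hA K hK hζ _ _ _ D
    (Fermat.Agent.S33.Geo.ChartPoints.coversCusp_pt _ _) y hy hlc hdiv ht htw

end Main

/-! ### The row in the form of the C8 glue -/

/-- **The exit predicate of row Z3** for a finite family `y₁` over `K₁ = K(ζ)`: every member has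
depth `≥ p` with respect to `λ = ζ - 1` with the constant `1` along `V∞[λ]` and `V0[λ]`
(the binder `hZ` of `CoverUnrInst.hN_of_rows` at `V := GaussRings.VB M p K (OE A K) hp hpM`). -/
def ZOut (M p : ℕ) [NeZero M] [NeZero p] (hp : p.Prime) (hpM : ¬ p ∣ M)
    (A : ValuationSubring Qb) (K : IntermediateField ℚ Qb) (ζ : Qb) (n : ℕ)
    (y₁ : Fin n → LE (M * p) (cyclo K ζ)) : Prop :=
  ∀ [IsDiscreteValuationRing (OE A K)] (hζ : IsPrimitiveRoot ζ p),
    letI := algebraOL (OE A (cyclo K ζ)) (cyclo K ζ) (LE (M * p) (cyclo K ζ))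
    letI := algebraBC K ζ (M * p)
    ∀ (W : Bool) (i : Fin n), Fermat.Agent.S33.Geo.Top.DepthIn
      (Fermat.Agent.S33.Geo.TameModel.adj
        (algebraMap (OE A (cyclo K ζ)) (LE (M * p) (cyclo K ζ)) (lam A hp K hζ))
        (VB M p K (OE A K) hp hpM W)) p (lam A hp K hζ) p (y₁ i) 1

/-- **Row `hZ` of the C8 glue**, for every swap of the contract: over a number field `K` inside
the inertia field of `A` containing a primitive `M`-th root of unity, a finite family of nonzero
functions of `LE (M p) K(ζ_p)` with leading coefficient `1`, divisor divisible by `p`,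
`1`-trivial at the Gauss valuation together with their swaps, satisfies `ZOut`. -/
theorem zRow (A : ValuationSubring Qb) (M p : ℕ) [NeZero M] [NeZero p]
    (hp : p.Prime) (hodd : p ≠ 2) (hpM : ¬ p ∣ M) (h4 : 4 ∣ M) (hA : A.LiesOverPrime p)
    (w : FN (M * p) ≃ₐ[Qb] FN (M * p)) (hw : IsSwap M p w)
    (K : IntermediateField ℚ Qb) [FiniteDimensional ℚ K]
    [IsDiscreteValuationRing (OE A K)] (hK : A.inertiaSubgroupIn ℚ ≤ K.fixingSubgroup)
    (z : Qb) (hz : IsPrimitiveRoot z M) (hzK : z ∈ K)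
    (ζ : Qb) (hζ : IsPrimitiveRoot ζ p) (n : ℕ) (y₁ : Fin n → LE (M * p) (cyclo K ζ))
    (h0 : ∀ i, y₁ i ≠ 0)
    (hlc : ∀ i, ((y₁ i : LE (M * p) (cyclo K ζ)) : LaurentSeries (cyclo K ζ)).leadingCoeff = 1)
    (hdiv : ∀ i, E4.DivBy (M * p) p (upF (M * p) (cyclo K ζ) (y₁ i)))
    (ht : ∀ i, TrivAt (M * p) A p 1 (upF (M * p) (cyclo K ζ) (y₁ i)))
    (htw : ∀ i, TrivAt (M * p) A p 1 (w (upF (M * p) (cyclo K ζ) (y₁ i)))) :
    ZOut M p hp hpM A K ζ n y₁ := by
  intro _ hζ' W i
  have htw' := htw i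
  rw [Fermat.Agent.S33.Geo.SwapUnique.isSwap_eq_wAL hp hpM hw] at htw'
  exact zdepth_u4 A M p hp hodd hpM h4 hA K hK z hz hzK hζ' (y₁ i) (h0 i) (hlc i) (hdiv i)
    (ht i) htw' W

end Fermat.Agent.S33.Geo.ZDepthRow
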